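import Fermat.Agent.TwoAdic.Hesse

set_option autoImplicit false

/-!
# Congruence modulo 3 of the traces of Frobenius in the Hesse pencil
-/

open WeierstrassCurve WeierstrassCurve.Affine WeierstrassCurve.Affine.Point
open Fermat.Agent.Icosa Fermat.Agent.Schoof Fermat.Agent.Switch

namespace Fermat.Agent.TwoAdic

section

variable {F : Type*} [Field F] [Fintype F]

theorem Im.frob {K : Type*} [Field K] [Algebra F K] [DecidableEq K] {c4 c6 l m C4 C6 : F}
    {P : ((cur 0 (-27 * c4) (-54 * c6))⁄K).Point} {P' : ((cur 0 (-27 * C4) (-54 * C6))⁄K).Point}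
    (h : Im ((cur 0 (-27 * c4) (-54 * c6))⁄K) ((cur 0 (-27 * C4) (-54 * C6))⁄K)
      (algebraMap F K c4) (algebraMap F K c6) (algebraMap F K l) (algebraMap F K m) P P') :
    Im ((cur 0 (-27 * c4) (-54 * c6))⁄K) ((cur 0 (-27 * C4) (-54 * C6))⁄K)
      (algebraMap F K c4) (algebraMap F K c6) (algebraMap F K l) (algebraMap F K m)
      (Schoof.frob 0 (-27 * c4) (-54 * c6) K P) (Schoof.frob 0 (-27 * C4) (-54 * C6) K P') := by
  rcases h with ⟨rfl, rfl⟩ | ⟨x, y, h, h', hx, rfl, rfl⟩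
  · rw [_root_.map_zero, _root_.map_zero]; exact Im.zero
  · have e1 : fr F K (3 * hn (algebraMap F K c4) (algebraMap F K c6) (algebraMap F K l)
        (algebraMap F K m) x / hd (algebraMap F K l) (algebraMap F K m) x) =
        3 * hn (algebraMap F K c4) (algebraMap F K c6) (algebraMap F K l) (algebraMap F K m)
          (fr F K x) / hd (algebraMap F K l) (algebraMap F K m) (fr F K x) := by
      simp only [hn, hd, map_div₀, map_mul, map_sub, map_add, map_pow, map_ofNat, fr_algebraMap]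
    have e2 : fr F K (3 * hD (algebraMap F K c4) (algebraMap F K c6) (algebraMap F K l)
        (algebraMap F K m) * y / hd (algebraMap F K l) (algebraMap F K m) x) =
        3 * hD (algebraMap F K c4) (algebraMap F K c6) (algebraMap F K l) (algebraMap F K m) *
          (fr F K y) / hd (algebraMap F K l) (algebraMap F K m) (fr F K x) := by
      simp only [hD, hd, map_div₀, map_mul, map_sub, map_pow, map_ofNat, fr_algebraMap]
    have n1 : ((cur 0 (-27 * c4) (-54 * c6))⁄K).Nonsingular (fr F K x) (fr F K y) :=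
      (baseChange_nonsingular _ (FiniteField.frobeniusAlgHom F K).toRingHom.injective _ _).mpr h
    have n2 := (baseChange_nonsingular _
      (FiniteField.frobeniusAlgHom F K).toRingHom.injective _ _).mpr h'
    refine Or.inr ⟨fr F K x, fr F K y, n1, ?_, ?_, ?_, ?_⟩
    · rw [← e1, ← e2]; exact n2
    · have h5 := congrArg (fr F K) hx
      simpa only [tT, map_sub, map_mul, map_pow, map_ofNat, fr_algebraMap, _root_.map_zero] using h5
    · rw [Schoof.frob, Point.map_some]; rfl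
    · rw [Schoof.frob, Point.map_some, some.injEq]
      exact ⟨e1, e2⟩

/-- the graph as a subgroup -/
def graph {k : Type*} [Field k] [DecidableEq k] {W W' : WeierstrassCurve k} {c4 c6 l m : k}
    (h2 : (2 : k) ≠ 0) (h3 : (3 : k) ≠ 0) (hW : Sh W c4 c6)
    (hW' : Sh W' (hC4 c4 c6 l m) (hC6 c4 c6 l m)) (hdisc : c4^3 ≠ c6^2)
    (hDne : hD c4 c6 l m ≠ 0) : AddSubgroup (W.toAffine.Point × W'.toAffine.Point) where
  carrier := {p | Im W W' c4 c6 l m p.1 p.2}
  zero_mem' := Im.zero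
  add_mem' := fun hp hq => Im.add h2 h3 hW hW' hdisc hDne hp hq
  neg_mem' := fun hp => Im.neg hW hW' hp

/-- **Congruence modulo 3 of the traces of Frobenius in the Hesse pencil.** -/
theorem tr_congr_three (h2 : (2 : F) ≠ 0) (h3 : (3 : F) ≠ 0) {c4 c6 l m : F}
    (hd : c4 ^ 3 ≠ c6 ^ 2) (hd' : hC4 c4 c6 l m ^ 3 ≠ hC6 c4 c6 l m ^ 2) :
    (3 : ℤ) ∣ (tr 0 (-27 * hC4 c4 c6 l m) (-54 * hC6 c4 c6 l m) -
      tr 0 (-27 * c4) (-54 * c6)) := by
  classical
  let K := AlgebraicClosure F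
  let A := algebraMap F K
  have hA : Function.Injective A := A.injective
  have k2 : (2 : K) ≠ 0 := by
    intro h; apply h2; apply hA; rw [map_ofNat, h, _root_.map_zero]
  have k3 : (3 : K) ≠ 0 := by
    intro h; apply h3; apply hA; rw [map_ofNat, h, _root_.map_zero]
  have kd : (A c4) ^ 3 ≠ (A c6) ^ 2 := by
    rw [← map_pow, ← map_pow]
    exact fun h => hd (hA h)
  have hD0 : hD c4 c6 l m ≠ 0 := by
    intro h
    apply hd'
    have := hC_disc c4 c6 l m
    rw [h] at this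
    have h5 : hC4 c4 c6 l m ^ 3 - hC6 c4 c6 l m ^ 2 = 0 := by rw [this]; ring
    exact sub_eq_zero.mp h5
  have kD : hD (A c4) (A c6) (A l) (A m) ≠ 0 := by
    rw [← map_hD]
    intro h
    exact hD0 (hA (by rw [h, _root_.map_zero]))
  have hF : ringChar F ≠ 2 := by
    intro h
    apply h2
    have := (CharP.cast_eq_zero F (ringChar F))
    rw [h] at this
    exact_mod_cast this
  have hE := cur_elliptic h2 h3 hd
  have hE' := cur_elliptic h2 h3 hd'
  let W := ((cur 0 (-27 * c4) (-54 * c6))⁄K)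
  let W' := ((cur 0 (-27 * hC4 c4 c6 l m) (-54 * hC6 c4 c6 l m))⁄K)
  have hW : Sh W (A c4) (A c6) := sh_cur _ _
  have hW' : Sh W' (hC4 (A c4) (A c6) (A l) (A m)) (hC6 (A c4) (A c6) (A l) (A m)) := by
    rw [← map_hC4, ← map_hC6]
    exact sh_cur _ _
  -- a point of order 3
  obtain ⟨x, hx⟩ : ∃ x : K, tT (A c4) (A c6) x = 0 := by
    open Polynomial in
    obtain ⟨x, hx⟩ := IsAlgClosed.exists_root (X^4 - C (54 * A c4) * X^2 - C (216 * A c6) * X -
      C (243 * (A c4)^2) : K[X]) (by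
      have : (X^4 - C (54 * A c4) * X^2 - C (216 * A c6) * X -
        C (243 * (A c4)^2) : K[X]).degree = 4 := by compute_degree!
      rw [this]; norm_num)
    refine ⟨x, ?_⟩
    simpa [tT] using hx
  obtain ⟨y, hy⟩ := IsAlgClosed.exists_pow_nat_eq (x^3 - 27*(A c4)*x - 54*(A c6)) (n := 2) two_pos
  have hy0 := y_ne k2 k3 kd hx hy
  have hns : W.toAffine.Nonsingular x y := (nonsing_iff hW k2 hy0).mpr hy
  let P : W.toAffine.Point := .some x y hns
  let P' : W'.toAffine.Point := .some _ _ (nonsing_image k2 k3 hW' kd kD hx hy)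
  have hP : Im W W' (A c4) (A c6) (A l) (A m) P P' := Or.inr ⟨x, y, hns, _, hx, rfl, rfl⟩
  have hP1 := hP.frob
  have hP2 := hP1.frob
  set G := graph k2 k3 hW hW' kd kD with hG
  have m0 : (P, P') ∈ G := hP
  have m1 : ((Schoof.frob 0 (-27 * c4) (-54 * c6) K P : W.toAffine.Point),
    (Schoof.frob 0 (-27 * hC4 c4 c6 l m) (-54 * hC6 c4 c6 l m) K P' : W'.toAffine.Point)) ∈ G := hP1
  have m2 : ((Schoof.frob 0 (-27 * c4) (-54 * c6) K (Schoof.frob 0 (-27 * c4) (-54 * c6) K P) :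
      W.toAffine.Point),
    (Schoof.frob 0 (-27 * hC4 c4 c6 l m) (-54 * hC6 c4 c6 l m) K
      (Schoof.frob 0 (-27 * hC4 c4 c6 l m) (-54 * hC6 c4 c6 l m) K P') : W'.toAffine.Point)) ∈ G :=
    hP2
  obtain ⟨t, ht⟩ : ∃ t, t = tr 0 (-27 * c4) (-54 * c6) := ⟨_, rfl⟩
  obtain ⟨t', ht'⟩ : ∃ t', t' = tr 0 (-27 * hC4 c4 c6 l m) (-54 * hC6 c4 c6 l m) := ⟨_, rfl⟩
  have c1 := CH_eq_zero (a₂ := 0) (a₄ := -27 * c4) (a₆ := -54 * c6) hF K P
  have c2 := CH_eq_zero (a₂ := 0) (a₄ := -27 * hC4 c4 c6 l m) (a₆ := -54 * hC6 c4 c6 l m) hF K P'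
  rw [CH_apply, ← ht] at c1
  rw [CH_apply, ← ht'] at c2
  have m3 := G.zsmul_mem (G.add_mem (G.sub_mem m2 (G.zsmul_mem m1 t))
    (G.zsmul_mem m0 ((Fintype.card F : ℕ) : ℤ))) 2
  have m4 : Im W W' (A c4) (A c6) (A l) (A m) ((2 : ℤ) • (Schoof.frob 0 (-27 * c4) (-54 * c6) K
      (Schoof.frob 0 (-27 * c4) (-54 * c6) K P) - t • Schoof.frob 0 (-27 * c4) (-54 * c6) K P +
      ((Fintype.card F : ℕ) : ℤ) • P))
      ((2 : ℤ) • (Schoof.frob 0 (-27 * hC4 c4 c6 l m) (-54 * hC6 c4 c6 l m) K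
      (Schoof.frob 0 (-27 * hC4 c4 c6 l m) (-54 * hC6 c4 c6 l m) K P') -
      t • Schoof.frob 0 (-27 * hC4 c4 c6 l m) (-54 * hC6 c4 c6 l m) K P' +
      ((Fintype.card F : ℕ) : ℤ) • P')) := m3
  have m5 := m4.eq_zero_iff.mp c1
  have hR0 : Schoof.frob 0 (-27 * hC4 c4 c6 l m) (-54 * hC6 c4 c6 l m) K P' ≠ 0 := by
    intro h
    have h6 := hP1.eq_zero_iff.mpr h
    rw [Schoof.frob, Point.map_some] at h6
    exact some_ne_zero _ h6
  have hR3 := hP1.three' k3 hW' kD
  rw [← ht, ← ht']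
  set R := Schoof.frob 0 (-27 * hC4 c4 c6 l m) (-54 * hC6 c4 c6 l m) K P' with hR
  have m6 : (2 * (t' - t)) • R = 0 := by
    have : (2 * (t' - t)) • R = (2 : ℤ) • (Schoof.frob 0 (-27 * hC4 c4 c6 l m)
        (-54 * hC6 c4 c6 l m) K R - t • R + ((Fintype.card F : ℕ) : ℤ) • P') -
        (2 : ℤ) • (Schoof.frob 0 (-27 * hC4 c4 c6 l m)
        (-54 * hC6 c4 c6 l m) K R - t' • R + ((Fintype.card F : ℕ) : ℤ) • P') := by module
    rw [this, m5, c2, sub_zero]
  by_contra hcon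
  apply hR0
  have hcop : IsCoprime (3 : ℤ) (2 * (t' - t)) := by
    have h3p : Prime (3 : ℤ) := by norm_num
    refine (Prime.coprime_iff_not_dvd h3p).mpr fun h => ?_
    rcases h3p.dvd_or_dvd h with h | h
    · norm_num at h
    · exact hcon h
  obtain ⟨u, v, huv⟩ := hcop
  have : (1 : ℤ) • R = u • (3 : ℤ) • R + v • (2 * (t' - t)) • R := by
    rw [← huv]; module
  rw [one_smul, hR3, m6, smul_zero, smul_zero, add_zero] at this
  exact this

end

end Fermat.Agent.TwoAdic
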