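import Mathlib

/-!
# Normal forms of two dimensional representations with distinct eigenvalues at an element
-/

set_option autoImplicit false

namespace Fermat.Agent.TwoAdic

section Basic

variable {G : Type*} [Group G] {R : Type*} [CommRing R]

/-- `ρ g₀` is diagonal with distinct eigenvalues, `ρ j₀ 0 1 = 1` -/
structure IsNF (ρ : G →* Matrix (Fin 2) (Fin 2) R) (g₀ j₀ : G) : Prop where
  d01 : ρ g₀ 0 1 = 0
  d10 : ρ g₀ 1 0 = 0
  one : ρ j₀ 0 1 = 1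
  unit : IsUnit (ρ g₀ 0 0 - ρ g₀ 1 1)
  unit' : IsUnit (ρ j₀ 1 0)

theorem mul_apply2 (ρ : G →* Matrix (Fin 2) (Fin 2) R) (g h : G) (i j : Fin 2) :
    ρ (g * h) i j = ρ g i 0 * ρ h 0 j + ρ g i 1 * ρ h 1 j := by
  rw [map_mul, Matrix.mul_apply, Fin.sum_univ_two]

variable {ρ : G →* Matrix (Fin 2) (Fin 2) R} {g₀ j₀ : G}

theorem IsNF.apply00 (h : IsNF ρ g₀ j₀) (g : G) :
    (ρ g₀ 0 0 - ρ g₀ 1 1) * ρ g 0 0 = (ρ (g₀ * g)).trace - ρ g₀ 1 1 * (ρ g).trace := by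
  rw [Matrix.trace_fin_two, Matrix.trace_fin_two, mul_apply2, mul_apply2, h.d01, h.d10]
  ring

theorem IsNF.apply11 (_h : IsNF ρ g₀ j₀) (g : G) : ρ g 1 1 = (ρ g).trace - ρ g 0 0 := by
  rw [Matrix.trace_fin_two]; ring

theorem IsNF.apply10 (h : IsNF ρ g₀ j₀) (g : G) :
    ρ g 1 0 = ρ (j₀ * g) 0 0 - ρ j₀ 0 0 * ρ g 0 0 := by
  rw [mul_apply2, h.one]; ring

theorem IsNF.apply01 (_h : IsNF ρ g₀ j₀) (g : G) :
    ρ j₀ 1 0 * ρ g 0 1 = ρ (g * j₀) 0 0 - ρ g 0 0 * ρ j₀ 0 0 := by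
  rw [mul_apply2]; ring

/-- a subring closed under inverses -/
def InvClosed (S : Subring R) : Prop := ∀ x ∈ S, IsUnit x → ∃ y ∈ S, x * y = 1

theorem InvClosed.mem_of_mul_mem {S : Subring R} (hS : InvClosed S) {x y : R} (hx : x ∈ S)
    (hu : IsUnit x) (hxy : x * y ∈ S) : y ∈ S := by
  obtain ⟨z, hz, hxz⟩ := hS x hx hu
  have : y = z * (x * y) := by rw [← mul_assoc, mul_comm z x, hxz, one_mul]
  rw [this]
  exact S.mul_mem hz hxy

/-- all entries of a normal form lie in a subring containing the traces and an eigenvalue -/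
theorem IsNF.mem (h : IsNF ρ g₀ j₀) {S : Subring R} (hS : InvClosed S)
    (htr : ∀ g, (ρ g).trace ∈ S) (hα : ρ g₀ 0 0 ∈ S) (g : G) (i j : Fin 2) : ρ g i j ∈ S := by
  have hδ : ρ g₀ 1 1 ∈ S := by
    rw [h.apply11]; exact S.sub_mem (htr _) hα
  have h00 : ∀ g, ρ g 0 0 ∈ S := fun g => by
    refine hS.mem_of_mul_mem (S.sub_mem hα hδ) h.unit ?_
    rw [h.apply00]
    exact S.sub_mem (htr _) (S.mul_mem hδ (htr _))
  have h11 : ρ g 1 1 ∈ S := by
    rw [h.apply11]; exact S.sub_mem (htr _) (h00 _)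
  have h10 : ∀ g, ρ g 1 0 ∈ S := fun g => by
    rw [h.apply10]
    exact S.sub_mem (h00 _) (S.mul_mem (h00 _) (h00 _))
  have h01 : ρ g 0 1 ∈ S := by
    refine hS.mem_of_mul_mem (h10 j₀) h.unit' ?_
    rw [h.apply01]
    exact S.sub_mem (h00 _) (S.mul_mem (h00 _) (h00 _))
  fin_cases i <;> fin_cases j
  · exact h00 g
  · exact h01
  · exact h10 g
  · exact h11

/-- two normal forms with the same traces and the same eigenvalue coincide -/
theorem IsNF.ext {ρ' : G →* Matrix (Fin 2) (Fin 2) R} (h : IsNF ρ g₀ j₀) (h' : IsNF ρ' g₀ j₀)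
    (htr : ∀ g, (ρ g).trace = (ρ' g).trace) (hα : ρ g₀ 0 0 = ρ' g₀ 0 0) : ρ = ρ' := by
  have hδ : ρ g₀ 1 1 = ρ' g₀ 1 1 := by rw [h.apply11, h'.apply11, htr, hα]
  have h00 : ∀ g, ρ g 0 0 = ρ' g 0 0 := fun g => by
    apply h.unit.mul_left_cancel
    rw [h.apply00, htr, htr, hα, hδ, h'.apply00]
  have h11 : ∀ g, ρ g 1 1 = ρ' g 1 1 := fun g => by rw [h.apply11, h'.apply11, htr, h00]
  have h10 : ∀ g, ρ g 1 0 = ρ' g 1 0 := fun g => by
    rw [h.apply10, h'.apply10, h00, h00, h00]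
  have h01 : ∀ g, ρ g 0 1 = ρ' g 0 1 := fun g => by
    apply h.unit'.mul_left_cancel
    rw [h.apply01]
    rw [h10, h'.apply01, h00, h00, h00]
  ext g i j
  fin_cases i <;> fin_cases j
  · exact h00 g
  · exact h01 g
  · exact h10 g
  · exact h11 g

/-- change of coefficients -/
def repMap {R' : Type*} [CommRing R'] (f : R →+* R') (ρ : G →* Matrix (Fin 2) (Fin 2) R) :
    G →* Matrix (Fin 2) (Fin 2) R' :=
  (f.mapMatrix : Matrix (Fin 2) (Fin 2) R →+* _).toMonoidHom.comp ρ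

theorem repMap_apply {R' : Type*} [CommRing R'] (f : R →+* R')
    (ρ : G →* Matrix (Fin 2) (Fin 2) R) (g : G) : repMap f ρ g = (ρ g).map f := rfl

theorem repMap_apply_apply {R' : Type*} [CommRing R'] (f : R →+* R')
    (ρ : G →* Matrix (Fin 2) (Fin 2) R) (g : G) (i j : Fin 2) :
    repMap f ρ g i j = f (ρ g i j) := rfl

theorem repMap_trace {R' : Type*} [CommRing R'] (f : R →+* R')
    (ρ : G →* Matrix (Fin 2) (Fin 2) R) (g : G) : (repMap f ρ g).trace = f (ρ g).trace := by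
  rw [Matrix.trace_fin_two, Matrix.trace_fin_two, map_add]; rfl

theorem repMap_det {R' : Type*} [CommRing R'] (f : R →+* R')
    (ρ : G →* Matrix (Fin 2) (Fin 2) R) (g : G) : (repMap f ρ g).det = f (ρ g).det := by
  rw [Matrix.det_fin_two, Matrix.det_fin_two, map_sub, map_mul, map_mul]; rfl

theorem IsNF.map {R' : Type*} [CommRing R'] (f : R →+* R') (h : IsNF ρ g₀ j₀) :
    IsNF (repMap f ρ) g₀ j₀ where
  d01 := by
    change f (ρ g₀ 0 1) = 0
    rw [h.d01, map_zero]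
  d10 := by
    change f (ρ g₀ 1 0) = 0
    rw [h.d10, map_zero]
  one := by
    change f (ρ j₀ 0 1) = 1
    rw [h.one, map_one]
  unit := by
    change IsUnit (f (ρ g₀ 0 0) - f (ρ g₀ 1 1))
    rw [← map_sub]
    exact h.unit.map f
  unit' := h.unit'.map f

/-- conjugation -/
def conjRep (P : (Matrix (Fin 2) (Fin 2) R)ˣ) (ρ : G →* Matrix (Fin 2) (Fin 2) R) :
    G →* Matrix (Fin 2) (Fin 2) R where
  toFun g := (↑P⁻¹ : Matrix (Fin 2) (Fin 2) R) * ρ g * P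
  map_one' := by simp
  map_mul' g h := by
    rw [map_mul]
    simp only [mul_assoc]
    congr 2
    rw [← mul_assoc (P : Matrix (Fin 2) (Fin 2) R), Units.mul_inv, one_mul]

theorem conjRep_apply (P : (Matrix (Fin 2) (Fin 2) R)ˣ) (ρ : G →* Matrix (Fin 2) (Fin 2) R)
    (g : G) : conjRep P ρ g = (↑P⁻¹ : Matrix (Fin 2) (Fin 2) R) * ρ g * P := rfl

theorem conjRep_trace (P : (Matrix (Fin 2) (Fin 2) R)ˣ) (ρ : G →* Matrix (Fin 2) (Fin 2) R)
    (g : G) : (conjRep P ρ g).trace = (ρ g).trace := by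
  rw [conjRep_apply, mul_assoc, Matrix.trace_mul_comm, mul_assoc, Units.mul_inv, mul_one]

theorem conjRep_det (P : (Matrix (Fin 2) (Fin 2) R)ˣ) (ρ : G →* Matrix (Fin 2) (Fin 2) R)
    (g : G) : (conjRep P ρ g).det = (ρ g).det := by
  rw [conjRep_apply, Matrix.det_mul, Matrix.det_mul, mul_comm _ (ρ g).det, mul_assoc,
    ← Matrix.det_mul, Units.inv_mul, Matrix.det_one, mul_one]

end Basic

section Exists

variable {G : Type*} [Group G] {R : Type*} [CommRing R] [IsLocalRing R]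

/-- diagonalisation over a local ring -/
theorem exists_diag (M : Matrix (Fin 2) (Fin 2) R) (α δ : R) (ht : α + δ = M.trace)
    (hd : α * δ = M.det) (hu : IsUnit (α - δ)) :
    ∃ P : (Matrix (Fin 2) (Fin 2) R)ˣ, (↑P⁻¹ : Matrix (Fin 2) (Fin 2) R) * M * P =
      !![α, 0; 0, δ] := by
  rw [Matrix.trace_fin_two] at ht
  rw [Matrix.det_fin_two] at hd
  obtain ⟨v, hv⟩ := hu
  have hM00 : M 0 0 = α + δ - M 1 1 := by rw [ht]; ring
  -- it suffices to find an invertible matrix of eigenvectors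
  suffices h : ∃ P : Matrix (Fin 2) (Fin 2) R, IsUnit P.det ∧ M * P = P * !![α, 0; 0, δ] by
    obtain ⟨P, hP, hMP⟩ := h
    obtain ⟨P', rfl⟩ := (Matrix.isUnit_iff_isUnit_det P).mpr hP
    exact ⟨P', by rw [mul_assoc, hMP, ← mul_assoc, Units.inv_mul, one_mul]⟩
  -- `(M 0 0 - δ) + (M 1 1 - δ) = α - δ` is a unit
  have hsum : IsUnit ((M 0 0 - δ) + (M 1 1 - δ)) := by
    refine ⟨v, ?_⟩
    rw [hv, hM00]; ring
  rcases IsLocalRing.isUnit_or_isUnit_of_isUnit_add hsum with h1 | h1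
  · refine ⟨!![M 0 0 - δ, -M 0 1; M 1 0, M 0 0 - δ], ?_, ?_⟩
    · rw [Matrix.det_fin_two_of]
      have e : (M 0 0 - δ) * (M 0 0 - δ) - -M 0 1 * M 1 0 = (α - δ) * (M 0 0 - δ) := by
        linear_combination hd - M 0 0 * ht
      rw [e]
      exact (hv ▸ v.isUnit).mul h1
    · ext i j
      fin_cases i <;> fin_cases j
      · simp [Matrix.mul_apply, Fin.sum_univ_two]; linear_combination hd - M 0 0 * ht
      · simp [Matrix.mul_apply, Fin.sum_univ_two]; ring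
      · simp [Matrix.mul_apply, Fin.sum_univ_two]; linear_combination (-M 1 0) * ht
      · simp [Matrix.mul_apply, Fin.sum_univ_two]; linear_combination -hd + δ * ht
  · refine ⟨!![M 0 1, δ - M 1 1; M 1 1 - δ, M 1 0], ?_, ?_⟩
    · rw [Matrix.det_fin_two_of]
      have e : M 0 1 * M 1 0 - (δ - M 1 1) * (M 1 1 - δ) = (α - δ) * (M 1 1 - δ) := by
        linear_combination hd - M 1 1 * ht
      rw [e]
      exact (hv ▸ v.isUnit).mul h1
    · ext i j
      fin_cases i <;> fin_cases j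
      · simp [Matrix.mul_apply, Fin.sum_univ_two]; linear_combination (-M 0 1) * ht
      · simp [Matrix.mul_apply, Fin.sum_univ_two]; linear_combination hd - δ * ht
      · simp [Matrix.mul_apply, Fin.sum_univ_two]; linear_combination hd - M 1 1 * ht
      · simp [Matrix.mul_apply, Fin.sum_univ_two]; ring

/-- existence of normal forms over a local ring -/
theorem exists_isNF (ρ : G →* Matrix (Fin 2) (Fin 2) R) (g₀ j₀ : G) (α δ : R)
    (ht : α + δ = (ρ g₀).trace) (hd : α * δ = (ρ g₀).det) (hu : IsUnit (α - δ))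
    (hj : ∀ a a' : R, (α - δ) * a = (ρ (g₀ * j₀)).trace - δ * (ρ j₀).trace →
      (α - δ) * a' = (ρ (g₀ * (j₀ * j₀))).trace - δ * (ρ (j₀ * j₀)).trace →
      IsUnit (a' - a ^ 2)) :
    ∃ P : (Matrix (Fin 2) (Fin 2) R)ˣ, IsNF (conjRep P ρ) g₀ j₀ ∧ conjRep P ρ g₀ 0 0 = α := by
  obtain ⟨P, hP⟩ := exists_diag (ρ g₀) α δ ht hd hu
  set ρ₁ := conjRep P ρ with hρ₁
  have h00 : ρ₁ g₀ 0 0 = α := by rw [hρ₁, conjRep_apply, hP]; rfl
  have h01 : ρ₁ g₀ 0 1 = 0 := by rw [hρ₁, conjRep_apply, hP]; rfl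
  have h10 : ρ₁ g₀ 1 0 = 0 := by rw [hρ₁, conjRep_apply, hP]; rfl
  have h11 : ρ₁ g₀ 1 1 = δ := by rw [hρ₁, conjRep_apply, hP]; rfl
  have key : ∀ g, (α - δ) * ρ₁ g 0 0 = (ρ (g₀ * g)).trace - δ * (ρ g).trace := by
    intro g
    rw [← conjRep_trace P ρ, ← conjRep_trace P ρ, ← hρ₁, Matrix.trace_fin_two,
      Matrix.trace_fin_two, mul_apply2, mul_apply2, h01, h10, h00, h11]
    ring
  have hbc : ρ₁ (j₀ * j₀) 0 0 - (ρ₁ j₀ 0 0) ^ 2 = ρ₁ j₀ 0 1 * ρ₁ j₀ 1 0 := by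
    rw [mul_apply2]; ring
  have hunit : IsUnit (ρ₁ j₀ 0 1 * ρ₁ j₀ 1 0) := by
    rw [← hbc]
    exact hj _ _ (key _) (key _)
  obtain ⟨x, hx⟩ := isUnit_of_mul_isUnit_left hunit
  -- rescale
  let Q : (Matrix (Fin 2) (Fin 2) R)ˣ :=
    ⟨!![(x : R), 0; 0, 1], !![((x⁻¹ : Rˣ) : R), 0; 0, 1], by
      ext i j
      fin_cases i <;> fin_cases j <;> simp [Matrix.mul_apply, Fin.sum_univ_two], by
      ext i j
      fin_cases i <;> fin_cases j <;> simp [Matrix.mul_apply, Fin.sum_univ_two]⟩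
  have hconj : conjRep (P * Q) ρ = conjRep Q ρ₁ := by
    ext1 g
    rw [hρ₁, conjRep_apply, conjRep_apply, conjRep_apply, mul_inv_rev, Units.val_mul,
      Units.val_mul]
    simp only [mul_assoc]
  have hQ : ∀ g i j, conjRep Q ρ₁ g i j = (!![((x⁻¹ : Rˣ) : R), 0; 0, 1] * ρ₁ g *
      !![(x : R), 0; 0, 1] : Matrix (Fin 2) (Fin 2) R) i j := fun g i j => rfl
  have q00 : ∀ g, conjRep Q ρ₁ g 0 0 = ρ₁ g 0 0 := fun g => by
    rw [hQ]
    simp only [Matrix.mul_apply, Fin.sum_univ_two]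
    simp
    rw [mul_comm, ← mul_assoc, Units.mul_inv, one_mul]
  have q01 : ∀ g, conjRep Q ρ₁ g 0 1 = ((x⁻¹ : Rˣ) : R) * ρ₁ g 0 1 := fun g => by
    rw [hQ]
    simp only [Matrix.mul_apply, Fin.sum_univ_two]
    simp
  have q10 : ∀ g, conjRep Q ρ₁ g 1 0 = ρ₁ g 1 0 * x := fun g => by
    rw [hQ]
    simp only [Matrix.mul_apply, Fin.sum_univ_two]
    simp
  have q11 : ∀ g, conjRep Q ρ₁ g 1 1 = ρ₁ g 1 1 := fun g => by
    rw [hQ]
    simp only [Matrix.mul_apply, Fin.sum_univ_two]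
    simp
  refine ⟨P * Q, ?_, by rw [hconj, q00, h00]⟩
  rw [hconj]
  refine ⟨by rw [q01, h01, mul_zero], by rw [q10, h10, zero_mul], ?_, ?_, ?_⟩
  · rw [q01, ← hx, Units.inv_mul]
  · rw [q00, q11, h00, h11]; exact hu
  · rw [q10]
    exact (isUnit_of_mul_isUnit_right hunit).mul x.isUnit

end Exists

end Fermat.Agent.TwoAdic
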