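import Fermat.Agent.TwoAdic.Spec
import Fermat.Agent.TwoAdic.NormalForm

/-!
# Calculus of the Steinberg condition, unramifiedness and continuity
-/

set_option autoImplicit false

namespace Fermat.Agent.TwoAdic

local notation "Γℚ" => (AlgebraicClosure ℚ ≃ₐ[ℚ] AlgebraicClosure ℚ)

section Scalar

variable {R : Type*} [CommRing R]

/-- the entries of the expression in the Steinberg condition -/
noncomputable def starExpr (ρ : Γℚ →* Matrix (Fin 2) (Fin 2) R) (v : ℕ) (u : R) (g h : Γℚ)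
    (i j : Fin 2) : R :=
  ρ (g * h) i j - (ρ g).det * unr v u g * ρ h i j - unr v u h * ρ g i j +
          (ρ g).det * unr v u g * unr v u h * (1 : Matrix (Fin 2) (Fin 2) R) i j

theorem starAt_iff {ρ : Γℚ →* Matrix (Fin 2) (Fin 2) R} {v : ℕ} {u : R} :
    StarAt ρ v u ↔ ∀ P : ValuationSubring (AlgebraicClosure ℚ), P.LiesOverPrime v →
      ∀ g ∈ P.decompositionSubgroup ℚ, ∀ h ∈ P.decompositionSubgroup ℚ, ∀ i j,
        starExpr ρ v u g h i j = 0 := by
  have key : ∀ g h : Γℚ, (ρ g - Matrix.scalar (Fin 2) ((ρ g).det * unr v u g)) *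
        (ρ h - Matrix.scalar (Fin 2) (unr v u h)) = ρ (g * h) - ((ρ g).det * unr v u g) • ρ h -
          (unr v u h) • ρ g + ((ρ g).det * unr v u g * unr v u h) •
            (1 : Matrix (Fin 2) (Fin 2) R) := by
    intro g h
    have e : ∀ a : R, Matrix.scalar (Fin 2) a = a • (1 : Matrix (Fin 2) (Fin 2) R) := fun a => by
      rw [Matrix.smul_one_eq_diagonal]; rfl
    rw [e, e, map_mul, sub_mul, mul_sub, mul_sub, Matrix.mul_smul, mul_one, Matrix.smul_mul,
      one_mul, Matrix.smul_mul, one_mul, smul_smul]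
    abel
  unfold StarAt
  refine forall_congr' fun P => forall_congr' fun hP => forall_congr' fun g =>
    forall_congr' fun hg => forall_congr' fun h => forall_congr' fun hh => ?_
  rw [key, ← Matrix.ext_iff]
  rfl

variable {R' : Type*} [CommRing R'] (f : R →+* R')

theorem map_unr (v : ℕ) (u : R) (g : Γℚ) : f (unr v u g) = unr v (f u) g := by
  unfold unr
  split_ifs
  · exact map_one f
  · rfl

theorem map_one_apply (i j : Fin 2) : f ((1 : Matrix (Fin 2) (Fin 2) R) i j) =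
    (1 : Matrix (Fin 2) (Fin 2) R') i j := by
  rw [Matrix.one_apply, Matrix.one_apply]
  split_ifs
  · rw [map_one]
  · rw [map_zero]

theorem map_starExpr (ρ : Γℚ →* Matrix (Fin 2) (Fin 2) R) (v : ℕ) (u : R) (g h : Γℚ)
    (i j : Fin 2) : f (starExpr ρ v u g h i j) = starExpr (repMap f ρ) v (f u) g h i j := by
  have h0 : ∀ a b c d e k l m : R, f (a - b * c * d - e * k + b * c * l * m) =
      f a - f b * f c * f d - f e * f k + f b * f c * f l * f m := by
    intro a b c d e k l m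
    simp only [map_add, map_sub, map_mul]
  have h1 := h0 (ρ (g * h) i j) (ρ g).det (unr v u g) (ρ h i j) (unr v u h) (ρ g i j)
    (unr v u h) ((1 : Matrix (Fin 2) (Fin 2) R) i j)
  rw [map_unr, map_unr, map_one_apply, ← repMap_det] at h1
  exact h1

theorem StarAt.map {ρ : Γℚ →* Matrix (Fin 2) (Fin 2) R} {v : ℕ} {u : R} (h : StarAt ρ v u) :
    StarAt (repMap f ρ) v (f u) := by
  rw [starAt_iff] at h ⊢
  intro P hP g hg g' hg' i j
  rw [← map_starExpr, h P hP g hg g' hg' i j, map_zero]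

/-- the Steinberg condition can be checked on a jointly injective family of homomorphisms -/
theorem starAt_of_forall {I : Type*} {S : I → Type*} [∀ i, CommRing (S i)] (π : ∀ i, R →+* S i)
    (hπ : ∀ x, (∀ i, π i x = 0) → x = 0) {ρ : Γℚ →* Matrix (Fin 2) (Fin 2) R} {v : ℕ} {u : R}
    (h : ∀ i, StarAt (repMap (π i) ρ) v (π i u)) : StarAt ρ v u := by
  rw [starAt_iff]
  intro P hP g hg g' hg' a b
  apply hπ
  intro i
  rw [map_starExpr]
  exact starAt_iff.mp (h i) P hP g hg g' hg' a b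

theorem StarAt.conj {ρ : Γℚ →* Matrix (Fin 2) (Fin 2) R} {v : ℕ} {u : R} (h : StarAt ρ v u)
    (P : (Matrix (Fin 2) (Fin 2) R)ˣ) : StarAt (conjRep P ρ) v u := by
  intro A hA g hg g' hg'
  have h1 := h A hA g hg g' hg'
  have e : ∀ (a : R) (M : Matrix (Fin 2) (Fin 2) R),
      (↑P⁻¹ : Matrix (Fin 2) (Fin 2) R) * M * P - Matrix.scalar (Fin 2) a =
        (↑P⁻¹ : Matrix (Fin 2) (Fin 2) R) * (M - Matrix.scalar (Fin 2) a) * P := by
    intro a M
    have h2 : Matrix.scalar (Fin 2) a = a • (1 : Matrix (Fin 2) (Fin 2) R) := by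
      rw [Matrix.smul_one_eq_diagonal]; rfl
    rw [mul_sub, sub_mul, h2, Matrix.mul_smul, Matrix.smul_mul, mul_one, Units.inv_mul]
  rw [conjRep_det, conjRep_apply, conjRep_apply, e, e]
  calc _ = (↑P⁻¹ : Matrix (Fin 2) (Fin 2) R) *
      (ρ g - Matrix.scalar (Fin 2) ((ρ g).det * unr v u g)) * ((P : Matrix (Fin 2) (Fin 2) R) *
        (↑P⁻¹ : Matrix (Fin 2) (Fin 2) R)) * (ρ g' - Matrix.scalar (Fin 2) (unr v u g')) * P := by
        simp only [mul_assoc]
    _ = 0 := by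
        rw [Units.mul_inv, mul_one, mul_assoc (↑P⁻¹ : Matrix (Fin 2) (Fin 2) R), h1, mul_zero,
          zero_mul]

theorem UnrAt.map {ρ : Γℚ →* Matrix (Fin 2) (Fin 2) R} {v : ℕ} (h : UnrAt ρ v) :
    UnrAt (repMap f ρ) v := by
  intro P hP σ hσ
  rw [repMap_apply, h P hP σ hσ]
  exact (f.mapMatrix : Matrix (Fin 2) (Fin 2) R →+* _).map_one

theorem UnrAt.conj {ρ : Γℚ →* Matrix (Fin 2) (Fin 2) R} {v : ℕ} (h : UnrAt ρ v)
    (P : (Matrix (Fin 2) (Fin 2) R)ˣ) : UnrAt (conjRep P ρ) v := by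
  intro A hA σ hσ
  rw [conjRep_apply, h A hA σ hσ, mul_one, Units.inv_mul]

theorem unrAt_of_forall {I : Type*} {S : I → Type*} [∀ i, CommRing (S i)] (π : ∀ i, R →+* S i)
    (hπ : ∀ x, (∀ i, π i x = 0) → x = 0) {ρ : Γℚ →* Matrix (Fin 2) (Fin 2) R} {v : ℕ}
    (h : ∀ i, UnrAt (repMap (π i) ρ) v) : UnrAt ρ v := by
  intro P hP σ hσ
  ext a b
  rw [← sub_eq_zero]
  apply hπ
  intro i
  have h1 := congrArg (fun M : Matrix (Fin 2) (Fin 2) (S i) => M a b) (h i P hP σ hσ)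
  have h2 : π i (ρ σ a b) = (1 : Matrix (Fin 2) (Fin 2) (S i)) a b := h1
  rw [map_sub, h2, sub_eq_zero, map_one_apply]

theorem ContAt.map {ρ : Γℚ →* Matrix (Fin 2) (Fin 2) R} {I : Ideal R} (h : ContAt I ρ)
    {I' : Ideal R'} (hI : I.map f ≤ I') : ContAt I' (repMap f ρ) := by
  obtain ⟨L, hL, hL'⟩ := h
  refine ⟨L, hL, fun σ hσ i j => hI ?_⟩
  have h1 := Ideal.mem_map_of_mem f (hL' σ hσ i j)
  have h2 : f (ρ σ i j - (1 : Matrix (Fin 2) (Fin 2) R) i j) =
      repMap f ρ σ i j - (1 : Matrix (Fin 2) (Fin 2) R') i j := by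
    rw [map_sub, repMap_apply_apply, map_one_apply]
  rwa [h2] at h1

theorem ContAt.mono {ρ : Γℚ →* Matrix (Fin 2) (Fin 2) R} {I I' : Ideal R} (h : ContAt I ρ)
    (hI : I ≤ I') : ContAt I' ρ := by
  obtain ⟨L, hL, hL'⟩ := h
  exact ⟨L, hL, fun σ hσ i j => hI (hL' σ hσ i j)⟩

theorem ContAt.conj {ρ : Γℚ →* Matrix (Fin 2) (Fin 2) R} {I : Ideal R} (h : ContAt I ρ)
    (P : (Matrix (Fin 2) (Fin 2) R)ˣ) : ContAt I (conjRep P ρ) := by
  obtain ⟨L, hL, hL'⟩ := h
  refine ⟨L, hL, fun σ hσ i j => ?_⟩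
  have h1 : conjRep P ρ σ i j - (1 : Matrix (Fin 2) (Fin 2) R) i j =
      ((↑P⁻¹ : Matrix (Fin 2) (Fin 2) R) * (ρ σ - 1) * P) i j := by
    rw [mul_sub, sub_mul, mul_one, Units.inv_mul, Matrix.sub_apply, conjRep_apply]
  rw [h1, Matrix.mul_apply]
  refine Ideal.sum_mem _ fun a _ => Ideal.mul_mem_right _ _ ?_
  rw [Matrix.mul_apply]
  exact Ideal.sum_mem _ fun b _ => Ideal.mul_mem_left _ _ (hL' σ hσ b a)

end Scalar

end Fermat.Agent.TwoAdic
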