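import Fermat.Agent.TwoAdic.Cheby
import Fermat.Agent.TwoAdic.Star
import Fermat.Agent.Patch.TamePair
import Fermat.Agent.Cheb.DetCyc

/-!
# The Steinberg condition for `E` modulo `2 ^ m` at the auxiliary primes
-/

set_option autoImplicit false

open IsLocalRing Polynomial

namespace Fermat.Agent.TwoAdic

local notation "Γℚ" => (AlgebraicClosure ℚ ≃ₐ[ℚ] AlgebraicClosure ℚ)

/-- decomposition groups are generated by a Frobenius and inertia at finite levels -/
theorem exists_frob_genA {l : ℕ} (hl : l.Prime) {P : ValuationSubring (AlgebraicClosure ℚ)}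
    (hP : P.LiesOverPrime l) : ∃ Φ : Γℚ, P.IsFrobeniusAt Φ l ∧
      ∀ (F : IntermediateField ℚ (AlgebraicClosure ℚ)) [FiniteDimensional ℚ F],
      ∀ σ ∈ P.decompositionSubgroup ℚ, ∃ i : ℕ, ∃ h : Γℚ, (∀ x ∈ F, h x = x) ∧
        ∃ t ∈ P.inertiaSubgroupIn ℚ, σ = Φ ^ i * h * t := by
  have : Fact l.Prime := ⟨hl⟩
  obtain ⟨g, rfl⟩ := CFT.Loc.exists_eq_smul_padicPlace l hP
  obtain ⟨φ, hφ⟩ := CFT.Loc.exists_frobenius_loc l
  refine ⟨_, Patch.isFrobeniusAt_rg l g hφ, fun F _ σ hσ => ?_⟩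
  obtain ⟨i, h, hh, t, ht, e⟩ := Patch.exists_frob_pow_mul l g hφ hσ F
  exact ⟨i, h, fun x hx => hh ⟨x, hx⟩, t, ht, e⟩

/-- the Steinberg condition with `u = 1` for a representation which is unramified, of finite level,
with `Frob ^ 2 = 1` and `det Frob = - 1`. -/
theorem starAt_one_of_unr {R : Type*} [CommRing R] {ρ : Γℚ →* Matrix (Fin 2) (Fin 2) R}
    (hcont : ContAt ⊥ ρ) {q : ℕ} (hq : q.Prime) (hunr : UnrAt ρ q)
    (hsq : ∀ P : ValuationSubring (AlgebraicClosure ℚ), P.LiesOverPrime q →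
      ∀ σ : Γℚ, P.IsFrobeniusAt σ q → ρ (σ * σ) = 1)
    (hdet : ∀ P : ValuationSubring (AlgebraicClosure ℚ), P.LiesOverPrime q →
      ∀ σ : Γℚ, P.IsFrobeniusAt σ q → (ρ σ).det = -1) : StarAt ρ q 1 := by
  intro P hP
  obtain ⟨Φ, hΦ, hgen⟩ := exists_frob_genA hq hP
  obtain ⟨L, hL, hL'⟩ := hcont
  have h1 := hsq P hP Φ hΦ
  have hd := hdet P hP Φ hΦ
  rw [map_mul] at h1
  have key : ∀ σ ∈ P.decompositionSubgroup ℚ, ρ σ = 1 ∨ ρ σ = ρ Φ := by
    intro σ hσ
    obtain ⟨i, h, hh, t, ht, rfl⟩ := hgen L σ hσ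
    have h2 : ρ h = 1 := by
      ext a b
      have := hL' h hh a b
      rw [Ideal.mem_bot, sub_eq_zero] at this
      exact this
    rw [map_mul, map_mul, h2, hunr P hP t ht, mul_one, mul_one, map_pow]
    rcases Nat.even_or_odd' i with ⟨c, rfl | rfl⟩
    · left
      rw [pow_mul, pow_two, h1, one_pow]
    · right
      rw [pow_add, pow_mul, pow_two, h1, one_pow, one_mul, pow_one]
  have hu : ∀ g : Γℚ, unr q (1 : R) g = 1 := fun g => by
    unfold unr
    split_ifs <;> rfl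
  intro g hg g' hg'
  rw [hu, hu, mul_one]
  rcases key g hg with h2 | h2
  · rw [h2, Matrix.det_one, map_one, sub_self, zero_mul]
  · rw [h2, hd, map_neg, map_one, sub_neg_eq_add]
    rcases key g' hg' with h3 | h3
    · rw [h3, sub_self, mul_zero]
    · rw [h3, add_mul, mul_sub, h1, mul_sub, mul_one, one_mul, mul_one]
      abel

/-- **The Steinberg condition modulo `2 ^ m` at the auxiliary primes.** -/
theorem starAt_one_aux {E : EData} {m q : ℕ} (hq : IsAux E m q) {R : Type*} [CommRing R]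
    (φ : ℤ_[2] →+* R) (hφ : φ (2 ^ m) = 0) : StarAt (repMap φ E.ρ) q 1 := by
  have hI : (Ideal.span {(2 : ℤ_[2]) ^ m}).map φ ≤ ⊥ := by
    rw [Ideal.map_span, Set.image_singleton, hφ]
    simp
  have hmem : ∀ x ∈ Ideal.span {(2 : ℤ_[2]) ^ m}, φ x = 0 := fun x hx => by
    have := hI (Ideal.mem_map_of_mem φ hx)
    exact this
  refine starAt_one_of_unr ((E.cont m).map φ hI) hq.prime
    ((E.unr q hq.prime hq.not_dvd).map φ) ?_ ?_
  · intro P hP σ hσ
    obtain ⟨-, h2⟩ := hq.frob P hP σ hσ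
    ext i j
    have h3 := hmem _ (h2 i j)
    rw [map_sub, sub_eq_zero, map_one_apply] at h3
    exact h3
  · intro P hP σ hσ
    rw [repMap_det]
    have h4 := E.det m σ q (fun μ hμ => Cheb.frob_rootOfUnity hq.prime hP hσ (m := 2 ^ m) (by
      intro h
      exact hq.ne_two ((Nat.prime_dvd_prime_iff_eq hq.prime Nat.prime_two).mp
        (hq.prime.dvd_of_dvd_pow h))) hμ)
    have h5 := hmem _ (by push_cast at h4; exact h4)
    rw [map_sub, sub_eq_zero, map_natCast] at h5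
    rw [h5]
    obtain ⟨c, hc⟩ := hq.modEq
    have h6 : ((q : ℤ) : R) = -1 := by
      have h7 : (q : ℤ) = -1 + 2 ^ m * c := by linarith
      rw [h7]
      push_cast
      have h8 : (2 : R) ^ m = 0 := by
        rw [← hφ, map_pow, map_ofNat]
      rw [h8]
      ring
    exact_mod_cast h6

end Fermat.Agent.TwoAdic
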