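import Fermat.Agent.TwoAdic.NewRep

/-!
# The representations attached to newforms congruent to `E`, continued
-/

set_option autoImplicit false

open IsLocalRing Polynomial ModularFormClass

namespace Fermat.Agent.TwoAdic

open Fermat.Agent.DefRing Fermat.Agent.QComp Fermat.Agent.RepTwo

local notation "Γℚ" => (AlgebraicClosure ℚ ≃ₐ[ℚ] AlgebraicClosure ℚ)

/-- the matrix representation attached to `f` -/
structure IsRepOf (E : EData) {𝔪 : Ideal (integralClosure ℤ ℂ)} {O : Type} [CommRing O]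
    [IsLocalRing O] (F : Frame 𝔪 O) {M : ℕ} (f : CuspForm (CongruenceSubgroup.Gamma0 M) 2)
    (ρ : Γℚ →* Matrix (Fin 2) (Fin 2) O) : Prop where
  cont : ∀ n, ContAt (maximalIdeal O ^ n) ρ
  det : ∀ (n : ℕ) (σ : Γℚ) (c : ℕ), (∀ μ : AlgebraicClosure ℚ, μ ^ 2 ^ n = 1 → σ μ = μ ^ c) →
    (ρ σ).det - (c : O) ∈ Ideal.span {((2 ^ n : ℕ) : O)}
  unr : ∀ l : ℕ, l.Prime → ¬ l ∣ M → UnrAt ρ l
  frob : ∀ l : ℕ, l.Prime → ¬ l ∣ M → ∀ P : ValuationSubring (AlgebraicClosure ℚ),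
    P.LiesOverPrime l → ∀ σ : Γℚ, P.IsFrobeniusAt σ l → F.j (ρ σ).trace = qCoeff f l
  star : ∀ v : ℕ, NewformStar v → v.Prime → v ∣ M → ¬ v ^ 2 ∣ M → ∀ u : O,
    F.j u = qCoeff f v → StarAt ρ v u
  tr : ∀ g, residue O (ρ g).trace = trE E (ResidueField O) g

/-- the determinant is `1` modulo `2` -/
theorem residue_det_eq_one {O : Type*} [CommRing O] [IsLocalRing O]
    (h2 : (2 : O) ∈ maximalIdeal O) {ρ : Γℚ →* Matrix (Fin 2) (Fin 2) O}
    (hdet : ∀ (n : ℕ) (σ : Γℚ) (c : ℕ), (∀ μ : AlgebraicClosure ℚ, μ ^ 2 ^ n = 1 → σ μ = μ ^ c) →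
      (ρ σ).det - (c : O) ∈ Ideal.span {((2 ^ n : ℕ) : O)}) (g : Γℚ) :
    residue O (ρ g).det = 1 := by
  have h1 := hdet 1 g 1 (fun μ hμ => by
    rw [pow_one] at hμ ⊢
    have hμ' : μ * μ = 1 := by rwa [← pow_two]
    rcases mul_self_eq_one_iff.mp hμ' with rfl | rfl
    · rw [map_one]
    · rw [map_neg, map_one])
  have h3 : (ρ g).det - 1 ∈ maximalIdeal O := by
    rw [Nat.cast_one] at h1
    refine (Ideal.span_singleton_le_iff_mem _ |>.mpr ?_) h1
    simpa using h2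
  rw [← sub_eq_zero, ← map_one (residue O), ← map_sub]
  exact (residue_eq_zero_iff _).mpr h3

theorem starAt_of_starAtRep {R : Type} [CommRing R] [IsLocalRing R] {ρ : GaloisRepAdic R}
    {r : Γℚ →* Matrix (Fin 2) (Fin 2) R} {b : Module.Basis (Fin 2) R ρ.V}
    (hb : ∀ σ, LinearMap.toMatrix b b (ρ.ρ σ) = r σ) {v : ℕ} {u : R}
    (h : StarAtRep ρ v u) : StarAt r v u := by
  intro P hP g hg g' hg'
  have h1 := congrArg (LinearMap.toMatrix b b) (h P hP g hg g' hg')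
  rw [LinearMap.toMatrix_mul, map_sub, map_sub, hb, hb, map_zero] at h1
  have e : ∀ c : R, LinearMap.toMatrix b b (algebraMap R (Module.End R ρ.V) c) =
      Matrix.scalar (Fin 2) c := by
    intro c
    have h2 : algebraMap R (Module.End R ρ.V) c = c • (1 : Module.End R ρ.V) :=
      Algebra.algebraMap_eq_smul_one c
    have h3 : Matrix.scalar (Fin 2) c = c • (1 : Matrix (Fin 2) (Fin 2) R) := by
      rw [Matrix.smul_one_eq_diagonal]; rfl
    rw [h2, h3, map_smul]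
    congr 1
    exact LinearMap.toMatrix_one b
  rw [e, e, ← LinearMap.det_toMatrix b, hb] at h1
  exact h1

/-- **Existence of the representation attached to `f`.** -/
theorem exists_isRepOf (E : EData) {𝔪 : Ideal (integralClosure ℤ ℂ)} (h𝔪 : 𝔪.IsMaximal)
    {O : Type} [CommRing O] [IsDomain O] [IsDiscreteValuationRing O]
    [IsAdicComplete (maximalIdeal O) O] [Finite (ResidueField O)] [CharZero O]
    (h2 : (2 : O) ∈ maximalIdeal O) (F : Frame 𝔪 O) {M : ℕ} [NeZero M] (hM2 : 2 ∣ M)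
    (hEM : E.N ∣ M) {f : CuspForm (CongruenceSubgroup.Gamma0 M) 2} (hf : f.IsNewform)
    (hfE : CongE E 𝔪 f) (hfF : F.Has f) :
    ∃ ρ : Γℚ →* Matrix (Fin 2) (Fin 2) O, IsRepOf E F f ρ := by
  classical
  have hfact : Fact (Nat.Prime 2) := ⟨Nat.prime_two⟩
  have h2' : (2 : ResidueField O) = 0 := by
    have := (residue_eq_zero_iff (2 : O)).mpr h2
    rwa [map_ofNat] at this
  have h2c : ((2 : ℕ) : O) ∈ maximalIdeal O := by exact_mod_cast h2
  set S : Finset ℕ := M.primeFactors with hS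
  have hMS : ∀ q : ℕ, q.Prime → q ∣ M → q ∈ S := fun q hq hqM =>
    Nat.mem_primeFactors.mpr ⟨hq, hqM, NeZero.ne M⟩
  have h2S : 2 ∈ S := hMS 2 Nat.prime_two hM2
  have hSM : ∀ q : ℕ, q ∉ S → q.Prime → ¬ q ∣ M := fun q hq hq' h => hq (hMS q hq' h)
  choose! a ha using hfF
  -- the inverse of `j`
  let D : Subring ℂ := F.j.range
  have hbij : Function.Bijective F.j.rangeRestrict :=
    ⟨fun x y h => F.inj (congrArg Subtype.val h), F.j.rangeRestrict_surjective⟩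
  let e : O ≃+* D := RingEquiv.ofBijective F.j.rangeRestrict hbij
  let ι : D →+* O := (e.symm : D →+* O)
  have hι : ∀ (x : O) (y : D), (y : ℂ) = F.j x → ι y = x := by
    intro x y h
    have h1 : y = e x := Subtype.ext h
    rw [h1]
    exact e.symm_apply_apply x
  have hDp : ∀ l : ℕ, l.Prime → qCoeff f l ∈ D := fun l hl => ⟨a l, ha l hl⟩
  have hD : ∀ ℓ : ℕ, ℓ.Prime → ℓ ∉ S → qCoeff f ℓ ∈ D := fun l hl _ => hDp l hl
  obtain ⟨chig, hchig, hrange⟩ := LL.exists_chig hf.isNormalizedEigenform S hMS D hD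
  obtain ⟨ρ, h1, h3⟩ := exists_padic_rep Nat.prime_two h2S hMS
    (fun n => (jZeroGeom M 2).nonempty_esModule (↑S : Set ℕ) n) O h2c
    ((ι.comp (Subring.inclusion hrange)).comp chig.rangeRestrict)
  have hchar : ∀ ℓ : ℕ, ℓ.Prime → ℓ ∉ S → ∀ P : ValuationSubring (AlgebraicClosure ℚ),
      P.LiesOverPrime ℓ → ∀ σ : Γℚ, P.IsFrobeniusAt σ ℓ →
      LinearMap.charpoly (ρ.ρ σ) = X ^ 2 - C (a ℓ) * X + C (ℓ : O) := by
    intro ℓ hℓ hS P hP σ hσ
    rw [h1 ℓ hℓ (hSM ℓ hS hℓ) (fun h => hS (Finset.mem_coe.mp h)) P hP σ hσ]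
    congr 4
    apply hι
    exact (hchig ℓ hℓ _ _).trans (ha ℓ hℓ).symm
  have hdc : ρ.DetIsCyclotomic 2 := Cheb.detIsCyclotomic_of_frobenius ρ Nat.prime_two h2c S
    fun ℓ hℓ hS P hP φ hφ => (Cheb.trace_det_of_charpoly_eq ρ.finrank_eq _
      (hchar ℓ hℓ hS P hP φ hφ)).2
  obtain ⟨r, hr⟩ := exists_realizes ρ
  let r' : Γℚ →* Matrix (Fin 2) (Fin 2) O :=
    { toFun := r, map_one' := hr.map_one, map_mul' := hr.map_mul }
  have hr' := hr
  obtain ⟨b, hb⟩ := hr'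
  have hb' : ∀ σ, LinearMap.toMatrix b b (ρ.ρ σ) = r' σ := hb
  have hcont : ∀ n, ContAt (maximalIdeal O ^ n) r' := fun n => by
    obtain ⟨L, hL, hL'⟩ := hr.matCont n
    exact ⟨L, hL, fun σ hσ i j => hL' σ hσ i j⟩
  have hdet : ∀ (n : ℕ) (σ : Γℚ) (c : ℕ),
      (∀ μ : AlgebraicClosure ℚ, μ ^ 2 ^ n = 1 → σ μ = μ ^ c) →
      (r' σ).det - (c : O) ∈ Ideal.span {((2 ^ n : ℕ) : O)} := by
    intro n σ c h
    rw [← hb', LinearMap.det_toMatrix]
    exact hdc.2 n σ c h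
  have htrace : ∀ ℓ : ℕ, ℓ.Prime → ℓ ∉ S → ∀ P : ValuationSubring (AlgebraicClosure ℚ),
      P.LiesOverPrime ℓ → ∀ σ : Γℚ, P.IsFrobeniusAt σ ℓ → (r' σ).trace = a ℓ := by
    intro ℓ hℓ hS P hP σ hσ
    rw [← hb', ← LinearMap.trace_eq_matrix_trace]
    exact (Cheb.trace_det_of_charpoly_eq ρ.finrank_eq _ (hchar ℓ hℓ hS P hP σ hσ)).1
  have hres : ∀ g, residue O (r' g).trace = trE E (ResidueField O) g := by
    refine residue_trace_eq E h2 (by simpa using hcont 1) S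
      (fun l hl hlE => hMS l hl (hlE.trans hEM)) ?_
    intro l hl hlS P hP σ hσ
    rw [htrace l hl hlS P hP σ hσ]
    obtain ⟨z, hz, hz'⟩ := hfE l hl (hSM l hlS hl)
    have hnt : Nontrivial (integralClosure ℤ ℂ ⧸ 𝔪) := Ideal.Quotient.nontrivial_iff.mpr h𝔪.ne_top
    apply F.ι.injective
    rw [F.hι (a l) z (by rw [ha l hl, hz]), map_intCast]
    have h5 := Ideal.Quotient.eq_zero_iff_mem.mpr hz'
    rw [map_sub, sub_eq_zero] at h5
    rw [h5]
    rfl
  obtain ⟨g₀, j₀, hg, hgt, hj⟩ := E.exists_base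
  have habs : ρ.residual.IsAbsolutelyIrreducible := by
    refine absIrr_of_traces (E := E) h2' ρ.residual hr.residual ?_ ?_ hg hgt hj
    · intro g
      rw [← hres g]
      exact repMap_trace (residue O) r' g
    · intro g
      rw [← residue_det_eq_one h2 hdet g]
      exact repMap_det (residue O) r' g
  refine ⟨r', hcont, hdet, ?_, ?_, ?_, hres⟩
  · intro l hl hlM P hP σ hσ
    rw [← hb', h3 l hl hlM (fun h => hlM (h ▸ hM2)) P hP σ hσ]
    exact LinearMap.toMatrix_one b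
  · intro l hl hlM P hP σ hσ
    have hlS : l ∉ S := fun h => hlM (Nat.dvd_of_mem_primeFactors h)
    rw [htrace l hl hlS P hP σ hσ, ha l hl]
  · intro v hstar hv hvM hv2 u hu
    have h5 := hstar hf hv hvM hv2 S h2S hMS O h2 D ι hD (hDp v hv) ρ (by
      intro ℓ hℓ hS P hP σ hσ
      rw [hchar ℓ hℓ hS P hP σ hσ]
      congr 4
      exact (hι _ _ (ha ℓ hℓ).symm).symm) habs
    have h6 : ι ⟨_, hDp v hv⟩ = u := hι _ _ hu.symm
    rw [h6] at h5
    exact starAt_of_starAtRep hb' h5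

end Fermat.Agent.TwoAdic
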