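import Fermat.Agent.TwoAdic.FamCount
import Fermat.Agent.TwoAdic.NewRep2
import Fermat.Agent.TwoAdic.AuxStar

/-!
# Block F
-/

set_option autoImplicit false
set_option linter.unusedSectionVars false

open IsLocalRing Polynomial ModularFormClass

namespace Fermat.Agent.TwoAdic

local notation "Γℚ" => (AlgebraicClosure ℚ ≃ₐ[ℚ] AlgebraicClosure ℚ)

/-! ### Determinants -/

/-- automorphisms act on roots of unity by powers -/
theorem exists_cyc (n : ℕ) (σ : Γℚ) :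
    ∃ c : ℕ, ∀ μ : AlgebraicClosure ℚ, μ ^ 2 ^ n = 1 → σ μ = μ ^ c := by
  have : NeZero ((2 ^ n : ℕ) : AlgebraicClosure ℚ) := ⟨by
    exact_mod_cast (pow_pos two_pos n).ne'⟩
  have : NeZero (2 ^ n) := ⟨(pow_pos two_pos n).ne'⟩
  obtain ⟨ζ, hζ⟩ := HasEnoughRootsOfUnity.exists_primitiveRoot (AlgebraicClosure ℚ) (2 ^ n)
  have h1 : (σ ζ) ^ 2 ^ n = 1 := by rw [← map_pow, hζ.pow_eq_one, map_one]
  obtain ⟨c, -, hc⟩ := hζ.eq_pow_of_pow_eq_one h1
  refine ⟨c, fun μ hμ => ?_⟩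
  obtain ⟨i, -, rfl⟩ := hζ.eq_pow_of_pow_eq_one hμ
  rw [map_pow, ← hc, ← pow_mul, ← pow_mul, mul_comm]

/-- two cyclotomic determinants agree -/
theorem det_eq_of_cyc {O : Type*} [CommRing O] [IsLocalRing O] [IsHausdorff (maximalIdeal O) O]
    (h2 : (2 : O) ∈ maximalIdeal O) {ρ ρ' : Γℚ →* Matrix (Fin 2) (Fin 2) O}
    (h : ∀ (n : ℕ) (σ : Γℚ) (c : ℕ), (∀ μ : AlgebraicClosure ℚ, μ ^ 2 ^ n = 1 → σ μ = μ ^ c) →
      (ρ σ).det - (c : O) ∈ Ideal.span {((2 ^ n : ℕ) : O)})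
    (h' : ∀ (n : ℕ) (σ : Γℚ) (c : ℕ), (∀ μ : AlgebraicClosure ℚ, μ ^ 2 ^ n = 1 → σ μ = μ ^ c) →
      (ρ' σ).det - (c : O) ∈ Ideal.span {((2 ^ n : ℕ) : O)}) (g : Γℚ) :
    (ρ g).det = (ρ' g).det := by
  rw [← sub_eq_zero]
  apply IsHausdorff.haus (I := maximalIdeal O) inferInstance
  intro n
  rw [SModEq.zero, smul_eq_mul, Ideal.mul_top]
  obtain ⟨c, hc⟩ := exists_cyc n g
  have h1 := Ideal.sub_mem _ (h n g c hc) (h' n g c hc)
  rw [sub_sub_sub_cancel_right] at h1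
  refine (Ideal.span_singleton_le_iff_mem _ |>.mpr ?_) h1
  push_cast
  exact Ideal.pow_mem_pow h2 n

section Main

variable {E : EData} {O : Type} [CommRing O] [IsDomain O] [IsDiscreteValuationRing O]
  [IsAdicComplete (maximalIdeal O) O] [Finite (ResidueField O)] [CharZero O]
  {𝔪 : Ideal (integralClosure ℤ ℂ)} {Fr : Frame 𝔪 O} {M : ℕ}
  {𝓕 : Finset (CuspForm (CongruenceSubgroup.Gamma0 M) 2)}
  {ρ : 𝓕 → (Γℚ →* Matrix (Fin 2) (Fin 2) O)}

/-- the family of the representations attached to newforms -/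
noncomputable def famOf (h2 : (2 : O) ∈ maximalIdeal O)
    (hρ : ∀ f : 𝓕, IsRepOf E Fr (f : CuspForm (CongruenceSubgroup.Gamma0 M) 2) (ρ f))
    (f₁ : 𝓕) : Fam E O 𝓕 where
  J := fun _ => ⊥
  hJ := fun _ => bot_le
  ρ := fun f => repMap (Ideal.Quotient.mk ⊥) (ρ f)
  ε := fun g => (ρ f₁ g).det
  det := fun f g => by
    rw [repMap_det, det_eq_of_cyc h2 (hρ f).det (hρ f₁).det]
  res_ε := fun g => residue_det_eq_one h2 (hρ f₁).det g
  tr := fun f g => by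
    rw [repMap_trace, resQ_mk, (hρ f).tr]
  cont := fun f n => ((hρ f).cont n).map _ le_rfl

/-! ### Separation of newforms -/

theorem exists_place_frob {l : ℕ} (hl : l.Prime) :
    ∃ P : ValuationSubring (AlgebraicClosure ℚ), P.LiesOverPrime l ∧
      ∃ σ : Γℚ, P.IsFrobeniusAt σ l := by
  have : Fact l.Prime := ⟨hl⟩
  have h1 := CFT.Loc.padicPlace_liesOverPrime l
  obtain ⟨Φ, hΦ, -⟩ := exists_frob_genA hl h1
  exact ⟨_, h1, Φ, hΦ⟩

theorem exists_trace_ne [NeZero M]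
    (hρ : ∀ f : 𝓕, IsRepOf E Fr (f : CuspForm (CongruenceSubgroup.Gamma0 M) 2) (ρ f))
    (hnew : ∀ f ∈ 𝓕, f.IsNewform) {f f' : 𝓕} (hff' : f ≠ f') :
    ∃ g : Γℚ, (ρ f g).trace ≠ (ρ f' g).trace := by
  by_contra hcon
  push Not at hcon
  apply hff'
  apply Subtype.ext
  refine Newform.eq_of_newform M.primeFactors (hnew f' f'.2) (hnew f f.2).1 ?_
  intro l hl hlM
  have hlM' : ¬ l ∣ M := fun h => hlM (Nat.mem_primeFactors.mpr ⟨hl, h, NeZero.ne M⟩)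
  obtain ⟨P, hP, σ, hσ⟩ := exists_place_frob hl
  rw [← (hρ f).frob l hl hlM' P hP σ hσ, ← (hρ f').frob l hl hlM' P hP σ hσ, hcon]

end Main

/-! ### The level -/

theorem lev_squarefree {E : EData} {Q : Finset ℕ} (hQ : ∀ q ∈ Q, q.Prime ∧ ¬ q ∣ E.N) :
    Squarefree (lev E Q) := by
  classical
  unfold lev
  have key : ∀ Q : Finset ℕ, (∀ q ∈ Q, q.Prime ∧ ¬ q ∣ E.N) →
      Squarefree (∏ q ∈ Q, q) ∧ Nat.Coprime E.N (∏ q ∈ Q, q) ∧
        ∀ p : ℕ, p.Prime → p ∣ ∏ q ∈ Q, q → p ∈ Q := by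
    intro Q
    induction Q using Finset.induction_on with
    | empty => exact fun _ => ⟨by simp, by simp, fun p hp h => by
        rw [Finset.prod_empty] at h
        exact absurd (Nat.dvd_one.mp h) hp.ne_one⟩
    | insert q Q hq ih =>
      intro hQ
      obtain ⟨h1, h2, h3⟩ := ih fun q' hq' => hQ q' (Finset.mem_insert_of_mem hq')
      obtain ⟨hqp, hqN⟩ := hQ q (Finset.mem_insert_self q Q)
      rw [Finset.prod_insert hq]
      have hcop : Nat.Coprime q (∏ q ∈ Q, q) := (hqp.coprime_iff_not_dvd).mpr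
        fun h => hq (h3 q hqp h)
      refine ⟨(Nat.squarefree_mul hcop).mpr ⟨hqp.squarefree, h1⟩,
        Nat.Coprime.mul_right ((hqp.coprime_iff_not_dvd).mpr hqN).symm h2, ?_⟩
      intro p hp hpq
      rcases hp.dvd_mul.mp hpq with h | h
      · rw [(Nat.prime_dvd_prime_iff_eq hp hqp).mp h]
        exact Finset.mem_insert_self q Q
      · exact Finset.mem_insert_of_mem (h3 p hp h)
  obtain ⟨h1, h2, -⟩ := key Q hQ
  exact (Nat.squarefree_mul h2).mpr ⟨E.sqf, h1⟩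

theorem prime_dvd_lev {E : EData} {Q : Finset ℕ} (hQ : ∀ q ∈ Q, q.Prime) {v : ℕ}
    (hv : v.Prime) : v ∣ lev E Q ↔ v ∣ E.N ∨ v ∈ Q := by
  unfold lev
  rw [hv.dvd_mul, hv.prime.dvd_finsetProd_iff]
  refine or_congr Iff.rfl ⟨?_, fun h => ⟨v, h, dvd_rfl⟩⟩
  rintro ⟨q, hq, hvq⟩
  rwa [(Nat.prime_dvd_prime_iff_eq hv (hQ q hq)).mp hvq]

end Fermat.Agent.TwoAdic
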