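import Mathlib

set_option autoImplicit false

/-!
# Integral Weierstrass equations with given `c₄`, `c₆`
-/

namespace Fermat.Agent.TwoAdic

theorem crt_int {m n : ℤ} (h : IsCoprime m n) (a b : ℤ) : ∃ x, m ∣ x - a ∧ n ∣ x - b := by
  obtain ⟨u, v, huv⟩ := h
  refine ⟨a * (v * n) + b * (u * m), ⟨u * (b - a), ?_⟩, ⟨v * (a - b), ?_⟩⟩
  · linear_combination a * huv
  · linear_combination b * huv

theorem dvd_cube {N c4 c6 Δ b : ℤ} (hN : IsCoprime N c4) (h : c4^3 - c6^2 = 1728*Δ)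
    (hN' : N ∣ 1728) (hb : N ∣ b * c4 + c6) : N ∣ b^2 - c4 ∧ N ∣ b^3 - 3*b*c4 - 2*c6 := by
  obtain ⟨t, ht⟩ := hb
  obtain ⟨r, hr⟩ := hN'
  have h1 : N ∣ c4^2 * (b^2 - c4) := by
    refine ⟨t * (b * c4 - c6) - r * Δ, ?_⟩
    rw [hr] at h
    linear_combination (b * c4 - c6) * ht - h
  have h2 : N ∣ b^2 - c4 := (hN.pow_right (n := 2)).dvd_of_dvd_mul_left h1
  refine ⟨h2, ?_⟩
  have : b^3 - 3*b*c4 - 2*c6 = b * (b^2 - c4) - 2 * (b * c4 + c6) := by ring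
  rw [this]
  exact dvd_sub (Dvd.dvd.mul_left h2 _) (Dvd.dvd.mul_left ⟨t, ht⟩ _)

theorem exists_b {N c4 c6 : ℤ} (hN : IsCoprime N c4) : ∃ b, N ∣ b * c4 + c6 := by
  obtain ⟨u, v, huv⟩ := hN
  exact ⟨-(v * c6), u * c6, by linear_combination -c6 * huv⟩

/-- Kraus' conditions (semistable case). -/
theorem kraus {c4 c6 Δ : ℤ} (h : c4^3 - c6^2 = 1728*Δ) (h2 : ¬ (2 : ℤ) ∣ c4)
    (h4 : (4 : ℤ) ∣ c6 + 1) (h3 : ¬ (3 : ℤ) ∣ c4 ∨ ((3 : ℤ) ∣ c4 ∧ (27 : ℤ) ∣ c6)) :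
    ∃ W : WeierstrassCurve ℤ, W.c₄ = c4 ∧ W.c₆ = c6 ∧ W.Δ = Δ := by
  have hc64 : IsCoprime (64 : ℤ) c4 := by
    have : (64 : ℤ) = 2^6 := by norm_num
    rw [this]
    exact IsCoprime.pow_left ((Prime.coprime_iff_not_dvd Int.prime_two).mpr h2)
  obtain ⟨b', hb'⟩ := exists_b (c6 := c6) hc64
  obtain ⟨b'', hb''⟩ : ∃ b'' : ℤ, ∀ b : ℤ, 27 ∣ b - b'' →
      3 ∣ b^2 - c4 ∧ 27 ∣ b^3 - 3*b*c4 - 2*c6 := by
    rcases h3 with h3 | ⟨h3, h3'⟩
    · have hc27 : IsCoprime (27 : ℤ) c4 := by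
        have : (27 : ℤ) = 3^3 := by norm_num
        rw [this]
        exact IsCoprime.pow_left ((Prime.coprime_iff_not_dvd Int.prime_three).mpr h3)
      obtain ⟨b'', hb''⟩ := exists_b (c6 := c6) hc27
      refine ⟨b'', fun b hb => ?_⟩
      have : (27 : ℤ) ∣ b * c4 + c6 := by
        have e : b * c4 + c6 = (b - b'') * c4 + (b'' * c4 + c6) := by ring
        rw [e]
        exact dvd_add (Dvd.dvd.mul_right hb _) hb''
      obtain ⟨k1, k2⟩ := dvd_cube hc27 h (by norm_num) this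
      exact ⟨dvd_trans (by norm_num) k1, k2⟩
    · refine ⟨0, fun b hb => ?_⟩
      rw [sub_zero] at hb
      constructor
      · have : (3 : ℤ) ∣ b := dvd_trans (by norm_num) hb
        exact dvd_sub (this.trans (dvd_pow_self _ two_ne_zero)) h3
      · exact dvd_sub (dvd_sub (hb.trans (dvd_pow_self _ three_ne_zero))
          (Dvd.dvd.mul_right (Dvd.dvd.mul_left hb _) _)) (Dvd.dvd.mul_left h3' _)
  obtain ⟨b, hb1, hb2⟩ := crt_int (m := 64) (n := 27) ⟨-8, 19, by norm_num⟩ b' b''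
  have hb1' : (64 : ℤ) ∣ b * c4 + c6 := by
    have e : b * c4 + c6 = (b - b') * c4 + (b' * c4 + c6) := by ring
    rw [e]
    exact dvd_add (Dvd.dvd.mul_right hb1 _) hb'
  obtain ⟨k1, k2⟩ := dvd_cube hc64 h (by norm_num) hb1'
  obtain ⟨k3, k4⟩ := hb'' b hb2
  obtain ⟨a4, ha4⟩ : (48 : ℤ) ∣ b^2 - c4 := by omega
  obtain ⟨a6, ha6⟩ : (1728 : ℤ) ∣ b^3 - 3*b*c4 - 2*c6 := by
    have : (1728 : ℤ) = 64 * 27 := by norm_num
    rw [this]
    exact IsCoprime.mul_dvd ⟨-8, 19, by norm_num⟩ k2 k4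
  obtain ⟨a2, ha2⟩ : (4 : ℤ) ∣ b - 1 := by
    have hc4o : ∃ t, c4 = 2 * t + 1 := by
      have : Odd c4 := by
        rwa [← even_iff_two_dvd, Int.not_even_iff_odd] at h2
      exact this
    have hbo : ¬ (2 : ℤ) ∣ b := by
      intro hb0
      apply h2
      have h5 : (2 : ℤ) ∣ b^2 - c4 := dvd_trans (by norm_num) k1
      exact (dvd_sub_right (hb0.trans (dvd_pow_self _ two_ne_zero))).mp h5
    obtain ⟨t, ht⟩ : Odd b := by
      rwa [← even_iff_two_dvd, Int.not_even_iff_odd] at hbo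
    obtain ⟨r, hr⟩ := k1
    obtain ⟨p, hp⟩ := hb1'
    obtain ⟨w, hw⟩ := h4
    refine ⟨16 * p - w + 16 * r * b - (t^2 + t) * b, ?_⟩
    have hb2' : b^2 = 4 * (t^2 + t) + 1 := by rw [ht]; ring
    linear_combination hp - hw + b * hr - b * hb2'
  let W : WeierstrassCurve ℤ := ⟨1, a2, 0, a4, a6⟩
  have e4 : W.c₄ = c4 := by
    simp only [W, WeierstrassCurve.c₄, WeierstrassCurve.b₂, WeierstrassCurve.b₄]
    have : b = 1 + 4 * a2 := by linear_combination ha2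
    rw [this] at ha4
    linear_combination ha4
  have e6 : W.c₆ = c6 := by
    simp only [W, WeierstrassCurve.c₆, WeierstrassCurve.b₂, WeierstrassCurve.b₄,
      WeierstrassCurve.b₆]
    have hbb : b = 1 + 4 * a2 := by linear_combination ha2
    have h864 : (2 : ℤ) ≠ 0 := by norm_num
    apply mul_left_cancel₀ h864
    rw [hbb] at ha4 ha6
    linear_combination ha6 - 3 * (1 + 4 * a2) * ha4
  refine ⟨W, e4, e6, ?_⟩
  have h1 := W.c_relation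
  rw [e4, e6, h] at h1
  have h1728 : (1728 : ℤ) ≠ 0 := by norm_num
  exact mul_left_cancel₀ h1728 h1

/-- the conditions hold for an integral equation with odd `c₄` -/
theorem c6_mod_four (W : WeierstrassCurve ℤ) (h : ¬ (2 : ℤ) ∣ W.c₄) : (4 : ℤ) ∣ W.c₆ + 1 := by
  have ha1 : Odd W.a₁ := by
    by_contra hcon
    rw [Int.not_odd_iff_even] at hcon
    apply h
    obtain ⟨r, hr⟩ := hcon
    simp only [WeierstrassCurve.c₄, WeierstrassCurve.b₂, WeierstrassCurve.b₄]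
    rw [hr]
    exact ⟨(((r + r)^2 + 4 * W.a₂)) * (2 * r^2 + 2 * W.a₂) - 12 * (2 * W.a₄ + (r + r) * W.a₃),
      by ring⟩
  obtain ⟨t, ht⟩ := ha1
  have hb2 : W.b₂ = 4 * (t^2 + t + W.a₂) + 1 := by
    simp only [WeierstrassCurve.b₂]; rw [ht]; ring
  have : W.c₆ + 1 = -(W.b₂^3 - 1) + 4 * (9 * W.b₂ * W.b₄ - 54 * W.b₆) := by
    simp only [WeierstrassCurve.c₆]; ring
  rw [this, hb2]
  generalize t^2 + t + W.a₂ = z
  exact ⟨-(z * ((4*z+1)^2 + (4*z+1) + 1)) + (9 * (4 * z + 1) * W.b₄ - 54 * W.b₆), by ring⟩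

theorem three_cond (W : WeierstrassCurve ℤ) :
    ¬ (3 : ℤ) ∣ W.c₄ ∨ ((3 : ℤ) ∣ W.c₄ ∧ (27 : ℤ) ∣ W.c₆) := by
  by_cases h : (3 : ℤ) ∣ W.c₄
  · right
    refine ⟨h, ?_⟩
    have hb : (3 : ℤ) ∣ W.b₂ := by
      have h1 : (3 : ℤ) ∣ W.b₂^2 := by
        have : W.b₂^2 = W.c₄ + 3 * (8 * W.b₄) := by
          simp only [WeierstrassCurve.c₄]; ring
        rw [this]
        exact dvd_add h (dvd_mul_right _ _)
      exact Int.prime_three.dvd_of_dvd_pow h1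
    obtain ⟨r, hr⟩ := hb
    have : W.c₆ = -W.b₂^3 + 36 * W.b₂ * W.b₄ - 216 * W.b₆ := rfl
    rw [this, hr]
    exact ⟨-r^3 + 4 * r * W.b₄ - 8 * W.b₆, by ring⟩
  · exact Or.inl h

end Fermat.Agent.TwoAdic
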