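import Fermat.Agent.Switch.CardShort

set_option autoImplicit false

/-!
# Number of points and scaling
-/

open WeierstrassCurve WeierstrassCurve.Affine WeierstrassCurve.Affine.Point
open Fermat.Agent.Icosa Fermat.Agent.Schoof

namespace Fermat.Agent.TwoAdic

variable {F : Type*} [Field F]

theorem card_scale {u : F} (hu : u ≠ 0) (A B : F) :
    Nat.card (cur 0 A B).toAffine.Point = Nat.card (cur 0 (u^4*A) (u^6*B)).toAffine.Point := by
  have key : ∀ x y : F, (cur 0 A B).toAffine.Nonsingular x y ↔
      (cur 0 (u^4*A) (u^6*B)).toAffine.Nonsingular (u^2*x) (u^3*y) := by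
    intro x y
    rw [WeierstrassCurve.Affine.nonsingular_iff, WeierstrassCurve.Affine.nonsingular_iff,
      WeierstrassCurve.Affine.equation_iff, WeierstrassCurve.Affine.equation_iff]
    simp only [cur]
    have hu6 : u^6 ≠ 0 := pow_ne_zero _ hu
    have hu4 : u^4 ≠ 0 := pow_ne_zero _ hu
    have hu3 : u^3 ≠ 0 := pow_ne_zero _ hu
    refine and_congr ?_ (or_congr (not_congr ?_) (not_congr ?_))
    · constructor
      · intro h; linear_combination u^6 * h
      · intro h
        apply mul_left_cancel₀ hu6
        linear_combination h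
    · constructor
      · intro h; linear_combination u^4 * h
      · intro h
        apply mul_left_cancel₀ hu4
        linear_combination h
    · constructor
      · intro h; linear_combination u^3 * h
      · intro h
        apply mul_left_cancel₀ hu3
        linear_combination h
  let f : (cur 0 A B).toAffine.Point → (cur 0 (u^4*A) (u^6*B)).toAffine.Point :=
    fun P => match P with
    | 0 => 0
    | .some x y h => .some (u^2*x) (u^3*y) ((key x y).mp h)
  apply Nat.card_eq_of_bijective f
  constructor
  · intro P Q hPQ
    match P, Q, hPQ with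
    | 0, 0, _ => rfl
    | 0, .some x y h, hPQ => exact absurd hPQ (by simp [f])
    | .some x y h, 0, hPQ => exact absurd hPQ (by simp [f])
    | .some x y h, .some x' y' h', hPQ =>
      simp only [f, some.injEq] at hPQ
      obtain ⟨e1, e2⟩ := hPQ
      have hx : x = x' := mul_left_cancel₀ (pow_ne_zero _ hu) e1
      subst hx
      have hy : y = y' := mul_left_cancel₀ (pow_ne_zero _ hu) e2
      subst hy
      rfl
  · intro Q
    match Q with
    | 0 => exact ⟨0, rfl⟩
    | .some X Y h =>
      obtain ⟨x, hx⟩ : ∃ x : F, X = u^2*x := ⟨X/u^2, by field_simp⟩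
      obtain ⟨y, hy⟩ : ∃ y : F, Y = u^3*y := ⟨Y/u^3, by field_simp⟩
      subst hx hy
      exact ⟨.some x y ((key x y).mpr h), rfl⟩

theorem tr_scale [Fintype F] [DecidableEq F] {u : F} (hu : u ≠ 0) (A B : F) :
    tr 0 (u^4*A) (u^6*B) = tr 0 A B := by
  rw [tr, tr, ← card_scale hu]

end Fermat.Agent.TwoAdic
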