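import Mathlib
import Fermat.Prelude.Def_GaloisRep_LocalConditions
import Fermat.Prelude.Def_GaloisRep_ComplexConjugation
import Fermat.Prelude.Def_CuspForm_Newforms

/-!
# Interfaces of the blocks of the 2-adic route
-/

set_option autoImplicit false

open IsLocalRing Polynomial

namespace Fermat.Agent.TwoAdic

local notation "Γℚ" => (AlgebraicClosure ℚ ≃ₐ[ℚ] AlgebraicClosure ℚ)

/-! ## The unramified quadratic character and the Steinberg condition -/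

/-- `g` acts trivially on the unramified quadratic extension of `ℚ_v` -/
def IsEven (v : ℕ) (g : Γℚ) : Prop := ∀ ζ : AlgebraicClosure ℚ, ζ ^ (v ^ 2 - 1) = 1 → g ζ = ζ

open Classical in
/-- the unramified character with values `1, u` (`u ^ 2 = 1`) -/
noncomputable def unr {R : Type*} [CommRing R] (v : ℕ) (u : R) (g : Γℚ) : R :=
  if IsEven v g then 1 else u

/-- the Steinberg condition at `v` for a matrix representation -/
def StarAt {R : Type*} [CommRing R] (ρ : Γℚ →* Matrix (Fin 2) (Fin 2) R) (v : ℕ) (u : R) : Prop :=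
  ∀ P : ValuationSubring (AlgebraicClosure ℚ), P.LiesOverPrime v →
    ∀ g ∈ P.decompositionSubgroup ℚ, ∀ h ∈ P.decompositionSubgroup ℚ,
      (ρ g - Matrix.scalar (Fin 2) ((ρ g).det * unr v u g)) *
        (ρ h - Matrix.scalar (Fin 2) (unr v u h)) = 0

/-- the Steinberg condition at `v` for an adic representation -/
def StarAtRep {R : Type} [CommRing R] [IsLocalRing R] (ρ : GaloisRepAdic R) (v : ℕ) (u : R) :
    Prop :=
  ∀ P : ValuationSubring (AlgebraicClosure ℚ), P.LiesOverPrime v →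
    ∀ g ∈ P.decompositionSubgroup ℚ, ∀ h ∈ P.decompositionSubgroup ℚ,
      (ρ.ρ g - algebraMap R (Module.End R ρ.V) (LinearMap.det (ρ.ρ g) * unr v u g)) *
        (ρ.ρ h - algebraMap R (Module.End R ρ.V) (unr v u h)) = 0

/-- unramified matrix representation -/
def UnrAt {R : Type*} [CommRing R] (ρ : Γℚ →* Matrix (Fin 2) (Fin 2) R) (v : ℕ) : Prop :=
  ∀ P : ValuationSubring (AlgebraicClosure ℚ), P.LiesOverPrime v →
    ∀ σ ∈ P.inertiaSubgroupIn ℚ, ρ σ = 1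

/-- continuity with respect to an ideal -/
def ContAt {R : Type*} [CommRing R] (I : Ideal R) (ρ : Γℚ →* Matrix (Fin 2) (Fin 2) R) : Prop :=
  ∃ L : IntermediateField ℚ (AlgebraicClosure ℚ), FiniteDimensional ℚ L ∧
    ∀ σ : Γℚ, (∀ x ∈ L, σ x = x) → ∀ i j, ρ σ i j - (1 : Matrix (Fin 2) (Fin 2) R) i j ∈ I

/-! ## The data of the elliptic curve -/

/-- the quadratic field `K = ℚ(√-N)` -/
noncomputable def KN (N : ℕ) : IntermediateField ℚ (AlgebraicClosure ℚ) :=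
  IntermediateField.adjoin ℚ {x | x ^ 2 = -(N : AlgebraicClosure ℚ)}

/-- the `2`-part of the class number of `K` -/
noncomputable def h2 (N : ℕ) : ℕ :=
  2 ^ (Nat.card (ClassGroup (NumberField.RingOfIntegers (KN N)))).factorization 2

/-- `g` fixes `K` -/
def FixK (N : ℕ) (g : Γℚ) : Prop := ∀ x ∈ KN N, g x = x

/-- What is used of the semistable elliptic curve `E` of conductor `N` (output of blocks A2, A3):
its `2`-adic representation and its traces of Frobenius. -/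
structure EData where
  /-- conductor -/
  N : ℕ
  sqf : Squarefree N
  two_dvd : 2 ∣ N
  two_lt : 2 < N
  /-- traces of Frobenius, signs at the primes dividing `N` -/
  a : ℕ → ℤ
  /-- the `2`-adic representation -/
  ρ : Γℚ →* Matrix (Fin 2) (Fin 2) ℤ_[2]
  cont : ∀ m : ℕ, ContAt (Ideal.span {(2 : ℤ_[2]) ^ m}) ρ
  det : ∀ (n : ℕ) (σ : Γℚ) (c : ℕ), (∀ μ : AlgebraicClosure ℚ, μ ^ 2 ^ n = 1 → σ μ = μ ^ c) →
    (ρ σ).det - (c : ℤ_[2]) ∈ Ideal.span {((2 ^ n : ℕ) : ℤ_[2])}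
  unr : ∀ l : ℕ, l.Prime → ¬ l ∣ N → UnrAt ρ l
  frob : ∀ l : ℕ, l.Prime → ¬ l ∣ N → ∀ P : ValuationSubring (AlgebraicClosure ℚ),
    P.LiesOverPrime l → ∀ σ : Γℚ, P.IsFrobeniusAt σ l → (ρ σ).trace = (a l : ℤ_[2])
  hasse : ∀ l : ℕ, l.Prime → ¬ l ∣ N → a l ^ 2 < 4 * l
  sign : ∀ v : ℕ, v.Prime → v ∣ N → a v = 1 ∨ a v = -1
  star : ∀ v : ℕ, v.Prime → v ∣ N → StarAt ρ v (a v : ℤ_[2])
  /-- the image mod `2` is all of `GL₂(𝔽₂)` -/
  surj : ∀ M : Matrix (Fin 2) (Fin 2) (ZMod 2), IsUnit M.det →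
    ∃ σ : Γℚ, (ρ σ).map (PadicInt.toZMod (p := 2)) = M
  /-- `K` is the quadratic subfield of `ℚ(E[2])` -/
  fixK : ∀ σ : Γℚ, FixK N σ ↔ ((ρ σ).map (PadicInt.toZMod (p := 2)) = 1 ∨
    PadicInt.toZMod (p := 2) (ρ σ).trace = 1)
  /-- `v(Δ)` is odd at `v ∣ N`, `v ≠ 2`: inertia at `v` contains an element with
  nontrivial image mod `2` -/
  ram : ∀ v : ℕ, v.Prime → v ∣ N → v ≠ 2 → ∀ P : ValuationSubring (AlgebraicClosure ℚ),
    P.LiesOverPrime v → ∃ τ ∈ P.inertiaSubgroupIn ℚ,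
      (ρ τ).map (PadicInt.toZMod (p := 2)) ≠ 1

/-- the auxiliary primes: Frobenius acts as an involution mod `2 ^ m` which is not in `G_K`
(congruent to complex conjugation) -/
structure IsAux (E : EData) (m : ℕ) (q : ℕ) : Prop where
  prime : q.Prime
  ne_two : q ≠ 2
  not_dvd : ¬ q ∣ E.N
  modEq : (2 ^ m : ℤ) ∣ q + 1
  frob : ∀ P : ValuationSubring (AlgebraicClosure ℚ), P.LiesOverPrime q →
    ∀ σ : Γℚ, P.IsFrobeniusAt σ q → ¬ FixK E.N σ ∧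
      ∀ i j, E.ρ (σ * σ) i j - (1 : Matrix (Fin 2) (Fin 2) ℤ_[2]) i j ∈ Ideal.span {(2 : ℤ_[2]) ^ m}

/-- the level -/
def lev (E : EData) (Q : Finset ℕ) : ℕ := E.N * ∏ q ∈ Q, q

/-! ## Blocks B, C, D: the upper bound -/

/-- **(UPPER)** mod `2` deformations of `E[2]` of level `Q` have small coefficient rings. -/
def Upper (E : EData) (Q : Finset ℕ) : Prop :=
  ∀ (k : Type) [Field k] [Finite k] [CharP k 2] (ω : k), ω ^ 2 + ω + 1 = 0 →
  ∀ (A : Type) [CommRing A] [IsLocalRing A] [Algebra k A], Module.Finite k A →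
    Function.Bijective (algebraMap k (ResidueField A)) →
  ∀ (ρ : Γℚ →* Matrix (Fin 2) (Fin 2) A) (u : ℕ → A) (g₀ j₀ : Γℚ), ContAt ⊥ ρ →
    (∀ g, (ρ g).det = 1) →
    (∀ g, (ρ g).trace - (((PadicInt.toZMod (p := 2) (E.ρ g).trace).val : ℕ) : A) ∈
      maximalIdeal A) →
    FixK E.N g₀ → PadicInt.toZMod (p := 2) (E.ρ g₀).trace = 1 →
    ρ g₀ 0 1 = 0 → ρ g₀ 1 0 = 0 → ρ g₀ 0 0 - algebraMap k A ω ∈ maximalIdeal A →
    ¬ FixK E.N j₀ → ρ j₀ 0 1 = 1 →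
    (∀ l : ℕ, l.Prime → ¬ l ∣ lev E Q → UnrAt ρ l) →
    (∀ v : ℕ, v.Prime → v ∣ lev E Q → u v ^ 2 = 1 ∧ StarAt ρ v (u v)) →
    Algebra.adjoin k ({x | ∃ g, x = (ρ g).trace} ∪ {x | ∃ v, v.Prime ∧ v ∣ lev E Q ∧ x = u v}) =
      ⊤ →
  Module.finrank k A ≤ 2 ^ Q.card * h2 E.N

/-- **(B)** existence of auxiliary primes killing the Selmer group; `Sel E Q` is the vanishing of
the Selmer group (to be defined by block B/C). -/
def BlockB (Sel : EData → Finset ℕ → Prop) : Prop :=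
  ∀ E : EData, ∃ r : ℕ, ∀ m : ℕ, 2 ≤ m → ∃ Q : Finset ℕ, Q.card ≤ r ∧ (∀ q ∈ Q, IsAux E m q) ∧
    Sel E Q

/-- **(C + D)** -/
def BlockCD (Sel : EData → Finset ℕ → Prop) : Prop :=
  ∀ (E : EData) (Q : Finset ℕ), (∀ q ∈ Q, IsAux E 2 q) → Sel E Q → Upper E Q

/-! ## Block E: the lower bound -/

/-- the good primes congruence -/
def CongE (E : EData) (𝔪 : Ideal (integralClosure ℤ ℂ)) {M : ℕ}
    (f : CuspForm (CongruenceSubgroup.Gamma0 M) 2) : Prop :=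
  ∀ l : ℕ, l.Prime → ¬ l ∣ M → ∃ a : integralClosure ℤ ℂ,
    (a : ℂ) = ModularFormClass.qCoeff f l ∧ a - ((E.a l : ℤ) : integralClosure ℤ ℂ) ∈ 𝔪

/-- **(RANK)** there are many newforms of level `N Q` congruent to `E` mod `2`. -/
def Rank (E : EData) (Q : Finset ℕ) : Prop :=
  ∀ 𝔪 : Ideal (integralClosure ℤ ℂ), 𝔪.IsMaximal → (2 : integralClosure ℤ ℂ) ∈ 𝔪 →
  ∃ 𝓕 : Finset (CuspForm (CongruenceSubgroup.Gamma0 (lev E Q)) 2),
    (∀ f ∈ 𝓕, f.IsNewform ∧ CongE E 𝔪 f) ∧ 2 ^ Q.card * h2 E.N ≤ 𝓕.card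

/-- **(E)** -/
def BlockE (Sel : EData → Finset ℕ → Prop) : Prop :=
  ∀ (E : EData) (Q : Finset ℕ), (∀ q ∈ Q, IsAux E 2 q) → Sel E Q → Rank E Q

/-! ## Local properties of newforms at `v ∥ level`, `p = 2` -/

/-- **(F1)**, **(G)** the Steinberg condition at `v ∥ M` for the `2`-adic representation of a
newform of level `M` (`v` odd: F1; `v = 2`: G), with the sign `a_v(g)`. -/
def NewformStar (v : ℕ) : Prop :=
  ∀ {M : ℕ} [NeZero M] {g : CuspForm (CongruenceSubgroup.Gamma0 M) 2}, g.IsNewform →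
  v.Prime → v ∣ M → ¬ v ^ 2 ∣ M → ∀ (S : Finset ℕ), 2 ∈ S →
    (∀ q : ℕ, q.Prime → q ∣ M → q ∈ S) →
  ∀ (R : Type) [CommRing R] [IsDomain R] [IsDiscreteValuationRing R]
    [IsAdicComplete (maximalIdeal R) R] [Finite (ResidueField R)] [CharZero R],
    (2 : R) ∈ maximalIdeal R → ∀ (D : Subring ℂ) (ι : D →+* R)
    (hD : ∀ ℓ : ℕ, ℓ.Prime → ℓ ∉ S → ModularFormClass.qCoeff g ℓ ∈ D)
    (hv : ModularFormClass.qCoeff g v ∈ D) (ρ : GaloisRepAdic R),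
    (∀ ℓ : ℕ, ∀ hℓ : ℓ.Prime, ∀ hS : ℓ ∉ S, ∀ P : ValuationSubring (AlgebraicClosure ℚ),
        P.LiesOverPrime ℓ → ∀ σ : Γℚ, P.IsFrobeniusAt σ ℓ →
        LinearMap.charpoly (ρ.ρ σ) = X ^ 2 - C (ι ⟨_, hD ℓ hℓ hS⟩) * X + C (ℓ : R)) →
    ρ.residual.IsAbsolutelyIrreducible →
  StarAtRep ρ v (ι ⟨_, hv⟩)

/-! ## Block F: the conclusion -/

/-- the eigensystem of `E` at level `N Q` -/
def tE (E : EData) (Q : Finset ℕ) (l : Nat.Primes) : ℤ := if (l : ℕ) ∈ Q then 1 else E.a l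

/-- **(F)** `E` mod `2 ^ m` is an eigensystem of the Hecke algebra of the newforms of level `N Q`
congruent to `E` mod `2`. -/
def HeckePoint (E : EData) (Q : Finset ℕ) (m : ℕ) : Prop :=
  ∀ 𝔪 : Ideal (integralClosure ℤ ℂ), 𝔪.IsMaximal → (2 : integralClosure ℤ ℂ) ∈ 𝔪 →
  ∃ 𝓕 : Finset (CuspForm (CongruenceSubgroup.Gamma0 (lev E Q)) 2),
    (∀ f ∈ 𝓕, f.IsNewform ∧ CongE E 𝔪 f) ∧ 𝓕.card = 2 ^ Q.card * h2 E.N ∧
    (∀ f : CuspForm (CongruenceSubgroup.Gamma0 (lev E Q)) 2, f.IsNewform → CongE E 𝔪 f → f ∈ 𝓕) ∧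
    ∀ P : MvPolynomial Nat.Primes ℤ,
      (∀ f ∈ 𝓕, MvPolynomial.aeval (fun l : Nat.Primes => ModularFormClass.qCoeff f l) P = 0) →
      (2 ^ m : ℤ) ∣ MvPolynomial.aeval (tE E Q) P

/-- block F (proved in `TwoAdic/Glue*.lean` from the other blocks) -/
def BlockF : Prop :=
  ∀ (E : EData) (Q : Finset ℕ) (m : ℕ), (∀ q ∈ Q, IsAux E m q) → Upper E Q → Rank E Q →
    HeckePoint E Q m

/-! ## Block H: Mazur's principle -/

/-- `E` is modular -/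
def Modular (E : EData) : Prop :=
  ∃ (M : ℕ) (f : CuspForm (CongruenceSubgroup.Gamma0 M) 2), M ∣ E.N ∧ f.IsNormalizedEigenform ∧
    ∀ l : ℕ, l.Prime → ¬ l ∣ E.N → ModularFormClass.qCoeff f l = (E.a l : ℂ)

/-- **(H)** -/
def BlockH : Prop :=
  ∀ E : EData, (∃ r : ℕ, ∀ m : ℕ, 2 ≤ m → ∃ Q : Finset ℕ, Q.card ≤ r ∧ (∀ q ∈ Q, IsAux E m q) ∧
    HeckePoint E Q m) → Modular E

/-- the 2-adic modularity theorem -/
theorem modular_of_blocks (Sel : EData → Finset ℕ → Prop) (hB : BlockB Sel) (hCD : BlockCD Sel)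
    (hE : BlockE Sel) (hF : BlockF) (hH : BlockH) (E : EData) : Modular E := by
  refine hH E ?_
  obtain ⟨r, hr⟩ := hB E
  refine ⟨r, fun m hm => ?_⟩
  obtain ⟨Q, h1, h2, h3⟩ := hr m hm
  have h4 : ∀ q ∈ Q, IsAux E 2 q := by
    intro q hq
    obtain ⟨a, b, c, d, e⟩ := h2 q hq
    refine ⟨a, b, c, (pow_dvd_pow (2 : ℤ) hm).trans d, fun P hP σ hσ => ?_⟩
    obtain ⟨e1, e2⟩ := e P hP σ hσ
    refine ⟨e1, fun i j => ?_⟩
    exact (Ideal.span_singleton_le_span_singleton.mpr (pow_dvd_pow (2 : ℤ_[2]) hm)) (e2 i j)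
  exact ⟨Q, h1, h2, hF E Q m h2 (hCD E Q h4 h3) (hE E Q h4 h3)⟩

end Fermat.Agent.TwoAdic
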