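import Fermat.Agent.TwoAdic.KillJw
import Fermat.Agent.TwoAdic.Spec

/-!
# (F1) The Steinberg condition at `v ∥ level` for the `2`-adic representation of a newform, `v` odd
-/

set_option autoImplicit false
set_option linter.unusedSectionVars false
set_option linter.style.haveILetI false

namespace Fermat.Agent.TwoAdic

open IsLocalRing Polynomial ModularCurve AlgebraicCurve Fermat.Agent.QComp Fermat.Agent.MazurQ
  ModularFormClass

local notation "Qb" => AlgebraicClosure ℚ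
local notation "Γℚ" => (AlgebraicClosure ℚ ≃ₐ[ℚ] AlgebraicClosure ℚ)

/-- the sign in the coefficient ring -/
theorem iota_sign {R : Type} [CommRing R] {D : Subring ℂ} {ι : D →+* R} {z : ℂ} (hz : z ∈ D)
    {e : ℤ} (he : (e : ℂ) = z) : ι ⟨z, hz⟩ = (e : R) := by
  rw [← map_intCast ι e]
  congr 1
  exact Subtype.ext (he.symm.trans (by simp))

/-- **The Steinberg condition** at `q ∥ level`, `q ≠ p`, for the `p`-adic representation of a
newform, with sign `a_q(g)`. -/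
theorem starAtRep_newform {M q p : ℕ} [NeZero M] [NeZero q] [hqf : Fact q.Prime] (hM : ¬ q ∣ M)
    (hp : p.Prime) (hpq : p ≠ q) {g : CuspForm (CongruenceSubgroup.Gamma0 (M * q)) 2}
    (hg : g.IsNewform) {S : Finset ℕ} (hpS : p ∈ S) (hNS : ∀ r : ℕ, r.Prime → r ∣ M * q → r ∈ S)
    {R : Type} [CommRing R] [IsDomain R] [IsLocalRing R] [IsNoetherianRing R]
    [IsHausdorff (maximalIdeal R) R] [CharZero R] (hpR : (p : R) ∈ maximalIdeal R) {D : Subring ℂ}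
    {ι : D →+* R} (hD : ∀ ℓ : ℕ, ℓ.Prime → ℓ ∉ S → qCoeff g ℓ ∈ D) (hv : qCoeff g q ∈ D)
    (ρ : GaloisRepAdic R)
    (hρ : ∀ ℓ : ℕ, ∀ hℓ : ℓ.Prime, ∀ hS : ℓ ∉ S, ∀ P : ValuationSubring Qb,
        P.LiesOverPrime ℓ → ∀ σ : Γℚ, P.IsFrobeniusAt σ ℓ →
        LinearMap.charpoly (ρ.ρ σ) = X ^ 2 - C (ι ⟨_, hD ℓ hℓ hS⟩) * X + C (ℓ : R))
    (habs : ρ.residual.IsAbsolutelyIrreducible) :
    StarAtRep ρ q (ι ⟨_, hv⟩) := by
  obtain ⟨e, he, he2, -⟩ := exists_sign hM hg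
  rw [iota_sign hv he]
  have hdet := detIsCyclotomic_of_charpoly ρ hp hpR S fun ℓ hℓ hS P hP φ hφ =>
    ⟨_, hρ ℓ hℓ hS P hP φ hφ⟩
  refine starAtRep_of_gen ρ hqf.out ?_ fun P hP φ hφ =>
    genRelRep_of_transfer hM hp hpq ρ hdet
      (transferJ_newform hM hp hg hpS hNS hpR hD ρ hρ habs he) he2 hP hφ
  exact_mod_cast congrArg (Int.cast (R := R)) he2

/-- **(F1)** -/
theorem newformStar_odd {v : ℕ} (hv2 : v ≠ 2) : NewformStar v := by
  intro M hM0 g hg hv hvM hv2M S h2S hS R _ _ _ _ _ _ h2R D ι hD hvD ρ hρ habs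
  obtain ⟨M', hM'⟩ : ∃ M', M = M' * v := by
    obtain ⟨M', h⟩ := hvM
    exact ⟨M', by rw [h, mul_comm]⟩
  subst hM'
  haveI : Fact v.Prime := ⟨hv⟩
  haveI : NeZero v := ⟨hv.ne_zero⟩
  haveI : NeZero M' := ⟨fun h => NeZero.ne (M' * v) (by rw [h, zero_mul])⟩
  have hvM' : ¬ v ∣ M' := by
    rintro ⟨k, rfl⟩
    exact hv2M ⟨k, by ring⟩
  have h2R' : ((2 : ℕ) : R) ∈ maximalIdeal R := by exact_mod_cast h2R
  exact starAtRep_newform hvM' Nat.prime_two hv2.symm hg h2S hS h2R' hD hvD ρ hρ habs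

end Fermat.Agent.TwoAdic
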