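import Fermat.Agent.TwoAdic.Hesse

set_option autoImplicit false

/-!
# Local conditions at odd primes for the Hesse pencil
-/

namespace Fermat.Agent.TwoAdic

variable {c4 c6 Δ : ℤ}

/-- the class `(1, 0)` -/
theorem class_one {q : ℤ} {l m : ℤ} (hl : q ∣ l - 1) (hm : q ∣ m) :
    q ∣ hD c4 c6 l m - 1 ∧ q ∣ hC4 c4 c6 l m - c4 ∧ q ∣ hC6 c4 c6 l m - c6 := by
  obtain ⟨a, ha⟩ := hl
  obtain ⟨b, rfl⟩ := hm
  have hl' : l = 1 + q * a := by linear_combination ha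
  have h4 : q ∣ l^4 - 1 := ⟨a * (l^3 + l^2 + l + 1), by rw [hl']; ring⟩
  have h6 : q ∣ l^6 - 1 := ⟨a * (l^5 + l^4 + l^3 + l^2 + l + 1), by rw [hl']; ring⟩
  refine ⟨?_, ?_, ?_⟩
  · have : hD c4 c6 l (q * b) - 1 = (l^4 - 1) +
        q * (b * (-6*c4*l^2*(q*b) - 8*c6*l*(q*b)^2 - 3*c4^2*(q*b)^3)) := by
      unfold hD; ring
    rw [this]
    exact dvd_add h4 (dvd_mul_right _ _)
  · have : hC4 c4 c6 l (q * b) - c4 = c4 * (l^4 - 1) +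
        q * (b * (4*c6*l^3 + 6*c4^2*l^2*(q*b) + 4*c4*c6*l*(q*b)^2 -
          (3*c4^3 - 4*c6^2)*(q*b)^3)) := by
      unfold hC4; ring
    rw [this]
    exact dvd_add (Dvd.dvd.mul_left h4 _) (dvd_mul_right _ _)
  · have : hC6 c4 c6 l (q * b) - c6 = c6 * (l^6 - 1) +
        q * (b * (6*c4^2*l^5 + 15*c4*c6*l^4*(q*b) + 20*c6^2*l^3*(q*b)^2 +
          15*c4^2*c6*l^2*(q*b)^3 + 6*(3*c4^4 - 2*c4*c6^2)*l*(q*b)^4 +
          (9*c4^3*c6 - 8*c6^3)*(q*b)^5)) := by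
      unfold hC6; ring
    rw [this]
    exact dvd_add (Dvd.dvd.mul_left h6 _) (dvd_mul_right _ _)

/-- the class `(3 s + q, 1)` : exact formulas -/
theorem hD_odd (q s d j k m : ℤ) : hD (s^2 + q^2*d) (s*(s^2 + q^2*d) - q^2*j) (3*s*m + q*k) m =
    q * (k * (4*s*m + q*k)^3 + q * (8*m^3*(3*s*m + q*k)*j -
      m^2*d*(6*(3*s*m + q*k)^2 + 8*s*m*(3*s*m + q*k) + 6*s^2*m^2 + 3*q^2*d*m^2))) := by
  unfold hD; ring

theorem hC4_odd (q s d j k m : ℤ) : ∃ X,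
    hC4 (s^2 + q^2*d) (s*(s^2 + q^2*d) - q^2*j) (3*s*m + q*k) m =
    s^2 * (4*s*m + q*k)^4 + q * X := by
  obtain ⟨D, hD⟩ : ∃ D, D = q^2 * d := ⟨_, rfl⟩
  obtain ⟨J, hJ⟩ : ∃ J, J = q^2 * j := ⟨_, rfl⟩
  obtain ⟨L, hL⟩ : ∃ L, L = 3*s*m + q*k := ⟨_, rfl⟩
  have h : 4*s*m + q*k = L + s*m := by rw [hL]; ring
  refine ⟨q * d * (L^4 + 4*s*L^3*m + 6*(2*s^2 + D)*L^2*m^2 + 4*s*(2*s^2 + D)*L*m^3 -
    (s^4 + 5*s^2*D + 3*D^2)*m^4) + q * j * (-4*L^3*m - 4*(s^2+D)*L*m^3 +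
      4*(J - 2*s*(s^2+D))*m^4), ?_⟩
  rw [← hD, ← hJ, h, ← hL]
  have e : q * (q * d * (L^4 + 4*s*L^3*m + 6*(2*s^2 + D)*L^2*m^2 + 4*s*(2*s^2 + D)*L*m^3 -
    (s^4 + 5*s^2*D + 3*D^2)*m^4) + q * j * (-4*L^3*m - 4*(s^2+D)*L*m^3 +
      4*(J - 2*s*(s^2+D))*m^4)) = D * (L^4 + 4*s*L^3*m + 6*(2*s^2 + D)*L^2*m^2 +
      4*s*(2*s^2 + D)*L*m^3 - (s^4 + 5*s^2*D + 3*D^2)*m^4) + J * (-4*L^3*m - 4*(s^2+D)*L*m^3 +
      4*(J - 2*s*(s^2+D))*m^4) := by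
    rw [hD, hJ]; ring
  rw [e]
  unfold hC4; ring

/-- local conditions at an odd bad prime -/
theorem local_odd_bad (h : c4^3 - c6^2 = 1728*Δ) (hΔ : Δ ≠ 0) {q : ℕ} (hq : q.Prime)
    (hq2 : q ≠ 2) (hqΔ : (q : ℤ) ∣ Δ) (hss : ¬ (q : ℤ) ∣ c4) :
    ∃ l₀ m₀ : ℕ, ∀ l m : ℤ, (q : ℤ)^4 ∣ l - l₀ → (q : ℤ)^4 ∣ m - m₀ →
      ¬ ((q : ℤ) ∣ l ∧ (q : ℤ) ∣ m) ∧ ¬ (q : ℤ) ∣ hC4 c4 c6 l m ∧
      Odd (padicValInt q Δ + 3 * padicValInt q (hD c4 c6 l m)) := by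
  have hF : Fact q.Prime := ⟨hq⟩
  have hp : Prime (q : ℤ) := Nat.prime_iff_prime_int.mp hq
  have hp2 : ¬ (q : ℤ) ∣ 2 := by
    intro h
    have h1 : q ∣ 2 := by exact_mod_cast h
    exact hq2 ((Nat.prime_dvd_prime_iff_eq hq Nat.prime_two).mp h1)
  have h44 : (q : ℤ) ∣ (q : ℤ)^4 := dvd_pow_self _ (by norm_num)
  rcases Nat.even_or_odd (padicValInt q Δ) with hv | hv
  · -- even valuation
    obtain ⟨Δ', hΔ'⟩ : ∃ Δ', Δ = (q : ℤ)^2 * Δ' := by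
      have h1 : padicValInt q Δ ≠ 0 := by
        intro h0
        rw [padicValInt.eq_zero_iff] at h0
        rcases h0 with h0 | h0 | h0
        · exact hq.one_lt.ne' h0
        · exact hΔ h0
        · exact h0 hqΔ
      have h3 : 2 ≤ padicValInt q Δ := by
        rcases hv with ⟨r, hr⟩
        omega
      have h4 : ((q : ℕ) : ℤ)^2 ∣ Δ := by
        rw [padicValInt_dvd_iff]
        right
        exact h3
      exact h4
    obtain ⟨x, y, hxy⟩ : IsCoprime c4 ((q : ℤ)^2) :=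
      IsCoprime.pow_right ((Prime.coprime_iff_not_dvd hp).mpr hss).symm
    obtain ⟨s, hs⟩ : ∃ s, s = x * c6 := ⟨_, rfl⟩
    obtain ⟨j, hj⟩ : ∃ j, s * c4 = c6 + (q : ℤ)^2 * j := by
      refine ⟨-(y * c6), ?_⟩
      rw [hs]; linear_combination c6 * hxy
    have hc6 : c6 = s * c4 - (q : ℤ)^2 * j := by linear_combination -hj
    obtain ⟨d, hd⟩ : ∃ d, c4 = s^2 + (q : ℤ)^2 * d := by
      have h7 : (q : ℤ)^2 ∣ c4^2 * (c4 - s^2) := by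
        refine ⟨1728 * Δ' - 2 * (s * c4 * j) + (q : ℤ)^2 * j^2, ?_⟩
        rw [hc6, hΔ'] at h
        linear_combination h
      have h8 : IsCoprime ((q : ℤ)^2) (c4^2) :=
        IsCoprime.pow ((Prime.coprime_iff_not_dvd hp).mpr hss)
      obtain ⟨d, hd⟩ := h8.dvd_of_dvd_mul_left h7
      exact ⟨d, by linear_combination hd⟩
    have hsq : ¬ (q : ℤ) ∣ s := by
      intro hs0
      apply hss
      rw [hd]
      exact dvd_add (Dvd.dvd.trans hs0 (dvd_pow_self _ two_ne_zero))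
        (Dvd.dvd.mul_right (dvd_pow_self _ two_ne_zero) _)
    have hq4 : (0 : ℤ) < (q : ℤ)^4 := by
      have : (0 : ℤ) < q := by exact_mod_cast hq.pos
      positivity
    refine ⟨((3 * s + q) % (q : ℤ)^4).toNat, 1, fun l m hl hm => ?_⟩
    rw [Int.toNat_of_nonneg (Int.emod_nonneg _ hq4.ne')] at hl
    obtain ⟨a, ha⟩ := hm
    obtain ⟨b, hb⟩ : ∃ b, l = 3 * s + q + (q : ℤ)^4 * b := by
      obtain ⟨b, hb⟩ := hl
      refine ⟨b - (3 * s + q) / (q : ℤ)^4, ?_⟩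
      have := Int.emod_add_mul_ediv (3 * s + q) ((q : ℤ)^4)
      linear_combination hb + this
    obtain ⟨k, hk⟩ : ∃ k, k = 1 + (q : ℤ)^3 * b - 3 * s * (q : ℤ)^3 * a := ⟨_, rfl⟩
    have hm' : m = 1 + (q : ℤ)^4 * a := by push_cast at ha; linear_combination ha
    have hl' : l = 3 * s * m + q * k := by
      rw [hb, hm', hk]; ring
    have hmq : ¬ (q : ℤ) ∣ m := by
      rw [hm']
      intro hh
      apply hp.not_dvd_one
      exact (dvd_add_left (Dvd.dvd.mul_right h44 a)).mp hh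
    have hkq : ¬ (q : ℤ) ∣ k := by
      intro hh
      apply hp.not_dvd_one
      have : (1 : ℤ) = k - q * ((q : ℤ)^2 * b - 3 * s * (q : ℤ)^2 * a) := by rw [hk]; ring
      rw [this]
      exact dvd_sub hh (dvd_mul_right _ _)
    have hwq : ¬ (q : ℤ) ∣ 4 * s * m + q * k := by
      intro hh
      have h1 : (q : ℤ) ∣ 4 * s * m := (dvd_add_left (dvd_mul_right _ _)).mp hh
      rcases hp.dvd_or_dvd h1 with h1 | h1
      · rcases hp.dvd_or_dvd h1 with h1 | h1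
        · apply hp2
          have : (4 : ℤ) = 2^2 := by norm_num
          rw [this] at h1
          exact hp.dvd_of_dvd_pow h1
        · exact hsq h1
      · exact hmq h1
    rw [hd] at hc6
    have e1 := hD_odd q s d j k m
    obtain ⟨X4, hX4⟩ := hC4_odd q s d j k m
    rw [← hd, ← hl', hd, ← hc6, ← hd] at e1 hX4
    obtain ⟨X, hX⟩ : ∃ X, hD c4 c6 l m = q * (k * (4*s*m + q*k)^3 + q * X) := ⟨_, e1⟩
    refine ⟨fun h => hmq h.2, ?_, ?_⟩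
    · rw [hX4]
      intro hh
      have h1 : (q : ℤ) ∣ s^2 * (4*s*m + q*k)^4 := (dvd_add_left (dvd_mul_right _ _)).mp hh
      rcases hp.dvd_or_dvd h1 with h1 | h1
      · exact hsq (hp.dvd_of_dvd_pow h1)
      · exact hwq (hp.dvd_of_dvd_pow h1)
    · have ho : ¬ (q : ℤ) ∣ k * (4*s*m + q*k)^3 + q * X := by
        intro hh
        have h1 := (dvd_add_left (dvd_mul_right _ _)).mp hh
        rcases hp.dvd_or_dvd h1 with h1 | h1
        · exact hkq h1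
        · exact hwq (hp.dvd_of_dvd_pow h1)
      have ho0 : k * (4*s*m + q*k)^3 + q * X ≠ 0 := by
        intro h0
        rw [h0] at ho
        exact ho (dvd_zero _)
      rw [hX, padicValInt.mul hp.ne_zero ho0, padicValInt.eq_zero_of_not_dvd ho,
        padicValInt.self hq.one_lt]
      exact hv.add_odd (by decide)
  · refine ⟨1, 0, fun l m hl hm => ?_⟩
    have hl' : (q : ℤ) ∣ l - 1 := h44.trans (by simpa using hl)
    have hm' : (q : ℤ) ∣ m := h44.trans (by simpa using hm)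
    obtain ⟨k1, k2, k3⟩ := class_one (c4 := c4) (c6 := c6) hl' hm'
    refine ⟨?_, ?_, ?_⟩
    · rintro ⟨h1, -⟩
      exact hp.not_dvd_one ((dvd_sub_right h1).mp hl')
    · intro h1
      exact hss ((dvd_sub_right h1).mp k2)
    · have : ¬ (q : ℤ) ∣ hD c4 c6 l m := by
        intro h1
        exact hp.not_dvd_one ((dvd_sub_right h1).mp k1)
      rw [padicValInt.eq_zero_of_not_dvd this]
      exact hv

/-- local conditions at a good prime -/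
theorem local_good {q : ℕ} (hq : q.Prime) {l m : ℤ} (hl : (q : ℤ)^4 ∣ l - (1 : ℕ))
    (hm : (q : ℤ)^4 ∣ m - (0 : ℕ)) (h3 : q = 3 → ¬ (3 : ℤ) ∣ c4 ∨ ((3 : ℤ) ∣ c4 ∧ (27 : ℤ) ∣ c6)) :
    ¬ ((q : ℤ) ∣ l ∧ (q : ℤ) ∣ m) ∧ ¬ (q : ℤ) ∣ hD c4 c6 l m ∧
      (q = 3 → ¬ (3 : ℤ) ∣ hC4 c4 c6 l m ∨
        ((3 : ℤ) ∣ hC4 c4 c6 l m ∧ (27 : ℤ) ∣ hC6 c4 c6 l m)) := by
  have hp : Prime (q : ℤ) := Nat.prime_iff_prime_int.mp hq
  have h44 : (q : ℤ) ∣ (q : ℤ)^4 := dvd_pow_self _ (by norm_num)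
  have hl' : (q : ℤ)^4 ∣ l - 1 := by simpa using hl
  have hm' : (q : ℤ)^4 ∣ m := by simpa using hm
  obtain ⟨k1, k2, k3⟩ := class_one (c4 := c4) (c6 := c6) hl' hm'
  refine ⟨?_, ?_, ?_⟩
  · rintro ⟨h1, -⟩
    exact hp.not_dvd_one ((dvd_sub_right h1).mp (h44.trans hl'))
  · intro h1
    exact hp.not_dvd_one ((dvd_sub_right h1).mp (h44.trans k1))
  · intro hq3
    subst hq3
    have t3 : (3 : ℤ) ∣ ((3 : ℕ) : ℤ)^4 := by norm_num
    have t27 : (27 : ℤ) ∣ ((3 : ℕ) : ℤ)^4 := by norm_num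
    rcases h3 rfl with h | ⟨h, h'⟩
    · left
      intro h1
      exact h ((dvd_sub_right h1).mp (t3.trans k2))
    · right
      exact ⟨(dvd_sub_left h).mp (t3.trans k2), (dvd_sub_left h').mp (t27.trans k3)⟩

end Fermat.Agent.TwoAdic
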