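import Fermat.Prelude.Def_FLTPrelim_Modularity
import Mathlib

set_option autoImplicit false

/-!
# No rational 2-torsion
-/

namespace Fermat.Agent.TwoAdic

theorem exists_int_root_cubic {a b c : ℤ} {x : ℚ} (h : x^3 + a*x^2 + b*x + c = 0) :
    ∃ z : ℤ, z^3 + a*z^2 + b*z + c = 0 := by
  have hint : IsIntegral ℤ x := by
    refine ⟨(.X^3 + .C a * .X^2 + .C b * .X + .C c : Polynomial ℤ), ?_, ?_⟩
    · monicity!
    · simp only [Polynomial.eval₂_add, Polynomial.eval₂_mul, Polynomial.eval₂_pow,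
        Polynomial.eval₂_X, Polynomial.eval₂_C]
      simp only [algebraMap_int_eq, eq_intCast]
      exact h
  obtain ⟨z, hz⟩ := IsIntegrallyClosed.isIntegral_iff.mp hint
  refine ⟨z, ?_⟩
  rw [← hz] at h
  simp only [algebraMap_int_eq, eq_intCast] at h
  exact_mod_cast h

/-- a semistable equation with all valuations of the discriminant odd, and large discriminant, has
no rational 2-torsion point. -/
theorem no_two_torsion (W : WeierstrassCurve ℤ) (hΔ : W.Δ ≠ 0) (hss : W.IsSemistableModel)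
    (h2 : (2 : ℤ) ∣ W.Δ)
    (hodd : ∀ q : ℕ, q.Prime → (q : ℤ) ∣ W.Δ → Odd (padicValInt q W.Δ))
    (hbig : |W.c₄| + 1 < 256 * |W.Δ|) (x : ℚ) :
    4 * x^3 + W.b₂ * x^2 + 2 * W.b₄ * x + W.b₆ ≠ 0 := by
  intro h
  obtain ⟨z, hz⟩ := exists_int_root_cubic (a := W.b₂) (b := 8 * W.b₄) (c := 16 * W.b₆)
    (x := 4 * x) (by push_cast; linear_combination 16 * h)
  obtain ⟨A, hA⟩ : ∃ A, A = 3 * z + W.b₂ := ⟨_, rfl⟩
  obtain ⟨B, hB⟩ : ∃ B, B = 3 * z^2 + 2 * W.b₂ * z + 8 * W.b₄ := ⟨_, rfl⟩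
  have hc4 : W.c₄ = A^2 - 3 * B := by
    rw [hA, hB, WeierstrassCurve.c₄]; ring
  have hdisc : 256 * W.Δ = B^2 * (A^2 - 4 * B) := by
    have hb8 := W.b_relation
    have hΔ' : 4 * W.Δ = -W.b₂^2 * (W.b₂ * W.b₆ - W.b₄^2) - 32 * W.b₄^3 - 108 * W.b₆^2 +
        36 * W.b₂ * W.b₄ * W.b₆ := by
      rw [WeierstrassCurve.Δ]; linear_combination -W.b₂^2 * hb8
    have e6 : 16 * W.b₆ = -(z^3 + W.b₂ * z^2 + 8 * W.b₄ * z) := by linear_combination hz
    have : 4 * (256 * W.Δ) = 4 * (B^2 * (A^2 - 4 * B)) := by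
      rw [hA, hB]
      have e7 : 4 * (256 * W.Δ) = -16 * W.b₂^2 * (W.b₂ * (16 * W.b₆) - 16 * W.b₄^2) -
          32 * 256 * W.b₄^3 - 108 * (16 * W.b₆)^2 + 36 * 16 * W.b₂ * W.b₄ * (16 * W.b₆) := by
        linear_combination 256 * hΔ'
      rw [e7, e6]
      ring
    exact mul_left_cancel₀ (by norm_num) this
  have hB0 : B ≠ 0 := by
    rintro rfl
    apply hΔ
    have : (256 : ℤ) * W.Δ = 0 := by rw [hdisc]; ring
    exact (mul_eq_zero.mp this).resolve_left (by norm_num)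
  have hB1 : B.natAbs = 1 := by
    by_contra hcon
    obtain ⟨q, hq, hqB⟩ := Nat.exists_prime_and_dvd hcon
    have hF : Fact q.Prime := ⟨hq⟩
    have hp : Prime (q : ℤ) := Nat.prime_iff_prime_int.mp hq
    have hqB' : (q : ℤ) ∣ B := Int.natCast_dvd.mpr hqB
    have hqΔ : (q : ℤ) ∣ W.Δ := by
      have h1 : (q : ℤ) ∣ 256 * W.Δ := by
        rw [hdisc]
        exact Dvd.dvd.mul_right (hqB'.trans (dvd_pow_self _ two_ne_zero)) _
      rcases hp.dvd_or_dvd h1 with h1 | h1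
      · have : (256 : ℤ) = 2^8 := by norm_num
        rw [this] at h1
        have h3 := hp.dvd_of_dvd_pow h1
        have h4 : q ∣ 2 := by exact_mod_cast h3
        rw [(Nat.prime_dvd_prime_iff_eq hq Nat.prime_two).mp h4]
        exact_mod_cast h2
      · exact h1
    have hqc : ¬ (q : ℤ) ∣ A^2 - 4 * B := by
      intro h1
      have h3 : (q : ℤ) ∣ A^2 := (dvd_sub_left (Dvd.dvd.mul_left hqB' _)).mp h1
      apply hss q hq hqΔ
      rw [hc4]
      exact dvd_sub h3 (Dvd.dvd.mul_left hqB' _)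
    have hne : A^2 - 4 * B ≠ 0 := by
      intro h0
      rw [h0] at hqc
      exact hqc (dvd_zero _)
    have hval : padicValInt q (16^2 * W.Δ) = padicValInt q (B^2 * (A^2 - 4 * B)) := by
      rw [← hdisc]; norm_num
    rw [padicValInt.mul (by norm_num) hΔ, padicValInt.mul (pow_ne_zero _ hB0) hne,
      padicValInt.eq_zero_of_not_dvd hqc, add_zero, pow_two, pow_two,
      padicValInt.mul (by norm_num) (by norm_num), padicValInt.mul hB0 hB0] at hval
    have := hodd q hq hqΔ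
    rw [← Nat.not_even_iff_odd] at this
    apply this
    have h5 : Even (padicValInt q 16 + padicValInt q 16 + padicValInt q W.Δ) := by
      rw [hval]; exact ⟨_, rfl⟩
    rw [Nat.even_add] at h5
    exact h5.mp ⟨_, rfl⟩
  have hBB : |B| = 1 := by rw [Int.abs_eq_natAbs, hB1]; rfl
  have hB2 : B^2 = 1 := by rw [← sq_abs, hBB]; norm_num
  have h3 : 256 * W.Δ = W.c₄ - B := by
    rw [hdisc, hc4, hB2]; ring
  have h4 : 256 * |W.Δ| = |W.c₄ - B| := by
    rw [← h3, abs_mul]; rfl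
  have h5 : |W.c₄ - B| ≤ |W.c₄| + 1 := (abs_sub _ _).trans (by rw [hBB])
  omega

end Fermat.Agent.TwoAdic
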