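import Fermat.Agent.TwoAdic.Hesse

set_option autoImplicit false

/-!
# Local counts for the squarefree sieve of the discriminant form
-/

namespace Fermat.Agent.TwoAdic

variable {c4 c6 : ℤ}

/-- discriminant certificate -/
theorem no_double_root {k : Type*} [Field k] (h2 : (2 : k) ≠ 0) {a c x : k}
    (hd : a^3 ≠ c^2) (h1 : x^3 - 3*a*x - 2*c = 0) (h0 : x^4 - 6*a*x^2 - 8*c*x - 3*a^2 = 0)
    (h3 : (3 : k) ≠ 0) : False := by
  apply hd
  have e1 : a*x^2 + 2*c*x + a^2 = 0 := by
    have : 3 * (a*x^2 + 2*c*x + a^2) = 0 := by linear_combination x * h1 - h0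
    exact (mul_eq_zero.mp this).resolve_left h3
  have e2 : c*x^2 + 2*a^2*x + a*c = 0 := by
    have : 2 * (c*x^2 + 2*a^2*x + a*c) = 0 := by linear_combination x * e1 - a * h1
    exact (mul_eq_zero.mp this).resolve_left h2
  have e3 : (a^3 - c^2) * x = 0 := by
    have : 2 * ((a^3 - c^2) * x) = 0 := by linear_combination a * e2 - c * e1
    exact (mul_eq_zero.mp this).resolve_left h2
  rcases mul_eq_zero.mp e3 with h | h
  · exact sub_eq_zero.mp h
  · rw [h] at e1 h1
    have a1 : a^2 = 0 := by linear_combination e1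
    have a2 : c = 0 := by
      have : 2 * c = 0 := by linear_combination -h1
      exact (mul_eq_zero.mp this).resolve_left h2
    rw [a2, pow_eq_zero_iff (two_ne_zero) |>.mp a1]
    ring

/-- the roots modulo `q²` -/
def rts (c4 c6 : ℤ) (n : ℕ) [NeZero n] : Finset (ZMod n) :=
  Finset.univ.filter fun x => hD (c4 : ZMod n) (c6 : ZMod n) x 1 = 0

theorem dvd_hD_iff (l m : ℤ) (n : ℕ) : (n : ℤ) ∣ hD c4 c6 l m ↔
    hD (c4 : ZMod n) (c6 : ZMod n) (l : ZMod n) (m : ZMod n) = 0 := by
  rw [← ZMod.intCast_zmod_eq_zero_iff_dvd]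
  have := map_hD (Int.castRingHom (ZMod n)) c4 c6 l m
  simp only [eq_intCast] at this
  rw [this]

theorem card_rts {q : ℕ} (hq : q.Prime) (hq6 : ¬ q ∣ 6) (hd : ¬ (q : ℤ) ∣ c4^3 - c6^2)
    [NeZero (q^2)] : (rts c4 c6 (q^2)).card ≤ 4 := by
  classical
  have : Fact q.Prime := ⟨hq⟩
  have hqp : Prime (q : ℤ) := Nat.prime_iff_prime_int.mp hq
  have h2 : (2 : ZMod q) ≠ 0 := by
    intro h
    have : (q : ℕ) ∣ 2 := (ZMod.natCast_eq_zero_iff 2 q).mp (by exact_mod_cast h)
    exact hq6 (this.trans (by norm_num))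
  have h3 : (3 : ZMod q) ≠ 0 := by
    intro h
    have : (q : ℕ) ∣ 3 := (ZMod.natCast_eq_zero_iff 3 q).mp (by exact_mod_cast h)
    exact hq6 (this.trans (by norm_num))
  let π : ZMod (q^2) →+* ZMod q := ZMod.castHom (dvd_pow_self q two_ne_zero) (ZMod q)
  -- integer lifts
  have hinj : Set.InjOn π (rts c4 c6 (q^2) : Set (ZMod (q^2))) := by
    intro x hx y hy hxy
    obtain ⟨a, rfl⟩ := ZMod.intCast_surjective x
    obtain ⟨b, rfl⟩ := ZMod.intCast_surjective y
    simp only [rts, Finset.coe_filter, Finset.mem_univ, true_and, Set.mem_ofPred_eq] at hx hy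
    have hx' : ((q^2 : ℕ) : ℤ) ∣ hD c4 c6 a 1 := (dvd_hD_iff a 1 _).mpr (by push_cast; exact hx)
    have hy' : ((q^2 : ℕ) : ℤ) ∣ hD c4 c6 b 1 := (dvd_hD_iff b 1 _).mpr (by push_cast; exact hy)
    have hab : (q : ℤ) ∣ b - a := by
      rw [map_intCast, map_intCast] at hxy
      exact (ZMod.intCast_eq_intCast_iff_dvd_sub a b q).mp hxy
    rw [ZMod.intCast_eq_intCast_iff_dvd_sub]
    -- factor the difference
    have hfac : hD c4 c6 b 1 - hD c4 c6 a 1 = (b - a) *
        (b^3 + b^2*a + b*a^2 + a^3 - 6*c4*(b + a) - 8*c6) := by unfold hD; ring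
    have hdiv : ((q^2 : ℕ) : ℤ) ∣ (b - a) *
        (b^3 + b^2*a + b*a^2 + a^3 - 6*c4*(b + a) - 8*c6) := by
      rw [← hfac]; exact dvd_sub hy' hx'
    have hunit : ¬ (q : ℤ) ∣ (b^3 + b^2*a + b*a^2 + a^3 - 6*c4*(b + a) - 8*c6) := by
      intro h
      have e1 : (b : ZMod q) = a := by
        rw [eq_comm, ZMod.intCast_eq_intCast_iff_dvd_sub]; exact hab
      have e2 : ((b^3 + b^2*a + b*a^2 + a^3 - 6*c4*(b + a) - 8*c6 : ℤ) : ZMod q) = 0 :=
        (ZMod.intCast_zmod_eq_zero_iff_dvd _ q).mpr h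
      push_cast at e2
      rw [e1] at e2
      have e3 : (a : ZMod q)^3 - 3*c4*a - 2*c6 = 0 := by
        have h4 : (4 : ZMod q) ≠ 0 := by
          have : (4 : ZMod q) = 2^2 := by norm_num
          rw [this]; exact pow_ne_zero _ h2
        have : 4 * ((a : ZMod q)^3 - 3*c4*a - 2*c6) = 0 := by linear_combination e2
        exact (mul_eq_zero.mp this).resolve_left h4
      have e4 : hD (c4 : ZMod q) c6 a 1 = 0 := by
        have h5 : (q : ℤ) ∣ hD c4 c6 a 1 :=
          dvd_trans (by exact_mod_cast dvd_pow_self q two_ne_zero) hx'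
        have := (dvd_hD_iff a 1 q).mp h5
        simpa using this
      apply no_double_root h2 (a := (c4 : ZMod q)) (c := (c6 : ZMod q)) (x := (a : ZMod q)) ?_ e3
        ?_ h3
      · intro h5
        apply hd
        rw [← ZMod.intCast_zmod_eq_zero_iff_dvd]
        push_cast
        rw [h5, sub_self]
      · unfold hD at e4
        linear_combination e4
    have hcop : IsCoprime (((q^2 : ℕ) : ℤ)) (b^3 + b^2*a + b*a^2 + a^3 - 6*c4*(b + a) - 8*c6) := by
      push_cast
      exact IsCoprime.pow_left ((Prime.coprime_iff_not_dvd hqp).mpr hunit)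
    exact hcop.dvd_of_dvd_mul_right hdiv
  -- count in the field
  rw [← Finset.card_image_of_injOn hinj]
  let f : Polynomial (ZMod q) := .X^4 - .C (6 * (c4 : ZMod q)) * .X^2 - .C (8 * (c6 : ZMod q)) * .X -
    .C (3 * (c4 : ZMod q)^2)
  have hf0 : f ≠ 0 := by
    intro h
    have h1 : f.coeff 4 = 1 := by
      simp only [f]
      compute_degree!
    rw [h, Polynomial.coeff_zero] at h1
    exact zero_ne_one h1
  have hfd : f.natDegree ≤ 4 := by
    simp only [f]
    compute_degree!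
  have hsub : (rts c4 c6 (q^2)).image π ⊆ f.roots.toFinset := by
    intro z hz
    obtain ⟨x, hx, rfl⟩ := Finset.mem_image.mp hz
    rw [Multiset.mem_toFinset, Polynomial.mem_roots hf0, Polynomial.IsRoot.def]
    simp only [rts, Finset.mem_filter, Finset.mem_univ, true_and] at hx
    have h5 := congrArg π hx
    rw [map_hD, map_zero, map_intCast, map_intCast, map_one] at h5
    simp only [f, Polynomial.eval_sub, Polynomial.eval_pow, Polynomial.eval_mul, Polynomial.eval_C,
      Polynomial.eval_X]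
    unfold hD at h5
    linear_combination h5
  calc _ ≤ f.roots.toFinset.card := Finset.card_le_card hsub
    _ ≤ f.roots.card := Multiset.toFinset_card_le _
    _ ≤ f.natDegree := Polynomial.card_roots' _
    _ ≤ 4 := hfd

theorem exists_root_sq {q : ℕ} (hq : q.Prime) [NeZero (q^2)] {l m : ℤ} (hm : ¬ (q : ℤ) ∣ m)
    (h : ((q^2 : ℕ) : ℤ) ∣ hD c4 c6 l m) :
    ∃ ρ ∈ rts c4 c6 (q^2), (l : ZMod (q^2)) = ρ * (m : ZMod (q^2)) := by
  have hqp : Prime (q : ℤ) := Nat.prime_iff_prime_int.mp hq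
  have hcop : IsCoprime ((q^2 : ℕ) : ℤ) m := by
    push_cast
    exact IsCoprime.pow_left ((Prime.coprime_iff_not_dvd hqp).mpr hm)
  have hunit : IsUnit ((m : ℤ) : ZMod (q^2)) := by
    obtain ⟨u, v, huv⟩ := hcop
    refine IsUnit.of_mul_eq_one ((v : ℤ) : ZMod (q^2)) ?_
    have := congrArg (fun z : ℤ => (z : ZMod (q^2))) huv
    simp only [Int.cast_add, Int.cast_mul, Int.cast_one, Int.cast_natCast] at this
    rw [ZMod.natCast_self, mul_zero, zero_add] at this
    rw [mul_comm]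
    exact this
  obtain ⟨u, hu⟩ := hunit
  refine ⟨(l : ZMod (q^2)) * ((u⁻¹ : (ZMod (q^2))ˣ) : ZMod (q^2)), ?_, ?_⟩
  · simp only [rts, Finset.mem_filter, Finset.mem_univ, true_and]
    have h1 := (dvd_hD_iff _ _ _).mp h
    rw [← hu] at h1
    have h2 : hD (c4 : ZMod (q^2)) c6 ((l : ZMod (q^2)) *
        ((u⁻¹ : (ZMod (q^2))ˣ) : ZMod (q^2))) 1 =
        ((u⁻¹ : (ZMod (q^2))ˣ) : ZMod (q^2))^4 *
          hD (c4 : ZMod (q^2)) c6 (l : ZMod (q^2)) u := by
      have hinv : ((u⁻¹ : (ZMod (q^2))ˣ) : ZMod (q^2)) * u = 1 := Units.inv_mul u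
      generalize ((u⁻¹ : (ZMod (q^2))ˣ) : ZMod (q^2)) = v at *
      generalize (l : ZMod (q^2)) = x
      generalize (u : ZMod (q^2)) = w at *
      have : hD (c4 : ZMod (q^2)) c6 (x * v) 1 = hD (c4 : ZMod (q^2)) c6 (x * v) (v * w) := by
        rw [hinv]
      rw [this]
      unfold hD; ring
    rw [h2, h1, mul_zero]
  · rw [← hu, mul_assoc, Units.inv_mul, mul_one]

/-- number of elements of an arithmetic progression in a residue class -/
theorem card_class {n X : ℕ} (S : Finset ℕ) (hS : S ⊆ Finset.range X)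
    (h : ∀ s ∈ S, ∀ s' ∈ S, s ≡ s' [MOD n]) : S.card ≤ X / n + 1 := by
  have hinj : Set.InjOn (fun s => s / n) (S : Set ℕ) := by
    intro s hs s' hs' hss
    have h1 : s % n = s' % n := h s hs s' hs'
    have h2 : s / n = s' / n := hss
    rw [← Nat.div_add_mod s n, ← Nat.div_add_mod s' n, h1, h2]
  rw [← Finset.card_image_of_injOn hinj]
  calc _ ≤ (Finset.range (X / n + 1)).card := by
        apply Finset.card_le_card
        intro z hz
        obtain ⟨s, hs, rfl⟩ := Finset.mem_image.mp hz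
        rw [Finset.mem_range]
        have := Finset.mem_range.mp (hS hs)
        exact Nat.lt_succ_of_le (Nat.div_le_div_right this.le)
    _ = _ := Finset.card_range _

/-- the points of the box where `q²` divides the form -/
noncomputable def badSet (c4 c6 W a b : ℤ) (X q : ℕ) : Finset (ℕ × ℕ) := by
  classical exact
  (Finset.range X ×ˢ Finset.range X).filter fun p =>
    ((q^2 : ℕ) : ℤ) ∣ hD c4 c6 (a + W * p.1) (b + W * p.2)

theorem modEq_of_dvd {n : ℕ} {W a : ℤ} (hn : IsCoprime (n : ℤ) W) {s s' : ℕ}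
    (h : (n : ℤ) ∣ (a + W * s) - (a + W * s')) : s ≡ s' [MOD n] := by
  have h1 : (n : ℤ) ∣ W * ((s : ℤ) - s') := by
    have : (a + W * s) - (a + W * s') = W * ((s : ℤ) - s') := by ring
    rwa [this] at h
  have h2 := hn.dvd_of_dvd_mul_left h1
  exact (Nat.modEq_iff_dvd.mpr (by
    have : ((s' : ℤ) - s) = -((s : ℤ) - s') := by ring
    rw [this]; exact (dvd_neg.mpr h2)))

theorem card_badSet {W a b : ℤ} {X q : ℕ} (hq : q.Prime) (hq6 : ¬ q ∣ 6)
    (hd : ¬ (q : ℤ) ∣ c4^3 - c6^2) (hW : ¬ (q : ℤ) ∣ W) :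
    (badSet c4 c6 W a b X q).card ≤ 4 * X * (X / q^2 + 1) + (X / q + 1)^2 := by
  classical
  have : NeZero (q^2) := ⟨pow_ne_zero _ hq.ne_zero⟩
  have hqp : Prime (q : ℤ) := Nat.prime_iff_prime_int.mp hq
  have hWq : IsCoprime (q : ℤ) W := (Prime.coprime_iff_not_dvd hqp).mpr hW
  have hWq2 : IsCoprime ((q^2 : ℕ) : ℤ) W := by push_cast; exact hWq.pow_left
  -- part A
  let SA : Finset (ℕ × ℕ) := (Finset.range X).biUnion fun t =>
    (rts c4 c6 (q^2)).biUnion fun ρ =>
      ((Finset.range X).filter fun s : ℕ =>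
        ((a + W * s : ℤ) : ZMod (q^2)) = ρ * ((b + W * t : ℤ) : ZMod (q^2))).image fun s => (s, t)
  let SB : Finset (ℕ × ℕ) := ((Finset.range X).filter fun s : ℕ => (q : ℤ) ∣ a + W * s) ×ˢ
    ((Finset.range X).filter fun t : ℕ => (q : ℤ) ∣ b + W * t)
  have hsub : badSet c4 c6 W a b X q ⊆ SA ∪ SB := by
    rintro ⟨s, t⟩ hp
    simp only [badSet, Finset.mem_filter, Finset.mem_product, Finset.mem_range] at hp
    obtain ⟨⟨hs, ht⟩, hdvd⟩ := hp
    rw [Finset.mem_union]
    by_cases hm : (q : ℤ) ∣ b + W * t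
    · right
      simp only [SB, Finset.mem_product, Finset.mem_filter, Finset.mem_range]
      refine ⟨⟨hs, ?_⟩, ht, hm⟩
      have h1 : (q : ℤ) ∣ hD c4 c6 (a + W * s) (b + W * t) :=
        dvd_trans (by exact_mod_cast dvd_pow_self q two_ne_zero) hdvd
      have h2 : (q : ℤ) ∣ (a + W * s)^4 := by
        have : (a + W * s)^4 = hD c4 c6 (a + W * s) (b + W * t) + (b + W * t) *
            (6*c4*(a + W * s)^2*(b + W * t) + 8*c6*(a + W * s)*(b + W * t)^2 +
              3*c4^2*(b + W * t)^3) := by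
          unfold hD; ring
        rw [this]
        exact dvd_add h1 (Dvd.dvd.mul_right hm _)
      exact hqp.dvd_of_dvd_pow h2
    · left
      simp only [SA, Finset.mem_biUnion, Finset.mem_range, Finset.mem_image, Finset.mem_filter]
      obtain ⟨ρ, hρ, hρ'⟩ := exists_root_sq hq hm hdvd
      exact ⟨t, ht, ρ, hρ, s, ⟨hs, hρ'⟩, rfl⟩
  have hA : SA.card ≤ 4 * X * (X / q^2 + 1) := by
    calc SA.card ≤ ∑ t ∈ Finset.range X, ∑ ρ ∈ rts c4 c6 (q^2), (X / q^2 + 1) := by
          refine Finset.card_biUnion_le.trans (Finset.sum_le_sum fun t _ => ?_)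
          refine Finset.card_biUnion_le.trans (Finset.sum_le_sum fun ρ _ => ?_)
          refine Finset.card_image_le.trans ?_
          refine card_class _ (Finset.filter_subset _ _) ?_
          intro s hs s' hs'
          rw [Finset.mem_filter] at hs hs'
          apply modEq_of_dvd (a := a) hWq2
          rw [← ZMod.intCast_zmod_eq_zero_iff_dvd, Int.cast_sub, hs.2, hs'.2, sub_self]
      _ = X * ((rts c4 c6 (q^2)).card * (X / q^2 + 1)) := by
          rw [Finset.sum_const, Finset.sum_const, Finset.card_range, smul_eq_mul, smul_eq_mul]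
      _ ≤ X * (4 * (X / q^2 + 1)) := by
          gcongr
          exact card_rts hq hq6 hd
      _ = _ := by ring
  have hB : SB.card ≤ (X / q + 1)^2 := by
    rw [Finset.card_product, sq]
    apply Nat.mul_le_mul
    · refine card_class _ (Finset.filter_subset _ _) ?_
      intro s hs s' hs'
      rw [Finset.mem_filter] at hs hs'
      exact modEq_of_dvd hWq (dvd_sub hs.2 hs'.2)
    · refine card_class _ (Finset.filter_subset _ _) ?_
      intro s hs s' hs'
      rw [Finset.mem_filter] at hs hs'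
      exact modEq_of_dvd hWq (dvd_sub hs.2 hs'.2)
  calc _ ≤ (SA ∪ SB).card := Finset.card_le_card hsub
    _ ≤ SA.card + SB.card := Finset.card_union_le _ _
    _ ≤ _ := Nat.add_le_add hA hB

end Fermat.Agent.TwoAdic
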