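import Fermat.Agent.TwoAdic.LocalTwo
import Fermat.Agent.TwoAdic.LocalOdd
import Fermat.Agent.TwoAdic.Kraus
import Fermat.Agent.TwoAdic.NoTwo
import Fermat.Agent.TwoAdic.Scale
import Fermat.Agent.TwoAdic.HesseTr
import Fermat.Agent.TwoAdic.SieveLocal

set_option autoImplicit false

/-!
# The curve attached to a point of the Hesse pencil satisfying the local conditions
-/

open WeierstrassCurve
open Fermat.Agent.Schoof Fermat.Agent.Switch

namespace Fermat.Agent.TwoAdic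

/-- the local conditions -/
structure Loc (c4 c6 Δ W0 u l m : ℤ) : Prop where
  ncop : ∀ q : ℕ, q.Prime → (q : ℤ) ∣ W0 → ¬ ((q : ℤ) ∣ l ∧ (q : ℤ) ∣ m)
  ten : ¬ (2 : ℤ)^10 ∣ hD c4 c6 l m
  two : ∃ C4 C6 D' : ℤ, hC4 c4 c6 l m = u^4 * C4 ∧ hC6 c4 c6 l m = u^6 * C6 ∧
        (hD c4 c6 l m)^3 = u^12 * D' ∧ ¬ (2 : ℤ) ∣ C4 ∧ (4 : ℤ) ∣ C6 + 1 ∧
        Odd (padicValInt 2 (Δ * D'))
  bad : ∀ q : ℕ, q.Prime → q ≠ 2 → (q : ℤ) ∣ Δ → ¬ (q : ℤ) ∣ hC4 c4 c6 l m ∧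
      Odd (padicValInt q Δ + 3 * padicValInt q (hD c4 c6 l m))
  good : ∀ q : ℕ, q.Prime → (q : ℤ) ∣ W0 → ¬ (q : ℤ) ∣ Δ → ¬ (q : ℤ) ∣ hD c4 c6 l m
  three : ¬ (3 : ℤ) ∣ hC4 c4 c6 l m ∨ ((3 : ℤ) ∣ hC4 c4 c6 l m ∧ (27 : ℤ) ∣ hC6 c4 c6 l m)

theorem hC4_sq {R : Type*} [CommRing R] (c4 c6 l m : R) : m^2 * hC4 c4 c6 l m =
    (l^3 - 3*c4*l*m^2 - 2*c6*m^3)^2 - (l^2 - c4*m^2) * hD c4 c6 l m := by
  unfold hC4 hD; ring

/-- `c₄` and the discriminant form have no common factor -/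
theorem not_dvd_hC4 {c4 c6 l m : ℤ} {q : ℕ} (hq : q.Prime) (hq2 : q ≠ 2) (hq3 : q ≠ 3)
    (hd : ¬ (q : ℤ) ∣ c4^3 - c6^2) (hcop : IsCoprime l m) (hD0 : (q : ℤ) ∣ hD c4 c6 l m) :
    ¬ (q : ℤ) ∣ hC4 c4 c6 l m := by
  intro h
  have hF : Fact q.Prime := ⟨hq⟩
  have hp : Prime (q : ℤ) := Nat.prime_iff_prime_int.mp hq
  have h2 : (2 : ZMod q) ≠ 0 := by
    intro h
    have : (q : ℕ) ∣ 2 := (ZMod.natCast_eq_zero_iff 2 q).mp (by exact_mod_cast h)
    exact hq2 ((Nat.prime_dvd_prime_iff_eq hq Nat.prime_two).mp this)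
  have h3 : (3 : ZMod q) ≠ 0 := by
    intro h
    have : (q : ℕ) ∣ 3 := (ZMod.natCast_eq_zero_iff 3 q).mp (by exact_mod_cast h)
    exact hq3 ((Nat.prime_dvd_prime_iff_eq hq Nat.prime_three).mp this)
  have hm : ¬ (q : ℤ) ∣ m := by
    intro hm
    have h2 : (q : ℤ) ∣ l^4 := by
      have : l^4 = hD c4 c6 l m + m * (6*c4*l^2*m + 8*c6*l*m^2 + 3*c4^2*m^3) := by
        unfold hD; ring
      rw [this]
      exact dvd_add hD0 (Dvd.dvd.mul_right hm _)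
    exact hp.not_isUnit (hcop.isUnit_of_dvd' (hp.dvd_of_dvd_pow h2) hm)
  have hm0 : (m : ZMod q) ≠ 0 := by
    rw [Ne, ZMod.intCast_zmod_eq_zero_iff_dvd]; exact hm
  have e1 : (q : ℤ) ∣ l^3 - 3*c4*l*m^2 - 2*c6*m^3 := by
    apply hp.dvd_of_dvd_pow (n := 2)
    have : (l^3 - 3*c4*l*m^2 - 2*c6*m^3)^2 = m^2 * hC4 c4 c6 l m +
        (l^2 - c4*m^2) * hD c4 c6 l m := by
      rw [hC4_sq]; ring
    rw [this]
    exact dvd_add (Dvd.dvd.mul_left h _) (Dvd.dvd.mul_left hD0 _)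
  have f1 : (l : ZMod q)^3 - 3*c4*l*m^2 - 2*c6*m^3 = 0 := by
    have := (ZMod.intCast_zmod_eq_zero_iff_dvd _ q).mpr e1
    push_cast at this
    exact this
  have f2 := (dvd_hD_iff l m q).mp hD0
  unfold hD at f2
  apply no_double_root h2 (a := (c4 : ZMod q)) (c := (c6 : ZMod q)) (x := (l : ZMod q) / m) ?_ ?_
    ?_ h3
  · intro h5
    apply hd
    rw [← ZMod.intCast_zmod_eq_zero_iff_dvd]
    push_cast
    rw [h5, sub_self]
  · field_simp
    linear_combination f1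
  · field_simp
    linear_combination f2

theorem not_dvd_u {u : ℤ} (hu : u = 1 ∨ u = 4) {q : ℕ} (hq : q.Prime) (hq2 : q ≠ 2) :
    ¬ (q : ℤ) ∣ u := by
  have hp : Prime (q : ℤ) := Nat.prime_iff_prime_int.mp hq
  rcases hu with rfl | rfl
  · exact hp.not_dvd_one
  · intro h
    have : (4 : ℤ) = 2^2 := by norm_num
    rw [this] at h
    have h3 := hp.dvd_of_dvd_pow h
    have h4 : q ∣ 2 := by exact_mod_cast h3
    exact hq2 ((Nat.prime_dvd_prime_iff_eq hq Nat.prime_two).mp h4)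

theorem exists_odd_prime_dvd {D : ℤ} (h10 : ¬ (2 : ℤ)^10 ∣ D) (hbig : 512 < |D|) :
    ∃ q : ℕ, q.Prime ∧ q ≠ 2 ∧ (q : ℤ) ∣ D := by
  by_contra hcon
  push Not at hcon
  rw [Int.abs_eq_natAbs] at hbig
  have hD0 : D.natAbs ≠ 0 := by omega
  have h1 := Nat.eq_prime_pow_of_unique_prime_dvd hD0 (p := 2) (fun {d} hd hdD => by
    by_contra hne
    exact hcon d hd hne (Int.natCast_dvd.mpr hdD))
  by_cases hk : 10 ≤ D.natAbs.primeFactorsList.length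
  · apply h10
    have h2 : 2^10 ∣ D.natAbs := by
      rw [h1]; exact pow_dvd_pow _ hk
    have : ((2^10 : ℕ) : ℤ) ∣ D := Int.natCast_dvd.mpr h2
    exact_mod_cast this
  · push Not at hk
    have h2 : D.natAbs ≤ 2^9 := by
      rw [h1]
      exact Nat.pow_le_pow_right (by norm_num) (by omega)
    omega

theorem curve_of_loc {W : WeierstrassCurve ℤ} (hΔ : W.Δ ≠ 0) (h2 : (2 : ℤ) ∣ W.Δ)
    {W0 u l m : ℤ} (hu : u = 1 ∨ u = 4) (h3W : (3 : ℤ) ∣ W0)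
    (hL : Loc W.c₄ W.c₆ W.Δ W0 u l m) (hcop : IsCoprime l m)
    (hsq : ∀ q : ℕ, q.Prime → ¬ (q : ℤ) ∣ W0 → ¬ (q : ℤ)^2 ∣ hD W.c₄ W.c₆ l m)
    (hsign : W.Δ * hD W.c₄ W.c₆ l m < 0) (h512 : 512 < |hD W.c₄ W.c₆ l m|)
    (hbig : 524288 * (|hC4 W.c₄ W.c₆ l m| + 1) < 8 * |hD W.c₄ W.c₆ l m|^3) :
    ∃ E : WeierstrassCurve ℤ, E.Δ < 0 ∧ E.IsSemistableModel ∧ (2 : ℤ) ∣ E.Δ ∧
      (∀ q : ℕ, q.Prime → (q : ℤ) ∣ E.Δ → Odd (padicValInt q E.Δ)) ∧
      (∀ q : ℕ, q.Prime → (q : ℤ) ∣ W.Δ → (q : ℤ) ∣ E.Δ) ∧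
      ((3 : ℤ) ∣ E.Δ ↔ (3 : ℤ) ∣ W.Δ) ∧
      (∀ x : ℚ, 4 * x^3 + E.b₂ * x^2 + 2 * E.b₄ * x + E.b₆ ≠ 0) ∧
      (∃ q : ℕ, q.Prime ∧ q ≠ 2 ∧ (q : ℤ) ∣ E.Δ) ∧
      ∀ q : ℕ, q.Prime → q ≠ 3 → W.IsGoodPrimeFor q → E.IsGoodPrimeFor q →
        (3 : ℤ) ∣ (E.apOfModel q - W.apOfModel q) := by
  obtain ⟨C4, C6, D', e4, e6, eD, k2, k4, kodd⟩ := hL.two
  have hu0 : u ≠ 0 := by rcases hu with rfl | rfl <;> norm_num
  have hu12 : 0 < u^12 := by rcases hu with rfl | rfl <;> norm_num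
  have hu12' : u^12 ≤ 16777216 := by rcases hu with rfl | rfl <;> norm_num
  have hu4 : 1 ≤ u^4 := by rcases hu with rfl | rfl <;> norm_num
  have hD0 : hD W.c₄ W.c₆ l m ≠ 0 := by
    intro h; rw [h, mul_zero] at hsign; exact lt_irrefl _ hsign
  have hrel : C4^3 - C6^2 = 1728 * (W.Δ * D') := by
    apply mul_left_cancel₀ hu12.ne'
    have h1 := hC_disc W.c₄ W.c₆ l m
    rw [e4, e6, eD, ← W.c_relation] at h1
    linear_combination h1
  -- divisibility by primes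
  have hdD : ∀ q : ℕ, q.Prime → q ≠ 2 → ((q : ℤ) ∣ D' ↔ (q : ℤ) ∣ hD W.c₄ W.c₆ l m) := by
    intro q hq hq2
    have hp : Prime (q : ℤ) := Nat.prime_iff_prime_int.mp hq
    constructor
    · intro h
      apply hp.dvd_of_dvd_pow (n := 3)
      rw [eD]; exact Dvd.dvd.mul_left h _
    · intro h
      have h1 : (q : ℤ) ∣ u^12 * D' := by
        rw [← eD]; exact h.trans (dvd_pow_self _ three_ne_zero)
      rcases hp.dvd_or_dvd h1 with h1 | h1
      · exact absurd (hp.dvd_of_dvd_pow h1) (not_dvd_u hu hq hq2)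
      · exact h1
  have hnC4 : ∀ q : ℕ, ¬ (q : ℤ) ∣ hC4 W.c₄ W.c₆ l m → ¬ (q : ℤ) ∣ C4 := by
    intro q h h'
    apply h; rw [e4]; exact Dvd.dvd.mul_left h' _
  have h3' : ¬ (3 : ℤ) ∣ C4 ∨ ((3 : ℤ) ∣ C4 ∧ (27 : ℤ) ∣ C6) := by
    rcases hL.three with h | ⟨h, h'⟩
    · left; exact hnC4 3 h
    · right
      rw [e4] at h
      rw [e6] at h'
      rcases hu with rfl | rfl
      · constructor <;> omega
      · constructor <;> omega
  obtain ⟨E, eE4, eE6, eEΔ⟩ := kraus hrel k2 k4 h3'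
  have hD'0 : D' ≠ 0 := by
    rintro rfl
    rw [mul_zero] at eD
    exact hD0 (pow_eq_zero_iff three_ne_zero |>.mp eD)
  have hEΔ0 : E.Δ ≠ 0 := by rw [eEΔ]; exact mul_ne_zero hΔ hD'0
  have hneg : E.Δ < 0 := by
    rw [eEΔ]
    have h1 : u^12 * (W.Δ * D') < 0 := by
      have : u^12 * (W.Δ * D') = (W.Δ * hD W.c₄ W.c₆ l m) * (hD W.c₄ W.c₆ l m)^2 := by
        linear_combination -W.Δ * eD
      rw [this]
      exact mul_neg_of_neg_of_pos hsign (by positivity)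
    by_contra hcon
    push Not at hcon
    have := mul_nonneg hu12.le hcon
    omega
  have hss : E.IsSemistableModel := by
    intro q hq hqΔ
    have hp : Prime (q : ℤ) := Nat.prime_iff_prime_int.mp hq
    rw [eE4]
    by_cases hq2 : q = 2
    · subst hq2; exact_mod_cast k2
    rw [eEΔ] at hqΔ
    by_cases hqW : (q : ℤ) ∣ W.Δ
    · exact hnC4 q (hL.bad q hq hq2 hqW).1
    · have h1 : (q : ℤ) ∣ hD W.c₄ W.c₆ l m :=
        (hdD q hq hq2).mp ((hp.dvd_or_dvd hqΔ).resolve_left hqW)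
      have h3 : ¬ (q : ℤ) ∣ W0 := fun h => hL.good q hq h hqW h1
      have hq3 : q ≠ 3 := by
        rintro rfl
        exact h3 (by exact_mod_cast h3W)
      apply hnC4 q
      apply not_dvd_hC4 hq hq2 hq3 _ hcop h1
      rw [← W.c_relation]
      intro h4
      rcases hp.dvd_or_dvd h4 with h4 | h4
      · have : (1728 : ℤ) = 2^6 * 3^3 := by norm_num
        rw [this] at h4
        rcases hp.dvd_or_dvd h4 with h4 | h4
        · have h5 := hp.dvd_of_dvd_pow h4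
          have h6 : q ∣ 2 := by exact_mod_cast h5
          exact hq2 ((Nat.prime_dvd_prime_iff_eq hq Nat.prime_two).mp h6)
        · have h5 := hp.dvd_of_dvd_pow h4
          have h6 : q ∣ 3 := by exact_mod_cast h5
          exact hq3 ((Nat.prime_dvd_prime_iff_eq hq Nat.prime_three).mp h6)
      · exact hqW h4
  have h2E : (2 : ℤ) ∣ E.Δ := by rw [eEΔ]; exact Dvd.dvd.mul_right h2 _
  have hodd : ∀ q : ℕ, q.Prime → (q : ℤ) ∣ E.Δ → Odd (padicValInt q E.Δ) := by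
    intro q hq hqΔ
    have hp : Prime (q : ℤ) := Nat.prime_iff_prime_int.mp hq
    have hF : Fact q.Prime := ⟨hq⟩
    by_cases hq2 : q = 2
    · subst hq2; rw [eEΔ]; exact kodd
    have hvD : padicValInt q D' = 3 * padicValInt q (hD W.c₄ W.c₆ l m) := by
      have h1 : padicValInt q (u^12 * D') = padicValInt q (hD W.c₄ W.c₆ l m ^ 3) := by rw [eD]
      have h3 : ¬ (q : ℤ) ∣ u^12 := fun h => not_dvd_u hu hq hq2 (hp.dvd_of_dvd_pow h)
      rw [padicValInt.mul hu12.ne' hD'0, padicValInt.eq_zero_of_not_dvd h3, zero_add] at h1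
      rw [h1, pow_succ, pow_two, padicValInt.mul (mul_ne_zero hD0 hD0) hD0,
        padicValInt.mul hD0 hD0]
      ring
    rw [eEΔ, padicValInt.mul hΔ hD'0, hvD]
    by_cases hqW : (q : ℤ) ∣ W.Δ
    · exact (hL.bad q hq hq2 hqW).2
    · rw [eEΔ] at hqΔ
      have h1 : (q : ℤ) ∣ hD W.c₄ W.c₆ l m :=
        (hdD q hq hq2).mp ((hp.dvd_or_dvd hqΔ).resolve_left hqW)
      have h3 : ¬ (q : ℤ) ∣ W0 := fun h => hL.good q hq h hqW h1
      have h4 := hsq q hq h3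
      have h5 : padicValInt q (hD W.c₄ W.c₆ l m) = 1 := by
        have h6 : ¬ 2 ≤ padicValInt q (hD W.c₄ W.c₆ l m) := by
          intro h6
          apply h4
          rw [padicValInt_dvd_iff]
          exact Or.inr h6
        have h7 : 1 ≤ padicValInt q (hD W.c₄ W.c₆ l m) := by
          have := (padicValInt_dvd_iff (p := q) 1 (hD W.c₄ W.c₆ l m)).mp (by rwa [pow_one])
          exact this.resolve_left hD0
        omega
      rw [padicValInt.eq_zero_of_not_dvd hqW, h5]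
      decide
  have hbigE : |E.c₄| + 1 < 256 * |E.Δ| := by
    rw [eE4, eEΔ, abs_mul]
    have h1 : |C4| ≤ |hC4 W.c₄ W.c₆ l m| := by
      rw [e4, abs_mul, abs_of_nonneg (by omega : 0 ≤ u^4)]
      calc |C4| = 1 * |C4| := (one_mul _).symm
        _ ≤ u^4 * |C4| := by gcongr
    have h3 : |hD W.c₄ W.c₆ l m|^3 ≤ 16777216 * |D'| := by
      rw [← abs_pow, eD, abs_mul, abs_of_pos hu12]
      gcongr
    have h4 : 1 ≤ |W.Δ| := Int.one_le_abs hΔ
    have h5 : 256 * |D'| ≤ 256 * (|W.Δ| * |D'|) := by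
      calc 256 * |D'| = 256 * (1 * |D'|) := by ring
        _ ≤ _ := by gcongr
    omega
  refine ⟨E, hneg, hss, h2E, hodd, ?_, ?_, no_two_torsion E hEΔ0 hss h2E hodd hbigE, ?_, ?_⟩
  · intro q hq h
    rw [eEΔ]; exact Dvd.dvd.mul_right h _
  · rw [eEΔ]
    constructor
    · intro h
      by_contra h'
      have h1 := hL.good 3 Nat.prime_three (by exact_mod_cast h3W) (by exact_mod_cast h')
      rcases Int.prime_three.dvd_or_dvd h with h5 | h5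
      · exact h' h5
      · exact h1 ((hdD 3 Nat.prime_three (by norm_num)).mp (by exact_mod_cast h5))
    · intro h; exact Dvd.dvd.mul_right h _
  · obtain ⟨q, hq, hq2, hqD⟩ := exists_odd_prime_dvd hL.ten h512
    refine ⟨q, hq, hq2, ?_⟩
    rw [eEΔ]
    exact Dvd.dvd.mul_left ((hdD q hq hq2).mpr hqD) _
  · intro q hq hq3 hgW hgE
    have hF : Fact q.Prime := ⟨hq⟩
    have hq2 : q ≠ 2 := by
      rintro rfl
      exact hgW (by exact_mod_cast h2)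
    have z2 : (2 : ZMod q) ≠ 0 := by
      intro h
      have : (q : ℕ) ∣ 2 := (ZMod.natCast_eq_zero_iff 2 q).mp (by exact_mod_cast h)
      exact hq2 ((Nat.prime_dvd_prime_iff_eq hq Nat.prime_two).mp this)
    have z3 : (3 : ZMod q) ≠ 0 := by
      intro h
      have : (q : ℕ) ∣ 3 := (ZMod.natCast_eq_zero_iff 3 q).mp (by exact_mod_cast h)
      exact hq3 ((Nat.prime_dvd_prime_iff_eq hq Nat.prime_three).mp this)
    have h1728 : (1728 : ZMod q) ≠ 0 := by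
      have : (1728 : ZMod q) = 2^6 * 3^3 := by norm_num
      rw [this]; exact mul_ne_zero (pow_ne_zero _ z2) (pow_ne_zero _ z3)
    have hgΔ : ((W.Δ : ℤ) : ZMod q) ≠ 0 := by
      rw [Ne, ZMod.intCast_zmod_eq_zero_iff_dvd]; exact hgW
    have hgΔ' : ((E.Δ : ℤ) : ZMod q) ≠ 0 := by
      rw [Ne, ZMod.intCast_zmod_eq_zero_iff_dvd]; exact hgE
    have zu : ((u : ℤ) : ZMod q) ≠ 0 := by
      rw [Ne, ZMod.intCast_zmod_eq_zero_iff_dvd]; exact not_dvd_u hu hq hq2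
    rw [apOfModel_eq z2 z3 W hgΔ, apOfModel_eq z2 z3 E hgΔ', eE4, eE6]
    have m4 := map_hC4 (Int.castRingHom (ZMod q)) W.c₄ W.c₆ l m
    have m6 := map_hC6 (Int.castRingHom (ZMod q)) W.c₄ W.c₆ l m
    simp only [eq_intCast] at m4 m6
    have t1 : tr 0 (-27 * ((C4 : ℤ) : ZMod q)) (-54 * ((C6 : ℤ) : ZMod q)) =
        tr 0 (-27 * hC4 (W.c₄ : ZMod q) W.c₆ l m) (-54 * hC6 (W.c₄ : ZMod q) W.c₆ l m) := by
      rw [← tr_scale zu, ← m4, ← m6, e4, e6]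
      congr 1
      · push_cast; ring
      · push_cast; ring
    rw [t1]
    apply tr_congr_three z2 z3
    · intro h
      have h1 := congrArg (fun z : ℤ => (z : ZMod q)) W.c_relation
      push_cast at h1
      rw [h, sub_self] at h1
      exact mul_ne_zero h1728 hgΔ h1
    · rw [← m4, ← m6, e4, e6]
      intro h
      have h1 := congrArg (fun z : ℤ => (z : ZMod q)) E.c_relation
      rw [eE4, eE6] at h1
      push_cast at h1 h
      have h3 : ((u : ℤ) : ZMod q)^12 * ((C4 : ZMod q)^3 - (C6 : ZMod q)^2) = 0 := by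
        linear_combination h
      rw [← h1] at h3
      exact mul_ne_zero (pow_ne_zero _ zu) (mul_ne_zero h1728 hgΔ') h3

end Fermat.Agent.TwoAdic
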