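import Mathlib

/-!
# Cayley-Hamilton modules over `ℤ / 2 ^ n`

`J` is an additive group with an action of `G`, `V` a `G`-stable subgroup killed by `2 ^ n` on
which all `σ ∈ G` satisfy `σ ^ 2 - t(σ) σ + d(σ) = 0`, where `t`, `d` are modulo `2` the trace and
the determinant of a surjection onto `GL₂(𝔽₂)`.
-/

set_option autoImplicit false

namespace Fermat.Agent.TwoAdic.MazH

variable {G J : Type*} [Group G] [AddCommGroup J] [DistribMulAction G J]

/-- the Cayley-Hamilton relation -/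
def CH (σ : G) (t d : ℤ) (x : J) : Prop := σ • σ • x - t • σ • x + d • x = 0

theorem CH.congr {σ : G} {t d t' d' : ℤ} {x : J} {N : ℤ} (h : CH σ t d x) (hN : N • x = 0)
    (ht : N ∣ t - t') (hd : N ∣ d - d') : CH σ t' d' x := by
  obtain ⟨u, hu⟩ := ht
  obtain ⟨v, hv⟩ := hd
  have e1 : t = t' + N * u := by linarith
  have e2 : d = d' + N * v := by linarith
  unfold CH at *
  rw [e1, e2] at h
  have h1 : (N * u) • σ • x = 0 := by
    rw [mul_comm, mul_smul, ← smul_comm σ N x, hN, smul_zero, smul_zero]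
  have h2 : (N * v) • x = 0 := by rw [mul_comm, mul_smul, hN, smul_zero]
  rw [add_smul, add_smul, h1, h2, add_zero, add_zero] at h
  exact h

section Inertia

variable {V : AddSubgroup J} {t d : G → ℤ} {n : ℕ}

/-- if `τ` satisfies the relations of the identity then `τ - 1` anticommutes in the sense of
Cayley-Hamilton with everything -/
theorem delta_smul (hV : ∀ (σ : G) (x : J), x ∈ V → σ • x ∈ V)
    (hN : ∀ x ∈ V, (2 : ℤ) ^ n • x = 0) (hCH : ∀ (σ : G) (x : J), x ∈ V → CH σ (t σ) (d σ) x)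
    {τ : G} (h1 : (2 : ℤ) ^ n ∣ t τ - 2) (h2 : (2 : ℤ) ^ n ∣ d τ - 1)
    (h3 : ∀ σ, (2 : ℤ) ^ n ∣ t (τ * σ) - t σ) (h4 : ∀ σ, (2 : ℤ) ^ n ∣ d (τ * σ) - d σ)
    (σ : G) {y : J} (hy : y ∈ V) :
    τ • σ • y - σ • y = t σ • (τ • y - y) - σ • (τ • y - y) := by
  set x := σ⁻¹ • y with hx
  have hxV : x ∈ V := hV _ _ hy
  have hσx : σ • x = y := by rw [hx, smul_inv_smul]
  have e1 := (hCH (τ * σ) x hxV).congr (hN x hxV) (h3 σ) (h4 σ)
  have e2 := hCH σ x hxV
  unfold CH at e1 e2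
  rw [mul_smul, mul_smul, hσx] at e1
  rw [hσx] at e2
  -- (1)
  have e3 : τ • σ • τ • y = σ • y + t σ • (τ • y - y) := by
    have : d σ • x = t σ • y - σ • y := by
      rw [← sub_eq_zero]
      rw [← e2]
      abel
    rw [this] at e1
    rw [smul_sub (t σ)]
    rw [← sub_eq_zero, ← e1]
    abel
  have hττ : ∀ z ∈ V, τ • τ • z = (2 : ℤ) • τ • z - z := by
    intro z hz
    have e4 := (hCH τ z hz).congr (hN z hz) h1 h2
    unfold CH at e4
    rw [one_smul] at e4
    rw [← sub_eq_zero, ← e4]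
    abel
  have e5 : τ • (τ • y - y) = τ • y - y := by
    rw [smul_sub, hττ y hy, two_zsmul]
    abel
  have e6 := hττ (σ • τ • y) (hV _ _ (hV _ _ hy))
  rw [e3, smul_add, smul_comm τ (t σ), e5] at e6
  have e7 : τ • σ • y + σ • τ • y = (2 : ℤ) • σ • y + t σ • (τ • y - y) := by
    rw [smul_add (2 : ℤ)] at e6
    have e8 : (2 : ℤ) • t σ • (τ • y - y) = t σ • (τ • y - y) + t σ • (τ • y - y) := two_zsmul _
    rw [e8] at e6
    rw [← sub_eq_zero] at e6 ⊢
    rw [← e6]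
    abel
  rw [smul_sub σ]
  rw [two_zsmul] at e7
  rw [← sub_eq_zero] at e7 ⊢
  rw [← e7]
  abel

/-- **elements of the kernel of the representation act trivially** -/
theorem smul_eq_self (hV : ∀ (σ : G) (x : J), x ∈ V → σ • x ∈ V)
    (hN : ∀ x ∈ V, (2 : ℤ) ^ n • x = 0) (hCH : ∀ (σ : G) (x : J), x ∈ V → CH σ (t σ) (d σ) x)
    {τ : G} (h1 : (2 : ℤ) ^ n ∣ t τ - 2) (h2 : (2 : ℤ) ^ n ∣ d τ - 1)
    (h3 : ∀ σ, (2 : ℤ) ^ n ∣ t (τ * σ) - t σ) (h4 : ∀ σ, (2 : ℤ) ^ n ∣ d (τ * σ) - d σ)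
    {a b : G} (ha : Odd (t a)) (hb : Even (t b)) (hab : Even (t (a * b))) {x : J} (hx : x ∈ V) :
    τ • x = x := by
  have key := fun (σ : G) {y : J} (hy : y ∈ V) => delta_smul hV hN hCH h1 h2 h3 h4 σ hy
  -- the image of `τ - 1`
  have hW1 : ∀ (σ : G) (y : J), y ∈ V → ∃ z ∈ V, σ • (τ • y - y) = τ • z - z := by
    intro σ y hy
    refine ⟨t σ • y - σ • y, V.sub_mem (V.zsmul_mem hy _) (hV _ _ hy), ?_⟩
    have e1 := key σ hy
    rw [smul_sub τ, smul_comm τ (t σ)]
    rw [smul_sub (t σ)] at e1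
    rw [← sub_eq_zero] at e1 ⊢
    rw [← e1]
    abel
  obtain ⟨α, hα⟩ := ha
  obtain ⟨β, hβ⟩ := hb
  obtain ⟨γ, hγ⟩ := hab
  have step : ∀ y ∈ V, ∃ z ∈ V, τ • y - y = (2 : ℤ) • (τ • z - z) := by
    intro y hy
    -- write `y`-element as `b • (...)`
    obtain ⟨x, hx, hxy⟩ := hW1 b⁻¹ y hy
    have e1 := key (a * b) hx
    have e2 := key a (hV b x hx)
    have e3 := key b hx
    rw [mul_smul] at e1
    rw [e3] at e2
    rw [e1] at e2
    set D := τ • x - x with hD
    have hbD : b • D = τ • y - y := by rw [← hxy, smul_inv_smul]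
    rw [mul_smul, hbD] at e2
    obtain ⟨z₁, hz₁, e4⟩ := hW1 a y hy
    obtain ⟨z₂, hz₂, e5⟩ := hW1 a x hx
    rw [← hD] at e5
    set Y := τ • y - y with hY
    -- `t (ab) D - a Y = t a (t b D - Y) - a (t b D - Y)`
    have e6 : Y = (2 : ℤ) • (a • Y + (t a * β - γ) • D - β • a • D - α • Y) := by
      have e7 : a • (t b • D - Y) = t b • a • D - a • Y := by rw [smul_sub, smul_comm]
      rw [e7] at e2
      rw [← sub_eq_zero] at e2 ⊢
      rw [hα, hβ, hγ] at e2
      rw [hα, ← e2]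
      generalize a • Y = v
      generalize a • D = v'
      clear_value D Y
      module
    refine ⟨z₁ + (t a * β - γ) • x - β • z₂ - α • y, ?_, ?_⟩
    · exact V.sub_mem (V.sub_mem (V.add_mem hz₁ (V.zsmul_mem hx _)) (V.zsmul_mem hz₂ _))
        (V.zsmul_mem hy _)
    · rw [e6]
      congr 1
      rw [e4, e5]
      rw [smul_sub τ, smul_sub τ, smul_add τ, smul_comm τ (t a * β - γ), smul_comm τ β,
        smul_comm τ α, hD, hY]
      generalize τ • x = v1
      generalize τ • y = v2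
      generalize τ • z₁ = v3
      generalize τ • z₂ = v4
      module
  have hk : ∀ k : ℕ, ∀ y ∈ V, ∃ z ∈ V, τ • y - y = (2 : ℤ) ^ k • (τ • z - z) := by
    intro k
    induction k with
    | zero => intro y hy; exact ⟨y, hy, by simp⟩
    | succ k ih =>
      intro y hy
      obtain ⟨z, hz, e⟩ := ih y hy
      obtain ⟨z', hz', e'⟩ := step z hz
      exact ⟨z', hz', by rw [e, e', ← mul_smul, ← pow_succ]⟩
  obtain ⟨z, hz, e⟩ := hk n x hx
  rw [hN _ (V.sub_mem (hV _ _ hz) hz)] at e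
  exact sub_eq_zero.1 e

end Inertia

section Scalar

/-- **Frobenius cannot be scalar.** `φ` is the scalar `c` on `σ u` and `σ ^ 2 u`. -/
theorem two_smul_eq_zero {φ σ : G} {u : J} {c t s d e : ℤ} {n : ℕ} (hu : (2 : ℤ) ^ n • u = 0)
    (h0 : φ • σ • u = c • σ • u) (h1 : φ • σ • σ • u = c • σ • σ • u)
    (hσ : CH σ t d u) (hφσ : CH (φ * σ) s (e * d) u) (ht : Odd t) (hd : Odd d)
    (hc : ∃ o : ℤ, c ^ 2 - e = 2 * o ∧ Odd o) : (2 : ℤ) • u = 0 := by
  obtain ⟨o, ho, ho1⟩ := hc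
  unfold CH at hσ hφσ
  -- the relation `(c² t - c s) σ u = (c² - e) d u`
  have e1 : (c ^ 2 * t - c * s) • σ • u = (2 * (o * d)) • u := by
    have e2 : (φ * σ) • (φ * σ) • u = (c ^ 2) • σ • σ • u := by
      rw [mul_smul, mul_smul, h0, smul_comm σ c, smul_comm φ c, h1, ← mul_smul, sq]
    rw [e2, mul_smul φ σ, h0] at hφσ
    have e3 : σ • σ • u = t • σ • u - d • u := by
      rw [← sub_eq_zero, ← hσ]; abel
    rw [e3] at hφσ
    have e4 : e = c ^ 2 - 2 * o := by linarith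
    rw [e4] at hφσ
    generalize σ • u = v at *
    rw [← sub_eq_zero, ← hφσ]
    module
  by_contra hne
  -- the order of `u` is `2 ^ m` with `m ≥ 2`
  have hex : ∃ m : ℕ, (2 : ℤ) ^ m • u = 0 := ⟨n, hu⟩
  classical
  have hm := Nat.find_spec hex
  set m := Nat.find hex with hmdef
  have hm2 : 2 ≤ m := by
    by_contra hlt
    rcases Nat.lt_or_ge m 1 with h | h
    · have h0 : m = 0 := by omega
      rw [h0, pow_zero, one_smul] at hm
      rw [hm, smul_zero] at hne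
      exact hne rfl
    · have h0 : m = 1 := by omega
      rw [h0, pow_one] at hm
      exact hne hm
  have hlt : (2 : ℤ) ^ (m - 1) • u ≠ 0 := Nat.find_min hex (by omega)
  set u' := (2 : ℤ) ^ (m - 1) • u with hu'
  have h2u' : (2 : ℤ) • u' = 0 := by
    rw [hu', ← mul_smul, ← pow_succ', Nat.sub_add_cancel (by omega), hm]
  have hodd : ∀ (k : ℤ) (v : J), (2 : ℤ) • v = 0 → Odd k → k • v = v := by
    rintro k v hv ⟨l, rfl⟩
    rw [add_smul, one_smul, mul_comm, mul_smul, hv, smul_zero, zero_add]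
  have heven : ∀ (k : ℤ) (v : J), (2 : ℤ) • v = 0 → Even k → k • v = 0 := by
    rintro k v hv ⟨l, rfl⟩
    rw [← two_mul, mul_comm, mul_smul, hv, smul_zero]
  have hσ2 : (2 : ℤ) • σ • u' = 0 := by rw [← smul_comm σ (2 : ℤ), h2u', smul_zero]
  have hσu' : σ • u' = (2 : ℤ) ^ (m - 1) • σ • u := by rw [hu', smul_comm]
  have hod : Odd (o * d) := ho1.mul hd
  rcases Int.even_or_odd (c ^ 2 * t - c * s) with hB | hB
  · -- even: `B σ u' = u'`
    obtain ⟨B, hB⟩ := hB
    have e2 : B • σ • u' = u' := by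
      have e3 := congrArg (fun z : J => (2 : ℤ) ^ (m - 2) • z) e1
      beta_reduce at e3
      rw [hB, ← two_mul, ← mul_smul, ← mul_smul] at e3
      have e4 : (2 : ℤ) ^ (m - 2) * (2 * B) = B * 2 ^ (m - 1) := by
        rw [show m - 1 = (m - 2) + 1 by omega, pow_succ]; ring
      have e5 : (2 : ℤ) ^ (m - 2) * (2 * (o * d)) = (o * d) * 2 ^ (m - 1) := by
        rw [show m - 1 = (m - 2) + 1 by omega, pow_succ]; ring
      rw [e4, e5, mul_smul, mul_smul (o * d), ← hσu', ← hu', hodd _ _ h2u' hod] at e3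
      exact e3
    have e3 : σ • u' = u' := by
      rcases Int.even_or_odd B with h | h
      · rw [heven _ _ hσ2 h] at e2
        exact absurd e2.symm hlt
      · rwa [hodd _ _ hσ2 h] at e2
    have e4 := congrArg (fun z : J => (2 : ℤ) ^ (m - 1) • z) hσ
    simp only [smul_zero] at e4
    rw [smul_add, smul_sub, smul_comm _ t, smul_comm _ d, ← hu', ← hσu', e3,
      smul_comm _ σ (σ • u), ← hσu', e3, e3, hodd _ _ h2u' ht, hodd _ _ h2u' hd, sub_self,
      zero_add] at e4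
    exact hlt e4
  · -- odd
    have e2 := congrArg (fun z : J => (2 : ℤ) ^ (m - 1) • z) e1
    beta_reduce at e2
    rw [smul_comm _ (c ^ 2 * t - c * s), smul_comm _ (2 * (o * d)), ← hσu', ← hu',
      hodd _ _ hσ2 hB, heven _ _ h2u' ⟨o * d, by ring⟩] at e2
    have e3 : u' = 0 := by
      have := congrArg (fun z : J => σ⁻¹ • z) e2
      simpa using this
    exact hlt e3

end Scalar

end Fermat.Agent.TwoAdic.MazH
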