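import Fermat.Agent.TwoAdic.Spec
import Fermat.Agent.TwoAdic.MazRep
import Fermat.Agent.ChebFull.Places
import Fermat.Agent.RepTwo.JZeroES
import Fermat.Agent.RepTwo.Geometry
import Fermat.Agent.RepTwo.ESData
import Fermat.Agent.ESh.Final

/-!
# The Cayley-Hamilton relation on Hecke eigenpoints of `2`-power order
-/

set_option autoImplicit false

open Fermat.Agent AlgebraicCurve ModularCurve

namespace Fermat.Agent.TwoAdic.MazH

local notation "Γℚ" => (AlgebraicClosure ℚ ≃ₐ[ℚ] AlgebraicClosure ℚ)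
local notation "Qbar" => AlgebraicClosure ℚ

theorem gsmul_zsmul {G J : Type*} [Group G] [AddCommGroup J] [DistribMulAction G J] (σ : G)
    (k : ℤ) (x : J) : σ • k • x = k • σ • x := smul_comm _ _ _

theorem gsmul_nsmul {G J : Type*} [Group G] [AddCommGroup J] [DistribMulAction G J] (σ : G)
    (k : ℕ) (x : J) : σ • k • x = k • σ • x := smul_comm _ _ _

theorem gsmul_nsmul_zero {G J : Type*} [Group G] [AddCommGroup J] [DistribMulAction G J] (σ : G)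
    {k : ℕ} {x : J} (h : k • x = 0) : k • σ • x = 0 := by
  rw [← gsmul_nsmul, h, smul_zero]

theorem jzeroES (L p : ℕ) [NeZero L] : RepTwo.JZeroES L p :=
  RepTwo.jzeroES_of_specializationExists (RepTwo.heckeOperatorsCommuteBar L)
    (ESh.specializationExists L p (RepTwo.heckeOperatorsCommuteBar L))

/-- eigenpoints for the system of `E` away from `Q0` -/
def Eig (E : EData) (Q0 : Finset ℕ) {L : ℕ} [NeZero L] (x : JZero L) : Prop :=
  ∀ l : Nat.Primes, ¬ (l : ℕ) ∣ L → (l : ℕ) ∉ Q0 → heckeOperatorBar L l x = E.a l • x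

theorem Eig.smul {E : EData} {Q0 : Finset ℕ} {L : ℕ} [NeZero L] {x : JZero L} (h : Eig E Q0 x)
    (σ : Γℚ) : Eig E Q0 (σ • x) := by
  intro l hl hQ
  rw [JZ.heckeOperatorBar_smul, h l hl hQ, gsmul_zsmul]

theorem trace_sub_mem {R : Type*} [CommRing R] {I : Ideal R} {A B : Matrix (Fin 2) (Fin 2) R}
    (h : ∀ i j, A i j - B i j ∈ I) : A.trace - B.trace ∈ I := by
  rw [Matrix.trace_fin_two, Matrix.trace_fin_two]
  have := I.add_mem (h 0 0) (h 1 1)
  convert this using 1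
  ring

theorem det_sub_mem {R : Type*} [CommRing R] {I : Ideal R} {A B : Matrix (Fin 2) (Fin 2) R}
    (h : ∀ i j, A i j - B i j ∈ I) : A.det - B.det ∈ I := by
  rw [Matrix.det_fin_two, Matrix.det_fin_two]
  have e1 := I.mul_mem_right (A 1 1) (h 0 0)
  have e2 := I.mul_mem_left (B 0 0) (h 1 1)
  have e3 := I.mul_mem_right (A 1 0) (h 0 1)
  have e4 := I.mul_mem_left (B 0 1) (h 1 0)
  have := I.sub_mem (I.add_mem e1 e2) (I.add_mem e3 e4)
  convert this using 1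
  ring

theorem mul_sub_mem {R : Type*} [CommRing R] {I : Ideal R} {A B C : Matrix (Fin 2) (Fin 2) R}
    (h : ∀ i j, A i j - B i j ∈ I) (i j : Fin 2) : (C * A) i j - (C * B) i j ∈ I := by
  rw [Matrix.mul_apply, Matrix.mul_apply, Fin.sum_univ_two, Fin.sum_univ_two]
  have := I.add_mem (I.mul_mem_left (C i 0) (h 0 j)) (I.mul_mem_left (C i 1) (h 1 j))
  convert this using 1
  ring

theorem int_dvd_of_mem_span {n : ℕ} {a b : ℤ}
    (h : (a : ℤ_[2]) - (b : ℤ_[2]) ∈ Ideal.span {(2 : ℤ_[2]) ^ n}) : (2 : ℤ) ^ n ∣ a - b := by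
  have h1 : ((a - b : ℤ) : ℤ_[2]) ∈ Ideal.span {((2 : ℕ) : ℤ_[2]) ^ n} := by
    push_cast
    exact h
  rw [← PadicInt.norm_le_pow_iff_mem_span_pow] at h1
  have := (PadicInt.norm_int_le_pow_iff_dvd (p := 2)).mp h1
  exact_mod_cast this

/-- **the Cayley-Hamilton relation** -/
theorem ch_of_eigen (E : EData) {L n : ℕ} [NeZero L] (hN : E.N ∣ L) (Q0 : Finset ℕ) {x : JZero L}
    (hx : 2 ^ n • x = 0) (hT : Eig E Q0 x) (σ : Γℚ) {t d : ℤ}
    (ht : (E.ρ σ).trace - (t : ℤ_[2]) ∈ Ideal.span {(2 : ℤ_[2]) ^ n})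
    (hd : (E.ρ σ).det - (d : ℤ_[2]) ∈ Ideal.span {(2 : ℤ_[2]) ^ n}) : CH σ t d x := by
  classical
  have hL0 : L ≠ 0 := NeZero.ne L
  have hσx : 2 ^ n • σ • x = 0 := gsmul_nsmul_zero σ hx
  obtain ⟨F1, hF1, h1⟩ := RepTwo.torsionLevel L (2 ^ n) x hx
  obtain ⟨F2, hF2, h2⟩ := RepTwo.torsionLevel L (2 ^ n) (σ • x) hσx
  obtain ⟨F3, hF3, h3⟩ := E.cont n
  have := hF1
  have := hF2
  have := hF3
  have : FiniteDimensional ℚ (F1 ⊔ F2 : IntermediateField ℚ Qbar) :=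
    IntermediateField.finiteDimensional_sup F1 F2
  have : FiniteDimensional ℚ (F1 ⊔ F2 ⊔ F3 : IntermediateField ℚ Qbar) :=
    IntermediateField.finiteDimensional_sup _ F3
  obtain ⟨ℓ, hℓ, hS, -, A, hA, φ, hφ, hφσ⟩ := ChebFull.exists_frobenius_eq (F1 ⊔ F2 ⊔ F3) σ
    ((L * 2).primeFactors ∪ Q0)
  rw [Finset.mem_union, not_or] at hS
  have hℓL2 : ¬ ℓ ∣ L * 2 := fun h =>
    hS.1 (Nat.mem_primeFactors.mpr ⟨hℓ, h, mul_ne_zero hL0 two_ne_zero⟩)
  have hℓL : ¬ ℓ ∣ L := fun h => hℓL2 (h.mul_right 2)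
  have hℓN : ¬ ℓ ∣ E.N := fun h => hℓL (h.trans hN)
  have hℓ2 : ℓ ≠ 2 := by rintro rfl; exact hℓL2 (dvd_mul_left _ _)
  -- `φ` and `σ` have the same action
  have hfix : ∀ y ∈ (F1 ⊔ F2 ⊔ F3 : IntermediateField ℚ Qbar), (σ⁻¹ * φ) y = y := by
    intro y hy
    have : (σ⁻¹ * φ) y = σ⁻¹ (φ y) := rfl
    rw [this, hφσ y hy]
    exact inv_smul_smul σ y
  have e1 : φ • x = σ • x := by
    have := h1 (σ⁻¹ * φ) fun y hy =>
      hfix y (le_sup_left (a := F1 ⊔ F2) (le_sup_left (a := F1) hy))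
    rw [mul_smul] at this
    exact inv_smul_eq_iff.mp this
  have e2 : φ • σ • x = σ • σ • x := by
    have := h2 (σ⁻¹ * φ) fun y hy =>
      hfix y (le_sup_left (a := F1 ⊔ F2) (le_sup_right (a := F1) hy))
    rw [mul_smul] at this
    exact inv_smul_eq_iff.mp this
  have e3 : ∀ i j, E.ρ φ i j - E.ρ σ i j ∈ Ideal.span {(2 : ℤ_[2]) ^ n} := by
    have h4 := h3 (σ⁻¹ * φ) fun y hy => hfix y (le_sup_right (a := F1 ⊔ F2) hy)
    intro i j
    have h5 := mul_sub_mem (C := E.ρ σ) h4 i j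
    rw [← map_mul, mul_inv_cancel_left, mul_one] at h5
    exact h5
  -- Eichler-Shimura
  have h5 := (jzeroES L 2).frob ℓ hℓ hℓL2 A hA φ hφ x ⟨n, hx⟩
  rw [hT.smul φ ⟨ℓ, hℓ⟩ hℓL hS.2] at h5
  have h6 : CH φ (E.a ℓ) (ℓ : ℤ) x := by
    unfold CH
    rw [natCast_zsmul]
    exact h5
  have ht' : (2 : ℤ) ^ n ∣ E.a ℓ - t := by
    apply int_dvd_of_mem_span
    have h7 := trace_sub_mem e3
    rw [E.frob ℓ hℓ hℓN A hA φ hφ] at h7
    have := Ideal.add_mem _ h7 ht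
    convert this using 1
    ring
  have hd' : (2 : ℤ) ^ n ∣ (ℓ : ℤ) - d := by
    apply int_dvd_of_mem_span
    have h7 := det_sub_mem e3
    have h8 := E.det n φ ℓ fun μ hμ => RepTwo.frobenius_apply_root hℓ Nat.prime_two hℓ2 hA hφ hμ
    rw [Nat.cast_pow, Nat.cast_ofNat] at h8
    have := Ideal.add_mem _ (Ideal.sub_mem _ h7 h8) hd
    convert this using 1
    push_cast
    ring
  have hx' : ((2 : ℤ) ^ n) • x = 0 := by
    rw [← hx, ← natCast_zsmul]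
    push_cast
    rfl
  have h7 := h6.congr hx' ht' hd'
  unfold CH at h7 ⊢
  rwa [e1, e2] at h7

end Fermat.Agent.TwoAdic.MazH
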