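import Fermat.Agent.TwoAdic.Resid
import Fermat.Agent.DefRing.Rep
import Fermat.Agent.Cheb.Charpoly

/-!
# Absolute irreducibility from the traces
-/

set_option autoImplicit false

open IsLocalRing Polynomial

namespace Fermat.Agent.TwoAdic

open Fermat.Agent.DefRing

local notation "Γℚ" => (AlgebraicClosure ℚ ≃ₐ[ℚ] AlgebraicClosure ℚ)

theorem exists_eigenchar {K V G : Type*} [Field K] [AddCommGroup V] [Module K V] [Group G]
    (hV : Module.finrank K V = 2) (ρ : G →* Module.End K V) (W : Submodule K V)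
    (hW : ∀ g, ∀ x ∈ W, ρ g x ∈ W) (hW0 : W ≠ ⊥) (hW1 : W ≠ ⊤) :
    ∃ χ : G → K, (∀ g h, χ (g * h) = χ g * χ h) ∧
      ∀ g, χ g ^ 2 - LinearMap.trace K V (ρ g) * χ g + LinearMap.det (ρ g) = 0 := by
  have hfin : Module.Finite K V := Module.finite_of_finrank_eq_succ hV
  have hpos : 0 < Module.finrank K W := Module.finrank_pos_iff.mpr
    (Submodule.nontrivial_iff_ne_bot.mpr hW0)
  have hlt : Module.finrank K W < 2 := by
    rw [← hV]
    exact Submodule.finrank_lt hW1
  have hone : Module.finrank K W = 1 := by omega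
  obtain ⟨w, hw0, hw⟩ := finrank_eq_one_iff'.mp hone
  have hw0' : (w : V) ≠ 0 := fun h => hw0 (Subtype.ext h)
  have key : ∀ g : G, ∃ c : K, ρ g w = c • (w : V) := by
    intro g
    obtain ⟨c, hc⟩ := hw ⟨_, hW g w w.2⟩
    exact ⟨c, (congrArg Subtype.val hc).symm⟩
  choose χ hχ using key
  have hinj : ∀ {x y : K}, x • (w : V) = y • (w : V) → x = y := fun h =>
    smul_left_injective K hw0' h
  refine ⟨χ, ?_, ?_⟩
  · intro g h
    apply hinj
    rw [← hχ, map_mul, Module.End.mul_apply, hχ h, map_smul, hχ g, smul_smul, mul_comm]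
  · intro g
    have e3 := Cheb.charpoly_eq hV (ρ g)
    have e4 := LinearMap.aeval_self_charpoly (ρ g)
    rw [e3] at e4
    have e5 := LinearMap.congr_fun e4 (w : V)
    simp only [map_add, map_sub, map_mul, aeval_X, aeval_C, LinearMap.add_apply,
      LinearMap.sub_apply, Module.End.mul_apply, LinearMap.zero_apply, pow_two, hχ, map_smul,
      Module.algebraMap_end_apply] at e5
    apply hinj
    rw [zero_smul, ← e5]
    simp only [add_smul, sub_smul, pow_two, mul_smul]
    rw [smul_comm (LinearMap.trace K V (ρ g)) (χ g)]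

theorem absIrr_of_traces {E : EData} {k : Type} [Field k] (h2 : (2 : k) = 0)
    (ρ : ResidualGaloisRep k) {r : Γℚ → Matrix (Fin 2) (Fin 2) k} (hr : RealizesRes ρ r)
    (htr : ∀ g, (r g).trace = trE E k g) (hdet : ∀ g, (r g).det = 1) {g₀ j₀ : Γℚ}
    (hg : FixK E.N g₀) (hgt : PadicInt.toZMod (p := 2) (E.ρ g₀).trace = 1)
    (hj : ¬ FixK E.N j₀) : ρ.IsAbsolutelyIrreducible := by
  obtain ⟨t1, -, -, t4, -, t6⟩ := E.base_traces hg hgt hj
  intro W hW
  by_contra hcon
  rw [not_or] at hcon
  obtain ⟨χ, hmul, hquad'⟩ := exists_eigenchar (ρ.baseChange (AlgebraicClosure k)).finrank_eq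
    (ρ.baseChange (AlgebraicClosure k)).ρ W hW hcon.1 hcon.2
  obtain ⟨b, hb⟩ := hr.baseChange (AlgebraicClosure k)
  have h2K : (2 : AlgebraicClosure k) = 0 := by
    have := congrArg (algebraMap k (AlgebraicClosure k)) h2
    rwa [map_ofNat, map_zero] at this
  have hquad : ∀ g, χ g ^ 2 - trE E (AlgebraicClosure k) g * χ g + 1 = 0 := by
    intro g
    have e1 : LinearMap.trace (AlgebraicClosure k) (ρ.baseChange (AlgebraicClosure k)).V
        ((ρ.baseChange (AlgebraicClosure k)).ρ g) = trE E (AlgebraicClosure k) g := by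
      rw [LinearMap.trace_eq_matrix_trace (AlgebraicClosure k) b, hb,
        ← map_trE E (algebraMap k (AlgebraicClosure k)), ← htr,
        Matrix.trace_fin_two, Matrix.trace_fin_two, map_add]
      rfl
    have e2 : LinearMap.det ((ρ.baseChange (AlgebraicClosure k)).ρ g) = 1 := by
      rw [← LinearMap.det_toMatrix b, hb, ← map_one (algebraMap k (AlgebraicClosure k)), ← hdet g,
        Matrix.det_fin_two, Matrix.det_fin_two, map_sub, map_mul, map_mul]
      rfl
    have := hquad' g
    rwa [e1, e2] at this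
  have hsq : ∀ x : AlgebraicClosure k, x ^ 2 + 1 = 0 → x = 1 := by
    intro x hx
    have h1 : (x - 1) ^ 2 = 0 := by linear_combination hx - x * h2K
    exact sub_eq_zero.mp (pow_eq_zero_iff (two_ne_zero)|>.mp h1)
  have q1 := hquad g₀
  have q2 := hquad (j₀ * j₀)
  have q3 := hquad (g₀ * j₀ * (g₀ * j₀))
  rw [trE_of_trace_eq_one E t1] at q1
  rw [trE_of_trace_eq_zero E t4, zero_mul, sub_zero] at q2
  rw [trE_of_trace_eq_zero E t6, zero_mul, sub_zero] at q3
  have q2' := hsq _ q2
  have q3' := hsq _ q3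
  rw [hmul] at q2'
  rw [hmul, hmul] at q3'
  have q4 : χ g₀ ^ 2 = 1 := by linear_combination q3' - χ g₀ ^ 2 * q2'
  have q5 : χ g₀ = 1 := hsq _ (by linear_combination q4 + h2K)
  rw [q5] at q1
  exact one_ne_zero (α := AlgebraicClosure k) (by linear_combination q1)

end Fermat.Agent.TwoAdic
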