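import Fermat.Agent.TwoAdic.Cheby
import Fermat.Agent.TwoAdic.Irred
import Fermat.Agent.LL.NF
import Fermat.Agent.LL.OJ
import Fermat.Agent.Newform.StrongMult
import Fermat.Agent.Newform.BadPrime

/-!
# The representations attached to newforms congruent to `E`
-/

set_option autoImplicit false

open IsLocalRing Polynomial ModularFormClass

namespace Fermat.Agent.TwoAdic

open Fermat.Agent.DefRing Fermat.Agent.QComp Fermat.Agent.RepTwo

local notation "Γℚ" => (AlgebraicClosure ℚ ≃ₐ[ℚ] AlgebraicClosure ℚ)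

/-! ### Coefficients -/

/-- the prime coefficients of an eigenform lie in a finitely generated group -/
theorem exists_coeff_gen {M : ℕ} [NeZero M] {f : CuspForm (CongruenceSubgroup.Gamma0 M) 2}
    (hf : f.IsNormalizedEigenform) : ∃ F : Finset (integralClosure ℤ ℂ), ∀ l : ℕ, l.Prime →
      ∃ a ∈ Submodule.span ℤ (F : Set (integralClosure ℤ ℂ)), (a : ℂ) = qCoeff f l := by
  classical
  obtain ⟨χ, hχ⟩ := Eigenform.exists_eigenChar hf ∅
  have hf0 := Eigenform.ne_zero_of_isNormalizedEigenform hf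
  have huniq : ∀ {x y : ℂ}, x • f = y • f → x = y := fun h => smul_left_injective ℂ hf0 h
  have hfin : Module.Finite ℤ (CuspForm.heckeAlgebra M 2 (∅ : Set ℕ)) :=
    Eichler.moduleFinite_heckeAlgebra 2 ∅
  obtain ⟨G, hG⟩ := hfin.fg_top
  refine ⟨G.image χ, fun l hl => ?_⟩
  have key : ∀ t : CuspForm.heckeAlgebra M 2 (∅ : Set ℕ),
      χ t ∈ Submodule.span ℤ ((G.image χ : Finset _) : Set (integralClosure ℤ ℂ)) := by
    intro t
    have h1 : t ∈ Submodule.span ℤ (G : Set (CuspForm.heckeAlgebra M 2 (∅ : Set ℕ))) := by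
      rw [hG]; exact Submodule.mem_top
    have h2 := Submodule.mem_map_of_mem (f := χ.toIntAlgHom.toLinearMap) h1
    rw [Submodule.map_span] at h2
    rw [Finset.coe_image]
    exact h2
  by_cases hlM : l ∣ M
  · have h1 := hχ (CuspForm.heckeAlgebra.U hl hlM (Set.notMem_empty l))
    rw [CuspForm.heckeAlgebra.coe_U, Eigenform.heckeULin_eigen hf hl hlM] at h1
    exact ⟨_, key _, (huniq h1).symm⟩
  · have h1 := hχ (CuspForm.heckeAlgebra.T hl hlM (Set.notMem_empty l))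
    rw [CuspForm.heckeAlgebra.coe_T, Eigenform.heckeTLin_eigen hf hl hlM] at h1
    exact ⟨_, key _, (huniq h1).symm⟩

/-! ### The frame -/

/-- A complete discrete valuation ring inside `ℂ`, compatible with `𝔪` -/
structure Frame (𝔪 : Ideal (integralClosure ℤ ℂ)) (O : Type) [CommRing O] [IsLocalRing O] where
  j : O →+* ℂ
  inj : Function.Injective j
  w : O
  hw : residue O w ^ 2 + residue O w + 1 = 0
  ι : ResidueField O →+* (integralClosure ℤ ℂ ⧸ 𝔪)
  hι : ∀ (a : O) (z : integralClosure ℤ ℂ), j a = z → ι (residue O a) = Ideal.Quotient.mk 𝔪 z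

/-- the coefficients of `f` lie in `O` -/
def Frame.Has {𝔪 : Ideal (integralClosure ℤ ℂ)} {O : Type} [CommRing O] [IsLocalRing O]
    (F : Frame 𝔪 O) {M : ℕ} (f : CuspForm (CongruenceSubgroup.Gamma0 M) 2) : Prop :=
  ∀ l : ℕ, l.Prime → ∃ a : O, F.j a = qCoeff f l

/-- frames exist -/
theorem exists_frame (𝔪 : Ideal (integralClosure ℤ ℂ)) (h𝔪 : 𝔪.IsMaximal)
    (h2 : (2 : integralClosure ℤ ℂ) ∈ 𝔪) {M : ℕ} [NeZero M]
    (𝓕 : Finset (CuspForm (CongruenceSubgroup.Gamma0 M) 2))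
    (h𝓕 : ∀ f ∈ 𝓕, f.IsNormalizedEigenform) :
    ∃ (O : Type) (_ : CommRing O) (_ : IsDomain O) (_ : IsDiscreteValuationRing O)
      (_ : IsAdicComplete (maximalIdeal O) O) (_ : Finite (ResidueField O)) (_ : CharZero O)
      (_ : (2 : O) ∈ maximalIdeal O) (F : Frame 𝔪 O), ∀ f ∈ 𝓕, F.Has f := by
  classical
  choose! G hG using fun (f : CuspForm (CongruenceSubgroup.Gamma0 M) 2)
    (hf : f.IsNormalizedEigenform) => exists_coeff_gen hf
  obtain ⟨ω, hω⟩ : ∃ ω : ℂ, ω ^ 2 + ω + 1 = 0 := by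
    have h1 := IsAlgClosed.exists_root (X ^ 2 + X + 1 : ℂ[X]) (by
      have : (X ^ 2 + X + 1 : ℂ[X]).degree = 2 := by compute_degree!
      rw [this]; decide)
    obtain ⟨x, hx⟩ := h1
    refine ⟨x, ?_⟩
    simpa using hx
  have hωi : IsIntegral ℤ ω := by
    refine ⟨X ^ 2 + X + 1, by monicity!, ?_⟩
    simpa using hω
  obtain ⟨O, i1, i2, i3, i4, i5, i6, hp, j, ι, hj, hF, hι⟩ := LL.oj 2 Nat.prime_two 𝔪 h𝔪
    (by exact_mod_cast h2) (insert ⟨ω, hωi⟩ (𝓕.biUnion G))
  obtain ⟨w, hw⟩ := hF ⟨ω, hωi⟩ (Finset.mem_insert_self _ _)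
  have hw' : w ^ 2 + w + 1 = 0 := by
    apply hj
    rw [map_add, map_add, map_pow, map_one, hw, map_zero]
    exact hω
  refine ⟨O, i1, i2, i3, i4, i5, i6, by exact_mod_cast hp, ⟨j, hj, w, ?_, ι, hι⟩, ?_⟩
  · rw [← map_pow, ← map_add, ← map_one (residue O), ← map_add, hw', map_zero]
  · intro f hf l hl
    obtain ⟨a, ha, ha'⟩ := hG f (h𝓕 f hf) l hl
    have key : ∀ z ∈ Submodule.span ℤ ((G f : Finset _) : Set (integralClosure ℤ ℂ)),
        ∃ b : O, j b = z := by
      intro z hz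
      induction hz using Submodule.span_induction with
      | mem x hx => exact hF x (Finset.mem_insert_of_mem (Finset.mem_biUnion.mpr ⟨f, hf, hx⟩))
      | zero => exact ⟨0, by rw [map_zero]; rfl⟩
      | add x y _ _ hx hy =>
        obtain ⟨b, hb⟩ := hx
        obtain ⟨c, hc⟩ := hy
        exact ⟨b + c, by rw [map_add, hb, hc]; rfl⟩
      | smul n x _ hx =>
        obtain ⟨b, hb⟩ := hx
        refine ⟨n • b, ?_⟩
        rw [map_zsmul, hb]
        rfl
    obtain ⟨b, hb⟩ := key a ha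
    exact ⟨b, by rw [← ha']; exact hb⟩

end Fermat.Agent.TwoAdic
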