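import Fermat.Agent.TwoAdic.Spec
import Fermat.Agent.Patch.TamePair

set_option autoImplicit false
set_option linter.unusedSectionVars false

/-!
# The Steinberg condition from relations for generators of the decomposition group
-/

open IsLocalRing

namespace Fermat.Agent.TwoAdic

local notation "Γℚ" => (AlgebraicClosure ℚ ≃ₐ[ℚ] AlgebraicClosure ℚ)
local notation "Qb" => AlgebraicClosure ℚ
local notation "M₂" => Matrix (Fin 2) (Fin 2)

/-! ## Decomposition of elements, with parity -/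

theorem pow_modEq_one_iff {v : ℕ} (hv : 2 ≤ v) (i : ℕ) :
    v ^ i ≡ 1 [MOD (v ^ 2 - 1)] ↔ Even i := by
  have h1 : v ^ 2 ≡ 1 [MOD (v ^ 2 - 1)] := by
    have h2 : 1 ≤ v ^ 2 := Nat.one_le_pow _ _ (by omega)
    exact ((Nat.modEq_iff_dvd' h2).mpr dvd_rfl).symm
  have h2 : ∀ k, v ^ (2 * k) ≡ 1 [MOD (v ^ 2 - 1)] := by
    intro k
    rw [pow_mul]
    have := h1.pow k
    rwa [one_pow] at this
  constructor
  · intro h
    by_contra hi
    rw [Nat.not_even_iff_odd] at hi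
    obtain ⟨k, rfl⟩ := hi
    have h3 : v ^ (2 * k + 1) ≡ v [MOD (v ^ 2 - 1)] := by
      rw [pow_succ]
      have := (h2 k).mul_right v
      rwa [one_mul] at this
    have h4 := (h3.symm.trans h).symm
    rw [Nat.modEq_iff_dvd' (by omega)] at h4
    have h5 := Nat.le_of_dvd (by omega) h4
    have h6 : v * 2 ≤ v ^ 2 := by
      rw [pow_two]
      exact Nat.mul_le_mul_left v hv
    omega
  · rintro ⟨k, rfl⟩
    rw [← two_mul]
    exact h2 k

/-- The decomposition group is generated, modulo every open subgroup, by one Frobenius element and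
inertia, and the power of Frobenius detects the parity. -/
theorem exists_level_decomp {v : ℕ} (hv : v.Prime) {P : ValuationSubring Qb}
    (hP : P.LiesOverPrime v) :
    ∃ φ : Γℚ, P.IsFrobeniusAt φ v ∧ ∀ (F : IntermediateField ℚ Qb), FiniteDimensional ℚ F →
      ∀ σ ∈ P.decompositionSubgroup ℚ, ∃ i : ℕ, ∃ h ∈ F.fixingSubgroup,
        ∃ t ∈ P.inertiaSubgroupIn ℚ, σ = φ ^ i * h * t ∧ (IsEven v σ ↔ Even i) := by
  have : Fact v.Prime := ⟨hv⟩
  have hv2 := hv.two_le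
  have h6 : v * 2 ≤ v ^ 2 := by
    rw [pow_two]
    exact Nat.mul_le_mul_left v hv2
  have hm0 : NeZero (v ^ 2 - 1) := ⟨by omega⟩
  obtain ⟨ζ, hζ⟩ := HasEnoughRootsOfUnity.exists_primitiveRoot Qb (v ^ 2 - 1)
  obtain ⟨g, rfl⟩ := CFT.Loc.exists_eq_smul_padicPlace v hP
  obtain ⟨φ, hφ⟩ := CFT.Loc.exists_frobenius_loc v
  have hfrob := Patch.isFrobeniusAt_rg v g hφ
  refine ⟨CFT.Loc.rg v g φ, hfrob, ?_⟩
  intro F hF σ hσ
  have hζint : IsIntegral ℚ ζ := (AlgebraicClosure.isAlgebraic ℚ).isIntegral.isIntegral ζ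
  have hfd : FiniteDimensional ℚ (IntermediateField.adjoin ℚ {ζ}) :=
    IntermediateField.adjoin.finiteDimensional hζint
  obtain ⟨i, h, hh, t, ht, hσt⟩ := Patch.exists_frob_pow_mul v g hφ hσ
    (F ⊔ IntermediateField.adjoin ℚ {ζ})
  have hndvd : ¬ v ∣ v ^ 2 - 1 := by
    intro h
    have h1 : v ∣ v ^ 2 := dvd_pow_self v two_ne_zero
    have h2 : v ∣ v ^ 2 - (v ^ 2 - 1) := Nat.dvd_sub h1 h
    have h3 : v ^ 2 - (v ^ 2 - 1) = 1 := by omega
    rw [h3] at h2
    exact hv.one_lt.ne' (Nat.dvd_one.mp h2)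
  have hhζ : h ζ = ζ := by
    have h1 : ζ ∈ F ⊔ IntermediateField.adjoin ℚ {ζ} :=
      (le_sup_right : IntermediateField.adjoin ℚ {ζ} ≤ _)
        (IntermediateField.mem_adjoin_simple_self ℚ ζ)
    exact hh ⟨ζ, h1⟩
  have htζ : t ζ = ζ := CFT.inertia_apply_rootOfUnity hv hP hndvd ht hζ.pow_eq_one
  have hφζ : ∀ i : ℕ, ((CFT.Loc.rg v g φ) ^ i) ζ = ζ ^ v ^ i := by
    intro i
    induction i with
    | zero => simp
    | succ i ih =>
      rw [pow_succ, AlgEquiv.mul_apply,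
        Patch.frob_apply_rootOfUnity hv hP hndvd hfrob hζ.pow_eq_one, map_pow, ih, ← pow_mul,
        pow_succ]
  refine ⟨i, h, IntermediateField.fixingSubgroup_le le_sup_left hh, t, ht, hσt, ?_⟩
  have hσζ : σ ζ = ζ ^ v ^ i := by
    rw [hσt, AlgEquiv.mul_apply, AlgEquiv.mul_apply, htζ, hhζ, hφζ]
  rw [← pow_modEq_one_iff hv2]
  have h7 : σ ζ = ζ ↔ v ^ i ≡ 1 [MOD (v ^ 2 - 1)] := by
    rw [hσζ]
    have h8 : 1 ≤ v ^ i := Nat.one_le_pow _ _ (by omega)
    have h9 : ζ ^ v ^ i = ζ ^ (v ^ i - 1) * ζ := by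
      rw [← pow_succ, Nat.sub_add_cancel h8]
    have hζ0 : ζ ≠ 0 := hζ.ne_zero hm0.out
    rw [h9, mul_eq_right₀ hζ0, hζ.pow_eq_one_iff_dvd, ← Nat.modEq_iff_dvd' h8]
    exact ⟨fun h => h.symm, fun h => h.symm⟩
  rw [← h7]
  constructor
  · intro h
    exact h ζ hζ.pow_eq_one
  · intro h ξ hξ
    obtain ⟨k, -, rfl⟩ := hζ.eq_pow_of_pow_eq_one hξ
    rw [map_pow, h]

/-! ## Algebra -/

theorem star_alg {R E : Type*} [CommRing R] [Ring E] [Algebra R E] {X T S : E} {c d : R}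
    (h1 : (X - algebraMap R E c) * (X - algebraMap R E d) = 0)
    (h2 : (T - 1) * (X - algebraMap R E d) = 0) (h3 : (X - algebraMap R E c) * (S - 1) = 0)
    (h4 : (T - 1) * (S - 1) = 0) (i j : ℕ) :
    (X ^ i * T - algebraMap R E (c ^ i)) * (X ^ j * S - algebraMap R E (d ^ j)) = 0 := by
  have key : ∀ {Y : E}, (X - algebraMap R E c) * Y = 0 → ∀ i : ℕ,
      X ^ i * Y = algebraMap R E (c ^ i) * Y := by
    intro Y hY i
    induction i with
    | zero => simp
    | succ i ih =>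
      rw [sub_mul, sub_eq_zero] at hY
      rw [pow_succ, mul_assoc, hY, ← mul_assoc, ← Algebra.commutes c, mul_assoc, ih, ← mul_assoc,
        ← map_mul, pow_succ, mul_comm c]
  have e1 : T * (S - 1) = S - 1 := by
    rw [sub_mul, one_mul, sub_eq_zero] at h4
    exact h4
  have e2 : T * (X - algebraMap R E d) = X - algebraMap R E d := by
    rw [sub_mul, one_mul, sub_eq_zero] at h2
    exact h2
  obtain ⟨q, hq⟩ : ∃ q : E, X ^ j - algebraMap R E (d ^ j) = (X - algebraMap R E d) * q := by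
    have hc : Commute X (algebraMap R E d) := (Algebra.commutes d X).symm
    rw [map_pow]
    exact ⟨_, (hc.mul_geom_sum₂ j).symm⟩
  have e3 : X ^ j * S - algebraMap R E (d ^ j) =
      algebraMap R E (c ^ j) * (S - 1) + (X - algebraMap R E d) * q := by
    rw [← key h3 j, ← hq, mul_sub, mul_one]
    abel
  rw [e3, mul_add, sub_mul, sub_mul]
  have e4 : X ^ i * T * (algebraMap R E (c ^ j) * (S - 1)) =
      algebraMap R E (c ^ i) * (algebraMap R E (c ^ j) * (S - 1)) := by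
    rw [← mul_assoc, ← Algebra.commutes (c ^ j) (X ^ i * T), mul_assoc, mul_assoc, e1, key h3 i,
      ← mul_assoc, ← mul_assoc, ← map_mul, ← map_mul, mul_comm (c ^ j)]
  have e5 : X ^ i * T * ((X - algebraMap R E d) * q) =
      algebraMap R E (c ^ i) * ((X - algebraMap R E d) * q) := by
    rw [← mul_assoc, mul_assoc (X ^ i), e2, key h1 i, mul_assoc]
  rw [e4, e5, sub_self, sub_self, add_zero]

theorem unr_eq_pow {R : Type*} [CommRing R] {v : ℕ} {u : R} (hu : u ^ 2 = 1) {σ : Γℚ} {i : ℕ}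
    (h : IsEven v σ ↔ Even i) : unr v u σ = u ^ i := by
  unfold unr
  split_ifs with h1
  · obtain ⟨k, rfl⟩ := h.mp h1
    rw [← two_mul, pow_mul, hu, one_pow]
  · have h2 : Odd i := Nat.not_even_iff_odd.mp (fun h2 => h1 (h.mpr h2))
    obtain ⟨k, rfl⟩ := h2
    rw [pow_succ, pow_mul, hu, one_pow, one_mul]

/-- The generator relations at a place. -/
structure GenRel {R : Type*} [CommRing R] (ρ : Γℚ →* M₂ R) (v : ℕ) (u : R)
    (P : ValuationSubring Qb) (φ : Γℚ) : Prop where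
  ff : (ρ φ - Matrix.scalar (Fin 2) (v * u)) * (ρ φ - Matrix.scalar (Fin 2) u) = 0
  tf : ∀ t ∈ P.inertiaSubgroupIn ℚ, (ρ t - 1) * (ρ φ - Matrix.scalar (Fin 2) u) = 0
  fs : ∀ s ∈ P.inertiaSubgroupIn ℚ, (ρ φ - Matrix.scalar (Fin 2) (v * u)) * (ρ s - 1) = 0
  ts : ∀ s ∈ P.inertiaSubgroupIn ℚ, ∀ t ∈ P.inertiaSubgroupIn ℚ, (ρ t - 1) * (ρ s - 1) = 0
  detf : (ρ φ).det = v
  dets : ∀ s ∈ P.inertiaSubgroupIn ℚ, (ρ s).det = 1

theorem star_of_gen_bot {R : Type*} [CommRing R] {ρ : Γℚ →* M₂ R} (hcont : ContAt ⊥ ρ) {v : ℕ}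
    (hv : v.Prime) {P : ValuationSubring Qb} (hP : P.LiesOverPrime v) {u : R} (hu : u ^ 2 = 1)
    (hgen : ∀ φ, P.IsFrobeniusAt φ v → GenRel ρ v u P φ) :
    ∀ g ∈ P.decompositionSubgroup ℚ, ∀ h ∈ P.decompositionSubgroup ℚ,
      (ρ g - Matrix.scalar (Fin 2) ((ρ g).det * unr v u g)) *
        (ρ h - Matrix.scalar (Fin 2) (unr v u h)) = 0 := by
  obtain ⟨φ, hφ, hdec⟩ := exists_level_decomp hv hP
  obtain ⟨F, hF, hFρ⟩ := hcont
  have hρF : ∀ h ∈ F.fixingSubgroup, ρ h = 1 := by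
    intro h hh
    ext i j
    have := hFρ h (fun x hx => hh ⟨x, hx⟩) i j
    rw [Ideal.mem_bot, sub_eq_zero] at this
    exact this
  have H := hgen φ hφ
  intro g hg h hh
  obtain ⟨i, g', hg', t, ht, hgt, hgi⟩ := hdec F hF g hg
  obtain ⟨j, h', hh', s, hs, hhs, hhj⟩ := hdec F hF h hh
  have e1 : ρ g = ρ φ ^ i * ρ t := by
    rw [hgt, map_mul, map_mul, hρF g' hg', mul_one, map_pow]
  have e2 : ρ h = ρ φ ^ j * ρ s := by
    rw [hhs, map_mul, map_mul, hρF h' hh', mul_one, map_pow]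
  have e3 : (ρ g).det * unr v u g = (v * u) ^ i := by
    rw [e1, Matrix.det_mul, Matrix.det_pow, H.detf, H.dets t ht, unr_eq_pow hu hgi, mul_one,
      mul_pow]
  rw [e3, unr_eq_pow hu hhj, e1, e2]
  exact star_alg H.ff (H.tf t ht) (H.fs s hs) (H.ts s hs t ht) i j

/-- change of coefficients of a matrix representation -/
noncomputable def mapRep {R S : Type*} [CommRing R] [CommRing S] (f : R →+* S) (ρ : Γℚ →* M₂ R) : Γℚ →* M₂ S :=
  (f.mapMatrix : M₂ R →+* M₂ S).toMonoidHom.comp ρ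

theorem mapRep_apply {R S : Type*} [CommRing R] [CommRing S] (f : R →+* S) (ρ : Γℚ →* M₂ R)
    (σ : Γℚ) : mapRep f ρ σ = (ρ σ).map f := rfl

theorem mapRep_apply' {R S : Type*} [CommRing R] [CommRing S] (f : R →+* S) (ρ : Γℚ →* M₂ R)
    (σ : Γℚ) : mapRep f ρ σ = f.mapMatrix (ρ σ) := rfl

/-- reduction of a matrix representation modulo an ideal -/
noncomputable def redRep {R : Type*} [CommRing R] (ρ : Γℚ →* M₂ R) (I : Ideal R) : Γℚ →* M₂ (R ⧸ I) :=
  mapRep (Ideal.Quotient.mk I) ρ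

theorem redRep_apply {R : Type*} [CommRing R] (ρ : Γℚ →* M₂ R) (I : Ideal R) (σ : Γℚ) :
    redRep ρ I σ = (ρ σ).map (Ideal.Quotient.mk I) := rfl

theorem redRep_apply' {R : Type*} [CommRing R] (ρ : Γℚ →* M₂ R) (I : Ideal R) (σ : Γℚ) :
    redRep ρ I σ = (Ideal.Quotient.mk I).mapMatrix (ρ σ) := rfl

theorem redRep_cont {R : Type*} [CommRing R] {ρ : Γℚ →* M₂ R} {I : Ideal R} (h : ContAt I ρ) :
    ContAt ⊥ (redRep ρ I) := by
  obtain ⟨F, hF, hFρ⟩ := h
  refine ⟨F, hF, fun σ hσ i j => ?_⟩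
  rw [Ideal.mem_bot]
  have h1 := hFρ σ hσ i j
  rw [← Ideal.Quotient.eq_zero_iff_mem, map_sub] at h1
  rw [redRep_apply, Matrix.map_apply, ← h1]
  congr 1
  rcases eq_or_ne i j with rfl | hij
  · simp
  · simp [Matrix.one_apply_ne hij]

theorem unr_map {R S : Type*} [CommRing R] [CommRing S] (f : R →+* S) (v : ℕ) (u : R) (σ : Γℚ) :
    unr v (f u) σ = f (unr v u σ) := by
  unfold unr
  split_ifs
  · rw [map_one]
  · rfl

theorem map_scalar {R S : Type*} [CommRing R] [CommRing S] (f : R →+* S) (a : R) :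
    f.mapMatrix (Matrix.scalar (Fin 2) a) = Matrix.scalar (Fin 2) (f a) := by
  rw [Matrix.scalar_apply, Matrix.scalar_apply, RingHom.mapMatrix_apply, Matrix.diagonal_map]
  exact map_zero f

theorem GenRel.map {R S : Type*} [CommRing R] [CommRing S] (f : R →+* S) {ρ : Γℚ →* M₂ R} {v : ℕ}
    {u : R} {P : ValuationSubring Qb} {φ : Γℚ} (h : GenRel ρ v u P φ) :
    GenRel (mapRep f ρ) v (f u) P φ := by
  have e1 : ∀ a, Matrix.scalar (Fin 2) (f a) = f.mapMatrix (Matrix.scalar (Fin 2) a) :=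
    fun a => (map_scalar f a).symm
  have e2 : ∀ σ, mapRep f ρ σ = f.mapMatrix (ρ σ) := fun _ => rfl
  have e3 : (v : S) * f u = f (v * u) := by rw [map_mul, map_natCast]
  constructor
  · rw [e2, e3, e1, e1, ← map_sub, ← map_sub, ← map_mul, h.ff, map_zero]
  · intro t ht
    rw [e2, e2, e1, ← map_one (f.mapMatrix : M₂ R →+* M₂ S), ← map_sub, ← map_sub, ← map_mul,
      h.tf t ht, map_zero]
  · intro t ht
    rw [e2, e2, e3, e1, ← map_one (f.mapMatrix : M₂ R →+* M₂ S), ← map_sub, ← map_sub, ← map_mul,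
      h.fs t ht, map_zero]
  · intro s hs t ht
    rw [e2, e2, ← map_one (f.mapMatrix : M₂ R →+* M₂ S), ← map_sub, ← map_sub, ← map_mul,
      h.ts s hs t ht, map_zero]
  · rw [e2, ← RingHom.map_det, h.detf, map_natCast]
  · intro s hs
    rw [e2, ← RingHom.map_det, h.dets s hs, map_one]

/-- **The Steinberg condition from generators**, matrix version over a ring which is Hausdorff for
an ideal. -/
theorem star_of_gen {R : Type*} [CommRing R] (I : Ideal R) [IsHausdorff I R] {ρ : Γℚ →* M₂ R}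
    (hcont : ∀ n : ℕ, ContAt (I ^ n) ρ) {v : ℕ}
    (hv : v.Prime) {P : ValuationSubring Qb} (hP : P.LiesOverPrime v) {u : R} (hu : u ^ 2 = 1)
    (hgen : ∀ φ, P.IsFrobeniusAt φ v → GenRel ρ v u P φ) :
    ∀ g ∈ P.decompositionSubgroup ℚ, ∀ h ∈ P.decompositionSubgroup ℚ,
      (ρ g - Matrix.scalar (Fin 2) ((ρ g).det * unr v u g)) *
        (ρ h - Matrix.scalar (Fin 2) (unr v u h)) = 0 := by
  intro g hg h hh
  ext i j
  rw [Matrix.zero_apply]
  apply IsHausdorff.haus (inferInstance : IsHausdorff I R)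
  intro n
  rw [SModEq.zero, smul_eq_mul, Ideal.mul_top, ← Ideal.Quotient.eq_zero_iff_mem]
  have h1 := star_of_gen_bot (redRep_cont (hcont n)) hv hP (u := Ideal.Quotient.mk (I ^ n) u)
    (by rw [← map_pow, hu, map_one]) (fun φ hφ => (hgen φ hφ).map (Ideal.Quotient.mk (I ^ n)))
    g hg h hh
  rw [unr_map, unr_map, redRep_apply', redRep_apply', ← RingHom.map_det, ← map_mul, ← map_scalar,
    ← map_scalar, ← map_sub, ← map_sub, ← map_mul] at h1
  exact congrFun (congrFun h1 i) j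

/-! ## Adic representations -/

section Adic

variable {R : Type} [CommRing R] [IsLocalRing R]

/-- The generator relations at a place, for an adic representation. -/
structure GenRelRep (ρ : GaloisRepAdic R) (v : ℕ) (u : R) (P : ValuationSubring Qb) (φ : Γℚ) :
    Prop where
  ff : (ρ.ρ φ - algebraMap R (Module.End R ρ.V) (v * u)) *
    (ρ.ρ φ - algebraMap R (Module.End R ρ.V) u) = 0
  tf : ∀ t ∈ P.inertiaSubgroupIn ℚ, (ρ.ρ t - 1) * (ρ.ρ φ - algebraMap R (Module.End R ρ.V) u) = 0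
  fs : ∀ s ∈ P.inertiaSubgroupIn ℚ,
    (ρ.ρ φ - algebraMap R (Module.End R ρ.V) (v * u)) * (ρ.ρ s - 1) = 0
  ts : ∀ s ∈ P.inertiaSubgroupIn ℚ, ∀ t ∈ P.inertiaSubgroupIn ℚ,
    (ρ.ρ t - 1) * (ρ.ρ s - 1) = 0
  detf : LinearMap.det (ρ.ρ φ) = v
  dets : ∀ s ∈ P.inertiaSubgroupIn ℚ, LinearMap.det (ρ.ρ s) = 1

/-- a basis of an adic representation -/
noncomputable def adicBasis (ρ : GaloisRepAdic R) : Module.Basis (Fin 2) R ρ.V :=
  Module.finBasisOfFinrankEq R ρ.V ρ.finrank_eq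

/-- the matrices of an adic representation -/
noncomputable def adicMat (ρ : GaloisRepAdic R) (b : Module.Basis (Fin 2) R ρ.V) : Γℚ →* M₂ R :=
  ((LinearMap.toMatrixAlgEquiv b : Module.End R ρ.V ≃ₐ[R] M₂ R) :
    Module.End R ρ.V →* M₂ R).comp ρ.ρ

theorem adicMat_apply (ρ : GaloisRepAdic R) (b : Module.Basis (Fin 2) R ρ.V) (σ : Γℚ) :
    adicMat ρ b σ = LinearMap.toMatrixAlgEquiv b (ρ.ρ σ) := rfl

theorem coord_mem_of_mem_smul_top {V : Type} [AddCommGroup V] [Module R V]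
    (b : Module.Basis (Fin 2) R V) (I : Ideal R) {x : V} (hx : x ∈ I • (⊤ : Submodule R V))
    (i : Fin 2) : b.repr x i ∈ I := by
  refine Submodule.smul_induction_on hx (fun r hr y _ => ?_) (fun y z hy hz => ?_)
  · rw [map_smul, Finsupp.smul_apply, smul_eq_mul]
    exact Ideal.mul_mem_right _ _ hr
  · rw [map_add, Finsupp.add_apply]
    exact I.add_mem hy hz

theorem adicMat_cont (ρ : GaloisRepAdic R) (b : Module.Basis (Fin 2) R ρ.V) (n : ℕ) :
    ContAt (maximalIdeal R ^ n) (adicMat ρ b) := by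
  obtain ⟨F, hF, hFρ⟩ := ρ.isAdicContinuous n
  refine ⟨F, hF, fun σ hσ i j => ?_⟩
  have h1 := coord_mem_of_mem_smul_top b _ (hFρ σ hσ (b j)) i
  rw [adicMat_apply, LinearMap.toMatrixAlgEquiv_apply]
  rw [map_sub, Finsupp.sub_apply, b.repr_self] at h1
  rcases eq_or_ne i j with rfl | hij
  · rwa [Finsupp.single_eq_same, ← Matrix.one_apply_eq (α := R) i] at h1
  · rw [Finsupp.single_eq_of_ne hij] at h1
    rwa [Matrix.one_apply_ne hij]

theorem algebraMap_mat (a : R) : algebraMap R (M₂ R) a = Matrix.scalar (Fin 2) a := rfl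

theorem GenRelRep.mat {ρ : GaloisRepAdic R} {v : ℕ} {u : R} {P : ValuationSubring Qb} {φ : Γℚ}
    (h : GenRelRep ρ v u P φ) (b : Module.Basis (Fin 2) R ρ.V) :
    GenRel (adicMat ρ b) v u P φ := by
  have e1 : ∀ a : R, Matrix.scalar (Fin 2) a =
      LinearMap.toMatrixAlgEquiv b (algebraMap R (Module.End R ρ.V) a) := by
    intro a
    rw [AlgEquiv.commutes]
    rfl
  have e3 : ∀ f : Module.End R ρ.V, (LinearMap.toMatrixAlgEquiv b f).det = LinearMap.det f := by
    intro f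
    exact LinearMap.det_toMatrix b f
  constructor
  · rw [adicMat_apply, e1, e1, ← map_sub, ← map_sub, ← map_mul, h.ff, map_zero]
  · intro t ht
    rw [adicMat_apply, adicMat_apply, e1, ← map_one (LinearMap.toMatrixAlgEquiv b), ← map_sub,
      ← map_sub, ← map_mul, h.tf t ht, map_zero]
  · intro t ht
    rw [adicMat_apply, adicMat_apply, e1, ← map_one (LinearMap.toMatrixAlgEquiv b), ← map_sub,
      ← map_sub, ← map_mul, h.fs t ht, map_zero]
  · intro s hs t ht
    rw [adicMat_apply, adicMat_apply, ← map_one (LinearMap.toMatrixAlgEquiv b), ← map_sub,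
      ← map_sub, ← map_mul, h.ts s hs t ht, map_zero]
  · rw [adicMat_apply, e3, h.detf]
  · intro s hs
    rw [adicMat_apply, e3, h.dets s hs]

/-- **(F1-gen)** the Steinberg condition for an adic representation from the relations for the
generators of the decomposition group. -/
theorem starAtRep_of_gen [IsHausdorff (maximalIdeal R) R] (ρ : GaloisRepAdic R) {v : ℕ}
    (hv : v.Prime) {u : R} (hu : u ^ 2 = 1)
    (hgen : ∀ P : ValuationSubring Qb, P.LiesOverPrime v → ∀ φ : Γℚ, P.IsFrobeniusAt φ v →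
      GenRelRep ρ v u P φ) : StarAtRep ρ v u := by
  intro P hP g hg h hh
  have H := star_of_gen (maximalIdeal R) (adicMat_cont ρ (adicBasis ρ)) hv hP hu
    (fun φ hφ => (hgen P hP φ hφ).mat (adicBasis ρ)) g hg h hh
  apply (LinearMap.toMatrixAlgEquiv (adicBasis ρ)).injective
  have e1 : ∀ a : R, Matrix.scalar (Fin 2) a =
      LinearMap.toMatrixAlgEquiv (adicBasis ρ) (algebraMap R (Module.End R ρ.V) a) := by
    intro a
    rw [AlgEquiv.commutes]
    rfl
  have e3 : ∀ f : Module.End R ρ.V,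
      (LinearMap.toMatrixAlgEquiv (adicBasis ρ) f).det = LinearMap.det f := by
    intro f
    exact LinearMap.det_toMatrix (adicBasis ρ) f
  rw [adicMat_apply, adicMat_apply, e3, e1, e1] at H
  rw [map_mul, map_sub, map_sub, map_zero]
  exact H

end Adic

/-! ## The auxiliary primes -/

theorem ContAt.mapRep {R S : Type*} [CommRing R] [CommRing S] {I : Ideal R} {ρ : Γℚ →* M₂ R}
    (h : ContAt I ρ) (f : R →+* S) (hf : ∀ x ∈ I, f x = 0) : ContAt ⊥ (mapRep f ρ) := by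
  obtain ⟨F, hF, hFρ⟩ := h
  refine ⟨F, hF, fun σ hσ i j => ?_⟩
  rw [Ideal.mem_bot]
  have h1 := hf _ (hFρ σ hσ i j)
  rw [map_sub] at h1
  rw [mapRep_apply, Matrix.map_apply, ← h1]
  congr 1
  rcases eq_or_ne i j with rfl | hij
  · simp
  · simp [Matrix.one_apply_ne hij]

theorem toZModPow_eq_zero_of_mem {m : ℕ} {x : ℤ_[2]} (hx : x ∈ Ideal.span {(2 : ℤ_[2]) ^ m}) :
    PadicInt.toZModPow (p := 2) m x = 0 := by
  rw [← RingHom.mem_ker, PadicInt.ker_toZModPow]
  exact_mod_cast hx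

/-- the determinant of a Frobenius element -/
theorem EData.det_frob (E : EData) {q : ℕ} (hq : q.Prime) (hq2 : q ≠ 2)
    {P : ValuationSubring Qb} (hP : P.LiesOverPrime q) {φ : Γℚ} (hφ : P.IsFrobeniusAt φ q) :
    (E.ρ φ).det = q := by
  have h1 : ∀ n : ℕ, (E.ρ φ).det - (q : ℤ_[2]) ∈ Ideal.span {((2 ^ n : ℕ) : ℤ_[2])} := by
    intro n
    apply E.det n φ q
    intro μ hμ
    refine Patch.frob_apply_rootOfUnity hq hP ?_ hφ hμ
    intro h
    exact hq2 ((Nat.prime_dvd_prime_iff_eq hq Nat.prime_two).mp (hq.dvd_of_dvd_pow h))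
  rw [← sub_eq_zero]
  apply PadicInt.ext_of_toZModPow.mp
  intro n
  rw [map_zero]
  apply toZModPow_eq_zero_of_mem
  have := h1 n
  rwa [Nat.cast_pow, Nat.cast_ofNat] at this

/-- **(F1-aux)** the Steinberg condition modulo `2 ^ m` at the auxiliary primes, for both signs. -/
theorem starAt_aux (E : EData) {m q : ℕ} (hq : IsAux E m q) {u : ZMod (2 ^ m)} (hu : u ^ 2 = 1) :
    StarAt (mapRep (PadicInt.toZModPow (p := 2) m) E.ρ) q u := by
  intro P hP
  refine star_of_gen_bot ((E.cont m).mapRep _ fun x hx => toZModPow_eq_zero_of_mem hx) hq.prime hP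
    hu ?_
  intro φ hφ
  have hq1 : ((q : ℕ) : ZMod (2 ^ m)) = -1 := by
    have h1 : ((q + 1 : ℤ) : ZMod (2 ^ m)) = 0 := by
      rw [ZMod.intCast_zmod_eq_zero_iff_dvd]
      exact_mod_cast hq.modEq
    push_cast at h1
    exact eq_neg_of_add_eq_zero_left h1
  have hin : ∀ t ∈ P.inertiaSubgroupIn ℚ, mapRep (PadicInt.toZModPow (p := 2) m) E.ρ t = 1 := by
    intro t ht
    rw [mapRep_apply', E.unr q hq.prime hq.not_dvd P hP t ht, map_one]
  have hX : mapRep (PadicInt.toZModPow (p := 2) m) E.ρ φ *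
      mapRep (PadicInt.toZModPow (p := 2) m) E.ρ φ = 1 := by
    rw [← map_mul]
    ext i j
    have h1 := toZModPow_eq_zero_of_mem ((hq.frob P hP φ hφ).2 i j)
    rw [map_sub, sub_eq_zero] at h1
    rw [mapRep_apply, Matrix.map_apply, h1]
    rcases eq_or_ne i j with rfl | hij
    · simp
    · simp [Matrix.one_apply_ne hij]
  constructor
  · rw [hq1, neg_one_mul, map_neg, sub_neg_eq_add]
    have hc : Commute (mapRep (PadicInt.toZModPow (p := 2) m) E.ρ φ)
        (Matrix.scalar (Fin 2) u) := (Matrix.scalar_commute u (fun r => mul_comm u r) _).symm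
    have h2 : (mapRep (PadicInt.toZModPow (p := 2) m) E.ρ φ + Matrix.scalar (Fin 2) u) *
        (mapRep (PadicInt.toZModPow (p := 2) m) E.ρ φ - Matrix.scalar (Fin 2) u) =
        mapRep (PadicInt.toZModPow (p := 2) m) E.ρ φ * mapRep (PadicInt.toZModPow (p := 2) m) E.ρ φ -
          Matrix.scalar (Fin 2) u * Matrix.scalar (Fin 2) u := (hc.mul_self_sub_mul_self_eq).symm
    rw [h2, hX, ← map_mul, ← pow_two, hu, map_one, sub_self]
  · intro t ht
    rw [hin t ht, sub_self, zero_mul]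
  · intro t ht
    rw [hin t ht, sub_self, mul_zero]
  · intro s hs t ht
    rw [hin t ht, sub_self, zero_mul]
  · rw [mapRep_apply', ← RingHom.map_det, E.det_frob hq.prime hq.ne_two hP hφ, map_natCast]
  · intro s hs
    rw [hin s hs, Matrix.det_one]

end Fermat.Agent.TwoAdic
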