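import Fermat.Agent.TwoAdic.KillW
import Fermat.Agent.TwoAdic.StarGen
import Fermat.Agent.MazurQ.Four
import Fermat.Agent.Cheb.DetCyc
import Fermat.Agent.ECRep.FrobAll
import Fermat.Agent.CFT.SLevTame

/-!
# The Steinberg relations at `q ∥ level`, `q ≠ p`
-/

set_option autoImplicit false
set_option linter.unusedSectionVars false

namespace Fermat.Agent.TwoAdic

open IsLocalRing Polynomial ModularCurve AlgebraicCurve Fermat.Agent.QComp Fermat.Agent.MazurQ

local notation "Qb" => AlgebraicClosure ℚ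
local notation "Γℚ" => (AlgebraicClosure ℚ ≃ₐ[ℚ] AlgebraicClosure ℚ)

section det

variable {R : Type} [CommRing R] [IsLocalRing R]

theorem det_of_charpoly (ρ : GaloisRepAdic R) {σ : Γℚ} {a d : R}
    (h : LinearMap.charpoly (ρ.ρ σ) = X ^ 2 - C a * X + C d) : LinearMap.det (ρ.ρ σ) = d := by
  rw [LinearMap.det_eq_sign_charpoly_coeff, ρ.finrank_eq, h]
  simp

/-- the determinant is cyclotomic -/
theorem detIsCyclotomic_of_charpoly [IsNoetherianRing R] (ρ : GaloisRepAdic R) {p : ℕ}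
    (hp : p.Prime) (hpR : (p : R) ∈ maximalIdeal R) (S : Finset ℕ)
    (h : ∀ ℓ : ℕ, ℓ.Prime → ℓ ∉ S → ∀ P : ValuationSubring Qb, P.LiesOverPrime ℓ →
      ∀ φ : Γℚ, P.IsFrobeniusAt φ ℓ →
        ∃ a : R, LinearMap.charpoly (ρ.ρ φ) = X ^ 2 - C a * X + C (ℓ : R)) :
    ρ.DetIsCyclotomic p :=
  Cheb.detIsCyclotomic_of_frobenius ρ hp hpR S fun ℓ hℓ hS P hP φ hφ =>
    det_of_charpoly ρ (h ℓ hℓ hS P hP φ hφ).choose_spec

/-- the determinant of inertia -/
theorem det_inertia_of_detIsCyclotomic [IsNoetherianRing R] (ρ : GaloisRepAdic R) {p : ℕ}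
    (hp : p.Prime) (h : ρ.DetIsCyclotomic p) {q : ℕ} (hq : q.Prime) (hqp : q ≠ p)
    {A : ValuationSubring Qb} (hA : A.LiesOverPrime q) {σ : Γℚ} (hσ : σ ∈ A.inertiaSubgroupIn ℚ) :
    LinearMap.det (ρ.ρ σ) = 1 := by
  refine ECRep.eq_of_forall_sub_mem h.1 fun n => ?_
  have := h.2 n σ 1 fun μ hμ => by
    rw [pow_one]
    exact CFT.inertia_apply_rootOfUnity hq hA (fun hd =>
      hqp ((Nat.prime_dvd_prime_iff_eq hq hp).mp (hq.dvd_of_dvd_pow hd))) hσ hμ
  rwa [Nat.cast_one] at this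

end det

section alg

variable {R E : Type*} [CommRing R] [Ring E] [Algebra R E]

theorem alg_ff (q : ℕ) {e : ℤ} (he : e ^ 2 = 1) {f : E}
    (h : (1 : ℤ) • (f * f) + (-((q + 1) * e) : ℤ) • f + (q : ℤ) • (1 : E) = 0) :
    (f - algebraMap R E (q * e)) * (f - algebraMap R E e) = 0 := by
  have he' : (e : R) ^ 2 = 1 := by exact_mod_cast congrArg (Int.cast (R := R)) he
  rw [← h, Algebra.algebraMap_eq_smul_one, Algebra.algebraMap_eq_smul_one]
  simp only [sub_mul, mul_sub, smul_mul_assoc, mul_smul_comm, one_mul, mul_one, smul_sub, smul_smul]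
  have h2 : ((e : R) * (q * e)) = q := by linear_combination (q : R) * he'
  rw [h2]
  module

theorem alg_tf {e : ℤ} {f t : E}
    (h : (1 : ℤ) • (t * f) + (-1 : ℤ) • f + (-e : ℤ) • t + (e : ℤ) • (1 : E) = 0) :
    (t - 1) * (f - algebraMap R E e) = 0 := by
  rw [← h, Algebra.algebraMap_eq_smul_one]
  simp only [sub_mul, mul_sub, mul_smul_comm, one_mul, mul_one]
  module

theorem alg_fs {q : ℕ} {e : ℤ} {f s : E}
    (h : (1 : ℤ) • (f * s) + (-1 : ℤ) • f + (-(q * e) : ℤ) • s + (q * e : ℤ) • (1 : E) = 0) :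
    (f - algebraMap R E (q * e)) * (s - 1) = 0 := by
  rw [← h, Algebra.algebraMap_eq_smul_one]
  simp only [sub_mul, mul_sub, smul_mul_assoc, one_mul, mul_one]
  module

theorem alg_ts {s t : E}
    (h : (1 : ℤ) • (t * s) + (-1 : ℤ) • t + (-1 : ℤ) • s + (1 : ℤ) • (1 : E) = 0) :
    (t - 1) * (s - 1) = 0 := by
  rw [← h]
  noncomm_ring

end alg

section rel

variable {M q : ℕ} [NeZero M] [NeZero q] [hqf : Fact q.Prime] (hM : ¬ q ∣ M)
  {R : Type} [CommRing R] [IsLocalRing R] {p : ℕ}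

/-- what is used of the transfer -/
def TransferJ (p : ℕ) (e : ℤ) (ρ : GaloisRepAdic R) : Prop :=
  ∀ (n : ℕ) (c : Fin n → ℤ) (σ : Fin n → Γℚ),
    (∀ x : JZero (M * q), (∃ k : ℕ, p ^ k • x = 0) → trA M q x = 0 → trB M q x = 0 →
      wSemi hM • x = -(e • x) → ∑ i, c i • σ i • x = 0) →
    ∑ i, c i • ρ.ρ (σ i) = 0

variable {hM} {e : ℤ} {x : JZero (M * q)} (hx : ∃ k : ℕ, p ^ k • x = 0)
  (hα : trA M q x = 0) (hβ : trB M q x = 0) (hw : wSemi hM • x = -(e • x))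
  {P : ValuationSubring Qb} (hP : P.LiesOverPrime q) {φ : Γℚ} (hφ : P.IsFrobeniusAt φ q)
  {s t : Γℚ} (hs : s ∈ P.inertiaSubgroupIn ℚ) (ht : t ∈ P.inertiaSubgroupIn ℚ)
  (hp : p.Prime) (hpq : p ≠ q)

theorem gal_zsmul {N : ℕ} [NeZero N] (σ : Γℚ) (n : ℤ) (x : JZero N) : σ • n • x = n • σ • x :=
  map_zsmul (DistribSMul.toAddMonoidHom (JZero N) σ) n x

theorem w_zsmul (n : ℤ) (x : JZero (M * q)) : wSemi hM • n • x = n • wSemi hM • x :=
  map_zsmul (DistribSMul.toAddMonoidHom (JZero (M * q)) (wSemi hM)) n x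

theorem lin_ff {G : Type*} [AddCommGroup G] {q : ℕ} {e : ℤ} (he : e ^ 2 = 1) {x y z : G}
    (h : z + -(e • y) + q • (-(e • y) + -(e • -(e • x))) = 0) :
    (1 : ℤ) • z + (-((q + 1) * e) : ℤ) • y + (q : ℤ) • x = 0 := by
  have h3 : q • (e • e • x) = q • x := by rw [smul_smul e, ← pow_two, he, one_smul]
  rw [smul_add q, smul_neg e, neg_neg, h3] at h
  rw [← h]
  module

theorem lin_tf {G : Type*} [AddCommGroup G] {e : ℤ} {x y z u : G}
    (h : z + -(e • u) = y + -(e • x)) :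
    (1 : ℤ) • z + (-1 : ℤ) • y + (-e : ℤ) • u + e • x = 0 := by
  rw [← sub_eq_zero.mpr h]
  module

theorem lin_fs {G : Type*} [AddCommGroup G] {q : ℕ} {e : ℤ} {x y z u : G}
    (h : z - y + q • (-(e • u) - -(e • x)) = 0) :
    (1 : ℤ) • z + (-1 : ℤ) • y + (-(q * e) : ℤ) • u + (q * e : ℤ) • x = 0 := by
  rw [← h]
  module

theorem lin_ts {G : Type*} [AddCommGroup G] {x y z u : G}
    (h : z - y = u - x) :
    (1 : ℤ) • z + (-1 : ℤ) • y + (-1 : ℤ) • u + (1 : ℤ) • x = 0 := by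
  rw [← sub_eq_zero.mpr h]
  module

include hw in
theorem w_smul (σ : Γℚ) : wSemi hM • σ • x = -(e • σ • x) := by
  rw [wSemi_galois_smul, hw, smul_neg, gal_zsmul]

include hx hα hβ hw hP hφ hp hpq in
theorem rel_ff (he : e ^ 2 = 1) :
    (1 : ℤ) • φ • φ • x + (-((q + 1) * e) : ℤ) • φ • x + (q : ℤ) • x = 0 := by
  have h2 := frob_frob_add hM hp hpq hP hφ hx hα hβ
  rw [smul_add (wSemi hM), w_smul hw, hw, smul_add φ, smul_neg φ, gal_zsmul, smul_neg,
    w_zsmul, hw] at h2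
  exact lin_ff he h2

include hx hα hβ hw hP hφ hp hpq ht in
theorem rel_tf :
    (1 : ℤ) • t • φ • x + (-1 : ℤ) • φ • x + (-e : ℤ) • t • x + e • x = 0 := by
  have h2 := inertia_frob_add hM hp hpq hP hφ ht hx hα hβ
  rw [hw, smul_add t, smul_neg t, gal_zsmul] at h2
  exact lin_tf h2

include hx hw hP hφ hp hpq hs in
theorem rel_fs :
    (1 : ℤ) • φ • s • x + (-1 : ℤ) • φ • x + (-(q * e) : ℤ) • s • x + (q * e : ℤ) • x = 0 := by
  have h2 := frob_inertia_sub hM hp hpq hP hφ hs hx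
  rw [smul_sub φ, smul_sub (wSemi hM), w_smul hw, hw] at h2
  exact lin_fs h2

include hx hP hp hpq hs ht in
theorem rel_ts (hM : ¬ q ∣ M) :
    (1 : ℤ) • t • s • x + (-1 : ℤ) • t • x + (-1 : ℤ) • s • x + (1 : ℤ) • x = 0 := by
  have h2 := inertia_inertia_sub hM hp hpq hP hs ht hx
  rw [smul_sub t] at h2
  exact lin_ts h2

end rel

section main

variable {M q : ℕ} [NeZero M] [NeZero q] [hqf : Fact q.Prime] (hM : ¬ q ∣ M)
  {R : Type} [CommRing R] [IsLocalRing R] {p : ℕ}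

theorem genRelRep_of_transfer [IsNoetherianRing R] (hp : p.Prime) (hpq : p ≠ q) {e : ℤ}
    (ρ : GaloisRepAdic R) (hdet : ρ.DetIsCyclotomic p) (H : TransferJ hM p e ρ)
    (he : e ^ 2 = 1) {P : ValuationSubring Qb} (hP : P.LiesOverPrime q) {φ : Γℚ}
    (hφ : P.IsFrobeniusAt φ q) : GenRelRep ρ q (e : R) P φ := by
  refine ⟨?_, fun t ht => ?_, fun s hs => ?_, fun s hs t ht => ?_, ?_, fun s hs => ?_⟩
  · have h1 := H 3 ![1, -((q + 1) * e), q] ![φ * φ, φ, 1] (by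
      intro x hx hα hβ hw
      have h2 := rel_ff hx hα hβ hw hP hφ hp hpq he
      simpa [Fin.sum_univ_three, mul_smul] using h2)
    apply alg_ff q he
    simpa [Fin.sum_univ_three] using h1
  · have h1 := H 4 ![1, -1, -e, e] ![t * φ, φ, t, 1] (by
      intro x hx hα hβ hw
      have h2 := rel_tf hx hα hβ hw hP hφ ht hp hpq
      simpa [Fin.sum_univ_four, mul_smul] using h2)
    apply alg_tf
    simpa [Fin.sum_univ_four] using h1
  · have h1 := H 4 ![1, -1, -(q * e), q * e] ![φ * s, φ, s, 1] (by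
      intro x hx hα hβ hw
      have h2 := rel_fs hx hw hP hφ hs hp hpq
      simpa [Fin.sum_univ_four, mul_smul] using h2)
    apply alg_fs
    simpa [Fin.sum_univ_four] using h1
  · have h1 := H 4 ![1, -1, -1, 1] ![t * s, t, s, 1] (by
      intro x hx hα hβ hw
      have h2 := rel_ts hx hP hs ht hp hpq hM
      simpa [Fin.sum_univ_four, mul_smul] using h2)
    apply alg_ts
    simpa [Fin.sum_univ_four] using h1
  · exact ECRep.det_frob_of_detIsCyclotomic hp ρ hdet hqf.out (Ne.symm hpq) hP hφ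
  · exact det_inertia_of_detIsCyclotomic ρ hp hdet hqf.out (Ne.symm hpq) hP hs

end main

end Fermat.Agent.TwoAdic
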