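import Fermat.Agent.RepTwo.QuadLim
import Fermat.Agent.QComp.S35Final

/-!
# Transfer of relations from Eichler–Shimura modules to the adic representation

If a combination `∑ tᵢ σᵢ` of elements of the Galois group with coefficients in the Hecke
polynomials kills `t₀ V` for Eichler–Shimura modules `V` of every precision, then
`∑ χ(tᵢ) ρ(σᵢ) = 0`.
-/

set_option autoImplicit false
set_option linter.unusedSectionVars false

namespace Fermat.Agent.TwoAdic.Kill

open IsLocalRing Fermat.Agent.RepTwo Fermat.Agent.QComp Polynomial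

section LinAlg

theorem matrix_eq_zero {R : Type*} [CommRing R] [IsDomain R] (A : Matrix (Fin 2) (Fin 2) R)
    (h : ∀ X Y X' Y' : Matrix (Fin 2) (Fin 2) R, (X * A * Y).trace * (X' * A * Y').trace -
      ((X * A * Y) * (X' * A * Y')).trace = 0) : A = 0 := by
  have key : ∀ j k : Fin 2, A j k = 0 := by
    intro j k
    have h1 := h (Matrix.single 0 j 1) (Matrix.single k 0 1) (Matrix.single 1 j 1)
      (Matrix.single k 1 1)
    have e0 : Matrix.single (0 : Fin 2) j (1 : R) * A * Matrix.single k (0 : Fin 2) (1 : R) =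
        !![A j k, 0; 0, 0] := by
      ext a b
      fin_cases j <;> fin_cases k <;> fin_cases a <;> fin_cases b <;>
        simp [Matrix.mul_apply, Matrix.single_apply]
    have e1 : Matrix.single (1 : Fin 2) j (1 : R) * A * Matrix.single k (1 : Fin 2) (1 : R) =
        !![0, 0; 0, A j k] := by
      ext a b
      fin_cases j <;> fin_cases k <;> fin_cases a <;> fin_cases b <;>
        simp [Matrix.mul_apply, Matrix.single_apply]
    rw [e0, e1] at h1
    simp [Matrix.trace_fin_two] at h1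
    exact h1
  ext j k
  exact key j k

variable {R V : Type*} [CommRing R] [AddCommGroup V] [Module R V] [Module.Free R V]
  [Module.Finite R V]

/-- the polar form of twice the determinant -/
noncomputable def BB (x y : Module.End R V) : R :=
  LinearMap.trace R V x * LinearMap.trace R V y - LinearMap.trace R V (x * y)

theorem BB_add (x x' y : Module.End R V) : BB (x + x') y = BB x y + BB x' y := by
  simp only [BB, map_add, add_mul]; ring

theorem BB_add' (x y y' : Module.End R V) : BB x (y + y') = BB x y + BB x y' := by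
  simp only [BB, map_add, mul_add]; ring

theorem BB_smul (r : R) (x y : Module.End R V) : BB (r • x) y = r * BB x y := by
  simp only [BB, map_smul, smul_mul_assoc, smul_eq_mul]; ring

theorem BB_smul' (r : R) (x y : Module.End R V) : BB x (r • y) = r * BB x y := by
  simp only [BB, map_smul, mul_smul_comm, smul_eq_mul]; ring

theorem BB_zero (y : Module.End R V) : BB (0 : Module.End R V) y = 0 := by
  simp [BB]

theorem BB_zero' (y : Module.End R V) : BB y (0 : Module.End R V) = 0 := by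
  simp [BB]

theorem BB_comm (x y : Module.End R V) : BB x y = BB y x := by
  simp only [BB]
  rw [LinearMap.trace_mul_comm, mul_comm (LinearMap.trace R V x)]

theorem eq_zero_of_BB [IsDomain R] (h2 : Module.finrank R V = 2) (a : Module.End R V)
    (G : Set (Module.End R V)) (hG : Submodule.span R G = ⊤)
    (h : ∀ x ∈ G, ∀ y ∈ G, ∀ x' ∈ G, ∀ y' ∈ G, BB (x * a * y) (x' * a * y') = 0) : a = 0 := by
  have hall : ∀ x y x' y' : Module.End R V, BB (x * a * y) (x' * a * y') = 0 := by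
    have s1 : ∀ x : Module.End R V, ∀ y ∈ G, ∀ x' ∈ G, ∀ y' ∈ G,
        BB (x * a * y) (x' * a * y') = 0 := by
      intro x y hy x' hx' y' hy'
      have hx : x ∈ Submodule.span R G := by rw [hG]; trivial
      induction hx using Submodule.span_induction with
      | mem x hx => exact h x hx y hy x' hx' y' hy'
      | zero => rw [zero_mul, zero_mul, BB_zero]
      | add u v _ _ hu hv => rw [add_mul, add_mul, BB_add, hu, hv, add_zero]
      | smul r u _ hu => rw [smul_mul_assoc, smul_mul_assoc, BB_smul, hu, mul_zero]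
    have s2 : ∀ x y : Module.End R V, ∀ x' ∈ G, ∀ y' ∈ G, BB (x * a * y) (x' * a * y') = 0 := by
      intro x y x' hx' y' hy'
      have hy : y ∈ Submodule.span R G := by rw [hG]; trivial
      induction hy using Submodule.span_induction with
      | mem y hy => exact s1 x y hy x' hx' y' hy'
      | zero => rw [mul_zero, BB_zero]
      | add u v _ _ hu hv => rw [mul_add, BB_add, hu, hv, add_zero]
      | smul r u _ hu => rw [mul_smul_comm, BB_smul, hu, mul_zero]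
    have s3 : ∀ x y x' : Module.End R V, ∀ y' ∈ G, BB (x * a * y) (x' * a * y') = 0 := by
      intro x y x' y' hy'
      have hx' : x' ∈ Submodule.span R G := by rw [hG]; trivial
      induction hx' using Submodule.span_induction with
      | mem x' hx' => exact s2 x y x' hx' y' hy'
      | zero => rw [zero_mul, zero_mul, BB_zero']
      | add u v _ _ hu hv => rw [add_mul, add_mul, BB_add', hu, hv, add_zero]
      | smul r u _ hu => rw [smul_mul_assoc, smul_mul_assoc, BB_smul', hu, mul_zero]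
    intro x y x' y'
    have hy' : y' ∈ Submodule.span R G := by rw [hG]; trivial
    induction hy' using Submodule.span_induction with
    | mem y' hy' => exact s3 x y x' y' hy'
    | zero => rw [mul_zero, BB_zero']
    | add u v _ _ hu hv => rw [mul_add, BB_add', hu, hv, add_zero]
    | smul r u _ hu => rw [mul_smul_comm, BB_smul', hu, mul_zero]
  let b := Module.finBasisOfFinrankEq R V h2
  let e := LinearMap.toMatrixAlgEquiv b
  have he : e a = 0 := by
    apply matrix_eq_zero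
    intro X Y X' Y'
    have h1 := hall (e.symm X) (e.symm Y) (e.symm X') (e.symm Y')
    have tr : ∀ z : Module.End R V, LinearMap.trace R V z = (e z).trace := fun z =>
      LinearMap.trace_eq_matrix_trace R b z
    simp only [BB, tr, map_mul, AlgEquiv.apply_symm_apply] at h1
    exact h1
  exact (map_eq_zero_iff e e.injective).mp he

end LinAlg

section Rel

variable {N p : ℕ} [NeZero N] {S : Set ℕ} {n : ℕ}

/-- `g + c g⁻¹ = r` -/
theorem quad_lin (Λ : Level N p S n) {g : GQ} {r : HeckePoly N S} {c : ℕ} (h : Λ.Quad g r c)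
    (v : Λ.E.V) : r • v = Λ.E.act g v + (c : HeckePoly N S) • Λ.E.act g⁻¹ v := by
  have hx : Λ.E.act g (Λ.E.act g⁻¹ v) = v := by
    rw [← Module.End.mul_apply, ← map_mul, mul_inv_cancel, map_one, Module.End.one_apply]
  have h1 := LinearMap.congr_fun h.1 (Λ.E.act g⁻¹ v)
  simp only [LinearMap.add_apply, LinearMap.sub_apply, Module.End.mul_apply,
    Module.algebraMap_end_apply, LinearMap.zero_apply, hx] at h1
  rw [← sub_eq_zero, ← neg_eq_zero, ← h1]
  abel

/-- the polarised Cayley–Hamilton relation -/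
theorem polar (hp : p.Prime) (Λ : Level N p S n) {g h : GQ} {rg rh r3 : HeckePoly N S}
    {cg ch c3 : ℕ} (Hg : Λ.Quad g rg cg) (Hh : Λ.Quad h rh ch) (H3 : Λ.Quad (g * h) r3 c3)
    (v : Λ.E.V) : Λ.E.act g (Λ.E.act h v) + Λ.E.act h (Λ.E.act g v) - rg • Λ.E.act h v -
      rh • Λ.E.act g v + (rg * rh - r3) • v = 0 := by
  have k3 : c3 ≡ cg * ch [MOD p ^ Λ.m] := by
    apply Λ.modEq hp
    rw [← H3.2, AlgEquiv.mul_apply, Hh.2, map_pow, Hg.2, pow_mul]
  have H4 := Λ.quad_conj hp H3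
  have hc : ∀ w : Λ.E.V, (c3 : HeckePoly N S) • w =
      (cg : HeckePoly N S) • (ch : HeckePoly N S) • w := by
    intro w
    rw [Λ.smul_eq k3, Nat.cast_mul, mul_smul]
  -- the basic relations
  have E1 : ∀ w, rg • w = Λ.E.act g w + (cg : HeckePoly N S) • Λ.E.act g⁻¹ w :=
    quad_lin Λ Hg
  have E2 : ∀ w, rh • w = Λ.E.act h w + (ch : HeckePoly N S) • Λ.E.act h⁻¹ w :=
    quad_lin Λ Hh
  have E3 : r3 • v = Λ.E.act g (Λ.E.act h v) + (cg : HeckePoly N S) • (ch : HeckePoly N S) •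
      Λ.E.act h⁻¹ (Λ.E.act g⁻¹ v) := by
    rw [quad_lin Λ H3 v, hc, mul_inv_rev, map_mul, map_mul]
    rfl
  have E4 : r3 • v = Λ.E.act h (Λ.E.act g v) + (cg : HeckePoly N S) • (ch : HeckePoly N S) •
      Λ.E.act g⁻¹ (Λ.E.act h⁻¹ v) := by
    rw [quad_lin Λ H4 v, hc, mul_inv_rev, map_mul, map_mul]
    rfl
  have F1 : rg • Λ.E.act h v = Λ.E.act g (Λ.E.act h v) +
      (cg : HeckePoly N S) • Λ.E.act g⁻¹ (Λ.E.act h v) := E1 _
  have F2 : rh • Λ.E.act g v = Λ.E.act g (Λ.E.act h v) +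
      (ch : HeckePoly N S) • Λ.E.act g (Λ.E.act h⁻¹ v) := by
    rw [← map_smul, E2 v, map_add, map_smul]
  have F3 : (rg * rh) • v = Λ.E.act g (Λ.E.act h v) +
      (cg : HeckePoly N S) • Λ.E.act g⁻¹ (Λ.E.act h v) +
      ((ch : HeckePoly N S) • Λ.E.act g (Λ.E.act h⁻¹ v) +
      (cg : HeckePoly N S) • (ch : HeckePoly N S) • Λ.E.act g⁻¹ (Λ.E.act h⁻¹ v)) := by
    rw [mul_smul, E2 v, smul_add, E1 (Λ.E.act h v), smul_comm rg, E1 (Λ.E.act h⁻¹ v), smul_add,
      smul_comm (ch : HeckePoly N S) (cg : HeckePoly N S)]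
  have E5 : Λ.E.act h (Λ.E.act g v) = r3 • v - (cg : HeckePoly N S) • (ch : HeckePoly N S) •
      Λ.E.act g⁻¹ (Λ.E.act h⁻¹ v) := by rw [E4]; abel
  rw [sub_smul, F1, F2, F3, E5]
  abel

/-- a killing combination has vanishing norm -/
theorem norm_smul_eq_zero (hp : p.Prime) (Λ : Level N p S n) {ι : Type} [Fintype ι]
    {t : ι → HeckePoly N S} {σ : ι → GQ} {r : ι → HeckePoly N S} {c : ι → ℕ}
    {r' : ι → ι → HeckePoly N S} {c' : ι → ι → ℕ} (H : ∀ i, Λ.Quad (σ i) (r i) (c i))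
    (H' : ∀ i j, Λ.Quad (σ i * σ j) (r' i j) (c' i j)) {v : Λ.E.V}
    (hv : ∑ i, t i • Λ.E.act (σ i) v = 0) :
    ((∑ i, t i * r i) * (∑ i, t i * r i) - ∑ i, ∑ j, t i * t j * r' i j) • v = 0 := by
  have h1 : ∑ i, ∑ j, (t i * t j) • (Λ.E.act (σ i) (Λ.E.act (σ j) v) +
      Λ.E.act (σ j) (Λ.E.act (σ i) v) - r i • Λ.E.act (σ j) v -
      r j • Λ.E.act (σ i) v + (r i * r j - r' i j) • v) = 0 := by
    apply Finset.sum_eq_zero
    intro i _
    apply Finset.sum_eq_zero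
    intro j _
    rw [polar hp Λ (H i) (H j) (H' i j), smul_zero]
  simp only [smul_add, smul_sub, Finset.sum_add_distrib, Finset.sum_sub_distrib] at h1
  have a1 : ∑ i, ∑ j, (t i * t j) • Λ.E.act (σ i) (Λ.E.act (σ j) v) = 0 := by
    have : ∀ i, ∑ j, (t i * t j) • Λ.E.act (σ i) (Λ.E.act (σ j) v) = 0 := by
      intro i
      have e : ∑ j, (t i * t j) • Λ.E.act (σ i) (Λ.E.act (σ j) v) =
          t i • Λ.E.act (σ i) (∑ j, t j • Λ.E.act (σ j) v) := by
        rw [map_sum, Finset.smul_sum]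
        refine Finset.sum_congr rfl fun j _ => ?_
        rw [map_smul, mul_smul]
      rw [e, hv, map_zero, smul_zero]
    exact Finset.sum_eq_zero fun i _ => this i
  have a2 : ∑ i, ∑ j, (t i * t j) • Λ.E.act (σ j) (Λ.E.act (σ i) v) = 0 := by
    rw [Finset.sum_comm, ← a1]
    refine Finset.sum_congr rfl fun i _ => Finset.sum_congr rfl fun j _ => ?_
    rw [mul_comm]
  have a3 : ∑ i, ∑ j, (t i * t j) • r i • Λ.E.act (σ j) v = 0 := by
    apply Finset.sum_eq_zero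
    intro i _
    have e : ∑ j, (t i * t j) • r i • Λ.E.act (σ j) v =
        (t i * r i) • ∑ j, t j • Λ.E.act (σ j) v := by
      rw [Finset.smul_sum]
      refine Finset.sum_congr rfl fun j _ => ?_
      rw [← mul_smul, ← mul_smul]
      congr 1
      ring
    rw [e, hv, smul_zero]
  have a4 : ∑ i, ∑ j, (t i * t j) • r j • Λ.E.act (σ i) v = 0 := by
    rw [Finset.sum_comm, ← a3]
    refine Finset.sum_congr rfl fun i _ => Finset.sum_congr rfl fun j _ => ?_
    rw [mul_comm]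
  rw [a1, a2, a3, a4] at h1
  simp only [add_zero, sub_zero, zero_add] at h1
  rw [← h1, sub_smul, Finset.sum_mul_sum, Finset.sum_smul, Finset.sum_smul,
    ← Finset.sum_sub_distrib]
  refine Finset.sum_congr rfl fun i _ => ?_
  rw [Finset.sum_smul, Finset.sum_smul, ← Finset.sum_sub_distrib]
  refine Finset.sum_congr rfl fun j _ => ?_
  rw [← sub_smul, ← mul_smul]
  congr 1
  ring

end Rel

section Main

variable {p N : ℕ} [NeZero N] {S : Finset ℕ} {R : Type} [CommRing R] [IsDomain R] [IsLocalRing R]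

/-- `∑ tᵢ σᵢ` kills `t₀ V` for Eichler–Shimura modules of every precision; the coefficients may
depend on the precision -/
def KillsA (p : ℕ) (S : Finset ℕ) (t₀ : HeckePoly N (↑S : Set ℕ)) {ι : Type} [Fintype ι]
    (t : ℕ → ι → HeckePoly N (↑S : Set ℕ)) (σ : ι → GQ)
    (Λ : ∀ n, Level N p (↑S : Set ℕ) n) : Prop :=
  ∀ n, ∀ v : (Λ n).E.V, ∑ i, t n i • (Λ n).E.act (σ i) (t₀ • v) = 0

/-- `∑ tᵢ σᵢ` kills `t₀ V` for Eichler–Shimura modules of every precision -/
def Kills (p : ℕ) (S : Finset ℕ) (t₀ : HeckePoly N (↑S : Set ℕ)) {ι : Type} [Fintype ι]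
    (t : ι → HeckePoly N (↑S : Set ℕ)) (σ : ι → GQ)
    (Λ : ∀ n, Level N p (↑S : Set ℕ) n) : Prop :=
  ∀ n, ∀ v : (Λ n).E.V, ∑ i, t i • (Λ n).E.act (σ i) (t₀ • v) = 0

theorem BB_eq_zero [IsHausdorff (maximalIdeal R) R] (hp : p.Prime) (hpS : p ∈ S)
    (hNS : ∀ q : ℕ, q.Prime → q ∣ N → q ∈ S)
    (hpR : (p : R) ∈ maximalIdeal R) (χ : CuspForm.heckeAlgebra N 2 (↑S : Set ℕ) →+* R)
    (ρ : GaloisRepAdic R)
    (hρ : ∀ (ℓ : ℕ) (hℓ : ℓ.Prime) (hℓN : ¬ ℓ ∣ N) (hℓS : ℓ ∉ (↑S : Set ℕ)), ℓ ≠ p →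
      ∀ A : ValuationSubring (AlgebraicClosure ℚ), A.LiesOverPrime ℓ →
      ∀ σ : AlgebraicClosure ℚ ≃ₐ[ℚ] AlgebraicClosure ℚ, A.IsFrobeniusAt σ ℓ →
        LinearMap.charpoly (ρ.ρ σ) =
          X ^ 2 - C (χ (CuspForm.heckeAlgebra.T hℓ hℓN hℓS)) * X + C ((ℓ : R)))
    {t₀ : HeckePoly N (↑S : Set ℕ)} (ht₀ : χ (evalHecke N (↑S : Set ℕ) t₀) ≠ 0)
    {Λ : ∀ n, Level N p (↑S : Set ℕ) n} {ι : Type} [Fintype ι]
    {t : ℕ → ι → HeckePoly N (↑S : Set ℕ)} {τ : ι → R} {σ : ι → GQ}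
    (hτ : ∀ n i, χ (evalHecke N (↑S : Set ℕ) (t n i)) - τ i ∈ maximalIdeal R ^ n)
    (hkill : KillsA p S t₀ t σ Λ) :
    BB (∑ i, τ i • ρ.ρ (σ i)) (∑ i, τ i • ρ.ρ (σ i)) = 0 := by
  set ev := evalHecke N (↑S : Set ℕ) with hev
  have expand : BB (∑ i, τ i • ρ.ρ (σ i)) (∑ i, τ i • ρ.ρ (σ i)) =
      (∑ i, τ i * ρ.trace (σ i)) * (∑ i, τ i * ρ.trace (σ i)) -
        ∑ i, ∑ j, τ i * τ j * ρ.trace (σ i * σ j) := by
    rw [BB]
    congr 1
    · simp only [map_sum, map_smul, smul_eq_mul]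
      rfl
    · rw [Finset.sum_mul_sum, map_sum]
      refine Finset.sum_congr rfl fun i _ => ?_
      rw [map_sum]
      refine Finset.sum_congr rfl fun j _ => ?_
      rw [smul_mul_smul_comm, map_smul, smul_eq_mul, ← map_mul ρ.ρ]
      rfl
  have key : ∀ n, ((∑ i, τ i * ρ.trace (σ i)) * (∑ i, τ i * ρ.trace (σ i)) -
        ∑ i, ∑ j, τ i * τ j * ρ.trace (σ i * σ j)) * χ (ev t₀) ∈
        maximalIdeal R ^ n := by
    intro n
    choose r c hrc using fun i => exists_quad' hp hpS hNS (Λ n) (σ i)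
    choose r' c' hrc' using fun i j => exists_quad' hp hpS hNS (Λ n) (σ i * σ j)
    set B : HeckePoly N (↑S : Set ℕ) :=
      (∑ i, t n i * r i) * (∑ i, t n i * r i) - ∑ i, ∑ j, t n i * t n j * r' i j with hB
    have h1 : ∀ v : (Λ n).E.V, (B * t₀) • v = 0 := by
      intro v
      rw [mul_smul]
      exact norm_smul_eq_zero hp (Λ n) hrc hrc' (hkill n v)
    obtain ⟨u, hu⟩ := (Λ n).E.faithful _ h1
    have hpn : ((p ^ n : ℕ) : R) ∈ maximalIdeal R ^ n := by
      push_cast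
      exact Ideal.pow_mem_pow hpR n
    have e1 : χ (ev (B * t₀)) ∈ maximalIdeal R ^ n := by
      rw [hev, hu, map_nsmul, nsmul_eq_mul]
      exact Ideal.mul_mem_right _ _ hpn
    rw [map_mul, map_mul] at e1
    have htr : ∀ i, ρ.trace (σ i) - χ (ev (r i)) ∈ maximalIdeal R ^ n := fun i =>
      (trace_det_sub_mem_of_quad hp hpR hpS hNS χ ρ hρ (Λ n) (hrc i)).1
    have htr' : ∀ i j, ρ.trace (σ i * σ j) - χ (ev (r' i j)) ∈ maximalIdeal R ^ n := fun i j =>
      (trace_det_sub_mem_of_quad hp hpR hpS hNS χ ρ hρ (Λ n) (hrc' i j)).1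
    have e2 : ((∑ i, τ i * ρ.trace (σ i)) * (∑ i, τ i * ρ.trace (σ i)) -
        ∑ i, ∑ j, τ i * τ j * ρ.trace (σ i * σ j)) - χ (ev B) ∈
        maximalIdeal R ^ n := by
      rw [← Ideal.Quotient.mk_eq_mk_iff_sub_mem]
      have q0 : ∀ i, Ideal.Quotient.mk (maximalIdeal R ^ n) (χ (ev (t n i))) =
          Ideal.Quotient.mk (maximalIdeal R ^ n) (τ i) := fun i =>
        Ideal.Quotient.mk_eq_mk_iff_sub_mem _ _ |>.mpr (hτ n i)
      have q1 : ∀ i, Ideal.Quotient.mk (maximalIdeal R ^ n) (ρ.trace (σ i)) =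
          Ideal.Quotient.mk (maximalIdeal R ^ n) (χ (ev (r i))) := fun i =>
        Ideal.Quotient.mk_eq_mk_iff_sub_mem _ _ |>.mpr (htr i)
      have q2 : ∀ i j, Ideal.Quotient.mk (maximalIdeal R ^ n) (ρ.trace (σ i * σ j)) =
          Ideal.Quotient.mk (maximalIdeal R ^ n) (χ (ev (r' i j))) := fun i j =>
        Ideal.Quotient.mk_eq_mk_iff_sub_mem _ _ |>.mpr (htr' i j)
      simp only [hB, map_sub, map_mul, map_sum, q0, q1, q2]
    have e3 := Ideal.mul_mem_right (χ (ev t₀)) _ e2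
    rw [sub_mul] at e3
    exact (Submodule.sub_mem_iff_left _ e1).mp e3
  rw [expand]
  refine (mul_eq_zero.mp ?_).resolve_right ht₀
  apply IsHausdorff.haus (I := maximalIdeal R) inferInstance
  intro n
  rw [SModEq.zero, smul_eq_mul, Ideal.mul_top]
  exact key n

theorem KillsA.mul {t₀ : HeckePoly N (↑S : Set ℕ)} {Λ : ∀ n, Level N p (↑S : Set ℕ) n}
    {ι : Type} [Fintype ι] {t : ℕ → ι → HeckePoly N (↑S : Set ℕ)} {σ : ι → GQ}
    (h : KillsA p S t₀ t σ Λ) (g g' : GQ) : KillsA p S t₀ t (fun i => g * σ i * g') Λ := by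
  intro n v
  have h1 := h n ((Λ n).E.act g' v)
  have h2 := congrArg ((Λ n).E.act g) h1
  rw [map_sum, map_zero] at h2
  rw [← h2]
  refine Finset.sum_congr rfl fun i _ => ?_
  have e : (Λ n).E.act g' (t₀ • v) = t₀ • (Λ n).E.act g' v := map_smul _ _ _
  rw [map_mul, map_mul, Module.End.mul_apply, Module.End.mul_apply, e,
    map_smul ((Λ n).E.act g) (t n i)]

theorem KillsA.add {t₀ : HeckePoly N (↑S : Set ℕ)} {Λ : ∀ n, Level N p (↑S : Set ℕ) n}
    {ι ι' : Type} [Fintype ι] [Fintype ι'] {t : ℕ → ι → HeckePoly N (↑S : Set ℕ)} {σ : ι → GQ}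
    {t' : ℕ → ι' → HeckePoly N (↑S : Set ℕ)} {σ' : ι' → GQ}
    (h : KillsA p S t₀ t σ Λ) (h' : KillsA p S t₀ t' σ' Λ) :
    KillsA p S t₀ (fun n => Sum.elim (t n) (t' n)) (Sum.elim σ σ') Λ := by
  intro n v
  rw [Fintype.sum_sum_type]
  simp only [Sum.elim_inl, Sum.elim_inr]
  rw [h n v, h' n v, add_zero]

/-- **(T1)** transfer of relations to the adic representation, approximate version -/
theorem rho_eq_zero_approx [IsHausdorff (maximalIdeal R) R] [CharZero R] (hp : p.Prime)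
    (hpS : p ∈ S) (hNS : ∀ q : ℕ, q.Prime → q ∣ N → q ∈ S)
    (hpR : (p : R) ∈ maximalIdeal R) (χ : CuspForm.heckeAlgebra N 2 (↑S : Set ℕ) →+* R)
    (ρ : GaloisRepAdic R)
    (hρ : ∀ (ℓ : ℕ) (hℓ : ℓ.Prime) (hℓN : ¬ ℓ ∣ N) (hℓS : ℓ ∉ (↑S : Set ℕ)), ℓ ≠ p →
      ∀ A : ValuationSubring (AlgebraicClosure ℚ), A.LiesOverPrime ℓ →
      ∀ σ : AlgebraicClosure ℚ ≃ₐ[ℚ] AlgebraicClosure ℚ, A.IsFrobeniusAt σ ℓ →
        LinearMap.charpoly (ρ.ρ σ) =
          X ^ 2 - C (χ (CuspForm.heckeAlgebra.T hℓ hℓN hℓS)) * X + C ((ℓ : R)))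
    (habs : ρ.residual.IsAbsolutelyIrreducible)
    {t₀ : HeckePoly N (↑S : Set ℕ)} (ht₀ : χ (evalHecke N (↑S : Set ℕ) t₀) ≠ 0)
    {Λ : ∀ n, Level N p (↑S : Set ℕ) n} {ι : Type} [Fintype ι]
    {t : ℕ → ι → HeckePoly N (↑S : Set ℕ)} {τ : ι → R} {σ : ι → GQ}
    (hτ : ∀ n i, χ (evalHecke N (↑S : Set ℕ) (t n i)) - τ i ∈ maximalIdeal R ^ n)
    (hkill : KillsA p S t₀ t σ Λ) :
    ∑ i, τ i • ρ.ρ (σ i) = 0 := by
  set a := ∑ i, τ i • ρ.ρ (σ i) with ha
  have hmul : ∀ g g' : GQ, ∑ i, τ i • ρ.ρ (g * σ i * g') = ρ.ρ g * a * ρ.ρ g' := by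
    intro g g'
    rw [ha, Finset.mul_sum, Finset.sum_mul]
    refine Finset.sum_congr rfl fun i _ => ?_
    rw [map_mul, map_mul, mul_smul_comm, smul_mul_assoc]
  have key : ∀ g g' h h' : GQ, BB (ρ.ρ g * a * ρ.ρ g') (ρ.ρ h * a * ρ.ρ h') = 0 := by
    intro g g' h h'
    have k1 := BB_eq_zero hp hpS hNS hpR χ ρ hρ ht₀ hτ (hkill.mul g g')
    have k2 := BB_eq_zero hp hpS hNS hpR χ ρ hρ ht₀ hτ (hkill.mul h h')
    have k3 := BB_eq_zero hp hpS hNS hpR χ ρ hρ ht₀ (τ := Sum.elim τ τ)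
      (fun n i => by rcases i with i | i <;> exact hτ n i) ((hkill.mul g g').add (hkill.mul h h'))
    rw [Fintype.sum_sum_type] at k3
    simp only [Sum.elim_inl, Sum.elim_inr] at k3
    rw [hmul] at k1 k2
    rw [hmul, hmul, BB_add, BB_add', BB_add', k1, k2, BB_comm (ρ.ρ h * a * ρ.ρ h')] at k3
    have h2 : (2 : R) * BB (ρ.ρ g * a * ρ.ρ g') (ρ.ρ h * a * ρ.ρ h') = 0 := by
      linear_combination k3
    exact (mul_eq_zero.mp h2).resolve_left two_ne_zero
  refine eq_zero_of_BB ρ.finrank_eq a (Set.range ρ.ρ) (span_range_eq_top_of_absIrr ρ habs) ?_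
  rintro _ ⟨g, rfl⟩ _ ⟨g', rfl⟩ _ ⟨h, rfl⟩ _ ⟨h', rfl⟩
  exact key g g' h h'

/-- **(T1)** transfer of relations to the adic representation -/
theorem rho_eq_zero [IsHausdorff (maximalIdeal R) R] [CharZero R] (hp : p.Prime) (hpS : p ∈ S)
    (hNS : ∀ q : ℕ, q.Prime → q ∣ N → q ∈ S)
    (hpR : (p : R) ∈ maximalIdeal R) (χ : CuspForm.heckeAlgebra N 2 (↑S : Set ℕ) →+* R)
    (ρ : GaloisRepAdic R)
    (hρ : ∀ (ℓ : ℕ) (hℓ : ℓ.Prime) (hℓN : ¬ ℓ ∣ N) (hℓS : ℓ ∉ (↑S : Set ℕ)), ℓ ≠ p →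
      ∀ A : ValuationSubring (AlgebraicClosure ℚ), A.LiesOverPrime ℓ →
      ∀ σ : AlgebraicClosure ℚ ≃ₐ[ℚ] AlgebraicClosure ℚ, A.IsFrobeniusAt σ ℓ →
        LinearMap.charpoly (ρ.ρ σ) =
          X ^ 2 - C (χ (CuspForm.heckeAlgebra.T hℓ hℓN hℓS)) * X + C ((ℓ : R)))
    (habs : ρ.residual.IsAbsolutelyIrreducible)
    {t₀ : HeckePoly N (↑S : Set ℕ)} (ht₀ : χ (evalHecke N (↑S : Set ℕ) t₀) ≠ 0)
    {Λ : ∀ n, Level N p (↑S : Set ℕ) n} {ι : Type} [Fintype ι]
    {t : ι → HeckePoly N (↑S : Set ℕ)} {σ : ι → GQ} (hkill : Kills p S t₀ t σ Λ) :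
    ∑ i, χ (evalHecke N (↑S : Set ℕ) (t i)) • ρ.ρ (σ i) = 0 :=
  rho_eq_zero_approx hp hpS hNS hpR χ ρ hρ habs ht₀ (t := fun _ => t)
    (fun n i => by rw [sub_self]; exact Ideal.zero_mem _) hkill

end Main

end Fermat.Agent.TwoAdic.Kill
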