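import Fermat.Agent.TwoAdic.SelStep

/-!
# Block B of the 2-adic route: auxiliary primes killing the Selmer group
-/

set_option autoImplicit false
set_option linter.unusedSectionVars false

open IsLocalRing

namespace Fermat.Agent.TwoAdic

open Matrix Fermat.Agent.CFT Fermat.Agent.Frob

local notation "M₂" => Matrix (Fin 2) (Fin 2)
local notation "Qb" => AlgebraicClosure ℚ
local notation "Γℚ" => (AlgebraicClosure ℚ ≃ₐ[ℚ] AlgebraicClosure ℚ)

variable (E : EData)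

lemma exists_odd_prime : ∃ v, v.Prime ∧ v ∣ E.N ∧ v ≠ 2 := by
  by_contra hcon
  push Not at hcon
  obtain ⟨d, hd⟩ := E.two_dvd
  have hd1 : d ≠ 1 := by
    rintro rfl
    have := E.two_lt
    omega
  obtain ⟨v, hv, hvd⟩ := Nat.exists_prime_and_dvd hd1
  have h2 := hcon v hv (hd ▸ Dvd.dvd.mul_left hvd 2)
  subst h2
  have h3 : (2 * 2 : ℕ) ∣ E.N := hd ▸ Nat.mul_dvd_mul_left 2 hvd
  have h4 := E.sqf 2 h3
  simp at h4

lemma isEven_of_inertia {v : ℕ} (hv : v.Prime) {P : ValuationSubring Qb}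
    (hP : P.LiesOverPrime v) {τ : Γℚ} (hτ : τ ∈ P.inertiaSubgroupIn ℚ) : IsEven v τ := by
  intro ζ hζ
  refine inertia_apply_rootOfUnity hv hP (m := v ^ 2 - 1) ?_ hτ hζ
  intro h
  have h1 : v ∣ v ^ 2 := dvd_pow_self v two_ne_zero
  have h2 : 1 ≤ v ^ 2 := Nat.one_le_pow _ _ hv.pos
  have h3 := (Nat.dvd_sub h1 h)
  rw [Nat.sub_sub_self h2] at h3
  exact hv.one_lt.ne' (Nat.dvd_one.1 h3)

lemma rm_unip {v : ℕ} (hv : v.Prime) (hvN : v ∣ E.N) (hv2 : v ≠ 2) {P : ValuationSubring Qb}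
    (hP : P.LiesOverPrime v) {τ : Γℚ} (hτ : τ ∈ P.inertiaSubgroupIn ℚ) (m : ℕ) :
    (E.rm m τ - 1) * (E.rm m τ - 1) = 0 := by
  have hτD := ((mem_inertiaSubgroupIn_iff P τ).1 hτ).1
  have h1 := E.star v hv hvN P hP τ hτD τ hτD
  have h2 := congrArg (fun M => M.map (PadicInt.toZModPow (p := 2) m)) h1
  have h3 : unr v (E.a v : ℤ_[2]) τ = 1 := if_pos (isEven_of_inertia hv hP hτ)
  have h4 : PadicInt.toZModPow (p := 2) m (E.ρ τ).det = 1 := by
    have h5 := E.det m τ 1 fun μ hμ => by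
      rw [pow_one]
      exact inertia_apply_rootOfUnity hv hP (m := 2 ^ m)
        (fun h => hv2 ((Nat.prime_dvd_prime_iff_eq hv Nat.prime_two).1 (hv.dvd_of_dvd_pow h)))
        hτ hμ
    rw [← map_one (PadicInt.toZModPow (p := 2) m), toZModPow_eq_iff]
    convert h5 using 3
    · norm_num
    · push_cast
      rfl
  simp only [Matrix.map_mul, map_scalar_sub, Matrix.map_zero _ (map_zero (PadicInt.toZModPow (p := 2) m))] at h2
  rw [map_mul (PadicInt.toZModPow (p := 2) m), h4, h3,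
    map_one (PadicInt.toZModPow (p := 2) m), mul_one, map_one, ← E.rm_apply] at h2
  exact h2

lemma det_rm_conj (m : ℕ) : (E.rm m complexConjugation).det = -1 := by
  have h1 := E.det m complexConjugation (2 ^ m - 1) fun μ hμ => by
    have hμ0 : μ ≠ 0 := by
      rintro rfl
      rw [zero_pow (by positivity)] at hμ
      exact zero_ne_one hμ
    have h2 : μ ^ (2 ^ m - 1) = μ⁻¹ := by
      rw [eq_comm, inv_eq_iff_eq_inv, eq_comm, inv_eq_of_mul_eq_one_left]
      rw [mul_comm, ← pow_succ, Nat.sub_add_cancel Nat.one_le_two_pow, hμ]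
    rw [h2]
    apply complexEmbedding.toRingHom.injective
    show complexEmbedding (complexConjugation μ) = complexEmbedding μ⁻¹
    rw [complexEmbedding_complexConjugation, map_inv₀]
    have h3 : ‖complexEmbedding μ‖ = 1 := by
      have h4 : ‖complexEmbedding μ‖ ^ (2 ^ m) = 1 := by
        rw [← norm_pow, ← map_pow, hμ, map_one, norm_one]
      exact (pow_eq_one_iff_of_nonneg (norm_nonneg _) (by positivity)).1 h4
    rw [Complex.inv_def, Complex.normSq_eq_norm_sq, h3]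
    simp
  rw [E.det_rm]
  have h2 : (-1 : ZMod (2 ^ m)) = PadicInt.toZModPow (p := 2) m ((2 ^ m - 1 : ℕ) : ℤ_[2]) := by
    rw [map_natCast, Nat.cast_sub Nat.one_le_two_pow, ZMod.natCast_self]
    simp
  rw [h2, toZModPow_eq_iff]
  convert h1 using 3
  push_cast
  rfl

variable {E}

/-- existence of an element acting as complex conjugation on `E[2^m]` at which `b` does not
satisfy the local condition -/
lemma exists_element {m : ℕ} (hm : m ≠ 0) {Q : Finset ℕ} (hQ : ∀ q ∈ Q, q.Prime) {b : Γℚ → V2}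
    (hb : InSel E Q b) (hne : ¬ ∃ w, ∀ g, b g = E.rb g *ᵥ w + w) :
    ∃ σ, ¬ FixK E.N σ ∧ E.rm m (σ * σ) = 1 ∧ (E.rm m σ).det = -1 ∧ b (σ * σ) ≠ 0 := by
  obtain ⟨v, hv, hvN, hv2⟩ := exists_odd_prime E
  obtain ⟨P, hP⟩ := exists_liesOverPrime Qb hv
  obtain ⟨τ, hτ, hτK⟩ := exists_inertia_not_fixK E hv hvN hP
  have hτb : b (τ * τ) = 0 := hb.sq v hv (by
    rw [dvd_lev_iff E hQ hv]; exact Or.inl hvN) P hP τ ((mem_inertiaSubgroupIn_iff P τ).1 hτ).1 hτK
  obtain ⟨u, hu, hbu⟩ : ∃ u, E.rm m u = 1 ∧ b u ≠ 0 := by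
    by_contra hcon
    push Not at hcon
    exact hne (coboundary_of_ker (E.rm m) hm hb.mul (E.rb_eq_rm hm) E.rb_surj
      (rm_unip E hv hvN hv2 hP hτ m) (E.not_fixK hτK).2 hτb hcon)
  set c := complexConjugation with hc
  obtain ⟨hc2, hc1⟩ := E.not_fixK (not_fixK_conj E)
  rw [← hc] at hc2 hc1
  have hrbu : ∀ x, E.rm m x = 1 → E.rb x = 1 := fun x hx => by
    rw [E.rb_eq_rm hm, hx, Matrix.map_one _ (map_zero _) (map_one _)]
  have hall : ∀ w : V2, ∃ h, E.rm m h = 1 ∧ b h = w := by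
    intro w
    by_cases hw : w = 0
    · exact ⟨1, map_one _, by rw [hw, hb.mul.one]⟩
    · obtain ⟨M, hM, hMw⟩ := aux_trans _ _ hbu hw
      obtain ⟨g, hg⟩ := E.rb_surj M (by rw [hM]; exact isUnit_one)
      refine ⟨g * u * g⁻¹, ?_, ?_⟩
      · rw [map_mul, map_mul, hu, mul_one, ← map_mul, mul_inv_cancel, map_one]
      · rw [hb.mul.conj_of (hrbu u hu), hg, hMw]
  obtain ⟨v', hv'⟩ := aux_exists_ne _ hc1
  obtain ⟨h, hh, hbh⟩ := hall (E.rb c *ᵥ (v' + b c))
  have hrbσ : E.rb (c * h) = E.rb c := by rw [map_mul, hrbu h hh, mul_one]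
  have hrmσ : E.rm m (c * h) = E.rm m c := by rw [map_mul, hh, mul_one]
  have hbσ : b (c * h) = v' := by
    rw [hb.mul, hbh, mulVec_mulVec, hc2, one_mulVec, add_comm v', ← add_assoc, v2_add_self,
      zero_add]
  refine ⟨c * h, ?_, ?_, ?_, ?_⟩
  · rw [E.fixK_iff, hrbσ, ← E.fixK_iff]
    exact not_fixK_conj E
  · rw [map_mul, hrmσ, ← map_mul, hc, complexConjugation_mul_self, map_one]
  · rw [hrmσ, hc, det_rm_conj]
  · rw [hb.mul, hbσ, hrbσ]
    exact hv'

/-- the induction step -/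
theorem step {m : ℕ} (hm : 2 ≤ m) {Q : Finset ℕ} (hQ : ∀ q ∈ Q, IsAux E m q) {b : Γℚ → V2}
    (hb : InSel E Q b) (hne : ¬ ∃ w, ∀ g, b g = E.rb g *ᵥ w + w) :
    ∃ q, q ∉ Q ∧ IsAux E m q ∧ (∀ b', InSel E (insert q Q) b' → InSel E Q b') ∧
      ¬ InSel E (insert q Q) b := by
  have hm0 : m ≠ 0 := by omega
  have hQp : ∀ q ∈ Q, q.Prime := fun q hq => (hQ q hq).prime
  obtain ⟨σ, hσK, hσ2, hσd, hσb⟩ := exists_element hm0 hQp hb hne
  obtain ⟨q, hqQ, hq, A, hA, φ, hφ, hbφ, hrbφ⟩ := exists_aux E hm0 hQp hb hσK hσ2 hσd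
  have hbφφ : b (φ * φ) ≠ 0 := by
    rw [hb.mul, hbφ, hrbφ, ← hb.mul]
    exact hσb
  have hQ'p : ∀ q' ∈ insert q Q, q'.Prime := by
    intro q' hq'
    rcases Finset.mem_insert.1 hq' with rfl | h
    · exact hq.prime
    · exact hQp q' h
  refine ⟨q, hqQ, hq, fun b' hb' => ⟨hb'.mul, hb'.lc, ?_, ?_⟩, ?_⟩
  · intro l hl hll P hP τ hτ
    by_cases hlq : l = q
    · subst hlq
      obtain ⟨g, rfl⟩ := exists_smul_eq hl hA hP
      rw [mem_inertiaSubgroupIn_smul_iff] at hτ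
      have h1 := InSel.unr_at hm hQ hqQ hq hb hb' hA hφ hbφφ hτ
      have h2 : τ = g * (g⁻¹ * τ * g) * g⁻¹ := by group
      rw [h2, hb'.mul.conj_of (rb_of_unr E hl hq.not_dvd hA hτ), h1, mulVec_zero]
    · refine hb'.unr l hl ?_ P hP τ hτ
      rw [dvd_lev_iff E hQ'p hl]
      rw [dvd_lev_iff E hQp hl] at hll
      rw [Finset.mem_insert]
      tauto
  · intro v hv hvl P hP g hg hgK
    refine hb'.sq v hv ?_ P hP g hg hgK
    rw [dvd_lev_iff E hQ'p hv]
    rw [dvd_lev_iff E hQp hv] at hvl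
    exact hvl.imp_right (Finset.mem_insert_of_mem)
  · intro hb'
    apply hbφφ
    refine hb'.sq q hq.prime ?_ A hA φ ((isFrobeniusAt_iff A φ q).1 hφ).1 (hq.not_fixK hA hφ)
    rw [dvd_lev_iff E hQ'p hq.prime]
    exact Or.inr (Finset.mem_insert_self _ _)

/-- **Block B** -/
theorem blockB : BlockB Sel := by
  intro E
  refine ⟨{b | InSel E ∅ b}.ncard, fun m hm => ?_⟩
  have key : ∀ n : ℕ, ∀ Q : Finset ℕ, (∀ q ∈ Q, IsAux E m q) → {b | InSel E Q b}.ncard ≤ n →
      ∃ Q' : Finset ℕ, Q'.card ≤ Q.card + n ∧ (∀ q ∈ Q', IsAux E m q) ∧ Sel E Q' := by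
    intro n
    induction n with
    | zero =>
      intro Q hQ hn
      refine ⟨Q, by simp, hQ, fun b hb => ?_⟩
      exfalso
      have hfin := finite_inSel E (Q := Q) fun q hq => (hQ q hq).prime
      have h1 : {b | InSel E Q b} = ∅ := (Set.ncard_eq_zero hfin).1 (by omega)
      have h2 : b ∈ {b | InSel E Q b} := hb
      rw [h1] at h2
      exact h2
    | succ n ih =>
      intro Q hQ hn
      by_cases hS : Sel E Q
      · exact ⟨Q, by omega, hQ, hS⟩
      · unfold Sel at hS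
        push Not at hS
        obtain ⟨b, hb, hne⟩ := hS
        obtain ⟨q, hqQ, hq, hsub, hnb⟩ := step hm hQ hb (by push Not; exact hne)
        have hQ' : ∀ q' ∈ insert q Q, IsAux E m q' := by
          intro q' hq'
          rcases Finset.mem_insert.1 hq' with rfl | h
          · exact hq
          · exact hQ q' h
        have hfin := finite_inSel E (Q := Q) fun q hq => (hQ q hq).prime
        have hlt : {b | InSel E (insert q Q) b}.ncard < {b | InSel E Q b}.ncard := by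
          refine Set.ncard_lt_ncard ⟨hsub, fun h => hnb (h hb)⟩ hfin
        obtain ⟨Q', h1, h2, h3⟩ := ih (insert q Q) hQ' (by omega)
        refine ⟨Q', ?_, h2, h3⟩
        rw [Finset.card_insert_of_notMem hqQ] at h1
        omega
  obtain ⟨Q', h1, h2, h3⟩ := key _ ∅ (by simp) le_rfl
  exact ⟨Q', by simpa using h1, h2, h3⟩

end Fermat.Agent.TwoAdic
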