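import Mathlib
import Fermat.Agent.TwoAdic.Spec

/-!
# The `2`-part of the class group
-/

set_option autoImplicit false

namespace Fermat.Agent.TwoAdic

/-- the elements of odd order of a commutative group -/
def oddPart (G : Type*) [CommGroup G] : Subgroup G where
  carrier := {x | ∃ m : ℕ, Odd m ∧ x ^ m = 1}
  mul_mem' := by
    rintro a b ⟨m, hm, ha⟩ ⟨n, hn, hb⟩
    refine ⟨m * n, hm.mul hn, ?_⟩
    rw [mul_pow, pow_mul, ha, one_pow, one_mul, mul_comm, pow_mul, hb, one_pow]
  one_mem' := ⟨1, odd_one, one_pow _⟩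
  inv_mem' := by
    rintro a ⟨m, hm, ha⟩
    exact ⟨m, hm, by rw [inv_pow, ha, inv_one]⟩

theorem odd_card_oddPart (G : Type*) [CommGroup G] [Finite G] : Odd (Nat.card (oddPart G)) := by
  rw [← Nat.not_even_iff_odd, even_iff_two_dvd]
  intro h
  have : Fact (Nat.Prime 2) := ⟨Nat.prime_two⟩
  obtain ⟨x, hx⟩ := exists_prime_orderOf_dvd_card' 2 h
  obtain ⟨m, hm, hxm⟩ := x.2
  have h1 : x ^ m = 1 := Subtype.ext hxm
  have h2 := orderOf_dvd_of_pow_eq_one h1
  rw [hx] at h2
  exact (Nat.not_even_iff_odd.2 hm) (even_iff_two_dvd.2 h2)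

/-- the maximal `2`-group quotient of a finite commutative group -/
abbrev TwoQuot (G : Type*) [CommGroup G] : Type _ := G ⧸ oddPart G

theorem isPGroup_twoQuot (G : Type*) [CommGroup G] [Finite G] : IsPGroup 2 (TwoQuot G) := by
  have : Fact (Nat.Prime 2) := ⟨Nat.prime_two⟩
  rw [IsPGroup.iff_card]
  have hne : Nat.card (TwoQuot G) ≠ 0 := Nat.card_pos.ne'
  refine ⟨(Nat.card (TwoQuot G)).primeFactorsList.length, ?_⟩
  rw [← Nat.eq_prime_pow_of_unique_prime_dvd hne]
  intro p hp hpd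
  by_contra hp2
  have : Fact p.Prime := ⟨hp⟩
  obtain ⟨x, hx⟩ := exists_prime_orderOf_dvd_card' p hpd
  obtain ⟨y, rfl⟩ := QuotientGroup.mk'_surjective _ x
  have h1 : (QuotientGroup.mk' (oddPart G) y) ^ p = 1 := by rw [← hx]; exact pow_orderOf_eq_one _
  rw [← map_pow] at h1
  obtain ⟨m, hm, hym⟩ := (QuotientGroup.eq_one_iff _).1 h1
  have h2 : y ∈ oddPart G :=
    ⟨p * m, (hp.odd_of_ne_two hp2).mul hm, by rw [pow_mul, hym]⟩
  have h3 : QuotientGroup.mk' (oddPart G) y = 1 := (QuotientGroup.eq_one_iff _).2 h2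
  rw [h3, orderOf_one] at hx
  exact hp.one_lt.ne hx

theorem card_twoQuot (G : Type*) [CommGroup G] [Finite G] :
    Nat.card (TwoQuot G) = 2 ^ (Nat.card G).factorization 2 := by
  have : Fact (Nat.Prime 2) := ⟨Nat.prime_two⟩
  obtain ⟨n, hn⟩ := IsPGroup.iff_card.1 (isPGroup_twoQuot G)
  have h1 : Nat.card G = Nat.card (TwoQuot G) * Nat.card (oddPart G) :=
    Subgroup.card_eq_card_quotient_mul_card_subgroup _
  have hodd := odd_card_oddPart G
  have h2 : ¬ 2 ∣ Nat.card (oddPart G) := by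
    rw [← even_iff_two_dvd, Nat.not_even_iff_odd]; exact hodd
  rw [h1, hn, Nat.factorization_mul (by positivity) (Nat.card_pos.ne'),
    Nat.prime_two.factorization_pow, Finsupp.add_apply, Finsupp.single_eq_same,
    Nat.factorization_eq_zero_of_not_dvd h2, add_zero]

/-- the `2`-part of the class group of `K = ℚ(√-N)` as a quotient -/
noncomputable abbrev Cl2 (N : ℕ) : Type :=
  TwoQuot (ClassGroup (NumberField.RingOfIntegers (KN N)))

/-- the projection -/
noncomputable abbrev prCl2 (N : ℕ) : ClassGroup (NumberField.RingOfIntegers (KN N)) →* Cl2 N :=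
  QuotientGroup.mk' _

theorem ker_prCl2 (N : ℕ) : (prCl2 N).ker = oddPart _ := QuotientGroup.ker_mk' _

theorem prCl2_surjective (N : ℕ) : Function.Surjective (prCl2 N) := QuotientGroup.mk'_surjective _

theorem card_Cl2 (N : ℕ) [Finite (ClassGroup (NumberField.RingOfIntegers (KN N)))] :
    Nat.card (Cl2 N) = h2 N := card_twoQuot _

end Fermat.Agent.TwoAdic
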