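import Fermat.Agent.TwoAdic.GenusE
import Fermat.Agent.TwoAdic.D3Cl2

/-!
# Genus theory of imaginary quadratic fields, part F: generation of the 2-part of the class group
(block D4 of the 2-adic route)

* `eq_top_of_frob`: a subgroup of a `2`-group quotient of the class group of `K = ℚ(√-N)` which
  contains the classes of the primes with a Frobenius element `φ ∈ G_K`, `χ φ ≠ 1`, is everything.
* `D4`: version for the data of the elliptic curve.
-/

set_option autoImplicit false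
set_option linter.unusedSectionVars false

open Ideal nonZeroDivisors NumberField

namespace Fermat.Agent.TwoAdic.Genus

local notation "Qbar" => AlgebraicClosure ℚ
local notation "Γℚ" => (AlgebraicClosure ℚ ≃ₐ[ℚ] AlgebraicClosure ℚ)

open Fermat.Agent.Frob Fermat.Agent.Cheb

variable {N : ℕ}

/-- a finite abelian `2`-group in which every element is a square is trivial -/
theorem eq_one_of_sq_surj {Q : Type*} [CommGroup Q] [Finite Q] (hQ : IsPGroup 2 Q)
    (h : ∀ x : Q, ∃ y, x = y ^ 2) (x : Q) : x = 1 := by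
  have hsurj : Function.Surjective (powMonoidHom 2 : Q →* Q) := fun x =>
    let ⟨y, hy⟩ := h x
    ⟨y, hy.symm⟩
  have hinj : Function.Injective (powMonoidHom 2 : Q →* Q) :=
    Finite.injective_iff_surjective.2 hsurj
  have h1 : ∀ y : Q, y ^ 2 = 1 → y = 1 := fun y hy => hinj (by
    rw [powMonoidHom_apply, powMonoidHom_apply, hy, one_pow])
  obtain ⟨k, hk⟩ := hQ x
  induction k with
  | zero => simpa using hk
  | succ k ih =>
    apply ih
    apply h1
    rw [← pow_mul, ← pow_succ]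
    exact hk

/-- **genus theory + Chebotarev** -/
theorem eq_top_of_frob (hN : IsLev N) {M : Type} [Monoid M] (χ : Γℚ →* M)
    (hχ : GaloisFactorsThroughFiniteLevel χ) {γ : Γℚ} (hγ2 : χ (γ * γ) ≠ 1) (S : Finset ℕ)
    {G : Type*} [CommGroup G] [Finite G] (hG : IsPGroup 2 G)
    (pr : ClassGroup (𝓞 (KN N)) →* G) (hpr : Function.Surjective pr) (H : Subgroup G)
    (hH : ∀ l : ℕ, l.Prime → l ∉ S → ¬ l ∣ 2 * N → ∀ A : ValuationSubring Qbar,
      A.LiesOverPrime l → ∀ φ : Γℚ, A.IsFrobeniusAt φ l → FixK N φ → χ φ ≠ 1 →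
      absNorm (below (KN N) A) = l → pr (cl (below (KN N) A)) ∈ H) :
    H = ⊤ := by
  rw [eq_top_iff]
  intro x _
  have hQ : IsPGroup 2 (G ⧸ H) := hG.to_quotient H
  have key : ∀ y : G ⧸ H, ∃ z, y = z ^ 2 := by
    intro y
    obtain ⟨g, rfl⟩ := QuotientGroup.mk'_surjective H y
    obtain ⟨c, rfl⟩ := hpr g
    by_cases hs : genus hN c = 1
    · obtain ⟨d, rfl⟩ := exists_sq_of_genus_eq_one hN hs
      exact ⟨QuotientGroup.mk' H (pr d), by rw [map_pow, map_pow]⟩
    · obtain ⟨l, hl, hlS, hlN, A, hA, φ, hφ, hφK, hφχ, hnorm, hgen⟩ :=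
        exists_good hN χ hχ hγ2 S hs
      have h1 := hH l hl hlS hlN A hA φ hφ hφK hφχ hnorm
      have h2 : genus hN (c * (cl (below (KN N) A))⁻¹) = 1 := by
        rw [map_mul, map_inv, hgen, mul_inv_cancel]
      obtain ⟨d, hd⟩ := exists_sq_of_genus_eq_one hN h2
      refine ⟨QuotientGroup.mk' H (pr d), ?_⟩
      have h3 : c = d ^ 2 * cl (below (KN N) A) := by rw [← hd, inv_mul_cancel_right]
      have h4 : QuotientGroup.mk' H (pr (cl (below (KN N) A))) = 1 :=
        (QuotientGroup.eq_one_iff _).2 h1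
      rw [← map_pow, ← map_pow]
      conv_lhs => rw [h3]
      rw [map_mul, map_mul, h4, mul_one]
  exact (QuotientGroup.eq_one_iff x).1 (eq_one_of_sq_surj hQ key (QuotientGroup.mk x))

/-! ### the version for the elliptic curve -/

/-- reduction mod `2` -/
noncomputable def rho2 (E : EData) : Γℚ →* Matrix (Fin 2) (Fin 2) (ZMod 2) :=
  ((PadicInt.toZMod (p := 2)).mapMatrix : Matrix (Fin 2) (Fin 2) ℤ_[2] →+*
    Matrix (Fin 2) (Fin 2) (ZMod 2)).toMonoidHom.comp E.ρ

theorem rho2_apply (E : EData) (g : Γℚ) :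
    rho2 E g = (E.ρ g).map (PadicInt.toZMod (p := 2)) := rfl

theorem rho2_level (E : EData) : GaloisFactorsThroughFiniteLevel (rho2 E) := by
  obtain ⟨L, hL, h⟩ := E.cont 1
  refine ⟨L, hL, fun σ hσ => ?_⟩
  have h1 := h σ hσ
  rw [rho2_apply]
  ext i j
  have h2 := h1 i j
  have h3 : PadicInt.toZMod (p := 2) (E.ρ σ i j - (1 : Matrix (Fin 2) (Fin 2) ℤ_[2]) i j) = 0 := by
    rw [← RingHom.mem_ker, PadicInt.ker_toZMod, PadicInt.maximalIdeal_eq_span_p]
    simpa using h2
  rw [map_sub, sub_eq_zero] at h3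
  rw [Matrix.map_apply, h3]
  by_cases hij : i = j
  · subst hij; simp
  · simp [Matrix.one_apply_ne hij]

/-- **Block D4**: the `2`-part of the class group of `K = ℚ(√-N)` is generated by the classes of
the primes `P` of prime norm `l ∉ S`, `l ∤ 2 N`, with `a_l` odd. -/
theorem D4 (E : EData) (S : Finset ℕ) {G : Type*} [CommGroup G] [Finite G] (hG : IsPGroup 2 G)
    (pr : ClassGroup (𝓞 (KN E.N)) →* G) (hpr : Function.Surjective pr) (H : Subgroup G)
    (hH : ∀ l : ℕ, l.Prime → l ∉ S → ¬ l ∣ 2 * E.N → Odd (E.a l) →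
      ∀ (P : Ideal (𝓞 (KN E.N))) (hP : P ≠ ⊥), P.IsPrime → absNorm P = l →
      pr (ClassGroup.mk0 ⟨P, mem_nonZeroDivisors_of_ne_zero hP⟩) ∈ H) :
    H = ⊤ := by
  obtain ⟨γ, hγ⟩ := E.surj !![0, 1; 1, 1] (by rw [Matrix.det_fin_two_of]; decide)
  refine eq_top_of_frob E.isLev (rho2 E) (rho2_level E) (γ := γ) ?_ S hG pr hpr H
    fun l hl hlS hlN A hA φ hφ hφK hφχ hnorm => ?_
  · rw [map_mul, rho2_apply, hγ]
    decide
  · have hne : below (KN E.N) A ≠ ⊥ := by
      intro h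
      rw [h, absNorm_bot] at hnorm
      exact hl.ne_zero hnorm.symm
    rw [cl_eq hne]
    have hlN' : ¬ l ∣ E.N := fun h => hlN (h.mul_left 2)
    refine hH l hl hlS hlN ?_ _ hne inferInstance hnorm
    rcases (E.fixK φ).1 hφK with h | h
    · exact absurd h hφχ
    · rw [E.frob l hl hlN' A hA φ hφ, map_intCast] at h
      rw [← Int.not_even_iff_odd, even_iff_two_dvd]
      intro h2
      rw [(ZMod.intCast_zmod_eq_zero_iff_dvd (E.a l) 2).2 h2] at h
      exact zero_ne_one h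

/-- **Block D4** in terms of the closure in `Cl2 N` -/
theorem closure_eq_top (E : EData) (S : Finset ℕ) :
    Subgroup.closure {x : Cl2 E.N | ∃ (l : ℕ) (P : Ideal (𝓞 (KN E.N))) (hP : P ≠ ⊥), l.Prime ∧
      l ∉ S ∧ ¬ l ∣ 2 * E.N ∧ Odd (E.a l) ∧ P.IsPrime ∧ absNorm P = l ∧
      x = prCl2 E.N (ClassGroup.mk0 ⟨P, mem_nonZeroDivisors_of_ne_zero hP⟩)} = ⊤ := by
  apply D4 E S (isPGroup_twoQuot _) (prCl2 E.N) (prCl2_surjective E.N)
  intro l hl hlS hlN ha P hP hPp hnorm
  exact Subgroup.subset_closure ⟨l, P, hP, hl, hlS, hlN, ha, hPp, hnorm, rfl⟩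

end Fermat.Agent.TwoAdic.Genus
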