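import Fermat.Agent.S29
import Fermat.Agent.ChebFull.Places
import Fermat.Agent.Cheb.Charpoly
import Fermat.Agent.TwoAdic.Spec

set_option autoImplicit false

/-! # Eigenforms congruent to `E` mod `2` are ramified at the odd primes `v ∣ N` -/

namespace Fermat.Agent.TwoAdic

open CongruenceSubgroup ModularFormClass Polynomial IsLocalRing

local notation "Γℚ" => (AlgebraicClosure ℚ ≃ₐ[ℚ] AlgebraicClosure ℚ)

theorem mat_eq_one_of_trace : ∀ A : Matrix (Fin 2) (Fin 2) (ZMod 2),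
    (∀ B : Matrix (Fin 2) (Fin 2) (ZMod 2), B.det = 1 → (A * B).trace = B.trace) →
    A = 1 := by
  decide

theorem mem_of_integral (𝒱 : ValuationSubring ℂ) {x : ℂ} (hx : x ∈ integralClosure ℤ ℂ) :
    x ∈ 𝒱 := by
  have h1 : IsIntegral 𝒱 x := IsIntegral.tower_top (R := ℤ) hx
  obtain ⟨y, hy⟩ := IsIntegrallyClosed.isIntegral_iff.mp h1
  rw [← hy]
  exact y.2

/-- the reduction of algebraic integers -/
noncomputable def redV (𝒱 : ValuationSubring ℂ) : integralClosure ℤ ℂ →+* ResidueField 𝒱 :=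
  (residue 𝒱).comp
    { toFun := fun x => ⟨x, mem_of_integral 𝒱 x.2⟩
      map_one' := rfl
      map_mul' := fun _ _ => rfl
      map_zero' := rfl
      map_add' := fun _ _ => rfl }

theorem redV_apply (𝒱 : ValuationSubring ℂ) (x : integralClosure ℤ ℂ) (h : (x : ℂ) ∈ 𝒱) :
    redV 𝒱 x = residue 𝒱 ⟨x, h⟩ := rfl

/-- `E[2]` -/
noncomputable def rho2 (E : EData) : Γℚ →* Matrix (Fin 2) (Fin 2) (ZMod 2) :=
  (RingHom.mapMatrix (PadicInt.toZMod (p := 2))).toMonoidHom.comp E.ρ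

theorem rho2_apply (E : EData) (σ : Γℚ) : rho2 E σ = (E.ρ σ).map (PadicInt.toZMod (p := 2)) := rfl

theorem rho2_trace (E : EData) (σ : Γℚ) :
    (rho2 E σ).trace = PadicInt.toZMod (p := 2) (E.ρ σ).trace := by
  rw [rho2_apply, Matrix.trace_fin_two, Matrix.trace_fin_two, map_add]
  rfl

theorem toZMod_eq_zero {x : ℤ_[2]} {m : ℕ} (hm : m ≠ 0)
    (hx : x ∈ Ideal.span {(2 : ℤ_[2]) ^ m}) : PadicInt.toZMod (p := 2) x = 0 := by
  obtain ⟨y, rfl⟩ := Ideal.mem_span_singleton'.mp hx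
  rw [map_mul, map_pow, map_ofNat]
  have : (2 : ZMod 2) = 0 := rfl
  rw [show (OfNat.ofNat 2 : ZMod 2) = 0 from rfl, zero_pow hm, mul_zero]

theorem rho2_finite (E : EData) : ∃ F : IntermediateField ℚ (AlgebraicClosure ℚ),
    FiniteDimensional ℚ F ∧ ∀ σ : Γℚ, (∀ x ∈ F, σ x = x) → rho2 E σ = 1 := by
  obtain ⟨L, hL, h⟩ := E.cont 1
  refine ⟨L, hL, fun σ hσ => ?_⟩
  ext i j
  have h1 := toZMod_eq_zero one_ne_zero (h σ hσ i j)
  rw [map_sub, sub_eq_zero] at h1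
  rw [rho2_apply, Matrix.map_apply, h1]
  by_cases hij : i = j
  · subst hij; simp
  · simp [Matrix.one_apply_ne hij]

theorem lev_ne_zero (E : EData) {Q : Finset ℕ} (hQ : ∀ q ∈ Q, q.Prime) : lev E Q ≠ 0 := by
  unfold lev
  refine mul_ne_zero E.sqf.ne_zero ?_
  rw [Finset.prod_ne_zero_iff]
  exact fun q hq => (hQ q hq).ne_zero

/-- Traces of the residual representation of a form congruent to `E`. -/
theorem exists_residual (E : EData) {L : ℕ} (hL : L ≠ 0) (hNL : E.N ∣ L) (𝒱 : ValuationSubring ℂ)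
    (h2 : (2 : ResidueField 𝒱) = 0) {M' : ℕ} (hM' : M' ≠ 0) {g : CuspForm (Gamma0 M') 2}
    (hg : g.IsNormalizedEigenform)
    (hcong : ∀ l : ℕ, l.Prime → ¬ l ∣ L → ∃ h : qCoeff g l ∈ 𝒱,
      residue 𝒱 ⟨_, h⟩ = ((E.a l : ℤ) : ResidueField 𝒱)) [CharP (ResidueField 𝒱) 2] :
    ∃ ρ : ResidualGaloisRep (ResidueField 𝒱), ρ.IsAttachedTo g (redV 𝒱) ∧
      (∀ ℓ : ℕ, ℓ.Prime → ¬ ℓ ∣ M' * 2 → ρ.IsUnramifiedAt ℓ) ∧
      ∀ σ : Γℚ, LinearMap.trace (ResidueField 𝒱) ρ.V (ρ.ρ σ) =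
        ZMod.castHom (dvd_refl 2) (ResidueField 𝒱) (rho2 E σ).trace := by
  classical
  obtain ⟨ρ, hρ, hunr⟩ := Fermat.Agent.S29.result hg Nat.prime_two (redV 𝒱)
  refine ⟨ρ, hρ, hunr, fun σ => ?_⟩
  have : Module.Finite (ResidueField 𝒱) ρ.V := inferInstance
  obtain ⟨F₁, hF₁, h1⟩ := ρ.factorsThroughFiniteLevel
  obtain ⟨F₂, hF₂, h2'⟩ := rho2_finite E
  have hfin : FiniteDimensional ℚ (F₁ ⊔ F₂ : IntermediateField ℚ (AlgebraicClosure ℚ)) :=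
    IntermediateField.finiteDimensional_sup F₁ F₂
  obtain ⟨l, hl, hlS, -, P, hP, φ, hφ, hφσ⟩ :=
    Fermat.Agent.ChebFull.exists_frobenius_eq (F₁ ⊔ F₂) σ
      (M'.primeFactors ∪ L.primeFactors ∪ {2})
  simp only [Finset.mem_union, Finset.mem_singleton, not_or, Nat.mem_primeFactors, not_and] at hlS
  have hlM : ¬ l ∣ M' := fun h => hlS.1.1 hl h hM'
  have hlL : ¬ l ∣ L := fun h => hlS.1.2 hl h hL
  have hl2 : l ≠ 2 := hlS.2
  have hinv : ∀ x ∈ (F₁ ⊔ F₂ : IntermediateField ℚ (AlgebraicClosure ℚ)), (σ⁻¹ * φ) x = x := by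
    intro x hx
    change σ⁻¹ (φ x) = x
    rw [hφσ x hx]
    exact inv_smul_smul σ x
  have e1 : ρ.ρ φ = ρ.ρ σ := by
    have := h1 (σ⁻¹ * φ) fun x hx => hinv x ((le_sup_left : F₁ ≤ F₁ ⊔ F₂) hx)
    have e : φ = σ * (σ⁻¹ * φ) := by group
    rw [e, map_mul, this, mul_one]
  have e2 : rho2 E φ = rho2 E σ := by
    have := h2' (σ⁻¹ * φ) fun x hx => hinv x ((le_sup_right : F₂ ≤ F₁ ⊔ F₂) hx)
    have e : φ = σ * (σ⁻¹ * φ) := by group
    rw [e, map_mul, this, mul_one]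
  have hl0 : (l : ResidueField 𝒱) ≠ 0 := by
    rw [Ne, CharP.cast_eq_zero_iff (ResidueField 𝒱) 2]
    intro h
    exact hl2 ((Nat.prime_dvd_prime_iff_eq Nat.prime_two hl).mp h).symm
  obtain ⟨a, ha, hch⟩ := hρ l hl hlM hl0 P hP φ hφ
  have h3 := (Fermat.Agent.Cheb.trace_det_of_charpoly_eq ρ.finrank_eq _ hch).1
  rw [← e1, ← e2, h3, rho2_trace, E.frob l hl (fun h => hlL (h.trans hNL)) P hP φ hφ]
  obtain ⟨h4, h5⟩ := hcong l hl hlL
  have h6 : redV 𝒱 a = residue 𝒱 ⟨qCoeff g l, h4⟩ := by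
    rw [redV_apply 𝒱 a (mem_of_integral 𝒱 a.2)]
    congr 1
    exact Subtype.ext ha
  rw [h6, h5, map_intCast, map_intCast]

theorem ram_of_cong (E : EData) {L : ℕ} (hL : L ≠ 0) (hNL : E.N ∣ L) (𝒱 : ValuationSubring ℂ)
    (h2 : (2 : ResidueField 𝒱) = 0) {M' : ℕ} {g : CuspForm (Gamma0 M') 2}
    (hg : g.IsNormalizedEigenform)
    (hcong : ∀ l : ℕ, l.Prime → ¬ l ∣ L → ∃ h : qCoeff g l ∈ 𝒱,
      residue 𝒱 ⟨_, h⟩ = ((E.a l : ℤ) : ResidueField 𝒱))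
    {v : ℕ} (hv : v.Prime) (hvN : v ∣ E.N) (hv2 : v ≠ 2) : v ∣ M' := by
  by_contra hvM
  have hM' : M' ≠ 0 := by rintro rfl; exact hvM (dvd_zero v)
  have hchar : CharP (ResidueField 𝒱) 2 := by
    have := CharTwo.of_one_ne_zero_of_two_eq_zero (R := ResidueField 𝒱) one_ne_zero h2
    exact this
  obtain ⟨ρ, -, hunr, htr⟩ := exists_residual E hL hNL 𝒱 h2 hM' hg hcong
  have hv' : ¬ v ∣ M' * 2 := by
    intro h
    rcases hv.dvd_mul.mp h with h | h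
    · exact hvM h
    · exact hv2 ((Nat.prime_dvd_prime_iff_eq hv Nat.prime_two).mp h)
  obtain ⟨P, hP⟩ : ∃ P : ValuationSubring (AlgebraicClosure ℚ), P.LiesOverPrime v :=
    Fermat.Agent.Frob.exists_liesOverPrime _ hv
  obtain ⟨τ, hτ, hτ1⟩ := E.ram v hv hvN hv2 P hP
  have h1 : ρ.ρ τ = 1 := hunr v hv hv' P hP τ hτ
  apply hτ1
  apply mat_eq_one_of_trace
  intro B hB
  obtain ⟨σ, hσ⟩ := E.surj B (by rw [hB]; exact isUnit_one)
  have h3 := htr (τ * σ)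
  rw [map_mul, h1, one_mul, htr σ, map_mul] at h3
  have h4 := (ZMod.castHom (dvd_refl 2) (ResidueField 𝒱)).injective h3
  rw [← hσ, ← rho2_apply, ← rho2_apply]
  exact h4.symm

end Fermat.Agent.TwoAdic
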