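import Fermat.Agent.TwoAdic.RankFinal
import Fermat.Agent.TwoAdic.GenusF
import Fermat.Agent.TwoAdic.Hram

/-!
# Block E of the 2-adic route
-/

set_option autoImplicit false

noncomputable section

namespace Fermat.Agent.TwoAdic.Rank

open NumberField Ideal Module IsLocalRing
open UpperHalfPlane ModularForm CongruenceSubgroup Matrix.SpecialLinearGroup ModularFormClass
open Fermat.Agent.IntStr Fermat.Agent.Newform
open scoped MatrixGroups

/-- **(D2)** the residual system of `E` is dihedral, induced from a class group character of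
order `3` -/
def ClassChar (E : EData) : Prop :=
  ∀ (k : Type) [Field k] [CharP k 2] (ω : k), ω ^ 2 + ω + 1 = 0 →
    ∃ χ : ClassGroup (𝓞 (KN E.N)) →* k, (∀ c, χ c ^ 3 = 1) ∧ (∃ c, χ c ≠ 1) ∧
      ∀ l : ℕ, l.Prime → ¬ l ∣ E.N → FF χ l = ((E.a l : ℤ) : k)

theorem isQ_KN {N : ℕ} (hN : IsLev N) : IsQ (KN N) N (nu N) where
  rank := finrank_KN (by have := hN.two_lt; omega)
  sq := by rw [← sq]; exact nu_sq N
  sqf := hN.sqf
  mod4 := by
    obtain ⟨m, rfl⟩ := hN.two_dvd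
    have h1 : ¬ 2 ∣ m := by
      rintro ⟨j, rfl⟩
      have := hN.sqf 2 ⟨j, by ring⟩
      simp at this
    omega

/-- a valuation ring dominating a maximal ideal of the algebraic integers -/
theorem exists_dominating {𝔪 : Ideal (integralClosure ℤ ℂ)} (h𝔪 : 𝔪.IsMaximal) :
    ∃ 𝒱 : ValuationSubring ℂ, ∀ a : integralClosure ℤ ℂ, a ∈ 𝔪 ↔ redV 𝒱 a = 0 := by
  obtain ⟨𝒱, h1, h2⟩ := Ideal.image_subset_nonunits_valuationSubring
    (A := (integralClosure ℤ ℂ).toSubring) 𝔪 h𝔪.ne_top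
  refine ⟨𝒱, ?_⟩
  have h3 : 𝔪 ≤ RingHom.ker (redV 𝒱) := by
    intro a ha
    have h4 : (a : ℂ) ∈ 𝒱.nonunits := h2 ⟨a, ha, rfl⟩
    rw [RingHom.mem_ker, redV_apply 𝒱 a (mem_of_integral 𝒱 a.2), residue_eq_zero_iff]
    obtain ⟨h5, h6⟩ := ValuationSubring.mem_nonunits_iff_exists_mem_maximalIdeal.1 h4
    exact h6
  have h4 := h𝔪.eq_of_le (RingHom.ker_ne_top (redV 𝒱)) h3
  intro a
  rw [h4, RingHom.mem_ker]

theorem exists_omega (𝒱 : ValuationSubring ℂ) : ∃ ω : ResidueField 𝒱, ω ^ 2 + ω + 1 = 0 := by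
  have hdeg : (Polynomial.X ^ 2 + Polynomial.X + 1 : Polynomial ℂ).degree ≠ 0 := by
    have h : (Polynomial.X ^ 2 + Polynomial.X + 1 : Polynomial ℂ).degree = 2 := by compute_degree!
    rw [h]
    norm_num
  obtain ⟨ζ, hζ⟩ := IsAlgClosed.exists_root _ hdeg
  have h1 : ζ ^ 2 + ζ + 1 = 0 := by simpa [Polynomial.IsRoot] using hζ
  have h2 : ζ ∈ integralClosure ℤ ℂ := by
    refine ⟨Polynomial.X ^ 2 + Polynomial.X + 1, by monicity!, ?_⟩
    simpa using h1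
  refine ⟨redV 𝒱 ⟨ζ, h2⟩, ?_⟩
  rw [← map_pow, ← map_add, ← map_one (redV 𝒱), ← map_add]
  rw [show (⟨ζ, h2⟩ : integralClosure ℤ ℂ) ^ 2 + ⟨ζ, h2⟩ + 1 = 0 from Subtype.ext h1, map_zero]

/-- Frobenius elements at an auxiliary prime do not fix `K` -/
theorem not_isSquare_of_isAux {E : EData} {m q : ℕ} (hq : IsAux E m q) :
    ¬ IsSquare (-(E.N : ZMod q)) := by
  intro hsq
  have hp := hq.prime
  have : Fact q.Prime := ⟨hp⟩
  obtain ⟨P, hP⟩ := Fermat.Agent.Frob.exists_liesOverPrime (AlgebraicClosure ℚ) hp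
  obtain ⟨σ, hσ⟩ := Fermat.Agent.Frob.exists_isFrobeniusAt P hp hP
  apply (hq.frob P hP σ hσ).1
  rw [Genus.fixK_iff (by have := E.two_lt; omega)]
  have hd : ¬ (q : ℤ) ∣ -(E.N : ℤ) := by
    rw [dvd_neg]
    exact_mod_cast hq.not_dvd
  rw [Genus.frob_sqrt hp hq.ne_two hP hσ hd (y := nu0 E.N) (by rw [nu0_sq]; push_cast; rfl)]
  have hJ : jacobiSym (-(E.N : ℤ)) q = 1 := by
    rw [← jacobiSym.legendreSym.to_jacobiSym]
    rw [legendreSym.eq_one_iff]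
    · push_cast
      exact hsq
    · push_cast
      rw [neg_ne_zero, Ne, ZMod.natCast_eq_zero_iff]
      exact hq.not_dvd
  rw [hJ]
  simp

/-- `h2` as the order of `HH` -/
theorem card_HH_eq (E : EData) (Q : Finset ℕ) {k : Type*} [Field k] [CharP k 2]
    (χ : ClassGroup (𝓞 (KN E.N)) →* k)
    (hχ : ∀ l : ℕ, l.Prime → ¬ l ∣ E.N → FF χ l = ((E.a l : ℤ) : k)) :
    Nat.card (HH χ (prCl2 E.N) E.N Q) = h2 E.N := by
  have h1 : HH χ (prCl2 E.N) E.N Q = ⊤ := by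
    rw [eq_top_iff, ← Genus.closure_eq_top E Q, HH]
    apply Subgroup.closure_mono
    rintro x ⟨l, P, hP, hl, hlQ, hlN, hodd, hPp, hnorm, rfl⟩
    have hlN' : ¬ l ∣ E.N := fun h => hlN (h.mul_left 2)
    have hl2 : l ≠ 2 := fun h => hlN (h ▸ dvd_mul_right _ _)
    refine ⟨l, P, hl, hlQ, hlN', hnorm, ?_, by rw [cl_of_ne hP]⟩
    intro hone
    have h2 := hχ l hl hlN'
    have h3 : ((E.a l : ℤ) : k) = 1 := by
      obtain ⟨r, hr⟩ := hodd
      rw [hr]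
      push_cast
      have : (2 : k) = 0 := CharTwo.two_eq_zero
      rw [this]
      ring
    rw [h3] at h2
    have D := isQ_KN E.isLev
    obtain ⟨P', hPP, hP'⟩ := exists_factor D.rank hl hnorm
    have hne := D.split_ne hl hlN' hnorm hPP
    rw [FF_prime_split D.rank χ hl hnorm hP' hPP hne, cl_conj D.rank hl hnorm hP' hPP] at h2
    have h4 : χ (cl P) * χ (cl P)⁻¹ = 1 := by rw [← map_mul, mul_inv_cancel, map_one]
    rw [hone, one_mul] at h4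
    rw [hone, h4, CharTwo.add_self_eq_zero] at h2
    exact zero_ne_one h2
  rw [h1, Subgroup.card_top, card_Cl2]

/-- the data of the rank theorem -/
theorem exists_RD (E : EData) {𝒱 : ValuationSubring ℂ} (h2 : (2 : ResidueField 𝒱) = 0)
    {χ : ClassGroup (𝓞 (KN E.N)) →* ResidueField 𝒱} (h3 : ∀ c, χ c ^ 3 = 1) (hne : ∃ c, χ c ≠ 1)
    {Q : Finset ℕ} (hQ : ∀ q ∈ Q, IsAux E 2 q) :
    ∃ m, RD E.N (nu E.N) χ (prCl2 E.N) Q m := by
  have hfin : Finite (Cl2 E.N) := inferInstance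
  obtain ⟨m, hm⟩ : ∃ m, ∀ g : Cl2 E.N, g ^ (2 ^ m) = 1 := by
    have : Fact (Nat.Prime 2) := ⟨Nat.prime_two⟩
    obtain ⟨n, hn⟩ := IsPGroup.iff_card.1 (isPGroup_twoQuot (ClassGroup (𝓞 (KN E.N))))
    exact ⟨n, fun g => by rw [← hn]; exact pow_card_eq_one'⟩
  refine ⟨m, isQ_KN E.isLev, E.two_lt, h2, h3, hne, prCl2_surjective _, hm, ?_, fun q hq =>
    (hQ q hq).prime, fun q hq => (hQ q hq).ne_two, fun q hq => not_isSquare_of_isAux (hQ q hq)⟩
  intro t ht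
  have h4 : t ∈ (prCl2 E.N).ker := ht
  rw [ker_prCl2] at h4
  obtain ⟨j, hj, hjt⟩ := h4
  exact Odd.of_dvd_nat hj (orderOf_dvd_of_pow_eq_one hjt)

theorem rank_of_classChar (E : EData) (hD2 : ClassChar E) (Q : Finset ℕ)
    (hQ : ∀ q ∈ Q, IsAux E 2 q) : TwoAdic.Rank E Q := by
  intro 𝔪 h𝔪 h2𝔪
  obtain ⟨𝒱, h𝒱⟩ := exists_dominating h𝔪
  have h2 : (2 : ResidueField 𝒱) = 0 := by
    have := (h𝒱 2).1 h2𝔪
    rwa [map_ofNat] at this
  have hchar : CharP (ResidueField 𝒱) 2 :=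
    CharTwo.of_one_ne_zero_of_two_eq_zero (R := ResidueField 𝒱) one_ne_zero h2
  obtain ⟨ω, hω⟩ := exists_omega 𝒱
  obtain ⟨χ, h3, hne, hχ⟩ := hD2 (ResidueField 𝒱) ω hω
  obtain ⟨m, R⟩ := exists_RD E h2 h3 hne hQ
  have hram : HRam χ E.N Q := by
    intro M' g hM' hg hgood v hv hvN hv2
    refine ram_of_cong E (L := lev E Q) (lev_ne_zero E fun q hq => (hQ q hq).prime)
      (dvd_mul_right _ _) 𝒱 h2 hg.isNormalizedEigenform ?_ hv hvN hv2
    intro l hl hlL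
    obtain ⟨h4, h5⟩ := hgood l hl hlL
    refine ⟨h4, ?_⟩
    rw [h5]
    exact hχ l hl fun h => hlL (h.trans (dvd_mul_right _ _))
  obtain ⟨𝓕, h4, h5⟩ := R.rank hram
  refine ⟨𝓕, fun f hf => ⟨(h4 f hf).1, ?_⟩, ?_⟩
  · intro l hl hlL
    obtain ⟨h6, h7⟩ := (h4 f hf).2 l hl hlL
    have hM0 : NeZero (levQ E.N Q) := ⟨R.lev_ne⟩
    have hint : qCoeff f l ∈ integralClosure ℤ ℂ :=
      Eigenform.isIntegral_qCoeff_prime (h4 f hf).1.isNormalizedEigenform hl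
    refine ⟨⟨qCoeff f l, hint⟩, rfl, ?_⟩
    have h8 : redV 𝒱 ⟨qCoeff f l, hint⟩ = FF χ l := h7
    rw [h𝒱, map_sub, map_intCast, h8, sub_eq_zero]
    exact hχ l hl fun h => hlL (h.trans (dvd_mul_right _ _))
  · rw [card_HH_eq E Q χ hχ] at h5
    exact h5

theorem blockE_of_classChar (Sel : EData → Finset ℕ → Prop) (hD2 : ∀ E : EData, ClassChar E) :
    BlockE Sel := fun E Q hQ _ => rank_of_classChar E (hD2 E) Q hQ

end Fermat.Agent.TwoAdic.Rank
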