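import Fermat.Agent.TwoAdic.BlockF

/-!
# Block F, conclusion
-/

set_option autoImplicit false
set_option linter.unusedSectionVars false

open IsLocalRing Polynomial ModularFormClass

namespace Fermat.Agent.TwoAdic

local notation "Γℚ" => (AlgebraicClosure ℚ ≃ₐ[ℚ] AlgebraicClosure ℚ)

theorem lev_ne_zero_of {E : EData} {Q : Finset ℕ} (hQ : ∀ q ∈ Q, q.Prime ∧ ¬ q ∣ E.N) :
    lev E Q ≠ 0 := (lev_squarefree hQ).ne_zero

section Setup

variable {E : EData} {Q : Finset ℕ}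

/-- the complete data -/
theorem exists_setup (hQ : ∀ q ∈ Q, q.Prime ∧ ¬ q ∣ E.N) {𝔪 : Ideal (integralClosure ℤ ℂ)}
    (h𝔪 : 𝔪.IsMaximal) (h2𝔪 : (2 : integralClosure ℤ ℂ) ∈ 𝔪)
    (𝓕 : Finset (CuspForm (CongruenceSubgroup.Gamma0 (lev E Q)) 2))
    (h𝓕 : ∀ f ∈ 𝓕, f.IsNewform ∧ CongE E 𝔪 f) :
    ∃ (O : Type) (_ : CommRing O) (_ : IsDomain O) (_ : IsDiscreteValuationRing O)
      (_ : IsAdicComplete (maximalIdeal O) O) (_ : Finite (ResidueField O)) (_ : CharZero O)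
      (_ : (2 : O) ∈ maximalIdeal O) (Fr : Frame 𝔪 O)
      (ρ : 𝓕 → (Γℚ →* Matrix (Fin 2) (Fin 2) O)) (a : 𝓕 → ℕ → O),
      (∀ f : 𝓕, IsRepOf E Fr (f : CuspForm (CongruenceSubgroup.Gamma0 (lev E Q)) 2) (ρ f)) ∧
      ∀ (f : 𝓕) (l : ℕ), l.Prime → Fr.j (a f l) =
        qCoeff (f : CuspForm (CongruenceSubgroup.Gamma0 (lev E Q)) 2) l := by
  have : NeZero (lev E Q) := ⟨lev_ne_zero_of hQ⟩
  obtain ⟨O, i1, i2, i3, i4, i5, i6, h2, Fr, hFr⟩ := exists_frame 𝔪 h𝔪 h2𝔪 𝓕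
    fun f hf => (h𝓕 f hf).1.1
  have h3 : ∀ f : 𝓕, ∃ ρ : Γℚ →* Matrix (Fin 2) (Fin 2) O,
      IsRepOf E Fr (f : CuspForm (CongruenceSubgroup.Gamma0 (lev E Q)) 2) ρ := fun f =>
    exists_isRepOf E h𝔪 h2 Fr (M := lev E Q) (E.two_dvd.trans (Dvd.intro _ rfl))
      (Dvd.intro _ rfl) (h𝓕 f f.2).1 (h𝓕 f f.2).2 (hFr f f.2)
  choose ρ hρ using h3
  choose! a ha using fun (f : 𝓕) => hFr f f.2
  exact ⟨O, i1, i2, i3, i4, i5, i6, h2, Fr, ρ, a, hρ, ha⟩

variable {O : Type} [CommRing O] [IsDomain O] [IsDiscreteValuationRing O]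
  [IsAdicComplete (maximalIdeal O) O] [Finite (ResidueField O)] [CharZero O]
  {𝔪 : Ideal (integralClosure ℤ ℂ)} {Fr : Frame 𝔪 O}
  {𝓕 : Finset (CuspForm (CongruenceSubgroup.Gamma0 (lev E Q)) 2)}
  {ρ : 𝓕 → (Γℚ →* Matrix (Fin 2) (Fin 2) O)} {a : 𝓕 → ℕ → O}

theorem coeff_sq (hQ : ∀ q ∈ Q, q.Prime ∧ ¬ q ∣ E.N)
    (ha : ∀ (f : 𝓕) (l : ℕ), l.Prime → Fr.j (a f l) =
        qCoeff (f : CuspForm (CongruenceSubgroup.Gamma0 (lev E Q)) 2) l)
    (hnew : ∀ f ∈ 𝓕, f.IsNewform) (f : 𝓕) {v : ℕ} (hv : v.Prime) (hvM : v ∣ lev E Q) :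
    a f v ^ 2 = 1 := by
  have : NeZero (lev E Q) := ⟨lev_ne_zero_of hQ⟩
  apply Fr.inj
  rw [map_pow, ha f v hv, map_one]
  refine Newform.newform_exact hv hvM (fun h => ?_) (hnew f f.2)
  have h1 := (lev_squarefree hQ) v (by rwa [← pow_two])
  exact hv.not_isUnit h1

/-- **Counting**: sufficiently many newforms means the exact number. -/
theorem card_eq (hst : ∀ v, NewformStar v) (hUp : Upper E Q)
    (hQ : ∀ q ∈ Q, q.Prime ∧ ¬ q ∣ E.N) {𝔪 : Ideal (integralClosure ℤ ℂ)}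
    (h𝔪 : 𝔪.IsMaximal) (h2𝔪 : (2 : integralClosure ℤ ℂ) ∈ 𝔪)
    (𝓕 : Finset (CuspForm (CongruenceSubgroup.Gamma0 (lev E Q)) 2))
    (h𝓕 : ∀ f ∈ 𝓕, f.IsNewform ∧ CongE E 𝔪 f) (hcard : 2 ^ Q.card * h2 E.N ≤ 𝓕.card) :
    𝓕.card = 2 ^ Q.card * h2 E.N := by
  obtain ⟨O, i1, i2, i3, i4, i5, i6, h2O, Fr, ρ, a, hρ, ha⟩ := exists_setup hQ h𝔪 h2𝔪 𝓕 h𝓕
  have hM0 : NeZero (lev E Q) := ⟨lev_ne_zero_of hQ⟩
  have hpos : 0 < 𝓕.card := lt_of_lt_of_le (by unfold h2; positivity) hcard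
  obtain ⟨f₁, hf₁⟩ := Finset.card_pos.mp hpos
  have hne : Nonempty 𝓕 := ⟨⟨f₁, hf₁⟩⟩
  let F : Fam E O 𝓕 := famOf h2O hρ ⟨f₁, hf₁⟩
  have hu : ∀ v : ℕ, v.Prime → v ∣ lev E Q →
      (fun f => Ideal.Quotient.mk ⊥ (a f v) : F.Prod) ^ 2 = 1 := by
    intro v hv hvM
    funext f
    change (Ideal.Quotient.mk ⊥ (a f v)) ^ 2 = 1
    rw [← map_pow, coeff_sq hQ ha (fun f hf => (h𝓕 f hf).1) f hv hvM, map_one]
  have hs : ∀ v : ℕ, v.Prime → v ∣ lev E Q → ∀ f, StarAt (F.ρ f) v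
      ((fun f => Ideal.Quotient.mk ⊥ (a f v) : F.Prod) f) := by
    intro v hv hvM f
    refine ((hρ f).star v (hst v) hv hvM (fun h => ?_) (a f v) (ha f v hv)).map _
    exact hv.not_isUnit ((lev_squarefree hQ) v (by rwa [← pow_two]))
  have hunr : ∀ l : ℕ, l.Prime → ¬ l ∣ lev E Q → ∀ f, UnrAt (F.ρ f) l := by
    intro l hl hlM f
    exact ((hρ f).unr l hl hlM).map _
  have hsep : ∀ f f' : 𝓕, f ≠ f' → ∃ g : Γℚ,
      botEquiv (rfl : (⊥ : Ideal O) = ⊥) (F.ρ f g).trace ≠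
        botEquiv (rfl : (⊥ : Ideal O) = ⊥) (F.ρ f' g).trace := by
    intro f f' hff'
    obtain ⟨g, hg⟩ := exists_trace_ne hρ (fun f hf => (h𝓕 f hf).1) hff'
    refine ⟨g, fun h => hg ?_⟩
    have e : ∀ f : 𝓕, botEquiv (rfl : (⊥ : Ideal O) = ⊥) ((F.ρ f) g).trace = (ρ f g).trace := by
      intro f
      change botEquiv rfl (repMap (Ideal.Quotient.mk ⊥) (ρ f) g).trace = _
      rw [repMap_trace, botEquiv_mk]
    exact (e f).symm.trans (h.trans (e f'))
  have h1 := (F.injective_of_card hUp h2O Fr.w Fr.hw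
    (fun v f => Ideal.Quotient.mk ⊥ (a f v)) hu hs hunr (𝓘 := 𝓕) id (fun f => rfl)
    (by rwa [Fintype.card_coe]) hsep).1
  rwa [Fintype.card_coe] at h1

/-- the family with `E` modulo `2 ^ m` -/
noncomputable def famE {I : Type} (F : Fam E O I) (m : ℕ)
    (hm : Ideal.span {(2 : O) ^ m} ≤ maximalIdeal O) (h2 : (2 : ResidueField O) = 0)
    (hε : ∀ (n : ℕ) (σ : Γℚ) (c : ℕ), (∀ μ : AlgebraicClosure ℚ, μ ^ 2 ^ n = 1 → σ μ = μ ^ c) →
      F.ε σ - (c : O) ∈ Ideal.span {((2 ^ n : ℕ) : O)}) : Fam E O (Option I) :=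
  F.cons (Ideal.span {(2 : O) ^ m}) hm (repMap (padicQ O m) E.ρ)
    (by
      intro g
      obtain ⟨c, hc⟩ := exists_cyc m g
      have h3 := E.det m g c hc
      have h4 := hε m g c hc
      push_cast at h3 h4
      have h5 := padicQ_of_mem O h3
      rw [map_sub, map_natCast, sub_eq_zero] at h5
      have h6 := Ideal.Quotient.eq_zero_iff_mem.mpr h4
      rw [map_sub, map_natCast, sub_eq_zero] at h6
      rw [repMap_det, h5, h6])
    (by
      intro g
      rw [repMap_trace, resQ_padicQ O hm h2]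
      rfl)
    (by
      intro n
      refine (E.cont m).map _ ?_
      rw [Ideal.map_span, Set.image_singleton, padicQ_two]
      simp)

omit [Finite (ResidueField O)] [IsAdicComplete (maximalIdeal O) O] in
theorem int_dvd_of_dvd (h2 : (2 : O) ∈ maximalIdeal O) (m : ℕ) (z : ℤ)
    (h : (2 : O) ^ m ∣ (z : O)) : (2 ^ m : ℤ) ∣ z := by
  induction m generalizing z with
  | zero => simp
  | succ m ih =>
    have h1 : (z : O) ∈ maximalIdeal O := by
      obtain ⟨c, hc⟩ := h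
      rw [hc, pow_succ, mul_comm ((2 : O) ^ m), mul_assoc]
      exact Ideal.mul_mem_right _ _ h2
    rcases Int.even_or_odd' z with ⟨y, rfl | rfl⟩
    · rw [pow_succ, mul_comm]
      refine mul_dvd_mul_left 2 (ih y ?_)
      obtain ⟨c, hc⟩ := h
      refine ⟨c, ?_⟩
      apply mul_left_cancel₀ (two_ne_zero (α := O))
      push_cast at hc
      rw [hc]
      ring
    · exfalso
      have h3 : (1 : O) ∈ maximalIdeal O := by
        have h4 : (1 : O) = ((2 * y + 1 : ℤ) : O) - 2 * y := by push_cast; ring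
        rw [h4]
        exact Ideal.sub_mem _ h1 (Ideal.mul_mem_right _ _ h2)
      exact (Ideal.ne_top_iff_one _).mp (maximalIdeal.isMaximal O).ne_top h3

theorem map_aeval_int {A B : Type*} [CommRing A] [CommRing B] (φ : A →+* B)
    (u : Nat.Primes → A) (P : MvPolynomial Nat.Primes ℤ) :
    φ (MvPolynomial.aeval u P) = MvPolynomial.aeval (fun l => φ (u l)) P := by
  induction P using MvPolynomial.induction_on with
  | C z => simp
  | add p q hp hq => rw [map_add, map_add, map_add, hp, hq]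
  | mul_X p i hp => rw [map_mul, map_mul, map_mul, hp, MvPolynomial.aeval_X, MvPolynomial.aeval_X]

/-- **The point `E` modulo `2 ^ m`.** -/
theorem exists_point (hst : ∀ v, NewformStar v) (hUp : Upper E Q) {m : ℕ} (hm0 : m ≠ 0)
    (hQ : ∀ q ∈ Q, IsAux E m q) {𝔪 : Ideal (integralClosure ℤ ℂ)}
    (h𝔪 : 𝔪.IsMaximal) (h2𝔪 : (2 : integralClosure ℤ ℂ) ∈ 𝔪)
    (𝓕 : Finset (CuspForm (CongruenceSubgroup.Gamma0 (lev E Q)) 2))
    (h𝓕 : ∀ f ∈ 𝓕, f.IsNewform ∧ CongE E 𝔪 f) (hcard : 2 ^ Q.card * h2 E.N ≤ 𝓕.card)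
    (P : MvPolynomial Nat.Primes ℤ)
    (hP : ∀ f ∈ 𝓕, MvPolynomial.aeval (fun l : Nat.Primes => qCoeff f l) P = 0) :
    (2 ^ m : ℤ) ∣ MvPolynomial.aeval (tE E Q) P := by
  classical
  have hQ' : ∀ q ∈ Q, q.Prime ∧ ¬ q ∣ E.N := fun q hq => ⟨(hQ q hq).prime, (hQ q hq).not_dvd⟩
  obtain ⟨O, i1, i2, i3, i4, i5, i6, h2O, Fr, ρ, a, hρ, ha⟩ := exists_setup hQ' h𝔪 h2𝔪 𝓕 h𝓕
  have hM0 : NeZero (lev E Q) := ⟨lev_ne_zero_of hQ'⟩
  have hpos : 0 < 𝓕.card := lt_of_lt_of_le (by unfold h2; positivity) hcard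
  obtain ⟨f₁, hf₁⟩ := Finset.card_pos.mp hpos
  have h2k : (2 : ResidueField O) = 0 := by
    have := (residue_eq_zero_iff (2 : O)).mpr h2O
    rwa [map_ofNat] at this
  have hm : Ideal.span {(2 : O) ^ m} ≤ maximalIdeal O := by
    rw [Ideal.span_singleton_le_iff_mem]
    exact Ideal.pow_mem_of_mem _ h2O m (Nat.pos_of_ne_zero hm0)
  let F : Fam E O (Option 𝓕) := famE (famOf h2O hρ ⟨f₁, hf₁⟩) m hm h2k (hρ ⟨f₁, hf₁⟩).det
  let u : ℕ → F.Prod := fun v o => match o with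
    | none => Ideal.Quotient.mk (Ideal.span {(2 : O) ^ m}) (((if v ∈ Q then 1 else E.a v : ℤ)) : O)
    | some f => Ideal.Quotient.mk ⊥ (a f v)
  have hnv : ∀ v : ℕ, v.Prime → v ∣ lev E Q → ¬ v ^ 2 ∣ lev E Q := fun v hv _ h =>
    hv.not_isUnit ((lev_squarefree hQ') v (by rwa [← pow_two]))
  have hu : ∀ v : ℕ, v.Prime → v ∣ lev E Q → u v ^ 2 = 1 := by
    intro v hv hvM
    funext o
    match o with
    | none =>
      change (Ideal.Quotient.mk (Ideal.span {(2 : O) ^ m})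
        (((if v ∈ Q then 1 else E.a v : ℤ)) : O)) ^ 2 = 1
      rw [← map_pow, ← Int.cast_pow]
      have h3 : (if v ∈ Q then 1 else E.a v : ℤ) ^ 2 = 1 := by
        split_ifs with h4
        · norm_num
        · have h5 := ((prime_dvd_lev (fun q hq => (hQ' q hq).1) hv).mp hvM).resolve_right h4
          rcases E.sign v hv h5 with h6 | h6 <;> rw [h6] <;> norm_num
      rw [h3, Int.cast_one, map_one]
    | some f =>
      change (Ideal.Quotient.mk ⊥ (a f v)) ^ 2 = 1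
      rw [← map_pow, coeff_sq hQ' ha (fun f hf => (h𝓕 f hf).1) f hv hvM, map_one]
  have hs : ∀ v : ℕ, v.Prime → v ∣ lev E Q → ∀ o, StarAt (F.ρ o) v (u v o) := by
    intro v hv hvM o
    match o with
    | none =>
      change StarAt (repMap (padicQ O m) E.ρ) v (Ideal.Quotient.mk (Ideal.span {(2 : O) ^ m})
        (((if v ∈ Q then 1 else E.a v : ℤ)) : O))
      rw [map_intCast]
      split_ifs with h4
      · rw [Int.cast_one]
        exact starAt_one_aux (hQ v h4) _ (padicQ_two O m)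
      · have h5 := ((prime_dvd_lev (fun q hq => (hQ' q hq).1) hv).mp hvM).resolve_right h4
        have h6 := (E.star v hv h5).map (padicQ O m)
        rwa [map_intCast] at h6
    | some f =>
      exact ((hρ f).star v (hst v) hv hvM (hnv v hv hvM) (a f v) (ha f v hv)).map _
  have hunr : ∀ l : ℕ, l.Prime → ¬ l ∣ lev E Q → ∀ o, UnrAt (F.ρ o) l := by
    intro l hl hlM o
    match o with
    | none => exact (E.unr l hl (fun h => hlM (h.trans (Dvd.intro _ rfl)))).map _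
    | some f => exact ((hρ f).unr l hl hlM).map _
  have hsep : ∀ f f' : 𝓕, f ≠ f' → ∃ g : Γℚ,
      botEquiv (rfl : (⊥ : Ideal O) = ⊥) (F.ρ (some f) g).trace ≠
        botEquiv (rfl : (⊥ : Ideal O) = ⊥) (F.ρ (some f') g).trace := by
    intro f f' hff'
    obtain ⟨g, hg⟩ := exists_trace_ne hρ (fun f hf => (h𝓕 f hf).1) hff'
    refine ⟨g, fun h => hg ?_⟩
    have e : ∀ f : 𝓕, botEquiv (rfl : (⊥ : Ideal O) = ⊥) ((F.ρ (some f)) g).trace =
        (ρ f g).trace := by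
      intro f
      change botEquiv rfl (repMap (Ideal.Quotient.mk ⊥) (ρ f) g).trace = _
      rw [repMap_trace, botEquiv_mk]
    exact (e f).symm.trans (h.trans (e f'))
  have h1 := (F.injective_of_card hUp h2O Fr.w Fr.hw u hu hs hunr (𝓘 := 𝓕) some (fun f => rfl)
    (by rwa [Fintype.card_coe]) hsep).2
  -- the eigenvalues are in the algebra
  set T := F.alg {x | ∃ v : ℕ, v.Prime ∧ v ∣ lev E Q ∧ x = u v} with hT
  have huT : ∀ l : Nat.Primes, u l ∈ T := by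
    intro l
    by_cases hl : (l : ℕ) ∣ lev E Q
    · exact F.mem_alg_of_mem ⟨l, l.2, hl, rfl⟩
    · obtain ⟨Pl, hPl, σ, hσ⟩ := exists_place_frob l.2
      have h3 : u l = F.trace σ := by
        funext o
        match o with
        | none =>
          change Ideal.Quotient.mk (Ideal.span {(2 : O) ^ m})
            (((if (l : ℕ) ∈ Q then 1 else E.a l : ℤ)) : O) =
              (repMap (padicQ O m) E.ρ σ).trace
          have h4 : (l : ℕ) ∉ Q := fun h =>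
            hl ((prime_dvd_lev (fun q hq => (hQ' q hq).1) l.2).mpr (Or.inr h))
          have h5 : ¬ (l : ℕ) ∣ E.N := fun h =>
            hl ((prime_dvd_lev (fun q hq => (hQ' q hq).1) l.2).mpr (Or.inl h))
          rw [if_neg h4, map_intCast, repMap_trace, E.frob l l.2 h5 Pl hPl σ hσ, map_intCast]
        | some f =>
          change Ideal.Quotient.mk ⊥ (a f l) = (repMap (Ideal.Quotient.mk ⊥) (ρ f) σ).trace
          rw [repMap_trace]
          congr 1
          apply Fr.inj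
          rw [ha f l l.2, (hρ f).frob l l.2 hl Pl hPl σ hσ]
      rw [h3]
      exact F.trace_mem_alg _ σ
  have hPT : ∀ P' : MvPolynomial Nat.Primes ℤ,
      MvPolynomial.aeval (fun l : Nat.Primes => u l) P' ∈ T := by
    intro P'
    induction P' using MvPolynomial.induction_on with
    | C z =>
      rw [MvPolynomial.aeval_C]
      exact intCast_mem T z
    | add p q hp hq => rw [map_add]; exact T.add_mem hp hq
    | mul_X p i hp => rw [map_mul, MvPolynomial.aeval_X]; exact T.mul_mem hp (huT i)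
  have h3 := h1 _ (hPT P) (by
    intro f
    have h4 := map_aeval_int (Pi.evalRingHom (fun i => O ⧸ F.J i) (some f))
      (fun l : Nat.Primes => u l) P
    change MvPolynomial.aeval (fun l : Nat.Primes => u l) P (some f) = _ at h4
    rw [h4]
    have h5 := map_aeval_int (Ideal.Quotient.mk (⊥ : Ideal O)) (fun l : Nat.Primes => a f l) P
    refine Eq.trans h5.symm ?_
    have h6 : MvPolynomial.aeval (fun l : Nat.Primes => a f l) P = 0 := by
      apply Fr.inj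
      rw [map_aeval_int, map_zero, ← hP f f.2]
      congr 2
      funext l
      exact ha f l l.2
    rw [h6]
    exact map_zero _)
  have h4 := map_aeval_int (Pi.evalRingHom (fun i => O ⧸ F.J i) none)
    (fun l : Nat.Primes => u l) P
  have h4' : (MvPolynomial.aeval (fun l : Nat.Primes => u l) P : F.Prod) none = 0 :=
    congrFun h3 none
  have h5 := map_aeval_int ((Ideal.Quotient.mk (Ideal.span {(2 : O) ^ m})).comp
    (Int.castRingHom O)) (tE E Q) P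
  have h6 : ((Ideal.Quotient.mk (Ideal.span {(2 : O) ^ m})).comp
    (Int.castRingHom O)) (MvPolynomial.aeval (tE E Q) P) = 0 := h5.trans (h4.symm.trans h4')
  rw [RingHom.comp_apply, Ideal.Quotient.eq_zero_iff_mem, Ideal.mem_span_singleton] at h6
  exact int_dvd_of_dvd h2O m _ h6

end Setup

/-- **Block F.** -/
theorem blockF (hst : ∀ v, NewformStar v) : BlockF := by
  classical
  intro E Q m hQ hUp hR 𝔪 h𝔪 h2𝔪
  have hQ' : ∀ q ∈ Q, q.Prime ∧ ¬ q ∣ E.N := fun q hq => ⟨(hQ q hq).prime, (hQ q hq).not_dvd⟩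
  obtain ⟨𝓕, h𝓕, hcard⟩ := hR 𝔪 h𝔪 h2𝔪
  have h1 := card_eq hst hUp hQ' h𝔪 h2𝔪 𝓕 h𝓕 hcard
  refine ⟨𝓕, h𝓕, h1, ?_, ?_⟩
  · intro f hf hfE
    by_contra hcon
    have h3 := card_eq hst hUp hQ' h𝔪 h2𝔪 (insert f 𝓕) (by
      intro g hg
      rcases Finset.mem_insert.mp hg with rfl | hg
      · exact ⟨hf, hfE⟩
      · exact h𝓕 g hg) (hcard.trans (Finset.card_le_card (Finset.subset_insert f 𝓕)))
    rw [Finset.card_insert_of_notMem hcon, h1] at h3
    omega
  · intro P hP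
    rcases Nat.eq_zero_or_pos m with rfl | hm
    · simp
    · exact exists_point hst hUp hm.ne' hQ h𝔪 h2𝔪 𝓕 h𝓕 hcard P hP

end Fermat.Agent.TwoAdic
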