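import Fermat.Agent.TwoAdic.Resid
import Fermat.Agent.ChebFull.Places

/-!
# Congruences of traces by Chebotarev's theorem
-/

set_option autoImplicit false

open IsLocalRing Polynomial

namespace Fermat.Agent.TwoAdic

local notation "Γℚ" => (AlgebraicClosure ℚ ≃ₐ[ℚ] AlgebraicClosure ℚ)

section Level

variable {R : Type*} [CommRing R]

theorem ContAt.level {ρ : Γℚ →* Matrix (Fin 2) (Fin 2) R} {I : Ideal R} (h : ContAt I ρ) :
    ∃ L : IntermediateField ℚ (AlgebraicClosure ℚ), FiniteDimensional ℚ L ∧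
      ∀ σ τ : Γℚ, (∀ x ∈ L, σ x = τ x) → ∀ i j, ρ σ i j - ρ τ i j ∈ I := by
  obtain ⟨L, hL, h1⟩ := h
  refine ⟨L, hL, fun σ τ hστ i j => ?_⟩
  have h2 : ∀ x ∈ L, (τ⁻¹ * σ) x = x := by
    intro x hx
    rw [AlgEquiv.mul_apply, hστ x hx]
    exact AlgEquiv.symm_apply_apply τ x
  have h3 : ρ σ i j - ρ τ i j = (ρ τ * (ρ (τ⁻¹ * σ) - 1)) i j := by
    rw [mul_sub, mul_one, ← map_mul, mul_inv_cancel_left, Matrix.sub_apply]
  rw [h3, Matrix.mul_apply]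
  exact Ideal.sum_mem _ fun a _ => Ideal.mul_mem_left _ _ (h1 _ h2 a j)

theorem ContAt.level_trace {ρ : Γℚ →* Matrix (Fin 2) (Fin 2) R} {I : Ideal R} (h : ContAt I ρ) :
    ∃ L : IntermediateField ℚ (AlgebraicClosure ℚ), FiniteDimensional ℚ L ∧
      ∀ σ τ : Γℚ, (∀ x ∈ L, σ x = τ x) → (ρ σ).trace - (ρ τ).trace ∈ I := by
  obtain ⟨L, hL, h1⟩ := h.level
  refine ⟨L, hL, fun σ τ hστ => ?_⟩
  have h2 : (ρ σ).trace - (ρ τ).trace = (ρ σ 0 0 - ρ τ 0 0) + (ρ σ 1 1 - ρ τ 1 1) := by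
    rw [Matrix.trace_fin_two, Matrix.trace_fin_two]; ring
  rw [h2]
  exact I.add_mem (h1 σ τ hστ _ _) (h1 σ τ hστ _ _)

end Level

variable (E : EData)

/-- `trE` at Frobenius elements -/
theorem trE_frob {k : Type*} [CommRing k] (h2 : (2 : k) = 0) {l : ℕ} (hl : l.Prime)
    (hlN : ¬ l ∣ E.N) {P : ValuationSubring (AlgebraicClosure ℚ)} (hP : P.LiesOverPrime l)
    {σ : Γℚ} (hσ : P.IsFrobeniusAt σ l) : trE E k σ = (E.a l : k) := by
  rw [trE, E.frob l hl hlN P hP σ hσ, map_intCast]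
  have h1 : (((((E.a l : ℤ) : ZMod 2).val : ℕ) : ℤ) : ZMod 2) = ((E.a l : ℤ) : ZMod 2) := by
    rw [Int.cast_natCast, ZMod.natCast_val, ZMod.cast_id]
  rw [ZMod.intCast_eq_intCast_iff_dvd_sub] at h1
  obtain ⟨c, hc⟩ := h1
  have h3 : E.a l = (((E.a l : ℤ) : ZMod 2).val : ℕ) + 2 * c := by
    have : ((2 : ℕ) : ℤ) = 2 := rfl
    rw [this] at hc
    linarith
  conv_rhs => rw [h3]
  push_cast
  rw [h2, zero_mul, add_zero]

theorem trE_level (k : Type*) [CommRing k] :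
    ∃ L : IntermediateField ℚ (AlgebraicClosure ℚ), FiniteDimensional ℚ L ∧
      ∀ σ τ : Γℚ, (∀ x ∈ L, σ x = τ x) → trE E k σ = trE E k τ := by
  obtain ⟨L, hL, h1⟩ := (E.cont 1).level_trace
  refine ⟨L, hL, fun σ τ hστ => ?_⟩
  have h2 := h1 σ τ hστ
  rw [pow_one] at h2
  have h3 : PadicInt.toZMod (p := 2) (E.ρ σ).trace = PadicInt.toZMod (p := 2) (E.ρ τ).trace := by
    rw [← sub_eq_zero, ← map_sub, ← RingHom.mem_ker, PadicInt.ker_toZMod,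
      PadicInt.maximalIdeal_eq_span_p]
    exact h2
  rw [trE, trE, h3]

/-- **Congruence of traces.** -/
theorem residue_trace_eq {O : Type*} [CommRing O] [IsLocalRing O]
    (h2 : (2 : O) ∈ maximalIdeal O) {ρ : Γℚ →* Matrix (Fin 2) (Fin 2) O}
    (hcont : ContAt (maximalIdeal O) ρ) (S : Finset ℕ) (hS : ∀ l : ℕ, l.Prime → l ∣ E.N → l ∈ S)
    (hfrob : ∀ l : ℕ, l.Prime → l ∉ S → ∀ P : ValuationSubring (AlgebraicClosure ℚ),
      P.LiesOverPrime l → ∀ σ : Γℚ, P.IsFrobeniusAt σ l →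
      residue O (ρ σ).trace = (E.a l : ResidueField O)) (g : Γℚ) :
    residue O (ρ g).trace = trE E (ResidueField O) g := by
  have h2' : (2 : ResidueField O) = 0 := by
    have := (residue_eq_zero_iff (2 : O)).mpr h2
    rwa [map_ofNat] at this
  obtain ⟨L₁, hL₁, h1⟩ := hcont.level_trace
  obtain ⟨L₂, hL₂, h3⟩ := trE_level E (ResidueField O)
  obtain ⟨l, hl, hlS, -, P, hP, φ, hφ, h4⟩ := ChebFull.exists_frobenius_eq (L₁ ⊔ L₂) g S
  have h5 := h1 φ g (fun x hx => h4 x ((le_sup_left : L₁ ≤ L₁ ⊔ L₂) hx))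
  have h6 := h3 φ g (fun x hx => h4 x ((le_sup_right : L₂ ≤ L₁ ⊔ L₂) hx))
  rw [← h6, trE_frob E h2' hl (fun h => hlS (hS l hl h)) hP hφ, ← hfrob l hl hlS P hP φ hφ,
    eq_comm, ← sub_eq_zero, ← map_sub]
  exact (residue_eq_zero_iff _).mpr h5

end Fermat.Agent.TwoAdic
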