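import Fermat.Agent.TwoAdic.Hesse

set_option autoImplicit false

/-!
# Regions where the discriminant form is positive / negative
-/

namespace Fermat.Agent.TwoAdic

theorem hD_pos_of {c4 c6 l m : ℤ} (hm : 0 ≤ m) (hml : m ≤ l)
    (h : 2 * (6 * |c4| + 8 * |c6| + 3 * c4^2) * m ≤ l) : l^4 ≤ 2 * hD c4 c6 l m := by
  have hl : 0 ≤ l := hm.trans hml
  have hlm : 0 ≤ l^2 * m := by positivity
  have e1 : c4 * (l^2 * m^2) ≤ |c4| * (l^3 * m) := by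
    calc c4 * (l^2 * m^2) ≤ |c4| * (l^2 * m^2) := by
          gcongr; exact le_abs_self _
      _ = |c4| * (l^2 * m * m) := by ring
      _ ≤ |c4| * (l^2 * m * l) := by gcongr
      _ = _ := by ring
  have e2 : c6 * (l * m^3) ≤ |c6| * (l^3 * m) := by
    calc c6 * (l * m^3) ≤ |c6| * (l * m^3) := by
          gcongr; exact le_abs_self _
      _ = |c6| * (l * m * (m * m)) := by ring
      _ ≤ |c6| * (l * m * (l * l)) := by gcongr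
      _ = _ := by ring
  have e3 : c4^2 * m^4 ≤ c4^2 * (l^3 * m) := by
    calc c4^2 * m^4 = c4^2 * (m * m * m * m) := by ring
      _ ≤ c4^2 * (l * l * l * m) := by gcongr
      _ = _ := by ring
  have e4 : (2 * (6 * |c4| + 8 * |c6| + 3 * c4^2) * m) * l^3 ≤ l * l^3 := by gcongr
  unfold hD
  linarith

theorem hD_neg_of {c4 c6 l m : ℤ} (hc4 : c4 ≠ 0) (hl : 0 ≤ l) (hml : l ≤ m)
    (h : (1 + 6 * |c4| + 8 * |c6|) * l ≤ m) : m^4 ≤ 2 * -hD c4 c6 l m := by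
  have hm : 0 ≤ m := hl.trans hml
  have e0 : l^4 ≤ l * m^3 := by
    calc l^4 = l * (l * l * l) := by ring
      _ ≤ l * (m * m * m) := by gcongr
      _ = _ := by ring
  have e1 : -c4 * (l^2 * m^2) ≤ |c4| * (l * m^3) := by
    calc -c4 * (l^2 * m^2) ≤ |c4| * (l^2 * m^2) := by
          gcongr; exact neg_le_abs _
      _ = |c4| * (l * m^2 * l) := by ring
      _ ≤ |c4| * (l * m^2 * m) := by gcongr
      _ = _ := by ring
  have e2 : -c6 * (l * m^3) ≤ |c6| * (l * m^3) := by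
    gcongr; exact neg_le_abs _
  have e3 : 1 * m^4 ≤ c4^2 * m^4 := by
    have : 1 ≤ c4^2 := by
      have := sq_pos_of_ne_zero hc4
      omega
    gcongr
  have e4 : ((1 + 6 * |c4| + 8 * |c6|) * l) * m^3 ≤ m * m^3 := by gcongr
  have e5 : 0 ≤ m^4 := by positivity
  unfold hD
  linarith

theorem region_pos (c4 c6 : ℤ) {W a b : ℤ} (hW : 0 < W) (ha : 0 ≤ a) (hb : 0 ≤ b) :
    ∃ A B X₀ : ℕ, ∀ X : ℕ, X₀ ≤ X → ∀ s < X, ∀ t < X,
      ∃ T : ℤ, (X : ℤ) ≤ T ∧ |a + W * (A * X + s : ℕ)| ≤ T ∧ |b + W * (B * X + t : ℕ)| ≤ T ∧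
        T^4 ≤ 2 * hD c4 c6 (a + W * (A * X + s : ℕ)) (b + W * (B * X + t : ℕ)) := by
  obtain ⟨E, hE⟩ : ∃ E : ℕ, (E : ℤ) = 6 * |c4| + 8 * |c6| + 3 * c4^2 := by
    refine ⟨(6 * |c4| + 8 * |c6| + 3 * c4^2).toNat, Int.toNat_of_nonneg (by positivity)⟩
  refine ⟨2 * (2 * E + 1), 0, b.toNat, fun X hX s hs t ht => ?_⟩
  have hbX : b ≤ X := by omega
  have hX0 : (0 : ℤ) ≤ X := Int.natCast_nonneg _
  have hX1 : (1 : ℤ) ≤ X := by
    have : 1 ≤ X := by omega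
    exact_mod_cast this
  have ht' : (t : ℤ) ≤ X := by exact_mod_cast ht.le
  have hWX : (X : ℤ) ≤ W * X := by nlinarith
  obtain ⟨l, hl⟩ : ∃ l : ℤ, l = a + W * ((2 * (2 * E + 1) * X + s : ℕ) : ℤ) := ⟨_, rfl⟩
  obtain ⟨m, hm⟩ : ∃ m : ℤ, m = b + W * ((0 * X + t : ℕ) : ℤ) := ⟨_, rfl⟩
  rw [← hl, ← hm]
  push_cast at hl hm
  have hm0 : 0 ≤ m := by rw [hm]; positivity
  have hm1 : m ≤ 2 * (W * X) := by
    rw [hm]
    have : W * (t : ℤ) ≤ W * X := by gcongr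
    linarith
  have hl1 : (2 * E + 1) * (2 * (W * X)) ≤ l := by
    rw [hl]
    have : 0 ≤ W * (s : ℤ) := by positivity
    linarith
  have hE0 : (0 : ℤ) ≤ E := Int.natCast_nonneg _
  have hl2 : (2 * (E : ℤ) + 1) * m ≤ l := by
    calc (2 * (E : ℤ) + 1) * m ≤ (2 * E + 1) * (2 * (W * X)) := by gcongr
      _ ≤ l := hl1
  have hEm : 0 ≤ 2 * (E : ℤ) * m := by positivity
  have hml : m ≤ l := by linarith
  have hEWX : 0 ≤ (E : ℤ) * (W * X) := by positivity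
  refine ⟨l, by linarith, ?_, ?_, ?_⟩
  · rw [abs_of_nonneg (hm0.trans hml)]
  · rw [abs_of_nonneg hm0]; exact hml
  · apply hD_pos_of hm0 hml
    rw [← hE]
    linarith

theorem region_neg {c4 : ℤ} (c6 : ℤ) (hc4 : c4 ≠ 0) {W a b : ℤ} (hW : 0 < W) (ha : 0 ≤ a)
    (hb : 0 ≤ b) :
    ∃ A B X₀ : ℕ, ∀ X : ℕ, X₀ ≤ X → ∀ s < X, ∀ t < X,
      ∃ T : ℤ, (X : ℤ) ≤ T ∧ |a + W * (A * X + s : ℕ)| ≤ T ∧ |b + W * (B * X + t : ℕ)| ≤ T ∧
        T^4 ≤ 2 * -hD c4 c6 (a + W * (A * X + s : ℕ)) (b + W * (B * X + t : ℕ)) := by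
  obtain ⟨E, hE⟩ : ∃ E : ℕ, (E : ℤ) = 6 * |c4| + 8 * |c6| := by
    refine ⟨(6 * |c4| + 8 * |c6|).toNat, Int.toNat_of_nonneg (by positivity)⟩
  refine ⟨0, 2 * (E + 1), a.toNat, fun X hX s hs t ht => ?_⟩
  have haX : a ≤ X := by omega
  have hX0 : (0 : ℤ) ≤ X := Int.natCast_nonneg _
  have hX1 : (1 : ℤ) ≤ X := by
    have : 1 ≤ X := by omega
    exact_mod_cast this
  have hs' : (s : ℤ) ≤ X := by exact_mod_cast hs.le
  have hWX : (X : ℤ) ≤ W * X := by nlinarith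
  obtain ⟨l, hl⟩ : ∃ l : ℤ, l = a + W * ((0 * X + s : ℕ) : ℤ) := ⟨_, rfl⟩
  obtain ⟨m, hm⟩ : ∃ m : ℤ, m = b + W * ((2 * (E + 1) * X + t : ℕ) : ℤ) := ⟨_, rfl⟩
  rw [← hl, ← hm]
  push_cast at hl hm
  have hl0 : 0 ≤ l := by rw [hl]; positivity
  have hl1 : l ≤ 2 * (W * X) := by
    rw [hl]
    have : W * (s : ℤ) ≤ W * X := by gcongr
    linarith
  have hm1 : ((E : ℤ) + 1) * (2 * (W * X)) ≤ m := by
    rw [hm]
    have : 0 ≤ W * (t : ℤ) := by positivity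
    linarith
  have hE0 : (0 : ℤ) ≤ E := Int.natCast_nonneg _
  have hm2 : ((E : ℤ) + 1) * l ≤ m := by
    calc ((E : ℤ) + 1) * l ≤ (E + 1) * (2 * (W * X)) := by gcongr
      _ ≤ m := hm1
  have hEl : 0 ≤ (E : ℤ) * l := by positivity
  have hlm : l ≤ m := by linarith
  have hEWX : 0 ≤ (E : ℤ) * (W * X) := by positivity
  refine ⟨m, by linarith, ?_, ?_, ?_⟩
  · rw [abs_of_nonneg hl0]; exact hlm
  · rw [abs_of_nonneg (hl0.trans hlm)]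
  · apply hD_neg_of hc4 hl0 hlm
    have : 1 + 6 * |c4| + 8 * |c6| = E + 1 := by rw [hE]; ring
    rw [this]
    exact hm2

/-- bound for the covariant of degree 4 -/
theorem abs_hC4_le (c4 c6 : ℤ) : ∃ K : ℕ, ∀ l m T : ℤ, |l| ≤ T → |m| ≤ T →
    |hC4 c4 c6 l m| ≤ K * T^4 := by
  refine ⟨(|c4| + 4 * |c6| + 6 * c4^2 + 4 * |c4*c6| + |3*c4^3 - 4*c6^2|).toNat,
    fun l m T hl hm => ?_⟩
  rw [Int.toNat_of_nonneg (by positivity)]
  have hT : 0 ≤ T := (abs_nonneg _).trans hl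
  have e1 : |c4*l^4| ≤ |c4| * T^4 := by
    rw [abs_mul, abs_pow]; gcongr
  have e2 : |4*c6*l^3*m| ≤ 4 * |c6| * T^4 := by
    rw [abs_mul, abs_mul, abs_mul, abs_pow]
    calc |4| * |c6| * |l|^3 * |m| ≤ 4 * |c6| * T^3 * T := by
          rw [show |(4 : ℤ)| = 4 from rfl]; gcongr
      _ = _ := by ring
  have e3 : |6*c4^2*l^2*m^2| ≤ 6 * c4^2 * T^4 := by
    rw [abs_mul, abs_mul, abs_mul, abs_pow, abs_pow, abs_pow, sq_abs c4]
    calc |6| * c4^2 * |l|^2 * |m|^2 ≤ 6 * c4^2 * T^2 * T^2 := by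
          rw [show |(6 : ℤ)| = 6 from rfl]; gcongr
      _ = _ := by ring
  have e4 : |4*c4*c6*l*m^3| ≤ 4 * |c4*c6| * T^4 := by
    have : 4*c4*c6*l*m^3 = 4*(c4*c6)*l*m^3 := by ring
    rw [this, abs_mul, abs_mul, abs_mul, abs_pow]
    calc |4| * |c4*c6| * |l| * |m|^3 ≤ 4 * |c4*c6| * T * T^3 := by
          rw [show |(4 : ℤ)| = 4 from rfl]; gcongr
      _ = _ := by ring
  have e5 : |(3*c4^3 - 4*c6^2)*m^4| ≤ |3*c4^3 - 4*c6^2| * T^4 := by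
    rw [abs_mul, abs_pow]; gcongr
  calc |hC4 c4 c6 l m| ≤ |c4*l^4 + 4*c6*l^3*m + 6*c4^2*l^2*m^2 + 4*c4*c6*l*m^3| +
        |(3*c4^3 - 4*c6^2)*m^4| := abs_sub _ _
    _ ≤ |c4*l^4| + |4*c6*l^3*m| + |6*c4^2*l^2*m^2| + |4*c4*c6*l*m^3| +
        |(3*c4^3 - 4*c6^2)*m^4| := by
        gcongr
        refine (abs_add_le _ _).trans ?_
        gcongr
        refine (abs_add_le _ _).trans ?_
        gcongr
        exact abs_add_le _ _
    _ ≤ |c4| * T^4 + 4 * |c6| * T^4 + 6 * c4^2 * T^4 + 4 * |c4*c6| * T^4 +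
        |3*c4^3 - 4*c6^2| * T^4 := by gcongr
    _ = _ := by ring

end Fermat.Agent.TwoAdic
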