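import Fermat.Agent.TwoAdic.SieveLocal

set_option autoImplicit false

/-!
# The squarefree sieve for the discriminant form
-/

namespace Fermat.Agent.TwoAdic

variable {c4 c6 : ℤ}

theorem primeCount_le (K : ℕ) : ∃ N₀ : ℕ, ∀ n ≥ N₀,
    K * ((Finset.range (n + 1)).filter Nat.Prime).card ≤ n := by
  have h1 := Chebyshev.eventually_primeCounting_le (ε := 1) one_pos
  have h2 : ∀ᶠ x : ℝ in Filter.atTop, K * (Real.log 4 + 1) ≤ Real.log x :=
    Real.tendsto_log_atTop.eventually_ge_atTop _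
  have h3 : ∀ᶠ x : ℝ in Filter.atTop, (2 : ℝ) ≤ x := Filter.eventually_ge_atTop 2
  obtain ⟨x₀, hx₀⟩ := Filter.eventually_atTop.mp ((h1.and h2).and h3)
  refine ⟨⌈x₀⌉₊, fun n hn => ?_⟩
  have hn' : x₀ ≤ (n : ℝ) := (Nat.le_ceil x₀).trans (by exact_mod_cast hn)
  obtain ⟨⟨k1, k2⟩, k3⟩ := hx₀ n hn'
  rw [Nat.floor_natCast] at k1
  have hcard : ((Finset.range (n + 1)).filter Nat.Prime).card = Nat.primeCounting n := by
    rw [Nat.primeCounting_eq_primeCounting'_succ, ← Nat.primesBelow_card_eq_primeCounting']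
    rfl
  rw [hcard]
  have hlog : 0 < Real.log n := Real.log_pos (by linarith)
  have k4 : (K : ℝ) * Nat.primeCounting n ≤ n := by
    calc (K : ℝ) * Nat.primeCounting n ≤ K * ((Real.log 4 + 1) * n / Real.log n) := by
          gcongr
      _ = (K * (Real.log 4 + 1)) * n / Real.log n := by ring
      _ ≤ Real.log n * n / Real.log n := by
          gcongr
      _ = n := by field_simp
  exact_mod_cast k4

theorem card_large {W a b B : ℤ} {X q : ℕ} (hq : q.Prime) (hq6 : ¬ q ∣ 6)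
    (hd : ¬ (q : ℤ) ∣ c4^3 - c6^2) (hW : ¬ (q : ℤ) ∣ W) (hM0 : ∀ t < X, 0 ≤ b + W * (t : ℕ))
    (hL : ∀ s < X, |a + W * (s : ℕ)| ≤ B) (hM : ∀ t < X, |b + W * (t : ℕ)| ≤ B)
    (hB : 2 * B^2 < (q : ℤ)^2) :
    ((badSet c4 c6 W a b X q).filter fun p =>
      IsCoprime (a + W * (p.1 : ℤ)) (b + W * (p.2 : ℤ))).card ≤ 4 := by
  classical
  have hne : NeZero (q^2) := ⟨pow_ne_zero _ hq.ne_zero⟩
  have hqp : Prime (q : ℤ) := Nat.prime_iff_prime_int.mp hq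
  have hW0 : W ≠ 0 := by
    rintro rfl
    exact hW (dvd_zero _)
  set S := ((badSet c4 c6 W a b X q).filter fun p =>
      IsCoprime (a + W * (p.1 : ℤ)) (b + W * (p.2 : ℤ))) with hS
  have key : ∀ p ∈ S, p.1 < X ∧ p.2 < X ∧ IsCoprime (a + W * (p.1 : ℤ)) (b + W * (p.2 : ℤ)) ∧
      ¬ (q : ℤ) ∣ b + W * (p.2 : ℤ) ∧ ∃ ρ ∈ rts c4 c6 (q^2),
        ((a + W * (p.1 : ℤ) : ℤ) : ZMod (q^2)) = ρ * ((b + W * (p.2 : ℤ) : ℤ) : ZMod (q^2)) := by
    intro p hp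
    simp only [hS, badSet, Finset.mem_filter, Finset.mem_product, Finset.mem_range] at hp
    obtain ⟨⟨⟨hs, ht⟩, hdvd⟩, hcop⟩ := hp
    have hm : ¬ (q : ℤ) ∣ b + W * (p.2 : ℤ) := by
      intro hm
      have h1 : (q : ℤ) ∣ hD c4 c6 (a + W * p.1) (b + W * p.2) :=
        dvd_trans (by exact_mod_cast dvd_pow_self q two_ne_zero) hdvd
      have h2 : (q : ℤ) ∣ (a + W * p.1)^4 := by
        have : (a + W * p.1)^4 = hD c4 c6 (a + W * p.1) (b + W * p.2) + (b + W * p.2) *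
            (6*c4*(a + W * p.1)^2*(b + W * p.2) + 8*c6*(a + W * p.1)*(b + W * p.2)^2 +
              3*c4^2*(b + W * p.2)^3) := by
          unfold hD; ring
        rw [this]
        exact dvd_add h1 (Dvd.dvd.mul_right hm _)
      exact hqp.not_isUnit (hcop.isUnit_of_dvd' (hqp.dvd_of_dvd_pow h2) hm)
    exact ⟨hs, ht, hcop, hm, exists_root_sq hq hm hdvd⟩
  let f : ℕ × ℕ → ZMod (q^2) := fun p => if h : p ∈ S then (key p h).2.2.2.2.choose else 0
  have hf : ∀ p (hp : p ∈ S), f p ∈ rts c4 c6 (q^2) ∧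
      ((a + W * (p.1 : ℤ) : ℤ) : ZMod (q^2)) = f p * ((b + W * (p.2 : ℤ) : ℤ) : ZMod (q^2)) := by
    intro p hp
    have : f p = (key p hp).2.2.2.2.choose := dif_pos hp
    rw [this]
    exact (key p hp).2.2.2.2.choose_spec
  refine (Finset.card_le_card_of_injOn f (fun p hp => (hf p hp).1) ?_).trans (card_rts hq hq6 hd)
  intro p hp p' hp' hff
  obtain ⟨k1, k2, k3, k4, -⟩ := key p hp
  obtain ⟨k1', k2', k3', k4', -⟩ := key p' hp'
  obtain ⟨-, e⟩ := hf p hp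
  obtain ⟨-, e'⟩ := hf p' hp'
  obtain ⟨L, hLL⟩ : ∃ L, L = a + W * (p.1 : ℤ) := ⟨_, rfl⟩
  obtain ⟨M, hMM⟩ : ∃ M, M = b + W * (p.2 : ℤ) := ⟨_, rfl⟩
  obtain ⟨L', hLL'⟩ : ∃ L', L' = a + W * (p'.1 : ℤ) := ⟨_, rfl⟩
  obtain ⟨M', hMM'⟩ : ∃ M', M' = b + W * (p'.2 : ℤ) := ⟨_, rfl⟩
  have bL := hL _ k1
  have bM := hM _ k2
  have bL' := hL _ k1'
  have bM' := hM _ k2'
  have pM := hM0 _ k2
  have pM' := hM0 _ k2'
  rw [← hLL] at bL e k3
  rw [← hMM] at bM e k3 k4 pM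
  rw [← hLL'] at bL' e' k3'
  rw [← hMM'] at bM' e' k3' k4' pM'
  rw [← hff] at e'
  have h1 : ((q^2 : ℕ) : ℤ) ∣ L * M' - L' * M := by
    rw [← ZMod.intCast_zmod_eq_zero_iff_dvd]
    push_cast
    rw [e, e']
    ring
  have hB0 : 0 ≤ B := (abs_nonneg _).trans bL
  have h2 : |L * M' - L' * M| < (q : ℤ)^2 := by
    calc |L * M' - L' * M| ≤ |L * M'| + |L' * M| := abs_sub _ _
      _ = |L| * |M'| + |L'| * |M| := by rw [abs_mul, abs_mul]
      _ ≤ B * B + B * B := by gcongr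
      _ = 2 * B^2 := by ring
      _ < _ := hB
  have h3 : L * M' = L' * M := by
    have := Int.eq_zero_of_abs_lt_dvd h1 (by push_cast; exact h2)
    linarith
  have h4 : M ∣ M' := k3.symm.dvd_of_dvd_mul_left ⟨L', by rw [h3]; ring⟩
  have h5 : M' ∣ M := k3'.symm.dvd_of_dvd_mul_left ⟨L, by rw [← h3]; ring⟩
  have h6 : M = M' := Int.dvd_antisymm pM pM' h4 h5
  have hM0' : M' ≠ 0 := by
    rintro h0
    rw [h0] at k4'
    exact k4' (dvd_zero _)
  have h7 : L = L' := by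
    rw [h6] at h3
    exact mul_right_cancel₀ hM0' h3
  apply Prod.ext
  · have : W * (p.1 : ℤ) = W * (p'.1 : ℤ) := by linarith
    exact_mod_cast mul_left_cancel₀ hW0 this
  · have : W * (p.2 : ℤ) = W * (p'.2 : ℤ) := by linarith
    exact_mod_cast mul_left_cancel₀ hW0 this

/-- the primes up to `Y` not dividing `W` -/
noncomputable def PR (W : ℤ) (Y : ℕ) : Finset ℕ := by
  classical exact (Finset.range (Y + 1)).filter fun q => q.Prime ∧ ¬ (q : ℤ) ∣ W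

theorem mem_PR {W : ℤ} {Y q : ℕ} : q ∈ PR W Y ↔ q ≤ Y ∧ q.Prime ∧ ¬ (q : ℤ) ∣ W := by
  simp only [PR, Finset.mem_filter, Finset.mem_range, Nat.lt_succ_iff]

theorem card_PR_le (W : ℤ) (Y : ℕ) :
    (PR W Y).card ≤ ((Finset.range (Y + 1)).filter Nat.Prime).card := by
  classical
  apply Finset.card_le_card
  intro q hq
  rw [mem_PR] at hq
  rw [Finset.mem_filter, Finset.mem_range]
  exact ⟨by omega, hq.2.1⟩

theorem sum_inv_sq {W : ℤ} (hW40 : ∀ q : ℕ, q.Prime → q ≤ 40 → (q : ℤ) ∣ W) (Y : ℕ) :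
    ∑ q ∈ PR W Y, ((q : ℝ)^2)⁻¹ ≤ 1 / 40 := by
  classical
  have h1 : PR W Y ⊆ Finset.Ioc 40 (max 40 Y) := by
    intro q hq
    rw [mem_PR] at hq
    rw [Finset.mem_Ioc]
    refine ⟨?_, le_max_of_le_right hq.1⟩
    by_contra h
    exact hq.2.2 (hW40 q hq.2.1 (by omega))
  calc ∑ q ∈ PR W Y, ((q : ℝ)^2)⁻¹ ≤ ∑ q ∈ Finset.Ioc 40 (max 40 Y), ((q : ℝ)^2)⁻¹ :=
        Finset.sum_le_sum_of_subset_of_nonneg h1 fun _ _ _ => by positivity
    _ ≤ ((40 : ℕ) : ℝ)⁻¹ - ((max 40 Y : ℕ) : ℝ)⁻¹ :=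
        sum_Ioc_inv_sq_le_sub (by norm_num) (le_max_left _ _)
    _ ≤ ((40 : ℕ) : ℝ)⁻¹ := by
        have : (0 : ℝ) ≤ ((max 40 Y : ℕ) : ℝ)⁻¹ := by positivity
        linarith
    _ = 1 / 40 := by norm_num

theorem abs_hD_le {l m C : ℤ} (hl : |l| ≤ C) (hm : |m| ≤ C) :
    |hD c4 c6 l m| ≤ (1 + 6 * |c4| + 8 * |c6| + 3 * c4^2) * C^4 := by
  have hC : 0 ≤ C := (abs_nonneg _).trans hl
  have e1 : |l^4| ≤ C^4 := by rw [abs_pow]; gcongr
  have e2 : |6*c4*l^2*m^2| ≤ 6 * |c4| * C^4 := by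
    rw [abs_mul, abs_mul, abs_mul, abs_pow, abs_pow]
    calc |6| * |c4| * |l|^2 * |m|^2 ≤ 6 * |c4| * C^2 * C^2 := by
          rw [show |(6 : ℤ)| = 6 from rfl]; gcongr
      _ = _ := by ring
  have e3 : |8*c6*l*m^3| ≤ 8 * |c6| * C^4 := by
    rw [abs_mul, abs_mul, abs_mul, abs_pow]
    calc |8| * |c6| * |l| * |m|^3 ≤ 8 * |c6| * C * C^3 := by
          rw [show |(8 : ℤ)| = 8 from rfl]; gcongr
      _ = _ := by ring
  have e4 : |3*c4^2*m^4| ≤ 3*c4^2*C^4 := by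
    rw [abs_mul, abs_mul, abs_pow, abs_pow, sq_abs, show |(3 : ℤ)| = 3 from rfl]
    gcongr
  calc |hD c4 c6 l m| = |l^4 - 6*c4*l^2*m^2 - 8*c6*l*m^3 - 3*c4^2*m^4| := rfl
    _ ≤ |l^4 - 6*c4*l^2*m^2 - 8*c6*l*m^3| + |3*c4^2*m^4| := abs_sub _ _
    _ ≤ |l^4 - 6*c4*l^2*m^2| + |8*c6*l*m^3| + |3*c4^2*m^4| := by gcongr; exact abs_sub _ _
    _ ≤ |l^4| + |6*c4*l^2*m^2| + |8*c6*l*m^3| + |3*c4^2*m^4| := by gcongr; exact abs_sub _ _
    _ ≤ C^4 + 6 * |c4| * C^4 + 8 * |c6| * C^4 + 3*c4^2*C^4 := by gcongr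
    _ = _ := by ring

set_option maxHeartbeats 1000000 in
/-- **The squarefree sieve.** -/
theorem sieve {W a b : ℤ} (A B : ℕ) (hW : 0 < W)
    (hW40 : ∀ q : ℕ, q.Prime → q ≤ 40 → (q : ℤ) ∣ W)
    (hWP : ∀ q : ℕ, q.Prime → (q : ℤ) ∣ c4^3 - c6^2 → (q : ℤ) ∣ W) (ha : 0 ≤ a) (hb : 0 ≤ b)
    (hab : ∀ q : ℕ, q.Prime → (q : ℤ) ∣ W → ¬ ((q : ℤ) ∣ a ∧ (q : ℤ) ∣ b)) (X₀ : ℕ)
    (hne : ∀ X ≥ X₀, ∀ s < X, ∀ t < X,
      hD c4 c6 (a + W * (A * X + s : ℕ)) (b + W * (B * X + t : ℕ)) ≠ 0) :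
    ∃ X₁ : ℕ, ∀ X ≥ X₁, ∃ s < X, ∃ t < X,
      IsCoprime (a + W * (A * X + s : ℕ)) (b + W * (B * X + t : ℕ)) ∧
      ∀ q : ℕ, q.Prime → ¬ (q : ℤ) ∣ W →
        ¬ (q : ℤ)^2 ∣ hD c4 c6 (a + W * (A * X + s : ℕ)) (b + W * (B * X + t : ℕ)) := by
  classical
  obtain ⟨C, hC⟩ : ∃ C : ℕ, (C : ℤ) = a + b + W * (A + B + 1) := by
    refine ⟨(a + b + W * (A + B + 1)).toNat, Int.toNat_of_nonneg (by positivity)⟩
  have hC1 : 1 ≤ C := by
    have : (1 : ℤ) ≤ C := by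
      rw [hC]
      nlinarith [mul_nonneg hW.le (Int.natCast_nonneg A), mul_nonneg hW.le (Int.natCast_nonneg B)]
    exact_mod_cast this
  obtain ⟨E, hE⟩ : ∃ E : ℕ, (E : ℤ) = 1 + 6 * |c4| + 8 * |c6| + 3 * c4^2 := by
    refine ⟨(1 + 6 * |c4| + 8 * |c6| + 3 * c4^2).toNat, Int.toNat_of_nonneg (by positivity)⟩
  have hE1 : 1 ≤ E := by
    have : (1 : ℤ) ≤ E := by
      rw [hE]
      nlinarith [abs_nonneg c4, abs_nonneg c6, sq_nonneg c4]
    exact_mod_cast this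
  obtain ⟨N₁, hN₁⟩ := primeCount_le (56 * (2 * C))
  obtain ⟨N₂, hN₂⟩ := primeCount_le (32 * (E * C^2))
  refine ⟨max (max X₀ 41) (max N₁ N₂), fun X hX => ?_⟩
  have hXX₀ : X₀ ≤ X := (le_max_left _ _).trans ((le_max_left _ _).trans hX)
  have hX1 : 41 ≤ X := (le_max_right _ _).trans ((le_max_left _ _).trans hX)
  have hXN₁ : N₁ ≤ X := (le_max_left _ _).trans ((le_max_right _ _).trans hX)
  have hXN₂ : N₂ ≤ X := (le_max_right _ _).trans ((le_max_right _ _).trans hX)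
  set a' : ℤ := a + W * (A * X) with ha'
  set b' : ℤ := b + W * (B * X) with hb'
  set Y := 2 * C * X with hY
  set Z := E * C^2 * X^2 with hZ
  have hYX : X ≤ Y := by
    rw [hY]
    calc X = 1 * X := (one_mul X).symm
      _ ≤ 2 * C * X := Nat.mul_le_mul_right _ (by omega)
  have hZX : X ≤ Z := by
    rw [hZ]
    calc X = 1 * 1 * X := by ring
      _ ≤ E * C^2 * X^2 := by
        apply Nat.mul_le_mul (Nat.mul_le_mul hE1 (Nat.one_le_pow _ _ hC1))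
        nlinarith
  have π1 := hN₁ Y (hXN₁.trans hYX)
  have π2 := hN₂ Z (hXN₂.trans hZX)
  have π1' : 56 * (PR W Y).card ≤ X := by
    have h1 : 56 * (2 * C) * (PR W Y).card ≤ 2 * C * X :=
      (Nat.mul_le_mul_left _ (card_PR_le W Y)).trans π1
    have h2 : 0 < 2 * C := by omega
    refine Nat.le_of_mul_le_mul_left ?_ h2
    calc 2 * C * (56 * (PR W Y).card) = 56 * (2 * C) * (PR W Y).card := by ring
      _ ≤ _ := h1
  have π2' : 32 * (PR W Z).card ≤ X^2 := by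
    have h1 : 32 * (E * C^2) * (PR W Z).card ≤ E * C^2 * X^2 :=
      (Nat.mul_le_mul_left _ (card_PR_le W Z)).trans π2
    have h2 : 0 < E * C^2 := Nat.mul_pos hE1 (pow_pos hC1 2)
    refine Nat.le_of_mul_le_mul_left ?_ h2
    calc E * C^2 * (32 * (PR W Z).card) = 32 * (E * C^2) * (PR W Z).card := by ring
      _ ≤ _ := h1
  -- bounds
  have hpos : ∀ (a₀ : ℤ) (n : ℕ) (s : ℕ), 0 ≤ a₀ → s < X → a₀ + n * W + W ≤ C →
      0 ≤ a₀ + W * (n * X) + W * (s : ℕ) ∧ a₀ + W * (n * X) + W * (s : ℕ) ≤ C * X := by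
    intro a₀ n s ha₀ hs hle
    refine ⟨by positivity, ?_⟩
    have h1 : (s : ℤ) ≤ X := by exact_mod_cast hs.le
    have h2 : (1 : ℤ) ≤ X := by exact_mod_cast (by omega : 1 ≤ X)
    calc a₀ + W * (n * X) + W * (s : ℕ) ≤ a₀ * X + W * (n * X) + W * X := by
          gcongr
          nlinarith
      _ = (a₀ + n * W + W) * X := by ring
      _ ≤ C * X := by gcongr
  have hWA : 0 ≤ W * (A : ℤ) := by positivity
  have hWB : 0 ≤ W * (B : ℤ) := by positivity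
  have hLb := fun s (hs : s < X) => hpos a A s ha hs (by rw [hC]; nlinarith)
  have hMb := fun t (ht : t < X) => hpos b B t hb ht (by rw [hC]; nlinarith)
  rw [← ha'] at hLb
  rw [← hb'] at hMb
  -- the bad sets
  set B1 := (PR W Y).biUnion fun q => badSet c4 c6 W a' b' X q with hB1
  set B2 := (PR W Z \ PR W Y).biUnion fun q => (badSet c4 c6 W a' b' X q).filter fun p =>
      IsCoprime (a' + W * (p.1 : ℤ)) (b' + W * (p.2 : ℤ)) with hB2
  have h6W : ∀ q : ℕ, q.Prime → ¬ (q : ℤ) ∣ W → ¬ q ∣ 6 := by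
    intro q hq hqW hq6
    have := Nat.le_of_dvd (by norm_num) hq6
    exact hqW (hW40 q hq (by omega))
  have c1 : (B1.card : ℝ) ≤ 1/8 * X^2 + 7 * X * (PR W Y).card := by
    have h1 : B1.card ≤ ∑ q ∈ PR W Y, (4 * X * (X / q^2 + 1) + (X / q + 1)^2) := by
      refine Finset.card_biUnion_le.trans (Finset.sum_le_sum fun q hq => ?_)
      rw [mem_PR] at hq
      exact card_badSet hq.2.1 (h6W q hq.2.1 hq.2.2) (fun h => hq.2.2 (hWP q hq.2.1 h)) hq.2.2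
    have h2 : ∀ q ∈ PR W Y, ((4 * X * (X / q^2 + 1) + (X / q + 1)^2 : ℕ) : ℝ) ≤
        5 * X^2 * ((q : ℝ)^2)⁻¹ + 7 * X := by
      intro q hq
      rw [mem_PR] at hq
      have hq1 : (1 : ℝ) ≤ q := by exact_mod_cast hq.2.1.one_lt.le
      have hX1' : (1 : ℝ) ≤ X := by exact_mod_cast (by omega : 1 ≤ X)
      have k1 : ((X / q^2 : ℕ) : ℝ) ≤ X * ((q : ℝ)^2)⁻¹ := by
        have := @Nat.cast_div_le ℝ _ _ _ X (q^2)
        rw [div_eq_mul_inv] at this
        simpa using this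
      have k2 : ((X / q : ℕ) : ℝ) ≤ X * (q : ℝ)⁻¹ := by
        have := @Nat.cast_div_le ℝ _ _ _ X q
        rw [div_eq_mul_inv] at this
        exact this
      have k3 : (q : ℝ)⁻¹ ≤ 1 := inv_le_one_of_one_le₀ hq1
      have k4 : (0 : ℝ) ≤ (q : ℝ)⁻¹ := by positivity
      push_cast
      calc (4 : ℝ) * X * (((X / q^2 : ℕ) : ℝ) + 1) + (((X / q : ℕ) : ℝ) + 1)^2
          ≤ 4 * X * (X * ((q : ℝ)^2)⁻¹ + 1) + (X * (q : ℝ)⁻¹ + 1)^2 := by gcongr
        _ = 5 * X^2 * ((q : ℝ)^2)⁻¹ + (4 * X + 2 * X * (q : ℝ)⁻¹ + 1) := by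
            ring
        _ ≤ 5 * X^2 * ((q : ℝ)^2)⁻¹ + 7 * X := by
            have : 2 * (X : ℝ) * (q : ℝ)⁻¹ ≤ 2 * X * 1 := by gcongr
            linarith
    calc (B1.card : ℝ) ≤ ((∑ q ∈ PR W Y, (4 * X * (X / q^2 + 1) + (X / q + 1)^2) : ℕ) : ℝ) := by
          exact_mod_cast h1
      _ = ∑ q ∈ PR W Y, ((4 * X * (X / q^2 + 1) + (X / q + 1)^2 : ℕ) : ℝ) := by
          rw [Nat.cast_sum]
      _ ≤ ∑ q ∈ PR W Y, (5 * X^2 * ((q : ℝ)^2)⁻¹ + 7 * X) := Finset.sum_le_sum h2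
      _ = 5 * X^2 * ∑ q ∈ PR W Y, ((q : ℝ)^2)⁻¹ + 7 * X * (PR W Y).card := by
          rw [Finset.sum_add_distrib, ← Finset.mul_sum, Finset.sum_const, nsmul_eq_mul]; ring
      _ ≤ 5 * X^2 * (1/40) + 7 * X * (PR W Y).card := by
          gcongr
          exact sum_inv_sq hW40 Y
      _ = _ := by ring
  have c2 : B2.card ≤ 4 * (PR W Z).card := by
    calc B2.card ≤ ∑ q ∈ PR W Z \ PR W Y, 4 := by
          refine Finset.card_biUnion_le.trans (Finset.sum_le_sum fun q hq => ?_)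
          rw [Finset.mem_sdiff, mem_PR, mem_PR] at hq
          obtain ⟨⟨hqZ, hqp, hqW⟩, hqY⟩ := hq
          have hqY' : Y < q := by
            by_contra h
            exact hqY ⟨by omega, hqp, hqW⟩
          refine card_large (B := C * X) hqp (h6W q hqp hqW) (fun h => hqW (hWP q hqp h)) hqW
            (fun t ht => (hMb t ht).1) (fun s hs => ?_) (fun t ht => ?_) ?_
          · rw [abs_of_nonneg (hLb s hs).1]; exact (hLb s hs).2
          · rw [abs_of_nonneg (hMb t ht).1]; exact (hMb t ht).2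
          · have h1 : (Y : ℤ) < q := by exact_mod_cast hqY'
            have h2 : (Y : ℤ) = 2 * (C * X) := by rw [hY]; push_cast; ring
            have h3 : (0 : ℤ) ≤ C * X := by positivity
            rw [h2] at h1
            nlinarith
      _ = 4 * (PR W Z \ PR W Y).card := by rw [Finset.sum_const, smul_eq_mul, mul_comm]
      _ ≤ 4 * (PR W Z).card := by
          gcongr
          exact Finset.sdiff_subset
  have c3 : (B1 ∪ B2).card < (Finset.range X ×ˢ Finset.range X).card := by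
    rw [Finset.card_product, Finset.card_range]
    have h1 : ((B1 ∪ B2).card : ℝ) ≤ B1.card + B2.card := by
      exact_mod_cast Finset.card_union_le B1 B2
    have h2 : (B2.card : ℝ) ≤ 1/8 * X^2 := by
      have k1 : (B2.card : ℝ) ≤ 4 * (PR W Z).card := by exact_mod_cast c2
      have k2 : (32 : ℝ) * (PR W Z).card ≤ X^2 := by exact_mod_cast π2'
      linarith
    have h3 : 7 * (X : ℝ) * (PR W Y).card ≤ 1/8 * X^2 := by
      have k1 : (56 : ℝ) * (PR W Y).card ≤ X := by exact_mod_cast π1'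
      have k2 : (0 : ℝ) ≤ X := Nat.cast_nonneg _
      nlinarith
    have h4 : (0 : ℝ) < X^2 := by
      have : (0 : ℝ) < X := by exact_mod_cast (by omega : 0 < X)
      positivity
    have h5 : ((B1 ∪ B2).card : ℝ) < ((X * X : ℕ) : ℝ) := by
      push_cast
      linarith
    exact_mod_cast h5
  -- a good point
  obtain ⟨p, hp, hpB⟩ : ∃ p ∈ Finset.range X ×ˢ Finset.range X, p ∉ B1 ∪ B2 := by
    by_contra hcon
    push Not at hcon
    exact absurd (Finset.card_le_card (fun p hp => hcon p hp)) (not_le.mpr c3)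
  rw [Finset.mem_product, Finset.mem_range, Finset.mem_range] at hp
  rw [Finset.mem_union, not_or] at hpB
  have eL : a + W * ((A * X + p.1 : ℕ) : ℤ) = a' + W * (p.1 : ℤ) := by
    rw [ha']; push_cast; ring
  have eM : b + W * ((B * X + p.2 : ℕ) : ℤ) = b' + W * (p.2 : ℤ) := by
    rw [hb']; push_cast; ring
  have hne' := hne X hXX₀ p.1 hp.1 p.2 hp.2
  rw [eL, eM] at hne'
  have hLp := hLb p.1 hp.1
  have hMp := hMb p.2 hp.2
  have hsmall : ∀ q : ℕ, q.Prime → ¬ (q : ℤ) ∣ W → q ≤ Y →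
      ¬ ((q^2 : ℕ) : ℤ) ∣ hD c4 c6 (a' + W * (p.1 : ℤ)) (b' + W * (p.2 : ℤ)) := by
    intro q hq hqW hqY h
    apply hpB.1
    rw [hB1, Finset.mem_biUnion]
    refine ⟨q, mem_PR.mpr ⟨hqY, hq, hqW⟩, ?_⟩
    simp only [badSet, Finset.mem_filter, Finset.mem_product, Finset.mem_range]
    exact ⟨hp, h⟩
  have hcop : IsCoprime (a' + W * (p.1 : ℤ)) (b' + W * (p.2 : ℤ)) := by
    rw [Int.isCoprime_iff_gcd_eq_one]
    by_contra hg
    obtain ⟨q, hq, hqg⟩ := Nat.exists_prime_and_dvd hg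
    have hqL : (q : ℤ) ∣ a' + W * (p.1 : ℤ) := by
      have := Int.gcd_dvd_left (a := a' + W * (p.1 : ℤ)) (b := b' + W * (p.2 : ℤ))
      exact dvd_trans (by exact_mod_cast hqg) this
    have hqM : (q : ℤ) ∣ b' + W * (p.2 : ℤ) := by
      have := Int.gcd_dvd_right (a := a' + W * (p.1 : ℤ)) (b := b' + W * (p.2 : ℤ))
      exact dvd_trans (by exact_mod_cast hqg) this
    by_cases hqW : (q : ℤ) ∣ W
    · apply hab q hq hqW
      constructor
      · have : a = (a' + W * (p.1 : ℤ)) - W * (A * X + p.1) := by rw [ha']; ring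
        rw [this]
        exact dvd_sub hqL (Dvd.dvd.mul_right hqW _)
      · have : b = (b' + W * (p.2 : ℤ)) - W * (B * X + p.2) := by rw [hb']; ring
        rw [this]
        exact dvd_sub hqM (Dvd.dvd.mul_right hqW _)
    · by_cases hqY : q ≤ Y
      · apply hsmall q hq hqW hqY
        obtain ⟨u, hu⟩ := hqL
        obtain ⟨v, hv⟩ := hqM
        rw [hu, hv]
        exact ⟨(q : ℤ)^2 * hD c4 c6 u v, by unfold hD; push_cast; ring⟩
      · push Not at hqY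
        have hqY' : (C : ℤ) * X < q := by
          have h1 : (Y : ℤ) < q := by exact_mod_cast hqY
          have h2 : (Y : ℤ) = 2 * (C * X) := by rw [hY]; push_cast; ring
          have h3 : (0 : ℤ) ≤ C * X := by positivity
          omega
        have z1 : a' + W * (p.1 : ℤ) = 0 :=
          Int.eq_zero_of_abs_lt_dvd hqL (by rw [abs_of_nonneg hLp.1]; omega)
        have z2 : b' + W * (p.2 : ℤ) = 0 :=
          Int.eq_zero_of_abs_lt_dvd hqM (by rw [abs_of_nonneg hMp.1]; omega)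
        apply hne'
        rw [z1, z2]
        unfold hD; ring
  refine ⟨p.1, hp.1, p.2, hp.2, ?_, fun q hq hqW h => ?_⟩
  · rw [eL, eM]; exact hcop
  · rw [eL, eM] at h
    have h' : ((q^2 : ℕ) : ℤ) ∣ hD c4 c6 (a' + W * (p.1 : ℤ)) (b' + W * (p.2 : ℤ)) := by
      push_cast; exact h
    by_cases hqY : q ≤ Y
    · exact hsmall q hq hqW hqY h'
    push Not at hqY
    by_cases hqZ : q ≤ Z
    · apply hpB.2
      rw [hB2, Finset.mem_biUnion]
      refine ⟨q, ?_, ?_⟩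
      · rw [Finset.mem_sdiff, mem_PR, mem_PR]
        exact ⟨⟨hqZ, hq, hqW⟩, fun h => by omega⟩
      · rw [Finset.mem_filter]
        simp only [badSet, Finset.mem_filter, Finset.mem_product, Finset.mem_range]
        exact ⟨⟨hp, h'⟩, hcop⟩
    · push Not at hqZ
      apply hne'
      apply Int.eq_zero_of_abs_lt_dvd h
      have h1 : |hD c4 c6 (a' + W * (p.1 : ℤ)) (b' + W * (p.2 : ℤ))| ≤ E * (C * X)^4 := by
        rw [hE]
        apply abs_hD_le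
        · rw [abs_of_nonneg hLp.1]; exact hLp.2
        · rw [abs_of_nonneg hMp.1]; exact hMp.2
      have h2 : (Z : ℤ) < q := by exact_mod_cast hqZ
      have h3 : (Z : ℤ) = E * (C * X)^2 := by rw [hZ]; push_cast; ring
      have h4 : (E : ℤ) * (C * X)^4 ≤ (Z : ℤ)^2 := by
        rw [h3]
        have : (1 : ℤ) ≤ E := by exact_mod_cast hE1
        calc (E : ℤ) * ((C : ℤ) * X)^4 = (E : ℤ) * 1 * ((C : ℤ) * X)^4 := by ring
          _ ≤ (E : ℤ) * E * ((C : ℤ) * X)^4 := by gcongr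
          _ = _ := by ring
      have h5 : (0 : ℤ) ≤ Z := Int.natCast_nonneg _
      calc _ ≤ _ := h1
        _ ≤ _ := h4
        _ < (q : ℤ)^2 := by nlinarith

end Fermat.Agent.TwoAdic
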