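import Fermat.Agent.TwoAdic.CurveOfLoc
import Fermat.Agent.TwoAdic.Region
import Fermat.Agent.TwoAdic.Sieve

set_option autoImplicit false

/-!
# The choice of the auxiliary curve `E` with `E[3] ≅ W[3]`
-/

open WeierstrassCurve

namespace Fermat.Agent.TwoAdic

theorem exists_crt (S : Finset ℕ) (hS : ∀ q ∈ S, q.Prime) (a : ℕ → ℕ) :
    ∃ x : ℕ, ∀ q ∈ S, (q : ℤ)^4 ∣ (x : ℤ) - a q := by
  have hpp : Set.Pairwise (S : Set ℕ) (Function.onFun Nat.Coprime fun q => q^4) := by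
    intro p hp q hq hpq
    exact Nat.Coprime.pow _ _ ((Nat.coprime_primes (hS p hp) (hS q hq)).mpr hpq)
  obtain ⟨k, hk⟩ := Nat.chineseRemainderOfFinset a (fun q => q^4) S
    (fun q hq => pow_ne_zero _ (hS q hq).ne_zero) hpp
  refine ⟨k, fun q hq => ?_⟩
  have := (Nat.modEq_iff_dvd.mp (hk q hq).symm)
  push_cast at this
  exact this

/-- the local conditions can be satisfied simultaneously -/
theorem exists_loc {W : WeierstrassCurve ℤ} (hΔ : W.Δ ≠ 0) (hss : W.IsSemistableModel)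
    (h2 : (2 : ℤ) ∣ W.Δ) :
    ∃ u W0 l₀ m₀ : ℤ, (u = 1 ∨ u = 4) ∧ 0 < W0 ∧ 0 ≤ l₀ ∧ 0 ≤ m₀ ∧
      (∀ q : ℕ, q.Prime → q ≤ 40 → (q : ℤ) ∣ W0) ∧
      (∀ q : ℕ, q.Prime → (q : ℤ) ∣ W.Δ → (q : ℤ) ∣ W0) ∧
      ∀ l m : ℤ, W0 ∣ l - l₀ → W0 ∣ m - m₀ → Loc W.c₄ W.c₆ W.Δ W0 u l m := by
  classical
  have h2c : ¬ (2 : ℤ) ∣ W.c₄ := by exact_mod_cast hss 2 Nat.prime_two (by exact_mod_cast h2)
  have hrel : W.c₄^3 - W.c₆^2 = 1728 * W.Δ := W.c_relation.symm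
  obtain ⟨u, hu, l2, m2, h2loc⟩ := local_two hrel hΔ h2 h2c (c6_mod_four W h2c)
  obtain ⟨S, hS⟩ : ∃ S : Finset ℕ, S = (Finset.range 41 ∪ W.Δ.natAbs.primeFactors).filter
    Nat.Prime := ⟨_, rfl⟩
  have hSp : ∀ q ∈ S, q.Prime := by
    intro q hq
    rw [hS, Finset.mem_filter] at hq
    exact hq.2
  have hS40 : ∀ q : ℕ, q.Prime → q ≤ 40 → q ∈ S := by
    intro q hq h
    rw [hS, Finset.mem_filter, Finset.mem_union, Finset.mem_range]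
    exact ⟨Or.inl (by omega), hq⟩
  have hSΔ : ∀ q : ℕ, q.Prime → (q : ℤ) ∣ W.Δ → q ∈ S := by
    intro q hq h
    rw [hS, Finset.mem_filter, Finset.mem_union, Nat.mem_primeFactors]
    exact ⟨Or.inr ⟨hq, Int.natCast_dvd.mp h, Int.natAbs_ne_zero.mpr hΔ⟩, hq⟩
  have hbad : ∀ q : ℕ, ∃ l₀ m₀ : ℕ, q.Prime → q ≠ 2 → (q : ℤ) ∣ W.Δ →
      ∀ l m : ℤ, (q : ℤ)^4 ∣ l - l₀ → (q : ℤ)^4 ∣ m - m₀ →
      ¬ ((q : ℤ) ∣ l ∧ (q : ℤ) ∣ m) ∧ ¬ (q : ℤ) ∣ hC4 W.c₄ W.c₆ l m ∧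
      Odd (padicValInt q W.Δ + 3 * padicValInt q (hD W.c₄ W.c₆ l m)) := by
    intro q
    by_cases h : q.Prime ∧ q ≠ 2 ∧ (q : ℤ) ∣ W.Δ
    · obtain ⟨l₀, m₀, h'⟩ := local_odd_bad hrel hΔ h.1 h.2.1 h.2.2 (hss q h.1 h.2.2)
      exact ⟨l₀, m₀, fun _ _ _ => h'⟩
    · refine ⟨0, 0, fun h1 h3 h4 => absurd ⟨h1, h3, h4⟩ h⟩
  choose lb mb hb using hbad
  obtain ⟨L, hLdef⟩ : ∃ L : ℕ → ℕ, L = fun q : ℕ => if q = 2 then l2 else
    if (q : ℤ) ∣ W.Δ then lb q else 1 := ⟨_, rfl⟩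
  obtain ⟨M, hMdef⟩ : ∃ M : ℕ → ℕ, M = fun q : ℕ => if q = 2 then m2 else
    if (q : ℤ) ∣ W.Δ then mb q else 0 := ⟨_, rfl⟩
  obtain ⟨x, hx⟩ := exists_crt S hSp L
  obtain ⟨y, hy⟩ := exists_crt S hSp M
  obtain ⟨W0, hW0⟩ : ∃ W0 : ℕ, W0 = ∏ q ∈ S, q^4 := ⟨_, rfl⟩
  have hW0S : ∀ q ∈ S, (q : ℤ)^4 ∣ (W0 : ℤ) := by
    intro q hq
    have : q^4 ∣ W0 := by rw [hW0]; exact Finset.dvd_prod_of_mem (fun q => q^4) hq
    exact_mod_cast this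
  have hW0S' : ∀ q ∈ S, (q : ℤ) ∣ (W0 : ℤ) := fun q hq =>
    (dvd_pow_self _ (by norm_num)).trans (hW0S q hq)
  have hSW0 : ∀ q : ℕ, q.Prime → (q : ℤ) ∣ (W0 : ℤ) → q ∈ S := by
    intro q hq h
    have h1 : q ∣ W0 := by exact_mod_cast h
    rw [hW0] at h1
    obtain ⟨p, hp, hqp⟩ := (Prime.dvd_finsetProd_iff hq.prime _).mp h1
    have := (Nat.prime_dvd_prime_iff_eq hq (hSp p hp)).mp (hq.dvd_of_dvd_pow hqp)
    rw [this]; exact hp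
  refine ⟨u, W0, x, y, hu, ?_, Int.natCast_nonneg _, Int.natCast_nonneg _,
    fun q hq h => hW0S' q (hS40 q hq h), fun q hq h => hW0S' q (hSΔ q hq h), ?_⟩
  · have : 0 < W0 := by
      rw [hW0]
      exact Finset.prod_pos fun q hq => pow_pos (hSp q hq).pos _
    exact_mod_cast this
  intro l m hl hm
  have hlS : ∀ q ∈ S, (q : ℤ)^4 ∣ l - L q := by
    intro q hq
    have : l - L q = (l - x) + (x - L q) := by ring
    rw [this]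
    exact dvd_add ((hW0S q hq).trans hl) (hx q hq)
  have hmS : ∀ q ∈ S, (q : ℤ)^4 ∣ m - M q := by
    intro q hq
    have : m - M q = (m - y) + (y - M q) := by ring
    rw [this]
    exact dvd_add ((hW0S q hq).trans hm) (hy q hq)
  have two := h2loc l m (by simpa [hLdef] using hlS 2 (hS40 2 Nat.prime_two (by norm_num)))
    (by simpa [hMdef] using hmS 2 (hS40 2 Nat.prime_two (by norm_num)))
  have bad : ∀ q : ℕ, q.Prime → q ≠ 2 → (q : ℤ) ∣ W.Δ → ¬ ((q : ℤ) ∣ l ∧ (q : ℤ) ∣ m) ∧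
      ¬ (q : ℤ) ∣ hC4 W.c₄ W.c₆ l m ∧
      Odd (padicValInt q W.Δ + 3 * padicValInt q (hD W.c₄ W.c₆ l m)) := by
    intro q hq hq2 hqΔ
    have hqS := hSΔ q hq hqΔ
    apply hb q hq hq2 hqΔ
    · have := hlS q hqS
      rw [hLdef] at this
      simpa only [if_neg hq2, if_pos hqΔ] using this
    · have := hmS q hqS
      rw [hMdef] at this
      simpa only [if_neg hq2, if_pos hqΔ] using this
  have good : ∀ q : ℕ, q.Prime → (q : ℤ) ∣ (W0 : ℤ) → ¬ (q : ℤ) ∣ W.Δ →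
      ¬ ((q : ℤ) ∣ l ∧ (q : ℤ) ∣ m) ∧ ¬ (q : ℤ) ∣ hD W.c₄ W.c₆ l m ∧
      (q = 3 → ¬ (3 : ℤ) ∣ hC4 W.c₄ W.c₆ l m ∨
        ((3 : ℤ) ∣ hC4 W.c₄ W.c₆ l m ∧ (27 : ℤ) ∣ hC6 W.c₄ W.c₆ l m)) := by
    intro q hq hqW hqΔ
    have hqS := hSW0 q hq hqW
    have hq2 : q ≠ 2 := by
      rintro rfl
      exact hqΔ (by exact_mod_cast h2)
    apply local_good hq
    · have := hlS q hqS
      rw [hLdef] at this
      simpa only [if_neg hq2, if_neg hqΔ] using this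
    · have := hmS q hqS
      rw [hMdef] at this
      simpa only [if_neg hq2, if_neg hqΔ] using this
    · intro _; exact three_cond W
  refine ⟨?_, two.2.1, two.2.2, fun q hq hq2 hqΔ => (bad q hq hq2 hqΔ).2,
    fun q hq hqW hqΔ => (good q hq hqW hqΔ).2.1, ?_⟩
  · intro q hq hqW
    by_cases hq2 : q = 2
    · subst hq2; exact_mod_cast two.1
    by_cases hqΔ : (q : ℤ) ∣ W.Δ
    · exact (bad q hq hq2 hqΔ).1
    · exact (good q hq hqW hqΔ).1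
  · by_cases h3 : ((3 : ℕ) : ℤ) ∣ W.Δ
    · left
      exact_mod_cast (bad 3 Nat.prime_three (by norm_num) h3).2.1
    · exact (good 3 Nat.prime_three (hW0S' 3 (hS40 3 Nat.prime_three (by norm_num))) h3).2.2 rfl

/-- **The auxiliary curve.** -/
theorem exists_curve (W : WeierstrassCurve ℤ) (hΔ : W.Δ ≠ 0) (hss : W.IsSemistableModel)
    (h2 : (2 : ℤ) ∣ W.Δ) :
    ∃ E : WeierstrassCurve ℤ, E.Δ < 0 ∧ E.IsSemistableModel ∧ (2 : ℤ) ∣ E.Δ ∧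
      (∀ q : ℕ, q.Prime → (q : ℤ) ∣ E.Δ → Odd (padicValInt q E.Δ)) ∧
      (∀ q : ℕ, q.Prime → (q : ℤ) ∣ W.Δ → (q : ℤ) ∣ E.Δ) ∧
      ((3 : ℤ) ∣ E.Δ ↔ (3 : ℤ) ∣ W.Δ) ∧
      (∀ x : ℚ, 4 * x^3 + E.b₂ * x^2 + 2 * E.b₄ * x + E.b₆ ≠ 0) ∧
      (∃ q : ℕ, q.Prime ∧ q ≠ 2 ∧ (q : ℤ) ∣ E.Δ) ∧
      ∀ q : ℕ, q.Prime → q ≠ 3 → W.IsGoodPrimeFor q → E.IsGoodPrimeFor q →
        (3 : ℤ) ∣ (E.apOfModel q - W.apOfModel q) := by
  obtain ⟨u, W0, l₀, m₀, hu, hW0, hl₀, hm₀, h40, hWΔ, hloc⟩ := exists_loc hΔ hss h2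
  have h2c : ¬ (2 : ℤ) ∣ W.c₄ := by exact_mod_cast hss 2 Nat.prime_two (by exact_mod_cast h2)
  have hc4 : W.c₄ ≠ 0 := by
    intro h; rw [h] at h2c; exact h2c (dvd_zero _)
  obtain ⟨K, hK⟩ := abs_hC4_le W.c₄ W.c₆
  -- the region
  obtain ⟨A, B, X₀, hreg⟩ : ∃ A B X₀ : ℕ, ∀ X : ℕ, X₀ ≤ X → ∀ s < X, ∀ t < X,
      ∃ T : ℤ, (X : ℤ) ≤ T ∧ |l₀ + W0 * (A * X + s : ℕ)| ≤ T ∧ |m₀ + W0 * (B * X + t : ℕ)| ≤ T ∧
        T^4 ≤ 2 * |hD W.c₄ W.c₆ (l₀ + W0 * (A * X + s : ℕ)) (m₀ + W0 * (B * X + t : ℕ))| ∧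
        (0 < T → W.Δ * hD W.c₄ W.c₆ (l₀ + W0 * (A * X + s : ℕ))
          (m₀ + W0 * (B * X + t : ℕ)) < 0) := by
    rcases lt_or_gt_of_ne hΔ with hneg | hpos
    · obtain ⟨A, B, X₀, h⟩ := region_pos W.c₄ W.c₆ hW0 hl₀ hm₀
      refine ⟨A, B, X₀, fun X hX s hs t ht => ?_⟩
      obtain ⟨T, h1, h2, h3, h4⟩ := h X hX s hs t ht
      refine ⟨T, h1, h2, h3, h4.trans (by gcongr; exact le_abs_self _), fun hT => ?_⟩
      have h5 : 0 < T^4 := by positivity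
      apply mul_neg_of_neg_of_pos hneg
      omega
    · obtain ⟨A, B, X₀, h⟩ := region_neg W.c₆ hc4 hW0 hl₀ hm₀
      refine ⟨A, B, X₀, fun X hX s hs t ht => ?_⟩
      obtain ⟨T, h1, h2, h3, h4⟩ := h X hX s hs t ht
      refine ⟨T, h1, h2, h3, h4.trans (by gcongr; exact neg_le_abs _), fun hT => ?_⟩
      have h5 : 0 < T^4 := by positivity
      apply mul_neg_of_pos_of_neg hpos
      omega
  have h1728 : ∀ q : ℕ, q.Prime → (q : ℤ) ∣ 1728 → (q : ℤ) ∣ W0 := by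
    intro q hq h
    have hp : Prime (q : ℤ) := Nat.prime_iff_prime_int.mp hq
    have e : (1728 : ℤ) = 2^6 * 3^3 := by norm_num
    rw [e] at h
    apply h40 q hq
    rcases hp.dvd_or_dvd h with h | h
    · have h5 := hp.dvd_of_dvd_pow h
      have h6 : q ∣ 2 := by exact_mod_cast h5
      exact (Nat.le_of_dvd (by norm_num) h6).trans (by norm_num)
    · have h5 := hp.dvd_of_dvd_pow h
      have h6 : q ∣ 3 := by exact_mod_cast h5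
      exact (Nat.le_of_dvd (by norm_num) h6).trans (by norm_num)
  have hL0 : Loc W.c₄ W.c₆ W.Δ W0 u l₀ m₀ := hloc l₀ m₀ (by simp) (by simp)
  obtain ⟨X₁, hX₁⟩ := sieve (c4 := W.c₄) (c6 := W.c₆) A B hW0 h40
    (fun q hq h => by
      rw [← W.c_relation] at h
      have hp : Prime (q : ℤ) := Nat.prime_iff_prime_int.mp hq
      rcases hp.dvd_or_dvd h with h | h
      · exact h1728 q hq h
      · exact hWΔ q hq h) hl₀ hm₀ hL0.ncop (max X₀ 1)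
    (fun X hX s hs t ht h0 => by
      obtain ⟨T, h1, -, -, -, h5⟩ := hreg X ((le_max_left _ _).trans hX) s hs t ht
      have hX1 : 1 ≤ X := (le_max_right _ _).trans hX
      have hT : 0 < T := by
        have : (1 : ℤ) ≤ X := by exact_mod_cast hX1
        omega
      have := h5 hT
      rw [h0, mul_zero] at this
      exact lt_irrefl _ this)
  obtain ⟨X, hX⟩ : ∃ X : ℕ, X = max (max X₀ X₁) (524288 * (K + 1) + 1024) := ⟨_, rfl⟩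
  have hXX₀ : X₀ ≤ X := by rw [hX]; exact (le_max_left _ _).trans (le_max_left _ _)
  have hXX₁ : X₁ ≤ X := by rw [hX]; exact (le_max_right _ _).trans (le_max_left _ _)
  have hXK : 524288 * (K + 1) + 1024 ≤ X := by rw [hX]; exact le_max_right _ _
  obtain ⟨s, hs, t, ht, hcop, hsq⟩ := hX₁ X hXX₁
  obtain ⟨T, h1, h3, h4, h5, h6⟩ := hreg X hXX₀ s hs t ht
  obtain ⟨l, hl⟩ : ∃ l : ℤ, l = l₀ + W0 * (A * X + s : ℕ) := ⟨_, rfl⟩
  obtain ⟨m, hm⟩ : ∃ m : ℤ, m = m₀ + W0 * (B * X + t : ℕ) := ⟨_, rfl⟩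
  rw [← hl, ← hm] at hcop hsq h5 h6
  rw [← hl] at h3
  rw [← hm] at h4
  have hTK : 524288 * ((K : ℤ) + 1) + 1024 ≤ T := by
    have : ((524288 * (K + 1) + 1024 : ℕ) : ℤ) ≤ X := by exact_mod_cast hXK
    push_cast at this
    linarith
  have hK0 : (0 : ℤ) ≤ K := Int.natCast_nonneg _
  have hT0 : 1024 ≤ T := by linarith
  have hTpos : 0 < T := by linarith
  have hLoc : Loc W.c₄ W.c₆ W.Δ W0 u l m := hloc l m
    (by rw [hl, add_sub_cancel_left]; exact dvd_mul_right _ _)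
    (by rw [hm, add_sub_cancel_left]; exact dvd_mul_right _ _)
  have hT4 : T ≤ T^4 := by
    calc T = 1 * T := by ring
      _ ≤ T^3 * T := by
        gcongr
        exact one_le_pow₀ (by linarith)
      _ = _ := by ring
  apply curve_of_loc hΔ h2 hu (h40 3 Nat.prime_three (by norm_num)) hLoc hcop hsq (h6 hTpos)
  · linarith
  · have hC := hK l m T h3 h4
    obtain ⟨d, hd⟩ : ∃ d, d = |hD W.c₄ W.c₆ l m| := ⟨_, rfl⟩
    rw [← hd] at h5 ⊢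
    have hT4' : 0 ≤ T^4 := by positivity
    have h7 : (T^4)^3 ≤ (2 * d)^3 := by gcongr
    have h8 : 524288 * ((K : ℤ) + 1) * T^4 < (T^4)^3 := by
      calc 524288 * ((K : ℤ) + 1) * T^4 < T * T^4 := by
            gcongr
            linarith
        _ ≤ T^4 * T^4 := by gcongr
        _ ≤ T^4 * (T^4 * T^4) := by
            gcongr
            calc T^4 = 1 * T^4 := by ring
              _ ≤ T^4 * T^4 := by gcongr; linarith
        _ = _ := by ring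
    have h9 : (2 * d)^3 = 8 * d^3 := by ring
    have h10 : 524288 * (|hC4 W.c₄ W.c₆ l m| + 1) ≤ 524288 * ((K : ℤ) + 1) * T^4 := by
      have : (1 : ℤ) ≤ T^4 := by linarith
      nlinarith
    linarith

end Fermat.Agent.TwoAdic
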