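import Mathlib

/-!
# Block B3 of the 2-adic route: group theory of subgroups of `GL₂(ℤ/2^m)`
-/

set_option autoImplicit false
set_option linter.unusedSectionVars false

namespace Fermat.Agent.TwoAdic

open Matrix

local notation "M₂" => Matrix (Fin 2) (Fin 2)

section

variable {m : ℕ} {Γ : Type*} [Group Γ] (r : Γ →* M₂ (ZMod (2 ^ m))) (K : Subgroup Γ)

/-- the image of `K` -/
def InS (M : M₂ (ZMod (2 ^ m))) : Prop := ∃ u ∈ K, r u = M

variable {r K}

lemma InS.mul {M M' : M₂ (ZMod (2 ^ m))} (h : InS r K M) (h' : InS r K M') : InS r K (M * M') := by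
  obtain ⟨u, hu, rfl⟩ := h
  obtain ⟨u', hu', rfl⟩ := h'
  exact ⟨u * u', K.mul_mem hu hu', map_mul _ _ _⟩

lemma InS.pow {M : M₂ (ZMod (2 ^ m))} (h : InS r K M) (n : ℕ) : InS r K (M ^ n) := by
  obtain ⟨u, hu, rfl⟩ := h
  exact ⟨u ^ n, K.pow_mem hu n, map_pow _ _ _⟩

/-- inverses -/
lemma InS.inv {M M' : M₂ (ZMod (2 ^ m))} (h : InS r K M) (h' : M * M' = 1) : InS r K M' := by
  obtain ⟨u, hu, rfl⟩ := h
  refine ⟨u⁻¹, K.inv_mem hu, ?_⟩
  have h1 : r u⁻¹ * r u = 1 := by rw [← map_mul, inv_mul_cancel, map_one]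
  calc r u⁻¹ = r u⁻¹ * (r u * M') := by rw [h', mul_one]
    _ = M' := by rw [← mul_assoc, h1, one_mul]

/-- conjugates -/
lemma InS.conj (hK : K.Normal) {M M' : M₂ (ZMod (2 ^ m))} (h : InS r K M) (g : Γ)
    (h' : r g * M = M' * r g) : InS r K M' := by
  obtain ⟨u, hu, rfl⟩ := h
  refine ⟨g * u * g⁻¹, hK.conj_mem u hu g, ?_⟩
  rw [map_mul, map_mul, h', mul_assoc, ← map_mul, mul_inv_cancel, map_one, mul_one]

/-- upper unipotent -/
def Um {R : Type*} [CommRing R] (x : R) : M₂ R := !![1, x; 0, 1]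

/-- lower unipotent -/
def Lm {R : Type*} [CommRing R] (x : R) : M₂ R := !![1, 0; x, 1]

lemma Um_mul {R : Type*} [CommRing R] (x y : R) : Um x * Um y = Um (x + y) := by
  simp only [Um, Matrix.mul_fin_two]
  congr 1; simp [add_comm]

lemma Lm_mul {R : Type*} [CommRing R] (x y : R) : Lm x * Lm y = Lm (x + y) := by
  simp only [Lm, Matrix.mul_fin_two]
  congr 1; simp

lemma Um_pow {R : Type*} [CommRing R] (x : R) (n : ℕ) : Um x ^ n = Um (n * x) := by
  induction n with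
  | zero => simp [Um, Matrix.one_fin_two]
  | succ n ih => rw [pow_succ, ih, Um_mul]; congr 1; push_cast; ring

lemma exists_nat [NeZero (2 ^ m)] (x : ZMod (2 ^ m)) : ∃ n : ℕ, (n : ZMod (2 ^ m)) = x :=
  ⟨x.val, ZMod.natCast_zmod_val x⟩

lemma isUnit_of_odd {x : ZMod (2 ^ m)} (k : ZMod (2 ^ m)) (hx : x = 1 + 2 * k) : IsUnit x := by
  have h1 : IsNilpotent (2 : ZMod (2 ^ m)) := ⟨m, by
    have := ZMod.natCast_self (2 ^ m)
    exact_mod_cast this⟩
  have h2 : IsNilpotent (2 * k) := (Commute.all _ _).isNilpotent_mul_right h1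
  rw [hx]
  exact IsNilpotent.isUnit_one_add h2

/-- a subgroup of `SL₂` containing the even unipotents and `s₀` contains `Γ(2)` -/
theorem inS_of_det_one (hU : ∀ x, InS r K (Um (2 * x))) (hL : ∀ x, InS r K (Lm (2 * x)))
    (hs : InS r K !![3, -2; 2, -1]) {a b c d : ZMod (2 ^ m)} (ha : ∃ k, a = 1 + 2 * k)
    (hb : ∃ k, b = 2 * k) (hc : ∃ k, c = 2 * k) (hdet : a * d - b * c = 1) :
    InS r K !![a, b; c, d] := by
  have key : ∀ a b c d : ZMod (2 ^ m), (∃ k, a = 1 + 4 * k) → (∃ k, b = 2 * k) →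
      (∃ k, c = 2 * k) → a * d - b * c = 1 → InS r K !![a, b; c, d] := by
    rintro a b c d ⟨k, hk⟩ ⟨b', rfl⟩ ⟨c', rfl⟩ hdet
    obtain ⟨a', ha'⟩ : ∃ a', a * a' = 1 := by
      obtain ⟨u, hu⟩ := isUnit_of_odd (x := a) (2 * k) (by rw [hk]; ring)
      exact ⟨(u⁻¹ : (ZMod (2 ^ m))ˣ), by rw [← hu]; simp⟩
    have h1 := ((hL ((c' - k) * a')).mul (hU 1)).mul ((hL k).mul (hU ((b' - 1) * a')))
    convert h1 using 1
    simp only [Um, Lm, Matrix.mul_fin_two]
    have hd : d = a' + 4 * (b' * c') * a' := by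
      linear_combination a' * hdet - d * ha'
    congr 1
    ext i j
    fin_cases i <;> fin_cases j
    · simp
      linear_combination hk
    · simp
      linear_combination (-2 * b' + 2) * ha' + (2 * b' - 2) * a' * hk
    · simp
      linear_combination (-2 * c' + 2 * k) * ha' + (2 * c' - 2 * k) * a' * hk
    · simp
      rw [hd]
      subst hk
      linear_combination (1 - 4 * (b' - 1) * (c' - k) * a') * ha'
  obtain ⟨k, hk⟩ := ha
  obtain ⟨b', hb'⟩ := hb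
  obtain ⟨c', hc'⟩ := hc
  by_cases hk2 : ∃ k', k = 2 * k'
  · obtain ⟨k', rfl⟩ := hk2
    exact key a b c d ⟨k', by rw [hk]; ring⟩ ⟨b', hb'⟩ ⟨c', hc'⟩ hdet
  · have hk3 : ∃ k', k = 1 + 2 * k' := by
      have : NeZero (2 ^ m) := ⟨by positivity⟩
      obtain ⟨n, rfl⟩ := exists_nat k
      obtain ⟨j, hj | hj⟩ := Nat.even_or_odd' n
      · exact absurd ⟨(j : ZMod (2 ^ m)), by rw [hj]; push_cast; ring⟩ hk2
      · exact ⟨(j : ZMod (2 ^ m)), by rw [hj]; push_cast; ring⟩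
    obtain ⟨k', rfl⟩ := hk3
    have h1 := key (a * 3 + b * 2) (a * -2 + b * -1) (c * 3 + d * 2) (c * -2 + d * -1)
      ⟨2 + 3 * k' + b', by rw [hk, hb']; ring⟩ ⟨-a - b', by rw [hb']; ring⟩
      ⟨c' * 3 + d, by rw [hc']; ring⟩ (by linear_combination hdet)
    have h2 : InS r K !![-1, 2; -2, 3] := hs.inv (by
      simp only [Matrix.mul_fin_two, Matrix.one_fin_two]; norm_num)
    have h3 := h1.mul h2
    convert h3 using 1
    simp only [Matrix.mul_fin_two]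
    congr 1
    ext i j
    fin_cases i <;> fin_cases j <;> simp <;> ring

lemma InS.of_eq {M M' : M₂ (ZMod (2 ^ m))} (h : InS r K M) (h' : M = M') : InS r K M' := h' ▸ h

/-- the image of a normal subgroup containing the square of a transvection -/
theorem inS_of_transvection (hK : K.Normal) {τ g : Γ} (hτ : r τ = Um 1) (hτK : τ * τ ∈ K)
    {c : ZMod (2 ^ m)} (hgc : r g 1 0 = c) (hc : ∃ k, c = 1 + 2 * k)
    {M : M₂ (ZMod (2 ^ m))} (hM : ∀ i j, ∃ k, M i j = (1 : M₂ (ZMod (2 ^ m))) i j + 2 * k)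
    (hdet : M.det = 1) : InS r K M := by
  have hne : NeZero (2 ^ m) := ⟨by positivity⟩
  have hU2 : InS r K (Um 2) := ⟨τ * τ, hτK, by rw [map_mul, hτ, Um_mul]; norm_num⟩
  have hU : ∀ x, InS r K (Um (2 * x)) := by
    intro x
    obtain ⟨n, rfl⟩ := exists_nat x
    refine (hU2.pow n).of_eq ?_
    rw [Um_pow, mul_comm]
  -- normalise `g`
  obtain ⟨c', hc'⟩ : ∃ c', c * c' = 1 := by
    obtain ⟨k, hk⟩ := hc
    obtain ⟨u, hu⟩ := isUnit_of_odd k hk
    exact ⟨(u⁻¹ : (ZMod (2 ^ m))ˣ), by rw [← hu]; simp⟩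
  obtain ⟨g', b, d, hg'⟩ : ∃ g' : Γ, ∃ b d, r g' = !![0, b; c, d] := by
    obtain ⟨n, hn⟩ := exists_nat (-(r g 0 0) * c')
    refine ⟨τ ^ n * g, r g 0 1 + n * r g 1 1, r g 1 1, ?_⟩
    rw [map_mul, map_pow, hτ, Um_pow, Um]
    rw [Matrix.eta_fin_two (r g), Matrix.mul_fin_two, hn]
    ext i j
    fin_cases i <;> fin_cases j
    · simp [hgc]
      linear_combination (- (r g 0 0)) * hc'
    · simp
    · simp [hgc]
    · simp
  obtain ⟨b', hb'⟩ : ∃ b', b * b' = 1 := by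
    have h1 : IsUnit (r g').det := by
      have h2 : r g' * r g'⁻¹ = 1 := by rw [← map_mul, mul_inv_cancel, map_one]
      exact (Matrix.isUnit_iff_isUnit_det _).1 (IsUnit.of_mul_eq_one _ h2)
    rw [hg', Matrix.det_fin_two_of, zero_mul, zero_sub, IsUnit.neg_iff] at h1
    obtain ⟨u, hu⟩ := isUnit_of_mul_isUnit_left h1
    exact ⟨(u⁻¹ : (ZMod (2 ^ m))ˣ), by rw [← hu]; simp⟩
  have hL : ∀ x, InS r K (Lm (2 * x)) := by
    intro x
    refine (hU (x * b * c')).conj hK g' ?_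
    rw [hg']
    simp only [Um, Lm, Matrix.mul_fin_two]
    ext i j
    fin_cases i <;> fin_cases j <;> simp
    linear_combination (2 * x * b) * hc'
  have hs : InS r K !![3, -2; 2, -1] := by
    refine (hL 1).conj hK τ ?_
    rw [hτ]
    simp only [Um, Lm, Matrix.mul_fin_two]
    ext i j
    fin_cases i <;> fin_cases j <;> norm_num
  rw [Matrix.eta_fin_two M]
  obtain ⟨k00, h00⟩ := hM 0 0
  obtain ⟨k01, h01⟩ := hM 0 1
  obtain ⟨k10, h10⟩ := hM 1 0
  refine inS_of_det_one hU hL hs ⟨k00, by simpa using h00⟩ ⟨k01, by simpa using h01⟩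
    ⟨k10, by simpa using h10⟩ ?_
  rw [← Matrix.det_fin_two]; exact hdet

end

end Fermat.Agent.TwoAdic
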