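import Mathlib
import Fermat.Agent.TwoAdic.GrpLemma

/-!
# Block B3 of the 2-adic route: cocycles of a subgroup of `GL₂(ℤ/2^m)` with values in `𝔽₂²`
-/

set_option autoImplicit false
set_option linter.unusedSectionVars false

namespace Fermat.Agent.TwoAdic

open Matrix

local notation "M₂" => Matrix (Fin 2) (Fin 2)

/-- `𝔽₂²` -/
abbrev V2 := Fin 2 → ZMod 2

lemma v2_add_self (v : V2) : v + v = 0 := by
  ext i; exact CharTwo.add_self_eq_zero _

lemma v2_eq_of_add {v w : V2} (h : v + w = 0) : v = w := by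
  have := congrArg (· + w) h
  simpa [add_assoc, v2_add_self] using this

section

variable {Γ : Type*} [Group Γ] {rb : Γ →* M₂ (ZMod 2)} {b : Γ → V2}

/-- cocycles -/
def IsCoc2 (rb : Γ →* M₂ (ZMod 2)) (b : Γ → V2) : Prop := ∀ g h, b (g * h) = b g + rb g *ᵥ b h

variable (hb : IsCoc2 rb b)

include hb

lemma IsCoc2.one : b 1 = 0 := by
  have h := hb 1 1
  rw [one_mul, map_one, one_mulVec] at h
  exact left_eq_add.1 h

lemma IsCoc2.mul_of {g h : Γ} (hg : rb g = 1) : b (g * h) = b g + b h := by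
  rw [hb, hg, one_mulVec]

lemma IsCoc2.inv_of {g : Γ} (hg : rb g = 1) : b g⁻¹ = b g := by
  have h := hb g⁻¹ g
  have h1 : rb g⁻¹ = 1 := by
    have : rb g⁻¹ * rb g = 1 := by rw [← map_mul, inv_mul_cancel, map_one]
    rwa [hg, mul_one] at this
  rw [inv_mul_cancel, hb.one, h1, one_mulVec] at h
  exact v2_eq_of_add h.symm

lemma IsCoc2.conj (g h : Γ) : b (g * h * g⁻¹) = b g + rb g *ᵥ b h + rb (g * h * g⁻¹) *ᵥ b g := by
  have h1 := hb (g * h * g⁻¹) g
  rw [inv_mul_cancel_right, hb g h] at h1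
  rw [h1, add_assoc, v2_add_self, add_zero]

lemma IsCoc2.conj_of {g h : Γ} (hh : rb h = 1) : b (g * h * g⁻¹) = rb g *ᵥ b h := by
  have h1 : rb (g * h * g⁻¹) = 1 := by
    rw [map_mul, map_mul, hh, mul_one, ← map_mul, mul_inv_cancel, map_one]
  rw [hb.conj, h1, one_mulVec, add_comm (b g), add_assoc, v2_add_self, add_zero]

omit hb in
lemma rb_inv_of {g : Γ} (hg : rb g = 1) : rb g⁻¹ = 1 := by
  have : rb g⁻¹ * rb g = 1 := by rw [← map_mul, inv_mul_cancel, map_one]
  rwa [hg, mul_one] at this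

/-- a cocycle of `GL₂(𝔽₂)` is a coboundary -/
theorem IsCoc2.coboundary_of_N1 (hsurj : ∀ M : M₂ (ZMod 2), IsUnit M.det → ∃ σ, rb σ = M)
    (h1 : ∀ u, rb u = 1 → b u = 0) : ∃ w, ∀ g, b g = rb g *ᵥ w + w := by
  obtain ⟨g₁, hg₁⟩ := hsurj !![0, 1; 1, 1] (by decide)
  set w : V2 := !![0, 1; 1, 1] *ᵥ b g₁ with hw
  refine ⟨w, ?_⟩
  -- `b' = b - dw`
  set b' : Γ → V2 := fun g => b g + (rb g *ᵥ w + w) with hb'
  have hcoc : IsCoc2 rb b' := by
    intro g h
    simp only [hb', hb g h, map_mul, mulVec_add, mulVec_mulVec]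
    have := v2_add_self (rb g *ᵥ w)
    linear_combination -this
  have h1' : ∀ u, rb u = 1 → b' u = 0 := by
    intro u hu
    simp only [hb', h1 u hu, hu, one_mulVec, zero_add, v2_add_self]
  have hg1 : b' g₁ = 0 := by
    simp only [hb', hg₁, hw]
    generalize b g₁ = v
    revert v
    decide
  have hgi : ∀ g, rb g = !![0, 1; 1, 1] → b' g = 0 := by
    intro g hg
    have h2 : g = g₁ * (g₁⁻¹ * g) := by group
    have h3 : rb (g₁⁻¹ * g) = 1 := by
      have : rb g₁⁻¹ * rb g₁ = 1 := by rw [← map_mul, inv_mul_cancel, map_one]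
      rw [map_mul, hg, ← hg₁, this]
    rw [h2, hcoc, hg1, h1' _ h3, mulVec_zero, add_zero]
  have hg2 : ∀ g, rb g = !![1, 1; 1, 0] → b' g = 0 := by
    intro g hg
    have h2 : b' (g * g) = 0 := by
      apply hgi
      rw [map_mul, hg]; decide
    rw [hcoc, hg] at h2
    generalize b' g = v at h2 ⊢
    revert v
    decide
  have hfin : ∀ g, b' g = 0 := by
    intro g
    have h2 := hcoc.conj g g₁
    rw [hg1, mulVec_zero, add_zero] at h2
    have hdet : IsUnit (rb g).det := by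
      have h3 : rb g * rb g⁻¹ = 1 := by rw [← map_mul, mul_inv_cancel, map_one]
      exact (Matrix.isUnit_iff_isUnit_det _).1 (IsUnit.of_mul_eq_one _ h3)
    have h4 : rb (g * g₁ * g⁻¹) * rb g = rb g * rb g₁ := by
      rw [← map_mul, ← map_mul, inv_mul_cancel_right]
    rw [hg₁] at h4
    have h5 : rb (g * g₁ * g⁻¹) = !![0, 1; 1, 1] ∨ rb (g * g₁ * g⁻¹) = !![1, 1; 1, 0] := by
      generalize rb (g * g₁ * g⁻¹) = M at h4 ⊢
      generalize rb g = M' at h4 hdet ⊢
      have hd : M'.det = 1 := by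
        revert hdet
        generalize M'.det = x
        revert x
        decide
      clear hdet
      revert M M'
      decide
    rcases h5 with h5 | h5
    · rw [hgi _ h5, h5] at h2
      generalize b' g = v at h2 ⊢
      revert v
      decide
    · rw [hg2 _ h5, h5] at h2
      generalize b' g = v at h2 ⊢
      revert v
      decide
  intro g
  exact v2_eq_of_add (hfin g)

omit hb in
lemma even_or_odd' {m : ℕ} (x : ZMod (2 ^ m)) : (∃ k, x = 2 * k) ∨ ∃ k, x = 1 + 2 * k := by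
  have : NeZero (2 ^ m) := ⟨by positivity⟩
  obtain ⟨n, rfl⟩ := exists_nat x
  obtain ⟨j, hj | hj⟩ := Nat.even_or_odd' n
  · exact Or.inl ⟨(j : ZMod (2 ^ m)), by rw [hj]; push_cast; ring⟩
  · exact Or.inr ⟨(j : ZMod (2 ^ m)), by rw [hj]; push_cast; ring⟩

omit hb in
lemma not_isUnit_two_mul {m : ℕ} (hm : m ≠ 0) (k : ZMod (2 ^ m)) : ¬ IsUnit (2 * k) := by
  intro h
  have h2 : IsUnit (2 : ZMod (2 ^ m)) := isUnit_of_mul_isUnit_left h
  have h3 : IsNilpotent (2 : ZMod (2 ^ m)) := ⟨m, by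
    have := ZMod.natCast_self (2 ^ m)
    exact_mod_cast this⟩
  have : Nontrivial (ZMod (2 ^ m)) := by
    have : Fact (1 < 2 ^ m) := ⟨Nat.one_lt_two_pow hm⟩
    infer_instance
  exact h3.not_isUnit h2

omit hb in
lemma isUnit_or_even {m : ℕ} (x : ZMod (2 ^ m)) : (∃ k, x = 2 * k) ∨ IsUnit x := by
  rcases even_or_odd' x with h | ⟨k, hk⟩
  · exact Or.inl h
  · exact Or.inr (isUnit_of_odd k hk)

omit hb in
lemma even_of_sq {m : ℕ} (hm : m ≠ 0) {x : ZMod (2 ^ m)} (h : ∃ k, x * x = 2 * k) :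
    ∃ k, x = 2 * k := by
  rcases isUnit_or_even x with h' | h'
  · exact h'
  · obtain ⟨k, hk⟩ := h
    exact absurd (hk ▸ h'.mul h') (not_isUnit_two_mul hm k)

omit hb in
/-- conjugation of a unipotent matrix to `Um 1` -/
lemma exists_conj_unip {m : ℕ} (hm : m ≠ 0) {T : M₂ (ZMod (2 ^ m))} (hT : (T - 1) * (T - 1) = 0)
    (hne : ¬ ∀ i j, ∃ k, (T - 1) i j = 2 * k) :
    ∃ P P' : M₂ (ZMod (2 ^ m)), P * P' = 1 ∧ P' * P = 1 ∧ P' * T * P = Um 1 := by
  set N := T - 1 with hN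
  have hTN : T = 1 + N := by rw [hN]; abel
  have e00 := congrFun (congrFun hT 0) 0
  have e01 := congrFun (congrFun hT 0) 1
  have e10 := congrFun (congrFun hT 1) 0
  have e11 := congrFun (congrFun hT 1) 1
  simp only [Matrix.mul_apply, Fin.sum_univ_two, Matrix.zero_apply] at e00 e01 e10 e11
  have red : ∀ P P' : M₂ (ZMod (2 ^ m)), P * P' = 1 → N * P = P * !![0, 1; 0, 0] →
      ∃ P P' : M₂ (ZMod (2 ^ m)), P * P' = 1 ∧ P' * P = 1 ∧ P' * T * P = Um 1 := by
    intro P P' h1 h2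
    have h3 : P' * P = 1 := mul_eq_one_comm.1 h1
    refine ⟨P, P', h1, h3, ?_⟩
    rw [hTN, mul_add, mul_one, add_mul, h3, mul_assoc, h2, ← mul_assoc, h3, one_mul, Um,
      Matrix.one_fin_two]
    ext i j
    fin_cases i <;> fin_cases j <;> simp
  rcases isUnit_or_even (N 1 0) with h10 | h10
  · -- `N 1 0` even: `N 0 0` even
    obtain ⟨k10, hk10⟩ := h10
    obtain ⟨k00, hk00⟩ : ∃ k, N 0 0 = 2 * k := even_of_sq hm ⟨- (N 0 1 * k10), by
      rw [hk10] at e00
      linear_combination e00⟩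
    rcases isUnit_or_even (N 0 1) with h01 | h01
    · obtain ⟨k01, hk01⟩ := h01
      obtain ⟨k11, hk11⟩ : ∃ k, N 1 1 = 2 * k := even_of_sq hm ⟨- (k10 * N 0 1), by
        rw [hk10] at e11
        linear_combination e11⟩
      exfalso
      apply hne
      intro i j
      fin_cases i <;> fin_cases j
      exacts [⟨_, hk00⟩, ⟨_, hk01⟩, ⟨_, hk10⟩, ⟨_, hk11⟩]
    · obtain ⟨u, hu⟩ := h01
      refine red !![N 0 1, 0; N 1 1, 1] !![(u⁻¹ : (ZMod (2 ^ m))ˣ), 0; -(N 1 1) * (u⁻¹ : (ZMod (2 ^ m))ˣ), 1] ?_ ?_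
      · rw [← hu, Matrix.mul_fin_two, Matrix.one_fin_two]
        ext i j
        fin_cases i <;> fin_cases j <;> simp
      · rw [Matrix.mul_fin_two]
        nth_rewrite 1 [Matrix.eta_fin_two N]
        rw [Matrix.mul_fin_two]
        ext i j
        fin_cases i <;> fin_cases j
        · simpa using e01
        · simp
        · simpa using e11
        · simp
  · obtain ⟨u, hu⟩ := h10
    refine red !![N 0 0, 1; N 1 0, 0] !![0, (u⁻¹ : (ZMod (2 ^ m))ˣ); 1, -(N 0 0) * (u⁻¹ : (ZMod (2 ^ m))ˣ)] ?_ ?_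
    · rw [← hu, Matrix.mul_fin_two, Matrix.one_fin_two]
      ext i j
      fin_cases i <;> fin_cases j <;> simp
    · rw [Matrix.mul_fin_two]
      nth_rewrite 1 [Matrix.eta_fin_two N]
      rw [Matrix.mul_fin_two]
      ext i j
      fin_cases i <;> fin_cases j
      · simpa using e00
      · simp
      · simpa using e10
      · simp

end

section

variable {m : ℕ} {Γ : Type*} [Group Γ] (r : Γ →* M₂ (ZMod (2 ^ m))) {rb : Γ →* M₂ (ZMod 2)}
  {b : Γ → V2}

/-- the subgroup of the `u` acting trivially with `b u = 0` -/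
def kerb (hb : IsCoc2 rb b) : Subgroup Γ where
  carrier := {u | rb u = 1 ∧ b u = 0}
  mul_mem' := by
    rintro u v ⟨h1, h2⟩ ⟨h3, h4⟩
    exact ⟨by rw [map_mul, h1, h3, mul_one], by rw [hb.mul_of h1, h2, h4, add_zero]⟩
  one_mem' := ⟨map_one _, hb.one⟩
  inv_mem' := by
    rintro u ⟨h1, h2⟩
    exact ⟨rb_inv_of h1, by rw [hb.inv_of h1, h2]⟩

lemma kerb_normal (hb : IsCoc2 rb b) : (kerb hb).Normal := by
  refine ⟨?_⟩
  rintro u ⟨h1, h2⟩ g
  refine ⟨?_, ?_⟩
  · rw [map_mul, map_mul, h1, mul_one, ← map_mul, mul_inv_cancel, map_one]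
  · rw [hb.conj_of h1, h2, mulVec_zero]

/-- reduction mod `2` -/
def redTwo (hm : m ≠ 0) : ZMod (2 ^ m) →+* ZMod 2 := ZMod.castHom (dvd_pow_self 2 hm) _

lemma redTwo_eq_zero_iff (hm : m ≠ 0) {x : ZMod (2 ^ m)} : redTwo hm x = 0 ↔ ∃ k, x = 2 * k := by
  constructor
  · intro h
    rcases even_or_odd' x with h' | ⟨k, rfl⟩
    · exact h'
    · exfalso
      rw [map_add, map_mul, map_one, map_ofNat, show (2 : ZMod 2) = 0 from rfl, zero_mul,
        add_zero] at h
      exact one_ne_zero h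
  · rintro ⟨k, rfl⟩
    rw [map_mul, map_ofNat, show (2 : ZMod 2) = 0 from rfl, zero_mul]

lemma redTwo_eq_iff (hm : m ≠ 0) {x y : ZMod (2 ^ m)} :
    redTwo hm x = redTwo hm y ↔ ∃ k, x = y + 2 * k := by
  rw [← sub_eq_zero, ← map_sub, redTwo_eq_zero_iff]
  refine exists_congr fun k => ?_
  rw [sub_eq_iff_eq_add, add_comm]

/-- a cocycle of a subgroup of `GL₂(ℤ/2^m)` surjecting onto `GL₂(𝔽₂)` and containing a
transvection `τ` is a coboundary if it vanishes at `τ²` -/
theorem coboundary_of_ker (hm : m ≠ 0) (hb : IsCoc2 rb b)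
    (hred : ∀ g, rb g = (r g).map (redTwo hm))
    (hsurj : ∀ M : M₂ (ZMod 2), IsUnit M.det → ∃ σ, rb σ = M) {τ : Γ}
    (hτ : (r τ - 1) * (r τ - 1) = 0) (hτ1 : rb τ ≠ 1) (hτb : b (τ * τ) = 0)
    (hker : ∀ u, r u = 1 → b u = 0) : ∃ w, ∀ g, b g = rb g *ᵥ w + w := by
  have hmap : ∀ M M' : M₂ (ZMod (2 ^ m)), (M * M').map (redTwo hm) =
      M.map (redTwo hm) * M'.map (redTwo hm) := fun M M' => Matrix.map_mul
  have hmap1 : (1 : M₂ (ZMod (2 ^ m))).map (redTwo hm) = 1 := by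
    rw [Matrix.map_one _ (map_zero _) (map_one _)]
  obtain ⟨P, P', hPP', hP'P, hP⟩ := exists_conj_unip hm hτ (by
    intro h
    apply hτ1
    rw [hred]
    ext i j
    obtain ⟨k, hk⟩ := h i j
    rw [Matrix.sub_apply, sub_eq_iff_eq_add, add_comm] at hk
    rw [Matrix.map_apply, (redTwo_eq_iff hm).2 ⟨k, hk⟩]
    fin_cases i <;> fin_cases j <;> simp)
  let r' : Γ →* M₂ (ZMod (2 ^ m)) :=
    { toFun := fun g => P' * r g * P
      map_one' := by rw [map_one, mul_one, hP'P]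
      map_mul' := fun g h => by
        calc P' * r (g * h) * P = P' * r g * 1 * (r h * P) := by
              rw [map_mul, mul_one]; simp only [mul_assoc]
          _ = P' * r g * (P * P') * (r h * P) := by rw [hPP']
          _ = _ := by simp only [mul_assoc] }
  have hr' : ∀ g, r' g = P' * r g * P := fun g => rfl
  have hr'inj : ∀ g h, r' g = r' h → r g = r h := by
    intro g h hgh
    rw [hr', hr'] at hgh
    calc r g = P * (P' * r g * P) * P' := by
          simp only [mul_assoc]; rw [hPP', mul_one, ← mul_assoc, hPP', one_mul]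
      _ = P * (P' * r h * P) * P' := by rw [hgh]
      _ = r h := by
          simp only [mul_assoc]; rw [hPP', mul_one, ← mul_assoc, hPP', one_mul]
  have hττ : rb (τ * τ) = 1 := by
    have h1 := congrArg (fun M => M.map (redTwo hm)) hτ
    simp only [hmap, Matrix.map_zero _ (map_zero (redTwo hm)), Matrix.map_sub _ (map_sub (redTwo hm)),
      hmap1, ← hred] at h1
    rw [map_mul]
    generalize rb τ = M at h1 ⊢
    revert M
    decide
  have hτK : τ * τ ∈ kerb hb := ⟨hττ, hτb⟩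
  -- an element with odd lower left entry
  obtain ⟨g, hg⟩ := hsurj (P.map (redTwo hm) * !![0, 1; 1, 0] * P'.map (redTwo hm)) (by
    rw [← Matrix.isUnit_iff_isUnit_det]
    have h1 : P.map (redTwo hm) * P'.map (redTwo hm) = 1 := by rw [← hmap, hPP', hmap1]
    have h2 : P'.map (redTwo hm) * P.map (redTwo hm) = 1 := by rw [← hmap, hP'P, hmap1]
    exact ((IsUnit.of_mul_eq_one _ h1).mul (by
      rw [Matrix.isUnit_iff_isUnit_det]; decide)).mul (IsUnit.of_mul_eq_one _ h2))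
  have hg' : (r' g).map (redTwo hm) = !![0, 1; 1, 0] := by
    have h2 : P'.map (redTwo hm) * P.map (redTwo hm) = 1 := by rw [← hmap, hP'P, hmap1]
    rw [hr', hmap, hmap, ← hred, hg]
    simp only [mul_assoc]
    rw [h2, mul_one, ← mul_assoc, h2, one_mul]
  have key : ∀ h, rb h = 1 → (r h).det = 1 → b h = 0 := by
    intro h hh hdet
    have h1 : InS r' (kerb hb) (r' h) := by
      refine inS_of_transvection (kerb_normal hb) (τ := τ) (g := g) hP hτK (c := r' g 1 0) rfl ?_ ?_ ?_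
      · rw [← redTwo_eq_iff hm, map_one]
        exact congrFun (congrFun hg' 1) 0
      · intro i j
        rw [← redTwo_eq_iff hm]
        have h2 : P'.map (redTwo hm) * P.map (redTwo hm) = 1 := by rw [← hmap, hP'P, hmap1]
        have h3 : (r' h).map (redTwo hm) = (1 : M₂ (ZMod (2 ^ m))).map (redTwo hm) := by
          rw [hr', hmap, hmap, ← hred, hh, mul_one, h2, hmap1]
        exact congrFun (congrFun h3 i) j
      · rw [hr', Matrix.det_mul, Matrix.det_mul, hdet, mul_one, ← Matrix.det_mul, hP'P,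
          Matrix.det_one]
    obtain ⟨u, ⟨hu1, hu2⟩, hu⟩ := h1
    have h2 := hr'inj u h hu
    have h3 : r (u⁻¹ * h) = 1 := by
      rw [map_mul, ← h2, ← map_mul, inv_mul_cancel, map_one]
    have h4 := hker _ h3
    have h5 : h = u * (u⁻¹ * h) := by group
    rw [h5, hb.mul_of hu1, hu2, h4, add_zero]
  refine hb.coboundary_of_N1 hsurj fun h hh => ?_
  have hinv : ∀ g, rb g *ᵥ b h = b h := by
    intro g
    have h1 : rb (g * h * g⁻¹) = 1 := by
      rw [map_mul, map_mul, hh, mul_one, ← map_mul, mul_inv_cancel, map_one]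
    have h2 := key (g * h * g⁻¹ * h⁻¹) (by rw [map_mul, h1, one_mul, rb_inv_of hh]) (by
      have hd : ∀ x : Γ, (r x).det * (r x⁻¹).det = 1 := fun x => by
        rw [← Matrix.det_mul, ← map_mul, mul_inv_cancel, map_one, Matrix.det_one]
      simp only [map_mul, Matrix.det_mul]
      linear_combination (r h).det * (r h⁻¹).det * hd g + hd h)
    rw [hb.mul_of h1, hb.conj_of hh, hb.inv_of hh] at h2
    exact v2_eq_of_add h2
  obtain ⟨g₁, hg₁⟩ := hsurj !![0, 1; 1, 1] (by decide)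
  have h1 := hinv g₁
  rw [hg₁] at h1
  generalize b h = v at h1 ⊢
  revert v
  decide

end

/-- the pairing on `𝔽₂²` -/
def pair2 (v w : V2) : ZMod 2 := v 0 * w 1 + v 1 * w 0

lemma pair2_add_left (v v' w : V2) : pair2 (v + v') w = pair2 v w + pair2 v' w := by
  simp only [pair2, Pi.add_apply]; ring

lemma pair2_add_right (v w w' : V2) : pair2 v (w + w') = pair2 v w + pair2 v w' := by
  simp only [pair2, Pi.add_apply]; ring

lemma pair2_mulVec {M : M₂ (ZMod 2)} (hM : IsUnit M.det) (v w : V2) :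
    pair2 (M *ᵥ v) (M *ᵥ w) = pair2 v w := by
  have hd : M.det = 1 := by
    revert hM
    generalize M.det = x
    revert x
    decide
  clear hM
  revert M v w
  decide

lemma pair2_eq_zero {M : M₂ (ZMod 2)} (hM : M ≠ 1) {v w : V2} (hv : M *ᵥ v = v)
    (hw : M *ᵥ w = w) : pair2 v w = 0 := by
  revert M v w
  decide

lemma aux_fix : ∀ (M' M : M₂ (ZMod 2)), M' * M' = 1 → M' ≠ 1 → (M - 1) * (M' - 1) = 0 →
    ∀ v : V2, M *ᵥ (v + M' *ᵥ v) = v + M' *ᵥ v := by decide

lemma aux_line : ∀ (M : M₂ (ZMod 2)), M * M = 1 → M ≠ 1 → ∀ v v' : V2, M *ᵥ v = v →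
    pair2 v' (v' + M *ᵥ v') = 1 → v = pair2 v' v • (v' + M *ᵥ v') := by decide

lemma aux_one : ∀ (M : M₂ (ZMod 2)), M * M = 1 → M ≠ 1 → ∀ v : V2, v + M *ᵥ v ≠ 0 →
    pair2 v (v + M *ᵥ v) = 1 := by decide

lemma aux_exists_ne : ∀ (M : M₂ (ZMod 2)), M ≠ 1 → ∃ v : V2, v + M *ᵥ v ≠ 0 := by decide

lemma aux_trans : ∀ v w : V2, v ≠ 0 → w ≠ 0 → ∃ M : M₂ (ZMod 2), M.det = 1 ∧ M *ᵥ v = w := by
  decide

end Fermat.Agent.TwoAdic
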