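import Mathlib

/-!
# The counting argument `T' = T`
-/

set_option autoImplicit false

open IsLocalRing TensorProduct

namespace Fermat.Agent.TwoAdic

section Gen

variable {O : Type*} [CommRing O] [IsLocalRing O]

/-- Nakayama: a finite module is generated by `dim_k (k ⊗ M)` elements. -/
theorem exists_surjective_fin (M : Type*) [AddCommGroup M] [Module O M] [Module.Finite O M] :
    ∃ g : (Fin (Module.finrank (ResidueField O) (ResidueField O ⊗[O] M)) → O) →ₗ[O] M,
      Function.Surjective g := by
  classical
  set b := Module.finBasis (ResidueField O) (ResidueField O ⊗[O] M) with hb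
  have hmk : Function.Surjective (TensorProduct.mk O (ResidueField O) M 1) := by
    intro x
    induction x using TensorProduct.induction_on with
    | zero => exact ⟨0, map_zero _⟩
    | tmul a m =>
      obtain ⟨r, rfl⟩ := residue_surjective a
      refine ⟨r • m, ?_⟩
      rw [TensorProduct.mk_apply, TensorProduct.tmul_smul, TensorProduct.smul_tmul',
        Algebra.smul_def, mul_one]
      rfl
    | add x y hx hy =>
      obtain ⟨a, rfl⟩ := hx
      obtain ⟨c, rfl⟩ := hy
      exact ⟨a + c, map_add _ _ _⟩
  choose f hf using fun i => hmk (b i)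
  have h1 := IsLocalRing.span_eq_top_of_tmul_eq_basis (R := O) f b (fun i => hf i)
  refine ⟨Fintype.linearCombination O f, ?_⟩
  rw [← LinearMap.range_eq_top, Fintype.range_linearCombination, h1]

end Gen

variable {O : Type*} [CommRing O] [IsDomain O] [IsPrincipalIdealRing O] [IsLocalRing O]

omit [IsPrincipalIdealRing O] in
/-- a subalgebra of `O ^ I` separating the coordinates has rank at least `#I` -/
theorem card_le_finrank_of_separates {I : Type*} [Fintype I] {S : Subalgebra O (I → O)}
    [Module.Finite O S] (hsep : ∀ i j, i ≠ j → ∃ t ∈ S, t i ≠ t j) :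
    Fintype.card I ≤ Module.finrank O S := by
  classical
  choose! t ht ht' using hsep
  -- `e i ∈ S` supported at `i`
  have he : ∀ i, ∃ e ∈ S, e i ≠ 0 ∧ ∀ j, j ≠ i → e j = 0 := by
    intro i
    refine ⟨∏ j ∈ Finset.univ.erase i, (t i j - algebraMap O (I → O) (t i j j)), ?_, ?_, ?_⟩
    · refine Subalgebra.prod_mem _ fun j hj => ?_
      exact S.sub_mem (ht i j (Finset.ne_of_mem_erase hj).symm) (S.algebraMap_mem _)
    · rw [Finset.prod_apply]
      refine Finset.prod_ne_zero_iff.mpr fun j hj => ?_
      rw [Pi.sub_apply, Pi.algebraMap_apply, Algebra.algebraMap_self, RingHom.id_apply]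
      exact sub_ne_zero.mpr (ht' i j (Finset.ne_of_mem_erase hj).symm)
    · intro j hj
      rw [Finset.prod_apply]
      refine Finset.prod_eq_zero (Finset.mem_erase.mpr ⟨hj, Finset.mem_univ j⟩) ?_
      rw [Pi.sub_apply, Pi.algebraMap_apply, Algebra.algebraMap_self, RingHom.id_apply, sub_self]
  choose e heS hei hej using he
  have hli : LinearIndependent O (fun i => (⟨e i, heS i⟩ : S)) := by
    rw [Fintype.linearIndependent_iff]
    intro g hg i
    have h1 := congrFun (congrArg Subtype.val hg) i
    rw [AddSubmonoidClass.coe_finsetSum, Finset.sum_apply, Finset.sum_eq_single i] at h1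
    · have h2 : g i * e i i = 0 := h1
      exact (mul_eq_zero.mp h2).resolve_right (hei i)
    · intro j _ hj
      change g j * e j i = 0
      rw [hej j i hj.symm, mul_zero]
    · intro h; exact absurd (Finset.mem_univ i) h
  exact hli.fintype_card_le_finrank

/-- **The counting argument.** -/
theorem injective_of_count {T : Type*} [CommRing T] [Algebra O T] [Module.Finite O T]
    {I : Type*} [Fintype I] (p : T →ₐ[O] (I → O)) (hsep : ∀ i j, i ≠ j → ∃ t, p t i ≠ p t j)
    (hD : Module.finrank (ResidueField O) (ResidueField O ⊗[O] T) ≤ Fintype.card I) :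
    Function.Injective p ∧
      Fintype.card I = Module.finrank (ResidueField O) (ResidueField O ⊗[O] T) := by
  classical
  have hgen := exists_surjective_fin (O := O) T
  generalize Module.finrank (ResidueField O) (ResidueField O ⊗[O] T) = D at *
  obtain ⟨g, hg⟩ := hgen
  let S := p.range
  have hfin : Module.Finite O S := Module.Finite.of_surjective p.rangeRestrict.toLinearMap
    p.rangeRestrict_surjective
  have h1 : Fintype.card I ≤ Module.finrank O S := by
    apply card_le_finrank_of_separates
    intro i j hij
    obtain ⟨t, ht⟩ := hsep i j hij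
    exact ⟨p t, ⟨t, rfl⟩, ht⟩
  have hnz : Module.IsTorsionFree O (I → O) := inferInstance
  have htf : Module.IsTorsionFree O S := inferInstance
  have hfree : Module.Free O S := inferInstance
  let q : (Fin D → O) →ₗ[O] S := p.rangeRestrict.toLinearMap ∘ₗ g
  have hq : Function.Surjective q := p.rangeRestrict_surjective.comp hg
  have h2 : Module.finrank O S ≤ D := by
    have := LinearMap.finrank_le_finrank_of_surjective hq
    rwa [Module.finrank_fin_fun] at this
  have h3 : Module.finrank O S = D := le_antisymm h2 (hD.trans h1)
  have h4 : Fintype.card I = D := le_antisymm (h1.trans h2) hD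
  have hqi : Function.Injective q := by
    let e : S ≃ₗ[O] (Fin D → O) := LinearEquiv.ofFinrankEq S (Fin D → O) (by
      rw [h3, Module.finrank_fin_fun])
    have h5 : Function.Surjective (e.toLinearMap ∘ₗ q) := e.surjective.comp hq
    have h6 := OrzechProperty.injective_of_surjective_endomorphism (e.toLinearMap ∘ₗ q) h5
    exact Function.Injective.of_comp h6
  refine ⟨?_, h4⟩
  rw [injective_iff_map_eq_zero]
  intro t ht
  obtain ⟨y, rfl⟩ := hg t
  have h7 : q y = 0 := Subtype.ext ht
  rw [(injective_iff_map_eq_zero q).mp hqi y h7, map_zero]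

end Fermat.Agent.TwoAdic
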