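import Fermat.Agent.TwoAdic.D1Herb
import Fermat.Agent.S14Lib.MinkUnit

set_option autoImplicit false
set_option linter.unusedSectionVars false

/-!
# The Herbrand quotient of the units for a cyclic extension of an imaginary quadratic field
-/

open NumberField NumberField.Units NumberField.Units.dirichletUnitTheorem Module

namespace Fermat.Agent.TwoAdic

section Abstract

theorem finite_quot_of_smul {E : Type} [AddCommGroup E] [Module.Finite ℤ E] (B : AddSubgroup E)
    {k : ℕ} (hk : k ≠ 0) (h : ∀ x, k • x ∈ B) : Finite (E ⧸ B) := by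
  have h1 : Module.Finite ℤ (E ⧸ B) :=
    Module.Finite.of_surjective (QuotientAddGroup.mk' B).toIntLinearMap
      (QuotientAddGroup.mk'_surjective B)
  apply Module.finite_of_fg_torsion (E ⧸ B)
  intro x
  obtain ⟨x, rfl⟩ := QuotientAddGroup.mk_surjective x
  refine ⟨⟨(k : ℤ), mem_nonZeroDivisors_of_ne_zero (by exact_mod_cast hk)⟩, ?_⟩
  change (k : ℤ) • (QuotientAddGroup.mk x : E ⧸ B) = 0
  rw [natCast_zsmul]
  exact (QuotientAddGroup.eq_zero_iff _).mpr (h x)

theorem abs_mink {G E U : Type} [Group G] [Fintype G] [AddCommGroup E] [AddCommGroup U]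
    [Module.Finite ℤ E] (ρ : Representation ℤ G E) (e₀ : E) {m : ℕ} (hm0 : m ≠ 0) (π : E →+ U)
    (hker : ∀ x, π x = 0 → m • x = 0) (htf : ∀ (k : ℤ) (x : U), k ≠ 0 → k • x = 0 → x = 0)
    (hfix : ∀ x, (∀ g, ρ g x = x) → m • x = 0)
    (hind : ∀ a : G → ℤ, a 1 = 0 → ∑ g, a g • π (ρ g e₀) = 0 → ∀ g, a g = 0) {m' : ℕ}
    (hm' : m' ≠ 0) (hidx : ∀ x : E, ∃ c : G → ℤ, m' • π x = ∑ g, c g • π (ρ g e₀)) :
    (∑ g : G, ρ g (m • e₀) = 0) ∧
    (∀ a : G → ℤ, ∑ g, a g • ρ g (m • e₀) = 0 → ∀ g, a g = a 1) ∧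
    Finite (E ⧸ (phiE ρ (m • e₀)).range) := by
  classical
  have hmul : ∀ g, ρ g (m • e₀) = m • ρ g e₀ := fun g => map_nsmul _ _ _
  have hN : m • ∑ g : G, ρ g e₀ = 0 := by
    rw [← NN_apply]
    exact hfix _ fun g => smul_NN ρ g e₀
  refine ⟨?_, ?_, ?_⟩
  · simp_rw [hmul]
    rw [← Finset.smul_sum]
    exact hN
  · intro a ha g
    simp_rw [hmul] at ha
    have h3 : m • ∑ g, (a g - a 1) • ρ g e₀ = 0 := by
      have h4 : ∑ g, (a g - a 1) • ρ g e₀ =
          ∑ g, a g • ρ g e₀ - a 1 • ∑ g, ρ g e₀ := by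
        rw [Finset.smul_sum, ← Finset.sum_sub_distrib]
        exact Finset.sum_congr rfl fun g _ => sub_smul _ _ _
      rw [h4, nsmul_sub, smul_comm m (a 1), hN, smul_zero, sub_zero, ← ha, Finset.smul_sum]
      exact Finset.sum_congr rfl fun g _ => smul_comm _ _ _
    have h5 : ∑ g, (a g - a 1) • π (ρ g e₀) = 0 := by
      apply htf (m : ℤ) _ (by exact_mod_cast hm0)
      have := congrArg π h3
      rw [map_zero, map_nsmul, map_sum] at this
      rw [natCast_zsmul, ← this]
      congr 1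
      exact Finset.sum_congr rfl fun g _ => (map_zsmul π _ _).symm
    have h6 := hind (fun g => a g - a 1) (sub_self _) h5 g
    linarith
  · apply finite_quot_of_smul (k := m * m') _ (mul_ne_zero hm0 hm')
    intro x
    obtain ⟨c, hc⟩ := hidx x
    have h4 : π (m' • x - ∑ g, c g • ρ g e₀) = 0 := by
      rw [map_sub, map_nsmul, map_sum, hc, sub_eq_zero]
      exact Finset.sum_congr rfl fun w _ => (map_zsmul _ _ _).symm
    have h5 := hker _ h4
    rw [nsmul_sub, sub_eq_zero] at h5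
    rw [mul_smul, h5, Finset.smul_sum]
    refine sum_mem fun w _ => ?_
    rw [smul_comm, ← hmul]
    apply zsmul_mem
    refine ⟨Pi.single w 1, ?_⟩
    rw [phiE_apply, Finset.sum_eq_single w]
    · simp
    · intro g _ hg
      rw [Pi.single_eq_of_ne hg, zero_smul]
    · intro h'; exact absurd (Finset.mem_univ _) h'

end Abstract

variable (K L : Type) [Field K] [NumberField K] [Field L] [NumberField L] [Algebra K L]

/-- Galois action on units -/
noncomputable def uactL (σ : Gal(L/K)) : (𝓞 L)ˣ →* (𝓞 L)ˣ :=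
  Units.map (MulSemiringAction.toRingHom Gal(L/K) (𝓞 L) σ : 𝓞 L →* 𝓞 L)

@[simp]
theorem coe_uactL (σ : Gal(L/K)) (x : (𝓞 L)ˣ) :
    ((uactL K L σ x : (𝓞 L)ˣ) : 𝓞 L) = σ • (x : 𝓞 L) := rfl

theorem coe_coe_uactL (σ : Gal(L/K)) (x : (𝓞 L)ˣ) :
    (((uactL K L σ x : (𝓞 L)ˣ) : 𝓞 L) : L) = σ ((x : 𝓞 L) : L) := rfl

/-- The unit representation. -/
noncomputable def uRepL : Representation ℤ Gal(L/K) (Additive (𝓞 L)ˣ) where
  toFun σ := (MonoidHom.toAdditive (uactL K L σ)).toIntLinearMap
  map_one' := by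
    apply LinearMap.ext
    intro x
    apply Additive.toMul.injective
    apply Units.ext
    change (1 : Gal(L/K)) • ((x.toMul : (𝓞 L)ˣ) : 𝓞 L) = _
    rw [one_smul]; rfl
  map_mul' σ τ := by
    apply LinearMap.ext
    intro x
    apply Additive.toMul.injective
    apply Units.ext
    change (σ * τ) • ((x.toMul : (𝓞 L)ˣ) : 𝓞 L) = σ • (τ • ((x.toMul : (𝓞 L)ˣ) : 𝓞 L))
    rw [mul_smul]

theorem uRepL_apply (σ : Gal(L/K)) (x : Additive (𝓞 L)ˣ) :
    uRepL K L σ x = Additive.ofMul (uactL K L σ x.toMul) := rfl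

theorem card_infinitePlace_of_complex (F : Type) [Field F] [NumberField F]
    [IsTotallyComplex F] : finrank ℚ F = 2 * Fintype.card (InfinitePlace F) := by
  rw [IsTotallyComplex.finrank, InfinitePlace.card_eq_nrRealPlaces_add_nrComplexPlaces,
    IsTotallyComplex.nrRealPlaces_eq_zero, zero_add]

variable [IsGalois K L] [hC : IsTotallyComplex K] (h2 : finrank ℚ K = 2)

include h2 in
omit [IsGalois K L] [Algebra K L] [NumberField L] [Field L] in
theorem card_infinitePlace_base : Fintype.card (InfinitePlace K) = 1 := by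
  have h := card_infinitePlace_of_complex K
  omega

omit [NumberField K] [NumberField L] [IsGalois K L] in
include hC in
theorem isTotallyComplexL : IsTotallyComplex L := isTotallyComplex_of_algebra K L

include h2 in
theorem card_infinitePlace : Fintype.card (InfinitePlace L) = Fintype.card Gal(L/K) := by
  have : IsTotallyComplex L := isTotallyComplexL K L
  have h := card_infinitePlace_of_complex L
  have h3 : finrank ℚ K * finrank K L = finrank ℚ L := Module.finrank_mul_finrank ℚ K L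
  rw [h2, h] at h3
  rw [← Nat.card_eq_fintype_card (α := Gal(L/K)), IsGalois.card_aut_eq_finrank]
  omega

include h2 in
theorem smul_bijective (w : InfinitePlace L) :
    Function.Bijective (fun g : Gal(L/K) => g • w) := by
  classical
  rw [Fintype.bijective_iff_surjective_and_card]
  refine ⟨fun w' => ?_, (card_infinitePlace K L h2).symm⟩
  have hsub : Subsingleton (InfinitePlace K) := by
    rw [← Fintype.card_le_one_iff_subsingleton, card_infinitePlace_base K h2]
  exact InfinitePlace.exists_smul_eq_of_comap_eq (Subsingleton.elim _ _)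

include h2 in
/-- invariant units are torsion -/
theorem mem_torsion_of_fixed (u : (𝓞 L)ˣ) (hu : ∀ g : Gal(L/K), uactL K L g u = u) :
    u ∈ torsion L := by
  classical
  rw [NumberField.Units.mem_torsion]
  intro w
  have h1 : ∀ w' : InfinitePlace L, w' ((u : 𝓞 L) : L) = w ((u : 𝓞 L) : L) := by
    intro w'
    obtain ⟨g, hg⟩ := (smul_bijective K L h2 w).2 w'
    change g • w = w' at hg
    rw [← hg, InfinitePlace.smul_apply]
    have h3 := congrArg (fun v : (𝓞 L)ˣ => ((v : 𝓞 L) : L)) (hu g)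
    change g ((u : 𝓞 L) : L) = ((u : 𝓞 L) : L) at h3
    conv_lhs => rw [← h3]
    congr 1
    exact g.symm_apply_apply _
  have h4 := InfinitePlace.prod_eq_abs_norm ((u : 𝓞 L) : L)
  have h5 : |Algebra.norm ℚ ((u : 𝓞 L) : L)| = 1 := by
    have := NumberField.isUnit_iff_norm.mp u.isUnit
    rwa [RingOfIntegers.coe_norm] at this
  have h6 : ((|Algebra.norm ℚ ((u : 𝓞 L) : L)| : ℚ) : ℝ) = 1 := by
    rw [h5, Rat.cast_one]
  rw [h6] at h4
  simp_rw [h1] at h4
  rw [Finset.prod_pow_eq_pow_sum] at h4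
  have h7 : ∑ w : InfinitePlace L, w.mult ≠ 0 := by
    rw [InfinitePlace.sum_mult_eq]
    exact Module.finrank_pos.ne'
  exact (pow_eq_one_iff_of_nonneg (by positivity) h7).mp h4

set_option backward.isDefEq.respectTransparency.types false in
open scoped Classical in
theorem linearIndependent_ul (u : InfinitePlace L → (𝓞 L)ˣ)
    (hu : ∀ w₁ w : InfinitePlace L, w ≠ w₁ → Real.log (w (u w₁)) < 0) :
    LinearIndependent ℤ (fun w : {w : InfinitePlace L // w ≠ w₀} => S14Lib.ulMk L (u w)) := by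
  have h2 := (S14Lib.linearIndependent_log L u hu).restrict_scalars' ℤ
  refine LinearIndependent.of_comp (S14Lib.ulLog L).toIntLinearMap ?_
  exact h2

/-- the class in the unit lattice, as a homomorphism -/
noncomputable def ulHom : Additive (𝓞 L)ˣ →+ S14Lib.UL L :=
  MonoidHom.toAdditive (QuotientGroup.mk' (torsion L))

theorem ulHom_apply (x : Additive (𝓞 L)ˣ) : ulHom L x = S14Lib.ulMk L x.toMul := rfl

theorem ulHom_eq_zero_iff (x : Additive (𝓞 L)ˣ) : ulHom L x = 0 ↔ x.toMul ∈ torsion L :=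
  S14Lib.ulMk_eq_zero_iff L x.toMul

theorem torsion_smul {x : Additive (𝓞 L)ˣ} (h : x.toMul ∈ torsion L) :
    Nat.card (torsion L) • x = 0 := by
  apply Additive.toMul.injective
  change x.toMul ^ Nat.card (torsion L) = 1
  have := pow_card_eq_one' (x := (⟨x.toMul, h⟩ : torsion L))
  exact congrArg Subtype.val this

include h2 in
/-- Existence of a Minkowski unit. -/
theorem exists_mink : ∃ η : Additive (𝓞 L)ˣ, (∑ g : Gal(L/K), uRepL K L g η = 0) ∧
    (∀ a : Gal(L/K) → ℤ, ∑ g, a g • uRepL K L g η = 0 → ∀ g, a g = a 1) ∧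
    Finite (Additive (𝓞 L)ˣ ⧸ (phiE (uRepL K L) η).range) := by
  classical
  obtain ⟨η₀, hη₀⟩ := exists_unit L w₀
  have hbij := smul_bijective K L h2 (w₀ : InfinitePlace L)
  obtain ⟨s, hs⟩ : ∃ s : InfinitePlace L → Gal(L/K), ∀ w, s w • (w₀ : InfinitePlace L) = w :=
    ⟨fun w => (hbij.2 w).choose, fun w => (hbij.2 w).choose_spec⟩
  have hsg : ∀ g : Gal(L/K), s (g • w₀) = g := fun g => hbij.1 (hs _)
  have hs0 : s w₀ = 1 := hbij.1 (by
    change s w₀ • w₀ = (1 : Gal(L/K)) • w₀
    rw [hs, one_smul])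
  have hu : ∀ w₁ w : InfinitePlace L, w ≠ w₁ →
      Real.log (w (((uactL K L (s w₁) η₀ : (𝓞 L)ˣ) : 𝓞 L) : L)) < 0 := by
    intro w₁ w hw
    have h1 : w (((uactL K L (s w₁) η₀ : (𝓞 L)ˣ) : 𝓞 L) : L) =
        ((s w₁)⁻¹ • w) (((η₀ : (𝓞 L)ˣ) : 𝓞 L) : L) := by
      rw [InfinitePlace.smul_apply]
      rfl
    rw [h1]
    apply hη₀
    intro h2
    apply hw
    rw [← hs w₁, ← h2, smul_inv_smul]
  have hli := linearIndependent_ul L (fun w => uactL K L (s w) η₀) hu
  obtain ⟨m', hm', hidx⟩ := S14Lib.exists_index L (fun w => uactL K L (s w) η₀) hu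
  have hue : ∀ g, ulHom L (uRepL K L g (Additive.ofMul η₀)) = S14Lib.ulMk L (uactL K L g η₀) :=
    fun _ => rfl
  have hfinZ : Module.Finite ℤ (Additive (𝓞 L)ˣ) := inferInstance
  refine ⟨Nat.card (torsion L) • Additive.ofMul η₀, ?_⟩
  refine abs_mink (uRepL K L) (Additive.ofMul η₀) Nat.card_pos.ne' (ulHom L) ?_ ?_ ?_ ?_ hm' ?_
  · intro x hx
    exact torsion_smul L ((ulHom_eq_zero_iff L x).mp hx)
  · intro k x hk hx
    exact S14Lib.ul_torsionfree L k x hk hx
  · intro x hx
    apply torsion_smul L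
    apply mem_torsion_of_fixed K L h2
    intro g
    exact congrArg Additive.toMul (hx g)
  · intro a ha1 ha g
    have h6 : ∑ w : InfinitePlace L, a (s w) • S14Lib.ulMk L (uactL K L (s w) η₀) = 0 := by
      rw [← ha]
      refine (Fintype.sum_equiv (Equiv.ofBijective _ hbij) _ _ fun g => ?_).symm
      rw [Equiv.ofBijective_apply, hsg, hue]
    have h7 : ∑ w : {w : InfinitePlace L // w ≠ w₀},
        a (s w) • S14Lib.ulMk L (uactL K L (s w) η₀) = 0 := by
      rw [← h6]
      rw [← Fintype.sum_subtype_add_sum_subtype (fun w : InfinitePlace L => w ≠ w₀)]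
      have h8 : ∑ w : {w : InfinitePlace L // ¬ w ≠ w₀},
        a (s w) • S14Lib.ulMk L (uactL K L (s w) η₀) = 0 := by
        apply Finset.sum_eq_zero
        rintro ⟨w, hw⟩ _
        rw [not_not] at hw
        simp only [hw, hs0, ha1, zero_smul]
      rw [h8, add_zero]
    have h9 := (Fintype.linearIndependent_iff.mp hli) (fun w => a (s w)) h7
    by_cases hg : g • w₀ = (w₀ : InfinitePlace L)
    · have : g = 1 := hbij.1 (by
        change g • w₀ = (1 : Gal(L/K)) • w₀
        rw [hg, one_smul])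
      rw [this, ha1]
    · have := h9 ⟨g • w₀, hg⟩
      simpa only [hsg] using this
  · intro x
    have h3 := hidx (ulHom L x)
    rw [Submodule.mem_span_range_iff_exists_fun] at h3
    obtain ⟨c, hc⟩ := h3
    refine ⟨fun g => c (g • w₀), ?_⟩
    rw [← hc]
    refine (Fintype.sum_equiv (Equiv.ofBijective _ hbij) _ _ fun g => ?_).symm
    rw [Equiv.ofBijective_apply, hsg, hue]

include h2 in
/-- **The Herbrand quotient of the units.** -/
theorem card_HH_units {σ : Gal(L/K)} (hσ : ∀ g, g ∈ Subgroup.zpowers σ) :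
    Nat.card (CFT.HH (NN (uRepL K L)) (TT (uRepL K L) σ)) =
      finrank K L * Nat.card (CFT.HH (TT (uRepL K L) σ) (NN (uRepL K L))) := by
  obtain ⟨η, h3, h4, h5⟩ := exists_mink K L h2
  rw [card_HH_minkowski (uRepL K L) η hσ h3 h4 h5, ← Nat.card_eq_fintype_card,
    IsGalois.card_aut_eq_finrank]

end Fermat.Agent.TwoAdic
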