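import Fermat.Agent.TwoAdic.D1Ideal
import Fermat.Agent.TwoAdic.D1Units

set_option autoImplicit false
set_option linter.unusedSectionVars false

/-!
# Class field theory inequality for unramified cyclic extensions of imaginary quadratic fields
-/

open NumberField Ideal Module
open scoped Pointwise nonZeroDivisors

namespace Fermat.Agent.TwoAdic

section Count

/-- Counting fibres. -/
theorem card_le_of_fiber {A B : Type*} [CommGroup A] [Finite A] [Finite B] (S : Subgroup A)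
    (T : Subgroup A) (u : S → B) (hu : ∀ c c' : S, u c = u c' → (c : A) / c' ∈ T) :
    Nat.card S ≤ Nat.card B * Nat.card T := by
  classical
  rw [← Nat.card_prod]
  have key : ∀ b : Set.range u, ∃ c : S, u c = b := fun b => b.2
  choose r hr using key
  refine Nat.card_le_card_of_injective
    (fun c : S => ((u c, ⟨(c : A) / r ⟨u c, c, rfl⟩, hu _ _ (hr ⟨u c, c, rfl⟩).symm⟩) : B × T)) ?_
  intro c c' h
  obtain ⟨h1, h2⟩ := Prod.ext_iff.mp h
  have h1' : u c = u c' := h1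
  have h2' : (c : A) / r ⟨u c, c, rfl⟩ = (c' : A) / r ⟨u c', c', rfl⟩ := congrArg Subtype.val h2
  have h3 : r ⟨u c, c, rfl⟩ = r ⟨u c', c', rfl⟩ := by
    congr 1
    exact Subtype.ext h1'
  rw [h3, div_left_inj] at h2'
  exact Subtype.ext h2'

end Count

variable {K L : Type} [Field K] [NumberField K] [Field L] [NumberField L] [Algebra K L]

/-- `c ↦ σ c / c` -/
noncomputable def cdiff (σ : Gal(L/K)) : ClassGroup (𝓞 L) →* ClassGroup (𝓞 L) :=
  cactL σ / MonoidHom.id _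

theorem mem_ker_cdiff {σ : Gal(L/K)} {c : ClassGroup (𝓞 L)} :
    c ∈ (cdiff σ).ker ↔ cactL σ c = c := by
  rw [MonoidHom.mem_ker]
  change cactL σ c / c = 1 ↔ _
  rw [div_eq_one]

theorem card_range_clNorm_le (σ : Gal(L/K)) :
    Nat.card (clNorm K L).range ≤ Nat.card (cdiff σ).ker := by
  rw [← Subgroup.index_ker, ← Subgroup.index_range]
  apply Nat.le_of_dvd (Nat.pos_of_ne_zero Subgroup.index_ne_zero_of_finite)
  apply Subgroup.index_dvd_of_le
  rintro _ ⟨c, rfl⟩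
  rw [MonoidHom.mem_ker]
  change clNorm K L (cactL σ c / c) = 1
  rw [map_div, clNorm_cactL, div_self']

theorem coe_smulL (g : Gal(L/K)) (x : 𝓞 L) : ((g • x : 𝓞 L) : L) = g (x : L) := rfl

theorem norm_coe (x : 𝓞 L) :
    ((Algebra.intNorm (𝓞 K) (𝓞 L) x : 𝓞 K) : K) = Algebra.norm K (x : L) :=
  Algebra.algebraMap_intNorm x

theorem exists_data {σ : Gal(L/K)} {I : (Ideal (𝓞 L))⁰}
    (h : cactL σ (ClassGroup.mk0 I) = ClassGroup.mk0 I) :
    ∃ x y : 𝓞 L, x ≠ 0 ∧ y ≠ 0 ∧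
      span {x} * σ • (I : Ideal (𝓞 L)) = span {y} * (I : Ideal (𝓞 L)) ∧
      ∃ v : (𝓞 K)ˣ, ((v : 𝓞 K) : K) * Algebra.norm K (x : L) = Algebra.norm K (y : L) := by
  have hcomm : SMulCommClass Gal(L/K) (𝓞 K) (𝓞 L) := ⟨fun g a b => by
    apply RingOfIntegers.ext
    change g ((a • b : 𝓞 L) : L) = ((a • (g • b) : 𝓞 L) : L)
    rw [Algebra.smul_def, Algebra.smul_def]
    change g (algebraMap K L (a : K) * (b : L)) = algebraMap K L (a : K) * g (b : L)
    rw [map_mul, g.commutes]⟩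
  rw [cactL_mk0, ClassGroup.mk0_eq_mk0_iff] at h
  obtain ⟨x, y, hx, hy, hxy⟩ := h
  have hxy' : span {x} * σ • (I : Ideal (𝓞 L)) = span {y} * (I : Ideal (𝓞 L)) := hxy
  refine ⟨x, y, hx, hy, hxy', ?_⟩
  have h1 := congrArg (relNorm (𝓞 K)) hxy'
  rw [map_mul, map_mul, relNorm_smul, relNorm_singleton, relNorm_singleton] at h1
  have hI : relNorm (𝓞 K) (I : Ideal (𝓞 L)) ≠ 0 := by
    intro h
    exact mem_nonZeroDivisors_iff_ne_zero.1 I.2 (relNorm_eq_bot_iff.mp h)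
  have h2 := mul_right_cancel₀ hI h1
  rw [Ideal.span_singleton_eq_span_singleton] at h2
  obtain ⟨v, hv⟩ := h2
  refine ⟨v, ?_⟩
  rw [← norm_coe, ← norm_coe, ← hv, mul_comm]
  rfl

variable [IsGalois K L]

theorem span_invariant {σ : Gal(L/K)} (hσ : ∀ g, g ∈ Subgroup.zpowers σ) {J : Ideal (𝓞 L)}
    (h : σ • J = J) (g : Gal(L/K)) : g • J = J := by
  have h1 : Subgroup.zpowers σ ≤ MulAction.stabilizer Gal(L/K) J := by
    rw [Subgroup.zpowers_le]
    exact h
  exact h1 (hσ g)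

/-- Hilbert 90 with an integral witness. -/
theorem exists_int_of_norm_one {σ : Gal(L/K)} (hσ : ∀ g, g ∈ Subgroup.zpowers σ) {q : L}
    (hq : Algebra.norm K q = 1) : ∃ w : 𝓞 L, w ≠ 0 ∧ (w : L) = q * σ (w : L) := by
  have hcyc : IsCyclic Gal(L/K) := ⟨σ, hσ⟩
  obtain ⟨z, hz⟩ := groupCohomology.exists_div_of_norm_eq_one hσ hq
  have halg : Algebra.IsAlgebraic ℤ L :=
    (IsFractionRing.comap_isAlgebraic_iff (A := ℤ) (K := ℚ) (C := L)).mpr inferInstance
  obtain ⟨d, hd0, hd⟩ := (halg.isAlgebraic (z : L)).exists_integral_multiple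
  refine ⟨⟨d • (z : L), hd⟩, ?_, ?_⟩
  · intro h
    have h1 : d • (z : L) = 0 := congrArg (fun t : 𝓞 L => (t : L)) h
    rw [zsmul_eq_mul] at h1
    rcases mul_eq_zero.mp h1 with h2 | h2
    · exact hd0 (by exact_mod_cast h2)
    · exact z.ne_zero h2
  · change d • (z : L) = q * σ (d • (z : L))
    rw [map_zsmul, mul_smul_comm, ← hz, div_mul_cancel₀]
    exact (map_ne_zero σ).mpr z.ne_zero

theorem toMul_NN (e : Additive (𝓞 L)ˣ) :
    (NN (uRepL K L) e).toMul = ∏ g : Gal(L/K), uactL K L g e.toMul := by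
  rw [NN_apply, toMul_sum]
  rfl

theorem coe_prod_uactL (e : (𝓞 L)ˣ) :
    (((∏ g : Gal(L/K), uactL K L g e : (𝓞 L)ˣ) : 𝓞 L) : L) =
      algebraMap K L (Algebra.norm K ((e : 𝓞 L) : L)) := by
  rw [Algebra.norm_eq_prod_automorphisms, Units.coe_prod]
  exact map_prod (algebraMap (𝓞 L) L) _ _

/-- The key step: comparing two invariant ideal classes. -/
theorem exists_clExt {σ : Gal(L/K)} (hσ : ∀ g, g ∈ Subgroup.zpowers σ)
    (hunr : ∀ P : Ideal (𝓞 L), P.IsPrime → P ≠ ⊥ → P.inertia Gal(L/K) = ⊥)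
    {I I' : (Ideal (𝓞 L))⁰} {x y x' y' : 𝓞 L} (hx : x ≠ 0) (hy' : y' ≠ 0)
    (h : span {x} * σ • (I : Ideal (𝓞 L)) = span {y} * (I : Ideal (𝓞 L)))
    (h' : span {x'} * σ • (I' : Ideal (𝓞 L)) = span {y'} * (I' : Ideal (𝓞 L))) (ε : (𝓞 L)ˣ)
    (hn : Algebra.norm K (((y : L) * x') / (x * y' * (ε : 𝓞 L))) = 1) :
    ClassGroup.mk0 I / ClassGroup.mk0 I' ∈ (clExt K L).range := by
  have hI'0 : (I' : Ideal (𝓞 L)) ≠ ⊥ := mem_nonZeroDivisors_iff_ne_zero.1 I'.2
  have hI0 : (I : Ideal (𝓞 L)) ≠ ⊥ := mem_nonZeroDivisors_iff_ne_zero.1 I.2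
  obtain ⟨w, hw0, hw⟩ := exists_int_of_norm_one hσ hn
  -- a complementary ideal
  obtain ⟨m, hm0, hmI⟩ : ∃ m : ℕ, m ≠ 0 ∧ ((m : ℕ) : 𝓞 L) ∈ (I' : Ideal (𝓞 L)) :=
    ⟨absNorm (I' : Ideal (𝓞 L)), by rwa [Ne, absNorm_eq_zero_iff], absNorm_mem _⟩
  obtain ⟨I'', hI''⟩ : (I' : Ideal (𝓞 L)) ∣ span {((m : ℕ) : 𝓞 L)} := by
    rw [Ideal.dvd_span_singleton]
    exact hmI
  have hm0' : ((m : ℕ) : 𝓞 L) ≠ 0 := by exact_mod_cast hm0
  have hspm : (span {((m : ℕ) : 𝓞 L)} : Ideal (𝓞 L)) ≠ ⊥ := by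
    rwa [Ne, span_singleton_eq_bot]
  have hI''0 : I'' ≠ ⊥ := by
    rintro rfl
    exact hspm (by rw [hI'', Ideal.mul_bot])
  have hσI'0 : σ • (I' : Ideal (𝓞 L)) ≠ 0 := smul_ne_botL σ hI'0
  -- the action on the complementary ideal
  have e1 : span {y'} * σ • I'' = span {x'} * I'' := by
    have e2 : σ • (I' : Ideal (𝓞 L)) * σ • I'' = (I' : Ideal (𝓞 L)) * I'' := by
      rw [← smul_mul', ← hI'', smul_spanL]
      congr 2
      apply RingOfIntegers.ext
      rw [coe_smulL]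
      simp
    apply mul_left_cancel₀ hI'0
    calc (I' : Ideal (𝓞 L)) * (span {y'} * σ • I'')
        = (span {y'} * (I' : Ideal (𝓞 L))) * σ • I'' := by ring
      _ = span {x'} * (σ • (I' : Ideal (𝓞 L)) * σ • I'') := by rw [← h']; ring
      _ = (I' : Ideal (𝓞 L)) * (span {x'} * I'') := by rw [e2]; ring
  -- the invariant ideal
  have hw' : w * (x * y' * (ε : 𝓞 L)) = σ • w * (y * x') := by
    apply RingOfIntegers.ext
    have hx1 : (x : L) ≠ 0 := by exact_mod_cast hx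
    have hy1 : (y' : L) ≠ 0 := by exact_mod_cast hy'
    have hε : ((ε : 𝓞 L) : L) ≠ 0 := by
      have := ε.ne_zero
      exact_mod_cast this
    change (w : L) * ((x : L) * y' * (ε : 𝓞 L)) = σ (w : L) * ((y : L) * x')
    have h3 : (x : L) * y' * (ε : 𝓞 L) ≠ 0 := mul_ne_zero (mul_ne_zero hx1 hy1) hε
    generalize σ (w : L) = s at hw ⊢
    rw [hw]
    field_simp
  have e3 : span {w} * (span {x} * span {y'}) = (σ • span {w}) * (span {y} * span {x'}) := by
    rw [smul_spanL, span_singleton_mul_span_singleton, span_singleton_mul_span_singleton,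
      span_singleton_mul_span_singleton, span_singleton_mul_span_singleton, ← hw']
    rw [Ideal.span_singleton_eq_span_singleton]
    exact ⟨ε, by ring⟩
  have hJ : σ • (span {w} * ((I : Ideal (𝓞 L)) * I'')) = span {w} * ((I : Ideal (𝓞 L)) * I'') := by
    have hxy : (span {x} : Ideal (𝓞 L)) * span {y'} ≠ 0 := by
      apply mul_ne_zero
      · rwa [Ne, Submodule.zero_eq_bot, span_singleton_eq_bot]
      · rwa [Ne, Submodule.zero_eq_bot, span_singleton_eq_bot]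
    apply mul_left_cancel₀ hxy
    rw [smul_mul', smul_mul']
    calc span {x} * span {y'} * (σ • span {w} * (σ • (I : Ideal (𝓞 L)) * σ • I''))
        = σ • span {w} * ((span {x} * σ • (I : Ideal (𝓞 L))) * (span {y'} * σ • I'')) := by ring
      _ = σ • span {w} * (span {y} * span {x'}) * ((I : Ideal (𝓞 L)) * I'') := by
          rw [h, e1]; ring
      _ = _ := by rw [← e3]; ring
  have hJ0 : span {w} * ((I : Ideal (𝓞 L)) * I'') ≠ ⊥ := by
    have h1 : (span {w} : Ideal (𝓞 L)) ≠ 0 := by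
      rwa [Ne, Submodule.zero_eq_bot, span_singleton_eq_bot]
    exact mul_ne_zero h1 (mul_ne_zero hI0 hI''0)
  obtain ⟨A, hA0, hA⟩ := exists_of_invariant hunr _ hJ0 (span_invariant hσ hJ)
  refine ⟨ClassGroup.mk0 ⟨A, mem_nonZeroDivisors_iff_ne_zero.2 hA0⟩, ?_⟩
  rw [clExt_mk0, eq_div_iff_mul_eq', ← map_mul, ClassGroup.mk0_eq_mk0_iff]
  refine ⟨1, w * m, one_ne_zero, mul_ne_zero hw0 hm0', ?_⟩
  change span {1} * (A.map (algebraMap (𝓞 K) (𝓞 L)) * (I' : Ideal (𝓞 L))) =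
    span {w * m} * (I : Ideal (𝓞 L))
  rw [← hA, Ideal.span_singleton_one, ← Ideal.one_eq_top, one_mul,
    ← span_singleton_mul_span_singleton, hI'']
  ring

/-- extension of units -/
noncomputable def uext (v : (𝓞 K)ˣ) : (𝓞 L)ˣ :=
  Units.map (algebraMap (𝓞 K) (𝓞 L) : 𝓞 K →* 𝓞 L) v

theorem coe_uext (v : (𝓞 K)ˣ) :
    (((uext v : (𝓞 L)ˣ) : 𝓞 L) : L) = algebraMap K L ((v : 𝓞 K) : K) := rfl

theorem TT_uext (σ : Gal(L/K)) (v : (𝓞 K)ˣ) :
    TT (uRepL K L) σ (Additive.ofMul (uext v)) = 0 := by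
  rw [TT_apply, sub_eq_zero]
  apply Additive.toMul.injective
  apply Units.ext
  apply RingOfIntegers.ext
  exact σ.commutes ((v : 𝓞 K) : K)

theorem finite_HH_TT [IsTotallyComplex K] (h2 : finrank ℚ K = 2) {σ : Gal(L/K)}
    (hσ : ∀ g, g ∈ Subgroup.zpowers σ) :
    Finite (CFT.HH (TT (uRepL K L) σ) (NN (uRepL K L))) := by
  have h1 : Finite (TT (uRepL K L) σ).ker := by
    have h3 : ∀ x : (TT (uRepL K L) σ).ker, (x : Additive (𝓞 L)ˣ).toMul ∈ Units.torsion L := by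
      intro x
      apply mem_torsion_of_fixed K L h2
      intro g
      have h4 : uRepL K L σ x = x := sub_eq_zero.mp x.2
      exact congrArg Additive.toMul (fixed_of_gen (uRepL K L) hσ h4 g)
    refine Finite.of_injective (fun x : (TT (uRepL K L) σ).ker =>
      (⟨(x : Additive (𝓞 L)ˣ).toMul, h3 x⟩ : Units.torsion L)) ?_
    intro a b hab
    have h5 : (a : Additive (𝓞 L)ˣ).toMul = (b : Additive (𝓞 L)ˣ).toMul :=
      congrArg (fun t : Units.torsion L => (t : (𝓞 L)ˣ)) hab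
    exact Subtype.ext (Additive.toMul.injective h5)
  exact Finite.of_surjective _ QuotientAddGroup.mk_surjective

theorem HH_mk_eq_iff {A : Type*} [AddCommGroup A] {f g : A →+ A} {x y : A} (hx : f x = 0)
    (hy : f y = 0) (h : CFT.HH.mk f g x hx = CFT.HH.mk f g y hy) : ∃ z, g z = x - y := by
  have h1 : CFT.HH.mk f g (x - y) (by rw [map_sub, hx, hy, sub_zero]) = 0 := by
    have h2 := CFT.HH.mk_add (g := g) (x := x - y) (y := y) (f := f)
      (by rw [map_sub, hx, hy, sub_zero]) hy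
    have h3 := CFT.HH.mk_congr (g := g) (f := f) (x := x - y + y) (y := x)
      (by rw [sub_add_cancel, hx]) (sub_add_cancel x y)
    rw [h3, h] at h2
    exact (add_eq_right.mp h2)
  exact (CFT.HH.mk_eq_zero_iff _).mp h1

theorem HH_mk_eq_of {A : Type*} [AddCommGroup A] {f g : A →+ A} {x y : A} (hx : f x = 0)
    (hy : f y = 0) {z : A} (h : g z = x - y) : CFT.HH.mk f g x hx = CFT.HH.mk f g y hy := by
  have h1 : CFT.HH.mk f g (x - y) (by rw [map_sub, hx, hy, sub_zero]) = 0 :=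
    (CFT.HH.mk_eq_zero_iff _).mpr ⟨z, h⟩
  have h2 := CFT.HH.mk_add (g := g) (x := x - y) (y := y) (f := f)
    (by rw [map_sub, hx, hy, sub_zero]) hy
  have h3 := CFT.HH.mk_congr (g := g) (f := f) (x := x - y + y) (y := x)
    (by rw [sub_add_cancel, hx]) (sub_add_cancel x y)
  rw [h3, h1, zero_add] at h2
  exact h2.symm

theorem card_ker_cdiff_le [IsTotallyComplex K] (h2 : finrank ℚ K = 2) {σ : Gal(L/K)}
    (hσ : ∀ g, g ∈ Subgroup.zpowers σ)
    (hunr : ∀ P : Ideal (𝓞 L), P.IsPrime → P ≠ ⊥ → P.inertia Gal(L/K) = ⊥) :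
    Nat.card (cdiff σ).ker ≤
      Nat.card (CFT.HH (TT (uRepL K L) σ) (NN (uRepL K L))) * Nat.card (clExt K L).range := by
  have hfin := finite_HH_TT (L := L) h2 hσ
  have key : ∀ c : (cdiff σ).ker, ∃ (I : (Ideal (𝓞 L))⁰) (x y : 𝓞 L) (v : (𝓞 K)ˣ),
      ClassGroup.mk0 I = (c : ClassGroup (𝓞 L)) ∧ x ≠ 0 ∧ y ≠ 0 ∧
      span {x} * σ • (I : Ideal (𝓞 L)) = span {y} * (I : Ideal (𝓞 L)) ∧
      ((v : 𝓞 K) : K) * Algebra.norm K (x : L) = Algebra.norm K (y : L) := by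
    intro c
    obtain ⟨I, hI⟩ := ClassGroup.mk0_surjective (c : ClassGroup (𝓞 L))
    have hc := mem_ker_cdiff.mp c.2
    rw [← hI] at hc
    obtain ⟨x, y, hx, hy, hxy, v, hv⟩ := exists_data hc
    exact ⟨I, x, y, v, hI, hx, hy, hxy, hv⟩
  choose I x y v hI hx hy hxy hv using key
  refine card_le_of_fiber (cdiff σ).ker (clExt K L).range
    (fun c => CFT.HH.mk _ _ (Additive.ofMul (uext (v c))) (TT_uext σ (v c))) ?_
  intro c c' hcc'
  obtain ⟨e, he⟩ := HH_mk_eq_iff _ _ hcc'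
  have h3 : ∏ g : Gal(L/K), uactL K L g e.toMul = uext (v c) / uext (v c') := by
    rw [← toMul_NN, he]
    rfl
  have h4 : algebraMap K L (Algebra.norm K ((e.toMul : 𝓞 L) : L)) *
      algebraMap K L ((v c' : 𝓞 K) : K) = algebraMap K L ((v c : 𝓞 K) : K) := by
    rw [← coe_prod_uactL, h3, ← coe_uext, ← coe_uext, ← map_mul, ← Units.val_mul,
      div_mul_cancel]
  rw [← map_mul] at h4
  have h5 := (algebraMap K L).injective h4
  rw [← hI c, ← hI c']
  refine exists_clExt hσ hunr (hx c) (hy c') (hxy c) (hxy c') e.toMul ?_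
  have n1 : Algebra.norm K ((x c : 𝓞 L) : L) ≠ 0 := by
    rw [Ne, Algebra.norm_eq_zero_iff]
    exact_mod_cast hx c
  have n2 : Algebra.norm K ((x c' : 𝓞 L) : L) ≠ 0 := by
    rw [Ne, Algebra.norm_eq_zero_iff]
    exact_mod_cast hx c'
  have n3 : Algebra.norm K ((e.toMul : 𝓞 L) : L) ≠ 0 := by
    rw [Ne, Algebra.norm_eq_zero_iff]
    have := e.toMul.ne_zero
    exact_mod_cast this
  have n4 : ((v c' : 𝓞 K) : K) ≠ 0 := by
    have := (v c').ne_zero
    exact_mod_cast this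
  rw [div_eq_mul_inv, map_mul, Algebra.norm_inv, map_mul, map_mul, map_mul, ← hv c, ← hv c', ← h5]
  field_simp

theorem card_HH_le_ker {σ : Gal(L/K)} (hσ : ∀ g, g ∈ Subgroup.zpowers σ)
    (hunr : ∀ P : Ideal (𝓞 L), P.IsPrime → P ≠ ⊥ → P.inertia Gal(L/K) = ⊥) :
    Nat.card (CFT.HH (NN (uRepL K L)) (TT (uRepL K L) σ)) ≤ Nat.card (clExt K L).ker := by
  have key : ∀ h : CFT.HH (NN (uRepL K L)) (TT (uRepL K L) σ),
      ∃ (e : (𝓞 L)ˣ) (he : NN (uRepL K L) (Additive.ofMul e) = 0) (w : 𝓞 L)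
        (A : (Ideal (𝓞 K))⁰), h = CFT.HH.mk _ _ (Additive.ofMul e) he ∧ w ≠ 0 ∧
        (w : L) = (e : 𝓞 L) * σ (w : L) ∧
        (A : Ideal (𝓞 K)).map (algebraMap (𝓞 K) (𝓞 L)) = span {w} := by
    intro h
    obtain ⟨e, he, rfl⟩ := CFT.HH.mk_surj h
    have h1 : Algebra.norm K ((e.toMul : 𝓞 L) : L) = 1 := by
      apply (algebraMap K L).injective
      rw [← coe_prod_uactL, ← toMul_NN, he, map_one]
      rfl
    obtain ⟨w, hw0, hw⟩ := exists_int_of_norm_one hσ h1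
    have h2 : σ • (span {w} : Ideal (𝓞 L)) = span {w} := by
      rw [smul_spanL, Ideal.span_singleton_eq_span_singleton]
      refine ⟨e.toMul, ?_⟩
      apply RingOfIntegers.ext
      rw [mul_comm]
      exact hw.symm
    have h3 : (span {w} : Ideal (𝓞 L)) ≠ ⊥ := by
      rwa [Ne, span_singleton_eq_bot]
    obtain ⟨A, hA0, hA⟩ := exists_of_invariant hunr _ h3 (span_invariant hσ h2)
    exact ⟨e.toMul, he, w, ⟨A, mem_nonZeroDivisors_iff_ne_zero.2 hA0⟩, rfl, hw0, hw, hA.symm⟩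
  choose e he w A hh hw0 hw hA using key
  have hker : ∀ h, ClassGroup.mk0 (A h) ∈ (clExt K L).ker := by
    intro h
    rw [MonoidHom.mem_ker, clExt_mk0, ClassGroup.mk0_eq_one_iff]
    exact ⟨w h, hA h⟩
  refine Nat.card_le_card_of_injective (fun h => (⟨ClassGroup.mk0 (A h), hker h⟩ :
    (clExt K L).ker)) ?_
  intro h h' hhh
  have h1 : ClassGroup.mk0 (A h) = ClassGroup.mk0 (A h') := congrArg Subtype.val hhh
  rw [ClassGroup.mk0_eq_mk0_iff] at h1
  obtain ⟨a, b, ha, hb, hab⟩ := h1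
  have h2 := congrArg (Ideal.map (algebraMap (𝓞 K) (𝓞 L))) hab
  rw [Ideal.map_mul, Ideal.map_mul, hA, hA, Ideal.map_span, Ideal.map_span,
    Set.image_singleton, Set.image_singleton, span_singleton_mul_span_singleton,
    span_singleton_mul_span_singleton, Ideal.span_singleton_eq_span_singleton] at h2
  obtain ⟨η, hη⟩ := h2
  rw [hh h, hh h']
  have hη' : algebraMap K L a * (w h : L) * (η : 𝓞 L) = algebraMap K L b * (w h' : L) :=
    congrArg (fun t : 𝓞 L => (t : L)) hη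
  have hση := congrArg σ hη'
  rw [map_mul, map_mul, map_mul, σ.commutes, σ.commutes] at hση
  have ha' : algebraMap K L a ≠ 0 := by
    rw [Ne, map_eq_zero]
    exact_mod_cast ha
  have hw' : σ (w h : L) ≠ 0 := by
    rw [Ne, map_eq_zero]
    exact_mod_cast hw0 h
  have h3 : e h * η = e h' * uactL K L σ η := by
    apply Units.ext
    apply RingOfIntegers.ext
    change ((e h : 𝓞 L) : L) * (η : 𝓞 L) = (e h' : 𝓞 L) * σ ((η : 𝓞 L) : L)
    apply mul_left_cancel₀ (mul_ne_zero ha' hw')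
    calc algebraMap K L a * σ (w h : L) * (((e h : 𝓞 L) : L) * (η : 𝓞 L))
        = algebraMap K L a * (((e h : 𝓞 L) : L) * σ (w h : L)) * (η : 𝓞 L) := by ring
      _ = algebraMap K L b * ((e h' : 𝓞 L) * σ (w h' : L)) := by rw [← hw h, hη', ← hw h']
      _ = (algebraMap K L b * σ (w h' : L)) * (e h' : 𝓞 L) := by ring
      _ = _ := by rw [← hση]; ring
  refine HH_mk_eq_of (z := Additive.ofMul η) _ _ ?_
  rw [TT_apply, sub_eq_sub_iff_add_eq_add]
  apply Additive.toMul.injective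
  change uactL K L σ η * e h' = e h * η
  rw [h3, mul_comm]

/-- **First inequality**: for an unramified cyclic extension `L / K` of an imaginary quadratic
field, `[L : K] * |N Cl(L)| ≤ |Cl(K)|`. -/
theorem finrank_mul_card_range_clNorm_le [IsTotallyComplex K] (h2 : finrank ℚ K = 2)
    {σ : Gal(L/K)} (hσ : ∀ g, g ∈ Subgroup.zpowers σ)
    (hunr : ∀ P : Ideal (𝓞 L), P.IsPrime → P ≠ ⊥ → P.inertia Gal(L/K) = ⊥) :
    finrank K L * Nat.card (clNorm K L).range ≤ Nat.card (ClassGroup (𝓞 K)) := by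
  have h3 := card_range_clNorm_le (K := K) σ
  have h4 := card_ker_cdiff_le h2 hσ hunr
  have h5 := card_HH_le_ker hσ hunr
  have h6 := card_HH_units K L h2 hσ
  have h7 : Nat.card (clExt K L).range * Nat.card (clExt K L).ker =
      Nat.card (ClassGroup (𝓞 K)) := by
    rw [← Subgroup.index_ker, mul_comm, Subgroup.card_mul_index]
  calc finrank K L * Nat.card (clNorm K L).range
      ≤ finrank K L * (Nat.card (CFT.HH (TT (uRepL K L) σ) (NN (uRepL K L))) *
          Nat.card (clExt K L).range) := Nat.mul_le_mul_left _ (h3.trans h4)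
    _ = Nat.card (clExt K L).range * Nat.card (CFT.HH (NN (uRepL K L)) (TT (uRepL K L) σ)) := by
        rw [h6]; ring
    _ ≤ Nat.card (clExt K L).range * Nat.card (clExt K L).ker := Nat.mul_le_mul_left _ h5
    _ = _ := h7

omit [IsGalois K L] in
theorem pow_mem_range_clNorm (c : ClassGroup (𝓞 K)) : c ^ finrank K L ∈ (clNorm K L).range :=
  ⟨clExt K L c, clNorm_clExt c⟩

omit [IsGalois K L] in
/-- a prime below a prime of residue degree one is a norm. -/
theorem mk0_mem_range_clNorm (P : Ideal (𝓞 L)) (p : Ideal (𝓞 K)) [P.IsPrime] [p.IsPrime]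
    [P.LiesOver p] (hP : P ≠ ⊥) (hp : p ≠ ⊥) (hf : P.inertiaDeg (𝓞 K) = 1) :
    ClassGroup.mk0 ⟨p, mem_nonZeroDivisors_iff_ne_zero.2 hp⟩ ∈ (clNorm K L).range :=
  ⟨_, by rw [clNorm_prime P p hP hp, hf, pow_one]⟩

/-- The class character attached to an unramified cyclic extension of prime degree. -/
theorem exists_classChar [IsTotallyComplex K] (h2 : finrank ℚ K = 2) {σ : Gal(L/K)}
    (hσ : ∀ g, g ∈ Subgroup.zpowers σ)
    (hunr : ∀ P : Ideal (𝓞 L), P.IsPrime → P ≠ ⊥ → P.inertia Gal(L/K) = ⊥) {q : ℕ}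
    (hq : q.Prime) (hn : finrank K L = q) :
    ∃ χ : ClassGroup (𝓞 K) →* Multiplicative (ZMod q), χ ≠ 1 ∧
      ∀ c ∈ (clNorm K L).range, χ c = 1 := by
  have hq' : Fact q.Prime := ⟨hq⟩
  have h1 := finrank_mul_card_range_clNorm_le h2 hσ hunr
  rw [hn] at h1
  have h3 : (clNorm K L).range ≠ ⊤ := by
    intro h
    rw [h, Subgroup.card_top] at h1
    have h4 : 0 < Nat.card (ClassGroup (𝓞 K)) := Nat.card_pos
    have h5 := hq.two_le
    nlinarith
  obtain ⟨c, -, hc⟩ := SetLike.exists_of_lt (lt_top_iff_ne_top.2 h3)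
  have hQ : ∀ y : Additive (ClassGroup (𝓞 K) ⧸ (clNorm K L).range), q • y = 0 := by
    intro y
    obtain ⟨y, rfl⟩ := QuotientGroup.mk_surjective y.toMul |>.imp fun a h =>
      (congrArg Additive.ofMul h : Additive.ofMul (QuotientGroup.mk a) = y)
    have h6 : (QuotientGroup.mk (y ^ q) : ClassGroup (𝓞 K) ⧸ (clNorm K L).range) = 1 := by
      rw [QuotientGroup.eq_one_iff]
      have := pow_mem_range_clNorm (K := K) (L := L) y
      rwa [hn] at this
    exact congrArg Additive.ofMul h6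
  have hx : (Additive.ofMul (QuotientGroup.mk c : ClassGroup (𝓞 K) ⧸ (clNorm K L).range)) ≠ 0 := by
    intro h
    apply hc
    rw [← QuotientGroup.eq_one_iff]
    exact congrArg Additive.toMul h
  obtain ⟨f, hf⟩ := S14Lib.exists_hom_ne_zero hQ hx
  refine ⟨(AddMonoidHom.toMultiplicativeRight f).comp (QuotientGroup.mk' _), ?_, ?_⟩
  · intro h
    exact hf (congrArg Multiplicative.toAdd (DFunLike.congr_fun h c))
  · intro d hd
    rw [MonoidHom.comp_apply, QuotientGroup.mk'_apply, (QuotientGroup.eq_one_iff d).mpr hd, map_one]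

end Fermat.Agent.TwoAdic
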