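import Mathlib
import Fermat.Agent.Frob.Places

/-!
# Block D3 of the 2-adic route: fields cut out by open subgroups of `G_K`
-/

set_option autoImplicit false

open scoped NumberField Pointwise
open IntermediateField Fermat.Agent

namespace Fermat.Agent.TwoAdic

local notation "Qb" => AlgebraicClosure ℚ
local notation "Γℚ" => (AlgebraicClosure ℚ ≃ₐ[ℚ] AlgebraicClosure ℚ)

/-- a homomorphism from a subgroup of `Γℚ` has finite level -/
def FinLevel {M : Type*} [Monoid M] {H : Subgroup Γℚ} (φ : H →* M) : Prop :=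
  ∃ F : IntermediateField ℚ Qb, FiniteDimensional ℚ F ∧
    ∀ σ : H, (∀ x ∈ F, (σ : Γℚ) x = x) → φ σ = 1

variable (K : IntermediateField ℚ Qb)

/-- **The field cut out by an open normal subgroup with cyclic quotient.** -/
theorem exists_field (D : Subgroup K.fixingSubgroup) [hDn : D.Normal]
    (hopen : ∃ F : IntermediateField ℚ Qb, FiniteDimensional ℚ F ∧
      ∀ σ : K.fixingSubgroup, (∀ x ∈ F, (σ : Γℚ) x = x) → σ ∈ D)
    (hcyc : IsCyclic (K.fixingSubgroup ⧸ D)) :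
    ∃ L : IntermediateField K Qb, IsGalois K L ∧ FiniteDimensional K L ∧
      IsCyclic (L ≃ₐ[K] L) ∧ Module.finrank K L = D.index ∧
      (∀ σ : K.fixingSubgroup, σ ∈ D ↔ ∀ x ∈ L, (σ : Γℚ) x = x) := by
  obtain ⟨F, hF, hFD⟩ := hopen
  have := hF
  have : IsGalois K Qb := IsGalois.tower_top_of_isGalois ℚ K Qb
  let e : K.fixingSubgroup ≃* (Qb ≃ₐ[K] Qb) := fixingSubgroupEquiv K
  have he : ∀ (σ : K.fixingSubgroup) (x : Qb), e σ x = (σ : Γℚ) x := fun σ x => rfl
  let H : Subgroup (Qb ≃ₐ[K] Qb) := D.map e.toMonoidHom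
  have hHmem : ∀ σ : K.fixingSubgroup, e σ ∈ H ↔ σ ∈ D := by
    intro σ
    constructor
    · rintro ⟨τ, hτ, hτσ⟩
      rwa [← e.injective hτσ]
    · intro h
      exact ⟨σ, h, rfl⟩
  have hHn : H.Normal := Subgroup.Normal.map hDn _ e.surjective
  -- `H` is open
  let M : IntermediateField K Qb := IntermediateField.adjoin K (F : Set Qb)
  have hM : FiniteDimensional K M := by
    obtain ⟨s, hs⟩ := (IntermediateField.essFiniteType_iff (K := F)).1 inferInstance
    have h1 : M = IntermediateField.adjoin K (s : Set Qb) := by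
      apply le_antisymm
      · rw [IntermediateField.adjoin_le_iff]
        have h2 : (IntermediateField.adjoin K (s : Set Qb)).restrictScalars ℚ ≥ F := by
          rw [← hs, ge_iff_le, IntermediateField.adjoin_le_iff]
          exact IntermediateField.subset_adjoin K (s : Set Qb)
        exact fun x hx => h2 hx
      · rw [IntermediateField.adjoin_le_iff]
        intro x hx
        apply IntermediateField.subset_adjoin K (F : Set Qb)
        rw [← hs]
        exact IntermediateField.subset_adjoin ℚ (s : Set Qb) hx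
    rw [h1]
    exact IntermediateField.finiteDimensional_adjoin fun x _ =>
      (Algebra.IsAlgebraic.isAlgebraic (R := K) x).isIntegral
  have hMH : M.fixingSubgroup ≤ H := by
    intro σ hσ
    obtain ⟨τ, rfl⟩ := e.surjective σ
    rw [hHmem]
    apply hFD
    intro x hx
    exact (IntermediateField.mem_fixingSubgroup_iff _ _).1 hσ x
      (IntermediateField.subset_adjoin K (F : Set Qb) hx)
  have hHo : IsOpen (H : Set (Qb ≃ₐ[K] Qb)) :=
    Subgroup.isOpen_mono hMH M.fixingSubgroup_isOpen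
  let Hc : ClosedSubgroup (Qb ≃ₐ[K] Qb) := ⟨H, (⟨H, hHo⟩ : OpenSubgroup _).isClosed⟩
  have hHcn : Hc.Normal := hHn
  let L : IntermediateField K Qb := fixedField H
  have hLfix : L.fixingSubgroup = H := InfiniteGalois.fixingSubgroup_fixedField Hc
  have hLfd : FiniteDimensional K L := by
    rw [← InfiniteGalois.isOpen_iff_finite]
    rw [hLfix]; exact hHo
  have hLg : IsGalois K L := by
    rw [← InfiniteGalois.normal_iff_isGalois, hLfix]; exact hHn
  have e2 : (Qb ≃ₐ[K] Qb) ⧸ H ≃* (L ≃ₐ[K] L) := InfiniteGalois.normalAutEquivQuotient Hc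
  have e1 : (K.fixingSubgroup ⧸ D) ≃* (Qb ≃ₐ[K] Qb) ⧸ H := QuotientGroup.congr D H e rfl
  let e3 := e1.trans e2
  refine ⟨L, hLg, hLfd, isCyclic_of_surjective e3 e3.surjective, ?_, fun σ => ?_⟩
  · rw [← IsGalois.card_aut_eq_finrank, ← Nat.card_congr e3.toEquiv]
    rfl
  · rw [← hHmem, ← hLfix, IntermediateField.mem_fixingSubgroup_iff]
    exact Iff.rfl

variable {K}

/-- the field is unramified if inertia is contained in the subgroup -/
theorem inertia_eq_bot (L : IntermediateField K Qb) [IsGalois K L] [FiniteDimensional ℚ L]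
    (D : Subgroup K.fixingSubgroup)
    (hL : ∀ σ : K.fixingSubgroup, σ ∈ D ↔ ∀ x ∈ L, (σ : Γℚ) x = x)
    (hun : ∀ ℓ : ℕ, ℓ.Prime → ∀ A : ValuationSubring Qb, A.LiesOverPrime ℓ →
      ∀ σ : K.fixingSubgroup, (σ : Γℚ) ∈ A.inertiaSubgroupIn ℚ → σ ∈ D)
    (P : Ideal (𝓞 L)) (hPp : P.IsPrime) (hP : P ≠ ⊥) : P.inertia (L ≃ₐ[K] L) = ⊥ := by
  have : NumberField L := { to_finiteDimensional := inferInstance }
  have : P.IsMaximal := hPp.isMaximal hP
  have : IsGalois K Qb := IsGalois.tower_top_of_isGalois ℚ K Qb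
  obtain ⟨A, hA⟩ := Frob.exists_below_eq (L := Qb) P
  obtain ⟨ℓ, hℓ, hℓP⟩ : ∃ ℓ : ℕ, ℓ.Prime ∧ (ℓ : 𝓞 L) ∈ P := by
    have h1 : P.under ℤ ≠ ⊥ := Ideal.IsIntegral.comap_ne_bot ℤ hP
    have h2 : (P.under ℤ).IsPrime := inferInstance
    obtain ⟨a, ha⟩ := (IsPrincipalIdealRing.principal (P.under ℤ)).principal
    have ha0 : a ≠ 0 := by rintro rfl; apply h1; rw [ha]; simp
    have hpa : Prime a := by
      rw [← Ideal.span_singleton_prime ha0]
      rw [ha] at h2
      exact h2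
    refine ⟨a.natAbs, Int.prime_iff_natAbs_prime.1 hpa, ?_⟩
    have h3 : a ∈ P.under ℤ := by rw [ha]; exact Submodule.mem_span_singleton_self a
    have h4 : ((a.natAbs : ℤ)) ∈ P.under ℤ := by
      rw [Int.natCast_natAbs]
      rcases abs_choice a with h | h <;> rw [h]
      · exact h3
      · exact neg_mem h3
    rw [Ideal.mem_comap] at h4
    simpa using h4
  have hAl : A.LiesOverPrime ℓ := Frob.liesOverPrime_of_mem_below (R := 𝓞 L) (by rw [hA]; exact hℓP)
  rw [eq_bot_iff]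
  intro τ hτ
  obtain ⟨σ, hσ, hσs⟩ := Frob.exists_mem_inertia_restrict (K := K) (F := L) A hℓ hAl τ
    (by rw [hA]; exact hτ)
  let e : K.fixingSubgroup ≃* (Qb ≃ₐ[K] Qb) := fixingSubgroupEquiv K
  obtain ⟨σ', rfl⟩ := e.surjective σ
  have h1 : (σ' : Γℚ) ∈ A.inertiaSubgroupIn ℚ := by
    rw [Frob.mem_inertiaSubgroupIn_iff] at hσ ⊢
    exact hσ
  have h2 := (hL σ').1 (hun ℓ hℓ A hAl σ' h1)
  rw [Subgroup.mem_bot, ← hσs]
  ext x
  rw [AlgEquiv.one_apply]
  have h3 := AlgEquiv.restrictNormal_commutes (e σ') L x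
  exact h3.trans (h2 (x : Qb) x.2)

/-- the residue ring of a place with Frobenius acting trivially -/
theorem natCard_quot_below {F : Type*} [Field F] [NumberField F] [Algebra F Qb]
    (A : ValuationSubring Qb) {ℓ : ℕ} (hℓ : ℓ.Prime) (hA : A.LiesOverPrime ℓ)
    (h : ∀ x : 𝓞 F, x ^ ℓ - x ∈ Frob.below (𝓞 F) A) :
    Nat.card (𝓞 F ⧸ Frob.below (𝓞 F) A) = ℓ := by
  classical
  set P := Frob.below (𝓞 F) A with hPdef
  have hmax : P.IsMaximal := Frob.below_isMaximal (R := 𝓞 F) hℓ hA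
  have hbot : P ≠ ⊥ := by
    intro hb
    have h1 : (ℓ : 𝓞 F) ∈ P := Frob.natCast_mem_below hA
    rw [hb, Ideal.mem_bot] at h1
    exact hℓ.ne_zero (by exact_mod_cast h1)
  have hfin : Finite (𝓞 F ⧸ P) := Ideal.finiteQuotientOfFreeOfNeBot P hbot
  let _ : Field (𝓞 F ⧸ P) := Ideal.Quotient.field P
  have hroots : ∀ x : 𝓞 F ⧸ P, x ^ ℓ = x := by
    intro x
    obtain ⟨y, rfl⟩ := Ideal.Quotient.mk_surjective x
    rw [← map_pow, ← sub_eq_zero, ← map_sub, Ideal.Quotient.eq_zero_iff_mem]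
    exact h y
  have hle : Nat.card (𝓞 F ⧸ P) ≤ ℓ := by
    have := Fintype.ofFinite (𝓞 F ⧸ P)
    rw [Nat.card_eq_fintype_card]
    have h1 : (Polynomial.X ^ ℓ - Polynomial.X : Polynomial (𝓞 F ⧸ P)) ≠ 0 :=
      FiniteField.X_pow_card_sub_X_ne_zero _ hℓ.one_lt
    have h2 : (Finset.univ : Finset (𝓞 F ⧸ P)) ⊆
        (Polynomial.X ^ ℓ - Polynomial.X : Polynomial (𝓞 F ⧸ P)).roots.toFinset := by
      intro x _
      rw [Multiset.mem_toFinset, Polynomial.mem_roots h1]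
      simp [hroots x]
    calc Fintype.card (𝓞 F ⧸ P) = (Finset.univ : Finset (𝓞 F ⧸ P)).card := rfl
      _ ≤ _ := Finset.card_le_card h2
      _ ≤ _ := Multiset.toFinset_card_le _
      _ ≤ (Polynomial.X ^ ℓ - Polynomial.X : Polynomial (𝓞 F ⧸ P)).natDegree :=
        Polynomial.card_roots' _
      _ = ℓ := FiniteField.X_pow_card_sub_X_natDegree_eq _ hℓ.one_lt
  have hℓ0 : ((ℓ : ℕ) : 𝓞 F ⧸ P) = 0 := by
    rw [← map_natCast (Ideal.Quotient.mk P), Ideal.Quotient.eq_zero_iff_mem]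
    exact Frob.natCast_mem_below hA
  have : CharP (𝓞 F ⧸ P) ℓ := by
    have : Fact ℓ.Prime := ⟨hℓ⟩
    exact (CharP.charP_iff_prime_eq_zero hℓ).2 hℓ0
  have hge : ℓ ∣ Nat.card (𝓞 F ⧸ P) := by
    have := Fintype.ofFinite (𝓞 F ⧸ P)
    rw [Nat.card_eq_fintype_card]
    exact (CharP.cast_eq_zero_iff (𝓞 F ⧸ P) ℓ _).1 (Nat.cast_card_eq_zero _)
  exact le_antisymm hle (Nat.le_of_dvd Nat.card_pos hge)

/-- a Frobenius element fixing `F` gives residue degree one -/
theorem absNorm_below {F : Type*} [Field F] [NumberField F] [Algebra F Qb]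
    (A : ValuationSubring Qb) {ℓ : ℕ} (hℓ : ℓ.Prime) (hA : A.LiesOverPrime ℓ) (σ : Γℚ)
    (hσ : A.IsFrobeniusAt σ ℓ) (hfix : ∀ x : F, σ (algebraMap F Qb x) = algebraMap F Qb x) :
    Ideal.absNorm (Frob.below (𝓞 F) A) = ℓ := by
  rw [Ideal.absNorm_apply, Submodule.cardQuot_apply]
  refine natCard_quot_below A hℓ hA fun x => ?_
  rw [Frob.mem_below, map_sub, map_pow]
  have h1 := ((Frob.isFrobeniusAt_iff A σ ℓ).1 hσ).2 (algebraMap (𝓞 F) Qb x)
    (Frob.mem_of_isIntegral A ((Algebra.IsIntegral.isIntegral (R := ℤ) x).map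
      ((algebraMap (𝓞 F) Qb).toIntAlgHom)))
  have h2 : σ (algebraMap (𝓞 F) Qb x) = algebraMap (𝓞 F) Qb x := hfix (x : F)
  rw [h2] at h1
  have h3 : algebraMap (𝓞 F) Qb x ^ ℓ - algebraMap (𝓞 F) Qb x =
      -(algebraMap (𝓞 F) Qb x - algebraMap (𝓞 F) Qb x ^ ℓ) := by ring
  rw [h3]
  exact neg_mem h1

theorem below_ne_bot {F : Type*} [Field F] [NumberField F] [Algebra F Qb]
    (A : ValuationSubring Qb) {ℓ : ℕ} (hℓ : ℓ.Prime) (hA : A.LiesOverPrime ℓ) :
    Frob.below (𝓞 F) A ≠ ⊥ := by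
  intro hb
  have h1 : (ℓ : 𝓞 F) ∈ Frob.below (𝓞 F) A := Frob.natCast_mem_below hA
  rw [hb, Ideal.mem_bot] at h1
  exact hℓ.ne_zero (by exact_mod_cast h1)

/-- the relative norm of the prime below a place with Frobenius element fixing `L` -/
theorem relNorm_below (F L : Type*) [Field F] [NumberField F] [Field L] [NumberField L]
    [Algebra F L] [Algebra F Qb] [Algebra L Qb] [IsScalarTower F L Qb]
    (A : ValuationSubring Qb) {ℓ : ℕ} (hℓ : ℓ.Prime) (hA : A.LiesOverPrime ℓ) (σ : Γℚ)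
    (hσ : A.IsFrobeniusAt σ ℓ) (hfix : ∀ x : L, σ (algebraMap L Qb x) = algebraMap L Qb x) :
    Ideal.relNorm (𝓞 F) (Frob.below (𝓞 L) A) = Frob.below (𝓞 F) A := by
  have hL := absNorm_below (F := L) A hℓ hA σ hσ hfix
  have hF := absNorm_below (F := F) A hℓ hA σ hσ (fun x => by
    rw [IsScalarTower.algebraMap_apply F L Qb]; exact hfix _)
  have : (Frob.below (𝓞 F) A).IsMaximal := Frob.below_isMaximal (R := 𝓞 F) hℓ hA
  have : (Frob.below (𝓞 L) A).IsMaximal := Frob.below_isMaximal (R := 𝓞 L) hℓ hA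
  have hsc : IsScalarTower (𝓞 F) (𝓞 L) Qb := by
    refine IsScalarTower.of_algebraMap_eq fun x => ?_
    change algebraMap F Qb (x : F) = algebraMap L Qb (algebraMap F L (x : F))
    rw [← IsScalarTower.algebraMap_apply F L Qb]
  have : (Frob.below (𝓞 L) A).LiesOver (Frob.below (𝓞 F) A) := inferInstance
  have h1 := Ideal.relNorm_eq_pow_of_isMaximal (Frob.below (𝓞 L) A) (Frob.below (𝓞 F) A)
  have h2 := congrArg Ideal.absNorm h1
  rw [Ideal.absNorm_relNorm, hL, map_pow, hF] at h2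
  have h3 : (Frob.below (𝓞 L) A).inertiaDeg (𝓞 F) = 1 := by
    have h4 : ℓ ^ 1 = ℓ ^ _ := (pow_one ℓ).trans h2
    exact (Nat.pow_right_injective hℓ.two_le h4).symm
  rw [h1, h3, pow_one]

end Fermat.Agent.TwoAdic
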