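import Mathlib

/-!
# Block D3 of the 2-adic route: group theory
-/

set_option autoImplicit false

namespace Fermat.Agent.TwoAdic

/-- In a finite abelian group the subgroups with cyclic quotient intersect trivially. -/
theorem exists_cyclic_quotient {C : Type*} [CommGroup C] [Finite C] {x : C} (hx : x ≠ 1) :
    ∃ D : Subgroup C, IsCyclic (C ⧸ D) ∧ x ∉ D := by
  obtain ⟨φ, hφ⟩ := CommGroup.exists_apply_ne_one_of_hasEnoughRootsOfUnity C ℂ hx
  refine ⟨φ.ker, ?_, fun h => hφ h⟩
  have e : C ⧸ φ.ker ≃* φ.range := QuotientGroup.quotientKerEquivRange φ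
  have : Finite φ.range := Finite.of_surjective _ φ.rangeRestrict_surjective
  have : IsCyclic φ.range := inferInstance
  exact isCyclic_of_surjective e.symm e.symm.surjective

/-- Comparison of two finite abelian quotients of a group: if for all cyclic quotients `C ⧸ D` the
image in `G₂` of the preimage of `D` has index at least `[C : D]`, then `ψ` factors through
`φ`. -/
theorem card_le_of_index {G G₂ C : Type*} [Group G] [CommGroup G₂] [Finite G₂] [CommGroup C]
    [Finite C] (φ : G →* G₂) (hφ : Function.Surjective φ) (ψ : G →* C)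
    (hψ : Function.Surjective ψ)
    (h : ∀ D : Subgroup C, IsCyclic (C ⧸ D) → D.index ≤ ((D.comap ψ).map φ).index) :
    Nat.card C ≤ Nat.card G₂ := by
  have hker : φ.ker ≤ ψ.ker := by
    intro g hg
    by_contra hgψ
    obtain ⟨D, hD, hgD⟩ := exists_cyclic_quotient (C := C) (x := ψ g) hgψ
    have h1 := h D hD
    -- `[G₂ : φ(D')] = [G : D' ⊔ ker φ]`
    have h2 : ((D.comap ψ).map φ).index = ((D.comap ψ) ⊔ φ.ker).index := by
      rw [← Subgroup.index_comap_of_surjective _ hφ, Subgroup.comap_map_eq]
    have h3 : (D.comap ψ).index = D.index := Subgroup.index_comap_of_surjective _ hψ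
    have h4 : (D.comap ψ) ≤ (D.comap ψ) ⊔ φ.ker := le_sup_left
    have h5 : ((D.comap ψ) ⊔ φ.ker).index ∣ (D.comap ψ).index := Subgroup.index_dvd_of_le h4
    have h6 : (D.comap ψ).index ≠ 0 := by rw [h3]; exact Subgroup.index_ne_zero_of_finite
    have h7 : ((D.comap ψ) ⊔ φ.ker).index = (D.comap ψ).index := by
      apply le_antisymm (Nat.le_of_dvd (Nat.pos_of_ne_zero h6) h5)
      rw [h3, ← h2]; exact h1
    have h8 : D.comap ψ = (D.comap ψ) ⊔ φ.ker := by
      have h9 := Subgroup.relIndex_mul_index h4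
      rw [h7] at h9
      have h10 : (D.comap ψ).relIndex ((D.comap ψ) ⊔ φ.ker) = 1 := by
        have := Nat.eq_of_mul_eq_mul_right (Nat.pos_of_ne_zero h6) (h9.trans (one_mul _).symm)
        exact this
      exact le_antisymm h4 (Subgroup.relIndex_eq_one.1 h10)
    apply hgD
    have : g ∈ D.comap ψ := by rw [h8]; exact (le_sup_right : φ.ker ≤ _) hg
    exact this
  have e1 := Subgroup.index_ker φ
  have e2 := Subgroup.index_ker ψ
  have h1 : ψ.ker.index ∣ φ.ker.index := Subgroup.index_dvd_of_le hker
  rw [e1, e2] at h1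
  rw [MonoidHom.range_eq_top.2 hφ, MonoidHom.range_eq_top.2 hψ, Subgroup.card_top,
    Subgroup.card_top] at h1
  exact Nat.le_of_dvd Nat.card_pos h1

end Fermat.Agent.TwoAdic
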