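import Mathlib
import Fermat.Agent.TwoAdic.D3Field
import Fermat.Agent.TwoAdic.D3Group
import Fermat.Agent.TwoAdic.D3Cl2
import Fermat.Agent.ChebFull.Places

/-!
# Block D3 of the 2-adic route: unramified abelian `2`-quotients of `G_K` are bounded by the class
group
-/

set_option autoImplicit false

open scoped NumberField Pointwise nonZeroDivisors
open IntermediateField Fermat.Agent

namespace Fermat.Agent.TwoAdic

local notation "Qb" => AlgebraicClosure ℚ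
local notation "Γℚ" => (AlgebraicClosure ℚ ≃ₐ[ℚ] AlgebraicClosure ℚ)

/-- The first inequality for `L/K` (block D1). -/
def NormBound (K L : Type*) [Field K] [NumberField K] [Field L] [NumberField L] [Algebra K L] :
    Prop :=
  ∃ Nm : Subgroup (ClassGroup (𝓞 K)),
    (∀ (P : (Ideal (𝓞 L))⁰) (p : (Ideal (𝓞 K))⁰), (p : Ideal (𝓞 K)) = Ideal.relNorm (𝓞 K) (P : Ideal (𝓞 L)) →
      ClassGroup.mk0 p ∈ Nm) ∧
    (∀ c : ClassGroup (𝓞 K), c ^ Module.finrank K L ∈ Nm) ∧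
    Module.finrank K L * Nat.card Nm ≤ Nat.card (ClassGroup (𝓞 K))

/-- The first inequality for all cyclic extensions of `K` unramified at all finite primes. -/
def FirstIneq (K : Type*) [Field K] [NumberField K] [Algebra K Qb] : Prop :=
  ∀ (L : IntermediateField K Qb) [FiniteDimensional ℚ L] [NumberField L], IsGalois K L →
    IsCyclic (L ≃ₐ[K] L) →
    (∀ P : Ideal (𝓞 L), P.IsPrime → P ≠ ⊥ → P.inertia (L ≃ₐ[K] L) = ⊥) → NormBound K L

section Aux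

variable {K : IntermediateField ℚ Qb}

theorem FinLevel.prod {M N : Type*} [Monoid M] [Monoid N] {H : Subgroup Γℚ} {φ : H →* M}
    {ψ : H →* N} (hφ : FinLevel φ) (hψ : FinLevel ψ) : FinLevel (φ.prod ψ) := by
  obtain ⟨F, hF, h1⟩ := hφ
  obtain ⟨F', hF', h2⟩ := hψ
  refine ⟨F ⊔ F', inferInstance, fun σ hσ => ?_⟩
  rw [MonoidHom.prod_apply, h1 σ (fun x hx => hσ x ((le_sup_left : F ≤ F ⊔ F') hx)),
    h2 σ (fun x hx => hσ x ((le_sup_right : F' ≤ F ⊔ F') hx))]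
  rfl

/-- **Chebotarev in `G_K`.** -/
theorem exists_frobenius_K [FiniteDimensional ℚ K] {M : Type*} [Group M]
    {φ : K.fixingSubgroup →* M} (hφ : FinLevel φ) (g : K.fixingSubgroup) (S : Finset ℕ) :
    ∃ ℓ : ℕ, ℓ.Prime ∧ ℓ ∉ S ∧ ∃ A : ValuationSubring Qb, A.LiesOverPrime ℓ ∧
      ∃ σ : K.fixingSubgroup, A.IsFrobeniusAt (σ : Γℚ) ℓ ∧ φ σ = φ g := by
  obtain ⟨F, hF, h1⟩ := hφ
  have := hF
  obtain ⟨ℓ, hℓ, hS, -, A, hA, σ, hσ, h2⟩ := ChebFull.exists_frobenius_eq (F ⊔ K) (g : Γℚ) S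
  have hσK : σ ∈ K.fixingSubgroup := by
    rw [IntermediateField.mem_fixingSubgroup_iff]
    intro x hx
    rw [h2 x ((le_sup_right : K ≤ F ⊔ K) hx)]
    exact (IntermediateField.mem_fixingSubgroup_iff _ _).1 g.2 x hx
  refine ⟨ℓ, hℓ, hS, A, hA, ⟨σ, hσK⟩, hσ, ?_⟩
  have h3 : φ (g⁻¹ * ⟨σ, hσK⟩) = 1 := by
    apply h1
    intro x hx
    change (g : Γℚ)⁻¹ (σ x) = x
    rw [h2 x ((le_sup_left : F ≤ F ⊔ K) hx)]
    change ((g : Γℚ)⁻¹ * (g : Γℚ)) x = x
    rw [inv_mul_cancel]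
    rfl
  rw [map_mul, map_inv] at h3
  exact (inv_mul_eq_one.1 h3).symm

end Aux

/-- **Block D3.** -/
theorem card_le_of_recip (K : IntermediateField ℚ Qb) [NumberField K] (hD1 : FirstIneq K)
    {G₂ : Type*} [CommGroup G₂] [Finite G₂] (hG₂ : IsPGroup 2 G₂)
    (pr : ClassGroup (𝓞 K) →* G₂) (hprs : Function.Surjective pr)
    (hpr : pr.ker ≤ oddPart (ClassGroup (𝓞 K)))
    {X : Type*} [Group X] (χ : K.fixingSubgroup →* X) (hχl : FinLevel χ)
    (hχ : ∃ g₀, ∀ n : ℕ, χ g₀ ^ 2 ^ n ≠ 1)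
    (φ : K.fixingSubgroup →* G₂) (hφl : FinLevel φ) (hφs : Function.Surjective φ) (S : Finset ℕ)
    (hφF : ∀ ℓ : ℕ, ℓ.Prime → ℓ ∉ S → ∀ A : ValuationSubring Qb, A.LiesOverPrime ℓ →
      ∀ σ : K.fixingSubgroup, A.IsFrobeniusAt (σ : Γℚ) ℓ → χ σ ≠ 1 →
      ∀ P : (Ideal (𝓞 K))⁰, (P : Ideal (𝓞 K)) = Frob.below (𝓞 K) A →
        φ σ = pr (ClassGroup.mk0 P) ∨ φ σ = (pr (ClassGroup.mk0 P))⁻¹)
    {C : Type*} [CommGroup C] [Finite C] (hC : IsPGroup 2 C) (ψ : K.fixingSubgroup →* C)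
    (hψl : FinLevel ψ) (hψs : Function.Surjective ψ)
    (hψu : ∀ ℓ : ℕ, ℓ.Prime → ∀ A : ValuationSubring Qb, A.LiesOverPrime ℓ →
      ∀ σ : K.fixingSubgroup, (σ : Γℚ) ∈ A.inertiaSubgroupIn ℚ → ψ σ = 1) :
    Nat.card C ≤ Nat.card G₂ := by
  have : Fact (Nat.Prime 2) := ⟨Nat.prime_two⟩
  refine card_le_of_index φ hφs ψ hψs fun D hD => ?_
  -- the field
  let D' : Subgroup K.fixingSubgroup := D.comap ψ
  have hD'n : D'.Normal := inferInstance
  have hD'o : ∃ F : IntermediateField ℚ Qb, FiniteDimensional ℚ F ∧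
      ∀ σ : K.fixingSubgroup, (∀ x ∈ F, (σ : Γℚ) x = x) → σ ∈ D' := by
    obtain ⟨F, hF, h1⟩ := hψl
    refine ⟨F, hF, fun σ hσ => ?_⟩
    rw [Subgroup.mem_comap, h1 σ hσ]
    exact one_mem D
  have hcyc : IsCyclic (K.fixingSubgroup ⧸ D') := by
    let f : K.fixingSubgroup →* C ⧸ D := (QuotientGroup.mk' D).comp ψ
    have hf : f.ker = D' := by
      ext σ
      rw [MonoidHom.mem_ker, Subgroup.mem_comap]
      exact QuotientGroup.eq_one_iff _
    have hfs : Function.Surjective f := (QuotientGroup.mk'_surjective D).comp hψs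
    let e := QuotientGroup.quotientKerEquivOfSurjective f hfs
    exact isCyclic_of_surjective (e.symm.trans (QuotientGroup.quotientMulEquivOfEq hf))
      (e.symm.trans (QuotientGroup.quotientMulEquivOfEq hf)).surjective
  obtain ⟨L, hLg, hLfd, hLc, hLr, hLfix⟩ := exists_field K D' hD'o hcyc
  have : FiniteDimensional ℚ L := FiniteDimensional.trans ℚ K L
  have : NumberField L := { to_finiteDimensional := inferInstance }
  obtain ⟨Nm, hN1, hN2, hN3⟩ := hD1 L hLg hLc (fun P hP hP0 => inertia_eq_bot L D' hLfix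
    (fun ℓ hℓ A hA σ hσ => by
      rw [Subgroup.mem_comap, hψu ℓ hℓ A hA σ hσ]
      exact one_mem D) P hP hP0)
  have hindex : D'.index = D.index := Subgroup.index_comap_of_surjective _ hψs
  set n := Module.finrank K L with hn
  have hnpos : 0 < n := Module.finrank_pos
  -- `n` is a power of two
  obtain ⟨a, ha⟩ : ∃ a, n = 2 ^ a := by
    have h1 : n ∣ Nat.card C := by
      rw [hLr, hindex]
      exact D.index_dvd_card
    obtain ⟨b, hb⟩ := IsPGroup.iff_card.1 hC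
    rw [hb] at h1
    obtain ⟨a, -, ha⟩ := (Nat.dvd_prime_pow Nat.prime_two).1 h1
    exact ⟨a, ha⟩
  -- `ker pr ≤ Nm`
  have hker : pr.ker ≤ Nm := by
    intro x hx
    obtain ⟨m, hm, hxm⟩ := hpr hx
    have hco : Nat.gcd m n = 1 := by
      rw [ha]
      exact (Nat.coprime_two_right.2 hm).pow_right a
    have h1 := Nat.gcd_eq_gcd_ab m n
    rw [hco] at h1
    have h2 : x = (x ^ n) ^ (Nat.gcdB m n) := by
      conv_lhs => rw [← zpow_one x]
      rw [show (1 : ℤ) = ((1 : ℕ) : ℤ) from rfl, h1, zpow_add, zpow_mul, zpow_mul, zpow_natCast,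
        zpow_natCast, hxm, one_zpow, one_mul]
    rw [h2]
    exact Nm.zpow_mem (hN2 x) _
  have hsub : D'.map φ ≤ Nm.map pr := by
    rintro x ⟨g, hg, rfl⟩
    obtain ⟨g₀, hg₀⟩ := hχ
    obtain ⟨k₁, hk₁⟩ := hC (ψ g₀)
    obtain ⟨k₂, hk₂⟩ := hG₂ (φ g₀)
    obtain ⟨g', h1, h2, h3⟩ : ∃ g', φ g' = φ g ∧ ψ g' = ψ g ∧ χ g' ≠ 1 := by
      by_cases hχg : χ g = 1
      · refine ⟨g * g₀ ^ 2 ^ (k₁ + k₂), ?_, ?_, ?_⟩
        · rw [map_mul, map_pow, add_comm, pow_add, pow_mul, hk₂, one_pow, mul_one]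
        · rw [map_mul, map_pow, pow_add, pow_mul, hk₁, one_pow, mul_one]
        · rw [map_mul, map_pow, hχg, one_mul]
          exact hg₀ _
      · exact ⟨g, rfl, rfl, hχg⟩
    obtain ⟨ℓ, hℓ, hS, A, hA, σ, hσ, h4⟩ := exists_frobenius_K (hφl.prod (hψl.prod hχl)) g' S
    simp only [MonoidHom.prod_apply, Prod.mk.injEq] at h4
    obtain ⟨h5, h6, h7⟩ := h4
    have hσD : σ ∈ D' := by
      rw [Subgroup.mem_comap, h6, h2]
      exact hg
    have hσL := (hLfix σ).1 hσD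
    let P : (Ideal (𝓞 L))⁰ := ⟨Frob.below (𝓞 L) A, mem_nonZeroDivisors_of_ne_zero
      (below_ne_bot (F := L) A hℓ hA)⟩
    let p : (Ideal (𝓞 K))⁰ := ⟨Frob.below (𝓞 K) A, mem_nonZeroDivisors_of_ne_zero
      (below_ne_bot (F := K) A hℓ hA)⟩
    have h8 : ClassGroup.mk0 p ∈ Nm := hN1 P p
      (relNorm_below K L A hℓ hA (σ : Γℚ) hσ fun x => hσL x x.2).symm
    have h9 := hφF ℓ hℓ hS A hA σ hσ (by rw [h7]; exact h3) p rfl
    rw [← h1, ← h5]
    rcases h9 with h | h <;> rw [h]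
    · exact ⟨_, h8, rfl⟩
    · exact (Nm.map pr).inv_mem ⟨_, h8, rfl⟩
  have h1 : (Nm.map pr).index ≤ (D'.map φ).index :=
    Nat.le_of_dvd (Nat.pos_of_ne_zero Subgroup.index_ne_zero_of_finite)
      (Subgroup.index_dvd_of_le hsub)
  have h2 : (Nm.map pr).index = Nm.index := Subgroup.index_map_eq Nm hprs hker
  have h3 : n ≤ Nm.index := by
    have h4 := Nm.index_mul_card
    rw [← h4] at hN3
    exact Nat.le_of_mul_le_mul_right hN3 Nat.card_pos
  calc D.index = n := by rw [← hindex, ← hLr]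
    _ ≤ Nm.index := h3
    _ ≤ _ := by rw [← h2]; exact h1

end Fermat.Agent.TwoAdic
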