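import Mathlib
import Fermat.Agent.TwoAdic.Spec

/-!
# The imaginary quadratic field `K = ℚ(√-N)`, `N` even and squarefree
-/

set_option autoImplicit false

open NumberField

namespace Fermat.Agent.TwoAdic

local notation "Qbar" => AlgebraicClosure ℚ

/-- the hypothesis on `N` -/
structure IsLev (N : ℕ) : Prop where
  sqf : Squarefree N
  two_dvd : 2 ∣ N
  two_lt : 2 < N

theorem EData.isLev (E : EData) : IsLev E.N := ⟨E.sqf, E.two_dvd, E.two_lt⟩

/-- a square root of `-N` -/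
noncomputable def nu0 (N : ℕ) : Qbar :=
  (IsAlgClosed.exists_pow_nat_eq (-(N : Qbar)) (n := 2) (by norm_num)).choose

theorem nu0_sq (N : ℕ) : nu0 N ^ 2 = -(N : Qbar) :=
  (IsAlgClosed.exists_pow_nat_eq (-(N : Qbar)) (n := 2) (by norm_num)).choose_spec

theorem KN_eq (N : ℕ) : KN N = IntermediateField.adjoin ℚ {nu0 N} := by
  apply le_antisymm
  · rw [KN, IntermediateField.adjoin_le_iff]
    intro x hx
    have h1 : x ^ 2 = nu0 N ^ 2 := by rw [nu0_sq]; exact hx
    rcases sq_eq_sq_iff_eq_or_eq_neg.mp h1 with h | h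
    · rw [h]; exact IntermediateField.mem_adjoin_simple_self ℚ _
    · rw [h]
      exact neg_mem (IntermediateField.mem_adjoin_simple_self ℚ _)
  · rw [IntermediateField.adjoin_le_iff]
    rintro x rfl
    exact IntermediateField.subset_adjoin ℚ _ (nu0_sq N)

/-- `√-N` as an element of `K` -/
noncomputable def nuK (N : ℕ) : KN N :=
  ⟨nu0 N, IntermediateField.subset_adjoin ℚ _ (nu0_sq N)⟩

theorem nuK_sq (N : ℕ) : nuK N ^ 2 = -(N : KN N) := by
  apply Subtype.ext
  simpa [nuK] using nu0_sq N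

variable {N : ℕ}

theorem irreducible_poly (hN : 0 < N) :
    Irreducible (Polynomial.X ^ 2 + Polynomial.C (N : ℚ) : Polynomial ℚ) := by
  have hd : (Polynomial.X ^ 2 + Polynomial.C (N : ℚ) : Polynomial ℚ).natDegree = 2 :=
    Polynomial.natDegree_X_pow_add_C
  rw [Polynomial.irreducible_iff_roots_eq_zero_of_degree_le_three (by rw [hd]) (by rw [hd]; norm_num)]
  rw [Multiset.eq_zero_iff_forall_notMem]
  intro x hx
  have h1 := (Polynomial.mem_roots'.mp hx).2
  simp only [Polynomial.IsRoot.def, Polynomial.eval_add, Polynomial.eval_pow, Polynomial.eval_X,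
    Polynomial.eval_C] at h1
  have h2 : (0 : ℚ) < N := by exact_mod_cast hN
  nlinarith [sq_nonneg x]

theorem minpoly_nu0 (hN : 0 < N) :
    minpoly ℚ (nu0 N) = Polynomial.X ^ 2 + Polynomial.C (N : ℚ) := by
  symm
  apply minpoly.eq_of_irreducible_of_monic (irreducible_poly hN)
  · simp [nu0_sq]
  · exact Polynomial.monic_X_pow_add_C _ (by norm_num)

theorem isIntegral_nu0 (N : ℕ) : IsIntegral ℤ (nu0 N) :=
  ⟨Polynomial.X ^ 2 + Polynomial.C (N : ℤ), Polynomial.monic_X_pow_add_C _ (by norm_num),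
    by simp [nu0_sq]⟩

theorem isIntegral_nu0' (N : ℕ) : IsIntegral ℚ (nu0 N) := (isIntegral_nu0 N).tower_top

instance finiteDimensional_KN (N : ℕ) : FiniteDimensional ℚ (KN N) := by
  rw [KN_eq]
  exact IntermediateField.adjoin.finiteDimensional (isIntegral_nu0' N)

instance numberField_KN (N : ℕ) : NumberField (KN N) where
  to_charZero := inferInstance
  to_finiteDimensional := inferInstance

theorem finrank_KN (hN : 0 < N) : Module.finrank ℚ (KN N) = 2 := by
  rw [KN_eq, IntermediateField.adjoin.finrank (isIntegral_nu0' N), minpoly_nu0 hN,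
    Polynomial.natDegree_X_pow_add_C]

theorem isQuad_KN (hN : 0 < N) : Algebra.IsQuadraticExtension ℚ (KN N) :=
  ⟨finrank_KN hN⟩

theorem isGalois_KN (hN : 0 < N) : IsGalois ℚ (KN N) := by
  have := isQuad_KN hN
  infer_instance

theorem nuK_not_rat (hN : 0 < N) (q : ℚ) : nuK N ≠ algebraMap ℚ (KN N) q := by
  intro h
  have h1 := nuK_sq N
  rw [h, ← map_pow] at h1
  have h2 : algebraMap ℚ (KN N) (q ^ 2) = algebraMap ℚ (KN N) (-(N : ℚ)) := by
    rw [h1]; simp
  have h3 := (algebraMap ℚ (KN N)).injective h2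
  have h4 : (0 : ℚ) < N := by exact_mod_cast hN
  nlinarith [sq_nonneg q]

theorem rep_eq_zero (hN : 0 < N) {p q : ℚ}
    (h : algebraMap ℚ (KN N) p + algebraMap ℚ (KN N) q * nuK N = 0) : p = 0 ∧ q = 0 := by
  have hq : q = 0 := by
    by_contra hq
    apply nuK_not_rat hN (-(p / q))
    have hq' : algebraMap ℚ (KN N) q ≠ 0 := by
      rw [Ne, map_eq_zero]; exact hq
    rw [map_neg, map_div₀]
    field_simp
    linear_combination h
  subst hq
  simp only [map_zero, zero_mul, add_zero] at h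
  exact ⟨(map_eq_zero _).mp h, rfl⟩

theorem exists_rep (hN : 0 < N) (x : KN N) : ∃ p q : ℚ,
    x = algebraMap ℚ (KN N) p + algebraMap ℚ (KN N) q * nuK N := by
  have hli : LinearIndependent ℚ ![(1 : KN N), nuK N] := by
    rw [LinearIndependent.pair_iff]
    intro s t hst
    apply rep_eq_zero hN
    simpa [Algebra.smul_def] using hst
  have hspan : Submodule.span ℚ (Set.range ![(1 : KN N), nuK N]) = ⊤ := by
    apply LinearIndependent.span_eq_top_of_card_eq_finrank' hli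
    rw [finrank_KN hN]; rfl
  have hx : x ∈ Submodule.span ℚ (Set.range ![(1 : KN N), nuK N]) := by rw [hspan]; trivial
  rw [Matrix.range_cons, Matrix.range_cons, Matrix.range_empty, Set.union_empty,
    Set.singleton_union, Submodule.mem_span_pair] at hx
  obtain ⟨p, q, h⟩ := hx
  refine ⟨p, q, ?_⟩
  rw [← h, Algebra.smul_def, Algebra.smul_def, mul_one]

/-- the nontrivial automorphism -/
theorem exists_conj (hN : 0 < N) : ∃ σ : KN N ≃ₐ[ℚ] KN N, σ (nuK N) = -nuK N := by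
  have := isGalois_KN hN
  have hcard : Nat.card (KN N ≃ₐ[ℚ] KN N) = 2 := by
    rw [IsGalois.card_aut_eq_finrank, finrank_KN hN]
  by_contra hcon
  push Not at hcon
  have hone : ∀ σ : KN N ≃ₐ[ℚ] KN N, σ = 1 := by
    intro σ
    have h1 : σ (nuK N) ^ 2 = nuK N ^ 2 := by
      rw [← map_pow, nuK_sq, map_neg, map_natCast]
    have h2 : σ (nuK N) = nuK N :=
      (sq_eq_sq_iff_eq_or_eq_neg.mp h1).resolve_right (hcon σ)
    ext x
    obtain ⟨p, q, rfl⟩ := exists_rep hN x
    simp [h2]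
  have : Subsingleton (KN N ≃ₐ[ℚ] KN N) := ⟨fun a b => by rw [hone a, hone b]⟩
  rw [Nat.card_of_subsingleton 1] at hcard
  omega

/-- conjugation -/
noncomputable def conjK (hN : 0 < N) : KN N ≃ₐ[ℚ] KN N := (exists_conj hN).choose

theorem conjK_nu (hN : 0 < N) : conjK hN (nuK N) = -nuK N := (exists_conj hN).choose_spec

theorem conjK_rep (hN : 0 < N) (p q : ℚ) :
    conjK hN (algebraMap ℚ (KN N) p + algebraMap ℚ (KN N) q * nuK N) =
      algebraMap ℚ (KN N) p - algebraMap ℚ (KN N) q * nuK N := by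
  rw [map_add, map_mul, conjK_nu, AlgEquiv.commutes, AlgEquiv.commutes]
  ring

theorem univ_gal (hN : 0 < N) (σ : KN N ≃ₐ[ℚ] KN N) : σ = 1 ∨ σ = conjK hN := by
  have h1 : σ (nuK N) ^ 2 = nuK N ^ 2 := by
    rw [← map_pow, nuK_sq, map_neg, map_natCast]
  rcases sq_eq_sq_iff_eq_or_eq_neg.mp h1 with h | h
  · left
    ext x
    obtain ⟨p, q, rfl⟩ := exists_rep hN x
    simp [h]
  · right
    ext x
    obtain ⟨p, q, rfl⟩ := exists_rep hN x
    simp [h, conjK_nu]

theorem conjK_ne_one (hN : 0 < N) : conjK hN ≠ 1 := by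
  intro h
  have h1 := conjK_nu hN
  rw [h, AlgEquiv.one_apply] at h1
  have h2 : (2 : KN N) * nuK N = 0 := by linear_combination h1
  have h3 : nuK N = 0 := by simpa using h2
  exact nuK_not_rat hN 0 (by rw [h3, map_zero])

/-- the norm -/
theorem norm_rep (hN : 0 < N) (p q : ℚ) :
    Algebra.norm ℚ (algebraMap ℚ (KN N) p + algebraMap ℚ (KN N) q * nuK N) =
      p ^ 2 + N * q ^ 2 := by
  have := isGalois_KN hN
  classical
  have huniv : (Finset.univ : Finset (KN N ≃ₐ[ℚ] KN N)) = {1, conjK hN} := by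
    ext σ
    simp only [Finset.mem_univ, Finset.mem_insert, Finset.mem_singleton, true_iff]
    exact univ_gal hN σ
  apply (algebraMap ℚ (KN N)).injective
  rw [Algebra.norm_eq_prod_automorphisms, huniv,
    Finset.prod_pair (conjK_ne_one hN).symm, AlgEquiv.one_apply, conjK_rep]
  have h := nuK_sq N
  rw [map_add, map_mul, map_pow, map_pow, map_natCast]
  linear_combination (-(algebraMap ℚ (KN N) q) ^ 2) * h

/-! ### Integers -/

/-- `√-N` as an integer of `K` -/
noncomputable def nu (N : ℕ) : 𝓞 (KN N) :=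
  ⟨nuK N, by
    rw [mem_integralClosure_iff]
    exact ⟨Polynomial.X ^ 2 + Polynomial.C (N : ℤ), Polynomial.monic_X_pow_add_C _ (by norm_num),
      by simp [nuK_sq]⟩⟩

theorem coe_nu (N : ℕ) : algebraMap (𝓞 (KN N)) (KN N) (nu N) = nuK N := rfl

theorem nu_sq (N : ℕ) : nu N ^ 2 = -(N : 𝓞 (KN N)) := by
  apply RingOfIntegers.ext
  push_cast
  exact nuK_sq N

theorem rat_isInt {q : ℚ} (h : IsIntegral ℤ (algebraMap ℚ (KN N) q)) : ∃ n : ℤ, q = n := by
  have h1 : IsIntegral ℤ q := (isIntegral_algebraMap_iff (algebraMap ℚ (KN N)).injective).mp h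
  obtain ⟨n, hn⟩ := IsIntegrallyClosed.isIntegral_iff.mp h1
  exact ⟨n, by rw [← hn]; simp⟩

theorem int_of_sqf_mul_sq {N : ℕ} (hN : Squarefree N) {r : ℚ} {m : ℤ} (h : (N : ℚ) * r ^ 2 = m) :
    ∃ n : ℤ, r = n := by
  have hN0 : N ≠ 0 := hN.ne_zero
  have hd : (r.den : ℤ) ^ 2 ∣ N := by
    have h1 : (N : ℤ) * r.num ^ 2 = m * r.den ^ 2 := by
      have h2 : (r.den : ℚ) ≠ 0 := by exact_mod_cast r.den_nz
      have h3 : (r.num : ℚ) = r * r.den := (Rat.mul_den_eq_num r).symm
      have h4 : (N : ℚ) * (r.num : ℚ) ^ 2 = m * (r.den : ℚ) ^ 2 := by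
        rw [h3, ← h]; ring
      exact_mod_cast h4
    have hcop : IsCoprime ((r.den : ℤ) ^ 2) (r.num ^ 2) := by
      apply IsCoprime.pow
      rw [Int.isCoprime_iff_nat_coprime]
      simpa using r.reduced.symm
    exact hcop.dvd_of_dvd_mul_right ⟨m, by rw [h1]; ring⟩
  have h5 : r.den ^ 2 ∣ N := by exact_mod_cast hd
  have h6 : r.den = 1 := by
    have h7 : r.den * r.den ∣ N := by rwa [← sq]
    exact Nat.isUnit_iff.mp (hN _ h7)
  exact ⟨r.num, by rw [Rat.coe_int_num_of_den_eq_one h6]⟩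

theorem exists_int_rep (hN : IsLev N) (x : 𝓞 (KN N)) : ∃ a b : ℤ, x = a + b * nu N := by
  have hN0 : 0 < N := by have := hN.two_lt; omega
  obtain ⟨p, q, hx⟩ := exists_rep hN0 (algebraMap (𝓞 (KN N)) (KN N) x)
  have hxi : IsIntegral ℤ (algebraMap (𝓞 (KN N)) (KN N) x) := x.isIntegral_coe
  have hci : IsIntegral ℤ (conjK hN0 (algebraMap (𝓞 (KN N)) (KN N) x)) :=
    hxi.map (conjK hN0).toAlgHom.toRingHom.toIntAlgHom
  rw [hx, conjK_rep] at hci
  have hxi' := hxi
  rw [hx] at hxi'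
  have htr : IsIntegral ℤ (algebraMap ℚ (KN N) (2 * p)) := by
    have h3 := hxi'.add hci
    have h4 : algebraMap ℚ (KN N) (2 * p) = algebraMap ℚ (KN N) p + algebraMap ℚ (KN N) q * nuK N +
        (algebraMap ℚ (KN N) p - algebraMap ℚ (KN N) q * nuK N) := by
      rw [map_mul, map_ofNat]
      ring
    rw [h4]
    exact h3
  have hnm : IsIntegral ℤ (algebraMap ℚ (KN N) (p ^ 2 + N * q ^ 2)) := by
    have h3 := hxi'.mul hci
    have h4 : algebraMap ℚ (KN N) (p ^ 2 + N * q ^ 2) =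
        (algebraMap ℚ (KN N) p + algebraMap ℚ (KN N) q * nuK N) *
        (algebraMap ℚ (KN N) p - algebraMap ℚ (KN N) q * nuK N) := by
      have h := nuK_sq N
      rw [map_add, map_mul, map_pow, map_pow, map_natCast]
      linear_combination (algebraMap ℚ (KN N) q) ^ 2 * h
    rw [h4]
    exact h3
  obtain ⟨P, hP⟩ := rat_isInt htr
  obtain ⟨n, hn⟩ := rat_isInt hnm
  have h1 : (N : ℚ) * (2 * q) ^ 2 = ((4 * n - P ^ 2 : ℤ) : ℚ) := by
    push_cast
    rw [← hn, ← hP]
    ring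
  obtain ⟨r, hr⟩ := int_of_sqf_mul_sq hN.sqf h1
  rw [hr] at h1
  have h2 : (N : ℤ) * r ^ 2 = 4 * n - P ^ 2 := by exact_mod_cast h1
  obtain ⟨N', hN'⟩ := hN.two_dvd
  have hodd : ¬ 2 ∣ N' := by
    rintro ⟨k, hk⟩
    have : 2 * 2 ∣ N := ⟨k, by rw [hN', hk]; ring⟩
    have := Nat.isUnit_iff.mp (hN.sqf _ this)
    omega
  have hPe : (2 : ℤ) ∣ P := by
    have : (2 : ℤ) ∣ P ^ 2 := ⟨2 * n - N' * r ^ 2, by
      have : (N : ℤ) = 2 * N' := by exact_mod_cast hN'
      rw [this] at h2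
      linear_combination h2⟩
    exact Int.prime_two.dvd_of_dvd_pow this
  obtain ⟨P', hP'⟩ := hPe
  have hre : (2 : ℤ) ∣ r := by
    have h3 : (2 : ℤ) ∣ N' * r ^ 2 := ⟨n - P' ^ 2, by
      have : (N : ℤ) = 2 * N' := by exact_mod_cast hN'
      rw [this, hP'] at h2
      linarith⟩
    rcases Int.prime_two.dvd_or_dvd h3 with h4 | h4
    · exfalso
      exact hodd (by exact_mod_cast h4)
    · exact Int.prime_two.dvd_of_dvd_pow h4
  obtain ⟨r', hr'⟩ := hre
  refine ⟨P', r', ?_⟩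
  apply RingOfIntegers.coe_injective
  rw [map_add, map_mul, map_intCast, map_intCast, coe_nu, hx]
  have e1 : p = P' := by
    have : 2 * p = 2 * (P' : ℚ) := by rw [hP, hP']; push_cast; ring
    linarith
  have e2 : q = r' := by
    have : 2 * q = 2 * (r' : ℚ) := by rw [hr, hr']; push_cast; ring
    linarith
  rw [e1, e2]
  simp

theorem int_rep_eq_zero (hN : 0 < N) {a b : ℤ} (h : (a : 𝓞 (KN N)) + b * nu N = 0) :
    a = 0 ∧ b = 0 := by
  have h1 : algebraMap ℚ (KN N) a + algebraMap ℚ (KN N) b * nuK N = 0 := by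
    have := congrArg (algebraMap (𝓞 (KN N)) (KN N)) h
    rw [map_add, map_mul, map_intCast, map_intCast, coe_nu, map_zero] at this
    simpa using this
  obtain ⟨h2, h3⟩ := rep_eq_zero hN h1
  exact ⟨by exact_mod_cast h2, by exact_mod_cast h3⟩

theorem norm_int_rep (hN : 0 < N) (a b : ℤ) :
    Algebra.norm ℤ ((a : 𝓞 (KN N)) + b * nu N) = a ^ 2 + N * b ^ 2 := by
  have h1 := norm_rep hN (a : ℚ) (b : ℚ)
  have h2 : algebraMap ℚ (KN N) (a : ℚ) + algebraMap ℚ (KN N) (b : ℚ) * nuK N =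
      algebraMap (𝓞 (KN N)) (KN N) ((a : 𝓞 (KN N)) + b * nu N) := by
    rw [map_add, map_mul, map_intCast, map_intCast, coe_nu]
    simp
  rw [h2, ← Algebra.coe_norm_int] at h1
  exact_mod_cast h1

end Fermat.Agent.TwoAdic
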