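import Fermat.Agent.TwoAdic.D1Class
import Fermat.Agent.TwoAdic.D3Main
import Fermat.Agent.TwoAdic.KField

set_option autoImplicit false

/-!
# Block D1: the first inequality for `K = ℚ(√-N)`
-/

open NumberField Module
open scoped Pointwise nonZeroDivisors

namespace Fermat.Agent.TwoAdic

/-- an imaginary quadratic field is totally complex -/
theorem isTotallyComplex_of_sq {K : Type*} [Field K] [NumberField K] {s : K} {N : ℕ} (hN : 0 < N)
    (hs : s ^ 2 = -(N : K)) : IsTotallyComplex K := by
  refine ⟨fun v => ?_⟩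
  rw [← InfinitePlace.not_isReal_iff_isComplex]
  intro hv
  have h1 : (v.embedding_of_isReal hv s) ^ 2 = -(N : ℝ) := by
    rw [← map_pow, hs, map_neg, map_natCast]
  have h2 : (0 : ℝ) < N := by exact_mod_cast hN
  nlinarith [sq_nonneg (v.embedding_of_isReal hv s)]

/-- the first inequality in the form used in block D3 -/
theorem normBound {K L : Type} [Field K] [NumberField K] [Field L] [NumberField L] [Algebra K L]
    [IsGalois K L] [IsTotallyComplex K] (h2 : finrank ℚ K = 2) (hc : IsCyclic Gal(L/K))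
    (hunr : ∀ P : Ideal (𝓞 L), P.IsPrime → P ≠ ⊥ → P.inertia Gal(L/K) = ⊥) : NormBound K L := by
  obtain ⟨σ, hσ⟩ := hc.exists_generator
  refine ⟨(clNorm K L).range, ?_, pow_mem_range_clNorm,
    finrank_mul_card_range_clNorm_le h2 hσ hunr⟩
  intro P p hp
  refine ⟨ClassGroup.mk0 P, ?_⟩
  rw [clNorm_mk0]
  congr 1
  exact Subtype.ext hp.symm

/-- **Block D1** -/
theorem firstIneq {N : ℕ} (hN : 0 < N) : FirstIneq (KN N) := by
  intro L _ _ hgal hcyc hunr
  have h1 : IsTotallyComplex (KN N) := isTotallyComplex_of_sq hN (nuK_sq N)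
  exact normBound (finrank_KN hN) hcyc hunr

end Fermat.Agent.TwoAdic
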