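import Fermat.Agent.CFT.Chevalley

set_option autoImplicit false
set_option linter.unusedSectionVars false

/-!
# The Herbrand quotient of a module containing `ℤ[G] / N` with finite index
-/

namespace Fermat.Agent.TwoAdic

open Function Fermat.Agent.CFT

section

variable {G : Type*} [Group G] [Fintype G]
variable {E : Type*} [AddCommGroup E]

/-- `σ - 1` -/
def TT (ρ : Representation ℤ G E) (σ : G) : E →+ E := (ρ σ - 1 : Module.End ℤ E).toAddMonoidHom

/-- the norm -/
def NN (ρ : Representation ℤ G E) : E →+ E := (∑ g : G, ρ g : Module.End ℤ E).toAddMonoidHom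

@[simp] theorem TT_apply (ρ : Representation ℤ G E) (σ : G) (x : E) : TT ρ σ x = ρ σ x - x := rfl

@[simp] theorem NN_apply (ρ : Representation ℤ G E) (x : E) : NN ρ x = ∑ g : G, ρ g x := by
  change (∑ g : G, ρ g : Module.End ℤ E) x = _
  rw [LinearMap.sum_apply]

theorem NN_smul (ρ : Representation ℤ G E) (h : G) (x : E) : NN ρ (ρ h x) = NN ρ x := by
  rw [NN_apply, NN_apply]
  refine Fintype.sum_equiv (Equiv.mulRight h) _ _ fun g => ?_
  rw [Equiv.coe_mulRight, map_mul]
  rfl

theorem smul_NN (ρ : Representation ℤ G E) (h : G) (x : E) : ρ h (NN ρ x) = NN ρ x := by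
  rw [NN_apply, map_sum]
  refine Fintype.sum_equiv (Equiv.mulLeft h) _ _ fun g => ?_
  rw [Equiv.coe_mulLeft, map_mul]
  rfl

theorem TT_NN (ρ : Representation ℤ G E) (σ : G) (x : E) : TT ρ σ (NN ρ x) = 0 := by
  rw [TT_apply, smul_NN, sub_self]

theorem NN_TT (ρ : Representation ℤ G E) (σ : G) (x : E) : NN ρ (TT ρ σ x) = 0 := by
  rw [TT_apply, map_sub, NN_smul, sub_self]

/-- invariants of a generator are invariants. -/
theorem fixed_of_gen (ρ : Representation ℤ G E) {σ : G} (hσ : ∀ g, g ∈ Subgroup.zpowers σ) {x : E}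
    (hx : ρ σ x = x) (g : G) : ρ g x = x := by
  let S : Subgroup G :=
    { carrier := {g | ρ g x = x}
      one_mem' := by simp
      mul_mem' := fun {a b} ha hb => by
        change ρ (a * b) x = x
        rw [map_mul, Module.End.mul_apply, show ρ b x = x from hb, show ρ a x = x from ha]
      inv_mem' := fun {a} ha => by
        change ρ a⁻¹ x = x
        have h1 : ρ a⁻¹ (ρ a x) = x := by
          rw [← Module.End.mul_apply, ← map_mul, inv_mul_cancel, map_one, Module.End.one_apply]
        rwa [show ρ a x = x from ha] at h1 }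
  have h : Subgroup.zpowers σ ≤ S := by
    rw [Subgroup.zpowers_le]
    exact hx
  exact h (hσ g)

/-- `(ρ g - 1) x` is in the image of `σ - 1`. -/
theorem sub_mem_range_TT (ρ : Representation ℤ G E) {σ : G} (hσ : ∀ g, g ∈ Subgroup.zpowers σ)
    (g : G) (x : E) : ρ g x - x ∈ (TT ρ σ).range := by
  let S : Subgroup G :=
    { carrier := {g | ∀ x, ρ g x - x ∈ (TT ρ σ).range}
      one_mem' := fun x => by
        rw [map_one, Module.End.one_apply, sub_self]
        exact zero_mem _
      mul_mem' := fun {a b} ha hb x => by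
        have h1 : ρ (a * b) x - x = (ρ a (ρ b x) - ρ b x) + (ρ b x - x) := by
          rw [map_mul, Module.End.mul_apply]; abel
        rw [h1]
        exact add_mem (ha _) (hb _)
      inv_mem' := fun {a} ha x => by
        have h1 : ρ a⁻¹ x - x = -(ρ a (ρ a⁻¹ x) - ρ a⁻¹ x) := by
          rw [← Module.End.mul_apply, ← map_mul, mul_inv_cancel, map_one, Module.End.one_apply]
          abel
        rw [h1]
        exact neg_mem (ha _) }
  have h : Subgroup.zpowers σ ≤ S := by
    rw [Subgroup.zpowers_le]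
    exact fun x => ⟨x, rfl⟩
  exact h (hσ g) x

/-- The left regular representation on functions. -/
def regRep (G : Type*) [Group G] : Representation ℤ G (G → ℤ) where
  toFun g :=
    { toFun := fun a h => a (g⁻¹ * h)
      map_add' := fun _ _ => rfl
      map_smul' := fun _ _ => rfl }
  map_one' := by
    ext a h
    simp
  map_mul' g g' := by
    apply LinearMap.ext
    intro a
    funext h
    change a ((g * g')⁻¹ * h) = a (g'⁻¹ * (g⁻¹ * h))
    rw [mul_inv_rev, mul_assoc]

@[simp] theorem regRep_apply (g : G) (a : G → ℤ) (h : G) : regRep G g a h = a (g⁻¹ * h) := rfl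

theorem NN_regRep (a : G → ℤ) (h : G) : NN (regRep G) a h = ∑ g, a g := by
  rw [NN_apply, Finset.sum_apply]
  refine Fintype.sum_equiv ((Equiv.inv G).trans (Equiv.mulRight h)) _ _ fun g => ?_
  rfl

theorem card_HH_reg_zero {σ : G} (hσ : ∀ g, g ∈ Subgroup.zpowers σ) :
    Nat.card (HH (TT (regRep G) σ) (NN (regRep G))) = 1 := by
  classical
  rw [Nat.card_eq_one_iff_unique]
  refine ⟨⟨fun x y => ?_⟩, ⟨0⟩⟩
  have key : ∀ x : HH (TT (regRep G) σ) (NN (regRep G)), x = 0 := by
    intro x
    obtain ⟨a, ha, rfl⟩ := HH.mk_surj x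
    rw [HH.mk_eq_zero_iff]
    have ha' : regRep G σ a = a := sub_eq_zero.mp ha
    refine ⟨Pi.single 1 (a 1), ?_⟩
    funext h
    rw [NN_regRep, Finset.sum_pi_single']
    have := congrFun (fixed_of_gen (regRep G) hσ ha' h) h
    rw [regRep_apply, inv_mul_cancel] at this
    simp [this]
  rw [key x, key y]

theorem card_HH_reg_one {σ : G} (hσ : ∀ g, g ∈ Subgroup.zpowers σ) :
    Nat.card (HH (NN (regRep G)) (TT (regRep G) σ)) = 1 := by
  classical
  rw [Nat.card_eq_one_iff_unique]
  refine ⟨⟨fun x y => ?_⟩, ⟨0⟩⟩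
  have key : ∀ x : HH (NN (regRep G)) (TT (regRep G) σ), x = 0 := by
    intro x
    obtain ⟨a, ha, rfl⟩ := HH.mk_surj x
    rw [HH.mk_eq_zero_iff]
    have ha' : ∑ g, a g = 0 := by
      have := congrFun ha 1
      rwa [NN_regRep] at this
    have h1 : a = ∑ g, a g • (regRep G g (Pi.single 1 1) - Pi.single 1 1) := by
      simp_rw [smul_sub]
      rw [Finset.sum_sub_distrib, ← Finset.sum_smul, ha', zero_smul, sub_zero]
      funext h
      rw [Finset.sum_apply, Finset.sum_eq_single h]
      · simp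
      · intro g _ hg
        rw [Pi.smul_apply, regRep_apply, Pi.single_eq_of_ne, smul_zero]
        intro h'
        exact hg (inv_mul_eq_one.mp h')
      · intro h'
        exact absurd (Finset.mem_univ _) h'
    have h2 : a ∈ (TT (regRep G) σ).range := by
      rw [h1]
      exact sum_mem fun g _ => zsmul_mem (sub_mem_range_TT (regRep G) hσ g _) _
    exact h2
  rw [key x, key y]

variable (ρ : Representation ℤ G E) (η : E)

/-- `a ↦ ∑ a_g g η` -/
def phiE : (G → ℤ) →+ E where
  toFun a := ∑ g, a g • ρ g η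
  map_zero' := by simp
  map_add' a b := by simp [add_smul, Finset.sum_add_distrib]

@[simp] theorem phiE_apply (a : G → ℤ) : phiE ρ η a = ∑ g, a g • ρ g η := rfl

theorem phiE_reg (h : G) (a : G → ℤ) : phiE ρ η (regRep G h a) = ρ h (phiE ρ η a) := by
  rw [phiE_apply, phiE_apply, map_sum]
  refine (Fintype.sum_equiv (Equiv.mulLeft h) _ _ fun g => ?_).symm
  rw [Equiv.coe_mulLeft, regRep_apply, inv_mul_cancel_left, map_smul, map_mul]
  rfl

theorem range_stable (h : G) {x : E} (hx : x ∈ (phiE ρ η).range) : ρ h x ∈ (phiE ρ η).range := by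
  obtain ⟨a, rfl⟩ := hx
  exact ⟨_, phiE_reg ρ η h a⟩

end

section Restrict

variable {G : Type*} [Group G] {E : Type*} [AddCommGroup E]

/-- restriction of a representation to a stable subgroup -/
def subRep (ρ : Representation ℤ G E) (B : AddSubgroup E) (hB : ∀ (g : G), ∀ x ∈ B, ρ g x ∈ B) :
    Representation ℤ G B where
  toFun g := AddMonoidHom.toIntLinearMap
    { toFun := fun x => ⟨ρ g x, hB g x x.2⟩
      map_zero' := Subtype.ext (map_zero (ρ g))
      map_add' := fun x y => Subtype.ext (map_add (ρ g) _ _) }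
  map_one' := by
    apply LinearMap.ext
    intro x
    apply Subtype.ext
    change ρ 1 (x : E) = x
    rw [map_one]; rfl
  map_mul' g h := by
    apply LinearMap.ext
    intro x
    apply Subtype.ext
    change ρ (g * h) (x : E) = ρ g (ρ h (x : E))
    rw [map_mul]; rfl

@[simp] theorem coe_subRep (ρ : Representation ℤ G E) (B : AddSubgroup E)
    (hB : ∀ (g : G), ∀ x ∈ B, ρ g x ∈ B) (g : G) (x : B) : ((subRep ρ B hB g x : B) : E) = ρ g x :=
  rfl

/-- the quotient representation -/
def quotRep (ρ : Representation ℤ G E) (B : AddSubgroup E) (hB : ∀ (g : G), ∀ x ∈ B, ρ g x ∈ B) :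
    Representation ℤ G (E ⧸ B) where
  toFun g := (QuotientAddGroup.map B B (ρ g).toAddMonoidHom fun x hx => hB g x hx).toIntLinearMap
  map_one' := by
    apply LinearMap.ext
    intro x
    obtain ⟨x, rfl⟩ := QuotientAddGroup.mk_surjective x
    change QuotientAddGroup.mk (ρ 1 x) = _
    rw [map_one]; rfl
  map_mul' g h := by
    apply LinearMap.ext
    intro x
    obtain ⟨x, rfl⟩ := QuotientAddGroup.mk_surjective x
    change QuotientAddGroup.mk (ρ (g * h) x) = QuotientAddGroup.mk (ρ g (ρ h x))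
    rw [map_mul]; rfl

@[simp] theorem quotRep_mk (ρ : Representation ℤ G E) (B : AddSubgroup E)
    (hB : ∀ (g : G), ∀ x ∈ B, ρ g x ∈ B) (g : G) (x : E) :
    quotRep ρ B hB g (QuotientAddGroup.mk x) = QuotientAddGroup.mk (ρ g x) := rfl

variable [Fintype G]

/-- The exact sequence `0 → B → E → E / B → 0`. -/
def sesSub (ρ : Representation ℤ G E) (B : AddSubgroup E) (hB : ∀ (g : G), ∀ x ∈ B, ρ g x ∈ B)
    (σ : G) : HSES B E (E ⧸ B) (TT (subRep ρ B hB) σ) (NN (subRep ρ B hB)) (TT ρ σ) (NN ρ)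
      (TT (quotRep ρ B hB) σ) (NN (quotRep ρ B hB)) where
  i := B.subtype
  j := QuotientAddGroup.mk' B
  inj := B.subtype_injective
  surj := QuotientAddGroup.mk'_surjective B
  exact := fun b => by
    rw [QuotientAddGroup.mk'_apply, QuotientAddGroup.eq_zero_iff]
    exact ⟨fun h => ⟨⟨b, h⟩, rfl⟩, by rintro ⟨a, rfl⟩; exact a.2⟩
  if_ := fun x => rfl
  ig := fun x => by
    rw [NN_apply, NN_apply, map_sum]
    rfl
  jf := fun x => rfl
  jg := fun x => by
    rw [NN_apply, NN_apply, map_sum]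
    rfl
  fgA := TT_NN _ σ
  gfA := NN_TT _ σ
  fgB := TT_NN _ σ
  gfB := NN_TT _ σ
  fgC := TT_NN _ σ
  gfC := NN_TT _ σ

/-- Invariance of the Herbrand quotient under passage to a subgroup of finite index. -/
theorem card_mul_of_finite_index (ρ : Representation ℤ G E) (B : AddSubgroup E)
    (hB : ∀ (g : G), ∀ x ∈ B, ρ g x ∈ B) (σ : G) (hfin : Finite (E ⧸ B)) :
    Nat.card (HH (TT (subRep ρ B hB) σ) (NN (subRep ρ B hB))) *
        Nat.card (HH (NN ρ) (TT ρ σ)) =
      Nat.card (HH (TT ρ σ) (NN ρ)) *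
        Nat.card (HH (NN (subRep ρ B hB)) (TT (subRep ρ B hB) σ)) := by
  have h := (sesSub ρ B hB σ).card_mul
  have h1 := card_HH_eq_of_finite (TT (quotRep ρ B hB) σ) (NN (quotRep ρ B hB)) (TT_NN _ σ)
    (NN_TT _ σ)
  have h2 : 0 < Nat.card (HH (NN (quotRep ρ B hB)) (TT (quotRep ρ B hB) σ)) := by
    have : Finite (HH (NN (quotRep ρ B hB)) (TT (quotRep ρ B hB) σ)) :=
      Finite.of_surjective _ QuotientAddGroup.mk_surjective
    exact Nat.card_pos
  rw [h1] at h
  apply Nat.eq_of_mul_eq_mul_right h2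
  linarith

/-- The exact sequence `0 → ℤ → ℤ[G] → ℤ[G] η → 0`. -/
def sesMink (ρ : Representation ℤ G E) (η : E) (σ : G) (h1 : ∑ g, ρ g η = 0)
    (h2 : ∀ a : G → ℤ, ∑ g, a g • ρ g η = 0 → ∀ g, a g = a 1) :
    HSES ℤ (G → ℤ) (phiE ρ η).range 0 (nsmulAddMonoidHom (Fintype.card G))
      (TT (regRep G) σ) (NN (regRep G))
      (TT (subRep ρ (phiE ρ η).range fun g _ hx => range_stable ρ η g hx) σ)
      (NN (subRep ρ (phiE ρ η).range fun g _ hx => range_stable ρ η g hx)) where
  i :=
    { toFun := fun c _ => c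
      map_zero' := rfl
      map_add' := fun _ _ => rfl }
  j := (phiE ρ η).rangeRestrict
  inj := fun c d h => congrFun h 1
  surj := (phiE ρ η).rangeRestrict_surjective
  exact := fun b => by
    constructor
    · intro h
      have h' : ∑ g, b g • ρ g η = 0 := congrArg Subtype.val h
      refine ⟨b 1, ?_⟩
      funext g
      exact (h2 b h' g).symm
    · rintro ⟨c, rfl⟩
      apply Subtype.ext
      change ∑ g, c • ρ g η = 0
      rw [← Finset.smul_sum, h1, smul_zero]
  if_ := fun x => by
    funext g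
    change (0 : ℤ) = x - x
    rw [sub_self]
  ig := fun x => by
    funext h
    rw [NN_regRep]
    change Fintype.card G • x = ∑ g : G, x
    rw [Finset.sum_const, Finset.card_univ]
  jf := fun x => by
    apply Subtype.ext
    change phiE ρ η (regRep G σ x - x) = ρ σ (phiE ρ η x) - phiE ρ η x
    rw [map_sub, phiE_reg]
  jg := fun x => by
    apply Subtype.ext
    rw [NN_apply, NN_apply]
    change phiE ρ η (∑ g, regRep G g x) = ((∑ g, _ : (phiE ρ η).range) : E)
    rw [map_sum, AddSubgroup.val_finsetSum]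
    exact Finset.sum_congr rfl fun g _ => phiE_reg ρ η g x
  fgA := fun x => rfl
  gfA := fun x => by simp
  fgB := TT_NN _ σ
  gfB := NN_TT _ σ
  fgC := TT_NN _ σ
  gfC := NN_TT _ σ

/-- **The Herbrand quotient of a module with a Minkowski unit is `1 / n`.** -/
theorem card_HH_minkowski (ρ : Representation ℤ G E) (η : E) {σ : G}
    (hσ : ∀ g, g ∈ Subgroup.zpowers σ) (h1 : ∑ g, ρ g η = 0)
    (h2 : ∀ a : G → ℤ, ∑ g, a g • ρ g η = 0 → ∀ g, a g = a 1)
    (hfin : Finite (E ⧸ (phiE ρ η).range)) :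
    Nat.card (HH (NN ρ) (TT ρ σ)) = Fintype.card G * Nat.card (HH (TT ρ σ) (NN ρ)) := by
  obtain ⟨B, hBdef⟩ : ∃ B : AddSubgroup E, B = (phiE ρ η).range := ⟨_, rfl⟩
  have S := sesMink ρ η σ h1 h2
  have hn : Fintype.card G ≠ 0 := Fintype.card_ne_zero
  have e1 : Nat.card (HH (0 : ℤ →+ ℤ) (nsmulAddMonoidHom (Fintype.card G))) = Fintype.card G := by
    rw [card_HH_zero_left]
    have h := index_nsmul_free (F := ℤ) (Fintype.card G) hn
    rw [h, Module.finrank_self, pow_one]
  have e2 : Nat.card (HH (nsmulAddMonoidHom (Fintype.card G) : ℤ →+ ℤ) 0) = 1 := by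
    rw [card_HH_zero_right, Nat.card_eq_one_iff_unique]
    refine ⟨⟨fun x y => ?_⟩, ⟨0⟩⟩
    have key : ∀ x : (nsmulAddMonoidHom (Fintype.card G) : ℤ →+ ℤ).ker, x = 0 := by
      rintro ⟨x, hx⟩
      apply Subtype.ext
      have hx' : Fintype.card G • x = 0 := hx
      rw [nsmul_eq_mul] at hx'
      exact (mul_eq_zero.mp hx').resolve_left (by exact_mod_cast hn)
    rw [key x, key y]
  have h3 := S.card_mul
  rw [e1, e2, card_HH_reg_one hσ, card_HH_reg_zero hσ, one_mul, mul_one, one_mul] at h3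
  have h4 := card_mul_of_finite_index ρ (phiE ρ η).range
    (fun g _ hx => range_stable ρ η g hx) σ hfin
  rw [← h3] at h4
  have f1 : Finite (HH (TT (regRep G) σ) (NN (regRep G))) :=
    (Nat.card_eq_one_iff_unique.mp (card_HH_reg_zero hσ)).1 |> fun h => by
      have := h
      infer_instance
  have f2 : Finite (HH (nsmulAddMonoidHom (Fintype.card G) : ℤ →+ ℤ) 0) := by
    have h := (Nat.card_eq_one_iff_unique.mp e2).1
    infer_instance
  have f3 := S.finite_C
  have h5 := Nat.card_pos (α := HH (TT (subRep ρ (phiE ρ η).range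
    fun g _ hx => range_stable ρ η g hx) σ) (NN (subRep ρ (phiE ρ η).range
      fun g _ hx => range_stable ρ η g hx)))
  apply Nat.eq_of_mul_eq_mul_left h5
  rw [h4]
  ring

end Restrict

end Fermat.Agent.TwoAdic
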