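import Fermat.Agent.S14Lib.ClassFun

set_option autoImplicit false
set_option linter.unusedSectionVars false

/-!
# Galois action on ideals and ideal classes, the norm, and invariant ideals
-/

open NumberField Ideal Module
open scoped Pointwise nonZeroDivisors

namespace Fermat.Agent.TwoAdic

variable {K L : Type} [Field K] [NumberField K] [Field L] [NumberField L] [Algebra K L]

theorem smul_ne_botL (σ : Gal(L/K)) {I : Ideal (𝓞 L)} (hI : I ≠ ⊥) : σ • I ≠ ⊥ := by
  intro h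
  apply hI
  have := congrArg (σ⁻¹ • ·) h
  simpa using this

/-- Galois action on nonzero ideals -/
noncomputable def ismulL (σ : Gal(L/K)) : (Ideal (𝓞 L))⁰ →* (Ideal (𝓞 L))⁰ where
  toFun I := ⟨σ • (I : Ideal (𝓞 L)), mem_nonZeroDivisors_iff_ne_zero.2
    (smul_ne_botL σ (mem_nonZeroDivisors_iff_ne_zero.1 I.2))⟩
  map_one' := Subtype.ext (smul_one σ)
  map_mul' _ _ := Subtype.ext (smul_mul' σ _ _)

theorem smul_spanL (σ : Gal(L/K)) (x : 𝓞 L) : σ • (span {x} : Ideal (𝓞 L)) = span {σ • x} := by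
  rw [Ideal.pointwise_smul_def, Ideal.map_span, Set.image_singleton]
  rfl

/-- Galois action on the class group. -/
noncomputable def cactL (σ : Gal(L/K)) : ClassGroup (𝓞 L) →* ClassGroup (𝓞 L) :=
  S14Lib.classLift (ClassGroup.mk0.comp (ismulL σ)) (by
    intro x hx
    rw [MonoidHom.comp_apply, ClassGroup.mk0_eq_one_iff]
    exact ⟨σ • x, smul_spanL σ x⟩)

theorem cactL_mk0 (σ : Gal(L/K)) (I : (Ideal (𝓞 L))⁰) :
    cactL σ (ClassGroup.mk0 I) = ClassGroup.mk0 (ismulL σ I) := S14Lib.classLift_mk0 _ _ _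

variable (K L) in
/-- The norm on nonzero ideals. -/
noncomputable def inormL : (Ideal (𝓞 L))⁰ →* (Ideal (𝓞 K))⁰ where
  toFun I := ⟨relNorm (𝓞 K) (I : Ideal (𝓞 L)), mem_nonZeroDivisors_iff_ne_zero.2 (by
    intro h
    exact mem_nonZeroDivisors_iff_ne_zero.1 I.2 (relNorm_eq_bot_iff.mp h))⟩
  map_one' := Subtype.ext (map_one _)
  map_mul' _ _ := Subtype.ext (map_mul _ _ _)

variable (K L) in
/-- The norm on ideal classes. -/
noncomputable def clNorm : ClassGroup (𝓞 L) →* ClassGroup (𝓞 K) :=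
  S14Lib.classLift (ClassGroup.mk0.comp (inormL K L)) (by
    intro x hx
    rw [MonoidHom.comp_apply, ClassGroup.mk0_eq_one_iff]
    refine ⟨Algebra.intNorm (𝓞 K) (𝓞 L) x, ?_⟩
    exact relNorm_singleton (𝓞 K) x)

theorem clNorm_mk0 (I : (Ideal (𝓞 L))⁰) :
    clNorm K L (ClassGroup.mk0 I) = ClassGroup.mk0 (inormL K L I) := S14Lib.classLift_mk0 _ _ _

variable (K L) in
/-- Extension of nonzero ideals. -/
noncomputable def iextL : (Ideal (𝓞 K))⁰ →* (Ideal (𝓞 L))⁰ where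
  toFun I := ⟨(I : Ideal (𝓞 K)).map (algebraMap (𝓞 K) (𝓞 L)),
    mem_nonZeroDivisors_iff_ne_zero.2
      (map_ne_bot_of_ne_bot (mem_nonZeroDivisors_iff_ne_zero.1 I.2))⟩
  map_one' := Subtype.ext (by
    change Ideal.map _ (1 : Ideal (𝓞 K)) = 1
    rw [Ideal.one_eq_top, Ideal.map_top, Ideal.one_eq_top])
  map_mul' _ _ := Subtype.ext (Ideal.map_mul _ _ _)

variable (K L) in
/-- Extension of ideal classes. -/
noncomputable def clExt : ClassGroup (𝓞 K) →* ClassGroup (𝓞 L) :=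
  S14Lib.classLift (ClassGroup.mk0.comp (iextL K L)) (by
    intro x hx
    rw [MonoidHom.comp_apply, ClassGroup.mk0_eq_one_iff]
    refine ⟨algebraMap (𝓞 K) (𝓞 L) x, ?_⟩
    change Ideal.map _ (span {x}) = _
    rw [Ideal.map_span, Set.image_singleton])

theorem clExt_mk0 (I : (Ideal (𝓞 K))⁰) :
    clExt K L (ClassGroup.mk0 I) = ClassGroup.mk0 (iextL K L I) := S14Lib.classLift_mk0 _ _ _

theorem clNorm_cactL (σ : Gal(L/K)) (c : ClassGroup (𝓞 L)) :
    clNorm K L (cactL σ c) = clNorm K L c := by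
  have : SMulCommClass Gal(L/K) (𝓞 K) (𝓞 L) := ⟨fun g a b => by
    apply RingOfIntegers.ext
    change g ((a • b : 𝓞 L) : L) = ((a • (g • b) : 𝓞 L) : L)
    rw [Algebra.smul_def, Algebra.smul_def]
    change g (algebraMap K L (a : K) * (b : L)) = algebraMap K L (a : K) * g (b : L)
    rw [map_mul, g.commutes]⟩
  obtain ⟨I, rfl⟩ := ClassGroup.mk0_surjective c
  rw [cactL_mk0, clNorm_mk0, clNorm_mk0]
  congr 1
  exact Subtype.ext (relNorm_smul (𝓞 K) σ _)

/-- `N ∘ j` is the `[L : K]`-th power. -/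
theorem clNorm_clExt (c : ClassGroup (𝓞 K)) :
    clNorm K L (clExt K L c) = c ^ finrank K L := by
  obtain ⟨I, rfl⟩ := ClassGroup.mk0_surjective c
  rw [clExt_mk0, clNorm_mk0, ← map_pow]
  congr 1
  apply Subtype.ext
  change relNorm (𝓞 K) ((I : Ideal (𝓞 K)).map (algebraMap (𝓞 K) (𝓞 L))) = ((I ^ _ : (Ideal (𝓞 K))⁰) : Ideal (𝓞 K))
  rw [relNorm_algebraMap, IsFractionRing.finrank_eq (𝓞 K) K (𝓞 L) L]
  rfl

/-- The norm of a prime. -/
theorem clNorm_prime (P : Ideal (𝓞 L)) (p : Ideal (𝓞 K)) [P.IsPrime] [p.IsPrime] [P.LiesOver p]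
    (hP : P ≠ ⊥) (hp : p ≠ ⊥) :
    clNorm K L (ClassGroup.mk0 ⟨P, mem_nonZeroDivisors_iff_ne_zero.2 hP⟩) =
      ClassGroup.mk0 ⟨p, mem_nonZeroDivisors_iff_ne_zero.2 hp⟩ ^ P.inertiaDeg (𝓞 K) := by
  have h1 : p.IsMaximal := Ring.DimensionLEOne.maximalOfPrime hp inferInstance
  have h2 : P.IsMaximal := Ring.DimensionLEOne.maximalOfPrime hP inferInstance
  rw [clNorm_mk0, ← map_pow]
  congr 1
  apply Subtype.ext
  exact relNorm_eq_pow_of_isMaximal P p

section Inv

variable [IsGalois K L]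

/-- the extension of a prime of `K` divides an invariant ideal contained in a prime above. -/
theorem exists_of_invariant
    (hunr : ∀ P : Ideal (𝓞 L), P.IsPrime → P ≠ ⊥ → P.inertia Gal(L/K) = ⊥) (J : Ideal (𝓞 L))
    (hJ : J ≠ ⊥) (hinv : ∀ σ : Gal(L/K), σ • J = J) :
    ∃ A : Ideal (𝓞 K), A ≠ ⊥ ∧ J = A.map (algebraMap (𝓞 K) (𝓞 L)) := by
  classical
  induction J using WellFoundedGT.induction with
  | ind J ih =>
    by_cases hJt : J = ⊤
    · refine ⟨⊤, top_ne_bot, ?_⟩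
      rw [hJt, Ideal.map_top]
    obtain ⟨P, hPm, hJP⟩ := Ideal.exists_le_maximal J hJt
    have hP0 : P ≠ ⊥ := by
      rintro rfl
      exact hJ (le_bot_iff.mp hJP)
    obtain ⟨p, hpdef⟩ : ∃ p : Ideal (𝓞 K), p = P.under (𝓞 K) := ⟨_, rfl⟩
    have hlo : P.LiesOver p := ⟨hpdef⟩
    have hpm : p.IsMaximal := by
      rw [hpdef]
      infer_instance
    have hp0 : p ≠ ⊥ := by
      rintro h
      have : P.LiesOver (⊥ : Ideal (𝓞 K)) := h ▸ hlo
      exact hP0 (eq_bot_of_liesOver_bot (𝓞 K) P)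
    have hprod : p.map (algebraMap (𝓞 K) (𝓞 L)) = ∏ Q ∈ p.primesOver (𝓞 L), Q := by
      rw [Ideal.map_algebraMap_eq_finsetProd_pow hp0]
      refine Finset.prod_congr rfl fun Q hQ => ?_
      rw [Set.mem_toFinset] at hQ
      have hQp : Q.IsPrime := hQ.1
      have hQl : Q.LiesOver p := hQ.2
      have hQ0 : Q ≠ ⊥ := by
        rintro rfl
        apply hp0
        rw [hQl.over]
        exact Ideal.under_bot _ _
      have h1 := card_inertia_eq_ramificationIdxIn (G := Gal(L/K)) p Q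
      rw [hunr Q hQp hQ0, Subgroup.card_bot, ramificationIdxIn_eq_ramificationIdx p Q Gal(L/K)] at h1
      rw [← h1, pow_one]
    have hdvd : p.map (algebraMap (𝓞 K) (𝓞 L)) ∣ J := by
      rw [hprod]
      apply Finset.prod_primes_dvd
      · intro Q hQ
        rw [Set.mem_toFinset] at hQ
        have hQp : Q.IsPrime := hQ.1
        have hQl : Q.LiesOver p := hQ.2
        have hQ0 : Q ≠ ⊥ := by
          rintro rfl
          apply hp0
          rw [hQl.over]
          exact Ideal.under_bot _ _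
        exact Ideal.prime_of_isPrime hQ0 hQp
      · intro Q hQ
        rw [Set.mem_toFinset] at hQ
        have hQp : Q.IsPrime := hQ.1
        have hQl : Q.LiesOver p := hQ.2
        have hPp : P.IsPrime := hPm.isPrime
        obtain ⟨σ, rfl⟩ := Ideal.exists_smul_eq_of_isGaloisGroup p P Q Gal(L/K)
        rw [Ideal.dvd_iff_le, ← hinv σ]
        exact Ideal.pointwise_smul_le_pointwise_smul_iff.mpr hJP
    obtain ⟨J', rfl⟩ := hdvd
    have hJ'0 : J' ≠ ⊥ := by
      rintro rfl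
      exact hJ (by rw [Ideal.mul_bot])
    have hmap0 : p.map (algebraMap (𝓞 K) (𝓞 L)) ≠ ⊥ := map_ne_bot_of_ne_bot hp0
    have hlt : p.map (algebraMap (𝓞 K) (𝓞 L)) * J' < J' := by
      refine lt_of_le_of_ne Ideal.mul_le_right fun h => ?_
      have h2 : p.map (algebraMap (𝓞 K) (𝓞 L)) * J' = 1 * J' := by rw [h, one_mul]
      have h3 := mul_right_cancel₀ hJ'0 h2
      have h4 : p.map (algebraMap (𝓞 K) (𝓞 L)) ≤ P := by
        rw [Ideal.map_le_iff_le_comap, hpdef]
      rw [h3, Ideal.one_eq_top] at h4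
      exact hPm.ne_top (top_le_iff.mp h4)
    have hmapinv : ∀ σ : Gal(L/K), σ • p.map (algebraMap (𝓞 K) (𝓞 L)) =
        p.map (algebraMap (𝓞 K) (𝓞 L)) := by
      intro σ
      rw [Ideal.pointwise_smul_def, Ideal.map_map]
      congr 1
      ext x
      exact σ.commutes (x : K)
    obtain ⟨A, hA0, hA⟩ := ih J' hlt hJ'0 fun σ => by
      have h5 := hinv σ
      rw [smul_mul', hmapinv] at h5
      exact mul_left_cancel₀ hmap0 h5
    refine ⟨p * A, mul_ne_zero hp0 hA0, ?_⟩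
    rw [Ideal.map_mul, ← hA]

end Inv

end Fermat.Agent.TwoAdic
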