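import Mathlib
import Fermat.Agent.TwoAdic.KField
import Fermat.Agent.ECRep.InertiaField
import Fermat.Agent.CycChar.Basic
import Fermat.Agent.Cheb.DetCyc

/-!
# Local facts: parity of inertia and Frobenius elements, ramification of `ℚ(√-N)`
-/

set_option autoImplicit false

open scoped NumberField Pointwise
open IntermediateField Fermat.Agent

namespace Fermat.Agent.TwoAdic

local notation "Qb" => AlgebraicClosure ℚ
local notation "Γℚ" => (AlgebraicClosure ℚ ≃ₐ[ℚ] AlgebraicClosure ℚ)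

theorem coprime_sq_sub_one {v : ℕ} (hv : v.Prime) : (v ^ 2 - 1).Coprime v := by
  have h1 : 1 ≤ v ^ 2 := Nat.one_le_pow _ _ hv.pos
  rw [Nat.Coprime, Nat.gcd_comm, ← Nat.Coprime, hv.coprime_iff_not_dvd]
  intro h
  have h2 : v ∣ v ^ 2 - (v ^ 2 - 1) := Nat.dvd_sub (dvd_pow_self v two_ne_zero) h
  rw [Nat.sub_sub_self h1] at h2
  exact hv.one_lt.ne' (Nat.dvd_one.1 h2)

/-- inertia elements are even -/
theorem isEven_of_mem_inertia {v : ℕ} (hv : v.Prime) {P : ValuationSubring Qb}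
    (hP : P.LiesOverPrime v) {τ : Γℚ} (hτ : τ ∈ P.inertiaSubgroupIn ℚ) : IsEven v τ :=
  fun _ hζ => CycChar.inertia_apply_eq hP (coprime_sq_sub_one hv) hτ hζ

theorem IsEven.one (v : ℕ) : IsEven v 1 := fun _ _ => rfl

theorem IsEven.mul {v : ℕ} {g h : Γℚ} (hg : IsEven v g) (hh : IsEven v h) : IsEven v (g * h) := by
  intro ζ hζ
  rw [AlgEquiv.mul_apply, hh ζ hζ, hg ζ hζ]

theorem IsEven.inv {v : ℕ} {g : Γℚ} (hg : IsEven v g) : IsEven v g⁻¹ := by
  intro ζ hζ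
  have h1 : g⁻¹ (g ζ) = ζ := by
    rw [← AlgEquiv.mul_apply, inv_mul_cancel]; rfl
  rw [hg ζ hζ] at h1
  exact h1

theorem isEven_mul_iff {v : ℕ} {g h : Γℚ} (hh : IsEven v h) : IsEven v (g * h) ↔ IsEven v g :=
  ⟨fun H => by simpa using H.mul hh.inv, fun H => H.mul hh⟩

/-- Frobenius elements are odd -/
theorem not_isEven_frob {v : ℕ} (hv : v.Prime) {P : ValuationSubring Qb}
    (hP : P.LiesOverPrime v) {φ : Γℚ} (hφ : P.IsFrobeniusAt φ v) : ¬ IsEven v φ := by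
  intro h
  have hn0 : v ^ 2 - 1 ≠ 0 := by
    have : 2 ^ 2 ≤ v ^ 2 := Nat.pow_le_pow_left hv.two_le 2
    omega
  have : NeZero (v ^ 2 - 1) := ⟨hn0⟩
  obtain ⟨ζ, hζ⟩ := HasEnoughRootsOfUnity.exists_primitiveRoot Qb (v ^ 2 - 1)
  have hnv : ¬ v ∣ v ^ 2 - 1 := by
    rw [← hv.coprime_iff_not_dvd]
    exact (coprime_sq_sub_one hv).symm
  have h1 := Cheb.frob_rootOfUnity hv hP hφ hnv hζ.pow_eq_one
  rw [h ζ hζ.pow_eq_one] at h1
  have hζ0 : ζ ≠ 0 := hζ.ne_zero hn0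
  have h2 : ζ ^ (v - 1) = 1 := by
    have h3 : ζ * ζ ^ (v - 1) = ζ * 1 := by
      rw [← pow_succ', Nat.sub_add_cancel hv.one_le, mul_one]
      exact h1.symm
    exact mul_left_cancel₀ hζ0 h3
  have h3 := hζ.dvd_of_pow_eq_one _ h2
  have h4 : 0 < v - 1 := Nat.sub_pos_of_lt hv.one_lt
  have h5 := Nat.le_of_dvd h4 h3
  have h6 : v * 2 ≤ v * v := Nat.mul_le_mul_left v hv.two_le
  rw [sq] at h5
  omega

theorem mem_fixK_iff {N : ℕ} {g : Γℚ} : g ∈ (KN N).fixingSubgroup ↔ FixK N g :=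
  IntermediateField.mem_fixingSubgroup_iff _ _

theorem fixK_iff_nu0 {N : ℕ} {g : Γℚ} : FixK N g ↔ g (nu0 N) = nu0 N := by
  constructor
  · intro h
    exact h _ (by rw [KN_eq]; exact IntermediateField.mem_adjoin_simple_self ℚ _)
  · intro h x hx
    rw [KN_eq] at hx
    have h1 : (IntermediateField.adjoin ℚ {nu0 N}) ≤
        IntermediateField.fixedField (Subgroup.zpowers g) := by
      rw [IntermediateField.adjoin_simple_le_iff]
      rintro ⟨σ, k, rfl⟩
      change (g ^ k) (nu0 N) = nu0 N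
      have h2 : g ∈ MulAction.stabilizer Γℚ (nu0 N) := h
      exact Subgroup.zpow_mem _ h2 k
    have h2 := h1 hx ⟨g, Subgroup.mem_zpowers g⟩
    exact h2

/-- `ℚ(√-N)` is ramified at `v ∣ N` -/
theorem exists_mem_inertia_not_fixK {N v : ℕ} (hv : v.Prime) (hvN : v ∣ N) (hN : Squarefree N)
    {P : ValuationSubring Qb} (hP : P.LiesOverPrime v) :
    ∃ τ ∈ P.inertiaSubgroupIn ℚ, ¬ FixK N τ := by
  by_contra hcon
  push Not at hcon
  have hN0 : N ≠ 0 := hN.ne_zero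
  have hnu : nu0 N ≠ 0 := by
    intro h
    have := nu0_sq N
    rw [h] at this
    simp at this
    exact hN0 (by exact_mod_cast this)
  obtain ⟨k, hk⟩ := ECRep.exists_zpow_of_fixed hv hP hnu fun σ hσ =>
    fixK_iff_nu0.1 (hcon σ hσ)
  obtain ⟨M, rfl⟩ := hvN
  have hM : ¬ v ∣ M := by
    intro h
    obtain ⟨M', rfl⟩ := h
    have := hN v ⟨M', by ring⟩
    exact hv.one_lt.ne' (Nat.isUnit_iff.1 this)
  have hvpos : 0 < P.valuation (v : Qb) := S13lib.v_prime_pos hv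
  have hvlt : P.valuation (v : Qb) < 1 := S13lib.v_prime_lt_one hP
  have hMu : P.valuation (M : Qb) = 1 := by
    have h := S13lib.v_intCast_eq_one' hv hP (n := (M : ℤ)) (by exact_mod_cast hM)
    exact_mod_cast h
  have h1 := congrArg P.valuation (nu0_sq (v * M))
  rw [map_pow, hk, Valuation.map_neg, Nat.cast_mul, map_mul, hMu, mul_one] at h1
  have h2 : P.valuation (v : Qb) ^ (k * 2) = P.valuation (v : Qb) ^ (1 : ℤ) := by
    rw [zpow_mul, zpow_one]
    exact_mod_cast h1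
  have h3 := (zpow_right_strictAnti₀ hvpos hvlt).injective h2
  omega

end Fermat.Agent.TwoAdic
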