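import Mathlib
import Fermat.Agent.TwoAdic.D1Final
import Fermat.Agent.TwoAdic.D3Local
import Fermat.Agent.TwoAdic.Hram

/-!
# Block D2 of the 2-adic route, part 1: the class group character of the cubic extension
`K(E[2])/K`
-/

set_option autoImplicit false
set_option linter.unusedSectionVars false

open scoped NumberField Pointwise nonZeroDivisors
open IntermediateField Fermat.Agent IsLocalRing

namespace Fermat.Agent.TwoAdic.D2

local notation "Qb" => AlgebraicClosure ℚ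
local notation "Γℚ" => (AlgebraicClosure ℚ ≃ₐ[ℚ] AlgebraicClosure ℚ)
local notation "M₂" => Matrix (Fin 2) (Fin 2) (ZMod 2)

/-- the generator of the cyclic group of order three -/
def R3 : M₂ := !![0, 1; 1, 1]

theorem m2_cases : ∀ M : M₂, M.det = 1 → M.trace = 1 → M = R3 ∨ M = R3 * R3 := by
  unfold R3; decide

theorem m2_pow : R3 * R3 * R3 = 1 := by unfold R3; decide

theorem m2_unip : ∀ M : M₂, M = 1 ∨ M = R3 ∨ M = R3 * R3 → (M - 1) * (M - 1) = 0 → M = 1 := by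
  unfold R3; decide

theorem R3_ne : R3 ≠ 1 := by unfold R3; decide

theorem R3_sq_ne : R3 * R3 ≠ 1 := by unfold R3; decide

theorem R3_trace : R3.trace = 1 ∧ (R3 * R3).trace = 1 := by unfold R3; decide

theorem m2_gen : ∀ x y : M₂, (x = R3 ∨ x = R3 * R3) → (y = 1 ∨ y = R3 ∨ y = R3 * R3) →
    y = 1 ∨ y = x ∨ y = x * x := by
  unfold R3; decide

variable (E : EData)

theorem rho2_det (σ : Γℚ) : (rho2 E σ).det = 1 := by
  have h1 : IsUnit ((rho2 E σ).det) := by
    rw [← Matrix.isUnit_iff_isUnit_det]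
    exact (Group.isUnit σ).map (rho2 E)
  have h2 : ∀ x : ZMod 2, IsUnit x → x = 1 := by decide
  exact h2 _ h1

/-- the image of `G_K` -/
theorem rho2_of_fixK {σ : Γℚ} (h : FixK E.N σ) :
    rho2 E σ = 1 ∨ rho2 E σ = R3 ∨ rho2 E σ = R3 * R3 := by
  rcases (E.fixK σ).1 h with h1 | h1
  · exact Or.inl h1
  · right
    apply m2_cases _ (rho2_det E σ)
    rw [rho2_trace]
    exact h1

theorem fixK_of_rho2_eq_one {σ : Γℚ} (h : rho2 E σ = 1) : FixK E.N σ := (E.fixK σ).2 (Or.inl h)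

theorem fixK_of_trace {σ : Γℚ} (h : (rho2 E σ).trace = 1) : FixK E.N σ :=
  (E.fixK σ).2 (Or.inr (by rw [← rho2_trace]; exact h))

/-- the trace outside `G_K` -/
theorem trace_of_not_fixK {σ : Γℚ} (h : ¬ FixK E.N σ) : (rho2 E σ).trace = 0 := by
  have h1 : ∀ x : ZMod 2, x ≠ 1 → x = 0 := by decide
  exact h1 _ fun h2 => h (fixK_of_trace E h2)

/-- inertia in `G_K` acts trivially -/
theorem rho2_inertia {ℓ : ℕ} (hℓ : ℓ.Prime) {A : ValuationSubring Qb} (hA : A.LiesOverPrime ℓ)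
    {σ : Γℚ} (hσ : σ ∈ A.inertiaSubgroupIn ℚ) (hfix : FixK E.N σ) : rho2 E σ = 1 := by
  by_cases hd : ℓ ∣ E.N
  · apply m2_unip _ (rho2_of_fixK E hfix)
    have hdec := ((Frob.mem_inertiaSubgroupIn_iff A σ).1 hσ).1
    have h1 := E.star ℓ hℓ hd A hA σ hdec σ hdec
    rw [unr, if_pos (isEven_of_mem_inertia hℓ hA hσ), mul_one] at h1
    have h2 := congrArg (fun M => (RingHom.mapMatrix (PadicInt.toZMod (p := 2))) M) h1
    simp only [map_mul, map_sub, map_zero] at h2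
    have h3 : (RingHom.mapMatrix (PadicInt.toZMod (p := 2))) (Matrix.scalar (Fin 2) (1 : ℤ_[2])) =
        (1 : M₂) := by rw [map_one, map_one]
    have h4 : (RingHom.mapMatrix (PadicInt.toZMod (p := 2)))
        (Matrix.scalar (Fin 2) ((E.ρ σ).det)) = (1 : M₂) := by
      have h5 : PadicInt.toZMod (p := 2) ((E.ρ σ).det) = 1 := by
        rw [RingHom.map_det]
        exact rho2_det E σ
      ext i j
      rw [RingHom.mapMatrix_apply, Matrix.map_apply, Matrix.scalar_apply, Matrix.diagonal_apply,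
        Matrix.one_apply]
      split_ifs
      · exact h5
      · exact map_zero _
    rw [h3, h4] at h2
    exact h2
  · have h1 := E.unr ℓ hℓ hd A hA σ hσ
    rw [rho2_apply, h1]
    ext i j
    by_cases hij : i = j
    · subst hij; simp
    · simp [Matrix.one_apply_ne hij]

/-- an element of order three -/
theorem exists_R3 : ∃ g : Γℚ, rho2 E g = R3 := by
  obtain ⟨g, hg⟩ := E.surj R3 (by unfold R3; decide)
  exact ⟨g, hg⟩

/-- **The class group character of `K(E[2])/K`.** -/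
theorem exists_char : ∃ χ : ClassGroup (𝓞 (KN E.N)) →* Multiplicative (ZMod 3), χ ≠ 1 ∧
    ∀ l : ℕ, l.Prime → ∀ A : ValuationSubring Qb, A.LiesOverPrime l → ∀ σ : Γℚ,
      A.IsFrobeniusAt σ l → rho2 E σ = 1 → ∀ P : (Ideal (𝓞 (KN E.N)))⁰,
      (P : Ideal (𝓞 (KN E.N))) = Frob.below (𝓞 (KN E.N)) A → χ (ClassGroup.mk0 P) = 1 := by
  have hN : 0 < E.N := lt_trans (by norm_num) E.two_lt
  set K := KN E.N with hK
  have hKfd : FiniteDimensional ℚ K := inferInstance
  let r : K.fixingSubgroup →* M₂ := (rho2 E).comp K.fixingSubgroup.subtype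
  have hr : ∀ g, r g = rho2 E g := fun g => rfl
  let D : Subgroup K.fixingSubgroup := r.ker
  have hD : ∀ g, g ∈ D ↔ rho2 E g = 1 := fun g => Iff.rfl
  obtain ⟨g₀, hg₀⟩ := exists_R3 E
  have hg₀K : g₀ ∈ K.fixingSubgroup := mem_fixK_iff.2 (fixK_of_trace E (by rw [hg₀]; exact R3_trace.1))
  let x₀ : K.fixingSubgroup ⧸ D := QuotientGroup.mk ⟨g₀, hg₀K⟩
  have hgen : ∀ x : K.fixingSubgroup ⧸ D, x ∈ Subgroup.zpowers x₀ := by
    intro x
    obtain ⟨h, rfl⟩ := QuotientGroup.mk_surjective x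
    have key : ∀ n : ℕ, rho2 E h = rho2 E g₀ ^ n →
        (QuotientGroup.mk h : K.fixingSubgroup ⧸ D) ∈ Subgroup.zpowers x₀ := by
      intro n hn
      rw [Subgroup.mem_zpowers_iff]
      refine ⟨n, ?_⟩
      rw [zpow_natCast, ← QuotientGroup.mk_pow, QuotientGroup.eq]
      rw [hD]
      change rho2 E ((((⟨g₀, hg₀K⟩ : K.fixingSubgroup) ^ n)⁻¹ : K.fixingSubgroup) * (h : Γℚ)) = 1
      rw [Subgroup.coe_inv, Subgroup.coe_pow]
      have h1 : rho2 E ((g₀ ^ n)⁻¹) * rho2 E (g₀ ^ n) = 1 := by rw [← map_mul, inv_mul_cancel, map_one]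
      rw [map_mul, hn, ← map_pow, h1]
    rcases rho2_of_fixK E (mem_fixK_iff.1 h.2) with h1 | h1 | h1
    · exact key 0 (by rw [h1, pow_zero])
    · exact key 1 (by rw [h1, pow_one, hg₀])
    · exact key 2 (by rw [h1, pow_two, hg₀])
  have hx₀ : orderOf x₀ = 3 := by
    apply orderOf_eq_prime
    · rw [← QuotientGroup.mk_pow, QuotientGroup.eq_one_iff, hD]
      change rho2 E (g₀ ^ 3) = 1
      rw [map_pow, hg₀, pow_succ, pow_two]
      exact m2_pow
    · intro h
      rw [QuotientGroup.eq_one_iff, hD] at h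
      change rho2 E g₀ = 1 at h
      rw [hg₀] at h
      exact R3_ne h
  have hcyc : IsCyclic (K.fixingSubgroup ⧸ D) := ⟨⟨x₀, hgen⟩⟩
  have hidx : D.index = 3 := by
    rw [← hx₀, orderOf_eq_card_of_forall_mem_zpowers hgen]
    rfl
  obtain ⟨L, hLg, hLf, hLc, hLr, hLm⟩ := exists_field K D (by
    obtain ⟨F, hF, h1⟩ := rho2_finite E
    exact ⟨F, hF, fun σ hσ => h1 σ hσ⟩) hcyc
  have hLQ : FiniteDimensional ℚ L := FiniteDimensional.trans ℚ K L
  have hLn : NumberField L := { to_finiteDimensional := hLQ }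
  have hinert := inertia_eq_bot L D hLm (fun ℓ hℓ A hA σ hσ =>
    rho2_inertia E hℓ hA hσ (mem_fixK_iff.1 σ.2))
  have hTC : NumberField.IsTotallyComplex K := isTotallyComplex_of_sq hN (nuK_sq E.N)
  obtain ⟨σ, hσ⟩ := hLc.exists_generator
  obtain ⟨χ, hχ1, hχ⟩ := exists_classChar (K := K) (L := L) (finrank_KN hN) hσ
    (fun P hP hP0 => hinert P hP hP0) Nat.prime_three (hLr.trans hidx)
  refine ⟨χ, hχ1, fun l hl A hA φ hφ hφ1 P hP => hχ _ ?_⟩
  have hφK : φ ∈ K.fixingSubgroup := mem_fixK_iff.2 (fixK_of_rho2_eq_one E hφ1)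
  have hφL : ∀ x : L, φ (algebraMap L Qb x) = algebraMap L Qb x := by
    intro x
    exact (hLm ⟨φ, hφK⟩).1 ((hD _).2 hφ1) (x : Qb) x.2
  have h1 := relNorm_below K L A hl hA φ hφ hφL
  have h2 : Frob.below (𝓞 L) A ≠ ⊥ := below_ne_bot (F := L) A hl hA
  refine ⟨ClassGroup.mk0 ⟨Frob.below (𝓞 L) A, mem_nonZeroDivisors_of_ne_zero h2⟩, ?_⟩
  rw [clNorm_mk0]
  congr 1
  exact Subtype.ext (h1.trans hP.symm)

end Fermat.Agent.TwoAdic.D2
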