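import Mathlib

/-!
# Block D2 of the 2-adic route: a group theoretic lemma on two dimensional representations in
characteristic two
-/

set_option autoImplicit false
set_option linter.unusedSectionVars false

namespace Fermat.Agent.TwoAdic.D2

section unip

variable {k : Type*} [Field k]

/-- a nonzero nilpotent matrix is conjugate to the elementary matrix -/
theorem exists_conj_elementary {N : Matrix (Fin 2) (Fin 2) k} (hN : N ≠ 0) (htr : N.trace = 0)
    (hdet : N.det = 0) : ∃ P P' : Matrix (Fin 2) (Fin 2) k, P * P' = 1 ∧ P' * P = 1 ∧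
      P' * N * P = !![0, 1; 0, 0] := by
  have h1 : N 1 1 = - N 0 0 := by
    rw [Matrix.trace_fin_two] at htr
    linear_combination htr
  have h2 : N 0 0 ^ 2 + N 0 1 * N 1 0 = 0 := by
    rw [Matrix.det_fin_two, h1] at hdet
    linear_combination -hdet
  have hNe : N = !![N 0 0, N 0 1; N 1 0, -N 0 0] := by
    rw [← h1]
    ext i j
    fin_cases i <;> fin_cases j <;> rfl
  set a := N 0 0
  set b := N 0 1
  set c := N 1 0
  by_cases hc : c = 0
  · have ha : a = 0 := by
      rw [hc, mul_zero, add_zero] at h2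
      exact pow_eq_zero_iff (two_ne_zero) |>.1 h2
    have hb : b ≠ 0 := by
      intro hb
      apply hN
      rw [hNe, ha, hb, hc, neg_zero]
      ext i j
      fin_cases i <;> fin_cases j <;> rfl
    refine ⟨!![b, 0; 0, 1], !![b⁻¹, 0; 0, 1], ?_, ?_, ?_⟩
    · rw [Matrix.mul_fin_two, Matrix.one_fin_two]
      simp [hb]
    · rw [Matrix.mul_fin_two, Matrix.one_fin_two]
      simp [hb]
    · rw [hNe, ha, hc, Matrix.mul_fin_two, Matrix.mul_fin_two]
      simp [hb]
  · refine ⟨!![a, 1; c, 0], !![0, c⁻¹; 1, -a * c⁻¹], ?_, ?_, ?_⟩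
    · rw [Matrix.mul_fin_two, Matrix.one_fin_two]
      congr 1
      field_simp
      simp [hc]
    · rw [Matrix.mul_fin_two, Matrix.one_fin_two]
      field_simp
      simp [hc]
    · rw [hNe, Matrix.mul_fin_two, Matrix.mul_fin_two]
      have hb : b = -a ^ 2 * c⁻¹ := by
        field_simp
        linear_combination h2
      rw [hb]
      ext i j
      fin_cases i <;> fin_cases j <;> simp <;> field_simp <;> ring

end unip

section main

variable {G : Type*} [Group G] {k : Type*} [Field k] {H D : Subgroup G}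
  {ρ : G →* Matrix (Fin 2) (Fin 2) k}

theorem det_sub_one (M : Matrix (Fin 2) (Fin 2) k) : (M - 1).det = M.det - M.trace + 1 := by
  rw [Matrix.det_fin_two, Matrix.det_fin_two, Matrix.trace_fin_two]
  simp only [Matrix.sub_apply, Matrix.one_apply_eq, Matrix.one_apply_ne (show (0 : Fin 2) ≠ 1 by decide),
    Matrix.one_apply_ne (show (1 : Fin 2) ≠ 0 by decide)]
  ring

/-- the subgroup with trivial traces acts trivially -/
theorem eq_one_of_mem (h2 : (2 : k) = 0) (hdet : ∀ g, (ρ g).det = 1) [hDn : D.Normal]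
    (hne : ∃ j, j ∉ H)
    (hD : ∀ d ∈ D, (ρ d).trace = 0) (hout : ∀ g, g ∉ H → (ρ g).trace = 0)
    (hx : ∃ x ∈ H, (ρ x).trace ≠ 0) : ∀ d ∈ D, ρ d = 1 := by
  by_contra hcon
  push Not at hcon
  obtain ⟨d, hd, hd1⟩ := hcon
  have hneg : ∀ a : k, -a = a := fun a => by linear_combination -a * h2
  have htr1 : (1 : Matrix (Fin 2) (Fin 2) k).trace = 0 := by
    rw [Matrix.trace_one, Fintype.card_fin]
    exact_mod_cast h2
  obtain ⟨P, P', hPP, hPP', hN⟩ := exists_conj_elementary (N := ρ d - 1) (sub_ne_zero.2 hd1)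
    (by rw [Matrix.trace_sub, hD d hd, htr1, sub_zero])
    (by rw [det_sub_one, hdet, hD d hd]; linear_combination h2)
  -- the conjugate representation
  let r : G →* Matrix (Fin 2) (Fin 2) k :=
    { toFun := fun g => P' * ρ g * P
      map_one' := by rw [map_one, mul_one, hPP']
      map_mul' := fun a b => by
        rw [map_mul]
        calc P' * (ρ a * ρ b) * P = P' * ρ a * 1 * ρ b * P := by
              rw [mul_one]; simp only [mul_assoc]
          _ = P' * ρ a * P * (P' * ρ b * P) := by rw [← hPP]; simp only [mul_assoc] }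
  have hr : ∀ g, r g = P' * ρ g * P := fun g => rfl
  have hrtr : ∀ g, (r g).trace = (ρ g).trace := by
    intro g
    rw [hr, Matrix.trace_mul_comm, ← mul_assoc, hPP, one_mul]
  have hrdet : ∀ g, (r g).det = 1 := by
    intro g
    have h3 : P'.det * P.det = 1 := by rw [← Matrix.det_mul, hPP', Matrix.det_one]
    rw [hr, Matrix.det_mul, Matrix.det_mul, hdet, mul_one, h3]
  have hrd : r d = !![1, 1; 0, 1] := by
    have h3 : P' * (ρ d - 1) * P = r d - 1 := by
      rw [mul_sub, sub_mul, mul_one, hPP', hr]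
    rw [h3, sub_eq_iff_eq_add] at hN
    rw [hN, Matrix.one_fin_two]
    ext i j
    fin_cases i <;> fin_cases j <;> simp
  -- the lower left entry vanishes
  have hlow : ∀ x, r x 1 0 = 0 := by
    intro x
    have hmem : x * d * x⁻¹ ∈ D := hDn.conj_mem d hd x
    have h3 := hrtr (d * (x * d * x⁻¹))
    rw [hD _ (D.mul_mem hd hmem)] at h3
    -- `r (x d x⁻¹)`
    have h4 : r (x * d * x⁻¹) * r x = r x * r d := by
      rw [← map_mul, ← map_mul]; congr 1; group
    have hdx := hrdet x
    rw [Matrix.det_fin_two] at hdx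
    set M := r (x * d * x⁻¹) with hM
    have hMtr : M.trace = 0 := by rw [hM, hrtr, hD _ hmem]
    have e00 := congrFun (congrFun h4 0) 0
    have e01 := congrFun (congrFun h4 0) 1
    have e10 := congrFun (congrFun h4 1) 0
    have e11 := congrFun (congrFun h4 1) 1
    rw [Matrix.mul_apply, Matrix.mul_apply, Fin.sum_univ_two, Fin.sum_univ_two, hrd] at e00 e01 e10 e11
    simp only [Matrix.of_apply, Matrix.cons_val', Matrix.cons_val_zero, Matrix.cons_val_one,
      Matrix.cons_val_fin_one, mul_one, mul_zero, add_zero] at e00 e01 e10 e11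
    rw [map_mul, ← hM, hrd, Matrix.trace_fin_two, Matrix.mul_apply, Matrix.mul_apply,
      Fin.sum_univ_two, Fin.sum_univ_two] at h3
    simp only [Matrix.of_apply, Matrix.cons_val', Matrix.cons_val_zero, Matrix.cons_val_one,
      Matrix.cons_val_fin_one, one_mul, zero_mul, zero_add] at h3
    rw [Matrix.trace_fin_two] at hMtr
    have h5 : M 1 0 = 0 := by linear_combination h3 - hMtr
    -- `M 1 0 = - (r x 1 0)²`
    have h6 : M 1 0 = - (r x 1 0) ^ 2 := by
      linear_combination (-(M 1 0)) * hdx + r x 1 1 * e10 - r x 1 0 * e11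
    rw [h5] at h6
    exact pow_eq_zero_iff (two_ne_zero) |>.1 (neg_eq_zero.1 h6.symm)
  -- the diagonal characters
  have hmul : ∀ x y, r (x * y) 0 0 = r x 0 0 * r y 0 0 := by
    intro x y
    rw [map_mul, Matrix.mul_apply, Fin.sum_univ_two, hlow, mul_zero, add_zero]
  have hdg : ∀ x, r x 0 0 * r x 1 1 = 1 := by
    intro x
    have h3 := hrdet x
    rwa [Matrix.det_fin_two, hlow, mul_zero, sub_zero] at h3
  have hsq : ∀ a : k, a * a = 1 → a = 1 := by
    intro a ha
    have h3 : (a - 1) ^ 2 = 0 := by linear_combination ha + (1 - a) * h2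
    exact sub_eq_zero.1 (pow_eq_zero_iff (two_ne_zero) |>.1 h3)
  have hone : ∀ x, x ∉ H → r x 0 0 = 1 := by
    intro x hx
    have h3 := hrtr x
    rw [hout x hx, Matrix.trace_fin_two] at h3
    apply hsq
    have h4 : r x 1 1 = r x 0 0 := by
      rw [← hneg (r x 0 0)]
      linear_combination h3
    have h5 := hdg x
    rwa [h4] at h5
  have hall : ∀ x, r x 0 0 = 1 := by
    intro x
    by_cases hx : x ∈ H
    · obtain ⟨j, hj⟩ := hne
      have h3 : x * j ∉ H := fun h => hj ((H.mul_mem_cancel_left hx).1 h)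
      have h4 : j⁻¹ ∉ H := fun h => hj (H.inv_mem_iff.1 h)
      have e : x = (x * j) * j⁻¹ := by group
      rw [e, hmul, hone _ h3, hone _ h4, one_mul]
    · exact hone x hx
  obtain ⟨x, hxH, hxt⟩ := hx
  apply hxt
  have h3 := hdg x
  rw [hall x, one_mul] at h3
  rw [← hrtr, Matrix.trace_fin_two, hall x, h3]
  linear_combination h2

/-- **The lemma.** -/
theorem trace_eq_one (h2 : (2 : k) = 0) (hdet : ∀ g, (ρ g).det = 1) [D.Normal]
    (hne : ∃ j, j ∉ H)
    (hcube : ∀ x ∈ H, x ^ 3 ∈ D)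
    (hcyc : ∀ x ∈ H, x ∉ D → ∀ y ∈ H, ∃ n : ℕ, ∃ d ∈ D, y = x ^ n * d)
    (hD : ∀ d ∈ D, (ρ d).trace = 0) (hout : ∀ g, g ∉ H → (ρ g).trace = 0)
    (hx : ∃ x ∈ H, (ρ x).trace ≠ 0) : ∀ x ∈ H, x ∉ D → (ρ x).trace = 1 := by
  have hone := eq_one_of_mem h2 hdet hne hD hout hx
  intro x hxH hxD
  set M := ρ x with hM
  have hM3 : M ^ 3 = 1 := by rw [hM, ← map_pow]; exact hone _ (hcube x hxH)
  have hM1 : M ≠ 1 := by
    intro h
    obtain ⟨y, hy, hyt⟩ := hx
    obtain ⟨n, d, hd, rfl⟩ := hcyc x hxH hxD y hy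
    apply hyt
    rw [map_mul, map_pow, ← hM, h, one_pow, hone d hd, one_mul, Matrix.trace_one, Fintype.card_fin]
    exact_mod_cast h2
  by_contra ht
  -- Cayley-Hamilton
  set t := M.trace with ht'
  have hCH : M * M = t • M - (1 : Matrix (Fin 2) (Fin 2) k) := by
    have hd := hdet x
    rw [← hM, Matrix.det_fin_two] at hd
    rw [ht', Matrix.trace_fin_two]
    ext i j
    rw [Matrix.mul_apply, Fin.sum_univ_two]
    fin_cases i <;> fin_cases j <;>
      simp only [Fin.zero_eta, Fin.mk_one, Matrix.sub_apply, Matrix.smul_apply, smul_eq_mul,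
        Matrix.one_apply_eq, Matrix.one_apply_ne (show (0 : Fin 2) ≠ 1 by decide),
        Matrix.one_apply_ne (show (1 : Fin 2) ≠ 0 by decide)] <;>
      first | ring1 | linear_combination -hd
  have h3 : (t ^ 2 - 1) • M = (1 + t) • (1 : Matrix (Fin 2) (Fin 2) k) := by
    have h4 : M ^ 3 = (t ^ 2 - 1) • M - t • (1 : Matrix (Fin 2) (Fin 2) k) := by
      rw [pow_succ', pow_two, hCH, mul_sub, mul_smul_comm, hCH, mul_one]
      module
    rw [hM3] at h4
    calc (t ^ 2 - 1) • M = ((t ^ 2 - 1) • M - t • (1 : Matrix (Fin 2) (Fin 2) k)) +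
          t • (1 : Matrix (Fin 2) (Fin 2) k) := by module
      _ = 1 + t • (1 : Matrix (Fin 2) (Fin 2) k) := by rw [← h4]
      _ = _ := by module
  have ht1 : 1 + t ≠ 0 := by
    intro h
    apply ht
    linear_combination h - h2
  have h4 : t - 1 ≠ 0 := sub_ne_zero.2 ht
  have h5 : M = (t - 1)⁻¹ • (1 : Matrix (Fin 2) (Fin 2) k) := by
    have e : (t ^ 2 - 1) = (1 + t) * (t - 1) := by ring
    rw [e, mul_smul] at h3
    have h6 := smul_right_injective _ ht1 h3
    rw [← h6, smul_smul, inv_mul_cancel₀ h4, one_smul]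
  set c := (t - 1)⁻¹ with hc
  have h6 : c * c = 1 := by
    have hd := hdet x
    rw [← hM, h5, Matrix.det_fin_two] at hd
    simpa using hd
  have h7 : c = 1 := by
    have h8 : (c - 1) ^ 2 = 0 := by linear_combination h6 + (1 - c) * h2
    exact sub_eq_zero.1 (pow_eq_zero_iff (two_ne_zero) |>.1 h8)
  apply hM1
  rw [h5, h7, one_smul]

end main

end Fermat.Agent.TwoAdic.D2
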