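import Fermat.Agent.TwoAdic.RankFinal
import Fermat.Agent.TwoAdic.D3Cl2

/-!
# (E0) a newform congruent to the dihedral form
-/

set_option autoImplicit false

noncomputable section

namespace Fermat.Agent.TwoAdic.Rank

open NumberField Ideal Module IsLocalRing
open UpperHalfPlane ModularForm CongruenceSubgroup Matrix.SpecialLinearGroup ModularFormClass
open Fermat.Agent.IntStr Fermat.Agent.Newform
open scoped MatrixGroups

variable {K : Type*} [Field K] [NumberField K] {N : ℕ} {s : 𝓞 K}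
variable {𝒱 : ValuationSubring ℂ}

theorem RD.exists_good {G : Type*} [CommGroup G] {χ : ClassGroup (𝓞 K) →* ResidueField 𝒱}
    {pr : ClassGroup (𝓞 K) →* G} {Q : Finset ℕ} {m : ℕ} (R : RD N s χ pr Q m) :
    ∃ (M' : ℕ) (g : CuspForm (Gamma0 M') 2), M' ∣ levQ N Q ∧ g.IsNewform ∧
      Good χ N Q (qCoeff g) := by
  by_contra hcon
  push Not at hcon
  have : Finite G := Finite.of_surjective pr R.surj
  obtain ⟨𝓕, h1, h2⟩ := R.rank (fun M' g hM' hg hgood => absurd hgood (hcon M' g hM' hg))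
  have h3 : 0 < Nat.card (HH χ pr N Q) := Nat.card_pos
  have h4 : 0 < 𝓕.card := lt_of_lt_of_le (by positivity) h2
  obtain ⟨f, hf⟩ := Finset.card_pos.1 h4
  exact hcon _ f dvd_rfl (h1 f hf).1 (h1 f hf).2

/-- **(E0)** -/
theorem exists_newform_cong (D : IsQ K N s) (hN : 2 < N) (h2 : (2 : ResidueField 𝒱) = 0)
    (χ : ClassGroup (𝓞 K) →* ResidueField 𝒱) (hχ3 : ∀ c, χ c ^ 3 = 1) (hχ : ∃ c, χ c ≠ 1) :
    ∃ (M' : ℕ) (g : CuspForm (Gamma0 M') 2), M' ∣ N ∧ g.IsNewform ∧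
      ∀ l, l.Prime → ¬ l ∣ N → IsR 𝒱 (qCoeff g l) (FF χ l) := by
  have hfin : Finite (TwoQuot (ClassGroup (𝓞 K))) := inferInstance
  obtain ⟨m, hm⟩ : ∃ m, ∀ g : TwoQuot (ClassGroup (𝓞 K)), g ^ (2 ^ m) = 1 := by
    have : Fact (Nat.Prime 2) := ⟨Nat.prime_two⟩
    obtain ⟨n, hn⟩ := IsPGroup.iff_card.1 (isPGroup_twoQuot (ClassGroup (𝓞 K)))
    exact ⟨n, fun g => by rw [← hn]; exact pow_card_eq_one'⟩
  have R : RD N s χ (QuotientGroup.mk' (oddPart (ClassGroup (𝓞 K)))) ∅ m := by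
    refine ⟨D, hN, h2, hχ3, hχ, QuotientGroup.mk'_surjective _, hm, ?_, by simp, by simp,
      by simp⟩
    intro t ht
    have h4 : t ∈ (QuotientGroup.mk' (oddPart (ClassGroup (𝓞 K)))).ker := ht
    rw [QuotientGroup.ker_mk'] at h4
    obtain ⟨j, hj, hjt⟩ := h4
    exact Odd.of_dvd_nat hj (orderOf_dvd_of_pow_eq_one hjt)
  obtain ⟨M', g, h1, h3, h4⟩ := R.exists_good
  have h5 : levQ N ∅ = N := by simp [levQ]
  refine ⟨M', g, h5 ▸ h1, h3, fun l hl hlN => h4 l hl (by rwa [h5])⟩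

end Fermat.Agent.TwoAdic.Rank
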