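import Fermat.Agent.TwoAdic.RankRR

/-!
# A split prime with nontrivial character
-/

set_option autoImplicit false

noncomputable section

namespace Fermat.Agent.TwoAdic.Rank

open NumberField Ideal Module
open scoped nonZeroDivisors

variable {K : Type*} [Field K] [NumberField K] {N : ℕ} {s : 𝓞 K}

/-- every ideal class contains an ideal prime to a given nonzero ideal -/
theorem exists_coprime_ideal (c : ClassGroup (𝓞 K)) {m : Ideal (𝓞 K)} (hm : m ≠ ⊥) :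
    ∃ B : Ideal (𝓞 K), B ≠ ⊥ ∧ cl B = c ∧ B ⊔ m = ⊤ := by
  obtain ⟨I, hI, hIc⟩ := cl_surj c⁻¹
  have hJ : I * m ≠ ⊥ := mul_ne_zero hI hm
  obtain ⟨a, ha⟩ := IsDedekindDomain.exists_sup_span_eq (R := 𝓞 K) (I := I * m) (J := I)
    Ideal.mul_le_left hJ
  have h1 : (span {a} : Ideal (𝓞 K)) ≤ I := by rw [← ha]; exact le_sup_right
  obtain ⟨B, hB⟩ := Ideal.dvd_iff_le.mpr h1
  have h2 : m ⊔ B = ⊤ := by
    have h3 : I * (m ⊔ B) = I * ⊤ := by rw [Ideal.mul_sup, ← hB, ha, Ideal.mul_top]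
    exact mul_left_cancel₀ hI h3
  by_cases hB0 : B = ⊥
  · -- then `m = ⊤`
    rw [hB0, sup_bot_eq] at h2
    obtain ⟨B', hB', hB'c⟩ := cl_surj c
    exact ⟨B', hB', hB'c, by rw [h2, sup_top_eq]⟩
  · refine ⟨B, hB0, ?_, by rw [sup_comm]; exact h2⟩
    have h4 := cl_mul hI hB0
    rw [← hB, cl_span, hIc] at h4
    exact (inv_mul_eq_one.1 h4.symm).symm

theorem char_cl_eq_one {A : Type*} [CommMonoid A] (χ : ClassGroup (𝓞 K) →* A) {B : Ideal (𝓞 K)}
    (hB : B ≠ ⊥) (h : ∀ P : Ideal (𝓞 K), Prime P → P ∣ B → χ (cl P) = 1) : χ (cl B) = 1 := by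
  revert hB h
  induction B using UniqueFactorizationMonoid.induction_on_prime with
  | h₁ => intro hB; exact absurd rfl hB
  | h₂ x hx =>
    intro _ _
    rw [Ideal.isUnit_iff.1 hx, cl_top, map_one]
  | h₃ a p ha hp ih =>
    intro _ h
    rw [cl_mul hp.ne_zero ha, map_mul, h p hp (dvd_mul_right _ _), one_mul]
    exact ih ha fun P hP hPa => h P hP (hPa.mul_left p)

/-- **a split prime with nontrivial `χ`** -/
theorem exists_prime_chi_ne (D : IsQ K N s) {A : Type*} [CommMonoid A]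
    (χ : ClassGroup (𝓞 K) →* A) (hχ : ∃ c, χ c ≠ 1) {n : ℕ} (hn : n ≠ 0) :
    ∃ (l : ℕ) (P : Ideal (𝓞 K)), l.Prime ∧ ¬ l ∣ n ∧ absNorm P = l ∧ χ (cl P) ≠ 1 := by
  by_contra hcon
  push Not at hcon
  obtain ⟨c, hc⟩ := hχ
  obtain ⟨B, hB, rfl, hBm⟩ := exists_coprime_ideal c (span_nat_ne_bot D.rank hn)
  apply hc
  refine char_cl_eq_one χ hB fun P hP hPB => ?_
  have hPp : P.IsPrime := Ideal.isPrime_of_prime hP
  have hP0 : P ≠ ⊥ := hP.ne_zero
  have hPmax : P.IsMaximal := hPp.isMaximal hP0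
  obtain ⟨l, hl, hlP⟩ : ∃ l : ℕ, l.Prime ∧ (l : 𝓞 K) ∈ P := by
    have h1 : absNorm P ≠ 0 := by
      rw [Ne, Ideal.absNorm_eq_zero_iff]; exact hP0
    have h2 : absNorm P ≠ 1 := by
      rw [Ne, Ideal.absNorm_eq_one_iff]; exact hPp.ne_top
    have h3 := absNorm_mem P
    by_contra hcon2
    push Not at hcon2
    have key : ∀ d : ℕ, d ≠ 0 → (d : 𝓞 K) ∉ P := by
      intro d
      induction d using Nat.recOnMul with
      | zero => intro h; exact absurd rfl h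
      | one => intro _ h; exact hPp.ne_top ((Ideal.eq_top_iff_one P).2 (by simpa using h))
      | prime q hq => intro _; exact hcon2 q hq
      | mul a b iha ihb =>
        intro hab h
        push_cast at h
        rcases hPp.mem_or_mem h with h' | h'
        · exact iha (left_ne_zero_of_mul hab) h'
        · exact ihb (right_ne_zero_of_mul hab) h'
    exact key _ h1 h3
  rcases norm_prime_over D.rank hl hPp hlP with h1 | h1
  · refine hcon l P hl ?_ h1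
    rintro ⟨t, rfl⟩
    apply hPp.ne_top
    rw [eq_top_iff, ← hBm]
    refine sup_le (Ideal.dvd_iff_le.1 hPB) ?_
    rw [Ideal.span_singleton_le_iff_mem]
    push_cast
    exact P.mul_mem_right _ hlP
  · rw [h1, cl_span, map_one]

theorem exists_FF_eq_one (D : IsQ K N s) {k : Type*} [Field k] (h2 : (2 : k) = 0)
    (χ : ClassGroup (𝓞 K) →* k) (hχ3 : ∀ c, χ c ^ 3 = 1) (hχ : ∃ c, χ c ≠ 1) {n : ℕ}
    (hn : n ≠ 0) : ∃ l : ℕ, l.Prime ∧ ¬ l ∣ N ∧ ¬ l ∣ n ∧ FF χ l = 1 := by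
  obtain ⟨l, P, hl, hln, hP, hχP⟩ := exists_prime_chi_ne D χ hχ (n := N * n)
    (mul_ne_zero D.N_pos.ne' hn)
  have hlN : ¬ l ∣ N := fun h => hln (h.mul_right n)
  obtain ⟨P', hPP, hP'⟩ := exists_factor D.rank hl hP
  have hne := D.split_ne hl hlN hP hPP
  refine ⟨l, hl, hlN, fun h => hln (h.mul_left N), ?_⟩
  rw [FF_prime_split D.rank χ hl hP hP' hPP hne, cl_conj D.rank hl hP hP' hPP]
  set ζ := χ (cl P) with hζ
  have hζ3 : ζ ^ 3 = 1 := hχ3 _
  have hζq : ζ ^ 2 + ζ + 1 = 0 := by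
    have h4 : (ζ - 1) * (ζ ^ 2 + ζ + 1) = 0 := by linear_combination hζ3
    exact (mul_eq_zero.mp h4).resolve_left (sub_ne_zero.mpr hχP)
  have hζi : χ (cl P)⁻¹ = ζ ^ 2 := by
    have h4 : χ (cl P) * χ (cl P)⁻¹ = 1 := by rw [← map_mul, mul_inv_cancel, map_one]
    rw [← hζ] at h4
    have h5 : ζ ≠ 0 := by rintro h; rw [h] at hζ3; norm_num at hζ3
    apply mul_left_cancel₀ h5
    rw [h4, ← pow_succ', hζ3]
  rw [hζi]
  linear_combination hζq - h2

end Fermat.Agent.TwoAdic.Rank
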