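import Mathlib
import Fermat.Agent.TwoAdic.D2Char
import Fermat.Agent.TwoAdic.D2Mat
import Fermat.Agent.TwoAdic.E0
import Fermat.Agent.TwoAdic.E0Class
import Fermat.Agent.TwoAdic.BlockE

/-!
# Block D2 of the 2-adic route: `E[2]` is induced from a class group character
-/

set_option autoImplicit false
set_option linter.unusedSectionVars false

open scoped NumberField Pointwise nonZeroDivisors
open IntermediateField Fermat.Agent IsLocalRing
open CongruenceSubgroup ModularFormClass Fermat.Agent.TwoAdic.Rank Ideal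

namespace Fermat.Agent.TwoAdic.D2

local notation "Qb" => AlgebraicClosure ℚ
local notation "Γℚ" => (AlgebraicClosure ℚ ≃ₐ[ℚ] AlgebraicClosure ℚ)

section mu

variable {k : Type*} [Field k]

theorem cube_eq_one {ω : k} (hω : ω ^ 2 + ω + 1 = 0) : ω ^ 3 = 1 := by
  linear_combination (ω - 1) * hω

theorem omega_ne_one (h2 : (2 : k) = 0) {ω : k} (hω : ω ^ 2 + ω + 1 = 0) : ω ≠ 1 := by
  rintro rfl
  have : (1 : k) = 0 := by linear_combination hω - h2
  exact one_ne_zero this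

theorem omega_sq_ne_one (h2 : (2 : k) = 0) {ω : k} (hω : ω ^ 2 + ω + 1 = 0) : ω ^ 2 ≠ 1 := by
  intro h
  have h3 : ω = 0 := by linear_combination hω - h - h2
  rw [h3] at h
  simp at h

/-- the character with value `ω` on the generator -/
noncomputable def muHom (ω : k) (h : ω ^ 3 = 1) : Multiplicative (ZMod 3) →* k where
  toFun a := ω ^ (Multiplicative.toAdd a).val
  map_one' := by simp
  map_mul' a b := by
    rw [toAdd_mul, ZMod.val_add, ← pow_eq_pow_mod _ h, pow_add]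

theorem muHom_apply (ω : k) (h : ω ^ 3 = 1) (a : Multiplicative (ZMod 3)) :
    muHom ω h a = ω ^ (Multiplicative.toAdd a).val := rfl

theorem muHom_eq_one_iff (h2 : (2 : k) = 0) {ω : k} (hω : ω ^ 2 + ω + 1 = 0)
    (a : Multiplicative (ZMod 3)) : muHom ω (cube_eq_one hω) a = 1 ↔ a = 1 := by
  constructor
  · intro h
    rw [muHom_apply] at h
    have hlt := ZMod.val_lt (Multiplicative.toAdd a)
    have h3 : (Multiplicative.toAdd a).val = 0 := by
      interval_cases hv : (Multiplicative.toAdd a).val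
      · rfl
      · exact absurd (by simpa using h) (omega_ne_one h2 hω)
      · exact absurd h (omega_sq_ne_one h2 hω)
    rw [ZMod.val_eq_zero] at h3
    exact Multiplicative.toAdd.injective h3
  · rintro rfl
    exact map_one _

end mu

section FFv

variable {K : Type*} [Field K] [NumberField K] {N : ℕ} {s : 𝓞 K} (D : IsQ K N s)
  {k : Type*} [Field k] (h2 : (2 : k) = 0) (χ : ClassGroup (𝓞 K) →* k) (hχ3 : ∀ c, χ c ^ 3 = 1)

include D h2

theorem FF_eq_zero {l : ℕ} (hl : l.Prime) (hlN : ¬ l ∣ N) {P : Ideal (𝓞 K)} (hP : absNorm P = l)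
    (h : χ (cl P) = 1) : FF χ l = 0 := by
  obtain ⟨P', hPP, hP'⟩ := exists_factor D.rank hl hP
  have hne := D.split_ne hl hlN hP hPP
  rw [FF_prime_split D.rank χ hl hP hP' hPP hne, cl_conj D.rank hl hP hP' hPP]
  have h4 : χ (cl P) * χ (cl P)⁻¹ = 1 := by rw [← map_mul, mul_inv_cancel, map_one]
  rw [h, one_mul] at h4
  rw [h, h4]
  linear_combination h2

include hχ3 in
theorem FF_eq_one {l : ℕ} (hl : l.Prime) (hlN : ¬ l ∣ N) {P : Ideal (𝓞 K)} (hP : absNorm P = l)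
    (h : χ (cl P) ≠ 1) : FF χ l = 1 := by
  obtain ⟨P', hPP, hP'⟩ := exists_factor D.rank hl hP
  have hne := D.split_ne hl hlN hP hPP
  rw [FF_prime_split D.rank χ hl hP hP' hPP hne, cl_conj D.rank hl hP hP' hPP]
  set ζ := χ (cl P) with hζ
  have hζ3 : ζ ^ 3 = 1 := hχ3 _
  have hζq : ζ ^ 2 + ζ + 1 = 0 := by
    have h4 : (ζ - 1) * (ζ ^ 2 + ζ + 1) = 0 := by linear_combination hζ3
    exact (mul_eq_zero.mp h4).resolve_left (sub_ne_zero.mpr h)
  have hζ0 : ζ ≠ 0 := by rintro h; rw [h] at hζ3; norm_num at hζ3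
  have hζi : χ (cl P)⁻¹ = ζ ^ 2 := by
    have h4 : χ (cl P) * χ (cl P)⁻¹ = 1 := by rw [← map_mul, mul_inv_cancel, map_one]
    rw [← hζ] at h4
    apply mul_left_cancel₀ hζ0
    rw [h4, ← pow_succ', hζ3]
  rw [hζi]
  linear_combination hζq - h2

end FFv

variable (E : EData)

/-- Frobenius elements outside `G_K` -/
theorem inert_of_not_fixK {l : ℕ} (hl : l.Prime) (hlN : ¬ l ∣ E.N) {A : ValuationSubring Qb}
    (hA : A.LiesOverPrime l) {φ : Γℚ} (hφ : A.IsFrobeniusAt φ l) (h : ¬ FixK E.N φ) :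
    ∀ P : Ideal (𝓞 (KN E.N)), absNorm P ≠ l := by
  have hN : 0 < E.N := lt_trans (by norm_num) E.two_lt
  have hl2 : l ≠ 2 := by rintro rfl; exact hlN E.two_dvd
  have : Fact l.Prime := ⟨hl⟩
  apply (isQ_KN E.isLev).inert_of_not_isSquare hl
  intro hsq
  apply h
  rw [Genus.fixK_iff hN]
  have hd : ¬ (l : ℤ) ∣ -(E.N : ℤ) := by
    rw [dvd_neg]
    exact_mod_cast hlN
  rw [Genus.frob_sqrt hl hl2 hA hφ hd (y := nu0 E.N) (by rw [nu0_sq]; push_cast; rfl)]
  have hJ : jacobiSym (-(E.N : ℤ)) l = 1 := by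
    rw [← jacobiSym.legendreSym.to_jacobiSym, legendreSym.eq_one_iff]
    · exact hsq
    · push_cast
      rw [neg_ne_zero, Ne, ZMod.natCast_eq_zero_iff]
      exact hlN
  rw [hJ]
  simp

/-- Frobenius elements in `G_K` -/
theorem split_of_fixK {l : ℕ} (hl : l.Prime) {A : ValuationSubring Qb}
    (hA : A.LiesOverPrime l) {φ : Γℚ} (hφ : A.IsFrobeniusAt φ l) (h : FixK E.N φ) :
    absNorm (Frob.below (𝓞 (KN E.N)) A) = l :=
  absNorm_below (F := KN E.N) A hl hA φ hφ fun x => h (x : Qb) x.2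

theorem exists_valuationSubring : ∃ 𝒱 : ValuationSubring ℂ, (2 : ResidueField 𝒱) = 0 := by
  obtain ⟨A, hA⟩ := Frob.exists_liesOverPrime ℂ Nat.prime_two
  refine ⟨A, ?_⟩
  have h1 : ((2 : ℕ) : ℂ) ∈ A.nonunits := hA
  obtain ⟨h3, h4⟩ := ValuationSubring.mem_nonunits_iff_exists_mem_maximalIdeal.1 h1
  have h5 : residue A ⟨((2 : ℕ) : ℂ), h3⟩ = 0 := (residue_eq_zero_iff _).2 h4
  have h6 : (⟨((2 : ℕ) : ℂ), h3⟩ : A) = 2 := Subtype.ext (by push_cast; rfl)
  rw [h6, map_ofNat] at h5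
  exact h5

/-- **D2**, parity form. -/
theorem exists_char_parity : ∃ χ' : ClassGroup (𝓞 (KN E.N)) →* Multiplicative (ZMod 3),
    (∃ c, χ' c ≠ 1) ∧ ∀ l : ℕ, l.Prime → ¬ l ∣ E.N →
      ((∀ P : Ideal (𝓞 (KN E.N)), absNorm P ≠ l) → Even (E.a l)) ∧
      ∀ P : Ideal (𝓞 (KN E.N)), absNorm P = l → (Odd (E.a l) ↔ χ' (cl P) ≠ 1) := by
  classical
  have hN : 0 < E.N := lt_trans (by norm_num) E.two_lt
  obtain ⟨χ', hχ1, hχ⟩ := exists_char E
  have hex : ∃ c, χ' c ≠ 1 := by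
    by_contra h
    push Not at h
    exact hχ1 (MonoidHom.ext h)
  have D := isQ_KN E.isLev
  obtain ⟨𝒱, h2⟩ := exists_valuationSubring
  have hchar : CharP (ResidueField 𝒱) 2 :=
    CharTwo.of_one_ne_zero_of_two_eq_zero (R := ResidueField 𝒱) one_ne_zero h2
  obtain ⟨ω, hω⟩ := exists_omega 𝒱
  set χ : ClassGroup (𝓞 (KN E.N)) →* ResidueField 𝒱 := (muHom ω (cube_eq_one hω)).comp χ' with hχdef
  have hχone : ∀ c, χ c = 1 ↔ χ' c = 1 := fun c => muHom_eq_one_iff h2 hω _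
  have hχ3 : ∀ c, χ c ^ 3 = 1 := by
    intro c
    rw [hχdef, MonoidHom.comp_apply, muHom_apply, ← pow_mul, mul_comm, pow_mul, cube_eq_one hω,
      one_pow]
  have hχne : ∃ c, χ c ≠ 1 := by
    obtain ⟨c, hc⟩ := hex
    exact ⟨c, fun h => hc ((hχone c).1 h)⟩
  obtain ⟨M', g, hM', hg, hgc⟩ := exists_newform_cong D E.two_lt h2 χ hχ3 hχne
  have hM'0 : M' ≠ 0 := by
    rintro rfl
    exact hN.ne' (Nat.eq_zero_of_zero_dvd hM')
  -- the residual representation
  obtain ⟨ρ, hρ, hunr⟩ := Fermat.Agent.S29.result hg.isNormalizedEigenform Nat.prime_two (redV 𝒱)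
  have hVf : Module.Finite (ResidueField 𝒱) ρ.V := inferInstance
  let b : Module.Basis (Fin 2) (ResidueField 𝒱) ρ.V := Module.finBasisOfFinrankEq _ _ ρ.finrank_eq
  let r : Γℚ →* Matrix (Fin 2) (Fin 2) (ResidueField 𝒱) :=
    ((LinearMap.toMatrixAlgEquiv b : _ →* _)).comp ρ.ρ
  have hrtr : ∀ σ, (r σ).trace = LinearMap.trace (ResidueField 𝒱) ρ.V (ρ.ρ σ) := by
    intro σ
    rw [LinearMap.trace_eq_matrix_trace _ b]
    rfl
  have hrdet : ∀ σ, (r σ).det = LinearMap.det (ρ.ρ σ) := by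
    intro σ
    rw [← LinearMap.det_toMatrix b]
    rfl
  -- values at Frobenius elements
  have hodd : ∀ l : ℕ, l.Prime → ¬ l ∣ E.N → l ≠ 2 := by
    rintro l hl h rfl
    exact h E.two_dvd
  have hl1 : ∀ l : ℕ, l.Prime → ¬ l ∣ E.N → (l : ResidueField 𝒱) = 1 := by
    intro l hl hlN
    obtain ⟨m, hm⟩ := hl.odd_of_ne_two (hodd l hl hlN)
    rw [hm]
    push_cast
    rw [h2]
    ring
  have hfrob : ∀ l : ℕ, l.Prime → ¬ l ∣ E.N → ∀ A : ValuationSubring Qb, A.LiesOverPrime l →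
      ∀ φ : Γℚ, A.IsFrobeniusAt φ l → (r φ).trace = FF χ l ∧ (r φ).det = 1 := by
    intro l hl hlN A hA φ hφ
    have hl0 : (l : ResidueField 𝒱) ≠ 0 := by rw [hl1 l hl hlN]; exact one_ne_zero
    obtain ⟨a, ha, hch⟩ := hρ l hl (fun h => hlN (h.trans hM')) hl0 A hA φ hφ
    have h3 := Fermat.Agent.Cheb.trace_det_of_charpoly_eq ρ.finrank_eq _ hch
    refine ⟨?_, ?_⟩
    · rw [hrtr, h3.1]
      obtain ⟨h4, h5⟩ := hgc l hl hlN
      rw [← h5, redV_apply 𝒱 a (mem_of_integral 𝒱 a.2)]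
      congr 1
      exact Subtype.ext ha
    · rw [hrdet, h3.2, hl1 l hl hlN]
  -- Chebotarev
  obtain ⟨F₁, hF₁, h1F⟩ := ρ.factorsThroughFiniteLevel
  obtain ⟨F₂, hF₂, h2F⟩ := rho2_finite E
  have hcheb : ∀ σ : Γℚ, ∃ l : ℕ, l.Prime ∧ ¬ l ∣ E.N ∧ ∃ A : ValuationSubring Qb,
      A.LiesOverPrime l ∧ ∃ φ : Γℚ, A.IsFrobeniusAt φ l ∧ r φ = r σ ∧ rho2 E φ = rho2 E σ ∧
        (FixK E.N φ ↔ FixK E.N σ) := by
    intro σ
    have hfin : FiniteDimensional ℚ (F₁ ⊔ F₂ : IntermediateField ℚ Qb) :=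
      IntermediateField.finiteDimensional_sup F₁ F₂
    have hfin' : FiniteDimensional ℚ ((F₁ ⊔ F₂) ⊔ KN E.N : IntermediateField ℚ Qb) :=
      IntermediateField.finiteDimensional_sup _ _
    obtain ⟨l, hl, hlS, -, P, hP, φ, hφ, hφσ⟩ :=
      Fermat.Agent.ChebFull.exists_frobenius_eq ((F₁ ⊔ F₂) ⊔ KN E.N) σ E.N.primeFactors
    have hinv : ∀ x ∈ ((F₁ ⊔ F₂) ⊔ KN E.N : IntermediateField ℚ Qb), (σ⁻¹ * φ) x = x := by
      intro x hx
      change σ⁻¹ (φ x) = x
      rw [hφσ x hx]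
      exact inv_smul_smul σ x
    have e1 : ρ.ρ φ = ρ.ρ σ := by
      have := h1F (σ⁻¹ * φ) fun x hx => hinv x
        ((le_sup_left : F₁ ⊔ F₂ ≤ _) ((le_sup_left : F₁ ≤ F₁ ⊔ F₂) hx))
      have e : φ = σ * (σ⁻¹ * φ) := by group
      rw [e, map_mul, this, mul_one]
    have e2 : rho2 E φ = rho2 E σ := by
      have := h2F (σ⁻¹ * φ) fun x hx => hinv x
        ((le_sup_left : F₁ ⊔ F₂ ≤ _) ((le_sup_right : F₂ ≤ F₁ ⊔ F₂) hx))
      have e : φ = σ * (σ⁻¹ * φ) := by group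
      rw [e, map_mul, this, mul_one]
    refine ⟨l, hl, fun h => hlS (Nat.mem_primeFactors.2 ⟨hl, h, hN.ne'⟩), P, hP, φ, hφ, ?_, e2, ?_⟩
    · change LinearMap.toMatrixAlgEquiv b (ρ.ρ φ) = LinearMap.toMatrixAlgEquiv b (ρ.ρ σ)
      rw [e1]
    · refine forall₂_congr fun x hx => ?_
      rw [hφσ x ((le_sup_right : KN E.N ≤ _) hx)]
  have hdet : ∀ σ, (r σ).det = 1 := by
    intro σ
    obtain ⟨l, hl, hlN, A, hA, φ, hφ, h3, -, -⟩ := hcheb σ
    rw [← h3]
    exact (hfrob l hl hlN A hA φ hφ).2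
  have hout : ∀ σ, ¬ FixK E.N σ → (r σ).trace = 0 := by
    intro σ hσ
    obtain ⟨l, hl, hlN, A, hA, φ, hφ, h3, -, h4⟩ := hcheb σ
    rw [← h3, (hfrob l hl hlN A hA φ hφ).1]
    exact FF_prime_inert D.rank χ hl (inert_of_not_fixK E hl hlN hA hφ (fun h => hσ (h4.1 h)))
  have hDtr : ∀ σ, rho2 E σ = 1 → (r σ).trace = 0 := by
    intro σ hσ
    obtain ⟨l, hl, hlN, A, hA, φ, hφ, h3, h4, -⟩ := hcheb σ
    have h5 : rho2 E φ = 1 := h4.trans hσ
    rw [← h3, (hfrob l hl hlN A hA φ hφ).1]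
    have h6 := split_of_fixK E hl hA hφ (fixK_of_rho2_eq_one E h5)
    have hne : Frob.below (𝓞 (KN E.N)) A ≠ ⊥ := below_ne_bot (F := KN E.N) A hl hA
    apply FF_eq_zero D h2 χ hl hlN h6
    rw [hχone, cl_of_ne hne]
    exact hχ l hl A hA φ hφ h5 _ rfl
  -- the groups
  let H : Subgroup Γℚ := (KN E.N).fixingSubgroup
  have hH : ∀ g, g ∈ H ↔ FixK E.N g := fun g => mem_fixK_iff
  let Dg : Subgroup Γℚ := (rho2 E).ker
  have hDg : ∀ g, g ∈ Dg ↔ rho2 E g = 1 := fun g => Iff.rfl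
  have hkey := trace_eq_one (H := H) (D := Dg) (ρ := r) h2 hdet
    (by
      obtain ⟨j, hj⟩ := E.surj !![0, 1; 1, 0] (by decide)
      refine ⟨j, fun h => ?_⟩
      rcases rho2_of_fixK E ((hH _).1 h) with h1 | h1 | h1 <;>
        · rw [rho2_apply, hj] at h1
          revert h1
          try unfold R3
          decide)
    (by
      intro x hx
      rw [hDg, map_pow]
      rcases rho2_of_fixK E ((hH x).1 hx) with h | h | h
      · rw [h, one_pow]
      · rw [h, pow_succ, pow_two]; exact m2_pow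
      · rw [h, pow_succ, pow_two]
        have := m2_pow
        calc R3 * R3 * (R3 * R3) * (R3 * R3) = (R3 * R3 * R3) * (R3 * R3 * R3) := by
              simp only [mul_assoc]
          _ = 1 := by rw [this, mul_one])
    (by
      intro x hx hxD y hy
      rw [hDg] at hxD
      have h3 := (rho2_of_fixK E ((hH x).1 hx)).resolve_left hxD
      have hinv : ∀ n : ℕ, rho2 E y = rho2 E x ^ n → ∃ n : ℕ, ∃ d ∈ Dg, y = x ^ n * d := by
        intro n hn
        refine ⟨n, (x ^ n)⁻¹ * y, ?_, by group⟩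
        rw [hDg, map_mul, hn, ← map_pow, ← map_mul, inv_mul_cancel, map_one]
      rcases m2_gen _ _ h3 (rho2_of_fixK E ((hH y).1 hy)) with h | h | h
      · exact hinv 0 (by rw [h, pow_zero])
      · exact hinv 1 (by rw [h, pow_one])
      · exact hinv 2 (by rw [h, pow_two]))
    (fun d hd => hDtr d hd) (fun g hg => hout g (fun h => hg ((hH g).2 h)))
    (by
      obtain ⟨l, hl, hlN, -, hFF⟩ := exists_FF_eq_one D h2 χ hχ3 hχne (n := 1) one_ne_zero
      obtain ⟨A, hA⟩ := Frob.exists_liesOverPrime Qb hl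
      obtain ⟨φ, hφ⟩ := Frob.exists_isFrobeniusAt A hl hA
      have h3 := (hfrob l hl hlN A hA φ hφ).1
      rw [hFF] at h3
      have h4 : (r φ).trace ≠ 0 := by rw [h3]; exact one_ne_zero
      exact ⟨φ, by_contra fun h => h4 (hout φ fun h' => h ((hH φ).2 h')), h4⟩)
  -- conclusion
  refine ⟨χ', hex, fun l hl hlN => ?_⟩
  obtain ⟨A, hA⟩ := Frob.exists_liesOverPrime Qb hl
  obtain ⟨φ, hφ⟩ := Frob.exists_isFrobeniusAt A hl hA
  have h3 := (hfrob l hl hlN A hA φ hφ).1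
  have h4 : (rho2 E φ).trace = ((E.a l : ℤ) : ZMod 2) := by
    rw [rho2_trace, E.frob l hl hlN A hA φ hφ, map_intCast]
  have hpar : ∀ x : ℤ, ((x : ZMod 2) = 0 ↔ Even x) := fun x => by
    rw [ZMod.intCast_zmod_eq_zero_iff_dvd, even_iff_two_dvd]; rfl
  have hpar1 : ∀ x : ℤ, ((x : ZMod 2) = 1 ↔ Odd x) := fun x => by
    rw [← Int.not_even_iff_odd, ← hpar]
    have : ∀ y : ZMod 2, y = 1 ↔ ¬ y = 0 := by decide
    exact this _
  -- the value of `FF χ l`
  have h5 : (Even (E.a l) → FF χ l = 0) ∧ (Odd (E.a l) → FF χ l = 1) := by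
    constructor
    · intro he
      rw [← hpar, ← h4] at he
      rw [← h3]
      by_cases hf : FixK E.N φ
      · apply hDtr
        rcases rho2_of_fixK E hf with h | h | h
        · exact h
        · rw [h, R3_trace.1] at he; exact absurd he one_ne_zero
        · rw [h, R3_trace.2] at he; exact absurd he one_ne_zero
      · exact hout φ hf
    · intro ho
      rw [← hpar1, ← h4] at ho
      rw [← h3]
      have hf := fixK_of_trace E ho
      apply hkey φ ((hH φ).2 hf)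
      rw [hDg]
      intro h
      rw [h, Matrix.trace_one] at ho
      exact absurd ho (by decide)
  constructor
  · intro hin
    rw [← Int.not_odd_iff_even]
    intro ho
    have h6 := h5.2 ho
    rw [FF_prime_inert D.rank χ hl hin] at h6
    exact zero_ne_one h6
  · intro P hP
    constructor
    · intro ho h
      have h6 := h5.2 ho
      rw [FF_eq_zero D h2 χ hl hlN hP ((hχone _).2 h)] at h6
      exact zero_ne_one h6
    · intro h
      rw [← Int.not_even_iff_odd]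
      intro he
      have h6 := h5.1 he
      rw [FF_eq_one D h2 χ hχ3 hl hlN hP (fun h' => h ((hχone _).1 h'))] at h6
      exact one_ne_zero h6

/-- **Block D2.** -/
theorem classChar (E : EData) : ClassChar E := by
  intro k _ _ ω hω
  obtain ⟨χ', hne, hχ⟩ := exists_char_parity E
  have D := isQ_KN E.isLev
  have h2 : (2 : k) = 0 := CharTwo.two_eq_zero
  have hχ3 : ∀ c, ((muHom ω (cube_eq_one hω)).comp χ') c ^ 3 = 1 := by
    intro c
    rw [MonoidHom.comp_apply, muHom_apply, ← pow_mul, mul_comm, pow_mul, cube_eq_one hω, one_pow]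
  refine ⟨(muHom ω (cube_eq_one hω)).comp χ', hχ3, ?_, ?_⟩
  · obtain ⟨c, hc⟩ := hne
    exact ⟨c, fun h => hc ((muHom_eq_one_iff h2 hω _).1 h)⟩
  · intro l hl hlN
    obtain ⟨h3, h4⟩ := hχ l hl hlN
    by_cases hin : ∀ P : Ideal (𝓞 (KN E.N)), absNorm P ≠ l
    · rw [FF_prime_inert D.rank _ hl hin]
      obtain ⟨m, hm⟩ := h3 hin
      rw [hm]
      push_cast
      linear_combination -(m : k) * h2
    · push Not at hin
      obtain ⟨P, hP⟩ := hin
      by_cases ho : Odd (E.a l)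
      · rw [FF_eq_one D h2 _ hχ3 hl hlN hP
          (fun h => (h4 P hP).1 ho ((muHom_eq_one_iff h2 hω _).1 h))]
        obtain ⟨m, hm⟩ := ho
        rw [hm]
        push_cast
        linear_combination -(m : k) * h2
      · have h6 : χ' (cl P) = 1 := by
          by_contra h
          exact ho ((h4 P hP).2 h)
        rw [FF_eq_zero D h2 _ hl hlN hP ((muHom_eq_one_iff h2 hω _).2 h6)]
        rw [Int.not_odd_iff_even] at ho
        obtain ⟨m, hm⟩ := ho
        rw [hm]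
        push_cast
        linear_combination -(m : k) * h2

end Fermat.Agent.TwoAdic.D2
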