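import Mathlib
import Fermat.Agent.TwoAdic.D3Main

/-!
# Block D3 of the 2-adic route: from the representation over `k[G₂]` to the reciprocity map
-/

set_option autoImplicit false
set_option linter.unusedSectionVars false

open scoped NumberField Pointwise nonZeroDivisors
open IntermediateField Fermat.Agent

namespace Fermat.Agent.TwoAdic

local notation "Qb" => AlgebraicClosure ℚ
local notation "Γℚ" => (AlgebraicClosure ℚ ≃ₐ[ℚ] AlgebraicClosure ℚ)

/-! ## Group algebras of `2`-groups in characteristic two -/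

section GroupAlgebra

variable {k : Type*} [Field k] {G : Type*} [CommGroup G]

/-- the augmentation -/
noncomputable def aug (k G : Type*) [Field k] [CommGroup G] : MonoidAlgebra k G →ₐ[k] k :=
  MonoidAlgebra.lift k k G 1

@[simp] theorem aug_single (g : G) (a : k) : aug k G (MonoidAlgebra.single g a) = a := by
  rw [aug, MonoidAlgebra.lift_single]
  simp

theorem isUnit_of_aug_ne_zero [CharP k 2] [Finite G] (hG : IsPGroup 2 G)
    {x : MonoidAlgebra k G} (hx : aug k G x ≠ 0) : IsUnit x := by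
  have : Fact (Nat.Prime 2) := ⟨Nat.prime_two⟩
  obtain ⟨n, hn⟩ := IsPGroup.iff_card.1 hG
  have hpow : ∀ g : G, g ^ 2 ^ n = 1 := fun g => by rw [← hn]; exact pow_card_eq_one'
  have hchar : CharP (MonoidAlgebra k G) 2 :=
    charP_of_injective_algebraMap (FaithfulSMul.algebraMap_injective k (MonoidAlgebra k G)) 2
  have key : ∀ y : MonoidAlgebra k G,
      y ^ 2 ^ n = MonoidAlgebra.single 1 ((aug k G y) ^ 2 ^ n) := by
    intro y
    induction y using MonoidAlgebra.induction_linear with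
    | zero => simp
    | add f g hf hg =>
      rw [add_pow_char_pow, hf, hg, map_add, add_pow_char_pow, MonoidAlgebra.single_add]
    | single g a => rw [MonoidAlgebra.single_pow, hpow, aug_single]
  have h1 : IsUnit (x ^ 2 ^ n) := by
    rw [key]
    refine IsUnit.of_mul_eq_one (MonoidAlgebra.single 1 (((aug k G x) ^ 2 ^ n)⁻¹)) ?_
    rw [MonoidAlgebra.single_mul_single, mul_inv_cancel₀ (pow_ne_zero _ hx), one_mul,
      MonoidAlgebra.one_def]
  exact (isUnit_pow_iff (by positivity)).1 h1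

theorem single_inj {g h : G} {a b : k} (ha : a ≠ 0)
    (e : MonoidAlgebra.single g a = MonoidAlgebra.single h b) : g = h ∧ a = b := by
  classical
  have h1 := congrArg (fun f => MonoidAlgebra.coeff f g) e
  simp only [MonoidAlgebra.coeff_single] at h1
  rw [Finsupp.single_eq_same] at h1
  by_cases hgh : g = h
  · subst hgh
    rw [Finsupp.single_eq_same] at h1
    exact ⟨rfl, h1⟩
  · rw [Finsupp.single_eq_of_ne hgh] at h1
    exact absurd h1 ha

end GroupAlgebra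

/-! ## Dihedral representations from traces -/

section Dihedral

variable {G : Type*} [Group G] {H : Subgroup G} {A : Type*} [CommRing A]
  {ρ : G →* Matrix (Fin 2) (Fin 2) A}

theorem mulAp (g h : G) (i j : Fin 2) :
    ρ (g * h) i j = ρ g i 0 * ρ h 0 j + ρ g i 1 * ρ h 1 j := by
  rw [map_mul, Matrix.mul_apply, Fin.sum_univ_two]

variable {g₀ : G} (hg₀ : g₀ ∈ H) (h01 : ρ g₀ 0 1 = 0) (h10 : ρ g₀ 1 0 = 0)
  (hu : IsUnit (ρ g₀ 0 0 - ρ g₀ 1 1)) (htr : ∀ g, g ∉ H → (ρ g).trace = 0)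

include hg₀ h01 h10 hu htr

theorem anti_diag {g : G} (hg : g ∉ H) : ρ g 0 0 = 0 ∧ ρ g 1 1 = 0 := by
  have h1 := htr g hg
  have h2 := htr (g₀ * g) (fun h => hg ((H.mul_mem_cancel_left hg₀).1 h))
  rw [Matrix.trace_fin_two] at h1 h2
  rw [mulAp g₀ g 0 0, mulAp g₀ g 1 1, h01, h10, zero_mul, zero_mul, add_zero, zero_add] at h2
  have h3 : (ρ g₀ 0 0 - ρ g₀ 1 1) * ρ g 0 0 = 0 := by linear_combination h2 - ρ g₀ 1 1 * h1
  have h4 : ρ g 0 0 = 0 := (hu.mul_right_eq_zero).1 h3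
  refine ⟨h4, ?_⟩
  rw [h4, zero_add] at h1
  exact h1

theorem diag_of_mem {j₀ : G} (hj₀ : j₀ ∉ H) {h : G} (hh : h ∈ H) : ρ h 0 1 = 0 ∧ ρ h 1 0 = 0 := by
  have h1 : h * j₀⁻¹ ∉ H := fun hc => hj₀ (by
    have := (H.mul_mem_cancel_left hh).1 hc
    exact H.inv_mem_iff.1 this)
  have a1 := anti_diag hg₀ h01 h10 hu htr h1
  have a2 := anti_diag hg₀ h01 h10 hu htr hj₀
  have e : h = (h * j₀⁻¹) * j₀ := by group
  constructor
  · rw [e, mulAp, a1.1, a2.2, zero_mul, mul_zero, add_zero]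
  · rw [e, mulAp, a1.2, a2.1, zero_mul, mul_zero, add_zero]

end Dihedral

/-! ## The reciprocity map -/

/-- A representation over `k[G₂]` with the traces of the universal theta series. -/
structure ThetaRep (K : IntermediateField ℚ Qb) [NumberField K] {k : Type*} [Field k] {G₂ : Type*} [CommGroup G₂]
    (pr : ClassGroup (𝓞 K) →* G₂) (ω : k) (χI : ClassGroup (𝓞 K) →* kˣ) (S : Finset ℕ)
    (ρ : Γℚ →* Matrix (Fin 2) (Fin 2) (MonoidAlgebra k G₂)) (g₀ : Γℚ) : Prop where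
  cont : ContAt ⊥ ρ
  det : ∀ g ∈ K.fixingSubgroup, (ρ g).det = 1
  g₀_mem : g₀ ∈ K.fixingSubgroup
  diag01 : ρ g₀ 0 1 = 0
  diag10 : ρ g₀ 1 0 = 0
  res : aug k G₂ (ρ g₀ 0 0) = ω
  trace_mem : ∀ l : ℕ, l.Prime → l ∉ S → ∀ P : ValuationSubring Qb, P.LiesOverPrime l →
    ∀ σ ∈ K.fixingSubgroup, P.IsFrobeniusAt σ l → ∀ I : (Ideal (𝓞 K))⁰,
    (I : Ideal (𝓞 K)) = Frob.below (𝓞 K) P →
    (ρ σ).trace = MonoidAlgebra.single (pr (ClassGroup.mk0 I)) ((χI (ClassGroup.mk0 I) : kˣ) : k) +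
      MonoidAlgebra.single (pr (ClassGroup.mk0 I))⁻¹ (((χI (ClassGroup.mk0 I))⁻¹ : kˣ) : k)
  trace_not : ∀ l : ℕ, l.Prime → l ∉ S → ∀ P : ValuationSubring Qb, P.LiesOverPrime l →
    ∀ σ ∉ K.fixingSubgroup, P.IsFrobeniusAt σ l → (ρ σ).trace = 0

namespace ThetaRep

variable {K : IntermediateField ℚ Qb} [NumberField K] {k : Type*} [Field k] [CharP k 2]
  {G₂ : Type*} [CommGroup G₂] [Finite G₂] (hG₂ : IsPGroup 2 G₂)
  {pr : ClassGroup (𝓞 K) →* G₂} {ω : k} (hω : ω ^ 2 + ω + 1 = 0)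
  {χI : ClassGroup (𝓞 K) →* kˣ} {S : Finset ℕ}
  {ρ : Γℚ →* Matrix (Fin 2) (Fin 2) (MonoidAlgebra k G₂)} {g₀ : Γℚ}
  (T : ThetaRep K pr ω χI S ρ g₀)

include T

/-- Chebotarev -/
theorem exists_frob (g : Γℚ) : ∃ l : ℕ, l.Prime ∧ l ∉ S ∧ ∃ P : ValuationSubring Qb,
    P.LiesOverPrime l ∧ ∃ σ : Γℚ, P.IsFrobeniusAt σ l ∧ ρ σ = ρ g ∧
      (σ ∈ K.fixingSubgroup ↔ g ∈ K.fixingSubgroup) := by
  obtain ⟨F, hF, h1⟩ := T.cont
  have := hF
  obtain ⟨l, hl, hS, -, P, hP, σ, hσ, h2⟩ := ChebFull.exists_frobenius_eq (F ⊔ K) g S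
  refine ⟨l, hl, hS, P, hP, σ, hσ, ?_, ?_⟩
  · have h3 : ρ (g⁻¹ * σ) = 1 := by
      ext i j : 2
      have h4 := h1 (g⁻¹ * σ) (fun x hx => by
        change g⁻¹ (σ x) = x
        rw [h2 x ((le_sup_left : F ≤ F ⊔ K) hx)]
        change (g⁻¹ * g) x = x
        rw [inv_mul_cancel]; rfl) i j
      rw [Ideal.mem_bot, sub_eq_zero] at h4
      rw [h4]
    calc ρ σ = ρ (g * (g⁻¹ * σ)) := by rw [mul_inv_cancel_left]
      _ = ρ g := by rw [map_mul, h3, mul_one]
  · rw [IntermediateField.mem_fixingSubgroup_iff, IntermediateField.mem_fixingSubgroup_iff]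
    refine forall₂_congr fun x hx => ?_
    rw [h2 x ((le_sup_right : K ≤ F ⊔ K) hx)]

theorem trace_eq_zero {g : Γℚ} (hg : g ∉ K.fixingSubgroup) : (ρ g).trace = 0 := by
  obtain ⟨l, hl, hS, P, hP, σ, hσ, h1, h2⟩ := T.exists_frob g
  rw [← h1]
  exact T.trace_not l hl hS P hP σ (fun h => hg (h2.1 h)) hσ

include hω hG₂ in
theorem isUnit_sub : IsUnit (ρ g₀ 0 0 - ρ g₀ 1 1) := by
  apply isUnit_of_aug_ne_zero hG₂
  rw [map_sub, T.res]
  intro h
  have h1 : aug k G₂ (ρ g₀ 1 1) = ω := (sub_eq_zero.1 h).symm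
  have h2 := congrArg (aug k G₂) (T.det g₀ T.g₀_mem)
  rw [Matrix.det_fin_two, T.diag01, zero_mul, sub_zero, map_mul, map_one, T.res, h1] at h2
  -- `ω ^ 2 = 1`, so `ω = 0`
  have h3 : ω = 0 := by
    have h5 : (2 : k) = 0 := CharTwo.two_eq_zero
    linear_combination hω - h2 - h5
  rw [h3] at h2
  simp at h2

variable {j₀ : Γℚ} (hj₀ : j₀ ∉ K.fixingSubgroup)

include hω hG₂ hj₀ in
theorem offdiag {h : Γℚ} (hh : h ∈ K.fixingSubgroup) : ρ h 0 1 = 0 ∧ ρ h 1 0 = 0 :=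
  diag_of_mem T.g₀_mem T.diag01 T.diag10 (T.isUnit_sub hG₂ hω) (fun _ hg => T.trace_eq_zero hg)
    hj₀ hh

include hω hG₂ hj₀ in
/-- the character `ψ` on `G_K` -/
theorem exists_psi : ∃ r : K.fixingSubgroup →* MonoidAlgebra k G₂,
    (∀ h : K.fixingSubgroup, r h = ρ h 0 0) ∧
    (∀ h : K.fixingSubgroup, r h * ρ h 1 1 = 1) := by
  refine ⟨{ toFun := fun h => ρ h 0 0, map_one' := ?_, map_mul' := fun a b => ?_ }, fun h => rfl,
    fun h => ?_⟩
  · simp
  · rw [Subgroup.coe_mul, mulAp, (T.offdiag hG₂ hω hj₀ a.2).1, zero_mul, add_zero]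
  · have h1 := T.det (h : Γℚ) h.2
    rw [Matrix.det_fin_two, (T.offdiag hG₂ hω hj₀ h.2).1, zero_mul, sub_zero] at h1
    exact h1

include hω hG₂ hj₀ in
/-- **The reciprocity map.** -/
theorem exists_recip : ∃ (χ : K.fixingSubgroup →* kˣ) (φ : K.fixingSubgroup →* G₂),
    FinLevel χ ∧ FinLevel φ ∧ (∃ g : K.fixingSubgroup, ∀ n : ℕ, χ g ^ 2 ^ n ≠ 1) ∧
    (∀ h : K.fixingSubgroup, ((χ h : kˣ) : k) = aug k G₂ (ρ h 0 0)) ∧
    ∀ l : ℕ, l.Prime → l ∉ S → ∀ A : ValuationSubring Qb, A.LiesOverPrime l →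
      ∀ σ : K.fixingSubgroup, A.IsFrobeniusAt (σ : Γℚ) l → χ σ ≠ 1 →
      ∀ P : (Ideal (𝓞 K))⁰, (P : Ideal (𝓞 K)) = Frob.below (𝓞 K) A →
        φ σ = pr (ClassGroup.mk0 P) ∨ φ σ = (pr (ClassGroup.mk0 P))⁻¹ := by
  classical
  obtain ⟨r, hr, hr'⟩ := T.exists_psi hG₂ hω hj₀
  have hru : ∀ h, aug k G₂ (r h) ≠ 0 := by
    intro h h0
    have h1 := congrArg (aug k G₂) (hr' h)
    rw [map_mul, h0, zero_mul, map_one] at h1
    exact zero_ne_one h1
  -- the residual character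
  let χ : K.fixingSubgroup →* kˣ :=
    { toFun := fun h => Units.mk0 (aug k G₂ (r h)) (hru h)
      map_one' := Units.ext (by simp)
      map_mul' := fun a b => Units.ext (by simp) }
  have hχ : ∀ h, ((χ h : kˣ) : k) = aug k G₂ (r h) := fun h => rfl
  -- finite level
  obtain ⟨F, hF, hFρ⟩ := T.cont
  have hrF : ∀ h : K.fixingSubgroup, (∀ x ∈ F, (h : Γℚ) x = x) → r h = 1 := by
    intro h hh
    have h1 := hFρ (h : Γℚ) hh 0 0
    rw [Ideal.mem_bot, sub_eq_zero] at h1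
    rw [hr, h1]
    simp
  -- values at Frobenius elements
  have hfrob : ∀ l : ℕ, l.Prime → l ∉ S → ∀ A : ValuationSubring Qb, A.LiesOverPrime l →
      ∀ σ : K.fixingSubgroup, A.IsFrobeniusAt (σ : Γℚ) l → χ σ ≠ 1 →
      ∀ P : (Ideal (𝓞 K))⁰, (P : Ideal (𝓞 K)) = Frob.below (𝓞 K) A →
        r σ = MonoidAlgebra.single (pr (ClassGroup.mk0 P)) ((χI (ClassGroup.mk0 P) : kˣ) : k) ∨
        r σ = MonoidAlgebra.single (pr (ClassGroup.mk0 P))⁻¹
          (((χI (ClassGroup.mk0 P))⁻¹ : kˣ) : k) := by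
    intro l hl hS A hA σ hσ hχσ P hP
    have h1 := T.trace_mem l hl hS A hA (σ : Γℚ) σ.2 hσ P hP
    set c := pr (ClassGroup.mk0 P) with hc
    set a := χI (ClassGroup.mk0 P) with ha
    rw [Matrix.trace_fin_two, ← hr] at h1
    have h2 := hr' σ
    have h3 : (MonoidAlgebra.single c (a : k)) * (MonoidAlgebra.single c⁻¹ ((a⁻¹ : kˣ) : k)) =
        (1 : MonoidAlgebra k G₂) := by
      rw [MonoidAlgebra.single_mul_single, mul_inv_cancel, Units.mul_inv, MonoidAlgebra.one_def]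
    set x := r σ
    set y := MonoidAlgebra.single c (a : k)
    set z := MonoidAlgebra.single c⁻¹ ((a⁻¹ : kˣ) : k)
    set w := ρ (σ : Γℚ) 1 1
    have h4 : (x - y) * (x - z) = 0 := by linear_combination h3 - h2 + x * h1
    by_cases hxy : aug k G₂ (x - y) = 0
    · -- then `x - z` is a unit
      left
      have hxz : aug k G₂ (x - z) ≠ 0 := by
        intro hxz
        rw [map_sub, sub_eq_zero] at hxy hxz
        rw [aug_single] at hxy hxz
        apply hχσ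
        -- `a = a⁻¹` so `a = 1`
        have h5 : a * a = 1 := by
          have : (a : k) = ((a⁻¹ : kˣ) : k) := hxy.symm.trans hxz
          have h6 : a = a⁻¹ := Units.ext this
          nth_rewrite 2 [h6]
          exact mul_inv_cancel a
        have h6 : (a : k) = 1 := by
          have h7 : ((a : k) - 1) ^ 2 = 0 := by
            have h8 : (a : k) * a = 1 := by rw [← Units.val_mul, h5, Units.val_one]
            have h9 : (2 : k) = 0 := CharTwo.two_eq_zero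
            linear_combination h8 + (1 - (a : k)) * h9
          exact sub_eq_zero.1 (pow_eq_zero_iff (two_ne_zero) |>.1 h7)
        apply Units.ext
        rw [hχ, hxy, h6, Units.val_one]
      have h5 := isUnit_of_aug_ne_zero hG₂ hxz
      exact sub_eq_zero.1 ((h5.mul_left_eq_zero).1 h4)
    · right
      have h5 := isUnit_of_aug_ne_zero hG₂ hxy
      exact sub_eq_zero.1 ((h5.mul_right_eq_zero).1 h4)
  -- all values are monomials
  have hmon1 : ∀ g : K.fixingSubgroup, χ g ≠ 1 → ∃ x : G₂, r g =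
      MonoidAlgebra.single x ((χ g : kˣ) : k) := by
    intro g hg
    obtain ⟨l, hl, hS, P, hP, σ, hσ, h1, h2⟩ := T.exists_frob (g : Γℚ)
    have hσK := h2.2 g.2
    have e1 : r ⟨σ, hσK⟩ = r g := by rw [hr, hr]; exact congrFun (congrFun h1 0) 0
    have e2 : χ ⟨σ, hσK⟩ = χ g := Units.ext (by rw [hχ, hχ, e1])
    let I : (Ideal (𝓞 K))⁰ := ⟨Frob.below (𝓞 K) P, mem_nonZeroDivisors_of_ne_zero
      (below_ne_bot (F := K) P hl hP)⟩
    have h3 := hfrob l hl hS P hP ⟨σ, hσK⟩ hσ (by rw [e2]; exact hg) I rfl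
    rw [e1] at h3
    rcases h3 with h | h
    · refine ⟨pr (ClassGroup.mk0 I), ?_⟩
      rw [hχ, h, aug_single]
    · refine ⟨(pr (ClassGroup.mk0 I))⁻¹, ?_⟩
      rw [hχ, h, aug_single]
  have hχg₀ : ((χ ⟨g₀, T.g₀_mem⟩ : kˣ) : k) = ω := by rw [hχ, hr]; exact T.res
  have hω3 : ω ^ 3 = 1 := by linear_combination (ω - 1) * hω
  have hω1 : ω ≠ 1 := by
    rintro rfl
    have h9 : (2 : k) = 0 := CharTwo.two_eq_zero
    have : (1 : k) = 0 := by linear_combination hω - h9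
    exact one_ne_zero this
  have hχg₀' : χ ⟨g₀, T.g₀_mem⟩ ≠ 1 := by
    intro h
    rw [h, Units.val_one] at hχg₀
    exact hω1 hχg₀.symm
  have hmon : ∀ g : K.fixingSubgroup, ∃ x : G₂, r g = MonoidAlgebra.single x ((χ g : kˣ) : k) := by
    intro g
    by_cases hg : χ g = 1
    · obtain ⟨x, hx⟩ := hmon1 (g * ⟨g₀, T.g₀_mem⟩) (by rw [map_mul, hg, one_mul]; exact hχg₀')
      obtain ⟨y, hy⟩ := hmon1 (⟨g₀, T.g₀_mem⟩⁻¹) (by
        rw [map_inv]; exact fun h => hχg₀' (inv_eq_one.1 h))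
      refine ⟨x * y, ?_⟩
      have : g = (g * ⟨g₀, T.g₀_mem⟩) * ⟨g₀, T.g₀_mem⟩⁻¹ := (mul_inv_cancel_right _ _).symm
      conv_lhs => rw [this, map_mul, hx, hy, MonoidAlgebra.single_mul_single, ← Units.val_mul,
        ← map_mul, mul_inv_cancel_right]
    · exact hmon1 g hg
  choose f hf using hmon
  let φ : K.fixingSubgroup →* G₂ :=
    { toFun := f
      map_one' := by
        have h1 := hf 1
        rw [map_one, MonoidAlgebra.one_def, map_one] at h1
        exact (single_inj one_ne_zero h1).1.symm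
      map_mul' := fun a b => by
        have h1 := hf (a * b)
        rw [map_mul, hf a, hf b, MonoidAlgebra.single_mul_single] at h1
        exact (single_inj (mul_ne_zero (Units.ne_zero _) (Units.ne_zero _)) h1).1.symm }
  have hφ : ∀ g, r g = MonoidAlgebra.single (φ g) ((χ g : kˣ) : k) := hf
  refine ⟨χ, φ, ⟨F, hF, fun σ hσ => ?_⟩, ⟨F, hF, fun σ hσ => ?_⟩, ⟨⟨g₀, T.g₀_mem⟩, ?_⟩,
    fun h => by rw [hχ, hr], ?_⟩
  · apply Units.ext
    rw [hχ, hrF σ hσ, map_one, Units.val_one]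
  · have h1 := hφ σ
    rw [hrF σ hσ, MonoidAlgebra.one_def] at h1
    exact (single_inj one_ne_zero h1).1.symm
  · intro n hn
    have h1 : ω ^ 2 ^ n = 1 := by
      rw [← hχg₀, ← Units.val_pow_eq_pow_val, hn, Units.val_one]
    have h2 : orderOf ω ∣ 3 := orderOf_dvd_of_pow_eq_one hω3
    have h3 : orderOf ω ∣ 2 ^ n := orderOf_dvd_of_pow_eq_one h1
    have h4 : orderOf ω = 1 :=
      Nat.eq_one_of_dvd_coprimes (Nat.Coprime.pow_right n (by norm_num : Nat.Coprime 3 2)) h2 h3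
    exact hω1 (orderOf_eq_one_iff.1 h4)
  · intro l hl hS A hA σ hσ hχσ P hP
    rcases hfrob l hl hS A hA σ hσ hχσ P hP with h | h
    · left
      rw [hφ] at h
      exact (single_inj (Units.ne_zero _) h).1
    · right
      rw [hφ] at h
      exact (single_inj (Units.ne_zero _) h).1

end ThetaRep

end Fermat.Agent.TwoAdic
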