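import Mathlib
import Fermat.Agent.TwoAdic.D3Phi
import Fermat.Agent.TwoAdic.D3Local

/-!
# Block D3 of the 2-adic route: the bound on unramified abelian `2`-quotients and the upper bound
-/

set_option autoImplicit false
set_option linter.unusedSectionVars false

open scoped NumberField Pointwise nonZeroDivisors
open IntermediateField Fermat.Agent IsLocalRing

namespace Fermat.Agent.TwoAdic

local notation "Qb" => AlgebraicClosure ℚ
local notation "Γℚ" => (AlgebraicClosure ℚ ≃ₐ[ℚ] AlgebraicClosure ℚ)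

/-- every abelian `2`-quotient of `G_K` unramified everywhere has order at most the `2`-part of
the class number. -/
def UnrBound (N : ℕ) : Prop :=
  ∀ (C : Type) [CommGroup C] [Finite C], IsPGroup 2 C →
    ∀ ψ : (KN N).fixingSubgroup →* C, FinLevel ψ →
    (∀ ℓ : ℕ, ℓ.Prime → ∀ A : ValuationSubring Qb, A.LiesOverPrime ℓ →
      ∀ σ : (KN N).fixingSubgroup, (σ : Γℚ) ∈ A.inertiaSubgroupIn ℚ → ψ σ = 1) →
    Nat.card ψ.range ≤ h2 N

/-- Block D4: classes of split primes with nontrivial cubic Frobenius generate the `2`-part of the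
class group. -/
def GenusGen (N : ℕ) : Prop :=
  ∀ (X : Type) [Group X] (χ : (KN N).fixingSubgroup →* X), FinLevel χ →
    (∃ g, ∀ n : ℕ, χ g ^ 2 ^ n ≠ 1) → ∀ (S : Finset ℕ) (H' : Subgroup (Cl2 N)),
    (∀ l : ℕ, l.Prime → l ∉ S → ∀ A : ValuationSubring Qb, A.LiesOverPrime l →
      ∀ σ : (KN N).fixingSubgroup, A.IsFrobeniusAt (σ : Γℚ) l → χ σ ≠ 1 →
      ∀ P : (Ideal (𝓞 (KN N)))⁰, (P : Ideal (𝓞 (KN N))) = Frob.below (𝓞 (KN N)) A →
        prCl2 N (ClassGroup.mk0 P) ∈ H') → H' = ⊤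

theorem unrBound_of {N : ℕ} (hD1 : FirstIneq (KN N)) (hD4 : GenusGen N)
    {k : Type} [Field k] [CharP k 2] {ω : k} (hω : ω ^ 2 + ω + 1 = 0)
    {χI : ClassGroup (𝓞 (KN N)) →* kˣ} {S : Finset ℕ}
    {ρ : Γℚ →* Matrix (Fin 2) (Fin 2) (MonoidAlgebra k (Cl2 N))} {g₀ : Γℚ}
    (T : ThetaRep (KN N) (prCl2 N) ω χI S ρ g₀) {j₀ : Γℚ} (hj₀ : j₀ ∉ (KN N).fixingSubgroup) :
    UnrBound N := by
  intro C _ _ hC ψ hψl hψu
  have hG₂ : IsPGroup 2 (Cl2 N) := isPGroup_twoQuot _
  obtain ⟨χ, φ, hχl, hφl, hχ, -, hφF⟩ := T.exists_recip hG₂ hω hj₀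
  have hφs : Function.Surjective φ := by
    rw [← MonoidHom.range_eq_top]
    refine hD4 kˣ χ hχl hχ S _ fun l hl hS A hA σ hσ hχσ P hP => ?_
    rcases hφF l hl hS A hA σ hσ hχσ P hP with h | h
    · rw [← h]; exact ⟨σ, rfl⟩
    · rw [← inv_mem_iff, ← h]; exact ⟨σ, rfl⟩
  rw [← card_Cl2 N]
  have hCr : IsPGroup 2 ψ.range := hC.to_subgroup _
  refine card_le_of_recip (KN N) hD1 hG₂ (prCl2 N) (prCl2_surjective N)
    (le_of_eq (ker_prCl2 N)) χ hχl hχ φ hφl hφs S hφF hCr ψ.rangeRestrict ?_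
    ψ.rangeRestrict_surjective ?_
  · obtain ⟨F, hF, h1⟩ := hψl
    exact ⟨F, hF, fun σ hσ => Subtype.ext (h1 σ hσ)⟩
  · intro ℓ hℓ A hA σ hσ
    exact Subtype.ext (hψu ℓ hℓ A hA σ hσ)

/-! ## The upper bound -/

section Upper

theorem fixK_mul_of_not {N : ℕ} {g h : Γℚ} (hg : ¬ FixK N g) (hh : ¬ FixK N h) :
    FixK N (g * h) := by
  rw [fixK_iff_nu0] at *
  have key : ∀ g : Γℚ, g (nu0 N) ≠ nu0 N → g (nu0 N) = - nu0 N := by
    intro g hg
    have h1 : (g (nu0 N)) ^ 2 = (nu0 N) ^ 2 := by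
      rw [← map_pow, nu0_sq, map_neg, map_natCast]
    rcases sq_eq_sq_iff_eq_or_eq_neg.1 h1 with h | h
    · exact absurd h hg
    · exact h
  rw [AlgEquiv.mul_apply, key h hh, map_neg, key g hg, neg_neg]

variable {A : Type} [CommRing A] [IsLocalRing A]

/-- the group of principal units -/
noncomputable def princUnits (A : Type) [CommRing A] [IsLocalRing A] : Subgroup Aˣ :=
  (Units.map (residue A : A →* ResidueField A)).ker

theorem mem_princUnits {x : Aˣ} : x ∈ princUnits A ↔ residue A (x : A) = 1 := by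
  rw [princUnits, MonoidHom.mem_ker]
  constructor
  · intro h; exact congrArg Units.val h
  · intro h; exact Units.ext h

theorem isPGroup_princUnits [Finite A] (h2 : (2 : A) = 0) : IsPGroup 2 (princUnits A) := by
  have : Fact (Nat.Prime 2) := ⟨Nat.prime_two⟩
  have : CharP A 2 := CharTwo.of_one_ne_zero_of_two_eq_zero one_ne_zero h2
  have hart : IsArtinianRing A := inferInstance
  obtain ⟨n, hn⟩ := IsArtinianRing.isNilpotent_jacobson_bot (R := A)
  rintro ⟨x, hx⟩
  refine ⟨n, ?_⟩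
  apply Subtype.ext
  apply Units.ext
  rw [mem_princUnits] at hx
  have h1 : (x : A) - 1 ∈ maximalIdeal A := by
    rw [← residue_eq_zero_iff, map_sub, hx, map_one, sub_self]
  have h3 : ((x : A) - 1) ^ 2 ^ n = 0 := by
    have h4 : (x : A) - 1 ∈ Ideal.jacobson (⊥ : Ideal A) := by
      rw [IsLocalRing.jacobson_eq_maximalIdeal ⊥ bot_ne_top]; exact h1
    have h5 : ((x : A) - 1) ^ n ∈ (Ideal.jacobson (⊥ : Ideal A)) ^ n := Ideal.pow_mem_pow h4 n
    rw [hn] at h5
    have h6 : ((x : A) - 1) ^ n = 0 := h5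
    exact pow_eq_zero_of_le (Nat.lt_two_pow_self).le h6
  have h4 : (x : A) = ((x : A) - 1) + 1 := by ring
  have h5 : ((x : A)) ^ 2 ^ n = 1 := by
    rw [h4, add_pow_char_pow, h3, one_pow, zero_add]
  simpa using h5

/-- products of elements of order two and a finite set closed under multiplication span a
subalgebra -/
theorem span_bound {k : Type} [Field k] [Algebra k A] (R : Subgroup Aˣ) [Finite R]
    (Q : Finset ℕ) (u : ℕ → A) (hu : ∀ q ∈ Q, u q ^ 2 = 1) (gen : Set A)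
    (hgen : ∀ x ∈ gen, x ∈ Submodule.span k
      (Set.range fun p : R × (Q.powerset : Finset (Finset ℕ)) =>
        (((p.1 : Aˣ) : A) * ∏ q ∈ (p.2 : Finset ℕ), u q)))
    (htop : Algebra.adjoin k gen = ⊤) :
    Module.finrank k A ≤ 2 ^ Q.card * Nat.card R := by
  classical
  have := Fintype.ofFinite R
  set b : R × (Q.powerset : Finset (Finset ℕ)) → A := fun p =>
    (((p.1 : Aˣ) : A) * ∏ q ∈ (p.2 : Finset ℕ), u q) with hb
  have hmulb : ∀ p p', b p * b p' ∈ Set.range b := by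
    rintro ⟨c, T, hT⟩ ⟨c', T', hT'⟩
    rw [Finset.mem_powerset] at hT hT'
    refine ⟨⟨c * c', symmDiff T T', ?_⟩, ?_⟩
    · rw [Finset.mem_powerset]
      intro q hq
      rw [Finset.mem_symmDiff] at hq
      rcases hq with h | h
      · exact hT h.1
      · exact hT' h.1
    · simp only [hb]
      have h1 : (∏ q ∈ T, u q) * ∏ q ∈ T', u q = ∏ q ∈ symmDiff T T', u q := by
        have hd : Disjoint (T \ T') (T' \ T) := disjoint_sdiff_sdiff
        have e1 : symmDiff T T' = (T \ T') ∪ (T' \ T) := rfl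
        rw [e1, Finset.prod_union hd]
        have e2 : ∏ q ∈ T, u q = (∏ q ∈ T \ T', u q) * ∏ q ∈ T ∩ T', u q := by
          rw [← Finset.prod_union (Finset.disjoint_sdiff_inter T T'), Finset.sdiff_union_inter]
        have e3 : ∏ q ∈ T', u q = (∏ q ∈ T' \ T, u q) * ∏ q ∈ T ∩ T', u q := by
          rw [Finset.inter_comm, ← Finset.prod_union (Finset.disjoint_sdiff_inter T' T),
            Finset.sdiff_union_inter]
        have e4 : (∏ q ∈ T ∩ T', u q) * (∏ q ∈ T ∩ T', u q) = 1 := by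
          rw [← Finset.prod_mul_distrib]
          refine Finset.prod_eq_one fun q hq => ?_
          rw [← sq]
          exact hu q (hT (Finset.mem_inter.1 hq).1)
        rw [e2, e3]
        linear_combination (∏ q ∈ T \ T', u q) * (∏ q ∈ T' \ T, u q) * e4
      rw [Subgroup.coe_mul, Units.val_mul, ← h1]
      ring
  let V : Submodule k A := Submodule.span k (Set.range b)
  have hone : (1 : A) ∈ V := by
    refine Submodule.subset_span ⟨⟨1, ∅, Finset.empty_mem_powerset Q⟩, ?_⟩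
    simp [hb]
  have hmul : ∀ x ∈ V, ∀ y ∈ V, x * y ∈ V := by
    intro x hx y hy
    have h1 : x * y ∈ V * V := Submodule.mul_mem_mul hx hy
    have h2 : V * V ≤ V := by
      rw [Submodule.span_mul_span, Submodule.span_le]
      rintro _ ⟨_, ⟨p, rfl⟩, _, ⟨p', rfl⟩, rfl⟩
      exact Submodule.subset_span (hmulb p p')
    exact h2 h1
  let B : Subalgebra k A :=
    { carrier := V
      mul_mem' := fun ha hb => hmul _ ha _ hb
      one_mem' := hone
      add_mem' := fun ha hb => V.add_mem ha hb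
      zero_mem' := V.zero_mem
      algebraMap_mem' := fun r => by
        rw [Algebra.algebraMap_eq_smul_one]
        exact V.smul_mem r hone }
  have hB : B = ⊤ := by
    rw [eq_top_iff, ← htop]
    exact Algebra.adjoin_le hgen
  have hV : V = ⊤ := by
    rw [eq_top_iff]
    intro x _
    have : x ∈ B := by rw [hB]; exact Algebra.mem_top
    exact this
  calc Module.finrank k A = Module.finrank k (⊤ : Submodule k A) := (finrank_top k A).symm
    _ = Module.finrank k V := by rw [hV]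
    _ ≤ Fintype.card (R × (Q.powerset : Finset (Finset ℕ))) := finrank_range_le_card b
    _ = 2 ^ Q.card * Nat.card R := by
      rw [Fintype.card_prod, Fintype.card_coe, Finset.card_powerset, mul_comm,
        Nat.card_eq_fintype_card]

/-- **The upper bound.** -/
theorem finrank_le_of_dihedral (E : EData) (Q : Finset ℕ) (hQ : ∀ q ∈ Q, IsAux E 2 q)
    (hB : UnrBound E.N) {k : Type} [Field k] [Finite k] [Algebra k A]
    [Module.Finite k A] (h2 : (2 : A) = 0)
    (hbij : Function.Bijective (algebraMap k (ResidueField A)))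
    (ρ : Γℚ →* Matrix (Fin 2) (Fin 2) A) (u : ℕ → A) (hcont : ContAt ⊥ ρ)
    (hdet : ∀ g, (ρ g).det = 1)
    (hunr : ∀ l : ℕ, l.Prime → ¬ l ∣ lev E Q → UnrAt ρ l)
    (hstar : ∀ v : ℕ, v.Prime → v ∣ lev E Q → u v ^ 2 = 1 ∧ StarAt ρ v (u v))
    (hgen : Algebra.adjoin k ({x | ∃ g, x = (ρ g).trace} ∪
      {x | ∃ v, v.Prime ∧ v ∣ lev E Q ∧ x = u v}) = ⊤)
    (h01 : ∀ g, FixK E.N g → ρ g 0 1 = 0) (h10 : ∀ g, FixK E.N g → ρ g 1 0 = 0)
    (h00 : ∀ g, ¬ FixK E.N g → ρ g 0 0 = 0) (h11 : ∀ g, ¬ FixK E.N g → ρ g 1 1 = 0) :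
    Module.finrank k A ≤ 2 ^ Q.card * TwoAdic.h2 E.N := by
  classical
  have : Finite A := Module.finite_of_finite k
  set H := (KN E.N).fixingSubgroup with hH
  have hmem : ∀ g : Γℚ, g ∈ H ↔ FixK E.N g := fun g => mem_fixK_iff
  have hH01 : ∀ g ∈ H, ρ g 0 1 = 0 := fun g hg => h01 g ((hmem g).1 hg)
  have hH10 : ∀ g ∈ H, ρ g 1 0 = 0 := fun g hg => h10 g ((hmem g).1 hg)
  have hunit10 : ∀ g, ¬ FixK E.N g → IsUnit (ρ g 1 0) := by
    intro g hg
    have h1 := hdet g
    rw [Matrix.det_fin_two, h00 g hg, zero_mul, zero_sub] at h1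
    exact IsUnit.of_mul_eq_one (-(ρ g 0 1)) (by linear_combination h1)
  have hdiag : ∀ g ∈ H, ρ g 0 0 * ρ g 1 1 = 1 := by
    intro g hg
    have h1 := hdet g
    rwa [Matrix.det_fin_two, hH01 g hg, zero_mul, sub_zero] at h1
  -- the character
  let ψA : H →* Aˣ :=
    { toFun := fun g => ⟨ρ g 0 0, ρ g 1 1, hdiag g g.2, by rw [mul_comm]; exact hdiag g g.2⟩
      map_one' := Units.ext (by simp)
      map_mul' := fun a b => Units.ext (by
        change ρ ((a : Γℚ) * b) 0 0 = ρ a 0 0 * ρ b 0 0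
        rw [mulAp, hH01 a a.2, zero_mul, add_zero]) }
  have hψA : ∀ g : H, ((ψA g : Aˣ) : A) = ρ g 0 0 := fun g => rfl
  have hψA' : ∀ g : H, (((ψA g)⁻¹ : Aˣ) : A) = ρ g 1 1 := fun g => rfl
  let τ : k ≃+* ResidueField A := RingEquiv.ofBijective _ hbij
  have hτ : ∀ c : k, τ c = residue A (algebraMap k A c) := fun c => by
    rw [← ResidueField.algebraMap_eq, ← IsScalarTower.algebraMap_apply]; rfl
  let χk : H →* kˣ := (Units.map (τ.symm : ResidueField A →* k)).comp
    ((Units.map (residue A : A →* ResidueField A)).comp ψA)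
  let χA : H →* Aˣ := (Units.map (algebraMap k A : k →* A)).comp χk
  have hχA : ∀ g, residue A ((χA g : Aˣ) : A) = residue A (ρ g 0 0) := by
    intro g
    change residue A (algebraMap k A (τ.symm (residue A (ρ g 0 0)))) = _
    rw [← hτ, RingEquiv.apply_symm_apply]
  let ψ2 : H →* Aˣ := ψA * χA⁻¹
  have hψ2 : ∀ g, ψA g = χA g * ψ2 g := by
    intro g
    change ψA g = χA g * (ψA g * (χA g)⁻¹)
    rw [mul_comm (ψA g), mul_inv_cancel_left]
  have hψ2mem : ∀ g, ψ2 g ∈ princUnits A := by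
    intro g
    rw [mem_princUnits]
    change residue A ((ψA g * (χA g)⁻¹ : Aˣ) : A) = 1
    have h1 : residue A (ψA g : A) = residue A (χA g : A) := (hχA g).symm
    rw [Units.val_mul, map_mul, h1, ← map_mul, ← Units.val_mul, mul_inv_cancel, Units.val_one,
      map_one]
  let ψ2' : H →* princUnits A := ψ2.codRestrict _ hψ2mem
  obtain ⟨F, hF, hFρ⟩ := hcont
  have hψAF : ∀ g : H, (∀ x ∈ F, (g : Γℚ) x = x) → ψA g = 1 := by
    intro g hg
    apply Units.ext
    have h1 := hFρ (g : Γℚ) hg 0 0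
    rw [Ideal.mem_bot, sub_eq_zero] at h1
    rw [hψA, h1]
    simp
  have hψ2one : ∀ g : H, ψA g = 1 → ψ2 g = 1 := by
    intro g hg
    have h1 : χk g = 1 := by
      change (Units.map (τ.symm : ResidueField A →* k))
        ((Units.map (residue A : A →* ResidueField A)) (ψA g)) = 1
      rw [hg, map_one, map_one]
    change ψA g * (χA g)⁻¹ = 1
    have h3 : χA g = 1 := by
      change (Units.map (algebraMap k A : k →* A)) (χk g) = 1
      rw [h1, map_one]
    rw [hg, h3, inv_one, one_mul]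
  have hlevel : FinLevel ψ2' := ⟨F, hF, fun g hg => Subtype.ext (hψ2one g (hψAF g hg))⟩
  -- elements of decomposition groups outside `H`
  have hout : ∀ v : ℕ, v.Prime → v ∣ lev E Q → ∀ P : ValuationSubring Qb, P.LiesOverPrime v →
      ∃ j ∈ P.decompositionSubgroup ℚ, ¬ FixK E.N j := by
    intro v hv hvd P hP
    by_cases hvN : v ∣ E.N
    · obtain ⟨τ, hτI, hτ⟩ := exists_mem_inertia_not_fixK hv hvN E.sqf hP
      exact ⟨τ, ((Frob.mem_inertiaSubgroupIn_iff P τ).1 hτI).1, hτ⟩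
    · have h1 : v ∣ ∏ q ∈ Q, q := (hv.dvd_mul.1 hvd).resolve_left hvN
      obtain ⟨q, hq, hvq⟩ := (Prime.dvd_finsetProd_iff hv.prime _).1 h1
      have hvq' : v = q := ((hQ q hq).prime.eq_one_or_self_of_dvd v hvq).resolve_left hv.one_lt.ne'
      subst hvq'
      obtain ⟨φ, hφ⟩ := Frob.exists_isFrobeniusAt P hv hP
      exact ⟨φ, ((Frob.isFrobeniusAt_iff P φ v).1 hφ).1, ((hQ v hq).frob P hP φ hφ).1⟩
  -- the Steinberg condition
  have hstar' : ∀ v : ℕ, v.Prime → v ∣ lev E Q → ∀ P : ValuationSubring Qb, P.LiesOverPrime v →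
      ∀ h ∈ P.decompositionSubgroup ℚ, FixK E.N h → ρ h 0 0 = unr v (u v) h := by
    intro v hv hvd P hP h hh hfix
    obtain ⟨j, hj, hjf⟩ := hout v hv hvd P hP
    have h1 := (hstar v hv hvd).2 P hP j hj h hh
    have h3 := congrFun (congrFun h1 1) 0
    rw [Matrix.mul_apply, Fin.sum_univ_two] at h3
    simp only [Matrix.sub_apply, Matrix.scalar_apply, Matrix.diagonal_apply_eq,
      Matrix.diagonal_apply_ne _ (show (1 : Fin 2) ≠ 0 by decide), Matrix.zero_apply, sub_zero,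
      h10 h hfix, mul_zero, add_zero] at h3
    exact sub_eq_zero.1 (((hunit10 j hjf).mul_right_eq_zero).1 h3)
  have hbound := hB (princUnits A) (isPGroup_princUnits h2) ψ2' hlevel (by
    intro ℓ hℓ P hP σ hσ
    apply Subtype.ext
    apply hψ2one
    apply Units.ext
    rw [hψA]
    by_cases hℓd : ℓ ∣ lev E Q
    · have hd := ((Frob.mem_inertiaSubgroupIn_iff P (σ : Γℚ)).1 hσ).1
      rw [hstar' ℓ hℓ hℓd P hP σ hd ((hmem _).1 σ.2), unr,
        if_pos (isEven_of_mem_inertia hℓ hP hσ)]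
      rfl
    · rw [hunr ℓ hℓ hℓd P hP σ hσ]
      simp)
  -- the span
  have hcard : Nat.card ψ2.range = Nat.card ψ2'.range := by
    have e : ψ2.range = ψ2'.range.map (princUnits A).subtype := by
      ext x
      constructor
      · rintro ⟨g, rfl⟩
        exact ⟨ψ2' g, ⟨g, rfl⟩, rfl⟩
      · rintro ⟨_, ⟨g, rfl⟩, rfl⟩
        exact ⟨g, rfl⟩
    rw [e]
    exact Nat.card_congr (ψ2'.range.equivMapOfInjective _ (princUnits A).subtype_injective).symm.toEquiv
  refine le_trans (span_bound (k := k) ψ2.range Q u (fun q hq => (hstar q (hQ q hq).prime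
    ((Finset.dvd_prod_of_mem _ hq).mul_left _)).1) _ ?_ hgen) ?_
  · -- the generators lie in the span
    have hψmem : ∀ g : H, ρ g 0 0 ∈ Submodule.span k
        (Set.range fun p : ψ2.range × (Q.powerset : Finset (Finset ℕ)) =>
        (((p.1 : Aˣ) : A) * ∏ q ∈ (p.2 : Finset ℕ), u q)) := by
      intro g
      have h1 : ρ g 0 0 = ((χk g : kˣ) : k) • (((ψ2 g : Aˣ) : A) * ∏ q ∈ (∅ : Finset ℕ), u q) := by
        rw [← hψA, hψ2 g, Finset.prod_empty, mul_one, Units.val_mul, Algebra.smul_def]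
        rfl
      rw [h1]
      exact Submodule.smul_mem _ _ (Submodule.subset_span
        ⟨⟨⟨ψ2 g, g, rfl⟩, ∅, Finset.empty_mem_powerset Q⟩, rfl⟩)
    have hψmem' : ∀ g : H, ρ g 1 1 ∈ Submodule.span k
        (Set.range fun p : ψ2.range × (Q.powerset : Finset (Finset ℕ)) =>
        (((p.1 : Aˣ) : A) * ∏ q ∈ (p.2 : Finset ℕ), u q)) := by
      intro g
      have h1 := hψmem g⁻¹
      have h3 : ρ ((g⁻¹ : H) : Γℚ) 0 0 = ρ g 1 1 := by
        rw [← hψA, map_inv, hψA']
      rwa [h3] at h1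
    rintro x (⟨g, rfl⟩ | ⟨v, hv, hvd, rfl⟩)
    · rw [Matrix.trace_fin_two]
      by_cases hg : FixK E.N g
      · exact Submodule.add_mem _ (hψmem ⟨g, (hmem g).2 hg⟩) (hψmem' ⟨g, (hmem g).2 hg⟩)
      · rw [h00 g hg, h11 g hg, add_zero]
        exact Submodule.zero_mem _
    · by_cases hvN : v ∣ E.N
      · -- an odd element of `D_P ∩ H`
        obtain ⟨P, hP⟩ := Frob.exists_liesOverPrime Qb hv
        obtain ⟨φ, hφ⟩ := Frob.exists_isFrobeniusAt P hv hP
        obtain ⟨τ, hτI, hτf⟩ := exists_mem_inertia_not_fixK hv hvN E.sqf hP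
        have hφd := ((Frob.isFrobeniusAt_iff P φ v).1 hφ).1
        have hτd := ((Frob.mem_inertiaSubgroupIn_iff P τ).1 hτI).1
        obtain ⟨f, hfd, hff, hfo⟩ : ∃ f ∈ P.decompositionSubgroup ℚ, FixK E.N f ∧
            ¬ IsEven v f := by
          by_cases hφf : FixK E.N φ
          · exact ⟨φ, hφd, hφf, not_isEven_frob hv hP hφ⟩
          · refine ⟨φ * τ, mul_mem hφd hτd, fixK_mul_of_not hφf hτf, ?_⟩
            rw [isEven_mul_iff (isEven_of_mem_inertia hv hP hτI)]
            exact not_isEven_frob hv hP hφ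
        have h1 := hstar' v hv hvd P hP f hfd hff
        rw [unr, if_neg hfo] at h1
        rw [← h1]
        exact hψmem ⟨f, (hmem f).2 hff⟩
      · have h1 : v ∣ ∏ q ∈ Q, q := (hv.dvd_mul.1 hvd).resolve_left hvN
        obtain ⟨q, hq, hvq⟩ := (Prime.dvd_finsetProd_iff hv.prime _).1 h1
        have hvq' : v = q :=
          ((hQ q hq).prime.eq_one_or_self_of_dvd v hvq).resolve_left hv.one_lt.ne'
        subst hvq'
        refine Submodule.subset_span ⟨⟨1, {v}, by
          rw [Finset.mem_powerset, Finset.singleton_subset_iff]; exact hq⟩, ?_⟩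
        simp
  · rw [hcard]
    exact Nat.mul_le_mul_left _ hbound

end Upper

end Fermat.Agent.TwoAdic
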