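import Mathlib

/-!
# Block C of the 2-adic route: characteristic two deformations of a dihedral representation

Abstract group theory: `ρ : G → GL₂(A)`, `A` local of characteristic two, residually dihedral with
respect to an index two subgroup `H`.  If the Selmer group vanishes, `ρ` is dihedral.
-/

set_option autoImplicit false
set_option linter.unusedSectionVars false

namespace Fermat.Agent.TwoAdic

open IsLocalRing

/-- The cocycles in the Selmer group: `β : H → k` (extended to `G` by junk values) is a cocycle for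
`χ²`, trivial on the elements of `In` (inertia groups outside the ramified set) and at the squares
of the elements of `Jn` (local groups at the ramified set) outside `H`. -/
structure IsSel {G : Type*} [Group G] (H : Subgroup G) {k : Type*} [Field k] (χ : G → k)
    (In : Set G) (Jn : Set G) (β : G → k) : Prop where
  mul : ∀ g ∈ H, ∀ h ∈ H, β (g * h) = β g + χ g ^ 2 * β h
  inertia : ∀ g ∈ In, g ∈ H → β g = 0
  sq : ∀ j ∈ Jn, j ∉ H → β (j * j) = 0

section

variable {G : Type*} [Group G] (H : Subgroup G) {A : Type*} [CommRing A] [IsLocalRing A]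
variable (ρ : G →* Matrix (Fin 2) (Fin 2) A)

/-- The data: `ρ` residually dihedral, normalised at `g₀`. -/
structure IsDih (χ : G → ResidueField A) (g₀ : G) : Prop where
  normal : H.Normal
  ex : ∃ j, j ∉ H
  mul_mem : ∀ g h, g ∉ H → h ∉ H → g * h ∈ H
  g₀_mem : g₀ ∈ H
  two : (2 : A) = 0
  ne : χ g₀ ^ 2 ≠ 1
  χ_ne : ∀ g ∈ H, χ g ≠ 0
  res00 : ∀ g ∈ H, residue A (ρ g 0 0) = χ g
  res11 : ∀ g ∈ H, residue A (ρ g 1 1) = (χ g)⁻¹
  res01 : ∀ g ∈ H, residue A (ρ g 0 1) = 0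
  res10 : ∀ g ∈ H, residue A (ρ g 1 0) = 0
  anti00 : ∀ g, g ∉ H → residue A (ρ g 0 0) = 0
  anti11 : ∀ g, g ∉ H → residue A (ρ g 1 1) = 0
  anti01 : ∀ g, g ∉ H → residue A (ρ g 0 1) ≠ 0
  anti10 : ∀ g, g ∉ H → residue A (ρ g 1 0) ≠ 0
  diag01 : ρ g₀ 0 1 = 0
  diag10 : ρ g₀ 1 0 = 0

variable {H ρ}

lemma mulApply (g h : G) (i j : Fin 2) :
    ρ (g * h) i j = ρ g i 0 * ρ h 0 j + ρ g i 1 * ρ h 1 j := by
  rw [map_mul, Matrix.mul_apply, Fin.sum_univ_two]

variable (H ρ) in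
/-- the reducibility ideal -/
def redIdeal : Ideal A := Ideal.span {x | ∃ g ∈ H, x = ρ g 0 1 ∨ x = ρ g 1 0}

lemma mem_redIdeal01 {g : G} (hg : g ∈ H) : ρ g 0 1 ∈ redIdeal H ρ :=
  Ideal.subset_span ⟨g, hg, Or.inl rfl⟩

lemma mem_redIdeal10 {g : G} (hg : g ∈ H) : ρ g 1 0 ∈ redIdeal H ρ :=
  Ideal.subset_span ⟨g, hg, Or.inr rfl⟩

namespace IsDih

variable {χ : G → ResidueField A} {g₀ : G} (D : IsDih H ρ χ g₀)

include D

lemma isUnit01 {g : G} (hg : g ∉ H) : IsUnit (ρ g 0 1) := by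
  by_contra h
  exact D.anti01 g hg ((residue_eq_zero_iff _).2 h)

lemma isUnit10 {g : G} (hg : g ∉ H) : IsUnit (ρ g 1 0) := by
  by_contra h
  exact D.anti10 g hg ((residue_eq_zero_iff _).2 h)

lemma conj_mem {g h : G} (hh : h ∈ H) : g * h * g⁻¹ ∈ H := D.normal.conj_mem h hh g

lemma conjApply (g h : G) (i j : Fin 2) :
    ρ g i 0 * ρ h 0 j + ρ g i 1 * ρ h 1 j =
      ρ (g * h * g⁻¹) i 0 * ρ g 0 j + ρ (g * h * g⁻¹) i 1 * ρ g 1 j := by
  rw [← mulApply (ρ := ρ) g h i j, ← mulApply (ρ := ρ) (g * h * g⁻¹) g i j, inv_mul_cancel_right]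

lemma χ_mul {g h : G} (hg : g ∈ H) (hh : h ∈ H) : χ (g * h) = χ g * χ h := by
  have h1 := congrArg (residue A) (mulApply (ρ := ρ) g h 0 0)
  rw [D.res00 _ (H.mul_mem hg hh)] at h1
  rw [h1, map_add, map_mul (residue A), map_mul (residue A), D.res00 g hg, D.res00 h hh,
    D.res01 g hg, zero_mul, add_zero]

lemma χ_conj {g h : G} (hg : g ∉ H) (hh : h ∈ H) : χ (g * h * g⁻¹) = (χ h)⁻¹ := by
  have h1 := congrArg (residue A) (D.conjApply g h 0 1)
  rw [map_add, map_mul (residue A), map_mul (residue A), map_add, map_mul (residue A),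
    map_mul (residue A), D.res00 _ (D.conj_mem hh),
    D.res11 h hh, D.res01 h hh, mul_zero, zero_add, D.anti11 g hg, mul_zero, add_zero] at h1
  rw [mul_comm] at h1
  exact (mul_right_cancel₀ (D.anti01 g hg) h1).symm

lemma χ_sub_ne : χ g₀ - (χ g₀)⁻¹ ≠ 0 := by
  intro h
  apply D.ne
  have h0 := D.χ_ne g₀ D.g₀_mem
  have h1 : χ g₀ = (χ g₀)⁻¹ := sub_eq_zero.1 h
  rw [sq]
  nth_rewrite 2 [h1]
  exact mul_inv_cancel₀ h0

lemma mem00 {g : G} (hg : g ∉ H) : ρ g 0 0 ∈ redIdeal H ρ := by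
  have h1 := D.conjApply g g₀ 0 0
  rw [D.diag10, mul_zero, add_zero] at h1
  have hu : IsUnit (ρ g₀ 0 0 - ρ (g * g₀ * g⁻¹) 0 0) := by
    by_contra h
    have h2 := (residue_eq_zero_iff _).2 h
    rw [map_sub, D.res00 _ D.g₀_mem, D.res00 _ (D.conj_mem D.g₀_mem), D.χ_conj hg D.g₀_mem] at h2
    exact D.χ_sub_ne h2
  have h2 : (ρ g₀ 0 0 - ρ (g * g₀ * g⁻¹) 0 0) * ρ g 0 0 = ρ g 1 0 * ρ (g * g₀ * g⁻¹) 0 1 := by
    linear_combination h1
  have h3 : (ρ g₀ 0 0 - ρ (g * g₀ * g⁻¹) 0 0) * ρ g 0 0 ∈ redIdeal H ρ := by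
    rw [h2]
    exact Ideal.mul_mem_left _ _ (mem_redIdeal01 (D.conj_mem D.g₀_mem))
  exact (Ideal.unit_mul_mem_iff_mem _ hu).1 h3

lemma mem11 {g : G} (hg : g ∉ H) : ρ g 1 1 ∈ redIdeal H ρ := by
  have h1 := D.conjApply g g₀ 1 1
  rw [D.diag01, mul_zero, zero_add] at h1
  have h4 : residue A (ρ (g * g₀ * g⁻¹) 1 1) = χ g₀ := by
    rw [D.res11 _ (D.conj_mem D.g₀_mem), D.χ_conj hg D.g₀_mem, inv_inv]
  have hu : IsUnit (ρ g₀ 1 1 - ρ (g * g₀ * g⁻¹) 1 1) := by
    by_contra h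
    have h2 := (residue_eq_zero_iff _).2 h
    rw [map_sub, D.res11 _ D.g₀_mem, h4] at h2
    exact D.χ_sub_ne (by rw [← neg_eq_zero, neg_sub]; exact h2)
  have h2 : (ρ g₀ 1 1 - ρ (g * g₀ * g⁻¹) 1 1) * ρ g 1 1 = ρ g 0 1 * ρ (g * g₀ * g⁻¹) 1 0 := by
    linear_combination h1
  have h3 : (ρ g₀ 1 1 - ρ (g * g₀ * g⁻¹) 1 1) * ρ g 1 1 ∈ redIdeal H ρ := by
    rw [h2]
    exact Ideal.mul_mem_left _ _ (mem_redIdeal10 (D.conj_mem D.g₀_mem))
  exact (Ideal.unit_mul_mem_iff_mem _ hu).1 h3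

end IsDih

open TensorProduct in
/-- a nonzero ideal of a Noetherian local ring has a nonzero functional to the residue field -/
lemma exists_functional_residue [IsNoetherianRing A] {J : Ideal A} (hJ : J ≠ ⊥) :
    ∃ f : J →ₗ[A] ResidueField A, ∃ x, f x ≠ 0 := by
  classical
  have h1 : ¬ Subsingleton (ResidueField A ⊗[A] J) := by
    rw [IsLocalRing.subsingleton_tensorProduct]
    rwa [Submodule.subsingleton_iff_eq_bot]
  have h2 : ∃ x : J, (1 : ResidueField A) ⊗ₜ[A] x ≠ 0 := by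
    by_contra hcon
    push Not at hcon
    apply h1
    refine ⟨fun a b => ?_⟩
    have h3 : ∀ c : ResidueField A ⊗[A] J, c = 0 := by
      intro c
      induction c using TensorProduct.induction_on with
      | zero => rfl
      | tmul r x =>
        have : r ⊗ₜ[A] x = r • ((1 : ResidueField A) ⊗ₜ[A] x) := by
          rw [TensorProduct.smul_tmul', smul_eq_mul, mul_one]
        rw [this, hcon, smul_zero]
      | add a b ha hb => rw [ha, hb, add_zero]
    rw [h3 a, h3 b]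
  obtain ⟨x, hx⟩ := h2
  obtain ⟨φ, hφ⟩ := Submodule.exists_le_ker_of_notMem (K := ResidueField A)
    (p := (⊥ : Submodule (ResidueField A) (ResidueField A ⊗[A] J))) (v := (1 : ResidueField A) ⊗ₜ[A] x)
    (by rwa [Submodule.mem_bot])
  refine ⟨(φ.restrictScalars A) ∘ₗ (TensorProduct.mk A (ResidueField A) J 1), x, ?_⟩
  exact hφ.1

namespace IsDih

variable {χ : G → ResidueField A} {g₀ : G} (D : IsDih H ρ χ g₀)

/-- the Selmer group vanishes at the level of `ρ` -/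
def SelZero (H : Subgroup G) (ρ : G →* Matrix (Fin 2) (Fin 2) A) (χ : G → ResidueField A)
    (In Jn : Set G) : Prop :=
  ∀ β : G → ResidueField A, IsSel H χ In Jn β → (∀ g u, ρ u = 1 → β (g * u) = β g) →
    ∃ t, ∀ g ∈ H, β g = t * (χ g ^ 2 - 1)

include D

lemma mul_mem_iff {g u : G} (hu : ρ u = 1) : g * u ∈ H ↔ g ∈ H := by
  have hu' : u ∈ H := by
    by_contra h
    apply D.anti01 u h
    rw [hu]; simp
  exact H.mul_mem_cancel_right hu'

theorem redIdeal_eq_bot [IsNoetherianRing A] {In Jn : Set G} (hSel : SelZero H ρ χ In Jn)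
    (hIn : ∀ g ∈ In, ρ g = 1) (hJn : ∀ j ∈ Jn, j ∉ H → (ρ j).trace = 0) :
    redIdeal H ρ = ⊥ := by
  classical
  by_contra hJ
  obtain ⟨f, x, hx⟩ := exists_functional_residue hJ
  -- extend to all of `A`
  have fsmul : ∀ (a y : A) (hy : y ∈ redIdeal H ρ) (hay : a * y ∈ redIdeal H ρ),
      f ⟨a * y, hay⟩ = residue A a * f ⟨y, hy⟩ := by
    intro a y hy hay
    have : (⟨a * y, hay⟩ : redIdeal H ρ) = a • ⟨y, hy⟩ := rfl
    rw [this, map_smul, Algebra.smul_def]; rfl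
  set F : A → ResidueField A := fun a => if h : a ∈ redIdeal H ρ then f ⟨a, h⟩ else 0 with hF
  have F_eq : ∀ (a : A) (h : a ∈ redIdeal H ρ), F a = f ⟨a, h⟩ := fun a h => by simp [hF, h]
  have F_mul : ∀ (a y : A), y ∈ redIdeal H ρ → F (a * y) = residue A a * F y := by
    intro a y hy
    rw [F_eq _ (Ideal.mul_mem_left _ a hy), F_eq _ hy, fsmul]
  have F_mul' : ∀ (y a : A), y ∈ redIdeal H ρ → F (y * a) = residue A a * F y := by
    intro y a hy
    rw [mul_comm, F_mul a y hy]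
  have F_add : ∀ (a b : A), a ∈ redIdeal H ρ → b ∈ redIdeal H ρ → F (a + b) = F a + F b := by
    intro a b ha hb
    rw [F_eq _ (Ideal.add_mem _ ha hb), F_eq _ ha, F_eq _ hb, ← map_add]; rfl
  have F0 : F 0 = 0 := by rw [F_eq 0 (Ideal.zero_mem _)]; exact map_zero f
  -- the cocycle
  set β : G → ResidueField A := fun g => if g ∈ H then χ g * F (ρ g 0 1) else 0 with hβ
  have β_eq : ∀ g ∈ H, β g = χ g * F (ρ g 0 1) := fun g hg => by simp [hβ, hg]
  have hβsel : IsSel H χ In Jn β := by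
    refine ⟨fun g hg h hh => ?_, fun g hg hgH => ?_, fun j hj hjH => ?_⟩
    · rw [β_eq _ (H.mul_mem hg hh), β_eq g hg, β_eq h hh, mulApply, F_add _ _
        (Ideal.mul_mem_left _ _ (mem_redIdeal01 hh)) (Ideal.mul_mem_right _ _ (mem_redIdeal01 hg)),
        F_mul _ _ (mem_redIdeal01 hh), F_mul' _ _ (mem_redIdeal01 hg), D.res00 g hg,
        D.res11 h hh, D.χ_mul hg hh]
      have := D.χ_ne h hh
      field_simp
      ring
    · rw [β_eq _ hgH, hIn g hg]; simp [F0]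
    · rw [β_eq _ (D.mul_mem j j hjH hjH), mulApply]
      have h1 : ρ j 0 0 * ρ j 0 1 + ρ j 0 1 * ρ j 1 1 = (ρ j).trace * ρ j 0 1 := by
        rw [Matrix.trace_fin_two]; ring
      rw [h1, hJn j hj hjH, zero_mul, F0, mul_zero]
  obtain ⟨t, ht⟩ := hSel β hβsel (by
    intro g u hu
    simp only [hβ, D.mul_mem_iff hu]
    split_ifs with hg
    · have h1 : ρ (g * u) = ρ g := by rw [map_mul, hu, mul_one]
      rw [h1, ← D.res00 g hg, ← D.res00 (g * u) ((D.mul_mem_iff hu).2 hg), h1]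
    · rfl)
  have ht0 : t = 0 := by
    have h1 := ht g₀ D.g₀_mem
    rw [β_eq _ D.g₀_mem, D.diag01, F0, mul_zero] at h1
    rcases mul_eq_zero.1 h1.symm with h | h
    · exact h
    · exact absurd (sub_eq_zero.1 h) D.ne
  have hB : ∀ g ∈ H, F (ρ g 0 1) = 0 := by
    intro g hg
    have h1 := ht g hg
    rw [β_eq g hg, ht0, zero_mul] at h1
    exact (mul_eq_zero.1 h1).resolve_left (D.χ_ne g hg)
  -- now `c`
  have hC : ∀ g ∈ H, F (ρ g 1 0) = 0 := by
    · obtain ⟨j, hj⟩ := D.ex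
      have key : ∀ g ∈ H, residue A (ρ j 0 1) * F (ρ g 1 0) =
          ((χ g)⁻¹ - χ g) * F (ρ j 0 0) := by
        intro g hg
        have h1 := D.conjApply j g 0 0
        have h2 : ρ j 0 1 * ρ g 1 0 + ρ j 0 0 * ρ g 0 0 =
            ρ (j * g * j⁻¹) 0 0 * ρ j 0 0 + ρ (j * g * j⁻¹) 0 1 * ρ j 1 0 := by
          rw [← h1]; ring
        have h3 := congrArg F h2
        rw [F_add _ _ (Ideal.mul_mem_left _ _ (mem_redIdeal10 hg))
          (Ideal.mul_mem_right _ _ (D.mem00 hj)), F_mul _ _ (mem_redIdeal10 hg),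
          F_mul' _ _ (D.mem00 hj), F_add _ _ (Ideal.mul_mem_left _ _ (D.mem00 hj))
          (Ideal.mul_mem_right _ _ (mem_redIdeal01 (D.conj_mem hg))), F_mul _ _ (D.mem00 hj),
          F_mul' _ _ (mem_redIdeal01 (D.conj_mem hg)), hB _ (D.conj_mem hg), mul_zero, add_zero,
          D.res00 g hg, D.res00 _ (D.conj_mem hg), D.χ_conj hj hg] at h3
        linear_combination h3
      have h4 := key g₀ D.g₀_mem
      rw [D.diag10, F0, mul_zero] at h4
      have h5 : F (ρ j 0 0) = 0 := by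
        rcases mul_eq_zero.1 h4.symm with h | h
        · exact absurd (by rw [← neg_eq_zero, neg_sub]; exact h) D.χ_sub_ne
        · exact h
      intro g hg
      have h6 := key g hg
      rw [h5, mul_zero] at h6
      exact (mul_eq_zero.1 h6).resolve_left (D.anti01 j hj)
  apply hx
  have h7 : ∀ (y : A) (hy : y ∈ redIdeal H ρ), f ⟨y, hy⟩ = 0 := by
    intro y hy
    induction hy using Submodule.span_induction with
    | mem z hz =>
      obtain ⟨g, hg, h | h⟩ := hz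
      · rw [← F_eq, h]; exact hB g hg
      · rw [← F_eq, h]; exact hC g hg
    | zero => exact map_zero f
    | add a b ha hb h1 h2 =>
      have : (⟨a + b, _⟩ : redIdeal H ρ) = ⟨a, ha⟩ + ⟨b, hb⟩ := rfl
      rw [this, map_add, h1, h2, add_zero]
    | smul a b hb h1 =>
      have : (⟨a • b, _⟩ : redIdeal H ρ) = a • ⟨b, hb⟩ := rfl
      rw [this, map_smul, h1, smul_zero]
  exact h7 x.1 x.2

theorem apply01 (h : redIdeal H ρ = ⊥) {g : G} (hg : g ∈ H) : ρ g 0 1 = 0 := by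
  have := mem_redIdeal01 (ρ := ρ) hg
  rwa [h, Ideal.mem_bot] at this

theorem apply10 (h : redIdeal H ρ = ⊥) {g : G} (hg : g ∈ H) : ρ g 1 0 = 0 := by
  have := mem_redIdeal10 (ρ := ρ) hg
  rwa [h, Ideal.mem_bot] at this

theorem apply00 (h : redIdeal H ρ = ⊥) {g : G} (hg : g ∉ H) : ρ g 0 0 = 0 := by
  have := D.mem00 hg
  rwa [h, Ideal.mem_bot] at this

theorem apply11 (h : redIdeal H ρ = ⊥) {g : G} (hg : g ∉ H) : ρ g 1 1 = 0 := by
  have := D.mem11 hg
  rwa [h, Ideal.mem_bot] at this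

/-- the Steinberg condition forces trace zero outside `H` -/
theorem trace_eq_zero_of_star {j : G} (hj : j ∉ H) {a : A} (ha : a ^ 2 = 1)
    (hdet : (ρ j).det = 1)
    (hstar : (ρ j - Matrix.scalar (Fin 2) a) * (ρ j - Matrix.scalar (Fin 2) a) = 0) :
    (ρ j).trace = 0 := by
  have h1 := congrFun (congrFun hstar 0) 1
  rw [Matrix.mul_apply, Fin.sum_univ_two] at h1
  simp only [Matrix.sub_apply, Matrix.scalar_apply, Matrix.diagonal_apply_eq,
    Matrix.diagonal_apply_ne _ (show (0 : Fin 2) ≠ 1 by decide), Matrix.zero_apply, sub_zero] at h1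
  have h2 : (ρ j).trace * ρ j 0 1 = 0 := by
    rw [Matrix.trace_fin_two]
    linear_combination h1 + a * ρ j 0 1 * D.two
  obtain ⟨u, hu⟩ := D.isUnit01 hj
  rw [← hu] at h2
  exact (Units.mul_left_eq_zero u).1 h2

/-- the Steinberg condition identifies the character on the local group -/
theorem apply00_of_star (hb : redIdeal H ρ = ⊥) {j h : G} (hj : j ∉ H) (hh : h ∈ H) {a a' : A}
    (hstar : (ρ j - Matrix.scalar (Fin 2) a) * (ρ h - Matrix.scalar (Fin 2) a') = 0) :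
    ρ h 0 0 = a' := by
  have h1 := congrFun (congrFun hstar 1) 0
  rw [Matrix.mul_apply, Fin.sum_univ_two] at h1
  simp only [Matrix.sub_apply, Matrix.scalar_apply, Matrix.diagonal_apply_eq,
    Matrix.diagonal_apply_ne _ (show (1 : Fin 2) ≠ 0 by decide), Matrix.zero_apply, sub_zero,
    D.apply10 hb hh, mul_zero, add_zero] at h1
  obtain ⟨u, hu⟩ := D.isUnit10 hj
  rw [← hu] at h1
  exact sub_eq_zero.1 ((Units.mul_right_eq_zero u).1 h1)

end IsDih

end

end Fermat.Agent.TwoAdic
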