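import Mathlib
import Fermat.Agent.TwoAdic.Dihedral

/-!
# Block B of the 2-adic route: algebra of the induced module `V = Ind χ²`

`G` a group, `H` of index two, `c ∉ H` an involution, `χ` a character of `H` with
`χ (c h c) = χ h⁻¹`.  A cocycle `β : H → k(χ²)` gives a cocycle `G → V = k × k`.
-/

set_option autoImplicit false
set_option linter.unusedSectionVars false

namespace Fermat.Agent.TwoAdic

/-- the data `(H, c, χ)` -/
structure ChiData (G : Type*) [Group G] (k : Type*) [Field k] where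
  H : Subgroup G
  c : G
  χ : G → k
  normal : H.Normal
  cc : c * c = 1
  c_notMem : c ∉ H
  mul_mem : ∀ {g h : G}, g ∉ H → h ∉ H → g * h ∈ H
  χ_ne : ∀ {g : G}, g ∈ H → χ g ≠ 0
  χ_mul : ∀ {g h : G}, g ∈ H → h ∈ H → χ (g * h) = χ g * χ h
  χ_conj : ∀ {h : G}, h ∈ H → χ (c * h * c) = (χ h)⁻¹

namespace ChiData

variable {G : Type*} [Group G] {k : Type*} [Field k] (D : ChiData G k)

lemma inv_c : D.c⁻¹ = D.c := inv_eq_of_mul_eq_one_left D.cc

lemma mul_notMem {g h : G} (hg : g ∈ D.H) (hh : h ∉ D.H) : g * h ∉ D.H := fun h' =>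
  hh ((D.H.mul_mem_cancel_left hg).1 h')

lemma mul_notMem' {g h : G} (hg : g ∉ D.H) (hh : h ∈ D.H) : g * h ∉ D.H := fun h' =>
  hg ((D.H.mul_mem_cancel_right hh).1 h')

lemma mul_c_mem {g : G} (hg : g ∉ D.H) : g * D.c ∈ D.H := D.mul_mem hg D.c_notMem

lemma c_mul_mem {g : G} (hg : g ∉ D.H) : D.c * g ∈ D.H := D.mul_mem D.c_notMem hg

lemma conj_c_mem {g : G} (hg : g ∈ D.H) : D.c * g * D.c ∈ D.H := by
  have := D.normal.conj_mem g hg D.c
  rwa [inv_c] at this

lemma χ_one : D.χ 1 = 1 := by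
  have h := D.χ_mul D.H.one_mem D.H.one_mem
  rw [one_mul] at h
  have h0 := D.χ_ne D.H.one_mem
  exact (mul_eq_left₀ h0).1 h.symm

lemma χ_inv {g : G} (hg : g ∈ D.H) : D.χ g⁻¹ = (D.χ g)⁻¹ := by
  have h := D.χ_mul hg (D.H.inv_mem hg)
  rw [mul_inv_cancel, χ_one] at h
  exact eq_inv_of_mul_eq_one_right h.symm

/-- `χ (c h) = χ (h c)⁻¹` for `h ∉ H` -/
lemma χ_c_mul {g : G} (hg : g ∉ D.H) : D.χ (D.c * g) = (D.χ (g * D.c))⁻¹ := by
  rw [← D.χ_conj (D.mul_c_mem hg)]
  congr 1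
  rw [mul_assoc D.c, mul_assoc g, D.cc, mul_one]

open Classical in
/-- the action of `G` on `V = k × k` -/
noncomputable def act (g : G) : k × k →+ k × k :=
  if g ∈ D.H then
    { toFun := fun v => (D.χ g ^ 2 * v.1, (D.χ g ^ 2)⁻¹ * v.2)
      map_zero' := by simp
      map_add' := fun a b => by ext <;> simp <;> ring }
  else
    { toFun := fun v => (D.χ (g * D.c) ^ 2 * v.2, (D.χ (g * D.c) ^ 2)⁻¹ * v.1)
      map_zero' := by simp
      map_add' := fun a b => by ext <;> simp <;> ring }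

lemma act_of_mem {g : G} (hg : g ∈ D.H) (v : k × k) :
    D.act g v = (D.χ g ^ 2 * v.1, (D.χ g ^ 2)⁻¹ * v.2) := by
  rw [act, if_pos hg]; rfl

lemma act_of_notMem {g : G} (hg : g ∉ D.H) (v : k × k) :
    D.act g v = (D.χ (g * D.c) ^ 2 * v.2, (D.χ (g * D.c) ^ 2)⁻¹ * v.1) := by
  rw [act, if_neg hg]; rfl

lemma act_mul (g h : G) (v : k × k) : D.act (g * h) v = D.act g (D.act h v) := by
  by_cases hg : g ∈ D.H <;> by_cases hh : h ∈ D.H
  · rw [D.act_of_mem (D.H.mul_mem hg hh), D.act_of_mem hg, D.act_of_mem hh, D.χ_mul hg hh]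
    ext <;> simp <;> ring
  · rw [D.act_of_notMem (D.mul_notMem hg hh), D.act_of_mem hg, D.act_of_notMem hh, mul_assoc g h,
      D.χ_mul hg (D.mul_c_mem hh)]
    ext <;> simp <;> ring
  · have h1 : g * h * D.c = (g * D.c) * (D.c * h * D.c) := by
      rw [mul_assoc g D.c, ← mul_assoc D.c, ← mul_assoc D.c, D.cc, one_mul, mul_assoc]
    rw [D.act_of_notMem (D.mul_notMem' hg hh), D.act_of_notMem hg, D.act_of_mem hh, h1,
      D.χ_mul (D.mul_c_mem hg) (D.conj_c_mem hh), D.χ_conj hh]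
    ext <;> simp [inv_pow, inv_inv, mul_pow, mul_inv] <;> ring
  · have h1 : g * h = (g * D.c) * (D.c * h) := by
      rw [mul_assoc g D.c, ← mul_assoc D.c, D.cc, one_mul]
    rw [D.act_of_mem (D.mul_mem hg hh), D.act_of_notMem hg, D.act_of_notMem hh, h1,
      D.χ_mul (D.mul_c_mem hg) (D.c_mul_mem hh), D.χ_c_mul hh]
    ext <;> simp [inv_pow, inv_inv, mul_pow, mul_inv] <;> ring

lemma act_one (v : k × k) : D.act 1 v = v := by
  rw [D.act_of_mem D.H.one_mem, χ_one]; simp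

/-- the symplectic (= symmetric in characteristic two) form -/
def pair (v w : k × k) : k := v.1 * w.2 + v.2 * w.1

lemma pair_add_left (v v' w : k × k) : pair (v + v') w = pair v w + pair v' w := by
  simp only [pair, Prod.fst_add, Prod.snd_add]; ring

lemma pair_add_right (v w w' : k × k) : pair v (w + w') = pair v w + pair v w' := by
  simp only [pair, Prod.fst_add, Prod.snd_add]; ring

lemma pair_act (g : G) (v w : k × k) : pair (D.act g v) (D.act g w) = pair v w := by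
  by_cases hg : g ∈ D.H
  · rw [D.act_of_mem hg, D.act_of_mem hg]
    have := D.χ_ne hg
    simp only [pair]
    field_simp
  · rw [D.act_of_notMem hg, D.act_of_notMem hg]
    have := D.χ_ne (D.mul_c_mem hg)
    simp only [pair]
    field_simp
    ring

lemma act_smul (g : G) (t : k) (v : k × k) : D.act g (t • v) = t • D.act g v := by
  by_cases hg : g ∈ D.H
  · rw [D.act_of_mem hg, D.act_of_mem hg]
    ext <;> simp <;> ring
  · rw [D.act_of_notMem hg, D.act_of_notMem hg]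
    ext <;> simp <;> ring

variable {D}

variable (D) in
/-- cocycles of `H` with values in `k(χ²)` -/
def IsCoc (β : G → k) : Prop := ∀ g ∈ D.H, ∀ h ∈ D.H, β (g * h) = β g + D.χ g ^ 2 * β h

variable (D) in
open Classical in
/-- auxiliary extension of `β` to `G` -/
noncomputable def ext1 (β : G → k) (g : G) : k := if g ∈ D.H then β g else β (g * D.c)

variable (D) in
/-- the `V`-valued cocycle -/
noncomputable def coc (β : G → k) (g : G) : k × k := (ext1 D β g, ext1 D β (D.c * g))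

lemma coc_of_mem {β : G → k} {g : G} (hg : g ∈ D.H) : coc D β g = (β g, β (D.c * g * D.c)) := by
  have h1 : D.c * g ∉ D.H := D.mul_notMem' D.c_notMem hg
  rw [coc, ext1, ext1, if_pos hg, if_neg h1]

lemma coc_of_notMem {β : G → k} {g : G} (hg : g ∉ D.H) : coc D β g = (β (g * D.c), β (D.c * g)) := by
  rw [coc, ext1, ext1, if_neg hg, if_pos (D.c_mul_mem hg)]

theorem coc_mul {β : G → k} (hβ : D.IsCoc β) (g h : G) :
    coc D β (g * h) = coc D β g + D.act g (coc D β h) := by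
  by_cases hg : g ∈ D.H <;> by_cases hh : h ∈ D.H
  · have h1 : D.c * (g * h) * D.c = (D.c * g * D.c) * (D.c * h * D.c) := by
      simp only [mul_assoc]; rw [← mul_assoc D.c D.c, D.cc, one_mul]
    rw [coc_of_mem (D.H.mul_mem hg hh), coc_of_mem hg, coc_of_mem hh, D.act_of_mem hg, h1,
      hβ _ hg _ hh, hβ _ (D.conj_c_mem hg) _ (D.conj_c_mem hh), D.χ_conj hg]
    ext <;> simp
  · have h1 : g * h * D.c = g * (h * D.c) := mul_assoc _ _ _
    have h2 : D.c * (g * h) = (D.c * g * D.c) * (D.c * h) := by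
      simp only [mul_assoc]; rw [← mul_assoc D.c D.c, D.cc, one_mul]
    rw [coc_of_notMem (D.mul_notMem hg hh), coc_of_mem hg, coc_of_notMem hh, D.act_of_mem hg, h1,
      h2, hβ _ hg _ (D.mul_c_mem hh), hβ _ (D.conj_c_mem hg) _ (D.c_mul_mem hh), D.χ_conj hg]
    ext <;> simp
  · have h1 : g * h * D.c = (g * D.c) * (D.c * h * D.c) := by
      simp only [mul_assoc]; rw [← mul_assoc D.c D.c, D.cc, one_mul]
    have h2 : D.c * (g * h) = (D.c * g) * h := (mul_assoc _ _ _).symm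
    rw [coc_of_notMem (D.mul_notMem' hg hh), coc_of_notMem hg, coc_of_mem hh, D.act_of_notMem hg,
      h1, h2, hβ _ (D.mul_c_mem hg) _ (D.conj_c_mem hh), hβ _ (D.c_mul_mem hg) _ hh, D.χ_c_mul hg]
    ext <;> simp
  · have h1 : g * h = (g * D.c) * (D.c * h) := by
      simp only [mul_assoc]; rw [← mul_assoc D.c D.c, D.cc, one_mul]
    have h2 : D.c * (g * h) * D.c = (D.c * g) * (h * D.c) := by
      simp only [mul_assoc]
    rw [coc_of_mem (D.mul_mem hg hh), coc_of_notMem hg, coc_of_notMem hh, D.act_of_notMem hg,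
      h2, hβ _ (D.c_mul_mem hg) _ (D.mul_c_mem hh), D.χ_c_mul hg]
    rw [show β (g * h) = β (g * D.c) + D.χ (g * D.c) ^ 2 * β (D.c * h) by
      rw [h1, hβ _ (D.mul_c_mem hg) _ (D.c_mul_mem hh)]]
    ext <;> simp

lemma coc_c {β : G → k} (hβ : D.IsCoc β) : coc D β D.c = 0 := by
  have h1 : β 1 = 0 := by
    have := hβ 1 D.H.one_mem 1 D.H.one_mem
    rw [one_mul, χ_one, one_pow, one_mul] at this
    exact left_eq_add.1 this
  rw [coc_of_notMem D.c_notMem, D.cc, h1]; rfl

/-- the cup product -/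
noncomputable def cupV (lam : k → ZMod 2) (b b' : G → k × k) (act : G → k × k →+ k × k) (g h : G) :
    ZMod 2 := lam (pair (b g) (act g (b' h)))

lemma cupV_cocycle (lam : k →+ ZMod 2) {b b' : G → k × k}
    (hb : ∀ g h, b (g * h) = b g + D.act g (b h)) (hb' : ∀ g h, b' (g * h) = b' g + D.act g (b' h))
    (g h j : G) : cupV lam b b' D.act (g * h) j + cupV lam b b' D.act g h =
      cupV lam b b' D.act h j + cupV lam b b' D.act g (h * j) := by
  simp only [cupV]
  rw [hb, hb', D.act_mul, map_add, pair_add_left, pair_add_right, pair_act, map_add, map_add]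
  abel

variable [CharP k 2]

lemma add_self (x : k) : x + x = 0 := CharTwo.add_self_eq_zero x

/-- the invariant line of a local group not contained in `H` -/
theorem exists_line {β : G → k} (hβ : D.IsCoc β) {P : Subgroup G} {j : G} (hj : j ∈ P)
    (hjH : j ∉ D.H) (hχ : ∀ g ∈ P, g ∈ D.H → D.χ g = 1)
    (hsq : ∀ g ∈ P, g ∉ D.H → β (g * g) = 0 ∧ β (D.c * (g * g) * D.c) = 0) :
    ∀ g ∈ P, ∃ y : k, coc D β g = y • ((D.χ (j * D.c) ^ 2, 1) : k × k) := by
  have h1 : ∀ g ∈ P, g ∉ D.H → ∃ y : k, coc D β g = y • ((D.χ (g * D.c) ^ 2, 1) : k × k) := by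
    intro g hg hgH
    have h2 := coc_mul hβ g g
    rw [coc_of_mem (D.mul_mem hgH hgH), (hsq g hg hgH).1, (hsq g hg hgH).2,
      D.act_of_notMem hgH] at h2
    refine ⟨(coc D β g).2, ?_⟩
    have h3 := congrArg Prod.fst h2
    simp only [Prod.fst_add] at h3
    ext
    · simp only [Prod.smul_fst, smul_eq_mul]
      have h4 : (coc D β g).1 = D.χ (g * D.c) ^ 2 * (coc D β g).2 := by
        rw [← sub_eq_zero, CharTwo.sub_eq_add, ← h3]
      rw [h4]; ring
    · simp
  have hχ' : ∀ g ∈ P, g ∉ D.H → D.χ (g * D.c) = D.χ (j * D.c) := by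
    intro g hg hgH
    have h2 : g * D.c = (g * j⁻¹) * (j * D.c) := by group
    have h3 : g * j⁻¹ ∈ D.H := D.mul_mem hgH fun h => hjH (by simpa using D.H.inv_mem h)
    rw [h2, D.χ_mul h3 (D.mul_c_mem hjH), hχ _ (P.mul_mem hg (P.inv_mem hj)) h3, one_mul]
  intro g hg
  by_cases hgH : g ∈ D.H
  · obtain ⟨y, hy⟩ := h1 (j * g) (P.mul_mem hj hg) (D.mul_notMem' hjH hgH)
    obtain ⟨y', hy'⟩ := h1 j hj hjH
    rw [hχ' _ (P.mul_mem hj hg) (D.mul_notMem' hjH hgH), coc_mul hβ, hy'] at hy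
    have h5 : D.act j (coc D β g) = (y - y') • ((D.χ (j * D.c) ^ 2, 1) : k × k) := by
      rw [sub_smul, ← hy]; abel
    have h6 : D.act j ((D.χ (j * D.c) ^ 2, 1) : k × k) = (D.χ (j * D.c) ^ 2, 1) := by
      rw [D.act_of_notMem hjH]
      have := D.χ_ne (D.mul_c_mem hjH)
      ext <;> simp [this]
    refine ⟨y - y', ?_⟩
    have h7 : D.act j (coc D β g) = D.act j ((y - y') • ((D.χ (j * D.c) ^ 2, 1) : k × k)) := by
      rw [h5, D.act_smul, h6]
    have h8 := congrArg (D.act j⁻¹) h7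
    rwa [← D.act_mul, ← D.act_mul, inv_mul_cancel, D.act_one, D.act_one] at h8
  · obtain ⟨y, hy⟩ := h1 g hg hgH
    exact ⟨y, by rw [hy, hχ' g hg hgH]⟩

end ChiData

end Fermat.Agent.TwoAdic
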