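import Fermat.Agent.TwoAdic.SelBasic
import Fermat.Agent.TwoAdic.SelAlg

/-!
# Block C of the 2-adic route: the vanishing of the Selmer group makes `ρ` dihedral
-/

set_option autoImplicit false
set_option linter.unusedSectionVars false

open IsLocalRing

namespace Fermat.Agent.TwoAdic

open Matrix
open scoped Pointwise

local notation "M₂" => Matrix (Fin 2) (Fin 2)
local notation "Qb" => AlgebraicClosure ℚ
local notation "Γℚ" => (AlgebraicClosure ℚ ≃ₐ[ℚ] AlgebraicClosure ℚ)

namespace EData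

variable (E : EData)

/-- `G_K` -/
def HK : Subgroup Γℚ where
  carrier := {g | FixK E.N g}
  one_mem' := fun _ _ => rfl
  mul_mem' := fun {g h} hg hh x hx => by
    change g (h x) = x
    rw [hh x hx, hg x hx]
  inv_mem' := fun {g} hg x hx => by
    conv_lhs => rw [← hg x hx]
    exact AlgEquiv.symm_apply_apply g x

lemma mem_HK {g : Γℚ} : g ∈ E.HK ↔ FixK E.N g := Iff.rfl

lemma det_rb_eq_one (g : Γℚ) : (E.rb g).det = 1 := by
  have h1 := E.isUnit_det_rb g
  revert h1
  generalize (E.rb g).det = x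
  revert x
  decide

lemma mul_mem_HK {g h : Γℚ} (hg : g ∉ E.HK) (hh : h ∉ E.HK) : g * h ∈ E.HK := by
  rw [mem_HK, E.fixK_iff] at *
  rw [map_mul]
  have h1 := E.det_rb_eq_one g
  have h2 := E.det_rb_eq_one h
  generalize E.rb g = M at *
  generalize E.rb h = M' at *
  revert M M'
  decide

lemma HK_normal : E.HK.Normal := ⟨fun n hn g => by
  rw [mem_HK, E.fixK_conj]; exact hn⟩

lemma complexConjugation_notMem : complexConjugation ∉ E.HK := by
  intro h
  have hN : (0 : ℝ) < E.N := by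
    have := E.two_lt
    exact_mod_cast (by omega : 0 < E.N)
  obtain ⟨x, hx⟩ := IsAlgClosed.exists_pow_nat_eq (-(E.N : Qb)) two_pos
  have h1 : x ∈ KN E.N := IntermediateField.subset_adjoin ℚ _ hx
  have h2 := h x h1
  have h3 := complexEmbedding_complexConjugation x
  rw [h2] at h3
  have h5 := Complex.conj_eq_iff_im.1 h3.symm
  have h4 : (complexEmbedding x) ^ 2 = -(E.N : ℂ) := by
    rw [← map_pow, hx, map_neg, map_natCast]
  have h6 := congrArg Complex.re h4
  rw [pow_two, Complex.mul_re, h5, mul_zero, sub_zero, Complex.neg_re, Complex.natCast_re] at h6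
  nlinarith [mul_self_nonneg (complexEmbedding x).re]

end EData

/-- matrices of `GL₂(𝔽₂)` -/
lemma m2_cases (M R : M₂ (ZMod 2)) (hM : M.det = 1) (hR : R.det = 1) (hRt : R.trace = 1)
    (h : M = 1 ∨ M.trace = 1) : M = 1 ∨ M = R ∨ M = R * R := by
  revert M R
  decide

section

variable {E : EData} {A : Type} [CommRing A] [IsLocalRing A] {ρ : Γℚ →* M₂ A} {g₀ : Γℚ}

/-- the hypotheses on `ρ` which come from the residual representation -/
structure ResHyp (E : EData) (ρ : Γℚ →* M₂ A) (g₀ : Γℚ) : Prop where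
  two : (2 : A) = 0
  det : ∀ g, (ρ g).det = 1
  tr : ∀ g, (ρ g).trace - (((PadicInt.toZMod (p := 2) (E.ρ g).trace).val : ℕ) : A) ∈
      maximalIdeal A
  g₀_mem : FixK E.N g₀
  g₀_tr : PadicInt.toZMod (p := 2) (E.ρ g₀).trace = 1
  d01 : ρ g₀ 0 1 = 0
  d10 : ρ g₀ 1 0 = 0
  ω : (residue A (ρ g₀ 0 0)) ^ 2 + residue A (ρ g₀ 0 0) + 1 = 0

namespace ResHyp

variable (D : ResHyp E ρ g₀)

include D

lemma two' : (2 : ResidueField A) = 0 := by
  have := congrArg (residue A) D.two
  rwa [map_ofNat, map_zero] at this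

lemma charP : CharP (ResidueField A) 2 := by
  rw [CharP.charP_iff_prime_eq_zero Nat.prime_two]
  exact_mod_cast D.two'

lemma charP_A : CharP A 2 := by
  rw [CharP.charP_iff_prime_eq_zero Nat.prime_two]
  exact_mod_cast D.two

/-- the embedding of `𝔽₂` -/
noncomputable def ι : ZMod 2 →+* ResidueField A :=
  haveI := D.charP
  ZMod.castHom (dvd_refl 2) (ResidueField A)

lemma tr' (g : Γℚ) : residue A (ρ g 0 0) + residue A (ρ g 1 1) = D.ι (E.rb g).trace := by
  have h1 := (residue_eq_zero_iff _).2 (D.tr g)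
  rw [map_sub, map_natCast, Matrix.trace_fin_two, map_add] at h1
  rw [sub_eq_zero.1 h1, E.trace_rb]
  have := D.charP
  rw [ZMod.natCast_val]
  rfl

/-- the eigenvalue -/
noncomputable def w : ResidueField A := residue A (ρ g₀ 0 0)

lemma det' (g : Γℚ) : residue A (ρ g 0 0) * residue A (ρ g 1 1) -
    residue A (ρ g 0 1) * residue A (ρ g 1 0) = 1 := by
  have := congrArg (residue A) (D.det g)
  rwa [Matrix.det_fin_two, map_sub, map_mul, map_mul, map_one] at this

lemma w_sq : residue A (ρ g₀ 0 0) ^ 2 = residue A (ρ g₀ 0 0) + 1 := by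
  linear_combination D.ω - (residue A (ρ g₀ 0 0) + 1) * D.two'

lemma w_ne : residue A (ρ g₀ 0 0) ≠ 0 := by
  intro h
  have := D.ω
  rw [h] at this
  norm_num at this

lemma w11 : residue A (ρ g₀ 1 1) = residue A (ρ g₀ 0 0) + 1 := by
  have h1 := D.det' g₀
  rw [D.d01, map_zero, zero_mul, sub_zero] at h1
  have h2 := D.w_sq
  apply mul_left_cancel₀ D.w_ne
  rw [h1]
  linear_combination -h2 - residue A (ρ g₀ 0 0) * D.two' - D.two' + D.two'

lemma tr'' (g : Γℚ) : residue A (ρ g 0 0) * residue A (ρ g₀ 0 0) +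
    residue A (ρ g 1 1) * (residue A (ρ g₀ 0 0) + 1) = D.ι (E.rb g * E.rb g₀).trace := by
  have h1 := D.tr' (g * g₀)
  rw [mulApply, mulApply, D.d01, D.d10, mul_zero, mul_zero, add_zero, zero_add,
    map_mul (residue A), map_mul (residue A), D.w11, map_mul E.rb] at h1
  exact h1

lemma e00 (g : Γℚ) : residue A (ρ g 0 0) = D.ι (E.rb g * E.rb g₀).trace +
    D.ι (E.rb g).trace * (residue A (ρ g₀ 0 0) + 1) := by
  have h1 := D.tr' g
  have h2 := D.tr'' g
  rw [← h1, ← h2]
  linear_combination -(residue A (ρ g 0 0) * residue A (ρ g₀ 0 0) +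
    residue A (ρ g 1 1) * (residue A (ρ g₀ 0 0) + 1)) * D.two'

lemma e11 (g : Γℚ) : residue A (ρ g 1 1) = D.ι (E.rb g * E.rb g₀).trace +
    D.ι (E.rb g).trace * residue A (ρ g₀ 0 0) := by
  have h1 := D.tr' g
  have h2 := D.tr'' g
  rw [← h1, ← h2]
  linear_combination -(residue A (ρ g 0 0) * residue A (ρ g₀ 0 0) +
    residue A (ρ g 1 1) * residue A (ρ g₀ 0 0)) * D.two'

lemma rb_g₀ : (E.rb g₀).det = 1 ∧ (E.rb g₀).trace = 1 :=
  ⟨E.det_rb_eq_one g₀, by rw [E.trace_rb]; exact D.g₀_tr⟩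

lemma notMem_trace {g : Γℚ} (hg : g ∉ E.HK) : (E.rb g).trace = 0 := by
  rw [EData.mem_HK, E.fixK_iff] at hg
  push Not at hg
  obtain ⟨-, h⟩ := hg
  revert h
  generalize (E.rb g).trace = x
  revert x
  decide

lemma anti {g : Γℚ} (hg : g ∉ E.HK) :
    residue A (ρ g 0 0) = 0 ∧ residue A (ρ g 1 1) = 0 := by
  have h1 := D.notMem_trace hg
  have h2 : g * g₀ ∉ E.HK := fun h => hg ((E.HK.mul_mem_cancel_right D.g₀_mem).1 h)
  have h3 := D.notMem_trace h2
  rw [map_mul] at h3
  rw [D.e00, D.e11, h1, h3, map_zero]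
  simp

lemma anti' {g : Γℚ} (hg : g ∉ E.HK) :
    residue A (ρ g 0 1) ≠ 0 ∧ residue A (ρ g 1 0) ≠ 0 := by
  have h1 := D.det' g
  rw [(D.anti hg).1, zero_mul, zero_sub] at h1
  constructor
  · rintro h
    rw [h, zero_mul, neg_zero] at h1
    exact zero_ne_one h1
  · rintro h
    rw [h, mul_zero, neg_zero] at h1
    exact zero_ne_one h1

lemma cases {g : Γℚ} (hg : g ∈ E.HK) :
    E.rb g = 1 ∨ E.rb g = E.rb g₀ ∨ E.rb g = E.rb g₀ * E.rb g₀ :=
  m2_cases _ _ (E.det_rb_eq_one g) D.rb_g₀.1 D.rb_g₀.2 ((E.fixK_iff g).1 hg)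

lemma res_of_one {g : Γℚ} (hg : E.rb g = 1) :
    residue A (ρ g 0 0) = 1 ∧ residue A (ρ g 1 1) = 1 := by
  have h0 : (1 : M₂ (ZMod 2)).trace = 0 := by decide
  rw [D.e00, D.e11, hg, one_mul, D.rb_g₀.2, h0, map_zero, map_one]
  simp

lemma res_of_g₀ {g : Γℚ} (hg : E.rb g = E.rb g₀) :
    residue A (ρ g 0 0) = residue A (ρ g₀ 0 0) ∧
      residue A (ρ g 1 1) = residue A (ρ g₀ 0 0) + 1 := by
  have h0 : (E.rb g₀ * E.rb g₀).trace = 1 := by
    have h1 := D.rb_g₀
    revert h1
    generalize E.rb g₀ = M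
    revert M
    decide
  rw [D.e00 g, D.e11 g, hg, D.rb_g₀.2, h0, map_one]
  constructor
  · linear_combination D.two'
  · ring

lemma res_of_g₀' {g : Γℚ} (hg : E.rb g = E.rb g₀ * E.rb g₀) :
    residue A (ρ g 0 0) = residue A (ρ g₀ 0 0) + 1 ∧
      residue A (ρ g 1 1) = residue A (ρ g₀ 0 0) := by
  have h0 : (E.rb g₀ * E.rb g₀).trace = 1 := by
    have h1 := D.rb_g₀
    revert h1
    generalize E.rb g₀ = M
    revert M
    decide
  have h2 : (E.rb g₀ * E.rb g₀ * E.rb g₀).trace = 0 := by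
    have h1 := D.rb_g₀
    revert h1
    generalize E.rb g₀ = M
    revert M
    decide
  rw [D.e00 g, D.e11 g, hg, h0, h2, map_one, map_zero]
  constructor
  · ring
  · ring

lemma res_mul {g : Γℚ} (hg : g ∈ E.HK) : residue A (ρ g 0 0) * residue A (ρ g 1 1) = 1 := by
  have h2 := D.w_sq
  rcases D.cases hg with h | h | h
  · rw [(D.res_of_one h).1, (D.res_of_one h).2, mul_one]
  · rw [(D.res_of_g₀ h).1, (D.res_of_g₀ h).2]
    linear_combination h2 + residue A (ρ g₀ 0 0) * D.two'
  · rw [(D.res_of_g₀' h).1, (D.res_of_g₀' h).2]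
    linear_combination h2 + residue A (ρ g₀ 0 0) * D.two'

lemma off {g j : Γℚ} (hg : g ∈ E.HK) (hj : j ∉ E.HK) :
    residue A (ρ g 0 1) = 0 ∧ residue A (ρ g 1 0) = 0 := by
  have hgj : g * j ∉ E.HK := fun h => hj ((E.HK.mul_mem_cancel_left hg).1 h)
  have h1 := (D.anti hgj).1
  have h2 := (D.anti hgj).2
  rw [mulApply, map_add, map_mul, map_mul, (D.anti hj).1, mul_zero, zero_add] at h1
  rw [mulApply, map_add, map_mul, map_mul, (D.anti hj).2, mul_zero, add_zero] at h2
  exact ⟨(mul_eq_zero.1 h1).resolve_right (D.anti' hj).2,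
    (mul_eq_zero.1 h2).resolve_right (D.anti' hj).1⟩

theorem isDih : IsDih E.HK ρ (fun g => residue A (ρ g 0 0)) g₀ where
  normal := E.HK_normal
  ex := ⟨_, E.complexConjugation_notMem⟩
  mul_mem := fun g h hg hh => E.mul_mem_HK hg hh
  g₀_mem := D.g₀_mem
  two := D.two
  ne := by
    rw [D.w_sq]
    intro h
    exact D.w_ne (by linear_combination h)
  χ_ne := fun g hg h => by
    have := D.res_mul hg
    rw [h, zero_mul] at this
    exact zero_ne_one this
  res00 := fun g hg => rfl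
  res11 := fun g hg => eq_inv_of_mul_eq_one_right (D.res_mul hg)
  res01 := fun g hg => (D.off hg E.complexConjugation_notMem).1
  res10 := fun g hg => (D.off hg E.complexConjugation_notMem).2
  anti00 := fun g hg => (D.anti hg).1
  anti11 := fun g hg => (D.anti hg).2
  anti01 := fun g hg => (D.anti' hg).1
  anti10 := fun g hg => (D.anti' hg).2
  diag01 := D.d01
  diag10 := D.d10

/-- the data for the induced module -/
noncomputable def chi : ChiData Γℚ (ResidueField A) where
  H := E.HK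
  c := complexConjugation
  χ := fun g => residue A (ρ g 0 0)
  normal := E.HK_normal
  cc := complexConjugation_mul_self
  c_notMem := E.complexConjugation_notMem
  mul_mem := fun hg hh => E.mul_mem_HK hg hh
  χ_ne := fun hg => D.isDih.χ_ne _ hg
  χ_mul := fun hg hh => D.isDih.χ_mul hg hh
  χ_conj := fun hh => by
    have := D.isDih.χ_conj E.complexConjugation_notMem hh
    rwa [complexConjugation_inv] at this

/-- `E[2] ⊗ F` -/
noncomputable def Eb : Γℚ →* M₂ (ResidueField A) :=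
  ((D.ι).mapMatrix : M₂ (ZMod 2) →+* M₂ (ResidueField A)).toMonoidHom.comp E.rb

lemma Eb_apply (g : Γℚ) : D.Eb g = (E.rb g).map D.ι := rfl

/-- an eigenvector of `Eb g₀` -/
noncomputable def ev : Fin 2 → ResidueField A :=
  ![D.ι (E.rb g₀ 0 0) + residue A (ρ g₀ 0 0), D.ι (E.rb g₀ 1 0)]

lemma ev_ne : D.ev ≠ 0 := by
  intro h
  have h1 : D.ι (E.rb g₀ 1 0) = 0 := congrFun h 1
  have h2 : E.rb g₀ 1 0 = 1 := by
    have h1 := D.rb_g₀
    revert h1
    generalize E.rb g₀ = M
    revert M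
    decide
  rw [h2, map_one] at h1
  exact one_ne_zero h1

lemma Eb_g₀_ev : D.Eb g₀ *ᵥ D.ev = (residue A (ρ g₀ 0 0) ^ 2) • D.ev := by
  have h1 : ∀ M : M₂ (ZMod 2), (M.det = 1 ∧ M.trace = 1) →
      M = !![0, 1; 1, 1] ∨ M = !![1, 1; 1, 0] := by decide
  have h2 := D.w_sq
  have h3 := D.two'
  rcases h1 _ D.rb_g₀ with h | h
  · ext i
    fin_cases i
    · simp [Eb_apply, ev, h, Matrix.mulVec, dotProduct, Fin.sum_univ_two]
      linear_combination (-residue A (ρ g₀ 0 0) - 1) * h2 -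
        residue A (ρ g₀ 0 0) * h3
    · simp [Eb_apply, ev, h, Matrix.mulVec, dotProduct, Fin.sum_univ_two]
      linear_combination - h2
  · ext i
    fin_cases i
    · simp [Eb_apply, ev, h, Matrix.mulVec, dotProduct, Fin.sum_univ_two]
      linear_combination (-residue A (ρ g₀ 0 0) - 2) * h2 -
        residue A (ρ g₀ 0 0) * h3
    · simp [Eb_apply, ev, h, Matrix.mulVec, dotProduct, Fin.sum_univ_two]
      linear_combination - h2

lemma Eb_ev {g : Γℚ} (hg : g ∈ E.HK) : D.Eb g *ᵥ D.ev = (residue A (ρ g 0 0) ^ 2) • D.ev := by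
  have h2 := D.w_sq
  rcases D.cases hg with h | h | h
  · rw [(D.res_of_one h).1, Eb_apply, h, Matrix.map_one _ (map_zero _) (map_one _), one_mulVec,
      one_pow, one_smul]
  · rw [(D.res_of_g₀ h).1, ← D.Eb_g₀_ev, Eb_apply, Eb_apply, h]
  · have h3 : D.Eb g = D.Eb g₀ * D.Eb g₀ := by
      rw [Eb_apply, Eb_apply, h, Matrix.map_mul]
    rw [(D.res_of_g₀' h).1, h3, ← mulVec_mulVec, D.Eb_g₀_ev, mulVec_smul, D.Eb_g₀_ev, smul_smul]
    congr 1
    linear_combination (residue A (ρ g₀ 0 0) ^ 2 + residue A (ρ g₀ 0 0) + 1) * h2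

lemma Eb_mul_inv (g : Γℚ) : D.Eb g * D.Eb g⁻¹ = 1 := by
  rw [← map_mul, mul_inv_cancel, map_one]

/-- the other eigenvector -/
noncomputable def ev' : Fin 2 → ResidueField A := D.Eb complexConjugation *ᵥ D.ev

lemma Eb_c_ev' : D.Eb complexConjugation *ᵥ D.ev' = D.ev := by
  rw [ev', mulVec_mulVec, ← map_mul, complexConjugation_mul_self, map_one, one_mulVec]

lemma Eb_ev' {g : Γℚ} (hg : g ∈ E.HK) :
    D.Eb g *ᵥ D.ev' = (residue A (ρ g 0 0) ^ 2)⁻¹ • D.ev' := by
  have h1 : g * complexConjugation =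
      complexConjugation * (complexConjugation * g * complexConjugation) := by
    rw [← mul_assoc, ← mul_assoc, complexConjugation_mul_self, one_mul]
  have h3 : complexConjugation * g * complexConjugation ∈ E.HK := D.chi.conj_c_mem hg
  rw [ev', mulVec_mulVec, ← map_mul, h1, map_mul, ← mulVec_mulVec, D.Eb_ev h3, mulVec_smul]
  congr 1
  have h2 : residue A (ρ (complexConjugation * g * complexConjugation) 0 0) =
      (residue A (ρ g 0 0))⁻¹ := D.chi.χ_conj hg
  rw [h2, inv_pow]

/-- the intertwiner -/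
noncomputable def intw (v : ResidueField A × ResidueField A) : Fin 2 → ResidueField A :=
  v.1 • D.ev + v.2 • D.ev'

lemma intw_add (v v' : ResidueField A × ResidueField A) : D.intw (v + v') = D.intw v + D.intw v' := by
  simp only [intw, Prod.fst_add, Prod.snd_add, add_smul]
  abel

lemma intw_act (g : Γℚ) (v : ResidueField A × ResidueField A) :
    D.intw (D.chi.act g v) = D.Eb g *ᵥ D.intw v := by
  by_cases hg : g ∈ E.HK
  · rw [D.chi.act_of_mem hg, intw, intw, mulVec_add, mulVec_smul, mulVec_smul, D.Eb_ev hg,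
      D.Eb_ev' hg, smul_smul, smul_smul]
    change (residue A (ρ g 0 0) ^ 2 * v.1) • D.ev + ((residue A (ρ g 0 0) ^ 2)⁻¹ * v.2) • D.ev' = _
    rw [mul_comm, mul_comm _ v.2]
  · have h1 : g = (g * complexConjugation) * complexConjugation := by
      rw [mul_assoc, complexConjugation_mul_self, mul_one]
    have hgc : g * complexConjugation ∈ E.HK := D.chi.mul_c_mem hg
    rw [D.chi.act_of_notMem hg, intw, intw]
    conv_rhs => rw [h1, map_mul, ← mulVec_mulVec, mulVec_add, mulVec_smul, mulVec_smul,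
      D.Eb_c_ev', mulVec_add, mulVec_smul, mulVec_smul, D.Eb_ev hgc]
    have h2 : D.Eb (g * complexConjugation) *ᵥ (D.Eb complexConjugation *ᵥ D.ev) =
        (residue A (ρ (g * complexConjugation) 0 0) ^ 2)⁻¹ • D.ev' := D.Eb_ev' hgc
    rw [h2, smul_smul, smul_smul]
    change (residue A (ρ (g * complexConjugation) 0 0) ^ 2 * v.2) • D.ev +
      ((residue A (ρ (g * complexConjugation) 0 0) ^ 2)⁻¹ * v.1) • D.ev' = _
    rw [mul_comm, mul_comm _ v.1, add_comm]

lemma intw_injective {v : ResidueField A × ResidueField A} (h : D.intw v = 0) : v = 0 := by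
  have h1 : D.Eb g₀ *ᵥ D.intw v = 0 := by rw [h, mulVec_zero]
  have hne := D.ev_ne
  have hne' : D.ev' ≠ 0 := by
    intro h0
    have := D.Eb_c_ev'
    rw [h0, mulVec_zero] at this
    exact hne this.symm
  have h3 := D.w_sq
  have h4 : residue A (ρ g₀ 0 0) + 1 ≠ 0 := by
    rw [← h3]; exact pow_ne_zero 2 D.w_ne
  have hinv : (residue A (ρ g₀ 0 0) ^ 2)⁻¹ = residue A (ρ g₀ 0 0) := by
    rw [inv_eq_iff_eq_inv, h3]
    apply eq_inv_of_mul_eq_one_left
    linear_combination h3 + residue A (ρ g₀ 0 0) * D.two'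
  rw [intw, mulVec_add, mulVec_smul, mulVec_smul, D.Eb_ev D.g₀_mem, D.Eb_ev' D.g₀_mem, hinv, h3,
    smul_smul, smul_smul] at h1
  have h5 : v.1 • D.ev = 0 := by
    have h6 : residue A (ρ g₀ 0 0) • D.intw v = 0 := by rw [h, smul_zero]
    rw [intw, smul_add, smul_smul, smul_smul] at h6
    have h7 : (v.1 * (residue A (ρ g₀ 0 0) + 1)) • D.ev -
        (residue A (ρ g₀ 0 0) * v.1) • D.ev = 0 := by
      have h8 := congrArg₂ (· - ·) h1 h6
      simp only [sub_zero] at h8
      rw [← h8, mul_comm (residue A (ρ g₀ 0 0)) v.2]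
      abel
    rw [← sub_smul] at h7
    have h9 : v.1 * (residue A (ρ g₀ 0 0) + 1) - residue A (ρ g₀ 0 0) * v.1 = v.1 := by ring
    rwa [h9] at h7
  have h6 : v.2 • D.ev' = 0 := by
    have := h
    rw [intw, h5, zero_add] at this
    exact this
  exact Prod.ext ((smul_eq_zero.1 h5).resolve_right hne) ((smul_eq_zero.1 h6).resolve_right hne')

/-- additive functionals are `𝔽₂`-linear -/
lemma lam_ι (lam : ResidueField A →+ ZMod 2) (x : ZMod 2) (y : ResidueField A) :
    lam (D.ι x * y) = x * lam y := by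
  have : x = 0 ∨ x = 1 := by revert x; decide
  rcases this with rfl | rfl
  · rw [map_zero, zero_mul, zero_mul, map_zero]
  · rw [map_one, one_mul, one_mul]

lemma lam_mulVec (lam : ResidueField A →+ ZMod 2) (g : Γℚ) (v : Fin 2 → ResidueField A) :
    (fun i => lam ((D.Eb g *ᵥ v) i)) = E.rb g *ᵥ (fun i => lam (v i)) := by
  ext i
  rw [Matrix.mulVec, Matrix.mulVec, dotProduct, dotProduct, Fin.sum_univ_two, Fin.sum_univ_two,
    map_add, Eb_apply, Matrix.map_apply, Matrix.map_apply, lam_ι, lam_ι]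

/-- functionals separate points -/
lemma eq_zero_of_lam {x : ResidueField A} (h : ∀ lam : ResidueField A →+ ZMod 2, lam x = 0) :
    x = 0 := by
  have := D.charP
  let _ : Algebra (ZMod 2) (ResidueField A) := D.ι.toAlgebra
  rw [← Module.forall_dual_apply_eq_zero_iff (ZMod 2)]
  intro f
  exact h f.toAddMonoidHom

end ResHyp

/-- inertia elements at the good places -/
def InG (E : EData) (Q : Finset ℕ) : Set Γℚ :=
  {σ | ∃ l : ℕ, l.Prime ∧ ¬ l ∣ lev E Q ∧ ∃ P : ValuationSubring Qb, P.LiesOverPrime l ∧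
    σ ∈ P.inertiaSubgroupIn ℚ}

/-- decomposition elements at the bad places -/
def JnG (E : EData) (Q : Finset ℕ) : Set Γℚ :=
  {σ | ∃ v : ℕ, v.Prime ∧ v ∣ lev E Q ∧ ∃ P : ValuationSubring Qb, P.LiesOverPrime v ∧
    σ ∈ P.decompositionSubgroup ℚ}

lemma InG.conj {Q : Finset ℕ} {σ : Γℚ} (h : σ ∈ InG E Q) :
    complexConjugation * σ * complexConjugation ∈ InG E Q := by
  obtain ⟨l, hl, hlQ, P, hP, hσ⟩ := h
  refine ⟨l, hl, hlQ, complexConjugation • P, Frob.liesOverPrime_smul hP _, ?_⟩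
  rw [Frob.mem_inertiaSubgroupIn_smul_iff, complexConjugation_inv]
  have : complexConjugation * (complexConjugation * σ * complexConjugation) * complexConjugation
      = σ := by
    simp only [← mul_assoc]
    rw [complexConjugation_mul_self, one_mul, mul_assoc, complexConjugation_mul_self, mul_one]
  rwa [this]

lemma JnG.conj {Q : Finset ℕ} {σ : Γℚ} (h : σ ∈ JnG E Q) :
    complexConjugation * σ * complexConjugation ∈ JnG E Q := by
  obtain ⟨l, hl, hlQ, P, hP, hσ⟩ := h
  refine ⟨l, hl, hlQ, complexConjugation • P, Frob.liesOverPrime_smul hP _, ?_⟩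
  rw [Frob.mem_decompositionSubgroup_smul_iff, complexConjugation_inv]
  have : complexConjugation * (complexConjugation * σ * complexConjugation) * complexConjugation
      = σ := by
    simp only [← mul_assoc]
    rw [complexConjugation_mul_self, one_mul, mul_assoc, complexConjugation_mul_self, mul_one]
  rwa [this]

namespace ResHyp

variable (D : ResHyp E ρ g₀)

include D

theorem selZero {Q : Finset ℕ} (hSel : Sel E Q) (hcont : ContAt ⊥ ρ)
    (hIn : ∀ g ∈ InG E Q, ρ g = 1) :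
    IsDih.SelZero E.HK ρ (fun g => residue A (ρ g 0 0)) (InG E Q) (JnG E Q) := by
  intro β hβ hβu
  have hcoc : D.chi.IsCoc β := fun g hg h hh => hβ.mul g hg h hh
  -- the cocycle with values in `E[2] ⊗ F`
  set b : Γℚ → ResidueField A × ResidueField A := ChiData.coc D.chi β with hb
  have hbm : ∀ g h, b (g * h) = b g + D.chi.act g (b h) := ChiData.coc_mul hcoc
  have hβ1 : β 1 = 0 := by
    have := hβ.mul 1 (one_mem _) 1 (one_mem _)
    rw [one_mul, map_one, Matrix.one_apply_eq, map_one, one_pow, one_mul] at this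
    exact left_eq_add.1 this
  have hconj1 : ∀ u, ρ u = 1 → ρ (complexConjugation * u * complexConjugation) = 1 := by
    intro u hu
    rw [map_mul, map_mul, hu, mul_one, ← map_mul, complexConjugation_mul_self, map_one]
  have hbu : ∀ g u, ρ u = 1 → b (g * u) = b g := by
    intro g u hu
    have huH : u ∈ E.HK := by
      have := (D.isDih.mul_mem_iff (g := 1) hu).2 (one_mem _)
      rwa [one_mul] at this
    rw [hbm]
    have h1 : b u = 0 := by
      rw [hb, ChiData.coc_of_mem huH]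
      have h2 : β u = 0 := by
        have := hβu 1 u hu
        rwa [one_mul, hβ1] at this
      have h3 : β (complexConjugation * u * complexConjugation) = 0 := by
        have := hβu 1 _ (hconj1 u hu)
        rwa [one_mul, hβ1] at this
      exact Prod.ext h2 h3
    rw [h1, map_zero, add_zero]
  have hInH : ∀ σ ∈ InG E Q, σ ∈ E.HK := fun σ hσ => by
    have := (D.isDih.mul_mem_iff (g := 1) (hIn σ hσ)).2 (one_mem _)
    rwa [one_mul] at this
  have hinsel : ∀ lam : ResidueField A →+ ZMod 2,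
      InSel E Q (fun g i => lam (D.intw (b g) i)) := by
    intro lam
    refine ⟨fun g h => ?_, ?_, ?_, ?_⟩
    · rw [← D.lam_mulVec, ← D.intw_act]
      ext i
      rw [hbm, D.intw_add, Pi.add_apply, map_add]
      rfl
    · obtain ⟨L, hL, h⟩ := hcont
      refine ⟨L.fixingSubgroup, Fermat.Agent.CFT.fixingSubgroup_mem_galLevels L,
        fun g s hs => ?_⟩
      have h1 : ρ s = 1 := by
        ext i j
        exact sub_eq_zero.1 ((Ideal.mem_bot).1 (h s
          ((IntermediateField.mem_fixingSubgroup_iff _ _).1 hs) i j))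
      change (fun i => lam (D.intw (b (g * s)) i)) = fun i => lam (D.intw (b g) i)
      rw [hbu g s h1]
    · intro l hl hlQ P hP σ hσ
      have hσI : σ ∈ InG E Q := ⟨l, hl, hlQ, P, hP, hσ⟩
      have h1 : b σ = 0 := by
        rw [hb, ChiData.coc_of_mem (hInH σ hσI)]
        exact Prod.ext (hβ.inertia σ hσI (hInH σ hσI))
          (hβ.inertia _ (InG.conj hσI) (hInH _ (InG.conj hσI)))
      ext i
      rw [h1, intw, Prod.fst_zero, Prod.snd_zero, zero_smul, zero_smul, add_zero]
      exact map_zero lam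
    · intro v hv hvQ P hP g hg hgK
      have hgJ : g ∈ JnG E Q := ⟨v, hv, hvQ, P, hP, hg⟩
      have h1 : b (g * g) = 0 := by
        rw [hb, ChiData.coc_of_mem (E.mul_mem_HK hgK hgK)]
        refine Prod.ext (hβ.sq g hgJ hgK) ?_
        have h2 : complexConjugation * (g * g) * complexConjugation =
            (complexConjugation * g * complexConjugation) *
              (complexConjugation * g * complexConjugation) := by
          simp only [mul_assoc]
          rw [← mul_assoc complexConjugation complexConjugation, complexConjugation_mul_self,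
            one_mul]
        have h3 : complexConjugation * g * complexConjugation ∉ E.HK := by
          intro h
          apply hgK
          have := D.chi.conj_c_mem h
          have h4 : D.chi.c * (complexConjugation * g * complexConjugation) * D.chi.c = g := by
            change complexConjugation * (complexConjugation * g * complexConjugation) *
              complexConjugation = g
            simp only [← mul_assoc]
            rw [complexConjugation_mul_self, one_mul, mul_assoc, complexConjugation_mul_self,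
              mul_one]
          rwa [h4] at this
        change β (complexConjugation * (g * g) * complexConjugation) = 0
        rw [h2]
        exact hβ.sq _ (JnG.conj hgJ) h3
      ext i
      rw [h1, intw, Prod.fst_zero, Prod.snd_zero, zero_smul, zero_smul, add_zero]
      exact map_zero lam
  -- normalisation at `g₀`
  have hg₀H : g₀ ∈ E.HK := D.g₀_mem
  have hχ1 : residue A (ρ g₀ 0 0) ^ 2 - 1 ≠ 0 := sub_ne_zero.2 D.isDih.ne
  have hχ2 : (residue A (ρ g₀ 0 0) ^ 2)⁻¹ - 1 ≠ 0 := by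
    rw [sub_ne_zero, Ne, inv_eq_one]
    exact D.isDih.ne
  set w₀ : ResidueField A × ResidueField A := ((b g₀).1 / (residue A (ρ g₀ 0 0) ^ 2 - 1),
    (b g₀).2 / ((residue A (ρ g₀ 0 0) ^ 2)⁻¹ - 1)) with hw₀
  have hnorm : D.chi.act g₀ w₀ + w₀ = b g₀ := by
    rw [D.chi.act_of_mem hg₀H]
    change (residue A (ρ g₀ 0 0) ^ 2 * w₀.1 + w₀.1,
      (residue A (ρ g₀ 0 0) ^ 2)⁻¹ * w₀.2 + w₀.2) = b g₀
    have h1 : w₀.1 * (residue A (ρ g₀ 0 0) ^ 2 - 1) = (b g₀).1 := div_mul_cancel₀ _ hχ1
    have h2 : w₀.2 * ((residue A (ρ g₀ 0 0) ^ 2)⁻¹ - 1) = (b g₀).2 := div_mul_cancel₀ _ hχ2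
    refine Prod.ext ?_ ?_
    · linear_combination h1 + w₀.1 * D.two'
    · linear_combination h2 + w₀.2 * D.two'
  have hne1 : ∀ x : V2, E.rb g₀ *ᵥ x + x = 0 → x = 0 := by
    intro x
    have h1 := D.rb_g₀
    revert h1 x
    generalize E.rb g₀ = M
    revert M
    decide
  have hzero : ∀ g, D.intw (b g + (D.chi.act g w₀ + w₀)) = 0 := by
    intro g
    ext i
    refine D.eq_zero_of_lam fun lam => ?_
    obtain ⟨w, hw⟩ := hSel _ (hinsel lam)
    have key : ∀ g, (fun i => lam (D.intw (b g + (D.chi.act g w₀ + w₀)) i)) =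
        E.rb g *ᵥ (w + fun i => lam (D.intw w₀ i)) + (w + fun i => lam (D.intw w₀ i)) := by
      intro g
      have h1 := hw g
      have h2 := D.lam_mulVec lam g (D.intw w₀)
      rw [D.intw_add, D.intw_add, D.intw_act, mulVec_add, ← h2]
      ext i
      have h3 := congrFun h1 i
      simp only [Pi.add_apply, map_add] at h3 ⊢
      rw [h3]
      ring
    have h4 := key g₀
    have hz0 : b g₀ + (D.chi.act g₀ w₀ + w₀) = 0 := by
      rw [hnorm]
      refine Prod.ext ?_ ?_
      · change (b g₀).1 + (b g₀).1 = 0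
        linear_combination (b g₀).1 * D.two'
      · change (b g₀).2 + (b g₀).2 = 0
        linear_combination (b g₀).2 * D.two'
    have hi0 : D.intw 0 = 0 := by
      rw [intw, Prod.fst_zero, Prod.snd_zero, zero_smul, zero_smul, add_zero]
    have h5 : (w + fun i => lam (D.intw w₀ i)) = 0 := by
      apply hne1
      rw [← h4, hz0, hi0]
      ext i
      exact map_zero lam
    have h6 := congrFun (key g) i
    rw [h5, mulVec_zero, add_zero] at h6
    exact h6
  refine ⟨w₀.1, fun g hg => ?_⟩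
  have h1 := congrArg Prod.fst (D.intw_injective (hzero g))
  have h2 : (b g).1 = β g := by rw [hb, ChiData.coc_of_mem hg]
  rw [Prod.fst_add, Prod.fst_add, h2, D.chi.act_of_mem hg, Prod.fst_zero] at h1
  change β g + (residue A (ρ g 0 0) ^ 2 * w₀.1 + w₀.1) = 0 at h1
  linear_combination h1 - (residue A (ρ g 0 0) ^ 2 * w₀.1) * D.two'

/-- **Block C**: `ρ` is dihedral -/
theorem redIdeal_eq_bot [IsNoetherianRing A] {Q : Finset ℕ} (hSel : Sel E Q) (hcont : ContAt ⊥ ρ)
    {u : ℕ → A} (hunr : ∀ l : ℕ, l.Prime → ¬ l ∣ lev E Q → UnrAt ρ l)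
    (hstar : ∀ v : ℕ, v.Prime → v ∣ lev E Q → u v ^ 2 = 1 ∧ StarAt ρ v (u v)) :
    redIdeal E.HK ρ = ⊥ := by
  have hIn : ∀ g ∈ InG E Q, ρ g = 1 := by
    rintro g ⟨l, hl, hlQ, P, hP, hg⟩
    exact hunr l hl hlQ P hP g hg
  refine D.isDih.redIdeal_eq_bot (D.selZero hSel hcont hIn) hIn ?_
  rintro j ⟨v, hv, hvQ, P, hP, hj⟩ hjH
  obtain ⟨h1, h2⟩ := hstar v hv hvQ
  have h3 := h2 P hP j hj j hj
  rw [D.det j, one_mul] at h3
  refine D.isDih.trace_eq_zero_of_star hjH (a := TwoAdic.unr v (u v) j) ?_ (D.det j) h3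
  rw [TwoAdic.unr]
  split_ifs
  · exact one_pow 2
  · exact h1

end ResHyp

end

/-- the hypotheses of `Upper` give a `ResHyp` -/
theorem resHyp_of_upper {E : EData} {k : Type} [Field k] [CharP k 2] {ω : k}
    (hω : ω ^ 2 + ω + 1 = 0) {A : Type} [CommRing A] [IsLocalRing A] [Algebra k A]
    {ρ : Γℚ →* Matrix (Fin 2) (Fin 2) A} {g₀ : Γℚ}
    (hdet : ∀ g, (ρ g).det = 1)
    (htr : ∀ g, (ρ g).trace - (((PadicInt.toZMod (p := 2) (E.ρ g).trace).val : ℕ) : A) ∈
      maximalIdeal A)
    (hg₀ : FixK E.N g₀) (hg₀' : PadicInt.toZMod (p := 2) (E.ρ g₀).trace = 1)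
    (h01 : ρ g₀ 0 1 = 0) (h10 : ρ g₀ 1 0 = 0)
    (h00 : ρ g₀ 0 0 - algebraMap k A ω ∈ maximalIdeal A) : ResHyp E ρ g₀ where
  two := by
    rw [← map_ofNat (algebraMap k A), CharTwo.two_eq_zero, map_zero]
  det := hdet
  tr := htr
  g₀_mem := hg₀
  g₀_tr := hg₀'
  d01 := h01
  d10 := h10
  ω := by
    have h1 : residue A (ρ g₀ 0 0) = residue A (algebraMap k A ω) := by
      rw [← sub_eq_zero, ← map_sub]
      exact (residue_eq_zero_iff _).2 h00
    rw [h1, ← map_pow, ← map_pow, ← map_add, ← map_add, ← map_one (residue A),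
      ← map_one (algebraMap k A), ← map_add, ← map_add, hω, map_zero, map_zero]

/-- **Block C for the hypotheses of `Upper`** -/
theorem exists_isDih {E : EData} {Q : Finset ℕ} (hSel : Sel E Q)
    {k : Type} [Field k] [CharP k 2] {ω : k}
    (hω : ω ^ 2 + ω + 1 = 0) {A : Type} [CommRing A] [IsLocalRing A] [Algebra k A]
    [Module.Finite k A] {ρ : Γℚ →* Matrix (Fin 2) (Fin 2) A} {u : ℕ → A} {g₀ : Γℚ}
    (hcont : ContAt ⊥ ρ) (hdet : ∀ g, (ρ g).det = 1)
    (htr : ∀ g, (ρ g).trace - (((PadicInt.toZMod (p := 2) (E.ρ g).trace).val : ℕ) : A) ∈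
      maximalIdeal A)
    (hg₀ : FixK E.N g₀) (hg₀' : PadicInt.toZMod (p := 2) (E.ρ g₀).trace = 1)
    (h01 : ρ g₀ 0 1 = 0) (h10 : ρ g₀ 1 0 = 0)
    (h00 : ρ g₀ 0 0 - algebraMap k A ω ∈ maximalIdeal A)
    (hunr : ∀ l : ℕ, l.Prime → ¬ l ∣ lev E Q → UnrAt ρ l)
    (hstar : ∀ v : ℕ, v.Prime → v ∣ lev E Q → u v ^ 2 = 1 ∧ StarAt ρ v (u v)) :
    IsDih E.HK ρ (fun g => residue A (ρ g 0 0)) g₀ ∧ redIdeal E.HK ρ = ⊥ := by
  have D := resHyp_of_upper (E := E) hω hdet htr hg₀ hg₀' h01 h10 h00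
  have : IsNoetherianRing A := isNoetherian_of_tower k inferInstance
  exact ⟨D.isDih, D.redIdeal_eq_bot hSel hcont hunr hstar⟩

end Fermat.Agent.TwoAdic
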