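import Mathlib
import Fermat.Agent.TwoAdic.D3Upper
import Fermat.Agent.TwoAdic.D1Final
import Fermat.Agent.TwoAdic.GenusF
import Fermat.Agent.TwoAdic.SelUpper

/-!
# Blocks C and D of the 2-adic route: the upper bound

Everything except the existence of a representation over `k[Cl2 N]` with the traces of the
universal theta series (`ThetaRep`).
-/

set_option autoImplicit false
set_option linter.unusedSectionVars false

open scoped NumberField Pointwise nonZeroDivisors
open IntermediateField Fermat.Agent IsLocalRing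

namespace Fermat.Agent.TwoAdic

local notation "Qb" => AlgebraicClosure ℚ
local notation "Γℚ" => (AlgebraicClosure ℚ ≃ₐ[ℚ] AlgebraicClosure ℚ)

/-- The unramified extensions of `2`-power degree of `K` are bounded by the class group. -/
theorem unrBound_of_thetaRep (E : EData)
    {k : Type} [Field k] [CharP k 2] {ω : k} (hω : ω ^ 2 + ω + 1 = 0)
    {χI : ClassGroup (𝓞 (KN E.N)) →* kˣ} {S : Finset ℕ}
    {ρ : Γℚ →* Matrix (Fin 2) (Fin 2) (MonoidAlgebra k (Cl2 E.N))} {g₀ : Γℚ}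
    (T : ThetaRep (KN E.N) (prCl2 E.N) ω χI S ρ g₀) : UnrBound E.N := by
  have hN : 0 < E.N := lt_trans (by norm_num) E.two_lt
  have hG₂ : IsPGroup 2 (Cl2 E.N) := isPGroup_twoQuot _
  -- an element outside
  obtain ⟨j₀, hj₀⟩ : ∃ j₀ : Γℚ, j₀ ∉ (KN E.N).fixingSubgroup := by
    refine ⟨complexConjugation, fun h => E.complexConjugation_notMem ?_⟩
    exact mem_fixK_iff.1 h
  intro C _ _ hC ψ hψl hψu
  obtain ⟨χ, φ, hχl, hφl, hχ, hχρ, hφF⟩ := T.exists_recip hG₂ hω hj₀
  -- the residual representation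
  let ρ' : Γℚ →* Matrix (Fin 2) (Fin 2) k :=
    ((aug k (Cl2 E.N)).toRingHom.mapMatrix : Matrix (Fin 2) (Fin 2) (MonoidAlgebra k (Cl2 E.N)) →+*
      Matrix (Fin 2) (Fin 2) k).toMonoidHom.comp ρ
  have hρ' : ∀ g i j, ρ' g i j = aug k (Cl2 E.N) (ρ g i j) := fun g i j => rfl
  have hρ'l : GaloisFactorsThroughFiniteLevel ρ' := by
    obtain ⟨F, hF, h1⟩ := T.cont
    refine ⟨F, hF, fun σ hσ => ?_⟩
    ext i j
    have h2 := h1 σ hσ i j
    rw [Ideal.mem_bot, sub_eq_zero] at h2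
    rw [hρ', h2]
    by_cases hij : i = j
    · subst hij; simp
    · simp [Matrix.one_apply_ne hij]
  have hω1 : ω ^ 2 ≠ 1 := by
    intro h
    have h9 : (2 : k) = 0 := CharTwo.two_eq_zero
    have h3 : ω = 0 := by linear_combination hω - h - h9
    rw [h3] at h
    simp at h
  have hγ : ρ' (g₀ * g₀) ≠ 1 := by
    intro h
    have h1 := congrFun (congrFun h 0) 0
    rw [hρ', mulAp, T.diag01, zero_mul, add_zero, map_mul, T.res, Matrix.one_apply_eq, ← sq] at h1
    exact hω1 h1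
  have hφs : Function.Surjective φ := by
    rw [← MonoidHom.range_eq_top]
    refine Genus.eq_top_of_frob E.isLev ρ' hρ'l hγ S hG₂ (prCl2 E.N) (prCl2_surjective E.N) _ ?_
    intro l hl hS hlN A hA σ hσ hσK hσρ hnorm
    have hσH : σ ∈ (KN E.N).fixingSubgroup := mem_fixK_iff.2 hσK
    have hne : Frob.below (𝓞 (KN E.N)) A ≠ ⊥ := below_ne_bot (F := KN E.N) A hl hA
    have hχσ : χ ⟨σ, hσH⟩ ≠ 1 := by
      intro h
      apply hσρ
      have h1 := hχρ ⟨σ, hσH⟩
      rw [h, Units.val_one] at h1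
      have h2 := T.det σ hσH
      have h01 := (T.offdiag hG₂ hω hj₀ hσH).1
      have h10 := (T.offdiag hG₂ hω hj₀ hσH).2
      rw [Matrix.det_fin_two, h01, zero_mul, sub_zero] at h2
      have h3 := congrArg (aug k (Cl2 E.N)) h2
      rw [map_mul, ← h1, one_mul, map_one] at h3
      ext i j
      rw [hρ']
      fin_cases i <;> fin_cases j
      · simpa using h1.symm
      · simp [h01]
      · simp [h10]
      · simpa using h3
    have hcl : Genus.cl (Cheb.below (KN E.N) A) = ClassGroup.mk0 ⟨Frob.below (𝓞 (KN E.N)) A,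
        mem_nonZeroDivisors_of_ne_zero hne⟩ := by
      have e : Cheb.below (KN E.N) A = Frob.below (𝓞 (KN E.N)) A := by
        ext x
        rw [Cheb.mem_below_iff, Frob.mem_below]
        rfl
      have hne' : Cheb.below (KN E.N) A ≠ ⊥ := by rw [e]; exact hne
      rw [Genus.cl_eq hne']
      congr 1
    rw [hcl]
    rcases hφF l hl hS A hA ⟨σ, hσH⟩ hσ hχσ ⟨Frob.below (𝓞 (KN E.N)) A,
      mem_nonZeroDivisors_of_ne_zero hne⟩ rfl with h | h
    · rw [← h]; exact ⟨⟨σ, hσH⟩, rfl⟩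
    · rw [← inv_mem_iff, ← h]; exact ⟨⟨σ, hσH⟩, rfl⟩
  rw [← card_Cl2 E.N]
  have hCr : IsPGroup 2 ψ.range := hC.to_subgroup _
  refine card_le_of_recip (KN E.N) (firstIneq hN) hG₂ (prCl2 E.N) (prCl2_surjective E.N)
    (le_of_eq (ker_prCl2 E.N)) χ hχl hχ φ hφl hφs S hφF hCr ψ.rangeRestrict ?_
    ψ.rangeRestrict_surjective ?_
  · obtain ⟨F, hF, h1⟩ := hψl
    exact ⟨F, hF, fun σ hσ => Subtype.ext (h1 σ hσ)⟩
  · intro ℓ hℓ A hA σ hσ
    exact Subtype.ext (hψu ℓ hℓ A hA σ hσ)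

/-- **Blocks C + D**, given the bound for unramified extensions. -/
theorem upper_of_unrBound {E : EData} {Q : Finset ℕ} (hQ : ∀ q ∈ Q, IsAux E 2 q) (hSel : Sel E Q)
    (hB : UnrBound E.N) : Upper E Q := by
  intro k _ _ _ ω hω A _ _ _ _ hbij ρ u g₀ j₀ hcont hdet htr hg₀ hg₀' h01 h10 h00 hj₀ hj₀' hunr
    hstar hgen
  obtain ⟨D, hr⟩ := exists_isDih hSel hω hcont hdet htr hg₀ hg₀' h01 h10 h00 hunr hstar
  have h2 : (2 : A) = 0 := D.two
  exact finrank_le_of_dihedral E Q hQ hB h2 hbij ρ u hcont hdet hunr hstar hgen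
    (fun g hg => D.apply01 hr hg) (fun g hg => D.apply10 hr hg)
    (fun g hg => D.apply00 hr hg) (fun g hg => D.apply11 hr hg)

end Fermat.Agent.TwoAdic
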