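import Fermat.Agent.TwoAdic.ETwo

/-!
# The data of the 2-adic route for a semistable elliptic curve
-/

set_option autoImplicit false
set_option linter.unusedSectionVars false

namespace Fermat.Agent.TwoAdic

open Fermat.Agent.ECRep Fermat.Agent.Frob
open WeierstrassCurve WeierstrassCurve.Affine WeierstrassCurve.Affine.Point
open scoped WeierstrassCurve.Affine Pointwise
open Fermat.Agent.EC Fermat.Agent.DivPoly Fermat.Agent.S13lib

local notation "Qbar" => AlgebraicClosure ℚ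
local notation "Γℚ" => (AlgebraicClosure ℚ ≃ₐ[ℚ] AlgebraicClosure ℚ)

/-! ### Conjugation of the Steinberg condition -/

theorem isEven_conj {v : ℕ} (g τ : Γℚ) : IsEven v (τ⁻¹ * g * τ) ↔ IsEven v g := by
  constructor
  · intro h ζ hζ
    have h1 : (τ⁻¹ ζ) ^ (v ^ 2 - 1) = 1 := by rw [← map_pow, hζ, map_one]
    have h2 := h _ h1
    rw [AlgEquiv.mul_apply, AlgEquiv.mul_apply] at h2
    have h3 : τ (τ⁻¹ ζ) = ζ := by rw [← AlgEquiv.mul_apply, mul_inv_cancel]; rfl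
    rw [h3] at h2
    exact τ⁻¹.injective h2
  · intro h ζ hζ
    have h1 : (τ ζ) ^ (v ^ 2 - 1) = 1 := by rw [← map_pow, hζ, map_one]
    rw [AlgEquiv.mul_apply, AlgEquiv.mul_apply, h _ h1, ← AlgEquiv.mul_apply, inv_mul_cancel]
    rfl

theorem unr_conj {R : Type*} [CommRing R] {v : ℕ} (u : R) (g τ : Γℚ) :
    unr v u (τ⁻¹ * g * τ) = unr v u g := by
  rw [unr, unr]
  by_cases h : IsEven v g
  · rw [if_pos h, if_pos ((isEven_conj g τ).mpr h)]
  · rw [if_neg h, if_neg fun h' => h ((isEven_conj g τ).mp h')]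

/-- It is enough to check the Steinberg condition at one place. -/
theorem starAt_of_one {R : Type*} [CommRing R] (ρ : Γℚ →* Matrix (Fin 2) (Fin 2) R) {v : ℕ}
    (hv : v.Prime) (u : R) (A : ValuationSubring Qbar) (hA : A.LiesOverPrime v)
    (h : ∀ g ∈ A.decompositionSubgroup ℚ, ∀ h ∈ A.decompositionSubgroup ℚ,
      (ρ g - Matrix.scalar (Fin 2) ((ρ g).det * unr v u g)) *
        (ρ h - Matrix.scalar (Fin 2) (unr v u h)) = 0) : StarAt ρ v u := by
  intro P hP g hg g' hg'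
  obtain ⟨τ, rfl⟩ := exists_smul_eq hv hA hP
  have h1 := h _ ((mem_decompositionSubgroup_smul_iff A g τ).mp hg) _
    ((mem_decompositionSubgroup_smul_iff A g' τ).mp hg')
  rw [unr_conj, unr_conj] at h1
  have hτ : ρ τ * ρ τ⁻¹ = 1 := by rw [← map_mul, mul_inv_cancel, map_one]
  have hdet : (ρ (τ⁻¹ * g * τ)).det = (ρ g).det := by
    rw [map_mul, map_mul, Matrix.det_mul, Matrix.det_mul, mul_right_comm, mul_comm (ρ τ⁻¹).det,
      ← Matrix.det_mul, hτ, Matrix.det_one, one_mul]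
  rw [hdet] at h1
  have key : ∀ (x : Γℚ) (c : R), ρ τ * (ρ (τ⁻¹ * x * τ) - Matrix.scalar (Fin 2) c) * ρ τ⁻¹ =
      ρ x - Matrix.scalar (Fin 2) c := by
    intro x c
    rw [mul_sub, sub_mul, map_mul, map_mul]
    have e1 : ρ τ * (ρ τ⁻¹ * ρ x * ρ τ) * ρ τ⁻¹ = (ρ τ * ρ τ⁻¹) * ρ x * (ρ τ * ρ τ⁻¹) := by
      simp only [mul_assoc]
    have e2 : ρ τ * Matrix.scalar (Fin 2) c * ρ τ⁻¹ = Matrix.scalar (Fin 2) c := by
      rw [(Matrix.scalar_commute c (fun r' => Commute.all c r') (ρ τ)).symm.eq, mul_assoc, hτ,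
        mul_one]
    rw [e1, e2, hτ, one_mul, mul_one]
  have hτ' : ρ τ⁻¹ * ρ τ = 1 := by rw [← map_mul, inv_mul_cancel, map_one]
  rw [← key g, ← key g']
  have e : ∀ X Y : Matrix (Fin 2) (Fin 2) R, ρ τ * X * ρ τ⁻¹ * (ρ τ * Y * ρ τ⁻¹) =
      ρ τ * (X * Y) * ρ τ⁻¹ := by
    intro X Y
    calc ρ τ * X * ρ τ⁻¹ * (ρ τ * Y * ρ τ⁻¹) = ρ τ * X * (ρ τ⁻¹ * ρ τ) * Y * ρ τ⁻¹ := by
          simp only [mul_assoc]
      _ = ρ τ * (X * Y) * ρ τ⁻¹ := by rw [hτ']; simp only [mul_assoc, one_mul]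
  rw [e, h1, mul_zero, zero_mul]

/-! ### The matrix representation -/

section mat

variable {W : WeierstrassCurve ℤ} (b : Module.Basis (Fin 2) ℤ_[2] (TateW (toRat W) 2))

/-- The matrix representation on the `2`-adic Tate module -/
noncomputable def rhoM : Γℚ →* Matrix (Fin 2) (Fin 2) ℤ_[2] :=
  ((LinearMap.toMatrixAlgEquiv b).toAlgHom : Module.End ℤ_[2] (TateW (toRat W) 2) →*
    Matrix (Fin 2) (Fin 2) ℤ_[2]).comp (tateGal (toRat W) 2)

theorem rhoM_apply (σ : Γℚ) : rhoM b σ = LinearMap.toMatrix b b (tateGal (toRat W) 2 σ) := rfl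

theorem det_rhoM (σ : Γℚ) : (rhoM b σ).det = LinearMap.det (tateGal (toRat W) 2 σ) := by
  rw [rhoM_apply, LinearMap.det_toMatrix]

theorem charpoly_rhoM (hΔ : W.Δ ≠ 0) (σ : Γℚ) : (rhoM b σ).charpoly =
    LinearMap.charpoly ((tateRep (toRat W) 2 (toRat_Δ_ne_zero hΔ)).ρ σ) := by
  have := tate_free (l := 2) (toRat_Δ_ne_zero hΔ)
  have := tate_finite (l := 2) (toRat_Δ_ne_zero hΔ)
  rw [rhoM_apply]
  exact LinearMap.charpoly_toMatrix (tateGal (toRat W) 2 σ) b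

theorem rhoM_sub_scalar (σ : Γℚ) (c : ℤ_[2]) : rhoM b σ - Matrix.scalar (Fin 2) c =
    LinearMap.toMatrixAlgEquiv b (tateGal (toRat W) 2 σ -
      algebraMap ℤ_[2] (Module.End ℤ_[2] (TateW (toRat W) 2)) c) := by
  rw [map_sub, AlgEquiv.commutes]
  rfl

end mat

/-- **The data of the 2-adic route.** -/
theorem exists_EData (W : WeierstrassCurve ℤ) (hneg : W.Δ < 0) (hss : W.IsSemistableModel)
    (h2 : (2 : ℤ) ∣ W.Δ) (hodd : ∀ q : ℕ, q.Prime → (q : ℤ) ∣ W.Δ → Odd (padicValInt q W.Δ))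
    (hirr : ∀ x : ℚ, 4 * x ^ 3 + (W.b₂ : ℚ) * x ^ 2 + 2 * (W.b₄ : ℚ) * x + W.b₆ ≠ 0)
    (hq : ∃ q : ℕ, q.Prime ∧ q ≠ 2 ∧ (q : ℤ) ∣ W.Δ) :
    ∃ E : EData, (∀ l : ℕ, l.Prime → (l ∣ E.N ↔ (l : ℤ) ∣ W.Δ)) ∧
      ∀ l : ℕ, l.Prime → ¬ (l : ℤ) ∣ W.Δ → E.a l = W.apOfModel l := by
  classical
  have hΔ : W.Δ ≠ 0 := hneg.ne
  have hn0 : W.Δ.natAbs ≠ 0 := Int.natAbs_ne_zero.mpr hΔ
  have hN : ∀ l : ℕ, l.Prime → (l ∣ radN W.Δ.natAbs ↔ (l : ℤ) ∣ W.Δ) := fun l hl => by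
    rw [prime_dvd_radN hn0 hl, Int.natCast_dvd]
  obtain ⟨b⟩ := tate_exists_basis (l := 2) (toRat_Δ_ne_zero hΔ)
  obtain ⟨b', hb'⟩ := exists_basis_mod (toRat_Δ_ne_zero hΔ) (n := 1) (m := 2) rfl
    (PadicInt.toZMod (p := 2)) b
  have hmod : ∀ σ : Γℚ, (rhoM b σ).map (PadicInt.toZMod (p := 2)) = M2 b' σ := fun σ =>
    (toMatrix_mod (n := 1) (m := 2) rfl (PadicInt.toZMod (p := 2)) b b' hb' σ).symm
  have htr : ∀ σ : Γℚ, PadicInt.toZMod (p := 2) (rhoM b σ).trace = (M2 b' σ).trace := fun σ => by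
    rw [← hmod, Matrix.trace_fin_two, Matrix.trace_fin_two, map_add]; rfl
  -- the data at the bad primes
  have hbad : ∀ v : ℕ, ∃ s : ℤ, v.Prime → (v : ℤ) ∣ W.Δ →
      (s = 1 ∨ s = -1) ∧ StarAt (rhoM b) v (s : ℤ_[2]) := by
    intro v
    by_cases hv : v.Prime ∧ (v : ℤ) ∣ W.Δ
    · obtain ⟨hvp, hvd⟩ := hv
      obtain ⟨A, hA⟩ := exists_liesOverPrime Qbar hvp
      obtain ⟨x₀, y₀, α, β, D, hM⟩ := exists_multData W hΔ hvp hA hvd (hss v hvp hvd)
      obtain ⟨F, hF⟩ := exists_isFrobeniusAt A hvp hA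
      refine ⟨sg α F, fun _ _ => ⟨?_, ?_⟩⟩
      · rw [sg]; split_ifs
        · exact Or.inl rfl
        · exact Or.inr rfl
      · refine starAt_of_one _ hvp _ A hA fun g hg h hh => ?_
        rw [← sg_eq_unr hvp hA hM hF hg, ← sg_eq_unr hvp hA hM hF hh, rhoM_sub_scalar,
          rhoM_sub_scalar, ← map_mul, det_rhoM]
        rw [star_tate hΔ hM (exists_not_ns_two hΔ hM) hg hh, _root_.map_zero]
    · exact ⟨1, fun h1 h2 => absurd ⟨h1, h2⟩ hv⟩
  choose s hs using hbad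
  obtain ⟨m, hm0, hm⟩ := exists_sq hn0 fun p hp hpd => by
    have := hodd p hp (Int.natCast_dvd.mpr hpd)
    rwa [padicValInt, ← Nat.factorization_def _ hp] at this
  have hΔeq : (W.Δ : Qbar) = -((radN W.Δ.natAbs : ℕ) : Qbar) * (m : Qbar) ^ 2 := by
    have h1 : W.Δ = -(W.Δ.natAbs : ℤ) := by omega
    have h3 : (W.Δ.natAbs : ℤ) = (radN W.Δ.natAbs : ℤ) * (m : ℤ) ^ 2 := by
      exact_mod_cast hm
    rw [h1, h3]
    push_cast
    rw [Int.natAbs_neg, Int.natAbs_mul, Int.natAbs_pow, Int.natAbs_natCast, Int.natAbs_natCast,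
      ← hm]
    ring
  have hroot : (dd b' / (m : Qbar)) ^ 2 = -((radN W.Δ.natAbs : ℕ) : Qbar) := by
    have hm1 : (m : Qbar) ≠ 0 := by exact_mod_cast hm0
    rw [div_pow, dd_sq, hΔeq]
    field_simp
  have hfix : ∀ σ : Γℚ, FixK (radN W.Δ.natAbs) σ ↔ (M2 b' σ = 1 ∨ (M2 b' σ).trace = 1) := by
    intro σ
    have hm1 : (m : Qbar) ≠ 0 := by exact_mod_cast hm0
    rw [fixK_iff hroot, ← gal_dd_iff b' hΔ, map_div₀, map_natCast, div_left_inj' hm1]
  have hram : ∀ v : ℕ, v.Prime → (v : ℤ) ∣ W.Δ → v ≠ 2 → ∀ P : ValuationSubring Qbar,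
      P.LiesOverPrime v → ∃ τ ∈ P.inertiaSubgroupIn ℚ, M2 b' τ ≠ 1 := by
    intro v hv hvd hv2 P hP
    by_contra hcon
    push Not at hcon
    have h3 : ¬ v ∣ 2 := fun h => hv2 ((Nat.prime_dvd_prime_iff_eq hv Nat.prime_two).mp h)
    have h4 := mult_dvd_of_unr hΔ hv hvd (hss v hv hvd) hP h3 fun σ hσ Q hQ => by
      have h5 := hcon σ hσ
      rw [M2, ← LinearMap.toMatrix_one b'] at h5
      have h6 := (LinearMap.toMatrix b' b').injective h5
      have h7 : Q ∈ Submodule.torsionBy ℤ ((toRat W)⁄Qbar).Point ((2 : ℕ) : ℤ) := by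
        rw [Submodule.mem_torsionBy_iff, natCast_zsmul]; exact hQ
      exact congrArg Subtype.val (LinearMap.congr_fun h6 ⟨Q, h7⟩)
    have h5 := hodd v hv hvd
    rw [← Nat.not_even_iff_odd, even_iff_two_dvd] at h5
    exact h5 h4
  refine ⟨{
    N := radN W.Δ.natAbs
    sqf := squarefree_radN _
    two_dvd := (hN 2 Nat.prime_two).mpr (by exact_mod_cast h2)
    two_lt := ?_
    a := fun l => if (l : ℤ) ∣ W.Δ then s l else W.apOfModel l
    ρ := rhoM b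
    cont := ?_
    det := ?_
    unr := ?_
    frob := ?_
    hasse := ?_
    sign := ?_
    star := ?_
    surj := ?_
    fixK := ?_
    ram := ?_ }, hN, ?_⟩
  · obtain ⟨q, hqp, hq2, hqd⟩ := hq
    have h3 : 2 * q ∣ radN W.Δ.natAbs := Nat.Coprime.mul_dvd_of_dvd_of_dvd
      ((Nat.coprime_primes Nat.prime_two hqp).mpr (Ne.symm hq2))
      ((hN 2 Nat.prime_two).mpr (by exact_mod_cast h2)) ((hN q hqp).mpr hqd)
    have h4 := Nat.le_of_dvd (Nat.pos_of_ne_zero (radN_ne_zero _)) h3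
    have := hqp.two_le
    omega
  · intro k
    have hk0 : (2 : ℕ) ^ k ≠ 0 := pow_ne_zero _ two_ne_zero
    obtain ⟨L, hL, h⟩ := finiteLevel (toRat W) (toRat_Δ_ne_zero hΔ) (2 ^ k) hk0
    obtain ⟨bk, hbk⟩ := exists_basis_mod (toRat_Δ_ne_zero hΔ) (n := k) (m := 2 ^ k) rfl
      (PadicInt.toZModPow (p := 2) k) b
    refine ⟨L, hL, fun σ hσ i j => ?_⟩
    have h1 := toMatrix_mod (n := k) (m := 2 ^ k) rfl (PadicInt.toZModPow (p := 2) k) b bk hbk σ
    rw [h σ hσ] at h1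
    have h3 := congrFun (congrFun h1 i) j
    rw [LinearMap.toMatrix_one, Matrix.map_apply] at h3
    have h4 := PadicInt.ker_toZModPow (p := 2) k
    push_cast at h4
    rw [← h4, RingHom.mem_ker, map_sub, rhoM_apply, ← h3]
    rw [sub_eq_zero, Matrix.one_apply, Matrix.one_apply]
    split_ifs
    · rw [map_one]
    · rw [_root_.map_zero]
  · intro n σ c hc
    rw [det_rhoM]
    exact (detIsCyclotomic W (l := 2) hΔ).2 n σ c hc
  · intro l hl hlN P hP σ hσ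
    have hg : W.IsGoodPrimeFor l := fun h => hlN ((hN l hl).mpr h)
    have hl2 : l ≠ 2 := by
      rintro rfl
      exact hg (by exact_mod_cast h2)
    have h3 := tateRep_isUnramifiedAt W (l := 2) hΔ hl hl2 hg P hP σ hσ
    rw [rhoM_apply]
    change LinearMap.toMatrix b b ((tateRep (toRat W) 2 (toRat_Δ_ne_zero hΔ)).ρ σ) = 1
    rw [h3]
    exact LinearMap.toMatrix_one b
  · intro l hl hlN P hP σ hσ
    have hg : W.IsGoodPrimeFor l := fun h => hlN ((hN l hl).mpr h)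
    have hl2 : l ≠ 2 := by
      rintro rfl
      exact hg (by exact_mod_cast h2)
    have h3 := charpoly_frob W (l := 2) hΔ hl hl2 hP hg hσ
    rw [← charpoly_rhoM b hΔ, Matrix.charpoly_fin_two] at h3
    have h4 := congrArg (fun p => Polynomial.coeff p 1) h3
    simp only [Polynomial.coeff_add, Polynomial.coeff_sub, Polynomial.coeff_X_pow,
      Polynomial.coeff_C_mul, Polynomial.coeff_X_one, Polynomial.coeff_C] at h4
    norm_num at h4
    rw [h4, if_neg hg]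
  · intro l hl hlN
    have hg : W.IsGoodPrimeFor l := fun h => hlN ((hN l hl).mpr h)
    have hl2 : l ≠ 2 := by
      rintro rfl
      exact hg (by exact_mod_cast h2)
    rw [if_neg hg]
    exact_mod_cast hasse_ap W hl hl2 hg
  · intro v hv hvN
    have hvd := (hN v hv).mp hvN
    rw [if_pos hvd]
    exact (hs v hv hvd).1
  · intro v hv hvN
    have hvd := (hN v hv).mp hvN
    rw [if_pos hvd]
    exact (hs v hv hvd).2
  · intro M hM
    obtain ⟨q, hqp, hq2, hqd⟩ := hq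
    obtain ⟨P, hP⟩ := exists_liesOverPrime Qbar hqp
    obtain ⟨τ, hτ, hτ1⟩ := hram q hqp hqd hq2 P hP
    have htr2 : (M2 b' τ).trace ≠ 1 := by
      intro h
      have h3 := isUnipotentOnInertiaAt W (l := 2) hΔ hqp hq2 hqd (hss q hqp hqd) P hP τ hτ
      rw [← charpoly_rhoM b hΔ, Matrix.charpoly_fin_two] at h3
      have h4 := congrArg (fun p => Polynomial.coeff p 1) h3
      have e : ((Polynomial.X : Polynomial ℤ_[2]) - 1) ^ 2 =
          Polynomial.X ^ 2 - Polynomial.C 2 * Polynomial.X + Polynomial.C 1 := by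
        rw [map_ofNat, map_one]; ring
      rw [e] at h4
      simp only [Polynomial.coeff_add, Polynomial.coeff_sub, Polynomial.coeff_X_pow,
        Polynomial.coeff_C_mul, Polynomial.coeff_X_one, Polynomial.coeff_C] at h4
      norm_num at h4
      rw [← htr, h4, map_ofNat] at h
      exact absurd h (by decide)
    obtain ⟨σ, hσ⟩ := M2_surj b' hirr ⟨τ, hτ1, htr2⟩ M hM.ne_zero
    exact ⟨σ, by rw [hmod, hσ]⟩
  · intro σ
    rw [hfix, hmod, htr]
  · intro v hv hvN hv2 P hP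
    obtain ⟨τ, hτ, h⟩ := hram v hv ((hN v hv).mp hvN) hv2 P hP
    exact ⟨τ, hτ, by rw [hmod]; exact h⟩
  · intro l hl hld
    exact if_neg hld

end Fermat.Agent.TwoAdic
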