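import Fermat.Agent.ECRep.MultUnr
import Fermat.Agent.ECRep.Odd
import Fermat.Agent.TwoAdic.Spec

/-!
# The Steinberg condition for elliptic curves at a multiplicative prime

The argument is uniform in the multiplicative prime, which may be equal to `l`.
-/

set_option autoImplicit false
set_option linter.unusedSectionVars false

namespace Fermat.Agent.TwoAdic

open Fermat.Agent.ECRep
open WeierstrassCurve WeierstrassCurve.Affine WeierstrassCurve.Affine.Point
open scoped WeierstrassCurve.Affine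
open Fermat.Agent.EC Fermat.Agent.DivPoly Fermat.Agent.S13lib

section gal

variable {k L : Type*} [Field k] [Field L] [CharZero L] [Algebra k L] [Algebra.IsAlgebraic k L]
  [DecidableEq L] {A : ValuationSubring L} {W : WeierstrassCurve k} {x₀ y₀ α β D : L}

theorem ns_smul_sub (hM : Mult A.valuation (W⁄L) x₀ y₀ α β D) {σ : L ≃ₐ[k] L}
    (hσ : σ ∈ A.decompositionSubgroup k) (hα : σ α = α) (hβ : σ β = β) (P : (W⁄L).Point) :
    NS A.valuation (σ • P - P) :=
  hM.ns_sub_of_kap_eq (hM.kap_smul hσ hα hβ P)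

theorem ns_smul_add (hM : Mult A.valuation (W⁄L) x₀ y₀ α β D) {σ : L ≃ₐ[k] L}
    (hσ : σ ∈ A.decompositionSubgroup k) (hα : σ α = β) (hβ : σ β = α) (P : (W⁄L).Point) :
    NS A.valuation (σ • P + P) := by
  by_cases h : NS A.valuation P
  · exact ns_add hM.int ((hM.ns_smul_iff hσ P).mpr h) h
  · have h1 : kap A.valuation x₀ y₀ α β D (σ • P) = kap A.valuation x₀ y₀ α β D (-P) := by
      rw [hM.kap_smul_swap hσ hα hβ, hM.kap_neg_eq h]
    have := hM.ns_sub_of_kap_eq h1
    rwa [sub_neg_eq_add] at this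

open Classical in
/-- the sign by which `σ` acts on the component group -/
noncomputable def sg (α : L) (σ : L ≃ₐ[k] L) : ℤ := if σ α = α then 1 else -1

theorem ns_smul_sg (hM : Mult A.valuation (W⁄L) x₀ y₀ α β D) {σ : L ≃ₐ[k] L}
    (hσ : σ ∈ A.decompositionSubgroup k) (P : (W⁄L).Point) :
    NS A.valuation (σ • P - sg α σ • P) := by
  have hne : α ≠ β := fun h => by
    have := hM.vδ
    rw [h, sub_self, _root_.map_zero] at this
    exact zero_ne_one this
  rcases (hM.gal hσ).2.2.2 with ⟨h1, h2⟩ | ⟨h1, h2⟩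
  · rw [sg, if_pos h1, one_zsmul]
    exact ns_smul_sub hM hσ h1 h2 P
  · rw [sg, if_neg (by rw [h1]; exact hne.symm), neg_zsmul, one_zsmul, sub_neg_eq_add]
    exact ns_smul_add hM hσ h1 h2 P

end gal

/-! ### Two-torsion points with nonsingular reduction -/

section two

variable {K : Type*} [Field K] [DecidableEq K] {Γ₀ : Type*} [LinearOrderedCommGroupWithZero Γ₀]
  {v : Valuation K Γ₀} {W : WeierstrassCurve.Affine K} {x₀ y₀ α β D : K}

theorem two_tors_eq (hM : Mult v W x₀ y₀ α β D) {P : W.Point} (hP : P ≠ 0) (h2 : 2 • P = 0) :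
    (xc P - x₀) ^ 2 * (4 * (xc P - x₀) + (α - β) ^ 2) = -(4 * D) := by
  have hneg : -P = P := by
    rw [two_nsmul] at h2
    exact (eq_neg_of_add_eq_zero_left h2).symm
  have h1 := hM.uc_neg hP
  rw [hneg] at h1
  have h3 := hM.uc_mul hP
  have h4 : uc x₀ y₀ β P - uc x₀ y₀ α P = (α - β) * (xc P - x₀) := uc_sub P
  rw [h1] at h3 h4
  have h5 : 2 * uc x₀ y₀ β P = (α - β) * (xc P - x₀) := by linear_combination h4
  have h6 : 4 * uc x₀ y₀ β P ^ 2 = (α - β) ^ 2 * (xc P - x₀) ^ 2 := by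
    linear_combination (2 * uc x₀ y₀ β P + (α - β) * (xc P - x₀)) * h5
  linear_combination -4 * h3 - h6

theorem two_tors_lt (hM : Mult v W x₀ y₀ α β D) {P : W.Point} (hP : P ≠ 0) (h2 : 2 • P = 0)
    (hns : NS v P) (h4 : v 4 ≤ 1) : v (4 * (xc P - x₀) + (α - β) ^ 2) < 1 := by
  have h := two_tors_eq hM hP h2
  have hX := (hM.ns_iff hP).mp hns
  have h5 := congrArg v h
  rw [_root_.map_mul, map_pow, Valuation.map_neg, _root_.map_mul] at h5
  have h6 : v 4 * v D < 1 := lt_of_le_of_lt (mul_le_of_le_one_left' h4) hM.vD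
  rw [← h5] at h6
  refine lt_of_le_of_lt ?_ h6
  exact le_mul_of_one_le_left' (one_le_pow₀ hX)

theorem two_tors_unique (hM : Mult v W x₀ y₀ α β D) (h4 : v 4 ≤ 1) {P Q : W.Point} (hP : P ≠ 0)
    (hQ : Q ≠ 0) (hP2 : 2 • P = 0) (hQ2 : 2 • Q = 0) (hnP : NS v P) (hnQ : NS v Q) : P = Q := by
  by_contra hne
  have hneg : -Q = Q := by
    rw [two_nsmul] at hQ2
    exact (eq_neg_of_add_eq_zero_left hQ2).symm
  have hx := xc_ne hP hQ hne (by rw [hneg]; exact hne)
  have e1 := two_tors_eq hM hP hP2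
  have e2 := two_tors_eq hM hQ hQ2
  have l1 := two_tors_lt hM hP hP2 hnP h4
  have l2 := two_tors_lt hM hQ hQ2 hnQ h4
  set X₁ := xc P - x₀ with hX1
  set X₂ := xc Q - x₀ with hX2
  set δ := α - β with hδ
  set u₁ := 4 * X₁ + δ ^ 2 with hu1
  set u₂ := 4 * X₂ + δ ^ 2 with hu2
  have h0 : X₁ - X₂ ≠ 0 := by
    rw [hX1, hX2, sub_sub_sub_cancel_right]
    exact sub_ne_zero.mpr hx
  have h5 : 4 * (X₁ ^ 2 + X₁ * X₂ + X₂ ^ 2) + δ ^ 2 * (X₁ + X₂) = 0 := by
    apply mul_left_cancel₀ h0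
    rw [mul_zero]
    linear_combination e1 - e2
  have h6 : δ ^ 4 = -(u₁ * u₁ + u₁ * u₂ + u₂ * u₂ - 2 * δ ^ 2 * (u₁ + u₂)) := by
    rw [hu1, hu2]
    linear_combination 4 * h5
  have hvδ : v δ = 1 := hM.vδ
  have h7 : v (δ ^ 4) = 1 := by rw [map_pow, hvδ, one_pow]
  have hv2 : v (2 * δ ^ 2) ≤ 1 := by
    rw [_root_.map_mul, map_pow, hvδ, one_pow, mul_one]
    by_contra h
    rw [not_le] at h
    have : v 4 = v 2 * v 2 := by rw [← _root_.map_mul]; norm_num
    rw [this] at h4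
    exact absurd (lt_of_lt_of_le (one_lt_mul'' h h) h4) (lt_irrefl _)
  have m1 : v (u₁ * u₁) < 1 := by
    rw [_root_.map_mul]; exact lt_of_le_of_lt (mul_le_of_le_one_right' l1.le) l1
  have m2 : v (u₁ * u₂) < 1 := by
    rw [_root_.map_mul]; exact lt_of_le_of_lt (mul_le_of_le_one_right' l2.le) l1
  have m3 : v (u₂ * u₂) < 1 := by
    rw [_root_.map_mul]; exact lt_of_le_of_lt (mul_le_of_le_one_right' l2.le) l2
  have m4 : v (2 * δ ^ 2 * (u₁ + u₂)) < 1 := by
    rw [_root_.map_mul]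
    refine lt_of_le_of_lt (mul_le_of_le_one_left' hv2) ?_
    exact (v.map_add_lt l1 l2)
  have m5 : v (δ ^ 4) < 1 := by
    rw [h6, Valuation.map_neg]
    refine v.map_sub_lt (v.map_add_lt (v.map_add_lt m1 m2) m3) m4
  rw [h7] at m5
  exact lt_irrefl _ m5

end two

local notation "Qbar" => AlgebraicClosure ℚ
local notation "Γℚ" => (AlgebraicClosure ℚ ≃ₐ[ℚ] AlgebraicClosure ℚ)

section form

variable {R T : Type*} [CommRing R] [AddCommGroup T] [Module R T]
  (b : Module.Basis (Fin 2) R T)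

/-- the alternating form of a basis -/
noncomputable def om (x y : T) : R := b.repr x 0 * b.repr y 1 - b.repr x 1 * b.repr y 0

theorem om_add_left (x x' y : T) : om b (x + x') y = om b x y + om b x' y := by
  simp only [om, map_add, Finsupp.add_apply]; ring

theorem om_sub_right (x y y' : T) : om b x (y - y') = om b x y - om b x y' := by
  simp only [om, map_sub, Finsupp.sub_apply]; ring

theorem om_smul_left (c : R) (x y : T) : om b (c • x) y = c * om b x y := by
  simp only [om, map_smul, Finsupp.smul_apply, smul_eq_mul]; ring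

theorem om_smul_right (c : R) (x y : T) : om b x (c • y) = c * om b x y := by
  simp only [om, map_smul, Finsupp.smul_apply, smul_eq_mul]; ring

theorem om_cramer (x y z : T) : om b x y • z = om b z y • x - om b z x • y := by
  apply b.repr.injective
  ext i
  simp only [om, map_smul, map_sub, Finsupp.smul_apply, Finsupp.sub_apply, smul_eq_mul]
  fin_cases i
  · simp only [Fin.zero_eta]; ring
  · simp only [Fin.mk_one]; ring

theorem om_map (f : Module.End R T) (x y : T) :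
    om b (f x) (f y) = LinearMap.det f * om b x y := by
  have h (z : T) (i : Fin 2) : b.repr (f z) i =
      LinearMap.toMatrix b b f i 0 * b.repr z 0 + LinearMap.toMatrix b b f i 1 * b.repr z 1 := by
    have := congrFun (LinearMap.toMatrix_mulVec_repr b b f z) i
    rw [← this, Matrix.mulVec, dotProduct, Fin.sum_univ_two]
  rw [← LinearMap.det_toMatrix b, Matrix.det_fin_two, om, om, h, h, h, h]
  ring

theorem eq_zero_of_om {z : T} (h : ∀ x, om b x z = 0) : z = 0 := by
  apply b.repr.injective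
  rw [_root_.map_zero]
  ext i
  fin_cases i
  · have := h (b 1)
    rw [om, b.repr_self] at this
    simpa using this
  · have := h (b 0)
    rw [om, b.repr_self] at this
    simpa using this

end form

section tate

variable {W : WeierstrassCurve ℤ} {A : ValuationSubring (AlgebraicClosure ℚ)} {q : ℕ}
  {l : ℕ} [Fact l.Prime] {x₀ y₀ α β D : Qbar}

lemma ns_nsmul (hM : Mult A.valuation ((toRat W)⁄Qbar) x₀ y₀ α β D)
    {P : ((toRat W)⁄Qbar).Point} (h : NS A.valuation P) (n : ℕ) : NS A.valuation (n • P) := by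
  induction n with
  | zero => rw [zero_nsmul]; exact Or.inl rfl
  | succ n ih => rw [succ_nsmul]; exact ns_add hM.int ih h

/-- The part of the Tate module with nonsingular reduction. -/
def TNS (l : ℕ) [Fact l.Prime] (hM : Mult A.valuation ((toRat W)⁄Qbar) x₀ y₀ α β D) :
    Submodule ℤ_[l] (TateW (toRat W) l) where
  carrier := {x | ∀ n, NS A.valuation (x.1 n)}
  zero_mem' n := Or.inl rfl
  add_mem' ha hb n := ns_add hM.int (ha n) (hb n)
  smul_mem' c x hx n := by
    rw [Tate.smul_coe]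
    exact ns_nsmul hM (hx n) _

theorem mem_TNS {hM : Mult A.valuation ((toRat W)⁄Qbar) x₀ y₀ α β D} {x : TateW (toRat W) l} :
    x ∈ TNS l hM ↔ ∀ n, NS A.valuation (x.1 n) := Iff.rfl

theorem gal_sub_mem (hM : Mult A.valuation ((toRat W)⁄Qbar) x₀ y₀ α β D) {σ : Γℚ}
    (hσ : σ ∈ A.decompositionSubgroup ℚ) (x : TateW (toRat W) l) :
    tateGal (toRat W) l σ x - ((sg α σ : ℤ) : ℤ_[l]) • x ∈ TNS l hM := by
  intro n
  rw [Tate.coe_sub, tateGal_coe, Tate.intCast_smul]
  exact ns_smul_sg hM hσ _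

theorem gal_mem (hM : Mult A.valuation ((toRat W)⁄Qbar) x₀ y₀ α β D) {σ : Γℚ}
    (hσ : σ ∈ A.decompositionSubgroup ℚ) {x : TateW (toRat W) l} (hx : x ∈ TNS l hM) :
    tateGal (toRat W) l σ x ∈ TNS l hM := fun n => by
  rw [tateGal_coe]
  exact (hM.ns_smul_iff hσ _).mpr (hx n)

theorem mem_of_pow_smul (hM : Mult A.valuation ((toRat W)⁄Qbar) x₀ y₀ α β D) {k : ℕ}
    {x : TateW (toRat W) l} (hx : ((l : ℤ_[l]) ^ k) • x ∈ TNS l hM) : x ∈ TNS l hM := by
  intro n
  have := hx (n + k)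
  rw [← Nat.cast_pow, Tate.natCast_smul, x.pow_smul] at this
  exact this

variable (hΔ : W.Δ ≠ 0)

theorem om_eq_zero (hΔ : W.Δ ≠ 0) (hM : Mult A.valuation ((toRat W)⁄Qbar) x₀ y₀ α β D)
    (hl : ∃ P : ((toRat W)⁄Qbar).Point, l • P = 0 ∧ ¬ NS A.valuation P)
    (b : Module.Basis (Fin 2) ℤ_[l] (TateW (toRat W) l)) {y y' : TateW (toRat W) l}
    (hy : y ∈ TNS l hM) (hy' : y' ∈ TNS l hM) : om b y y' = 0 := by
  by_contra hne
  have key : ∀ z : TateW (toRat W) l, z ∈ TNS l hM := by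
    intro z
    have h1 : om b y y' • z ∈ TNS l hM := by
      rw [om_cramer]
      exact sub_mem (Submodule.smul_mem _ _ hy) (Submodule.smul_mem _ _ hy')
    have h2 := PadicInt.unitCoeff_spec hne
    apply mem_of_pow_smul hM (k := (om b y y').valuation)
    have h3 : ((l : ℤ_[l]) ^ (om b y y').valuation) • z =
        ((PadicInt.unitCoeff hne)⁻¹ : ℤ_[l]ˣ).1 • (om b y y' • z) := by
      rw [smul_smul]
      congr 1
      nth_rw 3 [h2]
      rw [← mul_assoc, Units.inv_mul, one_mul]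
    rw [h3]
    exact Submodule.smul_mem _ _ h1
  obtain ⟨P, hP, hns⟩ := hl
  obtain ⟨x, hx⟩ := exists_lift (hcard_of_Δ (l := l) (toRat_Δ_ne_zero hΔ)) (n := 1) (x := P) (by
    rw [pow_one]; exact hP)
  apply hns
  rw [← hx]
  exact key x _

/-- The action on the part with nonsingular reduction. -/
theorem gal_eq_of_mem (hΔ : W.Δ ≠ 0) (hM : Mult A.valuation ((toRat W)⁄Qbar) x₀ y₀ α β D)
    (hl : ∃ P : ((toRat W)⁄Qbar).Point, l • P = 0 ∧ ¬ NS A.valuation P) {σ : Γℚ}
    (hσ : σ ∈ A.decompositionSubgroup ℚ) {y : TateW (toRat W) l} (hy : y ∈ TNS l hM) :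
    tateGal (toRat W) l σ y =
      (LinearMap.det (tateGal (toRat W) l σ) * ((sg α σ : ℤ) : ℤ_[l])) • y := by
  obtain ⟨b⟩ := tate_exists_basis (l := l) (toRat_Δ_ne_zero hΔ)
  have hs : ((sg α σ : ℤ) : ℤ_[l]) * ((sg α σ : ℤ) : ℤ_[l]) = 1 := by
    rw [sg]; split_ifs <;> norm_num
  rw [← sub_eq_zero]
  apply eq_zero_of_om b
  intro x
  have h1 := om_map b (tateGal (toRat W) l σ) x y
  have h2 : tateGal (toRat W) l σ x = ((sg α σ : ℤ) : ℤ_[l]) • x +
      (tateGal (toRat W) l σ x - ((sg α σ : ℤ) : ℤ_[l]) • x) := by abel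
  rw [h2, om_add_left, om_eq_zero hΔ hM hl b (gal_sub_mem hM hσ x) (gal_mem hM hσ hy), add_zero,
    om_smul_left] at h1
  rw [om_sub_right, om_smul_right]
  linear_combination ((sg α σ : ℤ) : ℤ_[l]) * h1 - om b x (tateGal (toRat W) l σ y) * hs

/-- **The Steinberg condition.** -/
theorem star_tate (hΔ : W.Δ ≠ 0) (hM : Mult A.valuation ((toRat W)⁄Qbar) x₀ y₀ α β D)
    (hl : ∃ P : ((toRat W)⁄Qbar).Point, l • P = 0 ∧ ¬ NS A.valuation P) {σ τ : Γℚ}
    (hσ : σ ∈ A.decompositionSubgroup ℚ) (hτ : τ ∈ A.decompositionSubgroup ℚ) :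
    (tateGal (toRat W) l σ - algebraMap ℤ_[l] (Module.End ℤ_[l] (TateW (toRat W) l))
      (LinearMap.det (tateGal (toRat W) l σ) * ((sg α σ : ℤ) : ℤ_[l]))) *
    (tateGal (toRat W) l τ - algebraMap ℤ_[l] (Module.End ℤ_[l] (TateW (toRat W) l))
      ((sg α τ : ℤ) : ℤ_[l])) = 0 := by
  refine LinearMap.ext fun x => ?_
  rw [Module.End.mul_apply, LinearMap.sub_apply, LinearMap.sub_apply, Module.algebraMap_end_apply,
    Module.algebraMap_end_apply, gal_eq_of_mem hΔ hM hl hσ (gal_sub_mem hM hτ x), sub_self]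
  rfl

end tate

/-- There is a two-torsion point with singular reduction. -/
theorem exists_not_ns_two {W : WeierstrassCurve ℤ} {A : ValuationSubring (AlgebraicClosure ℚ)}
    {x₀ y₀ α β D : Qbar} (hΔ : W.Δ ≠ 0)
    (hM : Mult A.valuation ((toRat W)⁄Qbar) x₀ y₀ α β D) :
    ∃ P : ((toRat W)⁄Qbar).Point, 2 • P = 0 ∧ ¬ NS A.valuation P := by
  classical
  by_contra hcon
  push Not at hcon
  have h4 : A.valuation (4 : Qbar) ≤ 1 := by
    rw [A.valuation_le_one_iff]
    exact ofNat_mem A 4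
  have hcard := card_tors (toRat W) (toRat_Δ_ne_zero hΔ) 2 two_ne_zero
  let f : {x : ((toRat W)⁄Qbar).Point // 2 • x = 0} → Bool := fun x => decide (x.1 = 0)
  have hf : Function.Injective f := by
    rintro ⟨P, hP⟩ ⟨Q, hQ⟩ h
    apply Subtype.ext
    change decide (P = 0) = decide (Q = 0) at h
    rw [decide_eq_decide] at h
    change P = Q
    by_cases hP0 : P = 0
    · rw [hP0, h.mp hP0]
    · exact two_tors_unique hM h4 hP0 (fun h' => hP0 (h.mpr h')) hP hQ (hcon P hP) (hcon Q hQ)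
  have := Nat.card_le_card_of_injective f hf
  rw [hcard, Nat.card_eq_fintype_card, Fintype.card_bool] at this
  omega

end Fermat.Agent.TwoAdic
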