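import Fermat.Agent.TwoAdic.EUnr

/-!
# The two-torsion of an elliptic curve, its discriminant and the quadratic field
-/

set_option autoImplicit false
set_option linter.unusedSectionVars false

namespace Fermat.Agent.TwoAdic

open Fermat.Agent.ECRep Fermat.Agent.Frob
open WeierstrassCurve WeierstrassCurve.Affine WeierstrassCurve.Affine.Point
open scoped WeierstrassCurve.Affine
open Fermat.Agent.EC Fermat.Agent.DivPoly Fermat.Agent.S13lib

local notation "Qbar" => AlgebraicClosure ℚ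
local notation "Γℚ" => (AlgebraicClosure ℚ ≃ₐ[ℚ] AlgebraicClosure ℚ)

/-! ### Numbers -/

/-- the product of the bad primes -/
def radN (n : ℕ) : ℕ := ∏ p ∈ n.primeFactors, p

theorem radN_ne_zero (n : ℕ) : radN n ≠ 0 :=
  Finset.prod_ne_zero_iff.mpr fun _ hp => (Nat.prime_of_mem_primeFactors hp).ne_zero

theorem squarefree_radN (n : ℕ) : Squarefree (radN n) := by
  rw [radN]
  apply Finset.squarefree_prod_of_pairwise_isCoprime
  · intro p hp q hq hne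
    rw [Function.onFun, ← Nat.coprime_iff_isRelPrime]
    exact (Nat.coprime_primes (Nat.prime_of_mem_primeFactors hp)
      (Nat.prime_of_mem_primeFactors hq)).mpr hne
  · intro p hp
    exact (Nat.prime_of_mem_primeFactors hp).prime.squarefree

theorem prime_dvd_radN {n p : ℕ} (hn : n ≠ 0) (hp : p.Prime) : p ∣ radN n ↔ p ∣ n := by
  constructor
  · intro h
    obtain ⟨q, hq, hpq⟩ := (hp.prime.dvd_finsetProd_iff _).mp h
    rw [(Nat.prime_dvd_prime_iff_eq hp (Nat.prime_of_mem_primeFactors hq)).mp hpq]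
    exact Nat.dvd_of_mem_primeFactors hq
  · intro h
    exact Finset.dvd_prod_of_mem _ (Nat.mem_primeFactors.mpr ⟨hp, h, hn⟩)

theorem exists_sq {n : ℕ} (hn : n ≠ 0) (h : ∀ p, p.Prime → p ∣ n → Odd (n.factorization p)) :
    ∃ m : ℕ, m ≠ 0 ∧ n = radN n * m ^ 2 := by
  refine ⟨∏ p ∈ n.primeFactors, p ^ ((n.factorization p - 1) / 2), ?_, ?_⟩
  · exact Finset.prod_ne_zero_iff.mpr fun p hp =>
      pow_ne_zero _ (Nat.prime_of_mem_primeFactors hp).ne_zero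
  · rw [radN, ← Finset.prod_pow, ← Finset.prod_mul_distrib]
    nth_rw 1 [← Nat.prod_factorization_pow_eq_self hn]
    rw [Finsupp.prod, Nat.support_factorization]
    refine Finset.prod_congr rfl fun p hp => ?_
    obtain ⟨k, hk⟩ := h p (Nat.prime_of_mem_primeFactors hp) (Nat.dvd_of_mem_primeFactors hp)
    rw [hk, ← pow_mul, ← pow_succ']
    congr 1
    omega

/-! ### The quadratic field -/

theorem fixK_iff {N : ℕ} {s : Qbar} (hs : s ^ 2 = -(N : Qbar)) (g : Γℚ) :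
    FixK N g ↔ g s = s := by
  constructor
  · intro h
    exact h s (IntermediateField.subset_adjoin ℚ _ hs)
  · intro h x hx
    have hle : KN N ≤ IntermediateField.fixedField (Subgroup.zpowers g) := by
      rw [KN, IntermediateField.adjoin_le_iff]
      intro y hy
      have hy' : y ^ 2 = s ^ 2 := by rw [hs]; exact hy
      have hgy : g y = y := by
        rcases sq_eq_sq_iff_eq_or_eq_neg.mp hy' with h1 | h1
        · rw [h1, h]
        · rw [h1, map_neg, h]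
      rw [SetLike.mem_coe, IntermediateField.mem_fixedField_iff]
      intro f hf
      obtain ⟨n, rfl⟩ := Subgroup.mem_zpowers_iff.mp hf
      have : g ∈ MulAction.stabilizer Γℚ y := hgy
      exact (MulAction.stabilizer Γℚ y).zpow_mem this n
    have := hle hx
    rw [IntermediateField.mem_fixedField_iff] at this
    exact this g (Subgroup.mem_zpowers g)

/-! ### The cubic -/

section cubic

variable {K : Type*} [Field K] {W : WeierstrassCurve.Affine K}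

theorem disc_eq {x₁ x₂ x₃ : K} (h2 : (2 : K) ≠ 0) (h12 : x₁ ≠ x₂) (h13 : x₁ ≠ x₃) (h23 : x₂ ≠ x₃)
    (e1 : 4 * x₁ ^ 3 + W.b₂ * x₁ ^ 2 + 2 * W.b₄ * x₁ + W.b₆ = 0)
    (e2 : 4 * x₂ ^ 3 + W.b₂ * x₂ ^ 2 + 2 * W.b₄ * x₂ + W.b₆ = 0)
    (e3 : 4 * x₃ ^ 3 + W.b₂ * x₃ ^ 2 + 2 * W.b₄ * x₃ + W.b₆ = 0) :
    (4 * ((x₁ - x₂) * (x₁ - x₃) * (x₂ - x₃))) ^ 2 = W.Δ := by
  have f12 : 4 * (x₁ ^ 2 + x₁ * x₂ + x₂ ^ 2) + W.b₂ * (x₁ + x₂) + 2 * W.b₄ = 0 := by
    apply mul_left_cancel₀ (sub_ne_zero.mpr h12)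
    linear_combination e1 - e2
  have f13 : 4 * (x₁ ^ 2 + x₁ * x₃ + x₃ ^ 2) + W.b₂ * (x₁ + x₃) + 2 * W.b₄ = 0 := by
    apply mul_left_cancel₀ (sub_ne_zero.mpr h13)
    linear_combination e1 - e3
  have g2 : W.b₂ = -(4 * (x₁ + x₂ + x₃)) := by
    apply mul_left_cancel₀ (sub_ne_zero.mpr h23)
    linear_combination f12 - f13
  have g4 : W.b₄ = 2 * (x₁ * x₂ + x₁ * x₃ + x₂ * x₃) := by
    apply mul_left_cancel₀ h2
    rw [g2] at f12
    linear_combination f12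
  have g6 : W.b₆ = -(4 * (x₁ * x₂ * x₃)) := by
    rw [g2, g4] at e1
    linear_combination e1
  have g8 : 4 * W.b₈ = W.b₂ * W.b₆ - W.b₄ ^ 2 := W.b_relation
  have h4 : (4 : K) ≠ 0 := by
    have : (4 : K) = 2 * 2 := by norm_num
    rw [this]; exact mul_ne_zero h2 h2
  apply mul_left_cancel₀ h4
  rw [WeierstrassCurve.Δ]
  rw [g2, g4, g6] at g8 ⊢
  linear_combination (4 * (x₁ + x₂ + x₃)) ^ 2 * g8

end cubic

/-! ### Matrices over `𝔽₂` -/

theorem mat_cases : ∀ M : Matrix (Fin 2) (Fin 2) (ZMod 2), M.det ≠ 0 → M = !![1, 0; 0, 1] ∨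
    M = !![0, 1; 1, 1] ∨ M = !![1, 1; 1, 0] ∨ M = !![0, 1; 1, 0] ∨ M = !![1, 1; 0, 1] ∨
    M = !![1, 0; 1, 1] := by
  decide

theorem mat_trace : ∀ M₁ M₂ M₃ : Matrix (Fin 2) (Fin 2) (ZMod 2), M₁.det ≠ 0 → M₂.det ≠ 0 →
    M₃.det ≠ 0 → M₁.mulVec ![1, 0] ≠ ![1, 0] → M₂.mulVec ![0, 1] ≠ ![0, 1] →
    M₃.mulVec ![1, 1] ≠ ![1, 1] → M₁.trace = 1 ∨ M₂.trace = 1 ∨ M₃.trace = 1 ∨
    (M₁ * M₂).trace = 1 ∨ (M₁ * M₃).trace = 1 ∨ (M₂ * M₃).trace = 1 := by
  decide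

set_option maxRecDepth 100000 in
set_option synthInstance.maxSize 1000 in
theorem mat_gen : ∀ c t M : Matrix (Fin 2) (Fin 2) (ZMod 2), c.det ≠ 0 → t.det ≠ 0 →
    M.det ≠ 0 → c.trace = 1 → t.trace ≠ 1 → t ≠ 1 → (M = c * c * c ∨ M = c ∨ M = c * c) ∨
      (M = t ∨ M = t * c ∨ M = t * (c * c)) := by
  decide

/-! ### The Galois action on the two-torsion -/

section gal

variable {W : WeierstrassCurve ℤ}

/-- a point of order two from its coordinates -/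
noncomputable def pt2 (b' : Module.Basis (Fin 2) (ZMod 2)
    (Submodule.torsionBy ℤ ((toRat W)⁄Qbar).Point ((2 : ℕ) : ℤ))) (v : Fin 2 → ZMod 2) :
    Submodule.torsionBy ℤ ((toRat W)⁄Qbar).Point ((2 : ℕ) : ℤ) := v 0 • b' 0 + v 1 • b' 1

/-- the `x`-coordinate -/
noncomputable def X2 (b' : Module.Basis (Fin 2) (ZMod 2)
    (Submodule.torsionBy ℤ ((toRat W)⁄Qbar).Point ((2 : ℕ) : ℤ))) (v : Fin 2 → ZMod 2) : Qbar :=
  xc (pt2 b' v : ((toRat W)⁄Qbar).Point)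

variable (b' : Module.Basis (Fin 2) (ZMod 2)
    (Submodule.torsionBy ℤ ((toRat W)⁄Qbar).Point ((2 : ℕ) : ℤ)))

theorem pt2_eq_zero {v : Fin 2 → ZMod 2} (h : pt2 b' v = 0) : v = 0 := by
  have h1 := congrArg b'.repr h
  rw [pt2, map_add, map_smul, map_smul, b'.repr_self, b'.repr_self, LinearEquiv.map_zero] at h1
  have h0 := DFunLike.congr_fun h1 0
  have h2 := DFunLike.congr_fun h1 1
  ext i
  fin_cases i
  · simpa using h0
  · simpa using h2

theorem pt2_inj {v w : Fin 2 → ZMod 2} (h : pt2 b' v = pt2 b' w) : v = w := by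
  rw [← sub_eq_zero]
  apply pt2_eq_zero b'
  rw [← sub_eq_zero] at h
  rw [← h, pt2, pt2, pt2, Pi.sub_apply, Pi.sub_apply, sub_smul, sub_smul]
  abel

theorem coe_pt2_ne_zero {v : Fin 2 → ZMod 2} (h : v ≠ 0) :
    (pt2 b' v : ((toRat W)⁄Qbar).Point) ≠ 0 := fun h' =>
  h (pt2_eq_zero b' (Subtype.ext h'))

theorem two_nsmul_pt2 (v : Fin 2 → ZMod 2) : 2 • (pt2 b' v : ((toRat W)⁄Qbar).Point) = 0 := by
  have := (pt2 b' v).2
  rw [Submodule.mem_torsionBy_iff, natCast_zsmul] at this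
  exact this

theorem X2_root {v : Fin 2 → ZMod 2} (h : v ≠ 0) :
    4 * X2 b' v ^ 3 + ((toRat W)⁄Qbar).b₂ * X2 b' v ^ 2 + 2 * ((toRat W)⁄Qbar).b₄ * X2 b' v +
      ((toRat W)⁄Qbar).b₆ = 0 := by
  have h0 := coe_pt2_ne_zero b' h
  have h1 := two_nsmul_pt2 b' v
  rw [two_nsmul] at h1
  have h2 := psi2_sq h0
  rw [psi2_eq_zero h0 h1] at h2
  rw [X2, ← h2]
  ring

theorem X2_inj {v w : Fin 2 → ZMod 2} (hv : v ≠ 0) (hw : w ≠ 0) (h : X2 b' v = X2 b' w) :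
    v = w := by
  have hw2 := two_nsmul_pt2 b' w
  rw [two_nsmul] at hw2
  rcases eq_or_eq_neg (coe_pt2_ne_zero b' hv) (coe_pt2_ne_zero b' hw) h with h1 | h1
  · exact pt2_inj b' (Subtype.ext h1)
  · rw [← eq_neg_of_add_eq_zero_left hw2] at h1
    exact pt2_inj b' (Subtype.ext h1)

/-- the matrix of `σ` -/
noncomputable def M2 (σ : Γℚ) : Matrix (Fin 2) (Fin 2) (ZMod 2) :=
  LinearMap.toMatrix b' b' (galoisRepModuleEnd (K := Qbar) ℚ (toRat W) 2 σ)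

theorem gal_pt2 (σ : Γℚ) (v : Fin 2 → ZMod 2) :
    galoisRepModuleEnd (K := Qbar) ℚ (toRat W) 2 σ (pt2 b' v) =
      pt2 b' ((M2 b' σ).mulVec v) := by
  have h : ∀ j, galoisRepModuleEnd (K := Qbar) ℚ (toRat W) 2 σ (b' j) =
      M2 b' σ 0 j • b' 0 + M2 b' σ 1 j • b' 1 := by
    intro j
    rw [M2, LinearMap.toMatrix_apply, LinearMap.toMatrix_apply, ← Fin.sum_univ_two
      (f := fun i => b'.repr (galoisRepModuleEnd (K := Qbar) ℚ (toRat W) 2 σ (b' j)) i • b' i),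
      b'.sum_repr]
  rw [pt2, map_add, map_smul, map_smul, h, h, pt2, Matrix.mulVec, Matrix.mulVec, dotProduct,
    dotProduct, Fin.sum_univ_two, Fin.sum_univ_two]
  module

theorem gal_X2 (σ : Γℚ) (v : Fin 2 → ZMod 2) :
    σ (X2 b' v) = X2 b' ((M2 b' σ).mulVec v) := by
  rw [X2, X2, ← gal_pt2, ← xc_smul]
  rfl

theorem M2_mul (σ τ : Γℚ) : M2 b' (σ * τ) = M2 b' σ * M2 b' τ := by
  rw [M2, map_mul, Module.End.mul_eq_comp, LinearMap.toMatrix_comp b' b' b']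
  rfl

theorem M2_one : M2 b' 1 = 1 := by
  rw [M2, map_one]
  exact LinearMap.toMatrix_one b'

theorem M2_det_ne_zero (σ : Γℚ) : (M2 b' σ).det ≠ 0 := by
  intro h
  have h1 := M2_mul b' σ σ⁻¹
  rw [mul_inv_cancel, M2_one] at h1
  have h2 := congrArg Matrix.det h1
  rw [Matrix.det_one, Matrix.det_mul, h, zero_mul] at h2
  exact one_ne_zero h2

/-- the square root of the discriminant -/
noncomputable def dd : Qbar :=
  4 * ((X2 b' ![1, 0] - X2 b' ![0, 1]) * (X2 b' ![1, 0] - X2 b' ![1, 1]) *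
    (X2 b' ![0, 1] - X2 b' ![1, 1]))

theorem dd_sq : dd b' ^ 2 = (W.Δ : Qbar) := by
  have h : ((toRat W)⁄Qbar).Δ = (W.Δ : Qbar) := by
    change ((toRat W).map (algebraMap ℚ Qbar)).Δ = _
    rw [map_Δ, map_Δ]
    simp
  rw [dd, ← h]
  refine disc_eq two_ne_zero ?_ ?_ ?_ (X2_root b' (by decide)) (X2_root b' (by decide))
    (X2_root b' (by decide))
  · exact fun h' => absurd (X2_inj b' (by decide) (by decide) h') (by decide)
  · exact fun h' => absurd (X2_inj b' (by decide) (by decide) h') (by decide)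
  · exact fun h' => absurd (X2_inj b' (by decide) (by decide) h') (by decide)

theorem gal_dd_of_trace (σ : Γℚ) (h : M2 b' σ = 1 ∨ (M2 b' σ).trace = 1) :
    σ (dd b') = dd b' := by
  have h4 : σ (4 : Qbar) = 4 := map_ofNat σ 4
  rw [dd]
  simp only [_root_.map_mul, map_sub, gal_X2, h4]
  rcases mat_cases _ (M2_det_ne_zero b' σ) with h1 | h1 | h1 | h1 | h1 | h1 <;> rw [h1] at h ⊢
  · have e1 : ∀ v : Fin 2 → ZMod 2,
        (!![1, 0; 0, 1] : Matrix (Fin 2) (Fin 2) (ZMod 2)).mulVec v = v := by decide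
    rw [e1, e1, e1]
  · have e1 : (!![0, 1; 1, 1] : Matrix (Fin 2) (Fin 2) (ZMod 2)).mulVec ![1, 0] = ![0, 1] := by
      decide
    have e2 : (!![0, 1; 1, 1] : Matrix (Fin 2) (Fin 2) (ZMod 2)).mulVec ![0, 1] = ![1, 1] := by
      decide
    have e3 : (!![0, 1; 1, 1] : Matrix (Fin 2) (Fin 2) (ZMod 2)).mulVec ![1, 1] = ![1, 0] := by
      decide
    rw [e1, e2, e3]; ring
  · have e1 : (!![1, 1; 1, 0] : Matrix (Fin 2) (Fin 2) (ZMod 2)).mulVec ![1, 0] = ![1, 1] := by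
      decide
    have e2 : (!![1, 1; 1, 0] : Matrix (Fin 2) (Fin 2) (ZMod 2)).mulVec ![0, 1] = ![1, 0] := by
      decide
    have e3 : (!![1, 1; 1, 0] : Matrix (Fin 2) (Fin 2) (ZMod 2)).mulVec ![1, 1] = ![0, 1] := by
      decide
    rw [e1, e2, e3]; ring
  · exact absurd h (by decide)
  · exact absurd h (by decide)
  · exact absurd h (by decide)

theorem gal_dd_of_not (σ : Γℚ) (h : ¬ (M2 b' σ = 1 ∨ (M2 b' σ).trace = 1)) :
    σ (dd b') = - dd b' := by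
  have h4 : σ (4 : Qbar) = 4 := map_ofNat σ 4
  rw [dd]
  simp only [_root_.map_mul, map_sub, gal_X2, h4]
  rcases mat_cases _ (M2_det_ne_zero b' σ) with h1 | h1 | h1 | h1 | h1 | h1 <;> rw [h1] at h ⊢
  · exact absurd (by decide) h
  · exact absurd (by decide) h
  · exact absurd (by decide) h
  · have e1 : (!![0, 1; 1, 0] : Matrix (Fin 2) (Fin 2) (ZMod 2)).mulVec ![1, 0] = ![0, 1] := by
      decide
    have e2 : (!![0, 1; 1, 0] : Matrix (Fin 2) (Fin 2) (ZMod 2)).mulVec ![0, 1] = ![1, 0] := by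
      decide
    have e3 : (!![0, 1; 1, 0] : Matrix (Fin 2) (Fin 2) (ZMod 2)).mulVec ![1, 1] = ![1, 1] := by
      decide
    rw [e1, e2, e3]; ring
  · have e1 : (!![1, 1; 0, 1] : Matrix (Fin 2) (Fin 2) (ZMod 2)).mulVec ![1, 0] = ![1, 0] := by
      decide
    have e2 : (!![1, 1; 0, 1] : Matrix (Fin 2) (Fin 2) (ZMod 2)).mulVec ![0, 1] = ![1, 1] := by
      decide
    have e3 : (!![1, 1; 0, 1] : Matrix (Fin 2) (Fin 2) (ZMod 2)).mulVec ![1, 1] = ![0, 1] := by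
      decide
    rw [e1, e2, e3]; ring
  · have e1 : (!![1, 0; 1, 1] : Matrix (Fin 2) (Fin 2) (ZMod 2)).mulVec ![1, 0] = ![1, 1] := by
      decide
    have e2 : (!![1, 0; 1, 1] : Matrix (Fin 2) (Fin 2) (ZMod 2)).mulVec ![0, 1] = ![0, 1] := by
      decide
    have e3 : (!![1, 0; 1, 1] : Matrix (Fin 2) (Fin 2) (ZMod 2)).mulVec ![1, 1] = ![1, 0] := by
      decide
    rw [e1, e2, e3]; ring

/-- **Even permutations of the two-torsion fix the square root of the discriminant.** -/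
theorem gal_dd_iff (hΔ : W.Δ ≠ 0) (σ : Γℚ) :
    σ (dd b') = dd b' ↔ (M2 b' σ = 1 ∨ (M2 b' σ).trace = 1) := by
  refine ⟨fun h => ?_, gal_dd_of_trace b' σ⟩
  by_contra hcon
  rw [gal_dd_of_not b' σ hcon] at h
  have h1 : dd b' = 0 := by
    have : (2 : Qbar) * dd b' = 0 := by linear_combination -h
    exact (mul_eq_zero.mp this).resolve_left two_ne_zero
  have h2 := dd_sq b'
  rw [h1, zero_pow two_ne_zero] at h2
  exact hΔ (by exact_mod_cast h2.symm)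

/-- **Surjectivity** of the representation on the two-torsion. -/
theorem M2_surj (hirr : ∀ x : ℚ, 4 * x ^ 3 + (W.b₂ : ℚ) * x ^ 2 + 2 * (W.b₄ : ℚ) * x + W.b₆ ≠ 0)
    (hodd : ∃ σ : Γℚ, M2 b' σ ≠ 1 ∧ (M2 b' σ).trace ≠ 1)
    (M : Matrix (Fin 2) (Fin 2) (ZMod 2)) (hM : M.det ≠ 0) : ∃ σ : Γℚ, M2 b' σ = M := by
  have hmove : ∀ v : Fin 2 → ZMod 2, v ≠ 0 → ∃ σ : Γℚ, (M2 b' σ).mulVec v ≠ v := by
    intro v hv
    by_contra hcon
    push Not at hcon
    have h1 : ∀ σ : Γℚ, σ (X2 b' v) = X2 b' v := fun σ => by rw [gal_X2, hcon]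
    obtain ⟨x, hx⟩ := (InfiniteGalois.mem_range_algebraMap_iff_fixed (X2 b' v)).mpr h1
    apply hirr x
    have h2 := X2_root b' hv
    have e : ∀ n : ℤ, algebraMap ℚ Qbar (Int.castRingHom ℚ n) = (n : Qbar) := fun n => by simp
    have b2 : ((toRat W)⁄Qbar).b₂ = algebraMap ℚ Qbar (W.b₂ : ℚ) := by
      change ((toRat W).map (algebraMap ℚ Qbar)).b₂ = _
      rw [map_b₂, map_b₂]; rfl
    have b4 : ((toRat W)⁄Qbar).b₄ = algebraMap ℚ Qbar (W.b₄ : ℚ) := by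
      change ((toRat W).map (algebraMap ℚ Qbar)).b₄ = _
      rw [map_b₄, map_b₄]; rfl
    have b6 : ((toRat W)⁄Qbar).b₆ = algebraMap ℚ Qbar (W.b₆ : ℚ) := by
      change ((toRat W).map (algebraMap ℚ Qbar)).b₆ = _
      rw [map_b₆, map_b₆]; rfl
    rw [b2, b4, b6, ← hx] at h2
    apply (algebraMap ℚ Qbar).injective
    rw [_root_.map_zero, ← h2]
    simp only [map_add, _root_.map_mul, map_pow, map_ofNat]
  obtain ⟨σ₁, h1⟩ := hmove ![1, 0] (by decide)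
  obtain ⟨σ₂, h2⟩ := hmove ![0, 1] (by decide)
  obtain ⟨σ₃, h3⟩ := hmove ![1, 1] (by decide)
  obtain ⟨c, hc⟩ : ∃ c : Γℚ, (M2 b' c).trace = 1 := by
    rcases mat_trace _ _ _ (M2_det_ne_zero b' σ₁) (M2_det_ne_zero b' σ₂) (M2_det_ne_zero b' σ₃)
      h1 h2 h3 with h | h | h | h | h | h
    · exact ⟨_, h⟩
    · exact ⟨_, h⟩
    · exact ⟨_, h⟩
    · exact ⟨σ₁ * σ₂, by rw [M2_mul]; exact h⟩
    · exact ⟨σ₁ * σ₃, by rw [M2_mul]; exact h⟩
    · exact ⟨σ₂ * σ₃, by rw [M2_mul]; exact h⟩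
  obtain ⟨t, ht1, ht2⟩ := hodd
  rcases mat_gen _ _ M (M2_det_ne_zero b' c) (M2_det_ne_zero b' t) hM hc ht2 ht1 with
    (h | h | h) | (h | h | h)
  · exact ⟨c * c * c, by rw [M2_mul, M2_mul, h]⟩
  · exact ⟨c, h.symm⟩
  · exact ⟨c * c, by rw [M2_mul, h]⟩
  · exact ⟨t, h.symm⟩
  · exact ⟨t * c, by rw [M2_mul, h]⟩
  · exact ⟨t * (c * c), by rw [M2_mul, M2_mul, h]⟩

end gal

end Fermat.Agent.TwoAdic
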