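import Fermat.Agent.TwoAdic.EStar

/-!
# The sign of a multiplicative prime is the unramified quadratic character
-/

set_option autoImplicit false
set_option linter.unusedSectionVars false

namespace Fermat.Agent.TwoAdic

open Fermat.Agent.ECRep Fermat.Agent.Frob
open WeierstrassCurve WeierstrassCurve.Affine WeierstrassCurve.Affine.Point
open scoped WeierstrassCurve.Affine
open Fermat.Agent.EC Fermat.Agent.DivPoly Fermat.Agent.S13lib

local notation "Qbar" => AlgebraicClosure ℚ
local notation "Γℚ" => (AlgebraicClosure ℚ ≃ₐ[ℚ] AlgebraicClosure ℚ)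

/-- In characteristic `p`, elements fixed by Frobenius are natural numbers. -/
theorem nat_of_pow_eq {p : ℕ} [hp : Fact p.Prime] {F : Type*} [Field F] [CharP F p] {x : F}
    (hx : x ^ p = x) : ∃ a : ℕ, x = a := by
  have h := (Subfield.mem_bot_iff_pow_eq_self F p).mpr hx
  rw [← ZMod.fieldRange_castHom_eq_bot p] at h
  obtain ⟨a, rfl⟩ := h
  exact ⟨a.val, by simp⟩

section res

variable {A : ValuationSubring (AlgebraicClosure ℚ)} {q : ℕ}

theorem res_eq_iff {x y : Qbar} (hx : x ∈ A) (hy : y ∈ A) :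
    IsLocalRing.residue A ⟨x, hx⟩ = IsLocalRing.residue A ⟨y, hy⟩ ↔ A.valuation (x - y) < 1 := by
  rw [← sub_eq_zero, ← map_sub, IsLocalRing.residue_eq_zero_iff]
  exact (ValuationSubring.valuation_lt_one_iff A _)

theorem charP_res (hq : q.Prime) (hA : A.LiesOverPrime q) :
    CharP (IsLocalRing.ResidueField A) q :=
  (CharP.charP_iff_prime_eq_zero hq).mpr (residue_natCast_eq_zero hA)

theorem v_apply {σ : Γℚ} (hσ : σ ∈ A.decompositionSubgroup ℚ) (x : Qbar) :
    A.valuation (σ x) = A.valuation x := ECRep.v_smul hσ x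

theorem mem_apply {σ : Γℚ} (hσ : σ ∈ A.decompositionSubgroup ℚ) {x : Qbar} (hx : x ∈ A) :
    σ x ∈ A := by
  rw [← A.valuation_le_one_iff, v_apply hσ, A.valuation_le_one_iff]
  exact hx

/-- elements of the residue field fixed by the Frobenius -/
theorem exists_nat_lt (hq : q.Prime) (hA : A.LiesOverPrime q) {x : Qbar} (hx : x ∈ A)
    (h : A.valuation (x ^ q - x) < 1) : ∃ n : ℕ, A.valuation (x - n) < 1 := by
  have := charP_res hq hA
  have : Fact q.Prime := ⟨hq⟩
  have h1 : IsLocalRing.residue A ⟨x, hx⟩ ^ q = IsLocalRing.residue A ⟨x, hx⟩ := by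
    rw [← map_pow]
    exact (res_eq_iff (pow_mem hx q) hx).mpr h
  obtain ⟨n, hn⟩ := nat_of_pow_eq h1
  refine ⟨n, ?_⟩
  rw [← res_eq_iff hx (natCast_mem A n), hn]
  exact (map_natCast (IsLocalRing.residue A) n).symm

/-- an element of the decomposition group does not move an element congruent to an integer -/
theorem lt_of_nat {σ : Γℚ} (hσ : σ ∈ A.decompositionSubgroup ℚ) {x : Qbar} {n : ℕ}
    (h : A.valuation (x - n) < 1) : A.valuation (σ x - x) < 1 := by
  have h1 : A.valuation (σ x - n) < 1 := by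
    rw [← v_apply hσ, map_sub, map_natCast] at h
    exact h
  have h2 : σ x - x = (σ x - n) - (x - n) := by ring
  rw [h2]
  exact Valuation.map_sub_lt _ h1 h

/-- roots of unity of order prime to `q` are determined by their residue -/
theorem root_eq (hq : q.Prime) (hA : A.LiesOverPrime q) {ζ ξ : Qbar} (h1 : ζ ^ (q ^ 2 - 1) = 1)
    (h2 : ξ ^ (q ^ 2 - 1) = 1) (h : A.valuation (ζ - ξ) < 1) : ζ = ξ := by
  have := charP_res hq hA
  have hN0 : q ^ 2 - 1 ≠ 0 := by
    have := hq.two_le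
    have : 2 ^ 2 ≤ q ^ 2 := Nat.pow_le_pow_left this 2
    omega
  by_contra hne
  have hξ0 : ξ ≠ 0 := by
    rintro rfl
    rw [zero_pow hN0] at h2
    exact zero_ne_one h2
  have hv : A.valuation ξ = 1 := pow_eq_one_valuation hN0 h2
  refine not_lt_one_of_pow_eq_one (A := A) (ζ := ζ / ξ) hN0 ?_ ?_ ?_ ?_
  · have : ((q ^ 2 - 1 : ℕ) : IsLocalRing.ResidueField A) + 1 = ((q ^ 2 - 1 + 1 : ℕ) :
        IsLocalRing.ResidueField A) := by push_cast; rfl
    rw [this, Nat.sub_add_cancel (by have := hq.one_lt; exact Nat.one_le_pow _ _ (by omega)),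
      CharP.cast_eq_zero_iff _ q]
    exact dvd_pow_self q two_ne_zero
  · rw [div_pow, h1, h2, div_one]
  · intro h'
    exact hne ((div_eq_one_iff_eq hξ0).mp h')
  · have : ζ / ξ - 1 = (ζ - ξ) / ξ := by field_simp
    rw [this, map_div₀, hv, div_one]
    exact h

/-- lifts of elements of the quadratic extension of the prime field -/
theorem exists_root (hq : q.Prime) {a : Qbar}
    (ha : A.valuation a = 1) (h : A.valuation (a ^ (q ^ 2) - a) < 1) :
    ∃ w : Qbar, w ^ (q ^ 2 - 1) = 1 ∧ A.valuation (a - w) < 1 := by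
  have hN0 : q ^ 2 - 1 ≠ 0 := by
    have := hq.two_le
    have : 2 ^ 2 ≤ q ^ 2 := Nat.pow_le_pow_left this 2
    omega
  set N := q ^ 2 - 1 with hN
  have hN1 : q ^ 2 = N + 1 := by omega
  obtain ⟨ζ, hζ⟩ : ∃ ζ : Qbar, IsPrimitiveRoot ζ N := by
    have : NeZero N := ⟨hN0⟩
    exact HasEnoughRootsOfUnity.exists_primitiveRoot Qbar N
  have hprod : a ^ N - 1 = ∏ w ∈ Polynomial.nthRootsFinset N (1 : Qbar), (a - w) := by
    have := congrArg (Polynomial.eval a)
      (Polynomial.X_pow_sub_one_eq_prod (Nat.pos_of_ne_zero hN0) hζ)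
    simpa [Polynomial.eval_prod] using this
  have hlt : A.valuation (a ^ N - 1) < 1 := by
    have h1 : a ^ (q ^ 2) - a = (a ^ N - 1) * a := by rw [hN1]; ring
    rw [h1, _root_.map_mul, ha, mul_one] at h
    exact h
  have hex : ∃ w ∈ Polynomial.nthRootsFinset N (1 : Qbar), A.valuation (a - w) < 1 := by
    by_contra hcon
    push Not at hcon
    rw [hprod, map_prod] at hlt
    have : (1 : A.ValueGroup) ≤ ∏ w ∈ Polynomial.nthRootsFinset N (1 : Qbar),
        A.valuation (a - w) := Finset.one_le_prod' hcon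
    exact absurd hlt (not_lt.mpr this)
  obtain ⟨w, hw, hwlt⟩ := hex
  rw [Polynomial.mem_nthRootsFinset (Nat.pos_of_ne_zero hN0)] at hw
  exact ⟨w, hw, hwlt⟩

/-- **Split case**: the decomposition group fixes the branches. -/
theorem fix_of_split (hq : q.Prime) (hA : A.LiesOverPrime q) {W : WeierstrassCurve ℚ}
    {x₀ y₀ α β D : Qbar} (hM : Mult A.valuation (W⁄Qbar) x₀ y₀ α β D) {F : Γℚ}
    (hF : A.IsFrobeniusAt F q) (hα : F α = α) {σ : Γℚ} (hσ : σ ∈ A.decompositionSubgroup ℚ) :
    σ α = α := by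
  have hmem : α ∈ A := (A.valuation_le_one_iff α).mp hM.vα
  have h1 := ((isFrobeniusAt_iff A F q).mp hF).2 α hmem
  rw [hα] at h1
  have h2 : A.valuation (α ^ q - α) < 1 := by
    rw [Valuation.map_sub_swap]
    exact (A.mem_nonunits_iff).mp h1
  obtain ⟨n, hn⟩ := exists_nat_lt hq hA hmem h2
  have h3 := lt_of_nat hσ hn
  rcases (hM.gal hσ).2.2.2 with h | h
  · exact h.1
  · exfalso
    rw [h.1, Valuation.map_sub_swap, hM.vδ] at h3
    exact lt_irrefl _ h3

/-- **Non-split case**. -/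
theorem fix_iff_of_nonsplit (hq : q.Prime) (hA : A.LiesOverPrime q) {W : WeierstrassCurve ℚ}
    {x₀ y₀ α β D : Qbar} (hM : Mult A.valuation (W⁄Qbar) x₀ y₀ α β D) {F : Γℚ}
    (hF : A.IsFrobeniusAt F q) (hα : F α ≠ α) {σ : Γℚ} (hσ : σ ∈ A.decompositionSubgroup ℚ) :
    σ α = α ↔ IsEven q σ := by
  have := charP_res hq hA
  have : Fact q.Prime := ⟨hq⟩
  have hFD := hF.mem_decompositionSubgroup
  have hmα : α ∈ A := (A.valuation_le_one_iff α).mp hM.vα
  have hmβ : β ∈ A := (A.valuation_le_one_iff β).mp hM.symm.vα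
  obtain ⟨hFα, hFβ⟩ : F α = β ∧ F β = α := by
    rcases (hM.gal hFD).2.2.2 with h | h
    · exact absurd h.1 hα
    · exact h
  set π := IsLocalRing.residue A with hπ
  have hFr : ∀ x (hx : x ∈ A), π ⟨F x, mem_apply hFD hx⟩ = π ⟨x, hx⟩ ^ q := by
    intro x hx
    rw [← map_pow]
    refine (res_eq_iff _ (pow_mem hx q)).mpr ?_
    exact (A.mem_nonunits_iff).mp (((isFrobeniusAt_iff A F q).mp hF).2 x hx)
  have eα : π ⟨β, hmβ⟩ = π ⟨α, hmα⟩ ^ q := by
    rw [← hFr α hmα]
    congr 2
    exact hFα.symm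
  have eβ : π ⟨α, hmα⟩ = π ⟨β, hmβ⟩ ^ q := by
    rw [← hFr β hmβ]
    congr 2
    exact hFβ.symm
  have hneαβ : π ⟨α, hmα⟩ - π ⟨β, hmβ⟩ ≠ 0 := by
    rw [sub_ne_zero, Ne, res_eq_iff, hM.vδ]
    exact lt_irrefl _
  constructor
  · intro hσα ζ hζ
    have hσβ : σ β = β := by
      rcases (hM.gal hσ).2.2.2 with h | h
      · exact h.2
      · have := hM.vδ
        rw [← h.1, hσα, sub_self, _root_.map_zero] at this
        exact absurd this zero_ne_one
    have hN0 : q ^ 2 - 1 ≠ 0 := by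
      have := hq.two_le
      have : 2 ^ 2 ≤ q ^ 2 := Nat.pow_le_pow_left this 2
      omega
    have hvζ : A.valuation ζ = 1 := pow_eq_one_valuation hN0 hζ
    have hmζ : ζ ∈ A := (A.valuation_le_one_iff ζ).mp hvζ.le
    set z := π ⟨ζ, hmζ⟩ with hz
    set a := π ⟨α, hmα⟩ with ha
    set b := π ⟨β, hmβ⟩ with hb
    have hz2 : (z ^ q) ^ q = z := by
      rw [← pow_mul, ← sq, hz, ← map_pow]
      congr 1
      apply Subtype.ext
      change ζ ^ (q ^ 2) = ζ
      rw [← Nat.sub_add_cancel (show 1 ≤ q ^ 2 from Nat.one_le_pow _ _ hq.pos), pow_succ, hζ,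
        one_mul]
    have h1 : ((z - z ^ q) / (a - b)) ^ q = (z - z ^ q) / (a - b) := by
      rw [div_pow, sub_pow_char, sub_pow_char, hz2, ← eα, ← eβ, ← neg_sub z, ← neg_sub a b,
        neg_div_neg_eq]
    have h2 : (z - (z - z ^ q) / (a - b) * a) ^ q = z - (z - z ^ q) / (a - b) * a := by
      rw [sub_pow_char, mul_pow, h1, ← eα]
      field_simp
      ring
    obtain ⟨n, hn⟩ := nat_of_pow_eq h1
    obtain ⟨m, hm⟩ := nat_of_pow_eq h2
    rw [hn] at hm
    have h3 : z = m + n * a := by linear_combination hm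
    have hmem2 : (m + n * α : Qbar) ∈ A :=
      add_mem (natCast_mem A m) (mul_mem (natCast_mem A n) hmα)
    have h4 : A.valuation (ζ - (m + n * α)) < 1 := by
      rw [← res_eq_iff hmζ hmem2]
      change z = _
      rw [h3, ha, ← map_natCast π m, ← map_natCast π n, ← _root_.map_mul, ← map_add]
      rfl
    have h5 : A.valuation (σ ζ - (m + n * α)) < 1 := by
      rw [← v_apply hσ] at h4
      simpa only [map_sub, map_add, _root_.map_mul, map_natCast, hσα] using h4
    apply root_eq hq hA (by rw [← map_pow, hζ, map_one]) hζ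
    have h6 : σ ζ - ζ = (σ ζ - (m + n * α)) - (ζ - (m + n * α)) := by ring
    rw [h6]
    exact Valuation.map_sub_lt _ h5 h4
  · intro hev
    have key : A.valuation (σ α - α) < 1 := by
      rcases hM.vα.lt_or_eq with hlt | heq
      · exact Valuation.map_sub_lt _ (by rw [v_apply hσ]; exact hlt) hlt
      · have h1 : A.valuation (α ^ (q ^ 2) - α) < 1 := by
          rw [← res_eq_iff (pow_mem hmα _) hmα]
          have : (⟨α ^ (q ^ 2), pow_mem hmα _⟩ : A) = (⟨α, hmα⟩ ^ q) ^ q := by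
            rw [← pow_mul, ← sq]; rfl
          rw [this, map_pow, map_pow]
          rw [← eα, ← eβ]
        obtain ⟨w, hw, hlt⟩ := exists_root hq heq h1
        have h2 := hev w hw
        have h3 : A.valuation (σ α - w) < 1 := by
          rw [← v_apply hσ, map_sub, h2] at hlt
          exact hlt
        have h4 : σ α - α = (σ α - w) - (α - w) := by ring
        rw [h4]
        exact Valuation.map_sub_lt _ h3 hlt
    rcases (hM.gal hσ).2.2.2 with h | h
    · exact h.1
    · exfalso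
      rw [h.1, Valuation.map_sub_swap, hM.vδ] at key
      exact lt_irrefl _ key

open Classical in
/-- the sign of the Frobenius -/
theorem sg_eq_unr (hq : q.Prime) (hA : A.LiesOverPrime q) {W : WeierstrassCurve ℚ}
    {x₀ y₀ α β D : Qbar} (hM : Mult A.valuation (W⁄Qbar) x₀ y₀ α β D) {F : Γℚ}
    (hF : A.IsFrobeniusAt F q) {σ : Γℚ} (hσ : σ ∈ A.decompositionSubgroup ℚ)
    {R : Type*} [CommRing R] : ((sg α σ : ℤ) : R) = unr q ((sg α F : ℤ) : R) σ := by
  by_cases h : F α = α
  · rw [sg, if_pos (fix_of_split hq hA hM hF h hσ), sg, if_pos h, unr]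
    split_ifs <;> simp
  · have := fix_iff_of_nonsplit hq hA hM hF h hσ
    rw [sg, sg, unr, if_neg h]
    by_cases h2 : σ α = α
    · rw [if_pos h2, if_pos (this.mp h2), Int.cast_one]
    · rw [if_neg h2, if_neg fun h' => h2 (this.mpr h')]

end res

end Fermat.Agent.TwoAdic
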