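import Fermat.Agent.TwoAdic.NormalForm

/-!
# Local subalgebras of products and gluing of representations
-/

set_option autoImplicit false
set_option linter.unusedSectionVars false

open IsLocalRing

namespace Fermat.Agent.TwoAdic

section Local

variable {O : Type*} [CommRing O] [IsLocalRing O] {ι : Type*} {R : ι → Type*}
  [∀ i, CommRing (R i)] [∀ i, Algebra O (R i)]

/-- the elements of the product with constant residue -/
def constRes (res : ∀ i, R i →+* ResidueField O)
    (hres : ∀ i a, res i (algebraMap O (R i) a) = residue O a) : Subalgebra O (∀ i, R i) where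
  carrier := {x | ∀ i j, res i (x i) = res j (x j)}
  mul_mem' {x y} hx hy i j := by
    rw [Pi.mul_apply, Pi.mul_apply, map_mul, map_mul, hx i j, hy i j]
  add_mem' {x y} hx hy i j := by
    rw [Pi.add_apply, Pi.add_apply, map_add, map_add, hx i j, hy i j]
  algebraMap_mem' a i j := by
    rw [Pi.algebraMap_apply, Pi.algebraMap_apply, hres, hres]

variable {res : ∀ i, R i →+* ResidueField O}
  {hres : ∀ i a, res i (algebraMap O (R i) a) = residue O a}

theorem mem_constRes {x : ∀ i, R i} :
    x ∈ constRes res hres ↔ ∀ i j, res i (x i) = res j (x j) := Iff.rfl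

variable [Module.Finite O (∀ i, R i)] {T : Subalgebra O (∀ i, R i)}

theorem isUnit_of_isUnit_val {x : T} (hx : IsUnit (x : ∀ i, R i)) : IsUnit x := by
  have h1 : Algebra.IsIntegral O (∀ i, R i) := inferInstance
  have h2 : Algebra.IsIntegral T (∀ i, R i) := Algebra.IsIntegral.tower_top (R := O)
  have h3 : FaithfulSMul T (∀ i, R i) := inferInstance
  have h4 : IsLocalHom (algebraMap T (∀ i, R i)) := inferInstance
  exact isUnit_of_map_unit (algebraMap T (∀ i, R i)) x hx

theorem invClosed_toSubring (T : Subalgebra O (∀ i, R i)) : InvClosed T.toSubring := by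
  intro x hx hu
  obtain ⟨y, hy⟩ := isUnit_of_isUnit_val (T := T) (x := ⟨x, hx⟩) hu
  refine ⟨((y⁻¹ : Tˣ) : T), ((y⁻¹ : Tˣ) : T).2, ?_⟩
  have h1 : (y : T) * ((y⁻¹ : Tˣ) : T) = 1 := y.mul_inv
  rw [hy] at h1
  exact congrArg Subtype.val h1

variable [Nonempty ι]

/-- the residue map of a subalgebra of constant residue -/
noncomputable def resT (res : ∀ i, R i →+* ResidueField O) (T : Subalgebra O (∀ i, R i)) :
    T →+* ResidueField O :=
  ((res (Classical.arbitrary ι)).comp (Pi.evalRingHom R (Classical.arbitrary ι))).comp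
    T.val.toRingHom

theorem resT_eq (hT : T ≤ constRes res hres) (x : T) (i : ι) :
    resT res T x = res i ((x : ∀ i, R i) i) := hT x.2 _ i

theorem resT_algebraMap (res : ∀ i, R i →+* ResidueField O)
    (hres : ∀ i a, res i (algebraMap O (R i) a) = residue O a)
    (T : Subalgebra O (∀ i, R i)) (a : O) : resT res T (algebraMap O T a) = residue O a :=
  hres _ a

theorem isUnit_of_resT (hloc : ∀ i x, res i x ≠ 0 → IsUnit x) (hT : T ≤ constRes res hres)
    {x : T} (hx : resT res T x ≠ 0) : IsUnit x := by
  apply isUnit_of_isUnit_val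
  rw [Pi.isUnit_iff]
  intro i
  apply hloc
  rwa [← resT_eq hT x i]

theorem isLocalRing_of_le (hloc : ∀ i x, res i x ≠ 0 → IsUnit x)
    (hT : T ≤ constRes res hres) : IsLocalRing T := by
  have : IsLocalHom (resT res T) := ⟨fun x hx => isUnit_of_resT hloc hT hx.ne_zero⟩
  exact RingHom.domain_isLocalRing (resT res T)

theorem mem_maximalIdeal_iff_resT [IsLocalRing T] (hloc : ∀ i x, res i x ≠ 0 → IsUnit x)
    (hT : T ≤ constRes res hres) {x : T} : x ∈ maximalIdeal T ↔ resT res T x = 0 := by
  rw [mem_maximalIdeal, mem_nonunits_iff]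
  constructor
  · intro h
    by_contra h0
    exact h (isUnit_of_resT hloc hT h0)
  · intro h hu
    exact (hu.map (resT res T)).ne_zero h

omit [IsLocalRing O] [∀ i, CommRing (R i)] [∀ i, Algebra O (R i)] in
/-- eigenvalues over a local ring: the abstract statement -/
theorem surjective_of_quadratic {T S : Type*} [CommRing T] [IsLocalRing T] [CommRing S]
    [Algebra T S] (a : S) (htop : Algebra.adjoin T {a} = ⊤) (t d w w' : T)
    (hq : a * a = algebraMap T S t * a - algebraMap T S d) (ht : t - w - w' ∈ maximalIdeal T)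
    (hd : w * w' - d ∈ maximalIdeal T) (hu : IsUnit (a - algebraMap T S w')) :
    Function.Surjective (algebraMap T S) := by
  have hm : ∀ x ∈ maximalIdeal T, algebraMap T S x ∈ (maximalIdeal T).map (algebraMap T S) :=
    fun x hx => Ideal.mem_map_of_mem _ hx
  have haw : a - algebraMap T S w ∈ (maximalIdeal T).map (algebraMap T S) := by
    rw [← Ideal.unit_mul_mem_iff_mem _ hu]
    have e : (a - algebraMap T S w') * (a - algebraMap T S w) =
        algebraMap T S (t - w - w') * a + algebraMap T S (w * w' - d) := by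
      rw [map_sub, map_sub, map_sub, map_mul]
      linear_combination hq
    rw [e]
    exact Ideal.add_mem _ (Ideal.mul_mem_right _ _ (hm _ ht)) (hm _ hd)
  have key : ∀ x : S, ∃ y : T, x - algebraMap T S y ∈ (maximalIdeal T).map (algebraMap T S) := by
    intro x
    have hx : x ∈ Algebra.adjoin T {a} := htop ▸ Algebra.mem_top
    induction hx using Algebra.adjoin_induction with
    | mem x hx1 =>
      rw [Set.mem_singleton_iff] at hx1
      subst hx1
      exact ⟨w, haw⟩
    | algebraMap r => exact ⟨r, by rw [sub_self]; exact Ideal.zero_mem _⟩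
    | add x y _ _ h1 h2 =>
      obtain ⟨u, hu⟩ := h1
      obtain ⟨v, hv⟩ := h2
      refine ⟨u + v, ?_⟩
      have : x + y - algebraMap T S (u + v) =
          (x - algebraMap T S u) + (y - algebraMap T S v) := by
        rw [map_add]; ring
      rw [this]
      exact Ideal.add_mem _ hu hv
    | mul x y _ _ h1 h2 =>
      obtain ⟨u, hu⟩ := h1
      obtain ⟨v, hv⟩ := h2
      refine ⟨u * v, ?_⟩
      have : x * y - algebraMap T S (u * v) =
          (x - algebraMap T S u) * y + algebraMap T S u * (y - algebraMap T S v) := by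
        rw [map_mul]; ring
      rw [this]
      exact Ideal.add_mem _ (Ideal.mul_mem_right _ _ hu) (Ideal.mul_mem_left _ _ hv)
  have hint : IsIntegral T a := by
    refine ⟨Polynomial.X ^ 2 - Polynomial.C t * Polynomial.X + Polynomial.C d, ?_, ?_⟩
    · monicity!
    · simp only [Polynomial.eval₂_add, Polynomial.eval₂_sub, Polynomial.eval₂_mul,
        Polynomial.eval₂_pow, Polynomial.eval₂_C, Polynomial.eval₂_X]
      linear_combination hq
  have hfg : (⊤ : Submodule T S).FG := by
    have h1 := hint.fg_adjoin_singleton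
    rw [htop] at h1
    exact h1
  have hle : (⊤ : Submodule T S) ≤ LinearMap.range (Algebra.linearMap T S) ⊔
      (maximalIdeal T) • (⊤ : Submodule T S) := by
    intro x _
    obtain ⟨y, hy⟩ := key x
    have h1 : x = algebraMap T S y + (x - algebraMap T S y) := by ring
    rw [h1]
    refine Submodule.add_mem_sup ⟨y, rfl⟩ ?_
    rw [Ideal.smul_top_eq_map]
    exact hy
  have h3 := Submodule.le_of_le_smul_of_le_jacobson_bot hfg
    (IsLocalRing.maximalIdeal_le_jacobson _) hle
  intro x
  exact h3 (Submodule.mem_top (x := x))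

/-- eigenvalues are in the subalgebra -/
theorem mem_of_quadratic (hloc : ∀ i x, res i x ≠ 0 → IsUnit x)
    (hT : T ≤ constRes res hres) {α δ : ∀ i, R i} {w w' : O}
    (hw : residue O w ≠ residue O w') (hα : ∀ i, res i (α i) = residue O w)
    (hδ : ∀ i, res i (δ i) = residue O w') (ht : α + δ ∈ T) (hd : α * δ ∈ T) : α ∈ T := by
  have hTl : IsLocalRing T := isLocalRing_of_le hloc hT
  have hαS : α ∈ Algebra.adjoin T {α} := Algebra.subset_adjoin rfl
  have hunit : IsUnit ((⟨α, hαS⟩ : Algebra.adjoin T {α}) -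
      algebraMap T (Algebra.adjoin T {α}) (algebraMap O T w')) := by
    have h1 : IsUnit (α - algebraMap O (∀ i, R i) w') := by
      rw [Pi.isUnit_iff]
      intro i
      apply hloc
      rw [Pi.sub_apply, map_sub, hα, Pi.algebraMap_apply, hres]
      exact sub_ne_zero.mpr hw
    have h2 := isUnit_of_isUnit_val (T := (Algebra.adjoin T {α}).restrictScalars O)
      (x := ⟨α - algebraMap O (∀ i, R i) w', (((Algebra.adjoin T {α}).restrictScalars O).sub_mem
        hαS (((Algebra.adjoin T {α}).restrictScalars O).algebraMap_mem w'))⟩) h1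
    exact h2
  have h3 := surjective_of_quadratic (T := T) (S := Algebra.adjoin T {α}) ⟨α, hαS⟩
    (Algebra.adjoin_adjoin_coe_preimage (R := T) (A := ∀ i, R i) (s := {α}) ▸ ?_)
    ⟨α + δ, ht⟩ ⟨α * δ, hd⟩ (algebraMap O T w) (algebraMap O T w') ?_ ?_ ?_ hunit
  · obtain ⟨y, hy⟩ := h3 ⟨α, hαS⟩
    have h4 : ((y : T) : ∀ i, R i) = α := congrArg Subtype.val hy
    rw [← h4]
    exact y.2
  · congr 1
    ext x
    simp [Subtype.ext_iff]
  · apply Subtype.ext
    change α * α = (α + δ) * α - α * δ
    ring
  · rw [mem_maximalIdeal_iff_resT hloc hT, map_sub, map_sub, resT_algebraMap res hres,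
      resT_algebraMap res hres, resT_eq hT _ (Classical.arbitrary ι)]
    change res _ (α _ + δ _) - _ - _ = _
    rw [map_add, hα, hδ]
    ring
  · rw [mem_maximalIdeal_iff_resT hloc hT, map_sub, map_mul, resT_algebraMap res hres,
      resT_algebraMap res hres, resT_eq hT _ (Classical.arbitrary ι)]
    change _ - res _ (α _ * δ _) = _
    rw [map_mul, hα, hδ]
    ring

end Local

section Glue

variable {G : Type*} [Group G]

/-- restriction of coefficients -/
def liftRep {R : Type*} [CommRing R] {O : Type*} [CommRing O] [Algebra O R] (S : Subalgebra O R)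
    (ρ : G →* Matrix (Fin 2) (Fin 2) R) (h : ∀ g i j, ρ g i j ∈ S) :
    G →* Matrix (Fin 2) (Fin 2) S where
  toFun g := Matrix.of fun i j => ⟨ρ g i j, h g i j⟩
  map_one' := by
    ext i j
    change (ρ 1) i j = _
    rw [map_one]
    fin_cases i <;> fin_cases j <;> simp
  map_mul' g g' := by
    ext i j
    change (ρ (g * g')) i j = _
    rw [mul_apply2, Matrix.mul_apply, Fin.sum_univ_two]
    rfl

theorem liftRep_apply {R : Type*} [CommRing R] {O : Type*} [CommRing O] [Algebra O R]
    (S : Subalgebra O R) (ρ : G →* Matrix (Fin 2) (Fin 2) R) (h : ∀ g i j, ρ g i j ∈ S) (g : G)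
    (i j : Fin 2) : (liftRep S ρ h g i j : R) = ρ g i j := rfl

/-- the product representation -/
def piRep {ι : Type*} {R : ι → Type*} [∀ i, CommRing (R i)]
    (ρ : ∀ i, G →* Matrix (Fin 2) (Fin 2) (R i)) : G →* Matrix (Fin 2) (Fin 2) (∀ i, R i) where
  toFun g := Matrix.of fun a b i => ρ i g a b
  map_one' := by
    ext a b i
    change (ρ i 1) a b = _
    rw [map_one]
    fin_cases a <;> fin_cases b <;> simp
  map_mul' g g' := by
    ext a b i
    change (ρ i (g * g')) a b = _
    rw [mul_apply2, Matrix.mul_apply, Fin.sum_univ_two]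
    rfl

theorem piRep_apply {ι : Type*} {R : ι → Type*} [∀ i, CommRing (R i)]
    (ρ : ∀ i, G →* Matrix (Fin 2) (Fin 2) (R i)) (g : G) (a b : Fin 2) (i : ι) :
    piRep ρ g a b i = ρ i g a b := rfl

theorem piRep_isNF {ι : Type*} {R : ι → Type*} [∀ i, CommRing (R i)]
    {ρ : ∀ i, G →* Matrix (Fin 2) (Fin 2) (R i)} {g₀ j₀ : G} (h : ∀ i, IsNF (ρ i) g₀ j₀) :
    IsNF (piRep ρ) g₀ j₀ where
  d01 := funext fun i => (h i).d01
  d10 := funext fun i => (h i).d10
  one := funext fun i => (h i).one
  unit := Pi.isUnit_iff.mpr fun i => (h i).unit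
  unit' := Pi.isUnit_iff.mpr fun i => (h i).unit'

end Glue

end Fermat.Agent.TwoAdic
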