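import Fermat.Agent.TwoAdic.Resid
import Fermat.Agent.TwoAdic.LocalProd
import Fermat.Agent.TwoAdic.Count

/-!
# Gluing a family of representations congruent to `E`
-/

set_option autoImplicit false

open IsLocalRing Polynomial

namespace Fermat.Agent.TwoAdic

local notation "Γℚ" => (AlgebraicClosure ℚ ≃ₐ[ℚ] AlgebraicClosure ℚ)

section Quot

variable {O : Type} [CommRing O] [IsLocalRing O]

/-- the residue map of a quotient of a local ring -/
noncomputable def resQ {J : Ideal O} (hJ : J ≤ maximalIdeal O) : O ⧸ J →+* ResidueField O :=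
  Ideal.Quotient.lift J (residue O) fun a ha => (residue_eq_zero_iff a).mpr (hJ ha)

theorem resQ_mk {J : Ideal O} (hJ : J ≤ maximalIdeal O) (a : O) :
    resQ hJ (Ideal.Quotient.mk J a) = residue O a := rfl

theorem isUnit_of_resQ {J : Ideal O} (hJ : J ≤ maximalIdeal O) {x : O ⧸ J} (hx : resQ hJ x ≠ 0) :
    IsUnit x := by
  obtain ⟨a, rfl⟩ := Ideal.Quotient.mk_surjective x
  rw [resQ_mk, Ne, residue_eq_zero_iff, mem_maximalIdeal, mem_nonunits_iff, not_not] at hx
  exact hx.map _

theorem nontrivialQ {J : Ideal O} (hJ : J ≤ maximalIdeal O) : Nontrivial (O ⧸ J) :=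
  Ideal.Quotient.nontrivial_iff.mpr
    (fun h => (maximalIdeal.isMaximal O).ne_top (top_le_iff.mp (h ▸ hJ)))

theorem isLocalRingQ {J : Ideal O} (hJ : J ≤ maximalIdeal O) : IsLocalRing (O ⧸ J) := by
  have := nontrivialQ hJ
  exact IsLocalRing.of_surjective' (Ideal.Quotient.mk J) Ideal.Quotient.mk_surjective

/-- roots of quadratic polynomials -/
theorem exists_rootQ [HenselianRing O (maximalIdeal O)] (h2 : (2 : O) ∈ maximalIdeal O) (w : O)
    (hw : residue O w ^ 2 + residue O w + 1 = 0) {J : Ideal O} (hJ : J ≤ maximalIdeal O)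
    (t d : O ⧸ J) (ht : resQ hJ t = 1) (hd : resQ hJ d = 1) :
    ∃ α : O ⧸ J, α * (t - α) = d ∧ resQ hJ α = residue O w := by
  have h2' : (2 : ResidueField O) = 0 := by
    have := (residue_eq_zero_iff (2 : O)).mpr h2
    rwa [map_ofNat] at this
  obtain ⟨t', rfl⟩ := Ideal.Quotient.mk_surjective t
  obtain ⟨d', rfl⟩ := Ideal.Quotient.mk_surjective d
  rw [resQ_mk] at ht hd
  have hmon : (X ^ 2 - C t' * X + C d' : O[X]).Monic := by monicity!
  have e1 : (X ^ 2 - C t' * X + C d' : O[X]).eval w ∈ maximalIdeal O := by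
    rw [← residue_eq_zero_iff]
    simp only [eval_add, eval_sub, eval_mul, eval_pow, eval_C, eval_X, map_add, map_sub, map_mul,
      map_pow]
    rw [ht, hd]
    linear_combination hw - residue O w * h2'
  have e2 : IsUnit (Ideal.Quotient.mk (maximalIdeal O)
      ((derivative (X ^ 2 - C t' * X + C d' : O[X])).eval w)) := by
    apply IsUnit.map
    by_contra hcon
    have h3 : derivative (X ^ 2 - C t' * X + C d' : O[X]) = C 2 * X - C t' := by
      simp only [derivative_add, derivative_sub, derivative_mul, derivative_C, derivative_X,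
        derivative_X_pow]
      simp
    rw [h3] at hcon
    simp only [eval_sub, eval_mul, eval_C, eval_X] at hcon
    have h4 := (residue_eq_zero_iff _).mpr ((mem_maximalIdeal _).mpr hcon)
    rw [map_sub, map_mul, ht, map_ofNat, h2', zero_mul, zero_sub, neg_eq_zero] at h4
    exact one_ne_zero h4
  obtain ⟨a, ha, ha'⟩ := HenselianRing.is_henselian _ hmon w e1 e2
  rw [IsRoot.def] at ha
  simp only [eval_add, eval_sub, eval_mul, eval_pow, eval_C, eval_X] at ha
  refine ⟨Ideal.Quotient.mk J a, ?_, ?_⟩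
  · rw [← map_sub, ← map_mul]
    congr 1
    linear_combination -ha
  · rw [resQ_mk, ← sub_eq_zero, ← map_sub]
    exact (residue_eq_zero_iff _).mpr ha'

end Quot

section Fam

variable (E : EData) (O : Type) [CommRing O] [IsLocalRing O]

/-- A family of representations congruent to `E`. -/
structure Fam (I : Type) where
  J : I → Ideal O
  hJ : ∀ i, J i ≤ maximalIdeal O
  ρ : ∀ i, Γℚ →* Matrix (Fin 2) (Fin 2) (O ⧸ J i)
  ε : Γℚ → O
  det : ∀ i g, (ρ i g).det = Ideal.Quotient.mk (J i) (ε g)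
  res_ε : ∀ g, residue O (ε g) = 1
  tr : ∀ i g, resQ (hJ i) (ρ i g).trace = trE E (ResidueField O) g
  cont : ∀ i n, ContAt ((maximalIdeal O ^ n).map (Ideal.Quotient.mk (J i))) (ρ i)

variable {E O} {I : Type} (F : Fam E O I)

/-- the residue maps -/
noncomputable def Fam.res (i : I) : O ⧸ F.J i →+* ResidueField O := resQ (F.hJ i)

theorem Fam.hres (i : I) (a : O) : F.res i (algebraMap O (O ⧸ F.J i) a) = residue O a := rfl

theorem Fam.hloc (i : I) (x : O ⧸ F.J i) (hx : F.res i x ≠ 0) : IsUnit x :=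
  isUnit_of_resQ (F.hJ i) hx

/-- the product ring -/
abbrev Fam.Prod : Type := ∀ i, O ⧸ F.J i

/-- the traces -/
noncomputable def Fam.trace (g : Γℚ) : F.Prod := fun i => (F.ρ i g).trace

/-- elements with constant residue -/
noncomputable def Fam.cst : Subalgebra O F.Prod := constRes F.res F.hres

theorem Fam.trace_mem_cst (g : Γℚ) : F.trace g ∈ F.cst := fun i j => by
  change resQ _ _ = resQ _ _
  rw [Fam.trace, F.tr, Fam.trace, F.tr]

/-- the components of elements of the algebra -/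
def Fam.proj (T : Subalgebra O F.Prod) (i : I) : T →+* O ⧸ F.J i :=
  (Pi.evalRingHom (fun i => O ⧸ F.J i) i).comp T.val.toRingHom

theorem Fam.proj_apply (T : Subalgebra O F.Prod) (i : I) (x : T) :
    F.proj T i x = (x : F.Prod) i := rfl

theorem Fam.proj_inj (T : Subalgebra O F.Prod) (x : T) (hx : ∀ i, F.proj T i x = 0) : x = 0 :=
  Subtype.ext (funext hx)

variable [Finite I] [Nonempty I] [HenselianRing O (maximalIdeal O)]

/-- **Gluing.** -/
theorem Fam.exists_rep (h2 : (2 : O) ∈ maximalIdeal O) (w : O)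
    (hw : residue O w ^ 2 + residue O w + 1 = 0) {g₀ j₀ : Γℚ} (hg : FixK E.N g₀)
    (hgt : PadicInt.toZMod (p := 2) (E.ρ g₀).trace = 1) (hj : ¬ FixK E.N j₀)
    (T : Subalgebra O F.Prod) (hT : T ≤ F.cst) (htr : ∀ g, F.trace g ∈ T) :
    ∃ (P : ∀ i, (Matrix (Fin 2) (Fin 2) (O ⧸ F.J i))ˣ) (ρ : Γℚ →* Matrix (Fin 2) (Fin 2) T),
      IsNF ρ g₀ j₀ ∧ (∀ i, repMap (F.proj T i) ρ = conjRep (P i) (F.ρ i)) ∧
      resT F.res T (ρ g₀ 0 0) = residue O w := by
  have h2' : (2 : ResidueField O) = 0 := by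
    have := (residue_eq_zero_iff (2 : O)).mpr h2
    rwa [map_ofNat] at this
  obtain ⟨t1, t2, t3, t4, t5, -⟩ := E.base_traces hg hgt hj
  have hloc : ∀ i, IsLocalRing (O ⧸ F.J i) := fun i => isLocalRingQ (F.hJ i)
  -- normal forms
  have key : ∀ i, ∃ (P : (Matrix (Fin 2) (Fin 2) (O ⧸ F.J i))ˣ) (α : O ⧸ F.J i),
      IsNF (conjRep P (F.ρ i)) g₀ j₀ ∧ conjRep P (F.ρ i) g₀ 0 0 = α ∧
      α * ((F.ρ i g₀).trace - α) = Ideal.Quotient.mk _ (F.ε g₀) ∧ F.res i α = residue O w := by
    intro i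
    have e1 : resQ (F.hJ i) (F.ρ i g₀).trace = 1 := by rw [F.tr, trE_of_trace_eq_one E t1]
    obtain ⟨α, hα, hα'⟩ := exists_rootQ h2 w hw (F.hJ i) (F.ρ i g₀).trace (F.ρ i g₀).det
      e1 (by rw [F.det, resQ_mk, F.res_ε])
    have hδ' : resQ (F.hJ i) ((F.ρ i g₀).trace - α) = residue O w + 1 := by
      rw [map_sub, e1, hα']
      linear_combination (-residue O w) * h2'
    have hαδ : resQ (F.hJ i) (α - ((F.ρ i g₀).trace - α)) = 1 := by
      rw [map_sub, hα', hδ']
      linear_combination -h2'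
    obtain ⟨P, hP, hP'⟩ := exists_isNF (F.ρ i) g₀ j₀ α ((F.ρ i g₀).trace - α)
      (by ring) hα (isUnit_of_resQ (F.hJ i) (by rw [hαδ]; exact one_ne_zero)) (by
        intro a a' ha ha'
        have h0 : ∀ x y z u v : O ⧸ F.J i, x * y = z - u * v →
            resQ (F.hJ i) x * resQ (F.hJ i) y =
              resQ (F.hJ i) z - resQ (F.hJ i) u * resQ (F.hJ i) v := fun x y z u v h => by
          rw [← map_mul, ← map_mul, ← map_sub, h]
        have h3 := h0 _ _ _ _ _ ha
        have h4 := h0 _ _ _ _ _ ha'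
        rw [F.tr, F.tr, hαδ, hδ', trE_of_trace_eq_zero E t2, trE_of_trace_eq_zero E t3] at h3
        rw [F.tr, F.tr, hαδ, hδ', trE_of_trace_eq_zero E t4, trE_of_trace_eq_one E t5] at h4
        apply isUnit_of_resQ (F.hJ i)
        rw [map_sub, map_pow]
        have h5 : resQ (F.hJ i) a = 0 := by linear_combination h3
        have h6 : resQ (F.hJ i) a' = 1 := by linear_combination h4
        rw [h5, h6]
        simp)
    exact ⟨P, α, hP, hP', by rw [hα, F.det], hα'⟩
  choose P α hNF hα0 hαd hαr using key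
  let ρ' : Γℚ →* Matrix (Fin 2) (Fin 2) F.Prod := piRep fun i => conjRep (P i) (F.ρ i)
  have hNF' : IsNF ρ' g₀ j₀ := piRep_isNF hNF
  have htr' : ∀ g, (ρ' g).trace = F.trace g := by
    intro g
    funext i
    rw [Matrix.trace_fin_two]
    change conjRep (P i) (F.ρ i) g 0 0 + conjRep (P i) (F.ρ i) g 1 1 = _
    rw [← Matrix.trace_fin_two, conjRep_trace]
    rfl
  have hα1 : ρ' g₀ 0 0 = α := funext hα0
  have hα2 : α ∈ T := by
    refine mem_of_quadratic (res := F.res) (hres := F.hres) F.hloc hT (δ := F.trace g₀ - α)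
      (w := w) (w' := w + 1) ?_ hαr ?_ ?_ ?_
    · rw [map_add, map_one]
      intro h
      have h1 : (1 : ResidueField O) = 0 := by linear_combination -h
      exact one_ne_zero h1
    · intro i
      change resQ _ (((F.ρ i g₀).trace - α i)) = _
      rw [map_sub, F.tr, trE_of_trace_eq_one E t1]
      have h1 := hαr i
      change resQ _ (α i) = _ at h1
      rw [h1, map_add, map_one]
      linear_combination (-residue O w) * h2'
    · rw [add_sub_cancel]
      exact htr g₀
    · have h1 : α * (F.trace g₀ - α) = algebraMap O F.Prod (F.ε g₀) := funext hαd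
      rw [h1]
      exact T.algebraMap_mem _
  have hmem : ∀ g i j, ρ' g i j ∈ T := fun g i j =>
    hNF'.mem (invClosed_toSubring T) (fun g => by rw [htr']; exact htr g)
      (by rw [hα1]; exact hα2) g i j
  refine ⟨P, liftRep T ρ' hmem, ?_, ?_, ?_⟩
  · have hu : ∀ x : T, IsUnit (x : F.Prod) → IsUnit x := fun x hx => isUnit_of_isUnit_val hx
    exact ⟨Subtype.ext hNF'.d01, Subtype.ext hNF'.d10, Subtype.ext hNF'.one,
      hu _ hNF'.unit, hu _ hNF'.unit'⟩
  · intro i
    rfl
  · have h1 : resT F.res T (liftRep T ρ' hmem g₀ 0 0) =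
        F.res (Classical.arbitrary I) (ρ' g₀ 0 0 (Classical.arbitrary I)) := rfl
    rw [h1, hα1, hαr]

end Fam

end Fermat.Agent.TwoAdic
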