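import Fermat.Agent.TwoAdic.FamRep

/-!
# Counting for families, adding a component
-/

set_option autoImplicit false
set_option linter.unusedSectionVars false

open IsLocalRing Polynomial TensorProduct

namespace Fermat.Agent.TwoAdic

local notation "Γℚ" => (AlgebraicClosure ℚ ≃ₐ[ℚ] AlgebraicClosure ℚ)

section Count

variable {E : EData} {O : Type} [CommRing O] [IsDomain O] [IsDiscreteValuationRing O]
  [HenselianRing O (maximalIdeal O)] [Finite (ResidueField O)] {I : Type} [Finite I] [Nonempty I]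
  (F : Fam E O I)

/-- the identification `O / ⊥ = O` -/
noncomputable def botEquiv {J : Ideal O} (hJ : J = ⊥) : (O ⧸ J) ≃ₐ[O] O :=
  (Ideal.quotientEquivAlgOfEq O hJ).trans (AlgEquiv.quotientBot O O)

theorem botEquiv_mk {J : Ideal O} (hJ : J = ⊥) (a : O) :
    botEquiv hJ (Ideal.Quotient.mk J a) = a := by
  subst hJ
  rfl

/-- **Counting.** -/
theorem Fam.injective_of_card {Q : Finset ℕ} (hUp : Upper E Q) (h2O : (2 : O) ∈ maximalIdeal O)
    (w : O) (hw : residue O w ^ 2 + residue O w + 1 = 0) (u : ℕ → F.Prod)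
    (hu : ∀ v : ℕ, v.Prime → v ∣ lev E Q → u v ^ 2 = 1)
    (hstar : ∀ v : ℕ, v.Prime → v ∣ lev E Q → ∀ i, StarAt (F.ρ i) v (u v i))
    (hunr : ∀ l : ℕ, l.Prime → ¬ l ∣ lev E Q → ∀ i, UnrAt (F.ρ i) l)
    {𝓘 : Type} [Fintype 𝓘] (e : 𝓘 → I) (hJ : ∀ f, F.J (e f) = ⊥)
    (hcard : 2 ^ Q.card * h2 E.N ≤ Fintype.card 𝓘)
    (hsep : ∀ f f', f ≠ f' → ∃ g : Γℚ,
      botEquiv (hJ f) (F.ρ (e f) g).trace ≠ botEquiv (hJ f') (F.ρ (e f') g).trace) :
    Fintype.card 𝓘 = 2 ^ Q.card * h2 E.N ∧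
      ∀ x ∈ F.alg {x | ∃ v : ℕ, v.Prime ∧ v ∣ lev E Q ∧ x = u v}, (∀ f, x (e f) = 0) → x = 0 := by
  have hle := F.finrank_le hUp h2O w hw u hu hstar hunr
  set T := F.alg {x | ∃ v : ℕ, v.Prime ∧ v ∣ lev E Q ∧ x = u v} with hT
  have hfin : Module.Finite O T := F.finite_alg T
  let p : T →ₐ[O] (𝓘 → O) := AlgHom.pi fun f =>
    ((botEquiv (hJ f)).toAlgHom.comp (Pi.evalAlgHom O (fun i => O ⧸ F.J i) (e f))).comp T.val
  have hp : ∀ (x : T) (f : 𝓘), p x f = botEquiv (hJ f) ((x : F.Prod) (e f)) := fun x f => rfl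
  obtain ⟨h1, h3⟩ := injective_of_count p (fun f f' hff' => by
    obtain ⟨g, hg⟩ := hsep f f' hff'
    exact ⟨⟨F.trace g, F.trace_mem_alg _ g⟩, hg⟩) (hle.trans hcard)
  refine ⟨le_antisymm (h3 ▸ hle) hcard, fun x hx h0 => ?_⟩
  have h4 : (⟨x, hx⟩ : T) = 0 := by
    apply h1
    rw [map_zero]
    funext f
    rw [hp, Pi.zero_apply]
    change botEquiv (hJ f) (x (e f)) = 0
    rw [h0 f, map_zero]
  exact congrArg Subtype.val h4

end Count

section Cons

variable {E : EData} {O : Type} [CommRing O] [IsLocalRing O] {I : Type}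

/-- adding a component -/
noncomputable def Fam.cons (F : Fam E O I) (J₀ : Ideal O) (hJ₀ : J₀ ≤ maximalIdeal O)
    (ρ₀ : Γℚ →* Matrix (Fin 2) (Fin 2) (O ⧸ J₀))
    (hdet : ∀ g, (ρ₀ g).det = Ideal.Quotient.mk J₀ (F.ε g))
    (htr : ∀ g, resQ hJ₀ (ρ₀ g).trace = trE E (ResidueField O) g)
    (hcont : ∀ n, ContAt ((maximalIdeal O ^ n).map (Ideal.Quotient.mk J₀)) ρ₀) :
    Fam E O (Option I) where
  J := fun o => match o with
    | none => J₀
    | some i => F.J i
  hJ := fun o => match o with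
    | none => hJ₀
    | some i => F.hJ i
  ρ := fun o => match o with
    | none => ρ₀
    | some i => F.ρ i
  ε := F.ε
  det := fun o => match o with
    | none => hdet
    | some i => F.det i
  res_ε := F.res_ε
  tr := fun o => match o with
    | none => htr
    | some i => F.tr i
  cont := fun o => match o with
    | none => hcont
    | some i => F.cont i

end Cons

section Padic

variable (O : Type) [CommRing O]

/-- the homomorphism `ℤ_2 → O / 2 ^ m` -/
noncomputable def padicQ (m : ℕ) : ℤ_[2] →+* O ⧸ Ideal.span {(2 : O) ^ m} :=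
  ((Ideal.Quotient.lift (Ideal.span {((2 ^ m : ℕ) : ℤ)})
    ((Ideal.Quotient.mk (Ideal.span {(2 : O) ^ m})).comp (Int.castRingHom O)) (by
      intro a ha
      rw [Ideal.mem_span_singleton] at ha
      obtain ⟨c, rfl⟩ := ha
      rw [RingHom.comp_apply, eq_intCast, Ideal.Quotient.eq_zero_iff_mem,
        Ideal.mem_span_singleton]
      exact ⟨c, by push_cast; ring⟩)).comp
    (Int.quotientSpanNatEquivZMod (2 ^ m)).symm.toRingHom).comp (PadicInt.toZModPow m)

theorem padicQ_two (m : ℕ) : padicQ O m (2 ^ m) = 0 := by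
  rw [map_pow, map_ofNat]
  have : (2 : O ⧸ Ideal.span {(2 : O) ^ m}) ^ m =
      Ideal.Quotient.mk (Ideal.span {(2 : O) ^ m}) (2 ^ m) := by
    rw [map_pow, map_ofNat]
  rw [this, Ideal.Quotient.eq_zero_iff_mem]
  exact Ideal.mem_span_singleton_self _

theorem padicQ_of_mem {m : ℕ} {x : ℤ_[2]} (hx : x ∈ Ideal.span {(2 : ℤ_[2]) ^ m}) :
    padicQ O m x = 0 := by
  obtain ⟨c, rfl⟩ := Ideal.mem_span_singleton'.mp hx
  rw [map_mul, padicQ_two, mul_zero]

theorem resQ_padicQ [IsLocalRing O] {m : ℕ} (hm : Ideal.span {(2 : O) ^ m} ≤ maximalIdeal O)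
    (h2 : (2 : ResidueField O) = 0) (x : ℤ_[2]) :
    resQ hm (padicQ O m x) = (((PadicInt.toZMod (p := 2) x).val : ℕ) : ResidueField O) := by
  set n := (PadicInt.toZMod (p := 2) x).val with hn
  have h1 : x - (n : ℤ_[2]) ∈ RingHom.ker (PadicInt.toZMod (p := 2)) := by
    rw [RingHom.mem_ker, map_sub, map_natCast, hn, ZMod.natCast_val, ZMod.cast_id, sub_self]
  rw [PadicInt.ker_toZMod, PadicInt.maximalIdeal_eq_span_p] at h1
  obtain ⟨c, hc⟩ := Ideal.mem_span_singleton'.mp h1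
  have h3 : x = n + c * (2 : ℕ) := by rw [hc]; ring
  rw [h3, map_add, map_mul, map_natCast, map_natCast, map_add, map_mul, map_natCast, map_natCast]
  push_cast
  rw [h2, mul_zero, add_zero]

end Padic

end Fermat.Agent.TwoAdic
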