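import Fermat.Agent.TwoAdic.Fam

/-!
# Properties of the glued representation, application of the upper bound
-/

set_option autoImplicit false
set_option linter.unusedSectionVars false

open IsLocalRing Polynomial TensorProduct

namespace Fermat.Agent.TwoAdic

local notation "Γℚ" => (AlgebraicClosure ℚ ≃ₐ[ℚ] AlgebraicClosure ℚ)

section Basic

variable {E : EData} {O : Type} [CommRing O] [IsLocalRing O] {I : Type} {F : Fam E O I}
  {T : Subalgebra O F.Prod} {P : ∀ i, (Matrix (Fin 2) (Fin 2) (O ⧸ F.J i))ˣ}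
  {ρ : Γℚ →* Matrix (Fin 2) (Fin 2) T}

theorem Fam.rep_trace (h : ∀ i, repMap (F.proj T i) ρ = conjRep (P i) (F.ρ i)) (g : Γℚ) :
    ((ρ g).trace : F.Prod) = F.trace g := by
  funext i
  change F.proj T i (ρ g).trace = _
  rw [← repMap_trace, h, conjRep_trace]
  rfl

theorem Fam.rep_det (h : ∀ i, repMap (F.proj T i) ρ = conjRep (P i) (F.ρ i)) (g : Γℚ) :
    (ρ g).det = algebraMap O T (F.ε g) := by
  apply Subtype.ext
  funext i
  change F.proj T i (ρ g).det = Ideal.Quotient.mk (F.J i) (F.ε g)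
  rw [← repMap_det, h, conjRep_det, F.det]

theorem Fam.rep_starAt (h : ∀ i, repMap (F.proj T i) ρ = conjRep (P i) (F.ρ i)) {v : ℕ}
    {x : F.Prod} (hx : x ∈ T) (hs : ∀ i, StarAt (F.ρ i) v (x i)) : StarAt ρ v ⟨x, hx⟩ := by
  refine starAt_of_forall (F.proj T) (F.proj_inj T) fun i => ?_
  rw [h]
  exact (hs i).conj (P i)

theorem Fam.rep_unrAt (h : ∀ i, repMap (F.proj T i) ρ = conjRep (P i) (F.ρ i)) {v : ℕ}
    (hs : ∀ i, UnrAt (F.ρ i) v) : UnrAt ρ v := by
  refine unrAt_of_forall (F.proj T) (F.proj_inj T) fun i => ?_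
  rw [h]
  exact (hs i).conj (P i)

end Basic

section Cont

variable {E : EData} {O : Type} [CommRing O] [IsDomain O] [IsDiscreteValuationRing O] {I : Type}
  [Finite I] {F : Fam E O I}
  {T : Subalgebra O F.Prod} {P : ∀ i, (Matrix (Fin 2) (Fin 2) (O ⧸ F.J i))ˣ}
  {ρ : Γℚ →* Matrix (Fin 2) (Fin 2) T}

theorem Fam.rep_contAt (h : ∀ i, repMap (F.proj T i) ρ = conjRep (P i) (F.ρ i)) :
    ContAt ((maximalIdeal O).map (algebraMap O T)) ρ := by
  obtain ⟨k, hk⟩ := Ideal.exists_pow_inf_eq_pow_smul (M := F.Prod) (maximalIdeal O)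
    (Subalgebra.toSubmodule T)
  have hk1 := hk (k + 1) (Nat.le_succ k)
  choose L hL hL' using fun i => (F.cont i (k + 1)).conj (P i)
  refine ⟨⨆ i, L i, inferInstance, fun σ hσ a b => ?_⟩
  set x : T := ρ σ a b - (1 : Matrix (Fin 2) (Fin 2) T) a b with hx
  obtain ⟨ϖ, hϖ⟩ := (IsPrincipalIdealRing.principal (maximalIdeal O)).principal
  have hϖ' : maximalIdeal O = Ideal.span {ϖ} := hϖ
  have hxi : ∀ i, (x : F.Prod) i ∈ (maximalIdeal O ^ (k + 1)).map (Ideal.Quotient.mk (F.J i)) := by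
    intro i
    have h1 := hL' i σ (fun y hy => hσ y ((le_iSup L i) hy)) a b
    have h2 : (x : F.Prod) i = conjRep (P i) (F.ρ i) σ a b -
        (1 : Matrix (Fin 2) (Fin 2) (O ⧸ F.J i)) a b := by
      rw [← h i, repMap_apply_apply, ← map_one_apply (F.proj T i), ← map_sub]
      rfl
    rw [h2]
    exact h1
  have hy : ∀ i, ∃ y : O ⧸ F.J i, (x : F.Prod) i = ϖ ^ (k + 1) • y := by
    intro i
    have h1 := hxi i
    rw [hϖ', Ideal.span_singleton_pow, Ideal.map_span, Set.image_singleton,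
      Ideal.mem_span_singleton'] at h1
    obtain ⟨y, hy⟩ := h1
    refine ⟨y, ?_⟩
    rw [← hy, Algebra.smul_def, mul_comm]
    rfl
  choose y hy using hy
  have h1 : (x : F.Prod) ∈ (maximalIdeal O ^ (k + 1) • ⊤ : Submodule O F.Prod) ⊓
      Subalgebra.toSubmodule T := by
    refine ⟨?_, x.2⟩
    have h2 : (x : F.Prod) = ϖ ^ (k + 1) • y := funext hy
    rw [h2]
    refine Submodule.smul_mem_smul (Ideal.pow_mem_pow ?_ _) Submodule.mem_top
    rw [hϖ']
    exact Ideal.mem_span_singleton_self ϖ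
  rw [hk1, Nat.add_sub_cancel_left, pow_one] at h1
  have h2 : (x : F.Prod) ∈ maximalIdeal O • Subalgebra.toSubmodule T :=
    (Submodule.smul_mono le_rfl inf_le_right) h1
  have h3 : Subalgebra.toSubmodule T = (⊤ : Submodule O T).map T.val.toLinearMap := by
    ext z
    simp
  rw [h3, ← Submodule.map_smul''] at h2
  obtain ⟨z, hz, hz'⟩ := h2
  have h4 : z = x := Subtype.ext hz'
  rw [h4] at hz
  have h5 := Ideal.smul_top_eq_map (R := O) (S := T) (maximalIdeal O)
  rw [h5] at hz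
  exact hz

end Cont

section Abs

variable {E : EData} {O : Type} [CommRing O] [IsLocalRing O] [Finite (ResidueField O)]
  {T A : Type} [CommRing T] [Algebra O T] [CommRing A]
  [Algebra (ResidueField O) A] [Algebra O A] [IsScalarTower O (ResidueField O) A]

theorem isUnit_of_local_hom [IsLocalRing A] (s : A →ₐ[ResidueField O] ResidueField O) {x : A}
    (hx : s x = 0) : x ∈ maximalIdeal A := by
  rw [mem_maximalIdeal, mem_nonunits_iff]
  intro h1
  exact (h1.map s).ne_zero hx

theorem bijective_of_local_hom [IsLocalRing A] (s : A →ₐ[ResidueField O] ResidueField O) :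
    Function.Bijective (algebraMap (ResidueField O) (ResidueField A)) := by
  refine ⟨RingHom.injective _, fun y => ?_⟩
  obtain ⟨y, rfl⟩ := residue_surjective y
  refine ⟨s y, ?_⟩
  have h1 : y - algebraMap (ResidueField O) A (s y) ∈ maximalIdeal A := by
    apply isUnit_of_local_hom s
    rw [map_sub, AlgHom.commutes]
    exact sub_self _
  have h2 := (residue_eq_zero_iff _).mpr h1
  rw [map_sub, sub_eq_zero] at h2
  rw [h2]
  rfl

/-- abstract application of the upper bound -/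
theorem finrank_le_of_upper {Q : Finset ℕ} (hUp : Upper E Q) (h2O : (2 : O) ∈ maximalIdeal O)
    (w : O) (hw : residue O w ^ 2 + residue O w + 1 = 0)
    [IsLocalRing A] [Module.Finite (ResidueField O) A] (φ : T →ₐ[O] A)
    (hφ : Function.Surjective φ) (s : A →ₐ[ResidueField O] ResidueField O)
    (ρ : Γℚ →* Matrix (Fin 2) (Fin 2) T) (u : ℕ → T)
    (hcont : ContAt ((maximalIdeal O).map (algebraMap O T)) ρ)
    (hdet : ∀ g, ∃ a : O, residue O a = 1 ∧ (ρ g).det = algebraMap O T a)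
    (htr : ∀ g, s (φ (ρ g).trace) = trE E (ResidueField O) g) {g₀ j₀ : Γℚ}
    (hg : FixK E.N g₀) (hgt : PadicInt.toZMod (p := 2) (E.ρ g₀).trace = 1)
    (hj : ¬ FixK E.N j₀) (hNF : IsNF ρ g₀ j₀) (hw0 : s (φ (ρ g₀ 0 0)) = residue O w)
    (hunr : ∀ l : ℕ, l.Prime → ¬ l ∣ lev E Q → UnrAt ρ l)
    (hstar : ∀ v : ℕ, v.Prime → v ∣ lev E Q → u v ^ 2 = 1 ∧ StarAt ρ v (u v))
    (hgen : Algebra.adjoin O ({x | ∃ g, x = (ρ g).trace} ∪
      {x | ∃ v : ℕ, v.Prime ∧ v ∣ lev E Q ∧ x = u v}) = ⊤) :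
    Module.finrank (ResidueField O) A ≤ 2 ^ Q.card * h2 E.N := by
  have h2' : (2 : ResidueField O) = 0 := by
    have := (residue_eq_zero_iff (2 : O)).mpr h2O
    rwa [map_ofNat] at this
  have hchar : CharP (ResidueField O) 2 := CharTwo.of_one_ne_zero_of_two_eq_zero one_ne_zero h2'
  have hφO : ∀ a : O, φ (algebraMap O T a) = algebraMap (ResidueField O) A (residue O a) :=
    fun a => by
      rw [AlgHom.commutes]
      exact IsScalarTower.algebraMap_apply O (ResidueField O) A a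
  have hker : (maximalIdeal O).map ((φ : T →+* A).comp (algebraMap O T)) = ⊥ := by
    rw [eq_bot_iff, Ideal.map_le_iff_le_comap]
    intro a ha
    rw [Ideal.mem_comap]
    change φ (algebraMap O T a) = 0
    rw [hφO, (residue_eq_zero_iff a).mpr ha, map_zero]
  refine hUp (ResidueField O) (residue O w) hw A inferInstance (bijective_of_local_hom s)
    (repMap (φ : T →+* A) ρ) (fun v => φ (u v)) g₀ j₀ ?_ ?_ ?_ hg hgt ?_ ?_ ?_ hj ?_ ?_ ?_ ?_
  · refine hcont.map _ ?_
    rw [Ideal.map_map, hker]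
  · intro g
    rw [repMap_det]
    obtain ⟨a, ha, ha'⟩ := hdet g
    rw [ha']
    change φ (algebraMap O T a) = 1
    rw [hφO, ha, map_one]
  · intro g
    apply isUnit_of_local_hom s
    rw [repMap_trace]
    change s (φ _ - trE E A g) = 0
    rw [map_sub, htr]
    have h3 := map_trE E (s : A →+* ResidueField O) g
    change s (trE E A g) = _ at h3
    rw [h3, sub_self]
  · exact (hNF.map (φ : T →+* A)).d01
  · exact (hNF.map (φ : T →+* A)).d10
  · apply isUnit_of_local_hom s
    rw [repMap_apply_apply]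
    change s (φ _ - _) = 0
    rw [map_sub, hw0, AlgHom.commutes]
    exact sub_self _
  · exact (hNF.map (φ : T →+* A)).one
  · intro l hl hl'
    exact (hunr l hl hl').map _
  · intro v hv hv'
    refine ⟨?_, (hstar v hv hv').2.map (φ : T →+* A)⟩
    rw [← map_pow, (hstar v hv hv').1, map_one]
  · rw [eq_top_iff]
    intro x _
    obtain ⟨y, rfl⟩ := hφ x
    have hy : y ∈ Algebra.adjoin O ({x | ∃ g, x = (ρ g).trace} ∪
      {x | ∃ v : ℕ, v.Prime ∧ v ∣ lev E Q ∧ x = u v}) := hgen ▸ Algebra.mem_top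
    induction hy using Algebra.adjoin_induction with
    | mem z hz =>
      apply Algebra.subset_adjoin
      rcases hz with ⟨g, rfl⟩ | ⟨v, hv, hv', rfl⟩
      · exact Or.inl ⟨g, (repMap_trace (φ : T →+* A) ρ g).symm⟩
      · exact Or.inr ⟨v, hv, hv', rfl⟩
    | algebraMap r =>
      rw [hφO]
      exact Subalgebra.algebraMap_mem _ _
    | add a b _ _ ha hb =>
      rw [map_add]
      exact Subalgebra.add_mem _ (ha trivial) (hb trivial)
    | mul a b _ _ ha hb =>
      rw [map_mul]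
      exact Subalgebra.mul_mem _ (ha trivial) (hb trivial)

end Abs

section Upper

variable {E : EData} {O : Type} [CommRing O] [IsDomain O] [IsDiscreteValuationRing O]
  [HenselianRing O (maximalIdeal O)] [Finite (ResidueField O)] {I : Type} [Finite I] [Nonempty I]
  (F : Fam E O I)

/-- the algebra of traces and extra elements -/
noncomputable def Fam.alg (U : Set F.Prod) : Subalgebra O F.Prod :=
  Algebra.adjoin O ({x | ∃ g, x = F.trace g} ∪ U)

theorem Fam.alg_le {U : Set F.Prod} (hU : U ⊆ F.cst) : F.alg U ≤ F.cst := by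
  refine Algebra.adjoin_le (Set.union_subset ?_ hU)
  rintro _ ⟨g, rfl⟩
  exact F.trace_mem_cst g

theorem Fam.trace_mem_alg (U : Set F.Prod) (g : Γℚ) : F.trace g ∈ F.alg U :=
  Algebra.subset_adjoin (Or.inl ⟨g, rfl⟩)

theorem Fam.mem_alg_of_mem {U : Set F.Prod} {x : F.Prod} (hx : x ∈ U) : x ∈ F.alg U :=
  Algebra.subset_adjoin (Or.inr hx)

theorem res_eq_one_of_sq {k : Type*} [Field k] (h2 : (2 : k) = 0) {x : k} (hx : x ^ 2 = 1) :
    x = 1 := by
  have h1 : (x - 1) ^ 2 = 0 := by linear_combination hx + (1 - x) * h2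
  exact sub_eq_zero.mp (pow_eq_zero_iff (two_ne_zero)|>.mp h1)

theorem Fam.mem_cst_of_sq (h2O : (2 : O) ∈ maximalIdeal O) {x : F.Prod} (hx : x ^ 2 = 1) :
    x ∈ F.cst := by
  have h2' : (2 : ResidueField O) = 0 := by
    have := (residue_eq_zero_iff (2 : O)).mpr h2O
    rwa [map_ofNat] at this
  have h1 : ∀ i, F.res i (x i) = 1 := fun i => by
    apply res_eq_one_of_sq h2'
    rw [← map_pow]
    have h3 : x i ^ 2 = 1 := congrFun hx i
    rw [h3, map_one]
  intro i j
  rw [h1, h1]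

/-- the residue homomorphism of the special fibre -/
theorem exists_res_hom (T : Subalgebra O F.Prod) :
    ∃ s : ResidueField O ⊗[O] T →ₐ[ResidueField O] ResidueField O,
      ∀ x : T, s (1 ⊗ₜ x) = resT F.res T x := by
  let r : T →ₐ[O] ResidueField O :=
    { resT F.res T with commutes' := fun a => resT_algebraMap F.res F.hres T a }
  refine ⟨Algebra.TensorProduct.lift (Algebra.ofId (ResidueField O) (ResidueField O)) r
    (fun _ _ => mul_comm _ _), fun x => ?_⟩
  refine (Algebra.TensorProduct.lift_tmul _ _ _ _ _).trans ?_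
  rw [map_one, one_mul]
  rfl

theorem includeRight_surjective (T : Type) [CommRing T] [Algebra O T] :
    Function.Surjective (Algebra.TensorProduct.includeRight : T →ₐ[O] ResidueField O ⊗[O] T) := by
  intro x
  induction x using TensorProduct.induction_on with
  | zero => exact ⟨0, map_zero _⟩
  | tmul a m =>
    obtain ⟨c, rfl⟩ := residue_surjective a
    refine ⟨c • m, ?_⟩
    change (1 : ResidueField O) ⊗ₜ[O] (c • m) = _
    rw [TensorProduct.tmul_smul, TensorProduct.smul_tmul', Algebra.smul_def, mul_one]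
    rfl
  | add x y hx hy =>
    obtain ⟨a, rfl⟩ := hx
    obtain ⟨b, rfl⟩ := hy
    exact ⟨a + b, map_add _ _ _⟩

omit [Nonempty I] [HenselianRing O (maximalIdeal O)] in
theorem Fam.finite_alg (T : Subalgebra O F.Prod) : Module.Finite O T := by
  have h1 : IsNoetherian O F.Prod := inferInstance
  exact Module.Finite.of_injective T.val.toLinearMap Subtype.val_injective

/-- application of the upper bound -/
theorem Fam.finrank_le {Q : Finset ℕ} (hUp : Upper E Q) (h2O : (2 : O) ∈ maximalIdeal O) (w : O)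
    (hw : residue O w ^ 2 + residue O w + 1 = 0) (u : ℕ → F.Prod)
    (hu : ∀ v : ℕ, v.Prime → v ∣ lev E Q → u v ^ 2 = 1)
    (hstar : ∀ v : ℕ, v.Prime → v ∣ lev E Q → ∀ i, StarAt (F.ρ i) v (u v i))
    (hunr : ∀ l : ℕ, l.Prime → ¬ l ∣ lev E Q → ∀ i, UnrAt (F.ρ i) l) :
    Module.finrank (ResidueField O) (ResidueField O ⊗[O]
      (F.alg {x | ∃ v : ℕ, v.Prime ∧ v ∣ lev E Q ∧ x = u v})) ≤ 2 ^ Q.card * h2 E.N := by
  classical
  obtain ⟨g₀, j₀, hg, hgt, hj⟩ := E.exists_base
  set U : Set F.Prod := {x | ∃ v : ℕ, v.Prime ∧ v ∣ lev E Q ∧ x = u v} with hU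
  have hUc : U ⊆ F.cst := by
    rintro _ ⟨v, hv, hv', rfl⟩
    exact F.mem_cst_of_sq h2O (hu v hv hv')
  have hT := F.alg_le hUc
  generalize hTdef : F.alg U = T at hT ⊢
  have htrT : ∀ g, F.trace g ∈ T := fun g => hTdef ▸ F.trace_mem_alg U g
  have huT : ∀ v : ℕ, v.Prime → v ∣ lev E Q → u v ∈ T := fun v hv hv' =>
    hTdef ▸ F.mem_alg_of_mem ⟨v, hv, hv', rfl⟩
  obtain ⟨P, ρ, hNF, hrep, hw0⟩ := F.exists_rep h2O w hw hg hgt hj T hT htrT
  obtain ⟨s, hs⟩ := exists_res_hom F T
  have hloc : IsLocalRing T := isLocalRing_of_le F.hloc hT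
  have hsurj := includeRight_surjective (O := O) T
  have hnt : Nontrivial (ResidueField O ⊗[O] T) := s.toRingHom.domain_nontrivial
  have hlocA : IsLocalRing (ResidueField O ⊗[O] T) :=
    IsLocalRing.of_surjective' (Algebra.TensorProduct.includeRight :
      T →ₐ[O] ResidueField O ⊗[O] T).toRingHom hsurj
  have hfT : Module.Finite O T := F.finite_alg T
  have hfA : Module.Finite (ResidueField O) (ResidueField O ⊗[O] T) := inferInstance
  let uT : ℕ → T := fun v => if h : v.Prime ∧ v ∣ lev E Q then ⟨u v, huT v h.1 h.2⟩ else 1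
  have huT' : ∀ (v : ℕ) (hv : v.Prime) (hv' : v ∣ lev E Q), uT v = ⟨u v, huT v hv hv'⟩ :=
    fun v hv hv' => dif_pos ⟨hv, hv'⟩
  refine finrank_le_of_upper hUp h2O w hw (φ := Algebra.TensorProduct.includeRight) hsurj s ρ uT
    (Fam.rep_contAt hrep) (fun g => ⟨F.ε g, F.res_ε g, Fam.rep_det hrep g⟩) ?_ hg hgt hj hNF ?_
    (fun l hl hl' => Fam.rep_unrAt hrep (hunr l hl hl')) ?_ ?_
  · intro g
    rw [Algebra.TensorProduct.includeRight_apply, hs]
    rw [resT_eq hT _ (Classical.arbitrary I), Fam.rep_trace hrep]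
    exact F.tr _ g
  · rw [Algebra.TensorProduct.includeRight_apply, hs, hw0]
  · intro v hv hv'
    rw [huT' v hv hv']
    exact ⟨Subtype.ext (hu v hv hv'), Fam.rep_starAt hrep _ (hstar v hv hv')⟩
  · rw [eq_top_iff]
    rintro ⟨x, hx⟩ -
    have hx' := hx
    rw [← hTdef] at hx'
    induction hx' using Algebra.adjoin_induction with
    | mem z hz =>
      apply Algebra.subset_adjoin
      rcases hz with ⟨g, rfl⟩ | ⟨v, hv, hv', rfl⟩
      · exact Or.inl ⟨g, Subtype.ext (Fam.rep_trace hrep g).symm⟩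
      · exact Or.inr ⟨v, hv, hv', (huT' v hv hv').symm⟩
    | algebraMap r => exact Subalgebra.algebraMap_mem _ _
    | add a b ha' hb' ha hb =>
      have ha1 : a ∈ T := hTdef ▸ ha'
      have hb1 : b ∈ T := hTdef ▸ hb'
      exact Subalgebra.add_mem _ (ha ha1) (hb hb1)
    | mul a b ha' hb' ha hb =>
      have ha1 : a ∈ T := hTdef ▸ ha'
      have hb1 : b ∈ T := hTdef ▸ hb'
      exact Subalgebra.mul_mem _ (ha ha1) (hb hb1)

end Upper

end Fermat.Agent.TwoAdic
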