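import Fermat.Agent.TwoAdic.H0Form
import Fermat.Agent.TwoAdic.Spec
import Fermat.Agent.Top.SupportCoker
import Fermat.Agent.Eigenform.Converse

/-!
# H0: from Hecke points to torsion points of large order
-/

set_option autoImplicit false
set_option linter.style.haveILetI false

open CongruenceSubgroup ModularCurve ModularCurve.Period Fermat.Agent.Period Fermat.Agent.Top
  CuspForm ModularFormClass Fermat.Agent.Newform Fermat.Agent.QComp Module
  Fermat.Agent.Petersson Fermat.Agent.Eigenform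
open scoped MatrixGroups

namespace Fermat.Agent.TwoAdic

local notation "Zb" => integralClosure ℤ ℂ

/-- a polynomial separating an algebraic integer from an integer modulo `𝔪` -/
theorem exists_sep {𝔪 : Ideal Zb} [h𝔪 : 𝔪.IsMaximal] (p : ℕ) [hp : Fact p.Prime]
    (hp𝔪 : (p : Zb) ∈ 𝔪) (a : Zb) (c : ℤ) (h : a - (c : Zb) ∉ 𝔪) :
    ∃ g : Polynomial ℤ, Polynomial.aeval a g ∈ 𝔪 ∧ ¬ (p : ℤ) ∣ g.eval c := by
  have hint : IsIntegral ℤ a := Algebra.IsIntegral.isIntegral a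
  obtain ⟨g, hg, hga⟩ := hint
  have hne : g.map (Int.castRingHom (ZMod p)) ≠ 0 := (hg.map _).ne_zero
  obtain ⟨q, hq1, hq2⟩ := Polynomial.exists_eq_pow_rootMultiplicity_mul_and_not_dvd _ hne
    ((c : ℤ) : ZMod p)
  set k := (g.map (Int.castRingHom (ZMod p))).rootMultiplicity ((c : ℤ) : ZMod p) with hk
  obtain ⟨h', hh'⟩ := Polynomial.map_surjective (Int.castRingHom (ZMod p))
    (ZMod.ringHom_surjective _) q
  refine ⟨h', ?_, ?_⟩
  · have h1 : (g - (Polynomial.X - Polynomial.C c) ^ k * h').map (Int.castRingHom (ZMod p)) = 0 := by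
      rw [Polynomial.map_sub, Polynomial.map_mul, Polynomial.map_pow, Polynomial.map_sub,
        Polynomial.map_X, Polynomial.map_C, hh', eq_intCast, ← hq1, sub_self]
    have h2 : Polynomial.C (p : ℤ) ∣ g - (Polynomial.X - Polynomial.C c) ^ k * h' := by
      rw [Polynomial.C_dvd_iff_dvd_coeff]
      intro i
      have h3 := congrArg (fun P => Polynomial.coeff P i) h1
      simp only [Polynomial.coeff_map, Polynomial.coeff_zero, eq_intCast] at h3
      exact (ZMod.intCast_zmod_eq_zero_iff_dvd _ p).1 h3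
    obtain ⟨w, hw⟩ := h2
    have h3 := congrArg (Polynomial.aeval a) hw
    rw [map_sub, map_mul, map_pow, map_sub, Polynomial.aeval_X, Polynomial.aeval_C, map_mul,
      Polynomial.aeval_C] at h3
    have hga' : Polynomial.aeval a g = 0 := hga
    rw [hga', zero_sub, eq_intCast, eq_intCast] at h3
    have h4 : (a - (c : Zb)) ^ k * Polynomial.aeval a h' ∈ 𝔪 := by
      rw [← neg_mem_iff, h3]
      refine 𝔪.mul_mem_right _ ?_
      simpa using hp𝔪
    exact (h𝔪.isPrime.mem_or_mem h4).resolve_left fun h5 => h (h𝔪.isPrime.mem_of_pow_mem _ h5)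
  · intro hdvd
    apply hq2
    rw [Polynomial.dvd_iff_isRoot, Polynomial.IsRoot, ← hh', Polynomial.eval_intCast_map]
    exact (ZMod.intCast_zmod_eq_zero_iff_dvd _ p).2 hdvd

/-- algebraic integers representing the coefficients of an eigenform -/
theorem exists_coeffs {N : ℕ} [NeZero N] (f : CuspForm (Gamma0 N) 2) :
    ∃ α : Nat.Primes → Zb, f.IsNormalizedEigenform → ∀ l : Nat.Primes,
      ((α l : Zb) : ℂ) = qCoeff f l := by
  by_cases hf : f.IsNormalizedEigenform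
  · exact ⟨fun l => ⟨qCoeff f l, isIntegral_qCoeff_prime hf l.2⟩, fun _ l => rfl⟩
  · exact ⟨fun _ => 0, fun h => absurd h hf⟩

theorem coe_aeval {N : ℕ} [NeZero N] {f : CuspForm (Gamma0 N) 2} {α : Nat.Primes → Zb}
    (hα : ∀ l : Nat.Primes, ((α l : Zb) : ℂ) = qCoeff f l) (P : HeckeAlg) :
    ((MvPolynomial.aeval α P : Zb) : ℂ) = pvF P f := by
  have h1 := MvPolynomial.comp_aeval_apply (R := ℤ) α (Zb).val P
  have h2 : (fun i => (Zb).val (α i)) = fun l : Nat.Primes => qCoeff f l := funext hα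
  rw [h2] at h1
  exact h1

/-- a Hecke operator separating a set of eigenforms from an integral eigensystem -/
theorem exists_sepOp {N : ℕ} [NeZero N] {𝔪 : Ideal Zb} [h𝔪 : 𝔪.IsMaximal] (p : ℕ)
    [hp : Fact p.Prime] (hp𝔪 : (p : Zb) ∈ 𝔪) (α : CuspForm (Gamma0 N) 2 → Nat.Primes → Zb)
    (t : Nat.Primes → ℤ) (B : Finset (CuspForm (Gamma0 N) 2))
    (hB : ∀ f ∈ B, ∃ l : Nat.Primes, α f l - ((t l : ℤ) : Zb) ∉ 𝔪) :
    ∃ s : HeckeAlg, (p : ℤ) ∣ MvPolynomial.aeval t s - 1 ∧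
      ∀ f ∈ B, MvPolynomial.aeval (α f) s ∈ 𝔪 := by
  classical
  have h1 : ∃ s : HeckeAlg, ¬ (p : ℤ) ∣ MvPolynomial.aeval t s ∧
      ∀ f ∈ B, MvPolynomial.aeval (α f) s ∈ 𝔪 := by
    induction B using Finset.induction_on with
    | empty =>
      refine ⟨1, ?_, fun f hf => absurd hf (Finset.notMem_empty f)⟩
      rw [map_one]
      intro h
      exact hp.out.one_lt.ne' (Nat.dvd_one.1 (by exact_mod_cast h))
    | insert f B hfB ih =>
      obtain ⟨s, hs1, hs2⟩ := ih fun f hf => hB f (Finset.mem_insert_of_mem hf)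
      obtain ⟨l, hl⟩ := hB f (Finset.mem_insert_self f B)
      obtain ⟨g, hg1, hg2⟩ := exists_sep p hp𝔪 _ _ hl
      have e : ∀ {A : Type} [CommRing A] (x : Nat.Primes → A),
          MvPolynomial.aeval x (s * Polynomial.aeval (MvPolynomial.X l : HeckeAlg) g) =
            MvPolynomial.aeval x s * Polynomial.aeval (x l) g := by
        intro A _ x
        rw [map_mul, ← Polynomial.aeval_algHom_apply, MvPolynomial.aeval_X]
      refine ⟨s * Polynomial.aeval (MvPolynomial.X l) g, ?_, ?_⟩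
      · rw [e]
        intro h
        rcases (Nat.prime_iff_prime_int.1 hp.out).dvd_or_dvd h with h | h
        · exact hs1 h
        · exact hg2 (by simpa using h)
      · intro f' hf'
        rw [e]
        rcases Finset.mem_insert.1 hf' with rfl | hf'
        · exact 𝔪.mul_mem_left _ hg1
        · exact 𝔪.mul_mem_right _ (hs2 f' hf')
  obtain ⟨s, hs1, hs2⟩ := h1
  have hcop : IsCoprime (p : ℤ) (MvPolynomial.aeval t s) :=
    ((Nat.prime_iff_prime_int.1 hp.out).coprime_iff_not_dvd).2 hs1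
  obtain ⟨u, v, huv⟩ := hcop
  refine ⟨MvPolynomial.C v * s, ?_, fun f hf => ?_⟩
  · rw [map_mul, MvPolynomial.aeval_C]
    refine ⟨-u, ?_⟩
    simp only [eq_intCast, Int.cast_id]
    linear_combination huv
  · rw [map_mul]
    exact 𝔪.mul_mem_left _ (hs2 f hf)

theorem tE_of_not_dvd (E : EData) (Q : Finset ℕ) {l : Nat.Primes} (hl : ¬ (l : ℕ) ∣ lev E Q) :
    tE E Q l = E.a l :=
  if_neg fun hlQ => hl ((Finset.dvd_prod_of_mem (fun q => q) hlQ).mul_left _)

/-- **H0** -/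
theorem h0 (E : EData) (Q : Finset ℕ) [NeZero (lev E Q)] (hQ : Squarefree (lev E Q)) (m e : ℕ)
    (h : HeckePoint E Q m) (he : e * (2 ^ (Q.card + 1) * h2 E.N) < m) :
    ∃ x : JZero (lev E Q), (∃ n, 2 ^ n • x = 0) ∧ 2 ^ e • x ≠ 0 ∧
      ∀ l : Nat.Primes, ¬ (l : ℕ) ∣ lev E Q → heckeOperatorBar (lev E Q) l x = E.a l • x := by
  classical
  haveI : Fact (Nat.Prime 2) := ⟨Nat.prime_two⟩
  obtain ⟨𝔪, hmax, h2m⟩ := FLTPrelim.exists_maximalIdeal_natCast_prime_mem Nat.prime_two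
  obtain ⟨𝓕, h𝓕1, h𝓕2, h𝓕3, h𝓕4⟩ := h 𝔪 hmax (by exact_mod_cast h2m)
  obtain ⟨𝓝, h𝓝, hli, hspan⟩ := exists_newbasis hQ
  choose α hα using fun f : CuspForm (Gamma0 (lev E Q)) 2 => exists_coeffs f
  have hsep : ∀ f ∈ 𝓝.filter (fun f => f ∉ 𝓕), ∃ l : Nat.Primes,
      α f l - ((tE E Q l : ℤ) : Zb) ∉ 𝔪 := by
    intro f hf
    obtain ⟨hf1, hf2⟩ := Finset.mem_filter.1 hf
    by_contra hcon
    push Not at hcon
    apply hf2
    refine h𝓕3 f (h𝓝 f hf1) fun l hl hlN => ⟨α f ⟨l, hl⟩, hα f (h𝓝 f hf1).1 ⟨l, hl⟩, ?_⟩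
    have h1 := hcon ⟨l, hl⟩
    rwa [tE_of_not_dvd E Q (l := ⟨l, hl⟩) hlN] at h1
  obtain ⟨s, hs1, hs2⟩ := exists_sepOp 2 h2m α (tE E Q) _ hsep
  have hcard : (𝓝.filter (fun f => MvPolynomial.aeval (α f) s - 1 ∈ 𝔪)).card ≤ 𝓕.card := by
    refine Finset.card_le_card fun f hf => ?_
    obtain ⟨hf1, hf2⟩ := Finset.mem_filter.1 hf
    by_contra hf3
    have h1 := hs2 f (Finset.mem_filter.2 ⟨hf1, hf3⟩)
    have h3 : (1 : Zb) ∈ 𝔪 := by
      have := sub_mem h1 hf2
      rwa [sub_sub_cancel] at this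
    exact hmax.ne_top ((Ideal.eq_top_iff_one _).2 h3)
  have H2 : (((plusAct (lev E Q) s).charpoly).map (Int.castRingHom (ZMod 2))).rootMultiplicity 1 ≤
      2 ^ (Q.card + 1) * h2 E.N := by
    have h1 := rootMult_mod (LinearMap.charpoly_monic (plusAct (lev E Q) s)) 𝓝
      (fun f => MvPolynomial.aeval (α f) s) (fun μ => by
        refine (rootMult_plus hQ h𝓝 hli hspan s μ).trans (le_of_eq ?_)
        congr 2
        refine Finset.filter_congr fun f hf => ?_
        rw [coe_aeval (hα f (h𝓝 f hf).1)]) 𝔪 2 h2m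
    refine h1.trans ((Nat.mul_le_mul_left 2 hcard).trans (le_of_eq ?_))
    rw [h𝓕2, pow_succ]
    ring
  obtain ⟨x, hx1, hx2⟩ := exists_eigen_mod (plusAct (lev E Q))
    (MvPolynomial.aeval (tE E Q) : HeckeAlg →ₐ[ℤ] ℤ).toRingHom 2 m e _ (by
      intro P hP
      have h1 := h𝓕4 P (fun f hf => pv_eq_zero hQ (h𝓕1 f hf).1 hP)
      exact_mod_cast h1) s hs1 H2 he
  obtain ⟨c, -, hι⟩ := exists_supportMap_bounded (lev E Q)
  obtain ⟨ι, hι1, hι2, hι3, -⟩ := hι (2 ^ m) (pow_ne_zero _ two_ne_zero)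
  refine ⟨ι (x : parM (lev E Q) ℤ), ⟨m, hι1 _⟩, ?_, ?_⟩
  · intro h0
    rw [← map_nsmul] at h0
    obtain ⟨y, hy⟩ := hι2 _ h0
    have hymem : y ∈ plusLat (lev E Q) := by
      intro v hv
      have h1 : (2 ^ m) • hopPar (lev E Q) ℤ v (hopPar (lev E Q) ℤ v y) = (2 ^ m) • y := by
        rw [← map_nsmul, ← map_nsmul, ← hy, map_nsmul, map_nsmul, x.2 v hv]
      exact nsmul_right_injective (pow_ne_zero m two_ne_zero) h1
    apply hx2
    refine ⟨⟨y, hymem⟩, ?_⟩
    have e1 : ((2 : ℕ) : ℤ) ^ e • x = (2 ^ e) • x := by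
      rw [← natCast_zsmul]
      push_cast
      rfl
    have e2 : ((2 : ℕ) : ℤ) ^ m • (⟨y, hymem⟩ : plusLat (lev E Q)) = (2 ^ m) • ⟨y, hymem⟩ := by
      rw [← natCast_zsmul]
      push_cast
      rfl
    rw [e1, e2]
    exact Subtype.ext hy
  · intro l hl
    rw [← hι3 l hl]
    obtain ⟨y, hy⟩ := hx1 (MvPolynomial.X l)
    have h1 : hopPar (lev E Q) ℤ l (x : parM (lev E Q) ℤ) =
        E.a l • (x : parM (lev E Q) ℤ) + (2 ^ m) • (y : parM (lev E Q) ℤ) := by
      have h2 := congrArg (fun z : plusLat (lev E Q) => (z : parM (lev E Q) ℤ)) hy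
      simp only [coe_plusAct, evalPar_X] at h2
      rw [h2]
      have h3 : (MvPolynomial.aeval (tE E Q) : HeckeAlg →ₐ[ℤ] ℤ).toRingHom (MvPolynomial.X l) =
          E.a l := by
        rw [← tE_of_not_dvd E Q hl]
        exact MvPolynomial.aeval_X _ _
      rw [h3, ← natCast_zsmul (y : parM (lev E Q) ℤ)]
      push_cast
      rfl
    have h5 : ι ((2 ^ m) • (y : parM (lev E Q) ℤ)) = 0 :=
      (map_nsmul ι (2 ^ m) (y : parM (lev E Q) ℤ)).trans (hι1 _)
    have h6 : ι (E.a l • (x : parM (lev E Q) ℤ)) = E.a l • ι (x : parM (lev E Q) ℤ) :=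
      ι.map_zsmul _ _
    exact (congrArg ι h1).trans ((ι.map_add _ _).trans (by rw [h5, h6, add_zero]))

theorem squarefree_lev (E : EData) (Q : Finset ℕ) (hQ : ∀ q ∈ Q, q.Prime ∧ ¬ q ∣ E.N) :
    Squarefree (lev E Q) := by
  classical
  unfold lev
  rw [Nat.squarefree_mul]
  · refine ⟨E.sqf, ?_⟩
    induction Q using Finset.induction_on with
    | empty => simp
    | insert q Q hq ih =>
      rw [Finset.prod_insert hq, Nat.squarefree_mul]
      · exact ⟨(hQ q (Finset.mem_insert_self q Q)).1.squarefree,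
          ih fun r hr => hQ r (Finset.mem_insert_of_mem hr)⟩
      · refine Nat.Coprime.prod_right fun r hr => ?_
        exact (Nat.coprime_primes (hQ q (Finset.mem_insert_self q Q)).1
          (hQ r (Finset.mem_insert_of_mem hr)).1).2 fun h => hq (h ▸ hr)
  · refine Nat.Coprime.prod_right fun r hr => ?_
    exact ((Nat.Prime.coprime_iff_not_dvd (hQ r hr).1).2 (hQ r hr).2).symm

theorem lev_ne_zeroH (E : EData) (Q : Finset ℕ) (hQ : ∀ q ∈ Q, q.Prime ∧ ¬ q ∣ E.N) :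
    lev E Q ≠ 0 := (squarefree_lev E Q hQ).ne_zero

end Fermat.Agent.TwoAdic
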