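import Fermat.Agent.TwoAdic.Spec
import Fermat.Agent.QComp.OpsJ
import Fermat.Agent.Newform.StrongMult

/-!
# Block H: the limit argument

If for infinitely many primes `r` the eigensystem of `E` occurs in the `2`-power torsion of
`J₀(N r)` to all orders, then `E` is modular.
-/

set_option autoImplicit false

namespace Fermat.Agent.TwoAdic.MazH

open CongruenceSubgroup ModularCurve ModularCurve.Period Fermat.Agent.Period Fermat.Agent.Top
  CuspForm ModularFormClass Fermat.Agent.Newform Fermat.Agent.Petersson Fermat.Agent.Eigenform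
  Fermat.Agent.RepTwo Fermat.Agent.QComp
open scoped TensorProduct

local notation "conjA" => ((starRingEnd ℂ : ℂ →+* ℂ) : ℂ →+ ℂ)

/-- a vector which is an eigenvector of the variables occurring in a polynomial -/
theorem evalEnd_of_eigen_vars {σ V : Type*} [AddCommGroup V] {T : σ → Module.End ℤ V}
    (hT : ∀ i j, T i * T j = T j * T i) (p : MvPolynomial σ ℤ) :
    ∃ s : Finset σ, ∀ (a : σ → ℤ) (v : V), (∀ i ∈ s, T i v = a i • v) →
      evalEnd T hT p v = MvPolynomial.aeval a p • v := by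
  classical
  obtain ⟨s, q, rfl⟩ := MvPolynomial.exists_finset_rename p
  refine ⟨s, fun a v hv => ?_⟩
  let T' : {x // x ∈ s} → Module.End ℤ V := fun i => T i.1
  have hT' : ∀ i j, T' i * T' j = T' j * T' i := fun i j => hT _ _
  have e1 : evalEnd T hT (MvPolynomial.rename Subtype.val q) = evalEnd T' hT' q := by
    refine eq_evalEnd hT' ((evalEnd T hT).toRingHom.comp
      (MvPolynomial.rename (R := ℤ) (Subtype.val : {x // x ∈ s} → σ)).toRingHom) (fun i => ?_) q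
    show evalEnd T hT (MvPolynomial.rename Subtype.val (MvPolynomial.X i)) = _
    rw [MvPolynomial.rename_X, evalEnd_X]
  rw [e1, evalEnd_apply_of_eigen hT' (fun i => a i.1) v (fun i => hv i.1 i.2),
    MvPolynomial.aeval_rename]
  rfl

/-- an integer killing elements of `2`-power order `> 2 ^ k` for all large `k` is zero -/
theorem eq_zero_of_order {V : Type*} [AddCommGroup V] (n : ℤ) (K : ℕ)
    (h : ∀ k : ℕ, K ≤ k → ∃ x : V, (∃ n : ℕ, 2 ^ n • x = 0) ∧ 2 ^ k • x ≠ 0 ∧ n • x = 0) :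
    n = 0 := by
  by_contra hn
  obtain ⟨e, m, hm, rfl⟩ : ∃ (e : ℕ) (m : ℤ), IsCoprime m 2 ∧ n = 2 ^ e * m := by
    obtain ⟨m, h2, h1⟩ := (Int.finiteMultiplicity_iff.mpr ⟨by norm_num, hn⟩ :
      FiniteMultiplicity (2 : ℤ) n).exists_eq_pow_mul_and_not_dvd
    exact ⟨_, m, ((Int.prime_two.coprime_iff_not_dvd).mpr h1).symm, h2⟩
  obtain ⟨x, ⟨j, hj⟩, hk, hx⟩ := h (max K e) (le_max_left _ _)
  have hcop : IsCoprime m (2 ^ j) := hm.pow_right
  obtain ⟨a, b, hab⟩ := hcop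
  apply hk
  have h1 : (2 ^ e : ℤ) • x = 0 := by
    have h2 : (2 ^ e : ℤ) • x = (a * (2 ^ e * m) + b * 2 ^ e * 2 ^ j) • x := by
      congr 1
      linear_combination (-(2 ^ e : ℤ)) * hab
    have h3 : (2 ^ j : ℤ) • x = 0 := by
      rw [← hj, ← natCast_zsmul]
      push_cast
      rfl
    rw [h2, add_smul, mul_smul, hx, smul_zero, mul_smul, h3, smul_zero, add_zero]
  obtain ⟨d, hd⟩ := Nat.exists_eq_add_of_le (le_max_right K e)
  rw [hd, pow_add, mul_comm, mul_smul]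
  have h3 : (2 ^ e : ℕ) • x = 0 := by
    rw [← h1, ← natCast_zsmul]
    push_cast
    rfl
  rw [h3, smul_zero]

/-- **An eigensystem with integral eigenvalues in parabolic cohomology comes from cusp forms.** -/
theorem exists_form_of_parabolic {N : ℕ} [NeZero N] (a : Nat.Primes → ℤ)
    {ψ : Additive (Gamma0 N) →+ ℂ} (hψ : IsParabolicHom (Gamma0 N) ψ) (hψ0 : ψ ≠ 0)
    (h : ∀ ℓ : Nat.Primes, ¬ (ℓ : ℕ) ∣ N → hop N ℓ ψ = (a ℓ : ℂ) • ψ) :
    ∃ F : CuspForm (Gamma0 N) 2, F ≠ 0 ∧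
      ∀ ℓ : Nat.Primes, ¬ (ℓ : ℕ) ∣ N → hOp N ℓ F = (a ℓ : ℂ) • F := by
  obtain ⟨F, G, rfl⟩ := exists_period_conj_period hψ
  have key : ∀ ℓ : Nat.Primes, ¬ (ℓ : ℕ) ∣ N → hOp N ℓ F = (a ℓ : ℂ) • F ∧
      hOp N ℓ G = (a ℓ : ℂ) • G := by
    intro ℓ hℓ
    have h1 := h ℓ hℓ
    have h2 := eq_zero_of_period_add_conj (hOp N ℓ F - (a ℓ : ℂ) • F)
      (hOp N ℓ G - (a ℓ : ℂ) • G) (by
        rw [map_sub, map_sub, periodLin_hOp, periodLin_hOp, map_smul, map_smul]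
        rw [map_add, hop_conj_comp] at h1
        have h3 : AddMonoidHom.comp conjA (hop N ℓ (periodLin N G) - (a ℓ : ℂ) • periodLin N G) =
            AddMonoidHom.comp conjA (hop N ℓ (periodLin N G)) -
              (a ℓ : ℂ) • AddMonoidHom.comp conjA (periodLin N G) := by
          refine AddMonoidHom.ext fun γ => ?_
          change (starRingEnd ℂ) (hop N ℓ (periodLin N G) γ - (a ℓ : ℂ) * periodLin N G γ) =
            (starRingEnd ℂ) (hop N ℓ (periodLin N G) γ) -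
              (a ℓ : ℂ) * (starRingEnd ℂ) (periodLin N G γ)
          rw [map_sub, map_mul, map_intCast]
        rw [h3, sub_add_sub_comm, h1, smul_add, sub_self])
    exact ⟨sub_eq_zero.mp h2.1, sub_eq_zero.mp h2.2⟩
  by_cases hF : F = 0
  · refine ⟨G, fun hG => hψ0 ?_, fun ℓ hℓ => (key ℓ hℓ).2⟩
    rw [hF, hG, map_zero, AddMonoidHom.comp_zero, add_zero]
  · exact ⟨F, hF, fun ℓ hℓ => (key ℓ hℓ).1⟩

/-- an integral eigensystem which occurs to all orders in the `2`-power torsion of `J₀(N)` is the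
eigensystem of a newform -/
theorem exists_newform_of_points (N : ℕ) [NeZero N] (a : Nat.Primes → ℤ)
    (h : ∀ k : ℕ, ∃ x : JZero N, (∃ n : ℕ, 2 ^ n • x = 0) ∧ 2 ^ k • x ≠ 0 ∧
      ∀ l : Nat.Primes, (l : ℕ) ≤ k → ¬ (l : ℕ) ∣ N → heckeOperatorBar N l x = a l • x) :
    ∃ (M : ℕ) (g : CuspForm (Gamma0 M) 2), M ∣ N ∧ g.IsNewform ∧
      ∀ l : Nat.Primes, ¬ (l : ℕ) ∣ N → qCoeff g l = (a l : ℂ) := by
  classical
  let φ : HeckePoly N ∅ →+* Module.End ℤ (parM N ℤ) :=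
    ((evalPar N ℤ).comp (polyIncl N ∅)).toRingHom
  let χ : HeckePoly N ∅ →+* ℂ :=
    (MvPolynomial.aeval (fun i : GoodPrime N ∅ => ((a ⟨i.1, i.2.1⟩ : ℤ) : ℂ)) :
      HeckePoly N ∅ →ₐ[ℤ] ℂ).toRingHom
  obtain ⟨c, hc, Hc⟩ := exists_bound_of_evalPar N
  have hker : RingHom.ker φ ≤ RingHom.ker χ := by
    intro t ht
    have ht' : evalPar N ℤ (polyIncl N ∅ t) = 0 := ht
    -- the integral value
    obtain ⟨s, hs⟩ := evalEnd_of_eigen_vars (opsJ N N ∅).comm t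
    let b : GoodPrime N ∅ → ℤ := fun i => a ⟨i.1, i.2.1⟩
    have hval : χ t = ((MvPolynomial.aeval b t : ℤ) : ℂ) := by
      have h1 : χ = (Int.castRingHom ℂ).comp
          (MvPolynomial.aeval b : HeckePoly N ∅ →ₐ[ℤ] ℤ).toRingHom := by
        apply MvPolynomial.ringHom_ext
        · intro n
          rw [eq_intCast MvPolynomial.C n, map_intCast, map_intCast]
        · intro i
          change MvPolynomial.aeval _ (MvPolynomial.X i) =
            (Int.castRingHom ℂ) (MvPolynomial.aeval b (MvPolynomial.X i))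
          rw [MvPolynomial.aeval_X, MvPolynomial.aeval_X]
          rfl
      exact RingHom.congr_fun h1 t
    have h0 : (c : ℤ) * MvPolynomial.aeval b t = 0 := by
      refine eq_zero_of_order (V := JZero N) _ (s.sup fun i => (i : ℕ)) fun k hk => ?_
      obtain ⟨x, ⟨n, hn⟩, hx2, hx3⟩ := h k
      refine ⟨x, ⟨n, hn⟩, hx2, ?_⟩
      have h1 := Hc N ∅ (fun i => i.2.2.1) t ht' (2 ^ n) (by positivity) x hn
      have h2 : (opsJ N N ∅).ev t x = MvPolynomial.aeval b t • x := by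
        refine hs b x fun i hi => ?_
        rw [opsJ_T]
        exact hx3 ⟨i.1, i.2.1⟩ ((Finset.le_sup (f := fun i : GoodPrime N ∅ => (i : ℕ)) hi).trans hk)
          i.2.2.1
      rw [h2, ← natCast_zsmul, smul_smul] at h1
      exact h1
    have h1 : MvPolynomial.aeval b t = (0 : ℤ) := by
      rcases mul_eq_zero.mp h0 with h2 | h2
      · exact absurd (by exact_mod_cast h2) hc
      · exact h2
    rw [RingHom.mem_ker, hval, h1, Int.cast_zero]
  have hfree : Module.Free ℤ (parM N ℤ) := inferInstance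
  obtain ⟨x, hx0, hx⟩ := exists_eigenvector_of_ker_le_int φ χ hker
  obtain ⟨F, hF0, hF⟩ := exists_form_of_parabolic a (parLift_parabolic N x)
    (fun h0 => hx0 (parLift_injective N (h0.trans (map_zero _).symm))) (fun ℓ hℓ => by
      have h1 := hx (MvPolynomial.X ⟨ℓ, ℓ.2, hℓ, Set.notMem_empty _⟩)
      have h2 : φ (MvPolynomial.X ⟨ℓ, ℓ.2, hℓ, Set.notMem_empty _⟩) = hopPar N ℤ ℓ := by
        change evalPar N ℤ (polyIncl N ∅ _) = _
        rw [polyIncl_X]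
        exact evalEnd_X _ (hopPar_comm N ℤ) ℓ
      have h3 : χ (MvPolynomial.X ⟨ℓ, ℓ.2, hℓ, Set.notMem_empty _⟩) = (a ℓ : ℂ) :=
        MvPolynomial.aeval_X _ _
      rw [h2, h3] at h1
      rw [← parLift_hop, h1, map_smul])
  obtain ⟨f', hf', hf'a⟩ := exists_eigenform (N := N) {ℓ | ¬ (ℓ : ℕ) ∣ N}
    (fun ℓ => (a ℓ : ℂ)) hF0 (fun ℓ hℓ => hF ℓ hℓ)
  obtain ⟨M, hM, g, hg, hgf⟩ := exists_newform hf'
  exact ⟨M, g, hM, hg, fun l hl => by rw [hgf l l.2 hl, hf'a l hl]⟩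

/-- **The limit argument of block H.** -/
theorem modular_of_points (E : EData) (h : ∀ B : ℕ, ∃ (r : ℕ) (_ : NeZero (E.N * r)),
    B < r ∧ r.Prime ∧ ∀ k : ℕ, ∃ x : JZero (E.N * r), (∃ n : ℕ, 2 ^ n • x = 0) ∧ 2 ^ k • x ≠ 0 ∧
      ∀ l : Nat.Primes, (l : ℕ) ≤ k → ¬ (l : ℕ) ∣ E.N * r →
        heckeOperatorBar (E.N * r) l x = E.a l • x) : Modular E := by
  have hN0 : 0 < E.N := lt_trans two_pos E.two_lt
  obtain ⟨r₁, i₁, hr₁, hr₁p, h₁⟩ := h E.N
  obtain ⟨r₂, i₂, hr₂, hr₂p, h₂⟩ := h r₁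
  obtain ⟨M₁, g₁, hM₁, hg₁, ha₁⟩ := exists_newform_of_points (E.N * r₁) (fun l => E.a l) h₁
  obtain ⟨M₂, g₂, hM₂, hg₂, ha₂⟩ := exists_newform_of_points (E.N * r₂) (fun l => E.a l) h₂
  have : NeZero M₁ := ⟨fun h0 => NeZero.ne (E.N * r₁) (Nat.eq_zero_of_zero_dvd (h0 ▸ hM₁))⟩
  have : NeZero M₂ := ⟨fun h0 => NeZero.ne (E.N * r₂) (Nat.eq_zero_of_zero_dvd (h0 ▸ hM₂))⟩
  obtain ⟨hMM, hgg⟩ := strong_multiplicity_one hg₁ hg₂ (E.N * r₁ * r₂).primeFactors (by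
    intro ℓ hℓ hs
    have h0 : ¬ ℓ ∣ E.N * r₁ * r₂ := fun h => hs (Nat.mem_primeFactors.mpr ⟨hℓ, h,
      (Nat.mul_pos (Nat.mul_pos hN0 hr₁p.pos) hr₂p.pos).ne'⟩)
    have h1 : ¬ ℓ ∣ E.N * r₁ := fun h => h0 (h.mul_right _)
    have h2 : ¬ ℓ ∣ E.N * r₂ := fun h => h0 (h.trans ⟨r₁, by ring⟩)
    rw [ha₂ ⟨ℓ, hℓ⟩ h2, ha₁ ⟨ℓ, hℓ⟩ h1])
  have hne : r₁ ≠ r₂ := hr₂.ne
  have hMN : M₁ ∣ E.N := by
    have h1 : M₁ ∣ Nat.gcd (E.N * r₁) (E.N * r₂) := Nat.dvd_gcd hM₁ (hMM ▸ hM₂)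
    rw [Nat.gcd_mul_left, (Nat.coprime_primes hr₁p hr₂p).mpr hne, mul_one] at h1
    exact h1
  refine ⟨M₁, g₁, hMN, hg₁.1, fun l hl hlN => ?_⟩
  by_cases hl1 : l = r₁
  · have h1 : ¬ l ∣ E.N * r₂ := by
      intro h
      rcases (hl.dvd_mul).mp h with h | h
      · exact hlN h
      · exact hne (hl1 ▸ (Nat.prime_dvd_prime_iff_eq hl hr₂p).mp h)
    have h2 := ha₂ ⟨l, hl⟩ h1
    rw [← h2, hgg]
  · have h1 : ¬ l ∣ E.N * r₁ := by
      intro h
      rcases (hl.dvd_mul).mp h with h | h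
      · exact hlN h
      · exact hl1 ((Nat.prime_dvd_prime_iff_eq hl hr₁p).mp h)
    exact ha₁ ⟨l, hl⟩ h1

end Fermat.Agent.TwoAdic.MazH
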