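import Fermat.Agent.TwoAdic.MazStep
import Fermat.Agent.TwoAdic.MazH0
import Fermat.Agent.TwoAdic.MazLimit

/-!
# Mazur's principle: assembly of block H
-/

set_option autoImplicit false

noncomputable section

open Fermat.Agent AlgebraicCurve ModularCurve

namespace Fermat.Agent.TwoAdic.MazH

local notation "Γℚ" => (AlgebraicClosure ℚ ≃ₐ[ℚ] AlgebraicClosure ℚ)
local notation "Qb" => AlgebraicClosure ℚ

variable {E : EData} {Q0 : Finset ℕ}

section Aux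

variable {J : Type*} [AddCommGroup J]

theorem aux1 {k : ℕ} {x y : J} (ε : ℤ) (hx : k • x = 0) (hy : k • y = 0) :
    k • (x + ε • y) = 0 := by
  rw [smul_add, hx, smul_comm, hy, smul_zero, add_zero]

theorem aux2 (ε a : ℤ) (x y : J) : a • x + ε • a • y = a • (x + ε • y) := by
  rw [smul_add, smul_comm ε]

theorem aux3 {ε : ℤ} (hε : ε = 1 ∨ ε = -1) (x y : J) : y + ε • x = ε • (x + ε • y) := by
  have : ε * ε = 1 := by rcases hε with rfl | rfl <;> norm_num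
  rw [smul_add, ← mul_smul, this, one_smul, add_comm]

theorem aux4 {k : ℕ} {x y : J} (h1 : 2 ^ k • (x + (1 : ℤ) • y) = 0)
    (h2 : 2 ^ k • (x + (-1 : ℤ) • y) = 0) : 2 ^ (k + 1) • x = 0 := by
  have hsum : (x + (1 : ℤ) • y) + (x + (-1 : ℤ) • y) = (2 : ℕ) • x := by
    rw [one_smul, neg_smul, one_smul, two_nsmul]
    abel
  rw [pow_succ, mul_smul, ← hsum, smul_add, h1, h2, add_zero]

theorem aux5 {n : ℕ} {x : J} (h : 2 ^ n • x = 0) : 2 ^ (n + 1) • x = 0 := by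
  rw [pow_succ', mul_smul, h, smul_zero]

theorem aux6 {k n : ℕ} {x : J} (h : 2 ^ n • x = 0) : 2 ^ n • k • x = 0 := by
  rw [smul_comm, h, smul_zero]

theorem aux7 {e k : ℕ} {x : J} (h : 2 ^ k • 2 ^ e • x = 0) : 2 ^ (e + k) • x = 0 := by
  rw [pow_add, mul_comm, mul_smul, h]

end Aux

theorem torPoint_step {M q e : ℕ} (hq : q.Prime) (hM : ¬ q ∣ M) (hN : E.N ∣ M)
    (hr : ∃ r : ℕ, r.Prime ∧ r ∣ M ∧ r % 12 = 11) (hq4 : q % 4 = 3) (hq0 : q ∈ Q0)
    (h : TorPoint E Q0 (M * q) (e + 2)) : TorPoint E Q0 M e := by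
  obtain ⟨h0, x, ⟨n, hn⟩, hxe, hT⟩ := h
  have : NeZero M := ⟨fun h1 => h0.out (by rw [h1, zero_mul])⟩
  have : NeZero q := ⟨hq.ne_zero⟩
  have : Fact q.Prime := ⟨hq⟩
  have hn' : 2 ^ (n + 1) • x = 0 := aux5 hn
  have hTw : Eig E Q0 (wHom hM x) :=
    Eig.map (hN.trans (dvd_mul_right _ _)) dvd_rfl (wHom hM)
      (fun σ y => MazurQ.wSemi_galois_smul hM σ y) ⟨n, hn⟩ hT
  have hw2 : wHom hM (wHom hM x) = x := MazurQ.wSemi_wSemi hM x
  have hwn : 2 ^ (n + 1) • wHom hM x = 0 := by rw [← map_nsmul, hn', map_zero]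
  have hmem : ∀ ε : ℤ, (ε = 1 ∨ ε = -1) → x + ε • wHom hM x ∈ VSp E Q0 hM (n + 1) ε := by
    intro ε hε
    refine ⟨aux1 ε hn' hwn, fun l hl hQ => ?_, ?_⟩
    · rw [map_add, map_zsmul, hT l hl hQ, hTw l hl hQ]
      exact aux2 ε _ _ _
    · have h1 : MazurQ.wSemi hM • (x + ε • wHom hM x) =
          wHom hM x + ε • wHom hM (wHom hM x) := by
        change wHom hM (x + ε • wHom hM x) = _
        rw [map_add, map_zsmul]
      rw [h1, hw2]
      exact aux3 hε _ _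
  have hor : ∃ ε : ℤ, (ε = 1 ∨ ε = -1) ∧ 2 ^ (e + 1) • (x + ε • wHom hM x) ≠ 0 := by
    by_contra hcon
    push Not at hcon
    exact hxe (aux4 (hcon 1 (Or.inl rfl)) (hcon (-1) (Or.inr rfl)))
  obtain ⟨ε, hε, hne⟩ := hor
  obtain ⟨z, hz1, hz2, hz3⟩ := torPoint_step_aux hN hr hq4 hq0 hε (by omega) (hmem ε hε) hne
  exact ⟨inferInstance, z, ⟨_, hz1⟩, hz2, hz3⟩

/-- induction over the auxiliary primes -/
theorem torPoint_descend {r : ℕ} (hr : r.Prime) (hr12 : r % 12 = 11)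
    (Q : Finset ℕ) (hQ : Q ⊆ Q0) (hQp : ∀ q ∈ Q, q.Prime ∧ q % 4 = 3 ∧ ¬ q ∣ E.N ∧ q ≠ r) {e : ℕ}
    (h : TorPoint E Q0 (lev E Q * r) (e + 2 * Q.card)) : TorPoint E Q0 (E.N * r) e := by
  classical
  induction Q using Finset.induction_on generalizing e with
  | empty => simpa [lev] using h
  | insert q Q hqQ ih =>
    obtain ⟨hq, hq4, hqN, hqr⟩ := hQp q (Finset.mem_insert_self q Q)
    refine ih (fun a ha => hQ (Finset.mem_insert_of_mem ha))
      (fun a ha => hQp a (Finset.mem_insert_of_mem ha)) ?_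
    have e1 : lev E (insert q Q) * r = (lev E Q * r) * q := by
      rw [lev, lev, Finset.prod_insert hqQ]; ring
    rw [e1, Finset.card_insert_of_notMem hqQ] at h
    refine torPoint_step hq ?_ ?_ ⟨r, hr, dvd_mul_left _ _, hr12⟩ hq4
      (hQ (Finset.mem_insert_self q Q)) (e := e + 2 * Q.card) (by
        convert h using 1; ring)
    · intro hd
      rcases (Nat.Prime.dvd_mul hq).mp hd with h1 | h1
      · rw [lev] at h1
        rcases (Nat.Prime.dvd_mul hq).mp h1 with h2 | h2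
        · exact hqN h2
        · obtain ⟨a, ha, hqa⟩ := (Prime.dvd_finsetProd_iff hq.prime _).mp h2
          have hap := (hQp a (Finset.mem_insert_of_mem ha)).1
          rw [Nat.prime_dvd_prime_iff_eq hq hap] at hqa
          exact hqQ (hqa ▸ ha)
      · exact hqr ((Nat.prime_dvd_prime_iff_eq hq hr).mp h1)
    · exact (Dvd.intro _ rfl : E.N ∣ lev E Q).trans (dvd_mul_right _ _)

theorem pow_two_nsmul_of_nsmul {J : Type*} [AddCommGroup J] {y : J} {k n : ℕ} (hk : k ≠ 0)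
    (hky : k • y = 0) (hn : 2 ^ n • y = 0) : 2 ^ k • y = 0 := by
  have h1 : Nat.gcd k (2 ^ n) • y = 0 := by
    have h2 : (Nat.gcd k (2 ^ n) : ℤ) • y = 0 := by
      rw [Nat.gcd_eq_gcd_ab, add_smul, mul_comm, mul_smul, mul_comm, mul_smul, natCast_zsmul,
        natCast_zsmul, hky, hn, smul_zero, smul_zero, add_zero]
    rwa [natCast_zsmul] at h2
  obtain ⟨j, hj, hj'⟩ := (Nat.dvd_prime_pow Nat.prime_two).mp (Nat.gcd_dvd_right k (2 ^ n))
  rw [hj'] at h1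
  have h3 : 2 ^ j ≤ k := Nat.le_of_dvd (Nat.pos_of_ne_zero hk) (hj' ▸ Nat.gcd_dvd_left _ _)
  have h4 : j < 2 ^ j := Nat.lt_two_pow_self
  obtain ⟨c, hc⟩ := Nat.exists_eq_add_of_le (show j ≤ k by omega)
  have h5 : 2 ^ k • y = 2 ^ c • 2 ^ j • y := by rw [← mul_smul, ← pow_add, add_comm, ← hc]
  rw [h5, h1, smul_zero]

/-- pull back to a rigid level -/
theorem torPoint_pull {L r e : ℕ} (hr : r.Prime) (hrL : ¬ r ∣ L) (hN : E.N ∣ L)
    (h : TorPoint E Q0 L (e + (r + 1))) : TorPoint E Q0 (L * r) e := by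
  obtain ⟨h0, x, ⟨n, hn⟩, hxe, hT⟩ := h
  have : NeZero r := ⟨hr.ne_zero⟩
  refine ⟨inferInstance, alphaPull L r x, ⟨n, by rw [← map_nsmul, hn, map_zero]⟩, fun hz => ?_,
    hT.map hN (dvd_mul_right _ _) (alphaPull L r) alphaPull_smul ⟨n, hn⟩⟩
  rw [← map_nsmul] at hz
  have h1 := alphaPull_eq_zero hr hrL hz
  have h2 := pow_two_nsmul_of_nsmul (by omega) h1 (n := n) (aux6 hn)
  exact hxe (aux7 h2)

theorem exists_prime_eleven (B : ℕ) : ∃ r : ℕ, B < r ∧ r.Prime ∧ r % 12 = 11 := by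
  have h := Nat.forall_exists_prime_gt_and_modEq (q := 12) (a := 11) B (by norm_num) (by norm_num)
  obtain ⟨p, hp, hp1, hp2⟩ := h
  exact ⟨p, hp, hp1, hp2⟩

/-- **Block H.** -/
theorem blockH : BlockH := by
  intro E ⟨R, hR⟩
  refine modular_of_points E fun B => ?_
  obtain ⟨r, hr, hrp, hr12⟩ := exists_prime_eleven (max B E.N)
  have hN0 : E.N ≠ 0 := E.sqf.ne_zero
  refine ⟨r, ⟨mul_ne_zero hN0 hrp.ne_zero⟩, lt_of_le_of_lt (le_max_left _ _) hr, hrp, fun k => ?_⟩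
  have hrN : ¬ r ∣ E.N := fun h => by
    have := Nat.le_of_dvd (Nat.pos_of_ne_zero hN0) h
    have := lt_of_le_of_lt (le_max_right B E.N) hr
    omega
  -- the precision
  set K := k + 2 * R + (r + 1) with hK
  set m := K * (2 ^ (R + 1) * h2 E.N) + k + r + 3 with hm
  obtain ⟨Q, hQc, hQa, hQh⟩ := hR m (by omega)
  have hbig : ∀ q ∈ Q, m ≤ q := by
    intro q hq
    obtain ⟨c, hc⟩ := (hQa q hq).modEq
    have h1 : 0 < (q : ℤ) + 1 := by positivity
    have h2 : (2 ^ m : ℤ) ≤ q + 1 := Int.le_of_dvd h1 ⟨c, hc⟩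
    have h3 : m < 2 ^ m := Nat.lt_two_pow_self
    have h4 : 2 ^ m ≤ q + 1 := by exact_mod_cast h2
    omega
  have hQp : ∀ q ∈ Q, q.Prime ∧ q % 4 = 3 ∧ ¬ q ∣ E.N ∧ q ≠ r := by
    intro q hq
    have h1 := hQa q hq
    refine ⟨h1.prime, ?_, h1.not_dvd, ?_⟩
    · have h2 : (2 ^ 2 : ℤ) ∣ q + 1 := (pow_dvd_pow (2 : ℤ) (by omega)).trans h1.modEq
      have h3 : 4 ∣ q + 1 := by exact_mod_cast h2
      omega
    · have := hbig q hq
      omega
  have h1 : TorPoint E Q (lev E Q) ((k + 2 * Q.card) + (r + 1)) := by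
    have hQ' : ∀ q ∈ Q, q.Prime ∧ ¬ q ∣ E.N := fun q hq => ⟨(hQp q hq).1, (hQp q hq).2.2.1⟩
    have hne : NeZero (lev E Q) := ⟨(squarefree_lev E Q hQ').ne_zero⟩
    suffices hlt : (k + 2 * Q.card + (r + 1)) * (2 ^ (Q.card + 1) * h2 E.N) < m by
      obtain ⟨x, hx1, hx2, hx3⟩ := h0 E Q (squarefree_lev E Q hQ') m _ hQh hlt
      exact ⟨hne, x, hx1, hx2, fun l hl _ => hx3 l hl⟩
    have e1 : (k + 2 * Q.card + (r + 1)) * (2 ^ (Q.card + 1) * h2 E.N) ≤
        K * (2 ^ (R + 1) * h2 E.N) :=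
      Nat.mul_le_mul (by omega) (Nat.mul_le_mul_right _ (Nat.pow_le_pow_right (by norm_num)
        (by omega)))
    omega
  have hrL : ¬ r ∣ lev E Q := by
    intro hd
    rw [lev] at hd
    rcases (Nat.Prime.dvd_mul hrp).mp hd with h2 | h2
    · exact hrN h2
    · obtain ⟨a, ha, hra⟩ := (Prime.dvd_finsetProd_iff hrp.prime _).mp h2
      rw [Nat.prime_dvd_prime_iff_eq hrp (hQp a ha).1] at hra
      exact (hQp a ha).2.2.2 hra.symm
  have h2 := torPoint_pull hrp hrL (Dvd.intro _ rfl) h1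
  obtain ⟨hne, x, hx, hxk, hT⟩ := torPoint_descend hrp hr12 Q (Finset.Subset.refl _) hQp h2
  refine ⟨x, hx, hxk, fun l hl hl' => hT l hl' fun hlQ => ?_⟩
  have := hbig l hlQ
  omega

end Fermat.Agent.TwoAdic.MazH
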