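import Fermat.Agent.TwoAdic.RankFinal

/-!
# (MR): the Hecke algebra of the newforms maps to the residual Hecke algebra
-/

set_option autoImplicit false

noncomputable section

namespace Fermat.Agent.TwoAdic.Rank

open NumberField Ideal Module IsLocalRing
open UpperHalfPlane ModularForm CongruenceSubgroup Matrix.SpecialLinearGroup ModularFormClass
open Fermat.Agent.IntStr Fermat.Agent.Newform
open scoped MatrixGroups

variable {K : Type*} [Field K] [NumberField K] {N : ℕ} {s : 𝓞 K}
variable {𝒱 : ValuationSubring ℂ} {G : Type*} [CommGroup G]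
variable {χ : ClassGroup (𝓞 K) →* ResidueField 𝒱} {pr : ClassGroup (𝓞 K) →* G}
variable {Q : Finset ℕ} {m : ℕ}

/-- the value of a polynomial at a form -/
def evF {ι : Type*} (l : ι → Nat.Primes) {M : ℕ} (f : CuspForm (Gamma0 M) 2)
    (P : MvPolynomial ι 𝒱) : ℂ :=
  MvPolynomial.eval₂ (algebraMap 𝒱 ℂ) (fun i => qCoeff f (l i)) P

/-- the value of a polynomial at the universal residual system -/
def evR {ι : Type*} (l : ι → Nat.Primes) (χ : ClassGroup (𝓞 K) →* ResidueField 𝒱)
    (pr : ClassGroup (𝓞 K) →* G) (P : MvPolynomial ι 𝒱) : MonoidAlgebra (ResidueField 𝒱) G :=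
  MvPolynomial.eval₂ ((algebraMap (ResidueField 𝒱) (MonoidAlgebra (ResidueField 𝒱) G)).comp
    (residue 𝒱)) (fun i => FF (psi χ pr) (l i)) P

/-- a linear combination of newforms, twisted by a function -/
def linC (c : newSet χ N Q →₀ ℂ) (φ : CuspForm (Gamma0 (levQ N Q)) 2 → ℂ) :
    CuspForm (Gamma0 (levQ N Q)) 2 := c.sum fun b r => (r * φ b.1) • b.1

namespace RD

variable (R : RD N s χ pr Q m)

include R

theorem red_poly [NeZero (levQ N Q)] {ι : Type*} (l : ι → Nat.Primes)
    (hl : ∀ i, ((l i : Nat.Primes) : ℕ) ∉ Q) (c : newSet χ N Q →₀ ℂ) {Q₁ : ℕ} {g : G}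
    (hQ₁ : ∀ q : ℕ, q.Prime → q ∣ Q₁ → q ∈ Q)
    {x : MonoidAlgebra (ResidueField 𝒱) G}
    (hc : IsRed 𝒱 (qCoeff (linC c fun _ => 1)) (Rx χ pr Q₁ g x))
    (P : MvPolynomial ι 𝒱) :
    IsRed 𝒱 (qCoeff (linC c fun b => evF l b P)) (Rx χ pr Q₁ g (evR l χ pr P * x)) := by
  induction P using MvPolynomial.induction_on with
  | C a =>
    have h1 : (linC c fun b => evF l b (MvPolynomial.C a)) =
        (a : ℂ) • (linC c fun _ => 1) := by
      rw [linC, linC, Finsupp.smul_sum]
      refine Finsupp.sum_congr fun b _ => ?_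
      rw [evF, MvPolynomial.eval₂_C, smul_smul, mul_one, mul_comm]
      rfl
    rw [h1, evR, MvPolynomial.eval₂_C, RingHom.comp_apply, ← Algebra.smul_def]
    have h2 := R.red_smul hc (isR_coe a)
    intro n
    rw [Eigenform.qCoeff_smul]
    exact h2 n
  | add P P' hP hP' =>
    have h1 : (linC c fun b => evF l b (P + P')) =
        (linC c fun b => evF l b P) + (linC c fun b => evF l b P') := by
      rw [linC, linC, linC, ← Finsupp.sum_add]
      refine Finsupp.sum_congr fun b _ => ?_
      rw [evF, MvPolynomial.eval₂_add, mul_add, add_smul]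
      rfl
    rw [h1, evR, MvPolynomial.eval₂_add, add_mul]
    have h2 := red_add hP hP'
    intro n
    rw [Eigenform.qCoeff_add]
    exact h2 n
  | mul_X P i hP =>
    have h1 : (linC c fun b => evF l b (P * MvPolynomial.X i)) =
        hOp (levQ N Q) (l i) (linC c fun b => evF l b P) := by
      rw [linC, linC, map_finsuppSum]
      refine Finsupp.sum_congr fun b _ => ?_
      rw [map_smul, hOp_eigen b.2.1.1, smul_smul, evF, MvPolynomial.eval₂_mul,
        MvPolynomial.eval₂_X, mul_assoc]
      rfl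
    rw [h1]
    have h2 := R.red_hOp hP (l i) (hl i) hQ₁
    have h3 : evR l χ pr (P * MvPolynomial.X i) * x =
        FF (psi χ pr) (l i) * (evR l χ pr P * x) := by
      rw [evR, MvPolynomial.eval₂_mul, MvPolynomial.eval₂_X]
      rw [evR]
      ring
    rw [h3]
    exact h2

/-- **(MR)** A polynomial relation between the Hecke eigenvalues of all newforms in the family
holds for the universal residual dihedral system. -/
theorem evR_eq_zero (hram : HRam χ N Q) {ι : Type*} (l : ι → Nat.Primes)
    (hl : ∀ i, ((l i : Nat.Primes) : ℕ) ∉ Q) (P : MvPolynomial ι 𝒱)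
    (hP : ∀ f ∈ newSet χ N Q, evF l f P = 0) : evR l χ pr P = 0 := by
  classical
  have : NeZero (levQ N Q) := ⟨R.lev_ne⟩
  obtain ⟨u, huR, hu0, hforms⟩ := R.exists_forms hram
  have key : evR l χ pr P * u = 0 := by
    apply MonoidAlgebra.ext
    ext g
    obtain ⟨c, rfl⟩ := R.surj g
    obtain ⟨f, hf, hfred⟩ := hforms c ∅ (Finset.empty_subset _)
    obtain ⟨b, hb⟩ := (Finsupp.mem_span_iff_linearCombination ℂ _ _).mp hf
    rw [Finsupp.linearCombination_apply] at hb
    rw [Finset.prod_empty] at hfred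
    have hb' : f = linC b fun _ => 1 := by
      rw [← hb, linC]
      simp only [mul_one]
    rw [hb'] at hfred
    have h1 := R.red_poly l hl b (Q₁ := 1) (g := pr c)
      (fun q hq h => absurd (Nat.dvd_one.mp h) hq.one_lt.ne') hfred P
    have h2 : (linC b fun b => evF l b P) = 0 := by
      rw [linC, Finsupp.sum]
      apply Finset.sum_eq_zero
      intro x _
      rw [hP _ x.2, mul_zero, zero_smul]
    rw [h2] at h1
    have h3 := h1 1
    have h4 : qCoeff (0 : CuspForm (Gamma0 (levQ N Q)) 2) 1 = 0 := by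
      rw [FunLike.coe_zero]
      exact qCoeff_zero_fun 1
    rw [h4] at h3
    have h5 := h3.unique IsR.zero
    have h6 : Ft χ pr 1 1 = 1 := by
      rw [Ft, if_pos ⟨dvd_refl 1, one_ne_zero⟩, Nat.div_one]
      exact FF_one _
    rw [Rx, h6, mul_one] at h5
    rw [h5]
    rfl
  obtain ⟨z, -, hz⟩ := exists_mul_eq R.two R.pG huR hu0 (RR χ pr Q).one_mem
  calc evR l χ pr P = evR l χ pr P * u * z := by rw [mul_assoc, hz, mul_one]
    _ = 0 := by rw [key, zero_mul]

end RD

end Fermat.Agent.TwoAdic.Rank
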