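import Fermat.Agent.TwoAdic.ThetaFin
import Fermat.Agent.TwoAdic.BlockF2
import Fermat.Agent.TwoAdic.RankMR
import Fermat.Agent.TwoAdic.D3Final

/-!
# The representation over the group algebra with the traces of the universal theta series
-/

set_option autoImplicit false
set_option linter.unusedSectionVars false

open IsLocalRing Polynomial ModularFormClass
open scoped NumberField nonZeroDivisors

namespace Fermat.Agent.TwoAdic

local notation "Γℚ" => (AlgebraicClosure ℚ ≃ₐ[ℚ] AlgebraicClosure ℚ)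

section Closure

variable {E : EData} {O : Type} [CommRing O] [IsDomain O] [IsDiscreteValuationRing O]
  {I : Type} [Finite I] (F : Fam E O I)

/-- Subalgebras containing the traces of Frobenius elements contain all traces. -/
theorem Fam.trace_mem_of_frob (A : Subalgebra O F.Prod) (S : Finset ℕ)
    (hA : ∀ l : ℕ, l.Prime → l ∉ S → ∀ P : ValuationSubring (AlgebraicClosure ℚ),
      P.LiesOverPrime l → ∀ σ : Γℚ, P.IsFrobeniusAt σ l → F.trace σ ∈ A) (g : Γℚ) :
    F.trace g ∈ A := by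
  let N := F.Prod ⧸ Subalgebra.toSubmodule A
  have hfin : Module.Finite O N := inferInstance
  have h1 : (⨅ n : ℕ, maximalIdeal O ^ n • ⊤ : Submodule O N) = ⊥ :=
    Ideal.iInf_pow_smul_eq_bot_of_isLocalRing _ (maximalIdeal.isMaximal O).ne_top
  have h2 : (Submodule.Quotient.mk (F.trace g) : N) ∈
      (⨅ n : ℕ, maximalIdeal O ^ n • ⊤ : Submodule O N) := by
    rw [Submodule.mem_iInf]
    intro n
    choose L hL hL' using fun i => (F.cont i n).level_trace
    obtain ⟨l, hl, hlS, -, P, hP, σ, hσ, hσg⟩ := ChebFull.exists_frobenius_eq (⨆ i, L i) g S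
    have h3 : F.trace g - F.trace σ ∈ (maximalIdeal O ^ n • ⊤ : Submodule O F.Prod) := by
      obtain ⟨ϖ, hϖ⟩ := (IsPrincipalIdealRing.principal (maximalIdeal O)).principal
      have hϖ' : maximalIdeal O = Ideal.span {ϖ} := hϖ
      have hy : ∀ i, ∃ y : O ⧸ F.J i, (F.trace g - F.trace σ) i = ϖ ^ n • y := by
        intro i
        have h4 := hL' i g σ (fun x hx => (hσg x ((le_iSup L i) hx)).symm)
        rw [hϖ', Ideal.span_singleton_pow, Ideal.map_span, Set.image_singleton,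
          Ideal.mem_span_singleton'] at h4
        obtain ⟨y, hy⟩ := h4
        refine ⟨y, ?_⟩
        have h5 : (F.trace g - F.trace σ) i = (F.ρ i g).trace - (F.ρ i σ).trace := rfl
        rw [h5, ← hy, Algebra.smul_def, mul_comm]
        rfl
      choose y hy using hy
      have h4 : F.trace g - F.trace σ = ϖ ^ n • y := funext hy
      rw [h4]
      refine Submodule.smul_mem_smul (Ideal.pow_mem_pow ?_ _) Submodule.mem_top
      rw [hϖ']
      exact Ideal.mem_span_singleton_self ϖ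
    have h4 : (Submodule.Quotient.mk (F.trace g) : N) =
        (Subalgebra.toSubmodule A).mkQ (F.trace g - F.trace σ) := by
      rw [map_sub]
      have h5 : (Subalgebra.toSubmodule A).mkQ (F.trace σ) = 0 := by
        rw [Submodule.mkQ_apply, Submodule.Quotient.mk_eq_zero]
        exact hA l hl hlS P hP σ hσ
      rw [h5, sub_zero]
      rfl
    rw [h4]
    have h5 := Submodule.mem_map_of_mem (f := (Subalgebra.toSubmodule A).mkQ) h3
    rw [Submodule.map_smul''] at h5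
    exact Submodule.smul_mono le_rfl le_top h5
  rw [h1, Submodule.mem_bot, Submodule.Quotient.mk_eq_zero] at h2
  exact h2

/-- the algebra of traces is generated by the traces of Frobenius elements -/
theorem Fam.aeval_surjective {ι : Type*} (l : ι → ℕ) (S : Finset ℕ)
    (hl : ∀ p : ℕ, p.Prime → p ∉ S → ∃ i, l i = p) (t : ι → F.alg ∅)
    (ht : ∀ (i : ι) (P : ValuationSubring (AlgebraicClosure ℚ)), P.LiesOverPrime (l i) →
      ∀ σ : Γℚ, P.IsFrobeniusAt σ (l i) → F.trace σ = t i) :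
    Function.Surjective (MvPolynomial.aeval (R := O) t) := by
  let A : Subalgebra O F.Prod := (MvPolynomial.aeval (R := O) t).range.map (F.alg ∅).val
  have h1 : ∀ g, F.trace g ∈ A := by
    refine F.trace_mem_of_frob A S ?_
    intro p hp hpS P hP σ hσ
    obtain ⟨i, rfl⟩ := hl p hp hpS
    rw [ht i P hP σ hσ]
    exact ⟨t i, ⟨MvPolynomial.X i, MvPolynomial.aeval_X _ _⟩, rfl⟩
  have h2 : F.alg ∅ ≤ A := by
    refine Algebra.adjoin_le ?_
    rw [Set.union_empty]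
    rintro _ ⟨g, rfl⟩
    exact h1 g
  intro x
  obtain ⟨y, ⟨P, rfl⟩, hy⟩ := h2 x.2
  exact ⟨P, Subtype.ext hy⟩

/-- ring homomorphisms from the algebra of traces -/
theorem Fam.exists_lift {ι : Type*} (l : ι → ℕ) (S : Finset ℕ)
    (hl : ∀ p : ℕ, p.Prime → p ∉ S → ∃ i, l i = p) (t : ι → F.alg ∅)
    (ht : ∀ (i : ι) (P : ValuationSubring (AlgebraicClosure ℚ)), P.LiesOverPrime (l i) →
      ∀ σ : Γℚ, P.IsFrobeniusAt σ (l i) → F.trace σ = t i)
    {B : Type*} [CommRing B] (τ : O →+* B) (b : ι → B)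
    (hb : ∀ P : MvPolynomial ι O, MvPolynomial.aeval t P = 0 → MvPolynomial.eval₂ τ b P = 0) :
    ∃ ψ : F.alg ∅ →+* B, (∀ x : O, ψ (algebraMap O _ x) = τ x) ∧ ∀ i, ψ (t i) = b i := by
  have hs := F.aeval_surjective l S hl t ht
  let π : MvPolynomial ι O →+* F.alg ∅ := (MvPolynomial.aeval (R := O) t).toRingHom
  have hker : RingHom.ker π ≤ RingHom.ker (MvPolynomial.eval₂Hom τ b) := fun P hP => hb P hP
  let ψ : F.alg ∅ →+* B := RingHom.liftOfSurjective π hs ⟨MvPolynomial.eval₂Hom τ b, hker⟩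
  have hψ : ∀ P, ψ (π P) = MvPolynomial.eval₂ τ b P := fun P =>
    RingHom.liftOfRightInverse_comp_apply _ _ _ ⟨MvPolynomial.eval₂Hom τ b, hker⟩ P
  refine ⟨ψ, fun x => ?_, fun i => ?_⟩
  · have h1 : π (MvPolynomial.C x) = algebraMap O _ x := MvPolynomial.aeval_C _ _
    rw [← h1, hψ, MvPolynomial.eval₂_C]
  · have h1 : π (MvPolynomial.X i) = t i := MvPolynomial.aeval_X _ _
    rw [← h1, hψ, MvPolynomial.eval₂_X]

/-- uniqueness -/
theorem Fam.ringHom_ext {ι : Type*} (l : ι → ℕ) (S : Finset ℕ)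
    (hl : ∀ p : ℕ, p.Prime → p ∉ S → ∃ i, l i = p) (t : ι → F.alg ∅)
    (ht : ∀ (i : ι) (P : ValuationSubring (AlgebraicClosure ℚ)), P.LiesOverPrime (l i) →
      ∀ σ : Γℚ, P.IsFrobeniusAt σ (l i) → F.trace σ = t i)
    {B : Type*} [CommRing B] {φ φ' : F.alg ∅ →+* B}
    (h1 : ∀ x : O, φ (algebraMap O _ x) = φ' (algebraMap O _ x)) (h2 : ∀ i, φ (t i) = φ' (t i)) :
    φ = φ' := by
  have hs := F.aeval_surjective l S hl t ht
  have h3 : φ.comp (MvPolynomial.aeval (R := O) t).toRingHom =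
      φ'.comp (MvPolynomial.aeval (R := O) t).toRingHom := by
    refine MvPolynomial.ringHom_ext (fun x => ?_) (fun i => ?_)
    · change φ (MvPolynomial.aeval (R := O) t (MvPolynomial.C x)) =
        φ' (MvPolynomial.aeval (R := O) t (MvPolynomial.C x))
      rw [MvPolynomial.aeval_C, h1]
    · change φ (MvPolynomial.aeval (R := O) t (MvPolynomial.X i)) =
        φ' (MvPolynomial.aeval (R := O) t (MvPolynomial.X i))
      rw [MvPolynomial.aeval_X, h2]
  ext x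
  obtain ⟨P, rfl⟩ := hs x
  exact DFunLike.congr_fun h3 P

end Closure

section Field

open Rank

variable (E : EData) {B : Type*} [CommRing B] (Ψ : ClassGroup (𝓞 (KN E.N)) →* B)

theorem FF_of_fix {l : ℕ} (hl : l.Prime) (hlN : ¬ l ∣ E.N)
    {P : ValuationSubring (AlgebraicClosure ℚ)} (hP : P.LiesOverPrime l) {σ : Γℚ}
    (hσK : σ ∈ (KN E.N).fixingSubgroup) (hσ : P.IsFrobeniusAt σ l)
    (I : (Ideal (𝓞 (KN E.N)))⁰) (hI : (I : Ideal (𝓞 (KN E.N))) = Frob.below (𝓞 (KN E.N)) P) :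
    FF Ψ l = Ψ (ClassGroup.mk0 I) + Ψ (ClassGroup.mk0 I)⁻¹ := by
  have D := isQ_KN E.isLev
  have hfix : ∀ x : KN E.N, σ (algebraMap (KN E.N) (AlgebraicClosure ℚ) x) =
      algebraMap (KN E.N) (AlgebraicClosure ℚ) x := fun x =>
    (mem_fixK_iff.1 hσK) x x.2
  have hnorm : Ideal.absNorm (I : Ideal (𝓞 (KN E.N))) = l := by
    rw [hI]
    exact absNorm_below P hl hP σ hσ hfix
  obtain ⟨P', hPP, hP'⟩ := exists_factor D.rank hl hnorm
  have hne := D.split_ne hl hlN hnorm hPP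
  rw [FF_prime_split D.rank Ψ hl hnorm hP' hPP hne, cl_conj D.rank hl hnorm hP' hPP,
    cl_of_ne (nonZeroDivisors.ne_zero I.2)]

theorem FF_of_not_fix {l : ℕ} (hl : l.Prime) (hlN : ¬ l ∣ E.N)
    {P : ValuationSubring (AlgebraicClosure ℚ)} (hP : P.LiesOverPrime l) {σ : Γℚ}
    (hσK : σ ∉ (KN E.N).fixingSubgroup) (hσ : P.IsFrobeniusAt σ l) :
    FF Ψ l = 0 := by
  have D := isQ_KN E.isLev
  have hl2 : l ≠ 2 := fun h => hlN (h ▸ E.two_dvd)
  refine FF_prime_inert D.rank Ψ hl (D.inert_of_not_isSquare hl ?_)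
  intro hsq
  apply hσK
  rw [mem_fixK_iff, Genus.fixK_iff (by have := E.two_lt; omega)]
  have hd : ¬ (l : ℤ) ∣ -(E.N : ℤ) := by
    rw [dvd_neg]
    exact_mod_cast hlN
  rw [Genus.frob_sqrt hl hl2 hP hσ hd (y := nu0 E.N) (by rw [nu0_sq]; push_cast; rfl)]
  have : Fact l.Prime := ⟨hl⟩
  have hJ : jacobiSym (-(E.N : ℤ)) l = 1 := by
    rw [← jacobiSym.legendreSym.to_jacobiSym]
    rw [legendreSym.eq_one_iff]
    · exact hsq
    · push_cast
      rw [neg_ne_zero, Ne, ZMod.natCast_eq_zero_iff]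
      exact hlN
  rw [hJ]
  simp

end Field

section Main

open Rank

variable {E : EData} {O : Type} [CommRing O] [IsDomain O] [IsDiscreteValuationRing O]
  [IsAdicComplete (maximalIdeal O) O] [Finite (ResidueField O)] [CharZero O]
  {𝔪 : Ideal (integralClosure ℤ ℂ)} {Fr : Frame 𝔪 O}

/-- **Existence of the representation over `k[Cl2 N]`.** -/
theorem exists_thetaRep_of (h2 : (2 : O) ∈ maximalIdeal O)
    {𝓕 : Finset (CuspForm (CongruenceSubgroup.Gamma0 (lev E ∅)) 2)}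
    {ρ : 𝓕 → (Γℚ →* Matrix (Fin 2) (Fin 2) O)} {a : 𝓕 → ℕ → O} (f₁ : 𝓕)
    (hρ : ∀ f : 𝓕, IsRepOf E Fr (f : CuspForm (CongruenceSubgroup.Gamma0 (lev E ∅)) 2) (ρ f))
    (ha : ∀ (f : 𝓕) (l : ℕ), l.Prime →
      Fr.j (a f l) = qCoeff (f : CuspForm (CongruenceSubgroup.Gamma0 (lev E ∅)) 2) l)
    {𝒱 : ValuationSubring ℂ} (jV : O →+* 𝒱) (κ : ResidueField O →+* ResidueField 𝒱)
    (hjV : ∀ a, (jV a : ℂ) = Fr.j a) (hκ : ∀ a, κ (residue O a) = residue 𝒱 (jV a))
    {χ : ClassGroup (𝓞 (KN E.N)) →* ResidueField 𝒱}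
    (hχ : ∀ l : ℕ, l.Prime → ¬ l ∣ E.N → FF χ l = ((E.a l : ℤ) : ResidueField 𝒱))
    {m : ℕ} (R : RD E.N (nu E.N) χ (prCl2 E.N) ∅ m) (hram : HRam χ E.N ∅)
    (hall : ∀ f : CuspForm (CongruenceSubgroup.Gamma0 (lev E ∅)) 2, f.IsNewform →
      Good χ E.N ∅ (qCoeff f) → f ∈ 𝓕) :
    ∃ (ρ' : Γℚ →* Matrix (Fin 2) (Fin 2) (MonoidAlgebra (ResidueField 𝒱) (Cl2 E.N))) (g₀ : Γℚ),
      ThetaRep (KN E.N) (prCl2 E.N) (κ (residue O Fr.w)) χ.toHomUnits E.N.primeFactors ρ' g₀ := by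
  classical
  have hN0 : E.N ≠ 0 := by have := E.two_lt; omega
  have h2k : (2 : ResidueField O) = 0 := by
    have := (residue_eq_zero_iff (2 : O)).mpr h2
    rwa [map_ofNat] at this
  have hlev : lev E ∅ = E.N := by rw [lev, Finset.prod_empty, mul_one]
  have : Nonempty 𝓕 := ⟨f₁⟩
  let F : Fam E O 𝓕 := famOf h2 hρ f₁
  let ι : Type := {l : Nat.Primes // ¬ (l : ℕ) ∣ E.N}
  let l : ι → ℕ := fun i => (i.1 : ℕ)
  have hl : ∀ p : ℕ, p.Prime → p ∉ E.N.primeFactors → ∃ i, l i = p := by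
    intro p hp hpN
    exact ⟨⟨⟨p, hp⟩, fun h => hpN (Nat.mem_primeFactors.mpr ⟨hp, h, hN0⟩)⟩, rfl⟩
  let t₀ : ι → F.Prod := fun i f => Ideal.Quotient.mk ⊥ (a f (l i))
  have ht₀ : ∀ (i : ι) (P : ValuationSubring (AlgebraicClosure ℚ)), P.LiesOverPrime (l i) →
      ∀ σ : Γℚ, P.IsFrobeniusAt σ (l i) → F.trace σ = t₀ i := by
    intro i P hP σ hσ
    funext f
    change (repMap (Ideal.Quotient.mk ⊥) (ρ f) σ).trace = Ideal.Quotient.mk ⊥ (a f (l i))
    rw [repMap_trace]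
    congr 1
    apply Fr.inj
    rw [(hρ f).frob (l i) i.1.2 (by rw [hlev]; exact i.2) P hP σ hσ, ha f (l i) i.1.2]
  have ht₀m : ∀ i, t₀ i ∈ F.alg ∅ := by
    intro i
    obtain ⟨P, hP, σ, hσ⟩ := exists_place_frob i.1.2
    rw [← ht₀ i P hP σ hσ]
    exact F.trace_mem_alg ∅ σ
  let t : ι → F.alg ∅ := fun i => ⟨t₀ i, ht₀m i⟩
  have ht : ∀ (i : ι) (P : ValuationSubring (AlgebraicClosure ℚ)), P.LiesOverPrime (l i) →
      ∀ σ : Γℚ, P.IsFrobeniusAt σ (l i) → F.trace σ = t i := ht₀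
  let B := MonoidAlgebra (ResidueField 𝒱) (Cl2 E.N)
  let τ : O →+* B := ((algebraMap (ResidueField 𝒱) B).comp (residue 𝒱)).comp jV
  let b : ι → B := fun i => FF (psi χ (prCl2 E.N)) (l i)
  have hb : ∀ P : MvPolynomial ι O, MvPolynomial.aeval t P = 0 →
      MvPolynomial.eval₂ τ b P = 0 := by
    intro P hP
    have h3 : MvPolynomial.eval₂ τ b P =
        evR (fun i : ι => i.1) χ (prCl2 E.N) (MvPolynomial.map jV P) := by
      rw [evR, MvPolynomial.eval₂_map]
    rw [h3]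
    refine R.evR_eq_zero hram _ (fun i => Finset.notMem_empty _) _ ?_
    intro f hf
    rw [evF, MvPolynomial.eval₂_map]
    let f' : 𝓕 := ⟨f, hall f hf.1 hf.2⟩
    have h4 : MvPolynomial.eval₂ ((algebraMap 𝒱 ℂ).comp jV) (fun i : ι => qCoeff f i.1) P =
        Fr.j (MvPolynomial.eval₂ (RingHom.id O) (fun i : ι => a f' (l i)) P) := by
      rw [MvPolynomial.eval₂_comp_left]
      congr 1
      · exact RingHom.ext hjV
      · funext i
        exact (ha f' (l i) i.1.2).symm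
    rw [h4]
    have h5 : Ideal.Quotient.mk (⊥ : Ideal O)
        (MvPolynomial.eval₂ (RingHom.id O) (fun i : ι => a f' (l i)) P) =
        F.proj (F.alg ∅) f' (MvPolynomial.aeval t P) := by
      rw [MvPolynomial.aeval_def, MvPolynomial.eval₂_comp_left, MvPolynomial.eval₂_comp_left]
      rfl
    rw [hP, map_zero] at h5
    have h6 : MvPolynomial.eval₂ (RingHom.id O) (fun i : ι => a f' (l i)) P = 0 :=
      Ideal.mem_bot.mp (Ideal.Quotient.eq_zero_iff_mem.mp h5)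
    rw [h6, map_zero]
  obtain ⟨ψ, hψO, hψt⟩ := F.exists_lift l E.N.primeFactors hl t ht τ b hb
  obtain ⟨g₀, j₀, hg, hgt, hj⟩ := E.exists_base
  have hTle : F.alg ∅ ≤ F.cst := F.alg_le (Set.empty_subset _)
  obtain ⟨P, ρT, hNF, hrep, hw0⟩ := F.exists_rep h2 Fr.w Fr.hw hg hgt hj (F.alg ∅) hTle
    (F.trace_mem_alg ∅)
  have hτ : ∀ x : O, τ x = algebraMap (ResidueField 𝒱) B (κ (residue O x)) := fun x => by
    rw [hκ]; rfl
  -- the trace at Frobenius elements
  have htrF : ∀ p : ℕ, p.Prime → p ∉ E.N.primeFactors → ∀ P : ValuationSubring _,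
      P.LiesOverPrime p → ∀ σ : Γℚ, P.IsFrobeniusAt σ p →
      (repMap ψ ρT σ).trace = FF (psi χ (prCl2 E.N)) p := by
    intro p hp hpS P hP σ hσ
    obtain ⟨i, rfl⟩ := hl p hp hpS
    rw [repMap_trace]
    have h3 : (ρT σ).trace = t i := Subtype.ext ((Fam.rep_trace hrep σ).trans (ht i P hP σ hσ))
    rw [h3, hψt]
  have hpN : ∀ p : ℕ, p.Prime → p ∉ E.N.primeFactors → ¬ p ∣ E.N := fun p hp h h' =>
    h (Nat.mem_primeFactors.mpr ⟨hp, h', hN0⟩)
  refine ⟨repMap ψ ρT, g₀, ?_, ?_, mem_fixK_iff.2 hg, (hNF.map ψ).d01, (hNF.map ψ).d10, ?_, ?_, ?_⟩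
  · refine (Fam.rep_contAt hrep).map ψ ?_
    rw [Ideal.map_map, Ideal.map_le_iff_le_comap]
    intro x hx
    rw [Ideal.mem_comap, Ideal.mem_bot, RingHom.comp_apply, hψO, hτ,
      (residue_eq_zero_iff x).mpr hx, map_zero, map_zero]
  · intro g _
    rw [repMap_det, Fam.rep_det hrep, hψO, hτ, F.res_ε, map_one, map_one]
  · have h3 : ((aug (ResidueField 𝒱) (Cl2 E.N)).toRingHom).comp ψ =
        κ.comp (resT F.res (F.alg ∅)) := by
      refine F.ringHom_ext l E.N.primeFactors hl t ht (fun x => ?_) (fun i => ?_)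
      · rw [RingHom.comp_apply, RingHom.comp_apply, hψO, hτ, resT_algebraMap F.res F.hres]
        exact (aug (ResidueField 𝒱) (Cl2 E.N)).commutes _
      · rw [RingHom.comp_apply, RingHom.comp_apply, hψt]
        have h4 := aug_FF (k := ResidueField 𝒱) (G := Cl2 E.N) (χ := χ) (pr := prCl2 E.N) (l i)
        refine Eq.trans h4 ?_
        rw [hχ (l i) i.1.2 i.2, resT_eq hTle _ f₁]
        obtain ⟨P, hP, σ, hσ⟩ := exists_place_frob i.1.2
        have h5 : F.res f₁ ((t i : F.Prod) f₁) = trE E (ResidueField O) σ := by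
          have h6 := F.tr f₁ σ
          have h7 : (F.ρ f₁ σ).trace = (t i : F.Prod) f₁ := congrFun (ht i P hP σ hσ) f₁
          rw [h7] at h6
          exact h6
        rw [h5, trE_frob E h2k i.1.2 i.2 hP hσ, map_intCast]
    have h4 := DFunLike.congr_fun h3 (ρT g₀ 0 0)
    rw [RingHom.comp_apply, RingHom.comp_apply, hw0] at h4
    exact h4
  · intro p hp hpS P hP σ hσK hσ I hI
    rw [htrF p hp hpS P hP σ hσ, FF_of_fix E _ hp (hpN p hp hpS) hP hσK hσ I hI, psi_apply,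
      psi_apply, map_inv, ← MonoidHom.coe_toHomUnits χ, ← MonoidHom.coe_toHomUnits χ, map_inv]
  · intro p hp hpS P hP σ hσK hσ
    rw [htrF p hp hpS P hP σ hσ, FF_of_not_fix E _ hp (hpN p hp hpS) hP hσK hσ]

/-- **The bound for unramified extensions, from (D2).** -/
theorem unrBound_of_classChar (E : EData) (hD2 : ClassChar E) : UnrBound E.N := by
  classical
  obtain ⟨𝔪, h𝔪, h2𝔪⟩ := exists_maximal_two
  have hQ' : ∀ q ∈ (∅ : Finset ℕ), q.Prime ∧ ¬ q ∣ E.N := fun q hq => absurd hq (by simp)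
  have hM0 : NeZero (lev E ∅) := ⟨lev_ne_zero_of hQ'⟩
  have hlev : lev E ∅ = E.N := by rw [lev, Finset.prod_empty, mul_one]
  -- all newforms
  have hfin := finite_newforms (lev E ∅)
  obtain ⟨O, i1, i2, i3, i4, i5, i6, h2, Fr, hFr⟩ := exists_frame 𝔪 h𝔪 h2𝔪 hfin.toFinset
    fun f hf => ((hfin.mem_toFinset).mp hf).1
  obtain ⟨𝒱, jV, κ, hjV, hκ⟩ := exists_dominating_local Fr.j Fr.inj
  have h2k : (2 : ResidueField O) = 0 := by
    have := (residue_eq_zero_iff (2 : O)).mpr h2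
    rwa [map_ofNat] at this
  have h2v : (2 : ResidueField 𝒱) = 0 := by
    have := congrArg κ h2k
    rwa [map_ofNat, map_zero] at this
  have hchar : CharP (ResidueField 𝒱) 2 :=
    CharTwo.of_one_ne_zero_of_two_eq_zero (R := ResidueField 𝒱) one_ne_zero h2v
  have hω : (κ (residue O Fr.w)) ^ 2 + κ (residue O Fr.w) + 1 = 0 := by
    rw [← map_pow, ← map_add, ← map_one κ, ← map_add, Fr.hw, map_zero]
  obtain ⟨χ, h3, hne, hχ⟩ := hD2 (ResidueField 𝒱) _ hω
  obtain ⟨m, R⟩ := exists_RD E h2v h3 hne (Q := ∅) (fun q hq => absurd hq (by simp))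
  have hram : HRam χ E.N ∅ := by
    intro M' g hM' hg hgood v hv hvN hv2
    refine ram_of_cong E (L := lev E ∅) (NeZero.ne _)
      (dvd_mul_right _ _) 𝒱 h2v hg.isNormalizedEigenform ?_ hv hvN hv2
    intro l hl hlL
    obtain ⟨h4, h5⟩ := hgood l hl hlL
    refine ⟨h4, ?_⟩
    rw [h5]
    exact hχ l hl fun h => hlL (h.trans (dvd_mul_right _ _))
  -- the newforms congruent to `E`
  set 𝓕 : Finset (CuspForm (CongruenceSubgroup.Gamma0 (lev E ∅)) 2) :=
    hfin.toFinset.filter (fun f => CongE E 𝔪 f) with h𝓕def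
  have h𝓕 : ∀ f ∈ 𝓕, f.IsNewform ∧ CongE E 𝔪 f := by
    intro f hf
    obtain ⟨h4, h5⟩ := Finset.mem_filter.mp hf
    exact ⟨(hfin.mem_toFinset).mp h4, h5⟩
  have hnt : Nontrivial (integralClosure ℤ ℂ ⧸ 𝔪) := Ideal.Quotient.nontrivial_iff.mpr h𝔪.ne_top
  have hall : ∀ f : CuspForm (CongruenceSubgroup.Gamma0 (lev E ∅)) 2, f.IsNewform →
      Good χ E.N ∅ (qCoeff f) → f ∈ 𝓕 := by
    intro f hf hgood
    have h4 : f ∈ hfin.toFinset := (hfin.mem_toFinset).mpr hf
    refine Finset.mem_filter.mpr ⟨h4, ?_⟩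
    intro l hl hlM
    obtain ⟨a, ha⟩ := hFr f h4 l hl
    have hint : qCoeff f l ∈ integralClosure ℤ ℂ :=
      Eigenform.isIntegral_qCoeff_prime hf.1 hl
    refine ⟨⟨qCoeff f l, hint⟩, rfl, ?_⟩
    obtain ⟨h5, h6⟩ := hgood l hl hlM
    rw [hχ l hl (by rwa [hlev] at hlM)] at h6
    have h7 : residue 𝒱 (jV a) = ((E.a l : ℤ) : ResidueField 𝒱) := by
      rw [← h6]
      congr 1
      exact Subtype.ext ((hjV a).trans ha)
    have h8 : residue O a = ((E.a l : ℤ) : ResidueField O) := by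
      apply κ.injective
      rw [hκ, h7, map_intCast]
    have h9 := Fr.hι a ⟨qCoeff f l, hint⟩ ha
    rw [h8, map_intCast] at h9
    rw [← Ideal.Quotient.eq_zero_iff_mem, map_sub, sub_eq_zero, ← h9, map_intCast]
  -- it is nonempty
  obtain ⟨f₁, hf₁⟩ : 𝓕.Nonempty := by
    by_contra hcon
    rw [Finset.not_nonempty_iff_eq_empty] at hcon
    have h4 := R.evR_eq_zero hram (ι := Empty) Empty.elim (fun i => i.elim) 1 (by
      intro f hf
      have h5 := hall f hf.1 hf.2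
      rw [hcon] at h5
      exact absurd h5 (Finset.notMem_empty f))
    rw [evR, MvPolynomial.eval₂_one] at h4
    have h5 := congrArg (aug (ResidueField 𝒱) (Cl2 E.N)) h4
    rw [map_one, map_zero] at h5
    exact one_ne_zero h5
  have h4 : ∀ f : 𝓕, ∃ ρ : Γℚ →* Matrix (Fin 2) (Fin 2) O,
      IsRepOf E Fr (f : CuspForm (CongruenceSubgroup.Gamma0 (lev E ∅)) 2) ρ := fun f =>
    exists_isRepOf E h𝔪 h2 Fr (M := lev E ∅) (E.two_dvd.trans (Dvd.intro _ rfl))
      (Dvd.intro _ rfl) (h𝓕 f f.2).1 (h𝓕 f f.2).2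
      (hFr f ((Finset.mem_filter.mp f.2).1))
  choose ρ hρ using h4
  choose! a ha using fun (f : 𝓕) => hFr f ((Finset.mem_filter.mp f.2).1)
  obtain ⟨ρ', g₀, T⟩ := exists_thetaRep_of h2 ⟨f₁, hf₁⟩ hρ ha jV κ hjV hκ hχ R hram hall
  exact unrBound_of_thetaRep E hω T

/-- **Blocks C + D, from (D2).** -/
theorem upper_of_classChar {E : EData} (hD2 : ClassChar E) {Q : Finset ℕ}
    (hQ : ∀ q ∈ Q, IsAux E 2 q) (hSel : Sel E Q) : Upper E Q :=
  upper_of_unrBound hQ hSel (unrBound_of_classChar E hD2)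

end Main

end Fermat.Agent.TwoAdic
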