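import Fermat.Agent.TwoAdic.Main
import Fermat.Agent.TwoAdic.ChooseE
import Fermat.Agent.TwoAdic.ThetaRepMR
import Fermat.Agent.TwoAdic.BlockE
import Fermat.Agent.TwoAdic.BlockF2
import Fermat.Agent.TwoAdic.D2Final
import Fermat.Agent.TwoAdic.MazMain
import Fermat.Agent.OrdP.StarFin
import Fermat.Agent.Wire.Final59C

/-!
# The 2-adic route: final assembly
-/

set_option autoImplicit false

open WeierstrassCurve CuspForm ModularFormClass

namespace Fermat.Agent.TwoAdic

/-- blocks C and D -/
theorem blockCD : BlockCD Sel :=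
  fun E _ hQ hS => upper_of_classChar (D2.classChar E) hQ hS

/-- block E -/
theorem blockE : BlockE Sel := Rank.blockE_of_classChar Sel D2.classChar

/-- **modularity of the 2-adic representation** -/
theorem modular_EData (hst : ∀ v : ℕ, NewformStar v) (E : EData) : Modular E :=
  modular_of_blocks Sel blockB blockCD blockE (blockF hst) MazH.blockH E

/-- **the 2-adic route**, remaining input: the local structure of newforms -/
theorem twoAdicStmtC_of (hst : ∀ v : ℕ, NewformStar v) : Wire.TwoAdicStmtC := by
  intro W hΔ hW h2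
  obtain ⟨E, hneg, hss, h2', hodd, hbad, h3, hirr, hq, hcong⟩ := exists_curve W hΔ hW h2
  obtain ⟨D, hD1, hD2⟩ := exists_EData E hneg hss h2' hodd hirr hq
  exact ⟨E, hneg.ne, hss, hbad, h3, hcong, exactLevel_of_modular hD1 hD2 (modular_EData hst D)⟩

/-- **the 2-adic route.** -/
theorem twoAdicStmtC : Wire.TwoAdicStmtC := twoAdicStmtC_of OrdP.newformStar

end Fermat.Agent.TwoAdic
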