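import Mathlib

/-!
# A quaternary form modulo 16
-/

set_option autoImplicit false

namespace Fermat.Agent.TwoAdic

theorem mod8_aux : ∀ α : ZMod 8, α * α = 1 → ∀ β : ZMod 8, β * β = 1 →
    ∀ n : ZMod 8, (n = 2 ∨ n = 6) → ∀ e : ZMod 8, (e = 0 ∨ e = 1) → ∀ f : ZMod 8,
    (f = 0 ∨ f = 1) → α * (1 + n * e) + β * (1 + n * f) = 0 →
    -(α * β) = 1 ∨ -(α * β) = 1 + n := by decide

theorem mod8_nsq : ∀ n : ZMod 8, (n = 2 ∨ n = 6) → ∀ s : ZMod 8,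
    ∃ e : ZMod 8, (e = 0 ∨ e = 1) ∧ n * s ^ 2 = n * e := by decide

theorem odd_mul_self_zmod {a : ℤ} (h : ¬ (2 : ℤ) ∣ a) : (a : ZMod 8) * a = 1 := by
  have h1 : a % 8 = 1 ∨ a % 8 = 3 ∨ a % 8 = 5 ∨ a % 8 = 7 := by omega
  have h2 : (a : ZMod 8) = ((a % 8 : ℤ) : ZMod 8) := by
    exact (ZMod.intCast_mod a 8).symm
  rw [h2]
  rcases h1 with h | h | h | h <;> rw [h] <;> decide

/-- no solutions with odd leading coordinates -/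
theorem no_odd {α β n : ℤ} (hα : ¬ (2 : ℤ) ∣ α) (hβ : ¬ (2 : ℤ) ∣ β)
    (hn : n % 8 = 2 ∨ n % 8 = 6) (h1 : ¬ (8 : ℤ) ∣ -(α * β) - 1)
    (h2 : ¬ (8 : ℤ) ∣ -(α * β) - (1 + n)) (s t : ℤ) :
    ¬ (8 : ℤ) ∣ α * (1 + n * s ^ 2) + β * (1 + n * t ^ 2) := by
  intro h
  have hn' : (n : ZMod 8) = 2 ∨ (n : ZMod 8) = 6 := by
    have h3 : (n : ZMod 8) = ((n % 8 : ℤ) : ZMod 8) := (ZMod.intCast_mod n 8).symm
    rw [h3]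
    rcases hn with h | h <;> rw [h] <;> simp
  obtain ⟨e, he, hes⟩ := mod8_nsq _ hn' (s : ZMod 8)
  obtain ⟨f, hf, hft⟩ := mod8_nsq _ hn' (t : ZMod 8)
  have h4 := (ZMod.intCast_zmod_eq_zero_iff_dvd _ 8).mpr h
  push_cast at h4
  rw [hes, hft] at h4
  rcases mod8_aux _ (odd_mul_self_zmod hα) _ (odd_mul_self_zmod hβ) _ hn' e he f hf h4 with h5 | h5
  · apply h1
    rw [show (8 : ℤ) = ((8 : ℕ) : ℤ) by norm_num, ← ZMod.intCast_zmod_eq_zero_iff_dvd]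
    push_cast
    rw [h5]; ring
  · apply h2
    rw [show (8 : ℤ) = ((8 : ℕ) : ℤ) by norm_num, ← ZMod.intCast_zmod_eq_zero_iff_dvd]
    push_cast
    rw [h5]; ring

theorem odd_sq_mod8 {x : ℤ} (h : ¬ (2 : ℤ) ∣ x) : (8 : ℤ) ∣ x ^ 2 - 1 := by
  obtain ⟨k, hk⟩ : ∃ k, x = 2 * k + 1 := ⟨x / 2, by omega⟩
  have h2 : (2 : ℤ) ∣ k * (k + 1) := Int.even_mul_succ_self k |>.two_dvd
  obtain ⟨m, hm⟩ := h2
  exact ⟨m, by rw [hk]; linear_combination 4 * hm⟩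

/-- The form `α (x₁² + N x₂²) + β (y₁² + N y₂²)` is anisotropic at `2` if `-αβ` is not a norm. -/
theorem all_even {α β N : ℤ} (hα : ¬ (2 : ℤ) ∣ α) (hβ : ¬ (2 : ℤ) ∣ β)
    (hN : N % 4 = 2) (h1 : ¬ (8 : ℤ) ∣ -(α * β) - 1)
    (h2 : ¬ (8 : ℤ) ∣ -(α * β) - (1 + N)) {x₁ x₂ y₁ y₂ : ℤ}
    (h : (16 : ℤ) ∣ α * (x₁ ^ 2 + N * x₂ ^ 2) + β * (y₁ ^ 2 + N * y₂ ^ 2)) :
    2 ∣ x₁ ∧ 2 ∣ x₂ ∧ 2 ∣ y₁ ∧ 2 ∣ y₂ := by
  obtain ⟨M, hM⟩ : ∃ M, N = 2 * M := ⟨N / 2, by omega⟩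
  have hMo : ¬ (2 : ℤ) ∣ M := by omega
  have hn8 : N % 8 = 2 ∨ N % 8 = 6 := by omega
  have p2 := Int.prime_two
  -- parity of the first coordinates
  have hpar : ∀ u v w : ℤ, (2 : ℤ) ∣ α * u ^ 2 + β * v ^ 2 + 2 * w → ((2 : ℤ) ∣ u ↔ (2 : ℤ) ∣ v) := by
    intro u v w hd
    have hd' : (2 : ℤ) ∣ α * u ^ 2 + β * v ^ 2 := (dvd_add_left (dvd_mul_right 2 w)).mp hd
    constructor
    · intro hu
      have h3 : (2 : ℤ) ∣ α * u ^ 2 := (hu.pow (by norm_num)).mul_left _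
      have h4 : (2 : ℤ) ∣ β * v ^ 2 := (dvd_add_right h3).mp hd'
      exact p2.dvd_of_dvd_pow ((p2.dvd_or_dvd h4).resolve_left hβ)
    · intro hv
      have h3 : (2 : ℤ) ∣ β * v ^ 2 := (hv.pow (by norm_num)).mul_left _
      have h4 : (2 : ℤ) ∣ α * u ^ 2 := (dvd_add_left h3).mp hd'
      exact p2.dvd_of_dvd_pow ((p2.dvd_or_dvd h4).resolve_left hα)
  have hno := no_odd hα hβ hn8 h1 h2
  have e1 : (2 : ℤ) ∣ x₁ ↔ (2 : ℤ) ∣ y₁ := by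
    apply hpar x₁ y₁ (M * (α * x₂ ^ 2 + β * y₂ ^ 2))
    refine (show (2 : ℤ) ∣ 16 by norm_num).trans (h.trans (dvd_of_eq ?_))
    rw [hM]; ring
  have hx₁ : (2 : ℤ) ∣ x₁ := by
    by_contra hx
    have hy : ¬ (2 : ℤ) ∣ y₁ := fun h => hx (e1.mpr h)
    apply hno x₂ y₂
    have h3 := (odd_sq_mod8 hx).mul_left α
    have h4 := (odd_sq_mod8 hy).mul_left β
    have h5 : (8 : ℤ) ∣ α * (x₁ ^ 2 + N * x₂ ^ 2) + β * (y₁ ^ 2 + N * y₂ ^ 2) :=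
      (show (8 : ℤ) ∣ 16 by norm_num).trans h
    have h6 := dvd_sub (dvd_sub h5 h3) h4
    refine h6.trans (dvd_of_eq ?_)
    ring
  have hy₁ := e1.mp hx₁
  obtain ⟨a, ha⟩ := hx₁
  obtain ⟨b, hb⟩ := hy₁
  -- divide by two
  have h8 : (8 : ℤ) ∣ 2 * (α * a ^ 2 + β * b ^ 2) + M * (α * x₂ ^ 2 + β * y₂ ^ 2) := by
    obtain ⟨k, hk⟩ := h
    refine ⟨k, ?_⟩
    rw [ha, hb, hM] at hk
    linarith
  have e2 : (2 : ℤ) ∣ x₂ ↔ (2 : ℤ) ∣ y₂ := by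
    have h9 : (2 : ℤ) ∣ M * (α * x₂ ^ 2 + β * y₂ ^ 2) :=
      (dvd_add_right (dvd_mul_right 2 _)).mp ((show (2 : ℤ) ∣ 8 by norm_num).trans h8)
    have h10 := (p2.dvd_or_dvd h9).resolve_left hMo
    exact hpar x₂ y₂ 0 (by simpa using h10)
  have hx₂ : (2 : ℤ) ∣ x₂ := by
    by_contra hx
    have hy : ¬ (2 : ℤ) ∣ y₂ := fun h => hx (e2.mpr h)
    apply hno a b
    have h3 := (odd_sq_mod8 hx).mul_left (α * M)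
    have h4 := (odd_sq_mod8 hy).mul_left (β * M)
    have h5 := dvd_sub (dvd_sub h8 h3) h4
    have h6 : (8 : ℤ) ∣ M * (2 * (α * a ^ 2 + β * b ^ 2) + M * (α + β)) := by
      refine (h5.mul_left M).trans (dvd_of_eq ?_)
      ring
    have h7 := (odd_sq_mod8 hMo).mul_left (α + β)
    refine (dvd_sub h6 h7).trans (dvd_of_eq ?_)
    rw [hM]
    ring
  exact ⟨⟨a, ha⟩, hx₂, ⟨b, hb⟩, e2.mp hx₂⟩

end Fermat.Agent.TwoAdic
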