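import Fermat.Agent.IntStr.Basic
import Fermat.Prelude.Def_ModularForm_HeckeOperatorForms
import Fermat.Prelude.Def_FLTPrelim_Modularity
import Fermat.Prelude.Thm_UpperHalfPlane_qCoeff_heckeU

set_option autoImplicit false

/-! # `U_p` lowers the level from `pM` to `M` when `p ∣ M` -/

namespace Fermat.Agent.TwoAdic

open CongruenceSubgroup Fermat.Agent.IntStr ModularForm Matrix.SpecialLinearGroup
open UpperHalfPlane hiding I
open scoped Real Manifold MatrixGroups ModularForm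
open P2MW.S_ModularForm_heckeU_slash_eq_self_of_mem_Gamma0.ModularForm.HeckeSlashInvariance
  (heckeU_eq_sum_zmod heckeMatrix_mul_of_dvd affinePerm)

theorem heckeU_slash_lower {M p : ℕ} [NeZero p] (k : ℤ) (hpM : p ∣ M) (f : ℍ → ℂ)
    (hf : ∀ γ ∈ Gamma0 (M * p), f ∣[k] γ = f) (g : SL(2, ℤ)) (hg : g ∈ Gamma0 M) :
    heckeU k p f ∣[k] g = heckeU k p f := by
  have hcN : (M : ℤ) ∣ g 1 0 :=
    (ZMod.intCast_zmod_eq_zero_iff_dvd _ _).mp (CongruenceSubgroup.Gamma0_mem.mp hg)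
  have hc : (p : ℤ) ∣ g 1 0 := (Int.natCast_dvd_natCast.mpr hpM).trans hcN
  change heckeU k p f ∣[k] (mapGL ℝ g) = _
  rw [heckeU_eq_sum_zmod k f, SlashAction.sum_slash]
  calc ∑ x : ZMod p, (f ∣[k] heckeMatrix p x.val) ∣[k] mapGL ℝ g
      = ∑ x : ZMod p, f ∣[k] heckeMatrix p
          (affinePerm g ((ZMod.intCast_zmod_eq_zero_iff_dvd _ _).mpr hc) x).val := by
        refine Finset.sum_congr rfl fun x _ ↦ ?_
        obtain ⟨g', hg', hmul⟩ := heckeMatrix_mul_of_dvd g hc x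
        have hg'N : g' ∈ Gamma0 (M * p) := by
          rw [CongruenceSubgroup.Gamma0_mem, hg', ZMod.intCast_zmod_eq_zero_iff_dvd]
          push_cast
          rw [mul_comm (M : ℤ)]
          exact mul_dvd_mul_left _ hcN
        have h2 : f ∣[k] (mapGL ℝ g') = f := hf g' hg'N
        rw [← SlashAction.slash_mul, hmul, SlashAction.slash_mul, h2]
    _ = ∑ x : ZMod p, f ∣[k] heckeMatrix p x.val :=
        Equiv.sum_comp (affinePerm g _) (fun x ↦ f ∣[k] heckeMatrix p x.val)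

/-- `U_p` lowers the level. -/
theorem isMF_heckeU_lower {M p : ℕ} [NeZero M] [NeZero p] {k : ℤ} (hpM : p ∣ M) {f : ℍ → ℂ}
    (hf : IsMF (Gamma0 (M * p)) k f) : IsMF (Gamma0 M) k (heckeU k p f) where
  holo := ModularForm.mdifferentiable_heckeU hf.holo k p
  slash g hg := heckeU_slash_lower k hpM f hf.slash g hg
  bdd γ := by
    haveI : NeZero (M * p) := ⟨mul_ne_zero (NeZero.ne M) (NeZero.ne p)⟩
    have h := IsMF.of_modularForm (ModularForm.heckeULin k (Dvd.intro_left M rfl) hf.toModularForm)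
    exact h.bdd γ

theorem qCoeff_heckeU_MF {M p : ℕ} (hp : p ≠ 0) {k : ℤ} {f : ℍ → ℂ} (hf : IsMF (Gamma0 M) k f)
    (n : ℕ) : ModularFormClass.qCoeff (heckeU k p f) n = ModularFormClass.qCoeff f (n * p) := by
  have hT : ModularGroup.T ∈ Gamma0 M := by
    rw [Gamma0_mem, ModularGroup.coe_T]; simp
  exact UpperHalfPlane.qCoeff_heckeU (hf.periodic hT) hf.holo hf.bdd_infty k hp n

end Fermat.Agent.TwoAdic
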