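import Fermat.Agent.TwoAdic.ThetaE
import Fermat.Agent.TwoAdic.ULower
import Fermat.Agent.IntStr.E4N

set_option autoImplicit false

/-! # q-expansions of products of binary theta functions, and the forms `Λ` -/

namespace Fermat.Agent.TwoAdic

open MeasureTheory Complex Topology Fermat.Agent.LT CongruenceSubgroup Fermat.Agent.IntStr
open UpperHalfPlane hiding I
open ModularForm
open scoped Real ComplexConjugate Manifold MatrixGroups ModularForm

section fiber

variable {L : Type} (K : L → ℕ)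

theorem finite_fiber' {q : ℂ} (hq : q ≠ 0) (h : Summable fun n : L => q ^ K n) (m : ℕ) :
    Finite {n : L // K n = m} := by
  by_contra hinf
  rw [not_finite_iff_infinite] at hinf
  have h1 : Summable fun n : {n : L // K n = m} => q ^ K (n : L) :=
    h.comp_injective Subtype.val_injective
  have h2 : (fun n : {n : L // K n = m} => q ^ K (n : L)) = fun _ => q ^ m := by
    funext n
    rw [n.2]
  rw [h2] at h1
  have h3 := (summable_const_iff (q ^ m)).mp h1
  exact pow_ne_zero m hq h3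

theorem hasSum_fiber' {q a : ℂ} (hq : q ≠ 0) (h : HasSum (fun n : L => q ^ K n) a) :
    HasSum (fun m : ℕ => (Nat.card {n : L // K n = m} : ℂ) • q ^ m) a := by
  have h1 : HasSum (fun x : (Σ m : ℕ, {n : L // K n = m}) =>
      q ^ K ((Equiv.sigmaFiberEquiv K) x)) a := by
    rw [← (Equiv.sigmaFiberEquiv K).hasSum_iff] at h
    exact h
  refine h1.sigma fun m => ?_
  have hfin := finite_fiber' K hq h.summable m
  have := Fintype.ofFinite {n : L // K n = m}
  have h2 : (fun c : {n : L // K n = m} => q ^ K ((Equiv.sigmaFiberEquiv K) ⟨m, c⟩)) =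
      fun _ => q ^ m := by
    funext c
    change q ^ K (c : L) = _
    rw [c.2]
  rw [h2]
  have h3 := hasSum_fintype (fun _ : {n : L // K n = m} => q ^ m)
  rw [Finset.sum_const, Finset.card_univ, nsmul_eq_mul, ← Nat.card_eq_fintype_card] at h3
  exact h3

end fiber

/-- the number of representations of `n` by `Q q(v) + Q' q'(w)` -/
noncomputable def rep (Q al be ga Q' al' be' ga' : ℤ) (n : ℕ) : ℕ :=
  Nat.card {p : (Fin 2 → ℤ) × (Fin 2 → ℤ) // Q * bz al be ga p.1 + Q' * bz al' be' ga' p.2 = n}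

theorem bz_nonneg {al be ga : ℤ} (ha : 0 < al) (hD : 0 < 4 * al * ga - be ^ 2) (x : Fin 2 → ℤ) :
    0 ≤ bz al be ga x := by
  unfold bz
  have h : 4 * al * (al * x 0 ^ 2 + be * x 0 * x 1 + ga * x 1 ^ 2) =
      (2 * al * x 0 + be * x 1) ^ 2 + (4 * al * ga - be ^ 2) * x 1 ^ 2 := by ring
  have h2 : 0 ≤ 4 * al * (al * x 0 ^ 2 + be * x 0 * x 1 + ga * x 1 ^ 2) := by
    rw [h]; positivity
  by_contra h3
  push Not at h3
  nlinarith

section

variable {Q al be ga Q' al' be' ga' : ℤ} (hQ : 0 < Q) (ha : 0 < al) (hD : 0 < 4 * al * ga - be ^ 2)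
  (hQ' : 0 < Q') (ha' : 0 < al') (hDD : 4 * al' * ga' - be' ^ 2 = 4 * al * ga - be ^ 2)
  (h2 : 2 ∣ 4 * al * ga - be ^ 2)

include hQ ha hD hQ' ha' hDD in
theorem hasSum_thP (z : ℍ) : HasSum (fun n : ℕ => (rep Q al be ga Q' al' be' ga' n : ℂ) •
    Function.Periodic.qParam 1 (z : ℂ) ^ n) (thP Q al be ga Q' al' be' ga' z) := by
  set q : ℂ := Function.Periodic.qParam 1 (z : ℂ) with hq
  have hq0 : q ≠ 0 := by rw [hq, Function.Periodic.qParam]; exact Complex.exp_ne_zero _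
  have hs1 := summable_th hQ ha hD z.im_pos
  have hs2 := summable_th hQ' ha' (hDD ▸ hD) z.im_pos
  have hprod : HasSum (fun p : (Fin 2 → ℤ) × (Fin 2 → ℤ) =>
      cexp (2 * π * I * z * ((Q * bz al be ga p.1 : ℤ) : ℂ)) *
      cexp (2 * π * I * z * ((Q' * bz al' be' ga' p.2 : ℤ) : ℂ)))
      (thP Q al be ga Q' al' be' ga' z) := by
    rw [thP_apply]
    have h := hs1.norm.mul_norm hs2.norm
    exact hs1.hasSum.mul hs2.hasSum (Summable.of_norm h)
  set K : (Fin 2 → ℤ) × (Fin 2 → ℤ) → ℕ := fun p =>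
    (Q * bz al be ga p.1 + Q' * bz al' be' ga' p.2).toNat with hK
  have hKz : ∀ p, ((K p : ℕ) : ℤ) = Q * bz al be ga p.1 + Q' * bz al' be' ga' p.2 := by
    intro p
    rw [hK]
    apply Int.toNat_of_nonneg
    have h1 := bz_nonneg ha hD p.1
    have h2 := bz_nonneg ha' (hDD ▸ hD) p.2
    positivity
  have hterm : ∀ p, cexp (2 * π * I * z * ((Q * bz al be ga p.1 : ℤ) : ℂ)) *
      cexp (2 * π * I * z * ((Q' * bz al' be' ga' p.2 : ℤ) : ℂ)) = q ^ K p := by
    intro p
    rw [hq, Function.Periodic.qParam, ← Complex.exp_nat_mul, ← Complex.exp_add]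
    congr 1
    have h : ((K p : ℕ) : ℂ) = ((Q * bz al be ga p.1 : ℤ) : ℂ) +
        ((Q' * bz al' be' ga' p.2 : ℤ) : ℂ) := by
      exact_mod_cast hKz p
    rw [h]
    push_cast
    ring
  simp_rw [hterm] at hprod
  have h := hasSum_fiber' K hq0 hprod
  convert h using 3 with n
  unfold rep
  congr 2
  apply congrArg
  funext p
  rw [← hKz, eq_iff_iff]
  exact_mod_cast Iff.rfl

include hQ ha hD hQ' ha' hDD h2 in
theorem qCoeff_thP (n : ℕ) : ModularFormClass.qCoeff (thP Q al be ga Q' al' be' ga') n =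
    rep Q al be ga Q' al' be' ga' n := by
  set M : ℕ := ((4 * al * ga - be ^ 2) * Q * Q').toNat with hMdef
  have hpos : 0 < (4 * al * ga - be ^ 2) * Q * Q' := by positivity
  have hM : (M : ℤ) = (4 * al * ga - be ^ 2) * Q * Q' := Int.toNat_of_nonneg hpos.le
  have : NeZero M := ⟨by rintro h; rw [h] at hM; rw [← hM] at hpos; exact absurd hpos (by simp)⟩
  have hmf := isMF_thP hQ ha hD hQ' ha' hDD h2 hM
  have hT : ModularGroup.T ∈ Gamma0 M := by
    rw [Gamma0_mem, ModularGroup.coe_T]; simp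
  exact coeff_unique hmf.holo.continuous (hmf.analyticAt hT)
    (fun τ => hasSum_thP hQ ha hD hQ' ha' hDD τ) n

include hQ ha hD hQ' ha' hDD h2 in
/-- **The forms `Λ = U₂² (θ θ')`** of level `M` when `4 M = D Q Q'` and `M` is even. -/
theorem isMF_Lambda {M : ℕ} [NeZero M] (hM2 : 2 ∣ M)
    (hM : (4 * M : ℤ) = (4 * al * ga - be ^ 2) * Q * Q') :
    IsMF (Gamma0 M) 2 (heckeU 2 2 (heckeU 2 2 (thP Q al be ga Q' al' be' ga'))) := by
  have : NeZero (M * 2) := ⟨mul_ne_zero (NeZero.ne M) two_ne_zero⟩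
  have : NeZero (M * 2 * 2) := ⟨mul_ne_zero (NeZero.ne _) two_ne_zero⟩
  apply isMF_heckeU_lower hM2
  apply isMF_heckeU_lower (Dvd.intro_left M rfl)
  apply isMF_thP hQ ha hD hQ' ha' hDD h2
  push_cast
  rw [← hM]; ring

include hQ ha hD hQ' ha' hDD h2 in
theorem qCoeff_Lambda {M : ℕ} [NeZero M] (hM2 : 2 ∣ M)
    (hM : (4 * M : ℤ) = (4 * al * ga - be ^ 2) * Q * Q') (n : ℕ) :
    ModularFormClass.qCoeff (heckeU 2 2 (heckeU 2 2 (thP Q al be ga Q' al' be' ga'))) n =
      rep Q al be ga Q' al' be' ga' (4 * n) := by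
  have : NeZero (M * 2) := ⟨mul_ne_zero (NeZero.ne M) two_ne_zero⟩
  have : NeZero (M * 2 * 2) := ⟨mul_ne_zero (NeZero.ne _) two_ne_zero⟩
  have h0 : IsMF (Gamma0 (M * 2 * 2)) 2 (thP Q al be ga Q' al' be' ga') := by
    apply isMF_thP hQ ha hD hQ' ha' hDD h2
    push_cast
    rw [← hM]; ring
  have h1 : IsMF (Gamma0 (M * 2)) 2 (heckeU 2 2 (thP Q al be ga Q' al' be' ga')) :=
    isMF_heckeU_lower (Dvd.intro_left M rfl) h0
  rw [qCoeff_heckeU_MF two_ne_zero h1, qCoeff_heckeU_MF two_ne_zero h0,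
    qCoeff_thP hQ ha hD hQ' ha' hDD h2]
  congr 2
  ring

end

end Fermat.Agent.TwoAdic
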