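import Mathlib
import Fermat.Agent.TwoAdic.Mod16
import Fermat.Agent.TwoAdic.ThetaF

/-!
# Representation numbers of `Q₁ q(x) + Q₂ q'(y)`
-/

set_option autoImplicit false

namespace Fermat.Agent.TwoAdic

variable {al be ga al' be' ga' : ℤ}

theorem bz_smul (al be ga c : ℤ) (x : Fin 2 → ℤ) : bz al be ga (c • x) = c ^ 2 * bz al be ga x := by
  simp only [bz, Pi.smul_apply, smul_eq_mul]
  ring

theorem bz_neg (al be ga : ℤ) (x : Fin 2 → ℤ) : bz al be ga (-x) = bz al be ga x := by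
  simp only [bz, Pi.neg_apply]
  ring

theorem bz_zero (al be ga : ℤ) : bz al be ga 0 = 0 := by simp [bz]

/-- if `v` is inert then `v ∣ q(x)` implies `v ∣ x` -/
theorem dvd_of_dvd_bz {N v : ℕ} (hD : 4 * al * ga - be ^ 2 = 4 * N) (hv : v.Prime) (h2 : v ≠ 2)
    (hns : ¬ IsSquare (-(N : ZMod v))) {x : Fin 2 → ℤ} (h : (v : ℤ) ∣ bz al be ga x) :
    ∃ y : Fin 2 → ℤ, x = (v : ℤ) • y := by
  have := Fact.mk hv
  have hvp : Prime (v : ℤ) := Nat.prime_iff_prime_int.mp hv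
  have h2' : (2 : ZMod v) ≠ 0 := by
    intro h0
    have : (v : ℤ) ∣ 2 := (ZMod.intCast_zmod_eq_zero_iff_dvd 2 v).mp (by exact_mod_cast h0)
    have h3 : v ∣ 2 := by exact_mod_cast this
    exact h2 ((Nat.prime_dvd_prime_iff_eq hv Nat.prime_two).mp h3)
  have h4' : (4 : ZMod v) ≠ 0 := by
    have : (4 : ZMod v) = 2 * 2 := by norm_num
    rw [this]; exact mul_ne_zero h2' h2'
  have hDz : 4 * (al : ZMod v) * ga - be ^ 2 = 4 * N := by exact_mod_cast congrArg (Int.cast (R := ZMod v)) hD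
  have hx : (al : ZMod v) * x 0 ^ 2 + be * x 0 * x 1 + ga * x 1 ^ 2 = 0 := by
    have := (ZMod.intCast_zmod_eq_zero_iff_dvd _ v).mpr h
    simp only [bz] at this
    exact_mod_cast this
  have hal : (al : ZMod v) ≠ 0 := by
    intro h0
    apply hns
    refine ⟨(be : ZMod v) / 2, ?_⟩
    rw [h0] at hDz
    field_simp
    linear_combination hDz
  have h1 : (x 1 : ZMod v) = 0 := by
    by_contra h1
    apply hns
    refine ⟨(2 * al * x 0 + be * x 1) / (2 * x 1), ?_⟩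
    field_simp
    have h5 : (2 * (al : ZMod v) * x 0 + be * x 1) ^ 2 = -(4 * N) * x 1 ^ 2 := by
      linear_combination (4 * (al : ZMod v)) * hx - (x 1 : ZMod v) ^ 2 * hDz
    linear_combination -h5
  have h0 : (x 0 : ZMod v) = 0 := by
    rw [h1] at hx
    have : (al : ZMod v) * x 0 ^ 2 = 0 := by linear_combination hx
    exact pow_eq_zero_iff (two_ne_zero) |>.mp ((mul_eq_zero.mp this).resolve_left hal)
  obtain ⟨y0, hy0⟩ := (ZMod.intCast_zmod_eq_zero_iff_dvd _ v).mp h0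
  obtain ⟨y1, hy1⟩ := (ZMod.intCast_zmod_eq_zero_iff_dvd _ v).mp h1
  refine ⟨![y0, y1], ?_⟩
  ext i
  fin_cases i
  · simpa using hy0
  · simpa using hy1

/-- **(c)** swapping an inert prime. -/
theorem rep_swap {N v : ℕ} {Q₁ Q₂ : ℤ} (hD' : 4 * al' * ga' - be' ^ 2 = 4 * N) (hv : v.Prime)
    (h2 : v ≠ 2) (hns : ¬ IsSquare (-(N : ZMod v))) (hQ₂ : ¬ (v : ℤ) ∣ Q₂) (m : ℕ) :
    rep (v * Q₁) al be ga Q₂ al' be' ga' (v * m) = rep Q₁ al be ga (v * Q₂) al' be' ga' m := by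
  have hvp : Prime (v : ℤ) := Nat.prime_iff_prime_int.mp hv
  have hv0 : (v : ℤ) ≠ 0 := hvp.ne_zero
  unfold rep
  symm
  apply Nat.card_eq_of_bijective (fun p => ⟨(p.1.1, (v : ℤ) • p.1.2), by
    have h := p.2
    simp only
    rw [bz_smul]
    push_cast
    linear_combination (v : ℤ) * h⟩)
  constructor
  · rintro ⟨⟨x, y⟩, h⟩ ⟨⟨x', y'⟩, h'⟩ hh
    have h1 := congrArg (fun p => p.1) hh
    simp only [Prod.mk.injEq] at h1
    apply Subtype.ext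
    refine Prod.ext h1.1 ?_
    exact smul_right_injective _ hv0 h1.2
  · rintro ⟨⟨x, y⟩, h⟩
    simp only at h
    have h1 : (v : ℤ) ∣ Q₂ * bz al' be' ga' y := by
      refine ⟨m - Q₁ * bz al be ga x, ?_⟩
      push_cast at h
      linear_combination h
    have h3 := (hvp.dvd_or_dvd h1).resolve_left hQ₂
    obtain ⟨y', rfl⟩ := dvd_of_dvd_bz hD' hv h2 hns h3
    refine ⟨⟨(x, y'), ?_⟩, rfl⟩
    simp only
    rw [bz_smul] at h
    push_cast at h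
    apply mul_left_cancel₀ hv0
    linear_combination h

/-- composition identity -/
theorem bz_mul_bz {N : ℕ} {b : ℤ} (hD : 4 * al * ga - (2 * b) ^ 2 = 4 * N) (x y : Fin 2 → ℤ) :
    bz al (2 * b) ga x * bz al (2 * b) ga y =
      (al * x 0 * y 0 + b * (x 0 * y 1 + x 1 * y 0) + ga * x 1 * y 1) ^ 2 +
        N * (x 0 * y 1 - x 1 * y 0) ^ 2 := by
  have hD' : al * ga - b ^ 2 = N := by linarith
  simp only [bz]
  linear_combination (x 0 * y 1 - x 1 * y 0) ^ 2 * hD'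

theorem even_be {N : ℕ} (hD : 4 * al * ga - be ^ 2 = 4 * N) : ∃ b, be = 2 * b := by
  have : (2 : ℤ) ∣ be ^ 2 := ⟨2 * al * ga - 2 * N, by linarith⟩
  exact Int.prime_two.dvd_of_dvd_pow this

/-- the form represents an odd number -/
theorem exists_odd_value {N : ℕ} (hN : N % 4 = 2) (hD : 4 * al * ga - be ^ 2 = 4 * N) :
    ∃ x : Fin 2 → ℤ, ¬ (2 : ℤ) ∣ bz al be ga x := by
  obtain ⟨b, rfl⟩ := even_be hD
  have hD' : al * ga - b ^ 2 = N := by linarith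
  by_cases ha : (2 : ℤ) ∣ al
  · by_cases hc : (2 : ℤ) ∣ ga
    · exfalso
      obtain ⟨a', rfl⟩ := ha
      obtain ⟨c', rfl⟩ := hc
      have hN' : (N : ℤ) % 4 = 2 := by exact_mod_cast hN
      have hb : b ^ 2 % 4 = 2 := by
        have : b ^ 2 = 4 * (a' * c') - N := by linarith
        rw [this]; omega
      rcases Int.even_or_odd b with ⟨k, hk⟩ | ⟨k, hk⟩
      · have : b ^ 2 = 4 * (k ^ 2) := by rw [hk]; ring
        omega
      · have : b ^ 2 = 4 * (k ^ 2 + k) + 1 := by rw [hk]; ring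
        omega
    · exact ⟨![0, 1], by simpa [bz] using hc⟩
  · exact ⟨![1, 0], by simpa [bz] using ha⟩

/-- anisotropy at 2 for a pair of forms -/
theorem even_of_sixteen {N : ℕ} {Q₁ Q₂ : ℤ} (hN : N % 4 = 2)
    (hD : 4 * al * ga - be ^ 2 = 4 * N) (hD' : 4 * al' * ga' - be' ^ 2 = 4 * N)
    (hQ₁ : ¬ (2 : ℤ) ∣ Q₁) (hQ₂ : ¬ (2 : ℤ) ∣ Q₂)
    (hodd : ∀ x y : Fin 2 → ℤ, ¬ (2 : ℤ) ∣ bz al be ga x → ¬ (2 : ℤ) ∣ bz al' be' ga' y →
      ¬ (8 : ℤ) ∣ -(Q₁ * Q₂ * bz al be ga x * bz al' be' ga' y) - 1 ∧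
      ¬ (8 : ℤ) ∣ -(Q₁ * Q₂ * bz al be ga x * bz al' be' ga' y) - (1 + N))
    {x y : Fin 2 → ℤ} (h : (16 : ℤ) ∣ Q₁ * bz al be ga x + Q₂ * bz al' be' ga' y) :
    (∃ x' : Fin 2 → ℤ, x = (2 : ℤ) • x') ∧ ∃ y' : Fin 2 → ℤ, y = (2 : ℤ) • y' := by
  obtain ⟨x₀, hx₀⟩ := exists_odd_value hN hD
  obtain ⟨y₀, hy₀⟩ := exists_odd_value hN hD'
  obtain ⟨h1, h2⟩ := hodd x₀ y₀ hx₀ hy₀
  obtain ⟨b, rfl⟩ := even_be hD
  obtain ⟨b', rfl⟩ := even_be hD'
  set m₁ := bz al (2 * b) ga x₀ with hm₁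
  set m₂ := bz al' (2 * b') ga' y₀ with hm₂
  have e1 := bz_mul_bz hD x₀ x
  have e2 := bz_mul_bz hD' y₀ y
  have p2 := Int.prime_two
  have hN' : (N : ℤ) % 4 = 2 := by exact_mod_cast hN
  have h3 : (16 : ℤ) ∣ (Q₁ * m₂) * ((al * x₀ 0 * x 0 + b * (x₀ 0 * x 1 + x₀ 1 * x 0) +
      ga * x₀ 1 * x 1) ^ 2 + N * (x₀ 0 * x 1 - x₀ 1 * x 0) ^ 2) +
      (Q₂ * m₁) * ((al' * y₀ 0 * y 0 + b' * (y₀ 0 * y 1 + y₀ 1 * y 0) +
      ga' * y₀ 1 * y 1) ^ 2 + N * (y₀ 0 * y 1 - y₀ 1 * y 0) ^ 2) := by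
    rw [← e1, ← e2]
    refine (h.mul_left (m₁ * m₂)).trans (dvd_of_eq ?_)
    ring
  have h4 := all_even (α := Q₁ * m₂) (β := Q₂ * m₁) (N := (N : ℤ))
    (fun hh => (p2.dvd_or_dvd hh).elim hQ₁ hy₀) (fun hh => (p2.dvd_or_dvd hh).elim hQ₂ hx₀) hN'
    (fun hh => h1 (hh.trans (dvd_of_eq (by ring)))) (fun hh => h2 (hh.trans (dvd_of_eq (by ring)))) h3
  obtain ⟨⟨u, hu⟩, ⟨w, hw⟩, ⟨u', hu'⟩, ⟨w', hw'⟩⟩ := h4
  -- invert the linear map of odd determinant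
  have inv : ∀ {a b c m : ℤ} {z₀ z : Fin 2 → ℤ}, m = bz a (2 * b) c z₀ → ¬ (2 : ℤ) ∣ m →
      (∃ u, a * z₀ 0 * z 0 + b * (z₀ 0 * z 1 + z₀ 1 * z 0) + c * z₀ 1 * z 1 = 2 * u) →
      (∃ w, z₀ 0 * z 1 - z₀ 1 * z 0 = 2 * w) → ∃ z' : Fin 2 → ℤ, z = (2 : ℤ) • z' := by
    rintro a b c m z₀ z hm hodd ⟨u, hu⟩ ⟨w, hw⟩
    have k0 : (2 : ℤ) ∣ z 0 := by
      have : (2 : ℤ) ∣ m * z 0 := by
        refine ⟨z₀ 0 * u - (b * z₀ 0 + c * z₀ 1) * w, ?_⟩
        rw [hm, bz]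
        linear_combination (z₀ 0) * hu - (b * z₀ 0 + c * z₀ 1) * hw
      exact (p2.dvd_or_dvd this).resolve_left hodd
    have k1 : (2 : ℤ) ∣ z 1 := by
      have : (2 : ℤ) ∣ m * z 1 := by
        refine ⟨z₀ 1 * u + (a * z₀ 0 + b * z₀ 1) * w, ?_⟩
        rw [hm, bz]
        linear_combination (z₀ 1) * hu + (a * z₀ 0 + b * z₀ 1) * hw
      exact (p2.dvd_or_dvd this).resolve_left hodd
    obtain ⟨t0, ht0⟩ := k0
    obtain ⟨t1, ht1⟩ := k1
    refine ⟨![t0, t1], ?_⟩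
    ext i
    fin_cases i
    · simpa using ht0
    · simpa using ht1
  exact ⟨inv hm₁ hx₀ ⟨u, hu⟩ ⟨w, hw⟩, inv hm₂ hy₀ ⟨u', hu'⟩ ⟨w', hw'⟩⟩

/-- **(d)** `U₂²` acts trivially on `Λ`. -/
theorem rep_sixteen {N : ℕ} {Q₁ Q₂ : ℤ} (hN : N % 4 = 2)
    (hD : 4 * al * ga - be ^ 2 = 4 * N) (hD' : 4 * al' * ga' - be' ^ 2 = 4 * N)
    (hQ₁ : ¬ (2 : ℤ) ∣ Q₁) (hQ₂ : ¬ (2 : ℤ) ∣ Q₂)
    (hodd : ∀ x y : Fin 2 → ℤ, ¬ (2 : ℤ) ∣ bz al be ga x → ¬ (2 : ℤ) ∣ bz al' be' ga' y →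
      ¬ (8 : ℤ) ∣ -(Q₁ * Q₂ * bz al be ga x * bz al' be' ga' y) - 1 ∧
      ¬ (8 : ℤ) ∣ -(Q₁ * Q₂ * bz al be ga x * bz al' be' ga' y) - (1 + N)) (n : ℕ) :
    rep Q₁ al be ga Q₂ al' be' ga' (16 * n) = rep Q₁ al be ga Q₂ al' be' ga' (4 * n) := by
  unfold rep
  symm
  apply Nat.card_eq_of_bijective (fun p => ⟨((2 : ℤ) • p.1.1, (2 : ℤ) • p.1.2), by
    have h := p.2
    simp only
    rw [bz_smul, bz_smul]
    push_cast at h ⊢
    linear_combination 4 * h⟩)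
  constructor
  · rintro ⟨⟨x, y⟩, h⟩ ⟨⟨x', y'⟩, h'⟩ hh
    have h1 := congrArg (fun p => p.1) hh
    simp only [Prod.mk.injEq] at h1
    apply Subtype.ext
    exact Prod.ext (smul_right_injective _ two_ne_zero h1.1)
      (smul_right_injective _ two_ne_zero h1.2)
  · rintro ⟨⟨x, y⟩, h⟩
    simp only at h
    obtain ⟨⟨x', rfl⟩, ⟨y', rfl⟩⟩ := even_of_sixteen hN hD hD' hQ₁ hQ₂ hodd
      (x := x) (y := y) ⟨n, by rw [h]; push_cast; ring⟩
    refine ⟨⟨(x', y'), ?_⟩, rfl⟩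
    simp only
    rw [bz_smul, bz_smul] at h
    push_cast at h ⊢
    linarith

/-! ### Modulo 4 -/

/-- a half system of nonzero vectors -/
def Pos (x : Fin 2 → ℤ) : Prop := 0 < x 0 ∨ (x 0 = 0 ∧ 0 < x 1)

theorem pos_or_pos_neg {x : Fin 2 → ℤ} (h : x ≠ 0) : Pos x ∨ Pos (-x) := by
  unfold Pos
  simp only [Pi.neg_apply]
  by_contra hcon
  push Not at hcon
  apply h
  ext i
  fin_cases i
  · simp only [Fin.zero_eta, Pi.zero_apply]
    have h1 := hcon.1.1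
    have h2 := hcon.2.1
    omega
  · simp only [Fin.mk_one, Pi.zero_apply]
    have h1 := hcon.1.1
    have h2 := hcon.2.1
    have h3 : x 0 = 0 := by omega
    have h4 := hcon.1.2 h3
    have h5 := hcon.2.2 (by omega)
    omega

theorem not_pos_and_neg {x : Fin 2 → ℤ} (h : Pos x) (h' : Pos (-x)) : False := by
  unfold Pos at h h'
  simp only [Pi.neg_apply] at h'
  omega

theorem pos_ne_zero {x : Fin 2 → ℤ} (h : Pos x) : x ≠ 0 := by
  rintro rfl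
  unfold Pos at h
  simp at h

/-- sign -/
def sgB (b : Bool) (x : Fin 2 → ℤ) : Fin 2 → ℤ := if b then x else -x

theorem bz_sg (al be ga : ℤ) (b : Bool) (x : Fin 2 → ℤ) : bz al be ga (sgB b x) = bz al be ga x := by
  unfold sgB; split_ifs
  · rfl
  · exact bz_neg _ _ _ _

theorem sg_inj {b b' : Bool} {x x' : Fin 2 → ℤ} (hx : Pos x) (hx' : Pos x')
    (h : sgB b x = sgB b' x') : b = b' ∧ x = x' := by
  unfold sgB at h
  cases b <;> cases b' <;> simp only [Bool.false_eq_true, if_false, if_true] at h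
  · exact ⟨rfl, neg_injective h⟩
  · exfalso
    apply not_pos_and_neg hx
    rw [h]; exact hx'
  · exfalso
    apply not_pos_and_neg hx'
    rw [← h]; exact hx
  · exact ⟨rfl, h⟩

theorem exists_sg {x : Fin 2 → ℤ} (h : x ≠ 0) : ∃ (b : Bool) (y : Fin 2 → ℤ), Pos y ∧ sgB b y = x := by
  rcases pos_or_pos_neg h with h1 | h1
  · exact ⟨true, x, h1, by simp [sgB]⟩
  · exact ⟨false, -x, h1, by simp [sgB]⟩

/-- the number of pairs of nonzero vectors is divisible by four -/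
theorem four_dvd_card (Q₁ al be ga Q₂ al' be' ga' : ℤ) (m : ℤ) :
    4 ∣ Nat.card {p : (Fin 2 → ℤ) × (Fin 2 → ℤ) //
      Q₁ * bz al be ga p.1 + Q₂ * bz al' be' ga' p.2 = m ∧ p.1 ≠ 0 ∧ p.2 ≠ 0} := by
  let S := {p : (Fin 2 → ℤ) × (Fin 2 → ℤ) //
      Q₁ * bz al be ga p.1 + Q₂ * bz al' be' ga' p.2 = m ∧ Pos p.1 ∧ Pos p.2}
  have h : Nat.card ((Bool × Bool) × S) = Nat.card {p : (Fin 2 → ℤ) × (Fin 2 → ℤ) //
      Q₁ * bz al be ga p.1 + Q₂ * bz al' be' ga' p.2 = m ∧ p.1 ≠ 0 ∧ p.2 ≠ 0} := by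
    apply Nat.card_eq_of_bijective (fun t => ⟨(sgB t.1.1 t.2.1.1, sgB t.1.2 t.2.1.2), by
      obtain ⟨⟨b, b'⟩, ⟨⟨x, y⟩, h1, h2, h3⟩⟩ := t
      refine ⟨?_, ?_, ?_⟩
      · simp only [bz_sg]; exact h1
      · simp only
        intro h0
        apply pos_ne_zero h2
        unfold sgB at h0
        split_ifs at h0
        · exact h0
        · exact neg_eq_zero.mp h0
      · simp only
        intro h0
        apply pos_ne_zero h3
        unfold sgB at h0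
        split_ifs at h0
        · exact h0
        · exact neg_eq_zero.mp h0⟩)
    constructor
    · rintro ⟨⟨b, b'⟩, ⟨⟨x, y⟩, h1, h2, h3⟩⟩ ⟨⟨c, c'⟩, ⟨⟨x', y'⟩, h1', h2', h3'⟩⟩ hh
      have h4 := congrArg (fun p => p.1) hh
      simp only [Prod.mk.injEq] at h4
      obtain ⟨rfl, e2⟩ := sg_inj h2 h2' h4.1
      obtain ⟨rfl, e4⟩ := sg_inj h3 h3' h4.2
      simp only at e2 e4
      subst e2
      subst e4
      rfl
    · rintro ⟨⟨x, y⟩, h1, h2, h3⟩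
      obtain ⟨b, x', hx', rfl⟩ := exists_sg h2
      obtain ⟨b', y', hy', rfl⟩ := exists_sg h3
      exact ⟨⟨(b, b'), ⟨⟨x', y'⟩, by simpa only [bz_sg] using h1, hx', hy'⟩⟩, rfl⟩
  rw [← h, Nat.card_prod]
  refine Dvd.dvd.mul_right ?_ _
  rw [Nat.card_prod]
  simp

theorem bz_pos (ha : 0 < al) (hD : 0 < 4 * al * ga - be ^ 2) {x : Fin 2 → ℤ} (hx : x ≠ 0) :
    0 < bz al be ga x := by
  have h1 : 4 * al * bz al be ga x = (2 * al * x 0 + be * x 1) ^ 2 +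
      (4 * al * ga - be ^ 2) * x 1 ^ 2 := by simp only [bz]; ring
  have h2 : 0 < 4 * al * bz al be ga x := by
    rw [h1]
    by_cases h3 : x 1 = 0
    · have h4 : x 0 ≠ 0 := by
        intro h4
        apply hx
        ext i
        fin_cases i
        · exact h4
        · exact h3
      rw [h3]
      have : 0 < (2 * al * x 0) ^ 2 := by positivity
      nlinarith
    · have h4 : 0 < x 1 ^ 2 := by positivity
      have := mul_pos hD h4
      nlinarith [sq_nonneg (2 * al * x 0 + be * x 1)]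
  by_contra hcon
  push Not at hcon
  nlinarith

theorem finite_bz (ha : 0 < al) (hD : 0 < 4 * al * ga - be ^ 2) (m : ℤ) :
    {x : Fin 2 → ℤ | bz al be ga x ≤ m}.Finite := by
  have hg : 0 < ga := by
    by_contra hcon
    push Not at hcon
    nlinarith [sq_nonneg be]
  apply (Set.finite_Icc (fun _ : Fin 2 => -(4 * (al + ga) * |m|)) (fun _ => 4 * (al + ga) * |m|)).subset
  intro x hx
  simp only [Set.mem_setOf_eq] at hx
  have h0 := le_abs_self m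
  have h0' := abs_nonneg m
  have e1 : 4 * al * bz al be ga x = (2 * al * x 0 + be * x 1) ^ 2 +
      (4 * al * ga - be ^ 2) * x 1 ^ 2 := by simp only [bz]; ring
  have e2 : 4 * ga * bz al be ga x = (2 * ga * x 1 + be * x 0) ^ 2 +
      (4 * al * ga - be ^ 2) * x 0 ^ 2 := by simp only [bz]; ring
  have i1 : x 1 ^ 2 ≤ 4 * al * |m| := by
    have : x 1 ^ 2 ≤ (4 * al * ga - be ^ 2) * x 1 ^ 2 := by nlinarith [sq_nonneg (x 1)]
    nlinarith [sq_nonneg (2 * al * x 0 + be * x 1)]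
  have i2 : x 0 ^ 2 ≤ 4 * ga * |m| := by
    have : x 0 ^ 2 ≤ (4 * al * ga - be ^ 2) * x 0 ^ 2 := by nlinarith [sq_nonneg (x 0)]
    nlinarith [sq_nonneg (2 * ga * x 1 + be * x 0)]
  have j1 : |x 1| ≤ x 1 ^ 2 := by
    rw [← sq_abs]
    rcases (abs_nonneg (x 1)).eq_or_lt with h | h
    · rw [← h]; norm_num
    · nlinarith
  have j2 : |x 0| ≤ x 0 ^ 2 := by
    rw [← sq_abs]
    rcases (abs_nonneg (x 0)).eq_or_lt with h | h
    · rw [← h]; norm_num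
    · nlinarith
  have k1 : |x 1| ≤ 4 * (al + ga) * |m| := by nlinarith
  have k2 : |x 0| ≤ 4 * (al + ga) * |m| := by nlinarith
  rw [abs_le] at k1 k2
  rw [Set.mem_Icc]
  constructor
  · intro i
    fin_cases i
    · exact k2.1
    · exact k1.1
  · intro i
    fin_cases i
    · exact k2.2
    · exact k1.2

theorem finite_rep {Q₁ Q₂ : ℤ} (hQ₁ : 0 < Q₁) (hQ₂ : 0 < Q₂) (ha : 0 < al)
    (hD : 0 < 4 * al * ga - be ^ 2) (ha' : 0 < al') (hD' : 0 < 4 * al' * ga' - be' ^ 2) (m : ℤ) :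
    {p : (Fin 2 → ℤ) × (Fin 2 → ℤ) | Q₁ * bz al be ga p.1 + Q₂ * bz al' be' ga' p.2 = m}.Finite := by
  apply ((finite_bz ha hD m).prod (finite_bz ha' hD' m)).subset
  rintro ⟨x, y⟩ h
  simp only [Set.mem_setOf_eq] at h
  have h1 := bz_nonneg ha hD x
  have h2 := bz_nonneg ha' hD' y
  simp only [Set.mem_prod, Set.mem_setOf_eq]
  constructor <;> nlinarith

/-- **(e)** representation numbers modulo `4` -/
theorem rep_mod4 {Q₁ Q₂ : ℤ} (hQ₁ : 0 < Q₁) (hQ₂ : 0 < Q₂) (ha : 0 < al)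
    (hD : 0 < 4 * al * ga - be ^ 2) (ha' : 0 < al') (hD' : 0 < 4 * al' * ga' - be' ^ 2)
    {m : ℕ} (hm : m ≠ 0) :
    ∃ k : ℕ, rep Q₁ al be ga Q₂ al' be' ga' m =
      Nat.card {x : Fin 2 → ℤ // Q₁ * bz al be ga x = m} +
      Nat.card {y : Fin 2 → ℤ // Q₂ * bz al' be' ga' y = m} + 4 * k := by
  obtain ⟨k, hk⟩ := four_dvd_card Q₁ al be ga Q₂ al' be' ga' m
  refine ⟨k, ?_⟩
  rw [← hk]
  have hfin := finite_rep hQ₁ hQ₂ ha hD ha' hD' m
  set S : Set ((Fin 2 → ℤ) × (Fin 2 → ℤ)) :=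
    {p | Q₁ * bz al be ga p.1 + Q₂ * bz al' be' ga' p.2 = m} with hS
  have hA : Nat.card {x : Fin 2 → ℤ // Q₁ * bz al be ga x = m} = (S ∩ {p | p.2 = 0}).ncard := by
    rw [← Nat.card_coe_set_eq]
    apply Nat.card_eq_of_bijective (fun x => ⟨(x.1, 0), by
      refine ⟨?_, rfl⟩
      simp only [hS, Set.mem_setOf_eq, bz_zero]
      rw [mul_zero, add_zero]
      exact x.2⟩)
    constructor
    · rintro ⟨x, h⟩ ⟨x', h'⟩ hh
      have h1 := congrArg (fun p => p.1.1) hh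
      exact Subtype.ext h1
    · rintro ⟨⟨x, y⟩, h, h'⟩
      simp only [Set.mem_setOf_eq] at h'
      subst h'
      refine ⟨⟨x, ?_⟩, rfl⟩
      simp only [hS, Set.mem_setOf_eq, bz_zero] at h
      rw [mul_zero, add_zero] at h
      exact h
  have hB : Nat.card {y : Fin 2 → ℤ // Q₂ * bz al' be' ga' y = m} =
      ((S \ {p | p.2 = 0}) ∩ {p | p.1 = 0}).ncard := by
    rw [← Nat.card_coe_set_eq]
    apply Nat.card_eq_of_bijective (fun y => ⟨(0, y.1), by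
      refine ⟨⟨?_, ?_⟩, rfl⟩
      · simp only [hS, Set.mem_setOf_eq, bz_zero]
        rw [mul_zero, zero_add]
        exact y.2
      · simp only [Set.mem_setOf_eq]
        intro h0
        have := y.2
        rw [h0, bz_zero, mul_zero] at this
        exact hm (by exact_mod_cast this.symm)⟩)
    constructor
    · rintro ⟨x, h⟩ ⟨x', h'⟩ hh
      have h1 := congrArg (fun p => p.1.2) hh
      exact Subtype.ext h1
    · rintro ⟨⟨x, y⟩, ⟨h, h''⟩, h'⟩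
      simp only [Set.mem_setOf_eq] at h'
      subst h'
      refine ⟨⟨y, ?_⟩, rfl⟩
      simp only [hS, Set.mem_setOf_eq, bz_zero] at h
      rw [mul_zero, zero_add] at h
      exact h
  have hC : Nat.card {p : (Fin 2 → ℤ) × (Fin 2 → ℤ) //
      Q₁ * bz al be ga p.1 + Q₂ * bz al' be' ga' p.2 = m ∧ p.1 ≠ 0 ∧ p.2 ≠ 0} =
      ((S \ {p | p.2 = 0}) \ {p | p.1 = 0}).ncard := by
    rw [← Nat.card_coe_set_eq]
    apply Nat.card_congr
    apply Equiv.subtypeEquivRight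
    intro p
    simp only [hS, Set.mem_diff, Set.mem_setOf_eq]
    tauto
  have hR : rep Q₁ al be ga Q₂ al' be' ga' m = S.ncard := by
    rw [← Nat.card_coe_set_eq]
    rfl
  rw [hA, hB, hC, hR, add_assoc, Set.ncard_inter_add_ncard_diff_eq_ncard _ _ hfin.diff,
    Set.ncard_inter_add_ncard_diff_eq_ncard _ _ hfin]

theorem rep_zero {Q₁ Q₂ : ℤ} (hQ₁ : 0 < Q₁) (hQ₂ : 0 < Q₂) (ha : 0 < al)
    (hD : 0 < 4 * al * ga - be ^ 2) (ha' : 0 < al') (hD' : 0 < 4 * al' * ga' - be' ^ 2) :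
    rep Q₁ al be ga Q₂ al' be' ga' 0 = 1 := by
  unfold rep
  rw [Nat.card_eq_one_iff_unique]
  constructor
  · constructor
    have key : ∀ p : (Fin 2 → ℤ) × (Fin 2 → ℤ),
        Q₁ * bz al be ga p.1 + Q₂ * bz al' be' ga' p.2 = ((0 : ℕ) : ℤ) → p = (0, 0) := by
      rintro ⟨x, y⟩ h
      simp only [Nat.cast_zero] at h
      have h1 := mul_nonneg hQ₁.le (bz_nonneg ha hD x)
      have h2 := mul_nonneg hQ₂.le (bz_nonneg ha' hD' y)
      have hx : x = 0 := by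
        by_contra hx
        have := mul_pos hQ₁ (bz_pos ha hD hx)
        linarith
      have hy : y = 0 := by
        by_contra hy
        have := mul_pos hQ₂ (bz_pos ha' hD' hy)
        linarith
      rw [hx, hy]
    rintro ⟨p, hp⟩ ⟨p', hp'⟩
    exact Subtype.ext ((key p hp).trans (key p' hp').symm)
  · exact ⟨⟨(0, 0), by simp [bz]⟩⟩

end Fermat.Agent.TwoAdic
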