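import Fermat.Agent.TwoAdic.RankField

/-!
# The binary quadratic form attached to an ideal class
-/

set_option autoImplicit false

noncomputable section

namespace Fermat.Agent.TwoAdic.Rank

open NumberField Ideal Module
open scoped nonZeroDivisors

variable {K : Type*} [Field K] [NumberField K]

/-- integral binary quadratic forms -/
structure BForm where
  a : ℤ
  b : ℤ
  c : ℤ

/-- value of a form -/
def BForm.ev (q : BForm) (p : ℤ × ℤ) : ℤ := q.a * p.1 ^ 2 + q.b * p.1 * p.2 + q.c * p.2 ^ 2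

/-- number of ideals of norm `n` in the class `c` -/
def rc (c : ClassGroup (𝓞 K)) (n : ℕ) : ℕ :=
  open Classical in ((idN (K := K) n).filter (fun I => cl I = c)).card

variable {N : ℕ} {s : 𝓞 K}

namespace IsQ

variable (D : IsQ K N s)

include D

/-- The basis `1, s` of `𝓞 K`. -/
def bZ : Basis (Fin 2) ℤ (𝓞 K) := by
  refine Basis.mk (v := ![1, s]) ?_ ?_
  · rw [LinearIndependent.pair_iff]
    intro m n h
    have h1 : (m + n * s : 𝓞 K) = (0 : ℤ) + (0 : ℤ) * s := by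
      rw [zsmul_eq_mul, zsmul_eq_mul, mul_one] at h
      rw [h]; simp
    exact D.int_unique h1
  · rintro x -
    obtain ⟨m, n, rfl⟩ := D.exists_int x
    have h1 : (m + n * s : 𝓞 K) = m • (1 : 𝓞 K) + n • s := by
      rw [zsmul_eq_mul, zsmul_eq_mul, mul_one]
    rw [h1]
    exact Submodule.add_mem _ (Submodule.smul_mem _ _ (Submodule.subset_span ⟨0, rfl⟩))
      (Submodule.smul_mem _ _ (Submodule.subset_span ⟨1, rfl⟩))

theorem bZ0 : D.bZ 0 = 1 := by simp [bZ]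

theorem bZ1 : D.bZ 1 = s := by simp [bZ]

theorem repr_bZ (m n : ℤ) (i : Fin 2) : D.bZ.repr (m + n * s) i = ![m, n] i := by
  have h : (m + n * s : 𝓞 K) = m • D.bZ 0 + n • D.bZ 1 := by
    rw [D.bZ0, D.bZ1, zsmul_eq_mul, zsmul_eq_mul, mul_one]
  rw [h, map_add, map_smul, map_smul, Basis.repr_self, Basis.repr_self]
  fin_cases i <;> simp

theorem det_eq {I : Ideal (𝓞 K)} (b : Basis (Fin 2) ℤ I) {a₁ a₂ b₁ b₂ : ℤ}
    (h0 : (b 0 : 𝓞 K) = a₁ + a₂ * s) (h1 : (b 1 : 𝓞 K) = b₁ + b₂ * s) :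
    (a₁ * b₂ - b₁ * a₂).natAbs = absNorm I := by
  rw [← Ideal.natAbs_det_basis_change D.bZ I b, Basis.det_apply, Matrix.det_fin_two]
  simp only [Basis.toMatrix_apply, Function.comp_apply, h0, h1, D.repr_bZ]
  simp

theorem exists_form {I : Ideal (𝓞 K)} (hI : I ≠ ⊥) :
    ∃ (q : BForm) (v : ℤ × ℤ → 𝓞 K), q.b ^ 2 - 4 * q.a * q.c = -4 * N ∧ 0 < q.a ∧
      (∀ p, (absNorm (span {v p}) : ℤ) = absNorm I * q.ev p) ∧ (∀ p, v p ∈ I) ∧
      (∀ x ∈ I, ∃ p, v p = x) ∧ Function.Injective v ∧ (∀ p, v (-p) = - v p) ∧ v 0 = 0 := by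
  set b : Basis (Fin 2) ℤ I := Ideal.selfBasis D.bZ I hI with hb
  obtain ⟨a₁, a₂, h0⟩ := D.exists_int (b 0 : 𝓞 K)
  obtain ⟨b₁, b₂, h1⟩ := D.exists_int (b 1 : 𝓞 K)
  have hdet := D.det_eq b h0 h1
  have hν : absNorm I ≠ 0 := by
    rw [Ne, absNorm_eq_zero_iff]; exact hI
  set ν := absNorm I with hνdef
  let v : ℤ × ℤ → 𝓞 K := fun p => ((p.1 • b 0 + p.2 • b 1 : I) : 𝓞 K)
  have hv : ∀ p, v p = ((p.1 * a₁ + p.2 * b₁ : ℤ) : 𝓞 K) +
      ((p.1 * a₂ + p.2 * b₂ : ℤ) : 𝓞 K) * s := by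
    intro p
    change ((p.1 • b 0 + p.2 • b 1 : I) : 𝓞 K) = _
    rw [Submodule.coe_add, Submodule.coe_smul_of_tower, Submodule.coe_smul_of_tower, h0, h1,
      zsmul_eq_mul, zsmul_eq_mul]
    push_cast
    ring
  have hvI : ∀ p, v p ∈ I := fun p => (p.1 • b 0 + p.2 • b 1 : I).2
  have hnorm : ∀ p, (absNorm (span {v p}) : ℤ) =
      (p.1 * a₁ + p.2 * b₁) ^ 2 + N * (p.1 * a₂ + p.2 * b₂) ^ 2 := by
    intro p
    rw [hv, D.absNorm_span]
  have hdvd : ∀ p : ℤ × ℤ, (ν : ℤ) ∣ (p.1 * a₁ + p.2 * b₁) ^ 2 + N * (p.1 * a₂ + p.2 * b₂) ^ 2 := by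
    intro p
    rw [← hnorm]
    exact_mod_cast absNorm_dvd_absNorm_of_le ((Ideal.span_singleton_le_iff_mem _).mpr (hvI p))
  obtain ⟨qa, hqa⟩ := hdvd (1, 0)
  obtain ⟨qc, hqc⟩ := hdvd (0, 1)
  obtain ⟨qe, hqe⟩ := hdvd (1, 1)
  simp only [one_mul, zero_mul, add_zero, zero_add] at hqa hqc hqe
  have hνZ : (ν : ℤ) ≠ 0 := by exact_mod_cast hν
  have hνpos : (0 : ℤ) < ν := by
    have := Nat.pos_of_ne_zero hν
    exact_mod_cast this
  have hB : 2 * (a₁ * b₁ + N * a₂ * b₂) = ν * (qe - qa - qc) := by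
    linear_combination hqe - hqa - hqc
  have hdet2 : (a₁ * b₂ - b₁ * a₂) ^ 2 = (ν : ℤ) ^ 2 := by
    rw [← hdet, Int.natCast_natAbs, sq_abs]
  refine ⟨⟨qa, qe - qa - qc, qc⟩, v, ?_, ?_, ?_, hvI, ?_, ?_, ?_, ?_⟩
  · simp only
    have h2 : (ν : ℤ) ^ 2 * ((qe - qa - qc) ^ 2 - 4 * qa * qc) = (ν : ℤ) ^ 2 * (-4 * N) := by
      have e1 : (ν : ℤ) ^ 2 * ((qe - qa - qc) ^ 2 - 4 * qa * qc) =
        (ν * (qe - qa - qc)) ^ 2 - 4 * (ν * qa) * (ν * qc) := by ring
      rw [e1, ← hB, ← hqa, ← hqc, ← hdet2]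
      ring
    exact mul_left_cancel₀ (pow_ne_zero 2 hνZ) h2
  · have hb0 : (b 0 : 𝓞 K) ≠ 0 := by
      intro h
      exact b.ne_zero 0 (Subtype.ext h)
    have h2 : 0 < a₁ ^ 2 + (N : ℤ) * a₂ ^ 2 := by
      have hN : (0 : ℤ) < N := by exact_mod_cast D.N_pos
      rcases eq_or_ne a₂ 0 with h3 | h3
      · rcases eq_or_ne a₁ 0 with h4 | h4
        · exact absurd (by rw [h0, h3, h4]; simp) hb0
        · positivity
      · positivity
    rw [hqa] at h2
    exact (mul_pos_iff_of_pos_left hνpos).mp h2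
  · intro p
    rw [hnorm, BForm.ev]
    simp only
    have e1 : (ν : ℤ) * (qa * p.1 ^ 2 + (qe - qa - qc) * p.1 * p.2 + qc * p.2 ^ 2) =
      (ν * qa) * p.1 ^ 2 + (ν * (qe - qa - qc)) * p.1 * p.2 + (ν * qc) * p.2 ^ 2 := by ring
    rw [e1, ← hB, ← hqa, ← hqc]
    ring
  · intro x hx
    refine ⟨(b.repr ⟨x, hx⟩ 0, b.repr ⟨x, hx⟩ 1), ?_⟩
    have h2 := b.sum_repr ⟨x, hx⟩
    rw [Fin.sum_univ_two] at h2
    exact congrArg Subtype.val h2
  · intro p p' h
    have h2 : (p.1 • b 0 + p.2 • b 1 : I) = (p'.1 • b 0 + p'.2 • b 1 : I) := Subtype.ext h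
    have h3 := congrArg (fun x => b.repr x 0) h2
    have h4 := congrArg (fun x => b.repr x 1) h2
    simp at h3 h4
    exact Prod.ext h3 h4
  · intro p
    rw [hv, hv]
    simp only [Prod.fst_neg, Prod.snd_neg]
    push_cast
    ring
  · rw [hv]; simp

theorem exists_gen {I J : Ideal (𝓞 K)} (hI : I ≠ ⊥) (hJ : J ≠ ⊥) (hIJ : cl I * cl J = 1) :
    ∃ w ∈ I, w ≠ 0 ∧ ∀ x : 𝓞 K, span {x} = I * J ↔ x = w ∨ x = -w := by
  have hpr : (I * J).IsPrincipal := by
    rw [← cl_eq_one_iff (mul_ne_zero hI hJ), cl_mul hI hJ, hIJ]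
  obtain ⟨w, hw⟩ := hpr.principal
  rw [Ideal.submodule_span_eq] at hw
  have hwI : w ∈ I := by
    have : w ∈ I * J := by rw [hw]; exact Ideal.mem_span_singleton_self w
    exact Ideal.mul_le_left this
  refine ⟨w, hwI, ?_, fun x => ?_⟩
  · rintro rfl
    rw [Ideal.span_singleton_eq_bot.mpr rfl] at hw
    exact mul_ne_zero hI hJ hw
  · rw [hw]
    constructor
    · intro h
      rw [Ideal.span_singleton_eq_span_singleton] at h
      obtain ⟨u, hu⟩ := h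
      rcases D.unit_eq u.isUnit with h2 | h2
      · left
        rw [h2, mul_one] at hu
        exact hu
      · right
        rw [h2, mul_neg_one] at hu
        rw [← hu, neg_neg]
    · rintro (rfl | rfl)
      · rfl
      · rw [Ideal.span_singleton_neg]

/-- **The form of a class**: it represents `n ≥ 1` exactly `2 r_c(n)` times. -/
theorem exists_classForm (c : ClassGroup (𝓞 K)) :
    ∃ q : BForm, q.b ^ 2 - 4 * q.a * q.c = -4 * N ∧ 0 < q.a ∧
      (∀ n : ℕ, n ≠ 0 → Nat.card {p : ℤ × ℤ // q.ev p = n} = 2 * rc (K := K) c n) ∧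
      (∀ p : ℤ × ℤ, p ≠ 0 → ∃ J : Ideal (𝓞 K), cl J = c ∧ (absNorm J : ℤ) = q.ev p) := by
  classical
  obtain ⟨I, hI, hIc⟩ := cl_surj c⁻¹
  obtain ⟨q, v, hdisc, ha, hnorm, hvI, hsurj, hinj, hneg, hv0⟩ := D.exists_form hI
  have hν : absNorm I ≠ 0 := by
    rw [Ne, absNorm_eq_zero_iff]; exact hI
  have hνZ : (absNorm I : ℤ) ≠ 0 := by exact_mod_cast hν
  have key : ∀ p : ℤ × ℤ, p ≠ 0 → ∃ J : Ideal (𝓞 K), span {v p} = I * J ∧ cl J = c ∧
      (absNorm J : ℤ) = q.ev p := by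
    intro p hp
    have hvp : v p ≠ 0 := by
      intro h; rw [← hv0] at h; exact hp (hinj h)
    obtain ⟨J, hJ⟩ := Ideal.dvd_iff_le.mpr ((Ideal.span_singleton_le_iff_mem I).mpr (hvI p))
    have hspan : (span {v p} : Ideal (𝓞 K)) ≠ ⊥ := by
      rw [Ne, Ideal.span_singleton_eq_bot]; exact hvp
    have hJ0 : J ≠ ⊥ := by
      rintro rfl
      rw [Ideal.mul_bot] at hJ
      exact hspan hJ
    refine ⟨J, hJ, ?_, ?_⟩
    · have h1 := cl_mul hI hJ0
      rw [← hJ, cl_span, hIc] at h1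
      rw [eq_comm, inv_mul_eq_one] at h1
      exact h1.symm
    · have h1 := hnorm p
      rw [hJ, map_mul] at h1
      push_cast at h1
      exact mul_left_cancel₀ hνZ h1
  refine ⟨q, hdisc, ha, ?_, fun p hp => ?_⟩
  swap
  · obtain ⟨J, -, h1, h2⟩ := key p hp
    exact ⟨J, h1, h2⟩
  choose! g hg using key
  intro n hn
  have hp0 : ∀ p : ℤ × ℤ, q.ev p = n → p ≠ 0 := by
    rintro p hp rfl
    apply hn
    have : q.ev 0 = 0 := by simp [BForm.ev]
    rw [this] at hp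
    exact_mod_cast hp.symm
  let F := (idN (K := K) n).filter (fun I => cl I = c)
  have hF : ∀ J, J ∈ F ↔ absNorm J = n ∧ cl J = c := fun J => by
    rw [Finset.mem_filter, mem_idN]
  have hval : ∀ (p' : ℤ × ℤ) (J : Ideal (𝓞 K)), absNorm J = n → span {v p'} = I * J →
      q.ev p' = n := by
    intro p' J hJ h'
    have h1 := hnorm p'
    rw [h', map_mul, hJ] at h1
    push_cast at h1
    exact (mul_left_cancel₀ hνZ h1).symm
  let f : {p : ℤ × ℤ // q.ev p = n} → {J // J ∈ F} := fun p => ⟨g p.1, by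
    have h1 := hg p.1 (hp0 _ p.2)
    rw [hF]
    refine ⟨?_, h1.2.1⟩
    have h2 := h1.2.2
    rw [p.2] at h2
    exact_mod_cast h2⟩
  have hf : ∀ (p : {p : ℤ × ℤ // q.ev p = n}) (J : {J // J ∈ F}),
      f p = J ↔ span {v p.1} = I * J.1 := by
    intro p J
    have h1 := (hg p.1 (hp0 _ p.2)).1
    constructor
    · rintro rfl
      exact h1
    · intro h2
      apply Subtype.ext
      rw [h1] at h2
      exact mul_right_injective₀ (a := I) hI h2
  have hfib : ∀ J : {J // J ∈ F}, Nat.card {p // f p = J} = 2 := by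
    intro J
    obtain ⟨hJn, hJc⟩ := (hF _).mp J.2
    have hJ0 : J.1 ≠ ⊥ := ne_bot_of_norm (by rw [hJn]; exact hn)
    obtain ⟨w, hwI, hw0, hw⟩ := D.exists_gen hI hJ0 (by rw [hIc, hJc, inv_mul_cancel])
    obtain ⟨p, hp⟩ := hsurj w hwI
    have hp1 : span {v p} = I * J.1 := (hw _).mpr (Or.inl hp)
    have hp2 : span {v (-p)} = I * J.1 := (hw _).mpr (Or.inr (by rw [hneg, hp]))
    rw [Nat.card_eq_two_iff]
    refine ⟨⟨⟨p, hval p _ hJn hp1⟩, (hf _ _).mpr hp1⟩,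
      ⟨⟨-p, hval _ _ hJn hp2⟩, (hf _ _).mpr hp2⟩, ?_, ?_⟩
    · intro h
      have h1 : p = -p := congrArg (fun x => x.1.1) h
      apply hw0
      have h2 : v p = - v p := by rw [← hneg, ← h1]
      rw [← hp]
      exact self_eq_neg.mp h2
    · refine Set.eq_univ_iff_forall.mpr ?_
      rintro ⟨r, hr⟩
      have h1 := (hw _).mp ((hf _ _).mp hr)
      rcases h1 with h1 | h1
      · left
        apply Subtype.ext
        apply Subtype.ext
        exact hinj (h1.trans hp.symm)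
      · right
        apply Subtype.ext
        apply Subtype.ext
        exact hinj (h1.trans (by rw [hneg, hp]))
  have hfin : ∀ J : {J // J ∈ F}, Finite {p // f p = J} := fun J =>
    Nat.finite_of_card_ne_zero (by rw [hfib J]; exact two_ne_zero)
  rw [← Nat.card_congr (Equiv.sigmaFiberEquiv f), Nat.card_sigma, Finset.sum_congr rfl
    (fun J _ => hfib J), Finset.sum_const, smul_eq_mul, mul_comm, Finset.card_univ,
    Fintype.card_coe]
  rfl

end IsQ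

end Fermat.Agent.TwoAdic.Rank
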