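import Fermat.Agent.TwoAdic.RankPrimes
import Fermat.Agent.TwoAdic.RankForm

/-!
# The genus character at `2` of `ℚ(√-N)`
-/

set_option autoImplicit false

noncomputable section

namespace Fermat.Agent.TwoAdic.Rank

open NumberField Ideal Module
open scoped nonZeroDivisors NumberTheorySymbols

/-- membership in `{1, 1 + N}` modulo `8` -/
def W8 (N : ℕ) (m : ℤ) : Prop := (m : ZMod 8) = 1 ∨ (m : ZMod 8) = 1 + N

theorem W8_iff (N : ℕ) (m : ℤ) : W8 N m ↔ ((8 : ℤ) ∣ m - 1 ∨ (8 : ℤ) ∣ m - (1 + N)) := by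
  unfold W8
  constructor
  · rintro (h | h)
    · left
      rw [← Nat.cast_ofNat, ← ZMod.intCast_zmod_eq_zero_iff_dvd]
      push_cast
      rw [h]; ring
    · right
      rw [← Nat.cast_ofNat, ← ZMod.intCast_zmod_eq_zero_iff_dvd]
      push_cast
      rw [h]; ring
  · rintro (h | h)
    · left
      rw [← Nat.cast_ofNat, ← ZMod.intCast_zmod_eq_zero_iff_dvd] at h
      push_cast at h
      linear_combination h
    · right
      rw [← Nat.cast_ofNat, ← ZMod.intCast_zmod_eq_zero_iff_dvd] at h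
      push_cast at h
      linear_combination h

theorem W8_dec : ∀ n : ZMod 8, (n = 2 ∨ n = 6) → ∀ x : ZMod 8, x * x = 1 → ∀ y : ZMod 8,
    y * y = 1 → ((x * y = 1 ∨ x * y = 1 + n) ↔ ((x = 1 ∨ x = 1 + n) ↔ (y = 1 ∨ y = 1 + n))) := by
  decide

theorem W8_dec2 : ∀ n : ZMod 8, (n = 2 ∨ n = 6) → ∀ x : ZMod 8, ∀ y : ZMod 8,
    (x ^ 2 + n * y ^ 2) * (x ^ 2 + n * y ^ 2) = 1 →
    (x ^ 2 + n * y ^ 2 = 1 ∨ x ^ 2 + n * y ^ 2 = 1 + n) := by
  decide

theorem odd_sq_zmod8 {a : ℤ} (h : Odd a) : (a : ZMod 8) * a = 1 := by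
  have h1 : a % 8 = 1 ∨ a % 8 = 3 ∨ a % 8 = 5 ∨ a % 8 = 7 := by
    obtain ⟨k, hk⟩ := h
    omega
  have h2 : (a : ZMod 8) = ((a % 8 : ℤ) : ZMod 8) := (ZMod.intCast_mod a 8).symm
  rw [h2]
  rcases h1 with h | h | h | h <;> rw [h] <;> decide

theorem cast_mod8 {N : ℕ} (hN : N % 4 = 2) : (N : ZMod 8) = 2 ∨ (N : ZMod 8) = 6 := by
  have h2 : (N : ZMod 8) = ((N % 8 : ℕ) : ZMod 8) := (ZMod.natCast_mod N 8).symm
  rw [h2]
  have : N % 8 = 2 ∨ N % 8 = 6 := by omega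
  rcases this with h | h <;> rw [h] <;> simp

theorem W8_mul {N : ℕ} (hN : N % 4 = 2) {m m' : ℤ} (hm : Odd m) (hm' : Odd m') :
    W8 N (m * m') ↔ (W8 N m ↔ W8 N m') := by
  have := W8_dec _ (cast_mod8 hN) _ (odd_sq_zmod8 hm) _ (odd_sq_zmod8 hm')
  unfold W8
  push_cast
  exact this

theorem W8_norm {N : ℕ} (hN : N % 4 = 2) (u w : ℤ) (h : Odd (u ^ 2 + N * w ^ 2)) :
    W8 N (u ^ 2 + N * w ^ 2) := by
  have h1 := odd_sq_zmod8 h
  push_cast at h1
  have := W8_dec2 _ (cast_mod8 hN) _ _ h1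
  unfold W8
  push_cast
  exact this

section

variable {K : Type*} [Field K] [NumberField K] {N : ℕ} {s : 𝓞 K}

namespace IsQ

variable (D : IsQ K N s)

omit [Field K] [NumberField K] in
/-- composition -/
theorem ev_mul_ev {q : BForm} (hq : q.b ^ 2 - 4 * q.a * q.c = -4 * N) (p p' : ℤ × ℤ) :
    ∃ u w : ℤ, q.ev p * q.ev p' = u ^ 2 + N * w ^ 2 := by
  obtain ⟨b, hb⟩ : ∃ b, q.b = 2 * b := by
    have : (2 : ℤ) ∣ q.b ^ 2 := ⟨2 * q.a * q.c - 2 * N, by linarith⟩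
    exact Int.prime_two.dvd_of_dvd_pow this
  have hD' : q.a * q.c - b ^ 2 = N := by rw [hb] at hq; linarith
  refine ⟨q.a * p.1 * p'.1 + b * (p.1 * p'.2 + p.2 * p'.1) + q.c * p.2 * p'.2,
    p.1 * p'.2 - p.2 * p'.1, ?_⟩
  simp only [BForm.ev, hb]
  linear_combination (p.1 * p'.2 - p.2 * p'.1) ^ 2 * hD'

include D

/-- norms of ideals of the same class -/
theorem W8_same {I J : Ideal (𝓞 K)} (h : cl I = cl J) (hI : Odd (absNorm I : ℤ))
    (hJ : Odd (absNorm J : ℤ)) : W8 N ((absNorm I : ℤ) * absNorm J) := by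
  classical
  obtain ⟨q, hdisc, ha, hcount, -⟩ := D.exists_classForm (cl J)
  have rep : ∀ I : Ideal (𝓞 K), cl I = cl J → Odd (absNorm I : ℤ) → ∃ p, q.ev p = absNorm I := by
    intro I h hI
    have h0 : absNorm I ≠ 0 := by
      intro h0
      rw [h0] at hI
      simp at hI
    have h1 := hcount (absNorm I) h0
    have h2 : 0 < rc (K := K) (cl J) (absNorm I) := by
      unfold rc
      rw [Finset.card_pos]
      exact ⟨I, by simp [h]⟩
    have h3 : 0 < Nat.card {p : ℤ × ℤ // q.ev p = (absNorm I : ℤ)} := by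
      rw [h1]; omega
    obtain ⟨⟨p, hp⟩⟩ := (Nat.card_pos_iff.mp h3).1
    exact ⟨p, hp⟩
  obtain ⟨p, hp⟩ := rep I h hI
  obtain ⟨p', hp'⟩ := rep J rfl hJ
  obtain ⟨u, w, huw⟩ := ev_mul_ev hdisc p p'
  rw [hp, hp'] at huw
  rw [huw]
  apply W8_norm D.mod4
  rw [← huw]
  exact hI.mul hJ

/-- every class contains an ideal of odd norm -/
theorem exists_odd_ideal (c : ClassGroup (𝓞 K)) :
    ∃ J : Ideal (𝓞 K), cl J = c ∧ Odd (absNorm J : ℤ) := by
  obtain ⟨q, hdisc, ha, -, hval⟩ := D.exists_classForm c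
  have key : ∃ p : ℤ × ℤ, p ≠ 0 ∧ Odd (q.ev p) := by
    by_contra hcon
    push Not at hcon
    have h1 := hcon (1, 0) (by simp)
    have h2 := hcon (0, 1) (by simp)
    rw [Int.not_odd_iff_even] at h1 h2
    simp only [BForm.ev, one_pow, mul_one, mul_zero, add_zero, ne_eq, OfNat.ofNat_ne_zero,
      not_false_eq_true, zero_pow, zero_add] at h1 h2
    obtain ⟨a, ha⟩ := h1
    obtain ⟨c, hc⟩ := h2
    obtain ⟨b, hb⟩ : ∃ b, q.b = 2 * b := by
      have : (2 : ℤ) ∣ q.b ^ 2 := ⟨2 * q.a * q.c - 2 * N, by linarith⟩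
      exact Int.prime_two.dvd_of_dvd_pow this
    have hN := D.mod4
    have h3 : b ^ 2 + N = 4 * (a * c) := by
      rw [hb, ha, hc] at hdisc
      linarith
    rcases Int.even_or_odd b with ⟨k, hk⟩ | ⟨k, hk⟩
    · have : b ^ 2 = 4 * (k ^ 2) := by rw [hk]; ring
      omega
    · have : b ^ 2 = 4 * (k ^ 2 + k) + 1 := by rw [hk]; ring
      omega
  obtain ⟨p, hp, hodd⟩ := key
  obtain ⟨J, hJ, hn⟩ := hval p hp
  exact ⟨J, hJ, by rw [hn]; exact hodd⟩

omit D in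
/-- the genus character -/
def gch (N : ℕ) (c : ClassGroup (𝓞 K)) : Prop :=
  ∃ J : Ideal (𝓞 K), cl J = c ∧ Odd (absNorm J : ℤ) ∧ W8 N (absNorm J)

theorem gch_iff {I : Ideal (𝓞 K)} (hI : Odd (absNorm I : ℤ)) :
    gch N (cl I) ↔ W8 N (absNorm I) := by
  constructor
  · rintro ⟨J, hJ, hodd, hW⟩
    have h := D.W8_same hJ hodd hI
    rw [W8_mul D.mod4 hodd hI] at h
    exact h.mp hW
  · intro h
    exact ⟨I, rfl, hI, h⟩

theorem gch_mul (c c' : ClassGroup (𝓞 K)) : gch N (c * c') ↔ (gch N c ↔ gch N c') := by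
  obtain ⟨I, rfl, hI⟩ := D.exists_odd_ideal c
  obtain ⟨J, rfl, hJ⟩ := D.exists_odd_ideal c'
  have hI0 : I ≠ ⊥ := by
    rintro rfl
    simp at hI
  have hJ0 : J ≠ ⊥ := by
    rintro rfl
    simp at hJ
  have hodd : Odd (absNorm (I * J) : ℤ) := by
    rw [map_mul]; push_cast
    exact hI.mul hJ
  rw [← cl_mul hI0 hJ0, D.gch_iff hI, D.gch_iff hJ, D.gch_iff hodd, map_mul]
  push_cast
  exact W8_mul D.mod4 hI hJ

theorem gch_of_odd {c : ClassGroup (𝓞 K)} (h : Odd (orderOf c)) : gch N c := by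
  obtain ⟨k, hk⟩ := h
  have h1 : c = c ^ (k + 1) * c ^ (k + 1) := by
    rw [← pow_add]
    have : k + 1 + (k + 1) = orderOf c + 1 := by omega
    rw [this, pow_add, pow_orderOf_eq_one, one_mul, pow_one]
  rw [h1, D.gch_mul]

omit D in
/-- a residue class with Jacobi symbol `-1` -/
theorem exists_prime_jacobi {N₁ : ℕ} (hodd : Odd N₁) (h1 : 1 < N₁) (hsq : Squarefree N₁) (B : ℕ) :
    ∃ l : ℕ, l.Prime ∧ B < l ∧ l % 8 = 5 ∧ J(l | N₁) = -1 := by
  obtain ⟨p, hp, M, rfl⟩ := Nat.exists_prime_and_dvd h1.ne'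
  have hp' := Fact.mk hp
  have hp2 : p ≠ 2 := by
    rintro rfl
    rw [Nat.odd_mul] at hodd
    exact absurd hodd.1 (by decide)
  have hcop : Nat.Coprime p M := by
    rw [hp.coprime_iff_not_dvd]
    intro hpM
    have := hsq p (mul_dvd_mul_left p hpM)
    exact hp.one_lt.ne' (Nat.isUnit_iff.mp this)
  have hM0 : M ≠ 0 := by
    rintro rfl
    simp at h1
  have hModd : Odd M := (Nat.odd_mul.mp hodd).2
  have hpodd : Odd p := (Nat.odd_mul.mp hodd).1
  -- a non-residue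
  obtain ⟨x, hx⟩ : ∃ x : ZMod p, ¬ IsSquare x := by
    apply FiniteField.exists_nonsquare
    rw [ZMod.ringChar_zmod_n]
    exact hp2
  have hx0 : x ≠ 0 := by
    rintro rfl
    exact hx (IsSquare.zero)
  have h8 : Nat.Coprime 8 (p * M) := by
    have : Nat.Coprime 2 (p * M) := by
      rw [Nat.coprime_two_left]; exact hodd
    exact this.pow_left 3
  obtain ⟨k₁, hk₁, hk₁'⟩ := Nat.chineseRemainder hcop x.val 1
  obtain ⟨k, hk, hk'⟩ := Nat.chineseRemainder h8 5 k₁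
  have hkp : k ≡ x.val [MOD p] := (hk'.of_mul_right M).trans hk₁
  have hkM : k ≡ 1 [MOD M] := (hk'.of_mul_left p).trans hk₁'
  have hkcop : Nat.Coprime k (8 * (p * M)) := by
    apply Nat.Coprime.mul_right
    · rw [Nat.Coprime, hk.gcd_eq]
      rfl
    · apply Nat.Coprime.mul_right
      · rw [Nat.Coprime, hkp.gcd_eq]
        rw [← Nat.Coprime, Nat.coprime_comm, hp.coprime_iff_not_dvd]
        intro hdvd
        apply hx0
        have := Nat.eq_zero_of_dvd_of_lt hdvd (ZMod.val_lt x)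
        exact (ZMod.val_eq_zero x).mp this
      · rw [Nat.Coprime, hkM.gcd_eq]
        simp
  have : NeZero (8 * (p * M)) := ⟨by
    have := hp.pos
    positivity⟩
  obtain ⟨l, hlB, hl, hlk⟩ := Nat.forall_exists_prime_gt_and_eq_mod
    ((ZMod.isUnit_iff_coprime k (8 * (p * M))).mpr hkcop) B
  have hlk' : l ≡ k [MOD 8 * (p * M)] := (ZMod.natCast_eq_natCast_iff _ _ _).mp hlk
  refine ⟨l, hl, hlB, ?_, ?_⟩
  · exact (hlk'.of_mul_right (p * M)).trans hk
  · have h2 : l ≡ x.val [MOD p] := ((hlk'.of_mul_left 8).of_mul_right M).trans hkp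
    have h3 : l ≡ 1 [MOD M] := ((hlk'.of_mul_left 8).of_mul_left p).trans hkM
    rw [jacobiSym.mul_right' _ hp.ne_zero hM0]
    have h4 : J((l : ℤ) | M) = 1 := by
      rw [jacobiSym.mod_left]
      have : ((l : ℤ) % M) = (1 : ℤ) % M := by exact_mod_cast h3
      rw [this, ← jacobiSym.mod_left, jacobiSym.one_left]
    have h5 : J((l : ℤ) | p) = -1 := by
      rw [← jacobiSym.legendreSym.to_jacobiSym, legendreSym.eq_neg_one_iff]
      have : ((l : ℤ) : ZMod p) = x := by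
        have h6 := (ZMod.natCast_eq_natCast_iff _ _ _).mpr h2
        rw [ZMod.natCast_zmod_val] at h6
        exact_mod_cast h6
      rw [this]
      exact hx
    rw [h4, h5]; rfl

/-- there is a class outside the kernel of the genus character -/
theorem exists_not_gch (h2 : 2 < N) : ∃ c : ClassGroup (𝓞 K), ¬ gch N c := by
  obtain ⟨N₁, hN₁⟩ : ∃ N₁, N = 2 * N₁ := ⟨N / 2, by have := D.mod4; omega⟩
  have h1 : 1 < N₁ := by omega
  have hodd : Odd N₁ := by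
    have := D.mod4
    rw [Nat.odd_iff]; omega
  have hsq : Squarefree N₁ := D.sqf.squarefree_of_dvd ⟨2, by rw [hN₁, mul_comm]⟩
  obtain ⟨l, hl, hlN, hl5, hJ⟩ := exists_prime_jacobi hodd h1 hsq N
  have hl' := Fact.mk hl
  have hlne : l ≠ 2 := by rintro rfl; omega
  have hsqN : IsSquare ((-(N : ℤ) : ℤ) : ZMod l) := by
    have h0 : ((-(N : ℤ) : ℤ) : ZMod l) ≠ 0 := by
      push_cast
      rw [neg_ne_zero]
      intro h0
      have := (ZMod.natCast_eq_zero_iff N l).mp h0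
      have h3 := Nat.le_of_dvd D.N_pos this
      omega
    rw [← legendreSym.eq_one_iff l h0]
    have e : (-(N : ℤ)) = (-2) * (N₁ : ℤ) := by rw [hN₁]; push_cast; ring
    rw [e, legendreSym.mul]
    have e2 : legendreSym l (-2) = -1 := by
      rw [legendreSym.eq_neg_one_iff]
      push_cast
      rw [ZMod.exists_sq_eq_neg_two_iff hlne]
      omega
    have e3 : legendreSym l (N₁ : ℤ) = -1 := by
      rw [jacobiSym.legendreSym.to_jacobiSym, ← jacobiSym.quadratic_reciprocity_one_mod_four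
        (by omega) hodd]
      exact hJ
    rw [e2, e3]; norm_num
  obtain ⟨P, hP⟩ := D.exists_of_isSquare hl hsqN
  refine ⟨cl P, ?_⟩
  have hoddP : Odd (absNorm P : ℤ) := by
    rw [hP]
    have : l % 2 = 1 := by omega
    exact_mod_cast Nat.odd_iff.mpr this
  rw [D.gch_iff hoddP, hP, W8]
  have h3 : ((l : ℤ) : ZMod 8) = 5 := by
    have h4 : ((l : ℕ) : ZMod 8) = ((l % 8 : ℕ) : ZMod 8) := (ZMod.natCast_mod l 8).symm
    rw [hl5] at h4
    exact_mod_cast h4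
  rw [h3]
  rcases cast_mod8 D.mod4 with h | h <;> rw [h] <;> decide

/-- **(f)** choice of the auxiliary class. -/
theorem exists_genus (h2 : 2 < N) {Q₀ : ℤ} (hQ₀ : Odd Q₀) (g : ClassGroup (𝓞 K)) :
    ∃ b : ClassGroup (𝓞 K), ∀ c : ClassGroup (𝓞 K), Odd (orderOf (c * g⁻¹)) →
      ∀ I J : Ideal (𝓞 K), cl I = c → cl J = b → Odd (absNorm I : ℤ) → Odd (absNorm J : ℤ) →
      ¬ (8 : ℤ) ∣ -(Q₀ * absNorm I * absNorm J) - 1 ∧
      ¬ (8 : ℤ) ∣ -(Q₀ * absNorm I * absNorm J) - (1 + N) := by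
  obtain ⟨b₀, hb₀⟩ := D.exists_not_gch h2
  -- the class `b` with `gch (g * b) ↔ ¬ W8 (-Q₀)`
  obtain ⟨b, hb⟩ : ∃ b, gch N (g * b) ↔ ¬ W8 N (-Q₀) := by
    by_cases hW : W8 N (-Q₀)
    · refine ⟨g⁻¹ * b₀, ?_⟩
      rw [mul_inv_cancel_left]
      tauto
    · refine ⟨g⁻¹, ?_⟩
      rw [mul_inv_cancel]
      have : gch N (1 : ClassGroup (𝓞 K)) := D.gch_of_odd (by rw [orderOf_one]; exact odd_one)
      tauto
  refine ⟨b, ?_⟩
  rintro c hc I J rfl rfl hI hJ
  rw [← not_or, ← W8_iff]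
  have e : -(Q₀ * absNorm I * absNorm J) = (-Q₀) * ((absNorm I : ℤ) * absNorm J) := by ring
  rw [e, W8_mul D.mod4 hQ₀.neg (hI.mul hJ), W8_mul D.mod4 hI hJ, ← D.gch_iff hI, ← D.gch_iff hJ]
  have h3 := D.gch_of_odd hc
  have h4 : gch N (cl I) ↔ gch N g := by
    have h5 : cl I = (cl I * g⁻¹) * g := by rw [inv_mul_cancel_right]
    have h6 := D.gch_mul (cl I * g⁻¹) g
    rw [← h5] at h6
    tauto
  have h7 := D.gch_mul g (cl J)
  tauto

end IsQ

end

end Fermat.Agent.TwoAdic.Rank
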