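import Mathlib

/-!
# Genus theory of imaginary quadratic fields, part A: the 2-torsion of the class group

`QuadData R N`: `R` is the ring of integers of `ℚ(√-N)` with its conjugation.
`card_two_torsion_le`: the 2-torsion of the class group has at most `2 ^ (t - 1)` elements, where
`t` is the number of primes dividing `N` (`N` squarefree, even).
-/

set_option autoImplicit false
set_option linter.unusedSectionVars false

open Ideal nonZeroDivisors

namespace Fermat.Agent.TwoAdic.Genus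

/-- conjugation and the square root of `-N` on a quadratic order -/
structure QuadData (R : Type*) [CommRing R] (N : ℕ) where
  /-- conjugation -/
  c : R ≃+* R
  cc : ∀ x, c (c x) = x
  norm : ∀ x, x * c x = (((Algebra.norm ℤ x).natAbs : ℕ) : R)
  /-- the square root of `-N` -/
  δ : R
  cδ : c δ = -δ
  δδ : δ * δ = -(N : R)
  rank : Module.finrank ℤ R = 2

variable {R : Type*} [CommRing R] [IsDedekindDomain R] [CharZero R] [Module.Free ℤ R]
  [Module.Finite ℤ R] {N : ℕ} (D : QuadData R N)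

/-- equality of ideals from divisibility and norms -/
theorem eq_of_le_of_absNorm {I J : Ideal R} (hJ : J ≠ ⊥) (h : J ≤ I)
    (hn : absNorm J ∣ absNorm I) : I = J := by
  obtain ⟨Q, rfl⟩ := Ideal.dvd_iff_le.2 h
  have hI : I ≠ ⊥ := fun h => hJ (by rw [h, bot_mul])
  rw [map_mul] at hn
  have h0 : absNorm I ≠ 0 := fun h => hI (absNorm_eq_zero_iff.1 h)
  have h1 : absNorm Q ∣ 1 := by
    have : absNorm I * absNorm Q ∣ absNorm I * 1 := by rwa [mul_one]
    exact Nat.dvd_of_mul_dvd_mul_left (Nat.pos_of_ne_zero h0) this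
  have h2 := absNorm_eq_one_iff.1 (Nat.dvd_one.1 h1)
  rw [h2, mul_top]

namespace QuadData

include D

/-- the conjugate ideal -/
def cj (I : Ideal R) : Ideal R := I.comap (D.c : R →+* R)

theorem mem_cj {I : Ideal R} {x : R} : x ∈ D.cj I ↔ D.c x ∈ I := Iff.rfl

theorem cj_cj (I : Ideal R) : D.cj (D.cj I) = I := by
  ext x
  rw [mem_cj, mem_cj, D.cc]

theorem cj_eq_map (I : Ideal R) : D.cj I = I.map (D.c : R →+* R) := by
  apply le_antisymm
  · intro x hx
    have := Ideal.mem_map_of_mem (D.c : R →+* R) (D.mem_cj.1 hx)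
    rwa [RingEquiv.coe_toRingHom, D.cc] at this
  · rw [Ideal.map_le_iff_le_comap]
    intro x hx
    rw [Ideal.mem_comap, mem_cj, RingEquiv.coe_toRingHom, D.cc]
    exact hx

theorem cj_mul (I J : Ideal R) : D.cj (I * J) = D.cj I * D.cj J := by
  rw [cj_eq_map, cj_eq_map, cj_eq_map, Ideal.map_mul]

theorem cj_span (x : R) : D.cj (span {x}) = span {D.c x} := by
  rw [cj_eq_map, Ideal.map_span, Set.image_singleton]
  rfl

theorem cj_top : D.cj ⊤ = ⊤ := rfl

theorem cj_injective {I J : Ideal R} (h : D.cj I = D.cj J) : I = J := by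
  rw [← D.cj_cj I, h, D.cj_cj]

theorem cj_ne_bot {I : Ideal R} (h : I ≠ ⊥) : D.cj I ≠ ⊥ := by
  intro h1
  apply h
  apply D.cj_injective
  rw [h1]
  ext x
  rw [mem_cj, Ideal.mem_bot, Ideal.mem_bot, EmbeddingLike.map_eq_zero_iff]

theorem cj_isMaximal {P : Ideal R} [hP : P.IsMaximal] : (D.cj P).IsMaximal := by
  rw [cj]
  exact Ideal.comap_isMaximal_of_surjective _ (D.c.surjective)

theorem absNorm_cj (I : Ideal R) : absNorm (D.cj I) = absNorm I := by
  rw [absNorm_eq_index, absNorm_eq_index]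
  have h := AddSubgroup.index_comap_of_surjective I.toAddSubgroup
    (f := (D.c : R ≃+* R).toAddEquiv.toAddMonoidHom) D.c.surjective
  exact h

/-- elements modulo a prime of degree one are integers -/
theorem exists_int_sub_mem {P : Ideal R} {l : ℕ} (hl : l.Prime) (hP : absNorm P = l) (x : R) :
    ∃ n : ℤ, x - n ∈ P := by
  have h1 : Nat.card (R ⧸ P) = l := by rw [← hP]; rfl
  have : Finite (R ⧸ P) := Nat.finite_of_card_ne_zero (by rw [h1]; exact hl.ne_zero)
  have hPtop : P ≠ ⊤ := fun h => by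
    rw [h, absNorm_top] at hP
    exact hl.one_lt.ne hP
  have : Nontrivial (R ⧸ P) := Ideal.Quotient.nontrivial_iff.2 hPtop
  have hf : Fact l.Prime := ⟨hl⟩
  -- the image of `ℤ` is a subgroup of prime order
  let f : ℤ →+ R ⧸ P := (Int.castAddHom (R ⧸ P))
  have h2 : f.range ≠ ⊥ := by
    intro h
    have : f 1 ∈ f.range := ⟨1, rfl⟩
    rw [h, AddSubgroup.mem_bot] at this
    simp [f] at this
  have h3 : f.range = ⊤ := by
    have hdvd := AddSubgroup.card_addSubgroup_dvd_card f.range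
    rw [h1] at hdvd
    rcases (Nat.dvd_prime hl).1 hdvd with h | h
    · exact absurd (AddSubgroup.card_eq_one.1 h) h2
    · exact AddSubgroup.eq_top_of_card_eq _ (by rw [h, h1])
  have h4 : (Ideal.Quotient.mk P x : R ⧸ P) ∈ f.range := by rw [h3]; trivial
  obtain ⟨n, hn⟩ := h4
  refine ⟨n, ?_⟩
  rw [← Ideal.Quotient.eq_zero_iff_mem, map_sub, map_intCast]
  have : f n = ((n : ℤ) : R ⧸ P) := rfl
  rw [← hn, this, sub_self]

/-! ### primes -/

theorem absNorm_span_nat (n : ℕ) : absNorm (span {(n : R)}) = n ^ 2 := by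
  rw [absNorm_span_natCast, D.rank]

theorem natAbs_norm_δ : (Algebra.norm ℤ D.δ).natAbs = N := by
  have h := D.norm D.δ
  rw [D.cδ, mul_neg, D.δδ, neg_neg] at h
  exact_mod_cast h.symm

theorem c_natCast (n : ℕ) : D.c (n : R) = n := map_natCast D.c n

theorem c_intCast (n : ℤ) : D.c (n : R) = n := map_intCast D.c n

/-- ideals containing coprime integers are trivial -/
theorem not_mem_of_coprime {P : Ideal R} (hP : P ≠ ⊤) {a b : ℕ} (h : Nat.Coprime a b)
    (ha : (a : R) ∈ P) : (b : R) ∉ P := by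
  intro hb
  apply hP
  rw [Ideal.eq_top_iff_one]
  have h1 := Nat.gcd_eq_gcd_ab a b
  rw [h] at h1
  have h2 : (1 : R) = (a : R) * ((a.gcdA b : ℤ) : R) + (b : R) * ((a.gcdB b : ℤ) : R) := by
    exact_mod_cast congrArg (Int.cast : ℤ → R) h1
  rw [h2]
  exact P.add_mem (P.mul_mem_right _ ha) (P.mul_mem_right _ hb)

/-- a rational prime below a maximal ideal -/
theorem exists_prime (P : Ideal R) [hP : P.IsMaximal] :
    ∃ l : ℕ, l.Prime ∧ (l : R) ∈ P ∧ (absNorm P = l ∨ P = span {(l : R)}) := by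
  obtain ⟨l, n, hn, hlP, hl, hnorm⟩ := exists_prime_and_absNorm_eq_pow P
  refine ⟨l, hl, hlP, ?_⟩
  have hle : span {(l : R)} ≤ P := (span_singleton_le_iff_mem _).2 hlP
  have h1 := absNorm_dvd_absNorm_of_le hle
  rw [D.absNorm_span_nat, hnorm] at h1
  have h2 : n ≤ 2 := (Nat.pow_dvd_pow_iff_le_right hl.one_lt).1 h1
  rcases (by omega : n = 1 ∨ n = 2) with rfl | rfl
  · left; rw [hnorm, pow_one]
  · right
    refine eq_of_le_of_absNorm (fun h => ?_) hle (by rw [D.absNorm_span_nat, hnorm])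
    rw [Ideal.span_singleton_eq_bot, Nat.cast_eq_zero] at h
    exact hl.ne_zero h

variable (hN : Squarefree N)

theorem δ_mem {P : Ideal R} [hP : P.IsMaximal] {l : ℕ} (hlN : l ∣ N) (h : (l : R) ∈ P) :
    D.δ ∈ P := by
  have h1 : D.δ * D.δ ∈ P := by
    rw [D.δδ]
    obtain ⟨k, rfl⟩ := hlN
    rw [Nat.cast_mul]
    exact P.neg_mem (P.mul_mem_right _ h)
  rcases hP.isPrime.mem_or_mem h1 with h | h <;> exact h

include hN in
theorem absNorm_eq_of_dvd {P : Ideal R} [hP : P.IsMaximal] {l : ℕ} (hl : l.Prime) (hlN : l ∣ N)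
    (h : (l : R) ∈ P) : absNorm P = l := by
  obtain ⟨l', hl', hl'P, h1⟩ := D.exists_prime P
  have hll' : l' = l := by
    by_contra hne
    exact D.not_mem_of_coprime hP.ne_top ((Nat.coprime_primes hl hl').2 (Ne.symm hne)) h hl'P
  subst hll'
  rcases h1 with h1 | h1
  · exact h1
  · exfalso
    have h2 : absNorm P ∣ absNorm (span {D.δ}) :=
      absNorm_dvd_absNorm_of_le ((span_singleton_le_iff_mem _).2 (D.δ_mem hlN h))
    rw [absNorm_span_singleton, D.natAbs_norm_δ, h1, D.absNorm_span_nat, sq] at h2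
    exact hl.one_lt.ne' (Nat.isUnit_iff.1 (hN l' h2))

include hN in
/-- uniqueness of the ramified primes -/
theorem unique_of_dvd {P P' : Ideal R} [hP : P.IsMaximal] [hP' : P'.IsMaximal] {l : ℕ}
    (hl : l.Prime) (hlN : l ∣ N) (h : (l : R) ∈ P) (h' : (l : R) ∈ P') : P = P' := by
  by_contra hne
  have hco : IsCoprime P P' := Ideal.isCoprime_of_isMaximal hne
  have h1 : P * P' ∣ span {D.δ} := hco.mul_dvd
    (Ideal.dvd_iff_le.2 ((span_singleton_le_iff_mem _).2 (D.δ_mem hlN h)))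
    (Ideal.dvd_iff_le.2 ((span_singleton_le_iff_mem _).2 (D.δ_mem hlN h')))
  have h2 := map_dvd (absNorm (S := R)) h1
  rw [map_mul, D.absNorm_eq_of_dvd hN hl hlN h, D.absNorm_eq_of_dvd hN hl hlN h',
    absNorm_span_singleton, D.natAbs_norm_δ] at h2
  exact hl.one_lt.ne' (Nat.isUnit_iff.1 (hN l h2))

theorem natCast_mem_cj {P : Ideal R} {n : ℕ} : (n : R) ∈ D.cj P ↔ (n : R) ∈ P := by
  rw [mem_cj, c_natCast]

include hN in
theorem cj_eq_of_dvd {P : Ideal R} [hP : P.IsMaximal] {l : ℕ} (hl : l.Prime) (hlN : l ∣ N)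
    (h : (l : R) ∈ P) : D.cj P = P := by
  have := D.cj_isMaximal (P := P)
  exact D.unique_of_dvd hN hl hlN (D.natCast_mem_cj.2 h) h

include hN in
theorem mul_self_of_dvd {P : Ideal R} [hP : P.IsMaximal] {l : ℕ} (hl : l.Prime) (hlN : l ∣ N)
    (h : (l : R) ∈ P) : P * P = span {(l : R)} := by
  obtain ⟨Q, hQ⟩ := Ideal.dvd_iff_le.2 ((span_singleton_le_iff_mem _).2 h)
  have h1 := congrArg (absNorm (S := R)) hQ
  rw [D.absNorm_span_nat, map_mul, D.absNorm_eq_of_dvd hN hl hlN h, sq] at h1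
  have h2 : absNorm Q = l := Nat.eq_of_mul_eq_mul_left hl.pos h1.symm
  have h3 : Q.IsPrime := isPrime_of_irreducible_absNorm (by rw [h2]; exact hl)
  have h4 : Q ≠ ⊥ := fun h => hl.ne_zero (by rw [← h2, h, absNorm_bot])
  have h5 : Q.IsMaximal := h3.isMaximal h4
  have h6 : (l : R) ∈ Q := by
    have h7 : (l : R) ∈ span {(l : R)} := mem_span_singleton_self (l : R)
    have h8 : span {(l : R)} ≤ Q := by
      rw [hQ]
      exact Ideal.mul_le_right
    exact h8 h7
  have h9 : P = Q := D.unique_of_dvd hN hl hlN h h6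
  rw [hQ, ← h9]

/-- conjugation stable primes which do not divide `N` are generated by a rational prime -/
theorem eq_span_of_stable (h2N : 2 ∣ N) {P : Ideal R} [hP : P.IsMaximal] (hst : D.cj P = P)
    {l : ℕ} (hl : l.Prime) (hlN : ¬ l ∣ N) (h : (l : R) ∈ P) : P = span {(l : R)} := by
  obtain ⟨l', hl', hl'P, h1⟩ := D.exists_prime P
  have hll' : l' = l := by
    by_contra hne
    exact D.not_mem_of_coprime hP.ne_top ((Nat.coprime_primes hl hl').2 (Ne.symm hne)) h hl'P
  subst hll'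
  rcases h1 with h1 | h1
  · exfalso
    obtain ⟨n, hn⟩ := D.exists_int_sub_mem hl h1 D.δ
    have h3 : D.c (D.δ - n) ∈ P := by rw [← mem_cj, hst]; exact hn
    rw [map_sub, D.cδ, D.c_intCast] at h3
    have h4 : 2 * D.δ ∈ P := by
      have := P.sub_mem hn h3
      have e : D.δ - n - (-D.δ - n) = 2 * D.δ := by ring
      rwa [e] at this
    have h5 : (N : R) ∈ P := by
      rcases hP.isPrime.mem_or_mem h4 with h6 | h6
      · obtain ⟨k, rfl⟩ := h2N
        rw [Nat.cast_mul]
        exact P.mul_mem_right _ (by exact_mod_cast h6)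
      · have := P.mul_mem_left D.δ h6
        rw [D.δδ] at this
        exact neg_mem_iff.1 this
    exact D.not_mem_of_coprime hP.ne_top ((Nat.Prime.coprime_iff_not_dvd hl).2 hlN) h h5
  · exact h1

theorem mul_cj_of_ne {P : Ideal R} [hP : P.IsMaximal] (hne : D.cj P ≠ P) :
    ∃ l : ℕ, l.Prime ∧ P * D.cj P = span {(l : R)} := by
  obtain ⟨l, n, hn, hlP, hl, hnorm⟩ := exists_prime_and_absNorm_eq_pow P
  have := D.cj_isMaximal (P := P)
  have hco : IsCoprime P (D.cj P) := Ideal.isCoprime_of_isMaximal (Ne.symm hne)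
  refine ⟨l, hl, eq_of_le_of_absNorm (fun h => ?_) ?_ ?_⟩
  · rw [Ideal.span_singleton_eq_bot, Nat.cast_eq_zero] at h
    exact hl.ne_zero h
  · rw [← Ideal.dvd_iff_le]
    exact hco.mul_dvd (Ideal.dvd_iff_le.2 ((span_singleton_le_iff_mem _).2 hlP))
      (Ideal.dvd_iff_le.2 ((span_singleton_le_iff_mem _).2 (D.natCast_mem_cj.2 hlP)))
  · rw [D.absNorm_span_nat, map_mul, D.absNorm_cj, hnorm, ← pow_add]
    exact pow_dvd_pow l (by omega)

include hN in
/-- `I * conj I` is generated by a rational integer -/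
theorem exists_mul_cj (h2N : 2 ∣ N) (I : Ideal R) (hI : I ≠ ⊥) :
    ∃ m : ℕ, m ≠ 0 ∧ I * D.cj I = span {(m : R)} := by
  revert hI
  induction I using UniqueFactorizationMonoid.induction_on_prime with
  | h₁ => intro h; exact absurd rfl h
  | h₂ I hI' =>
    intro _
    obtain rfl : I = ⊤ := by simpa using hI'
    exact ⟨1, one_ne_zero, by rw [cj_top, Nat.cast_one, span_singleton_one, ← one_eq_top,
      mul_one]⟩
  | h₃ I P hI' hP IH =>
    intro _
    obtain ⟨m, hm, h⟩ := IH hI'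
    have hP' : P.IsMaximal := ((Ideal.prime_iff_isPrime hP.ne_zero).1 hP).isMaximal hP.ne_zero
    have key : ∃ k : ℕ, k ≠ 0 ∧ P * D.cj P = span {(k : R)} := by
      by_cases hst : D.cj P = P
      · obtain ⟨l, hl, hlP, -⟩ := D.exists_prime P
        by_cases hlN : l ∣ N
        · exact ⟨l, hl.ne_zero, by rw [hst, D.mul_self_of_dvd hN hl hlN hlP]⟩
        · refine ⟨l * l, mul_ne_zero hl.ne_zero hl.ne_zero, ?_⟩
          rw [hst, Nat.cast_mul, ← Ideal.span_singleton_mul_span_singleton,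
            ← D.eq_span_of_stable h2N hst hl hlN hlP]
      · obtain ⟨l, hl, h⟩ := D.mul_cj_of_ne hst
        exact ⟨l, hl.ne_zero, h⟩
    obtain ⟨k, hk, h'⟩ := key
    refine ⟨k * m, mul_ne_zero hk hm, ?_⟩
    rw [cj_mul, Nat.cast_mul, ← Ideal.span_singleton_mul_span_singleton, ← h, ← h']
    ring

end QuadData

end Fermat.Agent.TwoAdic.Genus
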