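import Fermat.Agent.TwoAdic.GenusA

/-!
# Genus theory of imaginary quadratic fields, part B: the 2-torsion of the class group

`card_two_torsion_le`: the 2-torsion of the class group has at most `2 ^ (t - 1)` elements, where
`t` is the number of primes dividing `N` (`N` squarefree, even).
-/

set_option autoImplicit false
set_option linter.unusedSectionVars false

open Ideal nonZeroDivisors

namespace Fermat.Agent.TwoAdic.Genus

variable {R : Type*} [CommRing R] [IsDedekindDomain R] [CharZero R] [Module.Free ℤ R]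
  [Module.Finite ℤ R] {N : ℕ} (D : QuadData R N)

open Classical in
/-- the class of an ideal (`1` for the zero ideal) -/
noncomputable def cl (I : Ideal R) : ClassGroup R :=
  if h : I ≠ ⊥ then ClassGroup.mk0 ⟨I, mem_nonZeroDivisors_of_ne_zero h⟩ else 1

theorem cl_eq {I : Ideal R} (h : I ≠ ⊥) :
    cl I = ClassGroup.mk0 ⟨I, mem_nonZeroDivisors_of_ne_zero h⟩ := dif_pos h

theorem cl_mul {I J : Ideal R} (hI : I ≠ ⊥) (hJ : J ≠ ⊥) : cl (I * J) = cl I * cl J := by
  rw [cl_eq hI, cl_eq hJ, cl_eq (mul_ne_zero hI hJ), ← map_mul]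
  rfl

theorem cl_span {x : R} (hx : x ≠ 0) : cl (span {x}) = 1 := by
  rw [cl_eq (by rwa [Ne, Ideal.span_singleton_eq_bot]), ClassGroup.mk0_eq_one_iff]
  exact ⟨⟨x, rfl⟩⟩

theorem cl_top : cl (⊤ : Ideal R) = 1 := by
  rw [← Ideal.span_singleton_one]
  exact cl_span one_ne_zero

theorem cl_eq_iff {I J : Ideal R} (hI : I ≠ ⊥) (hJ : J ≠ ⊥) :
    cl I = cl J ↔ ∃ x y : R, x ≠ 0 ∧ y ≠ 0 ∧ span {x} * I = span {y} * J := by
  rw [cl_eq hI, cl_eq hJ, ClassGroup.mk0_eq_mk0_iff]
  exact ⟨fun ⟨x, y, hx, hy, h⟩ => ⟨x, y, hx, hy, h⟩, fun ⟨x, y, hx, hy, h⟩ => ⟨x, y, hx, hy, h⟩⟩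

theorem exists_cl (c : ClassGroup R) : ∃ I : Ideal R, I ≠ ⊥ ∧ cl I = c := by
  obtain ⟨⟨I, hI⟩, rfl⟩ := ClassGroup.mk0_surjective c
  have : I ≠ ⊥ := nonZeroDivisors.ne_zero hI
  exact ⟨I, this, cl_eq this⟩

namespace QuadData

include D

/-- Hilbert 90: classes of order two contain conjugation stable ideals -/
theorem exists_stable (hN : Squarefree N) (h2N : 2 ∣ N) {I : Ideal R} (hI : I ≠ ⊥)
    (h : cl I ^ 2 = 1) : ∃ J : Ideal R, J ≠ ⊥ ∧ D.cj J = J ∧ cl J = cl I := by
  obtain ⟨m, hm, hI2⟩ := D.exists_mul_cj hN h2N I hI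
  have hcI := D.cj_ne_bot hI
  have h1 : cl (D.cj I) = cl I := by
    have := congrArg cl hI2
    rw [cl_mul hI hcI, cl_span (Nat.cast_ne_zero.2 hm)] at this
    rw [sq] at h
    exact mul_left_cancel (this.trans h.symm)
  obtain ⟨x, y, hx, hy, hxy⟩ := (cl_eq_iff hcI hI).1 h1
  have h2 : x * D.c x = y * D.c y := by
    have := congrArg (absNorm (S := R)) hxy
    rw [map_mul, map_mul, D.absNorm_cj, absNorm_span_singleton, absNorm_span_singleton] at this
    have h0 : absNorm I ≠ 0 := fun h => hI (absNorm_eq_zero_iff.1 h)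
    rw [D.norm, D.norm, Nat.eq_of_mul_eq_mul_right (Nat.pos_of_ne_zero h0) this]
  by_cases hs : x + y = 0
  · -- `I` is stable
    refine ⟨I, hI, ?_, rfl⟩
    have hy' : y = -x := by linear_combination hs
    rw [hy', Ideal.span_singleton_neg] at hxy
    exact mul_left_cancel₀ (by rwa [Ne, Ideal.zero_eq_bot, Ideal.span_singleton_eq_bot]) hxy
  · have hcx : D.c x ≠ 0 := by rwa [Ne, EmbeddingLike.map_eq_zero_iff]
    have hz : D.c x * (x + y) ≠ 0 := mul_ne_zero hcx hs
    refine ⟨span {D.c x * (x + y)} * I, mul_ne_zero ?_ hI, ?_, ?_⟩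
    · rwa [Ne, Ideal.zero_eq_bot, Ideal.span_singleton_eq_bot]
    · rw [D.cj_mul, D.cj_span, map_mul, D.cc, mul_comm x, map_add,
        ← Ideal.span_singleton_mul_span_singleton, mul_assoc, hxy, ← mul_assoc,
        Ideal.span_singleton_mul_span_singleton]
      congr 3
      linear_combination -h2
    · rw [cl_mul _ hI, cl_span hz, one_mul]
      rwa [Ne, Ideal.span_singleton_eq_bot]

/-- a prime above `l` -/
theorem exists_maximal (l : ℕ) (hl : l.Prime) : ∃ P : Ideal R, P.IsMaximal ∧ (l : R) ∈ P := by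
  have h : span {(l : R)} ≠ ⊤ := by
    intro h
    have h1 := congrArg (absNorm (S := R)) h
    rw [D.absNorm_span_nat, absNorm_top] at h1
    have := hl.one_lt
    nlinarith
  obtain ⟨P, hP, hle⟩ := Ideal.exists_le_maximal _ h
  exact ⟨P, hP, (span_singleton_le_iff_mem _).1 hle⟩

open Classical in
omit D in
/-- a chosen prime above `l` -/
noncomputable def pr (R : Type*) [CommRing R] (l : ℕ) : Ideal R :=
  if h : ∃ P : Ideal R, P.IsMaximal ∧ (l : R) ∈ P then h.choose else ⊤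

theorem pr_spec {l : ℕ} (hl : l.Prime) : (pr R l).IsMaximal ∧ (l : R) ∈ pr R l := by
  rw [pr, dif_pos (D.exists_maximal l hl)]
  exact (D.exists_maximal l hl).choose_spec

theorem ne_bot_of_mem {P : Ideal R} {l : ℕ} (hl : l.Prime) (h : (l : R) ∈ P) : P ≠ ⊥ := by
  rintro rfl
  rw [Ideal.mem_bot, Nat.cast_eq_zero] at h
  exact hl.ne_zero h

theorem pr_ne_bot {l : ℕ} (hl : l.Prime) : pr R l ≠ ⊥ :=
  D.ne_bot_of_mem hl (D.pr_spec hl).2

theorem cl_pr_sq (hN : Squarefree N) {l : ℕ} (hl : l.Prime) (hlN : l ∣ N) :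
    cl (pr R l) * cl (pr R l) = 1 := by
  have := (D.pr_spec hl).1
  rw [← cl_mul (D.pr_ne_bot hl) (D.pr_ne_bot hl), D.mul_self_of_dvd hN hl hlN (D.pr_spec hl).2,
    cl_span (Nat.cast_ne_zero.2 hl.ne_zero)]

/-- the product of the classes of the ramified primes above the elements of `A` -/
noncomputable def Φ (_ : QuadData R N) (A : Finset ℕ) : ClassGroup R := ∏ l ∈ A, cl (pr R l)

theorem Φ_sq (hN : Squarefree N) {A : Finset ℕ} (hA : A ⊆ N.primeFactors) :
    D.Φ A * D.Φ A = 1 := by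
  rw [Φ, ← Finset.prod_mul_distrib]
  exact Finset.prod_eq_one fun l hl =>
    D.cl_pr_sq hN (Nat.prime_of_mem_primeFactors (hA hl)) (Nat.dvd_of_mem_primeFactors (hA hl))

theorem exists_cl_mul_Φ (hN : Squarefree N) {A : Finset ℕ} (hA : A ⊆ N.primeFactors) {l : ℕ}
    (hl : l ∈ N.primeFactors) :
    ∃ B ⊆ N.primeFactors, cl (pr R l) * D.Φ A = D.Φ B := by
  by_cases h : l ∈ A
  · refine ⟨A.erase l, (Finset.erase_subset _ _).trans hA, ?_⟩
    rw [Φ, Φ, ← Finset.mul_prod_erase A _ h, ← mul_assoc,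
      D.cl_pr_sq hN (Nat.prime_of_mem_primeFactors hl) (Nat.dvd_of_mem_primeFactors hl), one_mul]
  · exact ⟨insert l A, Finset.insert_subset hl hA, by rw [Φ, Φ, Finset.prod_insert h]⟩

/-- the class of a stable ideal is a product of ramified classes -/
theorem stable_aux (hN : Squarefree N) (h2N : 2 ∣ N) (n : ℕ) : ∀ J : Ideal R, J ≠ ⊥ →
    D.cj J = J → absNorm J = n → ∃ A ⊆ N.primeFactors, cl J = D.Φ A := by
  induction n using Nat.strong_induction_on with
  | _ n IH =>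
  intro J hJ hst hn
  by_cases htop : J = ⊤
  · exact ⟨∅, Finset.empty_subset _, by rw [htop, cl_top, Φ, Finset.prod_empty]⟩
  obtain ⟨P, hP, hle⟩ := Ideal.exists_le_maximal _ htop
  have hP0 : P ≠ ⊥ := fun h => hJ (le_bot_iff.1 (h ▸ hle))
  -- the general step
  have key : ∀ Q J' : Ideal R, J = Q * J' → D.cj Q = Q → Q ≠ ⊤ → J' ≠ ⊥ ∧ Q ≠ ⊥ ∧
      ∃ A ⊆ N.primeFactors, cl J' = D.Φ A := by
    intro Q J' hJJ hQ hQtop
    have hQ0 : Q ≠ ⊥ := fun h => hJ (by rw [hJJ, h, bot_mul])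
    have hJ0 : J' ≠ ⊥ := fun h => hJ (by rw [hJJ, h, mul_bot])
    have hst' : D.cj J' = J' := by
      have h1 := hst
      rw [hJJ, D.cj_mul, hQ] at h1
      exact mul_left_cancel₀ hQ0 h1
    have hlt : absNorm J' < n := by
      rw [← hn, hJJ, map_mul]
      have h1 : absNorm Q ≠ 1 := fun h => hQtop (absNorm_eq_one_iff.1 h)
      have h2 : absNorm Q ≠ 0 := fun h => hQ0 (absNorm_eq_zero_iff.1 h)
      have h3 : absNorm J' ≠ 0 := fun h => hJ0 (absNorm_eq_zero_iff.1 h)
      have h4 : 1 < absNorm Q := by omega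
      have h5 : 0 < absNorm J' := Nat.pos_of_ne_zero h3
      nlinarith
    exact ⟨hJ0, hQ0, IH _ hlt J' hJ0 hst' rfl⟩
  -- the principal step
  have key2 : ∀ l : ℕ, l.Prime → span {(l : R)} ∣ J → ∃ A ⊆ N.primeFactors, cl J = D.Φ A := by
    intro l hl ⟨J', hJ'⟩
    have h1 : span {(l : R)} ≠ ⊤ := by
      obtain ⟨Q, hQ, hlQ⟩ := D.exists_maximal l hl
      exact fun h => hQ.ne_top (top_le_iff.1 (h ▸ (span_singleton_le_iff_mem _).2 hlQ))
    obtain ⟨hJ0, hQ0, A, hA, h2⟩ := key _ J' hJ' (by rw [D.cj_span, D.c_natCast]) h1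
    refine ⟨A, hA, ?_⟩
    rw [hJ', cl_mul hQ0 hJ0, cl_span (Nat.cast_ne_zero.2 hl.ne_zero), one_mul, h2]
  by_cases hPst : D.cj P = P
  · obtain ⟨l, hl, hlP, -⟩ := D.exists_prime P
    by_cases hlN : l ∣ N
    · obtain ⟨J', hJ'⟩ := Ideal.dvd_iff_le.2 hle
      obtain ⟨hJ0, hQ0, A, hA, h2⟩ := key _ J' hJ' hPst hP.ne_top
      have hl' : l ∈ N.primeFactors := Nat.mem_primeFactors.2 ⟨hl, hlN, hN.ne_zero⟩
      obtain ⟨B, hB, h3⟩ := D.exists_cl_mul_Φ hN hA hl'
      have := (D.pr_spec hl).1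
      refine ⟨B, hB, ?_⟩
      rw [hJ', cl_mul hQ0 hJ0, h2, ← h3, D.unique_of_dvd hN hl hlN hlP (D.pr_spec hl).2]
    · apply key2 l hl
      rw [← D.eq_span_of_stable h2N hPst hl hlN hlP]
      exact Ideal.dvd_iff_le.2 hle
  · obtain ⟨l, hl, h⟩ := D.mul_cj_of_ne hPst
    apply key2 l hl
    rw [← h]
    have := D.cj_isMaximal (P := P)
    apply (Ideal.isCoprime_of_isMaximal (Ne.symm hPst)).mul_dvd (Ideal.dvd_iff_le.2 hle)
    rw [Ideal.dvd_iff_le, ← hst]
    exact fun x hx => hle hx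

theorem δ_ne_zero (hN : Squarefree N) : D.δ ≠ 0 := by
  intro h
  have := D.δδ
  rw [h, zero_mul] at this
  exact hN.ne_zero (Nat.cast_eq_zero.1 (neg_eq_zero.1 this.symm))

theorem isCoprime_pr {l l' : ℕ} (hl : l.Prime) (hl' : l'.Prime)
    (hne : l ≠ l') : IsCoprime (pr R l) (pr R l') := by
  have h1 := (D.pr_spec hl).1
  have h2 := (D.pr_spec hl').1
  apply Ideal.isCoprime_of_isMaximal
  intro h
  have h3 := (D.pr_spec hl').2
  rw [← h] at h3
  exact D.not_mem_of_coprime h1.ne_top ((Nat.coprime_primes hl hl').2 hne) (D.pr_spec hl).2 h3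

/-- the relation between the ramified classes -/
theorem Φ_primeFactors (hN : Squarefree N) : D.Φ N.primeFactors = 1 := by
  have h1 : ∏ l ∈ N.primeFactors, pr R l = span {D.δ} := by
    apply eq_of_le_of_absNorm
    · intro h
      rw [Ideal.span_singleton_eq_bot] at h
      exact D.δ_ne_zero hN h
    · rw [← Ideal.dvd_iff_le]
      apply Finset.prod_dvd_of_coprime
      · intro l hl l' hl' hne
        exact D.isCoprime_pr (Nat.prime_of_mem_primeFactors hl)
          (Nat.prime_of_mem_primeFactors hl') hne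
      · intro l hl
        have hl' := Nat.prime_of_mem_primeFactors hl
        have := (D.pr_spec hl').1
        exact Ideal.dvd_iff_le.2 ((span_singleton_le_iff_mem _).2
          (D.δ_mem (Nat.dvd_of_mem_primeFactors hl) (D.pr_spec hl').2))
    · rw [absNorm_span_singleton, D.natAbs_norm_δ, map_prod]
      have : ∏ l ∈ N.primeFactors, absNorm (pr R l) = ∏ l ∈ N.primeFactors, l := by
        refine Finset.prod_congr rfl fun l hl => ?_
        have hl' := Nat.prime_of_mem_primeFactors hl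
        have := (D.pr_spec hl').1
        exact D.absNorm_eq_of_dvd hN hl' (Nat.dvd_of_mem_primeFactors hl) (D.pr_spec hl').2
      rw [this, Nat.prod_primeFactors_of_squarefree hN]
  have h2 : ∀ A ⊆ N.primeFactors, cl (∏ l ∈ A, pr R l) = D.Φ A ∧ ∏ l ∈ A, pr R l ≠ ⊥ := by
    intro A
    induction A using Finset.induction_on with
    | empty => intro _; exact ⟨by rw [Finset.prod_empty, Φ, Finset.prod_empty, Ideal.one_eq_top,
        cl_top], by rw [Finset.prod_empty]; exact one_ne_zero⟩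
    | insert l A hl ih =>
      intro hA
      rw [Finset.insert_subset_iff] at hA
      obtain ⟨h3, h4⟩ := ih hA.2
      have h5 := D.pr_ne_bot (Nat.prime_of_mem_primeFactors hA.1)
      rw [Finset.prod_insert hl, Φ, Finset.prod_insert hl, cl_mul h5 h4, h3]
      exact ⟨rfl, mul_ne_zero h5 h4⟩
  rw [← (h2 _ subset_rfl).1, h1, cl_span]
  exact D.δ_ne_zero hN

/-- a 2-torsion class is a product of ramified classes -/
theorem exists_Φ (hN : Squarefree N) (h2N : 2 ∣ N) {c : ClassGroup R} (hc : c ^ 2 = 1) :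
    ∃ A ∈ (N.primeFactors.erase 2).powerset, c = D.Φ A := by
  obtain ⟨I, hI, rfl⟩ := exists_cl c
  obtain ⟨J, hJ, hst, h1⟩ := D.exists_stable hN h2N hI hc
  obtain ⟨A, hA, h2⟩ := D.stable_aux hN h2N _ J hJ hst rfl
  rw [← h1, h2]
  by_cases h : 2 ∈ A
  · refine ⟨N.primeFactors \ A, ?_, ?_⟩
    · rw [Finset.mem_powerset]
      intro l hl
      rw [Finset.mem_sdiff] at hl
      rw [Finset.mem_erase]
      exact ⟨fun h' => hl.2 (h' ▸ h), hl.1⟩
    · have h3 : D.Φ (N.primeFactors \ A) * D.Φ A = 1 := by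
        rw [Φ, Φ, Finset.prod_sdiff hA]
        exact D.Φ_primeFactors hN
      exact (mul_right_cancel (h3.trans (D.Φ_sq hN hA).symm)).symm
  · refine ⟨A, ?_, rfl⟩
    rw [Finset.mem_powerset]
    intro l hl
    rw [Finset.mem_erase]
    exact ⟨fun h' => h (h' ▸ hl), hA hl⟩

/-- **the bound for the 2-torsion of the class group** -/
theorem card_two_torsion_le (hN : Squarefree N) (h2N : 2 ∣ N) :
    Nat.card {c : ClassGroup R // c ^ 2 = 1} ≤ 2 ^ (N.primeFactors.erase 2).card := by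
  classical
  let s : Finset (ClassGroup R) := (N.primeFactors.erase 2).powerset.image D.Φ
  have h1 : {c : ClassGroup R | c ^ 2 = 1} ⊆ s := by
    intro c hc
    obtain ⟨A, hA, h⟩ := D.exists_Φ hN h2N hc
    rw [Finset.mem_coe, Finset.mem_image]
    exact ⟨A, hA, h.symm⟩
  calc Nat.card {c : ClassGroup R // c ^ 2 = 1}
      = Nat.card {c : ClassGroup R | c ^ 2 = 1} := rfl
    _ ≤ Nat.card (s : Set (ClassGroup R)) := Nat.card_mono (Finset.finite_toSet s) h1
    _ = s.card := by simp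
    _ ≤ _ := Finset.card_image_le
    _ = _ := Finset.card_powerset _

end QuadData

end Fermat.Agent.TwoAdic.Genus
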