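import Mathlib
import Fermat.Agent.TwoAdic.KField

/-!
# Primes of the imaginary quadratic field `K = ℚ(√-N)`
-/

set_option autoImplicit false

open NumberField Ideal

open scoped nonZeroDivisors

namespace Fermat.Agent.TwoAdic

variable {N : ℕ}

local notation "O" => 𝓞 (KN N)

theorem IsLev.pos (hN : IsLev N) : 0 < N := by have := hN.two_lt; omega

theorem finrank_OK (hN : 0 < N) : Module.finrank ℤ (𝓞 (KN N)) = 2 := by
  rw [RingOfIntegers.rank, finrank_KN hN]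

theorem absNorm_nat (hN : 0 < N) (m : ℕ) : absNorm (span {(m : 𝓞 (KN N))}) = m ^ 2 := by
  rw [absNorm_span_natCast, finrank_OK hN]

theorem absNorm_rep (hN : 0 < N) (a b : ℤ) :
    absNorm (span {((a : 𝓞 (KN N)) + b * nu N)}) = (a ^ 2 + N * b ^ 2).natAbs := by
  rw [absNorm_span_singleton, norm_int_rep hN]

theorem norm_nonneg' (hN : IsLev N) (x : 𝓞 (KN N)) : 0 ≤ Algebra.norm ℤ x := by
  obtain ⟨a, b, rfl⟩ := exists_int_rep hN x
  rw [norm_int_rep hN.pos]
  positivity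

theorem absNorm_span_eq (hN : IsLev N) (x : 𝓞 (KN N)) :
    (absNorm (span {x}) : ℤ) = Algebra.norm ℤ x := by
  rw [absNorm_span_singleton, Int.natAbs_of_nonneg (norm_nonneg' hN x)]

/-- the units of `O_K` are `±1` -/
theorem unit_eq (hN : IsLev N) {x : 𝓞 (KN N)} (hx : IsUnit x) : x = 1 ∨ x = -1 := by
  obtain ⟨a, b, rfl⟩ := exists_int_rep hN x
  have h1 : absNorm (span {((a : 𝓞 (KN N)) + b * nu N)}) = 1 := by
    rw [span_singleton_eq_top.mpr hx, absNorm_top]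
  have h2 := absNorm_span_eq hN ((a : 𝓞 (KN N)) + b * nu N)
  rw [h1, norm_int_rep hN.pos] at h2
  have h3 : (2 : ℤ) < N := by exact_mod_cast hN.two_lt
  have hb : b = 0 := by
    by_contra hb
    have : 1 ≤ b ^ 2 := by
      have := sq_pos_of_ne_zero hb
      omega
    push_cast at h2
    nlinarith [sq_nonneg a]
  subst hb
  have h4 : a ^ 2 = 1 := by
    push_cast at h2
    linarith
  have h5 : (a - 1) * (a + 1) = 0 := by linear_combination h4
  rcases mul_eq_zero.mp h5 with h | h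
  · left
    have : a = 1 := by omega
    rw [this]; simp
  · right
    have : a = -1 := by omega
    rw [this]; simp

/-! ### Ramified primes -/

/-- the prime above a ramified prime -/
noncomputable def pv (N v : ℕ) : Ideal (𝓞 (KN N)) := span {(v : 𝓞 (KN N)), nu N}

theorem pv_sq (hN : IsLev N) {v : ℕ} (_hv : v.Prime) (hvN : v ∣ N) :
    pv N v ^ 2 = span {(v : 𝓞 (KN N))} := by
  obtain ⟨w, hw⟩ := hvN
  have hcop : Nat.Coprime v w := by
    have := hN.sqf
    rw [hw] at this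
    exact (Nat.squarefree_mul_iff.mp this).1
  have hnu := nu_sq N
  have hwN : (N : 𝓞 (KN N)) = v * w := by
    have := congrArg (Nat.cast (R := 𝓞 (KN N))) hw
    push_cast at this
    exact this
  rw [pv, sq, span_pair_mul_span_pair]
  apply le_antisymm
  · rw [span_le]
    rintro x hx
    simp only [Set.mem_insert_iff, Set.mem_singleton_iff] at hx
    rw [SetLike.mem_coe, mem_span_singleton]
    rcases hx with rfl | rfl | rfl | rfl
    · exact dvd_mul_right _ _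
    · exact dvd_mul_right _ _
    · exact dvd_mul_left _ _
    · refine ⟨-(w : 𝓞 (KN N)), ?_⟩
      rw [← sq, hnu, hwN]; ring
  · rw [span_le, Set.singleton_subset_iff, SetLike.mem_coe]
    obtain ⟨s, t, hst⟩ : ∃ s t : ℤ, s * v + t * w = 1 :=
      Int.isCoprime_iff_gcd_eq_one.mpr (by simpa using hcop)
    have h1 : (v : 𝓞 (KN N)) = (s : 𝓞 (KN N)) * ((v : 𝓞 (KN N)) * v) +
        (-(t : 𝓞 (KN N))) * (nu N * nu N) := by
      have h2 : ((s * v + t * w : ℤ) : 𝓞 (KN N)) = 1 := by rw [hst]; simp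
      push_cast at h2
      rw [← sq (nu N), hnu, hwN]
      linear_combination (-(v : 𝓞 (KN N))) * h2
    have h3 : (s : 𝓞 (KN N)) * ((v : 𝓞 (KN N)) * v) + (-(t : 𝓞 (KN N))) * (nu N * nu N) ∈
        span {(v : 𝓞 (KN N)) * v, v * nu N, nu N * v, nu N * nu N} := by
      refine add_mem (mul_mem_left _ _ (subset_span ?_)) (mul_mem_left _ _ (subset_span ?_))
      · simp
      · simp
    rwa [← h1] at h3

theorem absNorm_pv (hN : IsLev N) {v : ℕ} (hv : v.Prime) (hvN : v ∣ N) :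
    absNorm (pv N v) = v := by
  have h1 := congrArg absNorm (pv_sq hN hv hvN)
  rw [map_pow, absNorm_nat hN.pos] at h1
  exact Nat.pow_left_injective (n := 2) (by norm_num) h1

theorem pv_isPrime (hN : IsLev N) {v : ℕ} (hv : v.Prime) (hvN : v ∣ N) : (pv N v).IsPrime :=
  isPrime_of_irreducible_absNorm (by rw [absNorm_pv hN hv hvN]; exact hv.prime.irreducible)

theorem pv_ne_bot (hN : IsLev N) {v : ℕ} (hv : v.Prime) (hvN : v ∣ N) : pv N v ≠ ⊥ := by
  intro h
  have := absNorm_pv hN hv hvN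
  rw [h, absNorm_bot] at this
  exact hv.ne_zero this.symm

/-- a prime containing `l` divides every ideal whose norm is divisible by `l` ... -/
theorem exists_prime_dvd {l : ℕ} (hl : l.Prime) (I : Ideal (𝓞 (KN N))) (hI : l ∣ absNorm I) :
    ∃ P : Ideal (𝓞 (KN N)), P.IsPrime ∧ (l : 𝓞 (KN N)) ∈ P ∧ P ∣ I := by
  obtain ⟨P, hP, hu, hd⟩ := exists_isMaximal_dvd_of_dvd_absNorm' hl I hI
  refine ⟨P, hP.isPrime, ?_, hd⟩
  have : (l : ℤ) ∈ P.under ℤ := by rw [hu]; exact mem_span_singleton_self _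
  rw [mem_comap] at this
  simpa using this

theorem dvd_of_ram (hN : IsLev N) {v : ℕ} (hv : v.Prime) (hvN : v ∣ N)
    {I : Ideal (𝓞 (KN N))} (hI : v ∣ absNorm I) : pv N v ∣ I := by
  obtain ⟨P, hP, hm, hd⟩ := exists_prime_dvd hv I hI
  have h1 : pv N v ≤ P := by
    have h2 : pv N v ^ 2 ≤ P := by
      rw [pv_sq hN hv hvN, span_le, Set.singleton_subset_iff]
      exact hm
    exact hP.le_of_pow_le h2
  have h3 : (pv N v).IsMaximal :=
    (pv_isPrime hN hv hvN).isMaximal (pv_ne_bot hN hv hvN)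
  rw [h3.eq_of_le hP.ne_top h1]
  exact hd

/-! ### Unramified primes -/

/-- `l` is inert: `-N` is not a square mod `l` -/
theorem inert_isPrime (hN : IsLev N) {l : ℕ} (hl : l.Prime)
    (hns : ¬ IsSquare (-(N : ZMod l))) : (span {(l : 𝓞 (KN N))}).IsPrime := by
  have := Fact.mk hl
  -- a prime `P` containing `l`
  obtain ⟨P, hP, hm, hd⟩ := exists_prime_dvd (N := N) hl (span {(l : 𝓞 (KN N))})
    (by rw [absNorm_nat hN.pos]; exact dvd_pow_self l (by norm_num))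
  have hle : span {(l : 𝓞 (KN N))} ≤ P := by
    rw [span_le, Set.singleton_subset_iff]; exact hm
  have heq : span {(l : 𝓞 (KN N))} = P := by
    apply le_antisymm hle
    intro x hx
    obtain ⟨a, b, rfl⟩ := exists_int_rep hN x
    have hnorm : ((a ^ 2 + N * b ^ 2 : ℤ) : 𝓞 (KN N)) ∈ P := by
      have h1 : ((a ^ 2 + N * b ^ 2 : ℤ) : 𝓞 (KN N)) =
          ((a : 𝓞 (KN N)) - b * nu N) * ((a : 𝓞 (KN N)) + b * nu N) := by
        push_cast
        linear_combination (b : 𝓞 (KN N)) ^ 2 * nu_sq N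
      rw [h1]
      exact mul_mem_left _ _ hx
    have hdiv : (l : ℤ) ∣ a ^ 2 + N * b ^ 2 := by
      by_contra hnd
      have hcop : IsCoprime (l : ℤ) (a ^ 2 + N * b ^ 2) :=
        (Prime.coprime_iff_not_dvd (Nat.prime_iff_prime_int.mp hl)).mpr hnd
      obtain ⟨s, t, hst⟩ := hcop
      apply hP.ne_top
      rw [eq_top_iff_one]
      have h2 : (1 : 𝓞 (KN N)) = (s : 𝓞 (KN N)) * l + t * ((a ^ 2 + N * b ^ 2 : ℤ) : 𝓞 (KN N)) := by
        rw [← Int.cast_one, ← hst]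
        push_cast
        ring
      rw [h2]
      exact add_mem (mul_mem_left _ _ hm) (mul_mem_left _ _ hnorm)
    have hb : (l : ℤ) ∣ b := by
      by_contra hb
      apply hns
      have hb' : (b : ZMod l) ≠ 0 := by
        rw [Ne, ZMod.intCast_zmod_eq_zero_iff_dvd]; exact hb
      have h3 : (a : ZMod l) ^ 2 + N * (b : ZMod l) ^ 2 = 0 := by
        have := (ZMod.intCast_zmod_eq_zero_iff_dvd (a ^ 2 + N * b ^ 2) l).mpr hdiv
        push_cast at this
        exact this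
      refine ⟨(a : ZMod l) / b, ?_⟩
      field_simp
      linear_combination -h3
    have ha : (l : ℤ) ∣ a := by
      have h4 : (l : ℤ) ∣ a ^ 2 := by
        have h5 : (l : ℤ) ∣ N * b ^ 2 := (hb.pow (by norm_num : (2 : ℕ) ≠ 0)).mul_left _
        have := dvd_sub hdiv h5
        simpa using this
      exact (Nat.prime_iff_prime_int.mp hl).dvd_of_dvd_pow h4
    obtain ⟨a', rfl⟩ := ha
    obtain ⟨b', rfl⟩ := hb
    rw [mem_span_singleton]
    exact ⟨a' + b' * nu N, by push_cast; ring⟩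
  rw [heq]
  exact hP

theorem dvd_of_inert (hN : IsLev N) {l : ℕ} (hl : l.Prime)
    (hns : ¬ IsSquare (-(N : ZMod l))) {I : Ideal (𝓞 (KN N))} (hI : l ∣ absNorm I) :
    span {(l : 𝓞 (KN N))} ∣ I := by
  obtain ⟨P, hP, hm, hd⟩ := exists_prime_dvd hl I hI
  have h1 : span {(l : 𝓞 (KN N))} ≤ P := by
    rw [span_le, Set.singleton_subset_iff]; exact hm
  have h0 : span {(l : 𝓞 (KN N))} ≠ ⊥ := by
    rw [Ne, span_singleton_eq_bot]
    exact_mod_cast hl.ne_zero
  have h3 : (span {(l : 𝓞 (KN N))}).IsMaximal := (inert_isPrime hN hl hns).isMaximal h0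
  rw [h3.eq_of_le hP.ne_top h1]
  exact hd

/-- the two primes above a split prime: `-N = b²` mod `l` -/
noncomputable def ps (N l : ℕ) (b : ℤ) : Ideal (𝓞 (KN N)) := span {(l : 𝓞 (KN N)), nu N - b}

theorem ps_mul (_hN : IsLev N) {l : ℕ} (hl : l.Prime) (hlN : ¬ l ∣ 2 * N) {b : ℤ}
    (hb : (l : ℤ) ∣ b ^ 2 + N) : ps N l b * ps N l (-b) = span {(l : 𝓞 (KN N))} := by
  have hnu := nu_sq N
  obtain ⟨w, hw⟩ := hb
  have hlb : ¬ (l : ℤ) ∣ 2 * b := by
    intro h
    rcases (Nat.prime_iff_prime_int.mp hl).dvd_or_dvd h with h1 | h1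
    · exact hlN ((show l ∣ 2 by exact_mod_cast h1).mul_right _)
    · have h2 : (l : ℤ) ∣ N := by
        have h3 : (l : ℤ) ∣ b ^ 2 := h1.pow (by norm_num : (2 : ℕ) ≠ 0)
        have h4 := dvd_sub (Dvd.intro w hw.symm) h3
        simpa using h4
      exact hlN ((show l ∣ N by exact_mod_cast h2).mul_left _)
  rw [ps, ps, span_pair_mul_span_pair]
  apply le_antisymm
  · rw [span_le]
    rintro x hx
    simp only [Set.mem_insert_iff, Set.mem_singleton_iff] at hx
    rw [SetLike.mem_coe, mem_span_singleton]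
    rcases hx with rfl | rfl | rfl | rfl
    · exact dvd_mul_right _ _
    · exact dvd_mul_right _ _
    · exact dvd_mul_left _ _
    · refine ⟨-(w : 𝓞 (KN N)), ?_⟩
      have h2 : ((b ^ 2 + N : ℤ) : 𝓞 (KN N)) = ((l * w : ℤ) : 𝓞 (KN N)) := by rw [hw]
      push_cast at h2 ⊢
      linear_combination hnu - h2
  · rw [span_le, Set.singleton_subset_iff, SetLike.mem_coe]
    have hcop : IsCoprime (l : ℤ) (2 * b) :=
      (Prime.coprime_iff_not_dvd (Nat.prime_iff_prime_int.mp hl)).mpr hlb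
    obtain ⟨s, t, hst⟩ := hcop
    have h1 : (l : 𝓞 (KN N)) = (s : 𝓞 (KN N)) * ((l : 𝓞 (KN N)) * l) +
        ((t : 𝓞 (KN N)) * ((l : 𝓞 (KN N)) * (nu N - ((-b : ℤ) : 𝓞 (KN N)))) +
        (-(t : 𝓞 (KN N))) * ((nu N - (b : 𝓞 (KN N))) * l)) := by
      have h2 : ((s * l + t * (2 * b) : ℤ) : 𝓞 (KN N)) = 1 := by rw [hst]; simp
      push_cast at h2 ⊢
      linear_combination (-(l : 𝓞 (KN N))) * h2
    have h3 : (s : 𝓞 (KN N)) * ((l : 𝓞 (KN N)) * l) +
        ((t : 𝓞 (KN N)) * ((l : 𝓞 (KN N)) * (nu N - ((-b : ℤ) : 𝓞 (KN N)))) +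
        (-(t : 𝓞 (KN N))) * ((nu N - (b : 𝓞 (KN N))) * l)) ∈
        span {(l : 𝓞 (KN N)) * l, l * (nu N - ((-b : ℤ) : 𝓞 (KN N))),
          (nu N - (b : 𝓞 (KN N))) * l, (nu N - (b : 𝓞 (KN N))) * (nu N - ((-b : ℤ) : 𝓞 (KN N)))} := by
      refine add_mem (mul_mem_left _ _ (subset_span ?_)) (add_mem (mul_mem_left _ _
        (subset_span ?_)) (mul_mem_left _ _ (subset_span ?_)))
      · simp
      · simp
      · simp
    rwa [← h1] at h3

theorem ps_ne_top (hN : IsLev N) {l : ℕ} (hl : l.Prime) (hlN : ¬ l ∣ 2 * N) {b : ℤ}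
    (hb : (l : ℤ) ∣ b ^ 2 + N) : ps N l b ≠ ⊤ := by
  intro h
  have h1 := ps_mul hN hl hlN hb
  rw [h, top_mul] at h1
  have h2 : nu N - ((-b : ℤ) : 𝓞 (KN N)) ∈ span {(l : 𝓞 (KN N))} := by
    rw [← h1]
    exact subset_span (by simp)
  rw [mem_span_singleton] at h2
  obtain ⟨x, hx⟩ := h2
  obtain ⟨c, d, rfl⟩ := exists_int_rep hN x
  have h3 : ((b - l * c : ℤ) : 𝓞 (KN N)) + ((1 - l * d : ℤ) : 𝓞 (KN N)) * nu N = 0 := by
    push_cast at hx ⊢
    linear_combination hx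
  have h4 := (int_rep_eq_zero hN.pos h3).2
  have h5 : (l : ℤ) ∣ 1 := ⟨d, by linarith⟩
  exact (Nat.prime_iff_prime_int.mp hl).not_isUnit (isUnit_of_dvd_one h5)

theorem absNorm_ps (hN : IsLev N) {l : ℕ} (hl : l.Prime) (hlN : ¬ l ∣ 2 * N) {b : ℤ}
    (hb : (l : ℤ) ∣ b ^ 2 + N) : absNorm (ps N l b) = l := by
  have hb' : (l : ℤ) ∣ (-b) ^ 2 + N := by rwa [neg_sq]
  have h1 := congrArg absNorm (ps_mul hN hl hlN hb)
  rw [map_mul, absNorm_nat hN.pos] at h1
  have h2 : absNorm (ps N l b) ≠ 1 := fun h => ps_ne_top hN hl hlN hb (absNorm_eq_one_iff.mp h)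
  have h3 : absNorm (ps N l (-b)) ≠ 1 := fun h =>
    ps_ne_top hN hl hlN hb' (absNorm_eq_one_iff.mp h)
  have h4 : absNorm (ps N l b) ∣ l ^ 2 := ⟨_, h1.symm⟩
  rw [Nat.dvd_prime_pow hl] at h4
  obtain ⟨k, hk, hk2⟩ := h4
  interval_cases k
  · exact absurd (by simpa using hk2) h2
  · simpa using hk2
  · exfalso
    rw [hk2] at h1
    have h5 : 0 < l ^ 2 := pow_pos hl.pos 2
    have h6 : l ^ 2 * absNorm (ps N l (-b)) = l ^ 2 * 1 := by rw [h1, mul_one]
    exact h3 (Nat.eq_of_mul_eq_mul_left h5 h6)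

theorem ps_isPrime (hN : IsLev N) {l : ℕ} (hl : l.Prime) (hlN : ¬ l ∣ 2 * N) {b : ℤ}
    (hb : (l : ℤ) ∣ b ^ 2 + N) : (ps N l b).IsPrime :=
  isPrime_of_irreducible_absNorm (by rw [absNorm_ps hN hl hlN hb]; exact hl.prime.irreducible)

theorem ps_ne_bot (hN : IsLev N) {l : ℕ} (hl : l.Prime) (hlN : ¬ l ∣ 2 * N) {b : ℤ}
    (hb : (l : ℤ) ∣ b ^ 2 + N) : ps N l b ≠ ⊥ := by
  intro h
  have := absNorm_ps hN hl hlN hb
  rw [h, absNorm_bot] at this
  exact hl.ne_zero this.symm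

theorem ps_ne (hN : IsLev N) {l : ℕ} (hl : l.Prime) (hlN : ¬ l ∣ 2 * N) {b : ℤ}
    (hb : (l : ℤ) ∣ b ^ 2 + N) : ps N l b ≠ ps N l (-b) := by
  intro h
  have h1 : (2 * b : ℤ) ∈ (Ideal.under ℤ (ps N l b)) := by
    rw [mem_comap]
    have h2 : nu N - ((b : ℤ) : 𝓞 (KN N)) ∈ ps N l b := subset_span (by simp)
    have h3 : nu N - ((-b : ℤ) : 𝓞 (KN N)) ∈ ps N l b := by
      rw [h]; exact subset_span (by simp)
    have := sub_mem h3 h2
    convert this using 1
    push_cast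
    simp only [eq_intCast]
    push_cast
    ring
  have hlm : (l : ℤ) ∈ (Ideal.under ℤ (ps N l b)) := by
    rw [mem_comap]
    have : (l : 𝓞 (KN N)) ∈ ps N l b := subset_span (by simp)
    simpa using this
  have hlb : ¬ (l : ℤ) ∣ 2 * b := by
    intro h
    rcases (Nat.prime_iff_prime_int.mp hl).dvd_or_dvd h with h1 | h1
    · exact hlN ((show l ∣ 2 by exact_mod_cast h1).mul_right _)
    · have h2 : (l : ℤ) ∣ N := by
        have h3 : (l : ℤ) ∣ b ^ 2 := h1.pow (by norm_num : (2 : ℕ) ≠ 0)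
        have h4 := dvd_sub hb h3
        simpa using h4
      exact hlN ((show l ∣ N by exact_mod_cast h2).mul_left _)
  have hcop : IsCoprime (l : ℤ) (2 * b) :=
    (Prime.coprime_iff_not_dvd (Nat.prime_iff_prime_int.mp hl)).mpr hlb
  obtain ⟨s, t, hst⟩ := hcop
  have h1' : (1 : ℤ) ∈ (Ideal.under ℤ (ps N l b)) := by
    rw [← hst]
    exact add_mem (mul_mem_left _ _ hlm) (mul_mem_left _ _ h1)
  have h6 : Ideal.under ℤ (ps N l b) = ⊤ := (eq_top_iff_one _).mpr h1'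
  have h7 := (ps_isPrime hN hl hlN hb).ne_top
  apply h7
  rw [eq_top_iff_one]
  rw [mem_comap] at h1'
  simpa using h1'

theorem dvd_of_split (hN : IsLev N) {l : ℕ} (hl : l.Prime) (hlN : ¬ l ∣ 2 * N) {b : ℤ}
    (hb : (l : ℤ) ∣ b ^ 2 + N) {I : Ideal (𝓞 (KN N))} (hI : l ∣ absNorm I) :
    ps N l b ∣ I ∨ ps N l (-b) ∣ I := by
  have hb' : (l : ℤ) ∣ (-b) ^ 2 + N := by rwa [neg_sq]
  obtain ⟨P, hP, hm, hd⟩ := exists_prime_dvd hl I hI
  have h1 : ps N l b * ps N l (-b) ≤ P := by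
    rw [ps_mul hN hl hlN hb, span_le, Set.singleton_subset_iff]
    exact hm
  rcases hP.mul_le.mp h1 with h2 | h2
  · left
    have h3 := (ps_isPrime hN hl hlN hb).isMaximal (ps_ne_bot hN hl hlN hb)
    rw [h3.eq_of_le hP.ne_top h2]
    exact hd
  · right
    have h3 := (ps_isPrime hN hl hlN hb').isMaximal (ps_ne_bot hN hl hlN hb')
    rw [h3.eq_of_le hP.ne_top h2]
    exact hd

end Fermat.Agent.TwoAdic
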