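import Fermat.Agent.TwoAdic.GenusB
import Fermat.Agent.TwoAdic.KPrimes

/-!
# Genus theory of imaginary quadratic fields, part C: the genus characters
-/

set_option autoImplicit false
set_option linter.unusedSectionVars false

open Ideal nonZeroDivisors NumberField NumberTheorySymbols

namespace Fermat.Agent.TwoAdic.Genus

variable {N : ℕ}

/-! ### the quadratic data -/

/-- conjugation on `O_K` -/
noncomputable def conjO (hN : 0 < N) : 𝓞 (KN N) ≃+* 𝓞 (KN N) :=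
  RingOfIntegers.mapRingEquiv (conjK hN).toRingEquiv

theorem coe_conjO (hN : 0 < N) (x : 𝓞 (KN N)) :
    algebraMap (𝓞 (KN N)) (KN N) (conjO hN x) = conjK hN (algebraMap (𝓞 (KN N)) (KN N) x) := rfl

theorem conjO_nu (hN : 0 < N) : conjO hN (nu N) = -nu N := by
  apply RingOfIntegers.ext
  have h := coe_conjO hN (nu N)
  rw [coe_nu, conjK_nu] at h
  have h2 : algebraMap (𝓞 (KN N)) (KN N) (-nu N) = -nuK N := by rw [map_neg, coe_nu]
  exact h.trans h2.symm

theorem conjO_rep (hN : 0 < N) (a b : ℤ) :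
    conjO hN ((a : 𝓞 (KN N)) + b * nu N) = a - b * nu N := by
  rw [map_add, map_mul, map_intCast, map_intCast, conjO_nu]
  ring

/-- the quadratic data of `O_K` -/
noncomputable def quadData (hN : IsLev N) : QuadData (𝓞 (KN N)) N where
  c := conjO hN.pos
  cc x := by
    obtain ⟨a, b, rfl⟩ := exists_int_rep hN x
    rw [conjO_rep, map_sub, map_mul, map_intCast, map_intCast, conjO_nu]
    ring
  norm x := by
    obtain ⟨a, b, rfl⟩ := exists_int_rep hN x
    have h1 : ((a ^ 2 + N * b ^ 2 : ℤ).natAbs : ℤ) = a ^ 2 + N * b ^ 2 :=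
      Int.natAbs_of_nonneg (by positivity)
    have h2 : (((a ^ 2 + N * b ^ 2 : ℤ).natAbs : ℕ) : 𝓞 (KN N)) =
        ((a ^ 2 + N * b ^ 2 : ℤ) : 𝓞 (KN N)) := by
      conv_rhs => rw [← h1]
      rw [Int.cast_natCast]
    rw [conjO_rep, norm_int_rep hN.pos, h2]
    push_cast
    linear_combination (-(b : 𝓞 (KN N)) ^ 2) * nu_sq N
  δ := nu N
  cδ := conjO_nu hN.pos
  δδ := by rw [← sq, nu_sq]
  rank := finrank_OK hN.pos

/-! ### the genus characters on numbers -/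

/-- genus character on numbers -/
def hp (N p n : ℕ) : ℤ :=
  J((ordCompl[p] n : ℕ) | p) * J((N / p : ℕ) | p) ^ (n.factorization p)

variable {p : ℕ}

theorem hp_mul {m n : ℕ} (hm : m ≠ 0) (hn : n ≠ 0) : hp N p (m * n) = hp N p m * hp N p n := by
  rw [hp, hp, hp, Nat.ordCompl_mul, Nat.factorization_mul hm hn, Finsupp.add_apply, pow_add,
    Nat.cast_mul, jacobiSym.mul_left]
  ring

theorem hp_of_not_dvd {n : ℕ} (h : ¬ p ∣ n) : hp N p n = J(n | p) := by
  rw [hp, Nat.factorization_eq_zero_of_not_dvd h, pow_zero, pow_zero, Nat.div_one, mul_one]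

theorem jac_eq_one {p : ℕ} {a : ℤ} {n : ℤ} (h : IsCoprime a (p : ℤ))
    (hn : (p : ℤ) ∣ n - a ^ 2) : J(n | p) = 1 := by
  have h1 : J(n | p) = J(a ^ 2 | p) := by
    apply jacobiSym.mod_left'
    exact (Int.ModEq.symm ((Int.modEq_iff_dvd).2 hn) : n ≡ a ^ 2 [ZMOD p])
  rw [h1, jacobiSym.sq_one' (Int.isCoprime_iff_gcd_eq_one.1 h)]

variable (hN : IsLev N) (hp' : p.Prime) (hpN : p ∣ N)

include hN hp' hpN

theorem not_dvd_div : ¬ p ∣ N / p := by
  intro h
  obtain ⟨k, hk⟩ := hpN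
  have h1 : N / p = k := by rw [hk, Nat.mul_div_cancel_left _ hp'.pos]
  rw [h1] at h
  obtain ⟨j, rfl⟩ := h
  have h2 : p * p ∣ N := ⟨j, by rw [hk]; ring⟩
  exact hp'.one_lt.ne' (Nat.isUnit_iff.1 (hN.sqf p h2))

theorem jac_div_sq : J((N / p : ℕ) | p) ^ 2 = 1 := by
  apply jacobiSym.sq_one
  rw [Int.gcd_natCast_natCast]
  exact ((Nat.Prime.coprime_iff_not_dvd hp').2 (not_dvd_div hN hp' hpN)).symm

theorem hp_sq {n : ℕ} (hn : n ≠ 0) : hp N p n ^ 2 = 1 := by
  rw [hp, mul_pow, ← pow_mul, mul_comm _ 2, pow_mul, jac_div_sq hN hp' hpN, one_pow, mul_one]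
  apply jacobiSym.sq_one
  rw [Int.gcd_natCast_natCast]
  exact (Nat.coprime_ordCompl hp' hn).symm

theorem hp_self : hp N p p = J((N / p : ℕ) | p) := by
  rw [hp, hp'.factorization_self, pow_one, Nat.div_self hp'.pos, Nat.cast_one,
    jacobiSym.one_left, pow_one, one_mul]

theorem hp_form (n : ℕ) : ∀ a b : ℤ, a.natAbs + b.natAbs = n → a ^ 2 + N * b ^ 2 ≠ 0 →
    hp N p (a ^ 2 + N * b ^ 2).natAbs = 1 := by
  have hpZ : Prime (p : ℤ) := Nat.prime_iff_prime_int.1 hp'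
  induction n using Nat.strong_induction_on with
  | _ n IH =>
  intro a b hab h0
  by_cases ha : (p : ℤ) ∣ a
  · obtain ⟨a', rfl⟩ := ha
    by_cases hb : (p : ℤ) ∣ b
    · obtain ⟨b', rfl⟩ := hb
      have e : ((p : ℤ) * a') ^ 2 + N * (p * b') ^ 2 = (p : ℤ) ^ 2 * (a' ^ 2 + N * b' ^ 2) := by ring
      rw [e] at h0
      have h1 : a' ^ 2 + N * b' ^ 2 ≠ 0 := right_ne_zero_of_mul h0
      have h2 : a'.natAbs + b'.natAbs < n := by
        rw [Int.natAbs_mul, Int.natAbs_mul, Int.natAbs_natCast] at hab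
        have h3 : a'.natAbs + b'.natAbs ≠ 0 := by
          intro h
          apply h1
          have ha' : a' = 0 := Int.natAbs_eq_zero.1 (by omega)
          have hb' : b' = 0 := Int.natAbs_eq_zero.1 (by omega)
          rw [ha', hb']; ring
        have h4 : 1 < p := hp'.one_lt
        have h5 : 0 < a'.natAbs + b'.natAbs := Nat.pos_of_ne_zero h3
        calc a'.natAbs + b'.natAbs = 1 * (a'.natAbs + b'.natAbs) := (one_mul _).symm
          _ < p * (a'.natAbs + b'.natAbs) := Nat.mul_lt_mul_of_pos_right h4 h5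
          _ = n := by rw [mul_add, hab]
      rw [e, Int.natAbs_mul, Int.natAbs_pow, Int.natAbs_natCast,
        hp_mul (pow_ne_zero _ hp'.ne_zero) (Int.natAbs_ne_zero.2 h1), IH _ h2 a' b' rfl h1, sq,
        hp_mul hp'.ne_zero hp'.ne_zero, ← sq, hp_sq hN hp' hpN hp'.ne_zero, one_mul]
    · have hN' : (N : ℤ) = p * ((N / p : ℕ) : ℤ) := by
        rw [← Nat.cast_mul, Nat.mul_div_cancel' hpN]
      have e : ((p : ℤ) * a') ^ 2 + N * b ^ 2 = (p : ℤ) * (p * a' ^ 2 + (N / p : ℕ) * b ^ 2) := by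
        conv_lhs => rw [hN']
        ring
      rw [e] at h0 ⊢
      have h1 : (p : ℤ) * a' ^ 2 + (N / p : ℕ) * b ^ 2 ≠ 0 := right_ne_zero_of_mul h0
      have h3 : ¬ (p : ℤ) ∣ (p : ℤ) * a' ^ 2 + (N / p : ℕ) * b ^ 2 := by
        intro h
        have h4 : (p : ℤ) ∣ ((N / p : ℕ) : ℤ) * b ^ 2 := (dvd_add_right (dvd_mul_right _ _)).1 h
        rcases hpZ.dvd_or_dvd h4 with h5 | h5
        · exact not_dvd_div hN hp' hpN (Int.natCast_dvd_natCast.1 h5)
        · exact hb (hpZ.dvd_of_dvd_pow h5)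
      have h2 : ¬ p ∣ ((p : ℤ) * a' ^ 2 + (N / p : ℕ) * b ^ 2).natAbs := by
        rwa [← Int.natCast_dvd]
      have hcop : IsCoprime b (p : ℤ) := ((Prime.coprime_iff_not_dvd hpZ).2 hb).symm
      rw [Int.natAbs_mul, Int.natAbs_natCast, hp_mul hp'.ne_zero (Int.natAbs_ne_zero.2 h1),
        hp_self hN hp' hpN, hp_of_not_dvd h2]
      have hnn : (((p : ℤ) * a' ^ 2 + (N / p : ℕ) * b ^ 2).natAbs : ℤ) =
        (p : ℤ) * a' ^ 2 + (N / p : ℕ) * b ^ 2 := Int.natAbs_of_nonneg (by positivity)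
      rw [hnn]
      have h5 : J((p : ℤ) * a' ^ 2 + (N / p : ℕ) * b ^ 2 | p) = J((N / p : ℕ) * b ^ 2 | p) := by
        apply jacobiSym.mod_left'
        rw [add_comm, Int.add_mul_emod_self_left]
      rw [h5, jacobiSym.mul_left, jacobiSym.sq_one' (Int.isCoprime_iff_gcd_eq_one.1 hcop), mul_one,
        ← sq, jac_div_sq hN hp' hpN]
  · have hcop : IsCoprime a (p : ℤ) := ((Prime.coprime_iff_not_dvd hpZ).2 ha).symm
    have hnn : ((a ^ 2 + N * b ^ 2 : ℤ).natAbs : ℤ) = a ^ 2 + N * b ^ 2 :=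
      Int.natAbs_of_nonneg (by positivity)
    have hNb : (p : ℤ) ∣ N * b ^ 2 := (Int.natCast_dvd_natCast.2 hpN).mul_right _
    have h3 : ¬ (p : ℤ) ∣ a ^ 2 + N * b ^ 2 := by
      intro h
      exact ha (hpZ.dvd_of_dvd_pow ((dvd_add_left hNb).1 h))
    have h2 : ¬ p ∣ (a ^ 2 + N * b ^ 2 : ℤ).natAbs := by rwa [← Int.natCast_dvd]
    rw [hp_of_not_dvd h2, hnn]
    exact jac_eq_one hcop (by rwa [add_sub_cancel_left])

/-! ### the genus characters on classes -/

omit hp' hpN in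
theorem absNorm_ne_zero {I : Ideal (𝓞 (KN N))} (hI : I ≠ ⊥) : absNorm I ≠ 0 :=
  fun h => hI (absNorm_eq_zero_iff.1 h)

theorem hp_norm {x : 𝓞 (KN N)} (hx : x ≠ 0) : hp N p (absNorm (span {x})) = 1 := by
  have h0 : absNorm (span {x}) ≠ 0 := by
    apply absNorm_ne_zero hN
    rwa [Ne, Ideal.span_singleton_eq_bot]
  obtain ⟨a, b, rfl⟩ := exists_int_rep hN x
  rw [absNorm_rep hN.pos] at h0 ⊢
  exact hp_form hN hp' hpN _ a b rfl (Int.natAbs_ne_zero.1 h0)

theorem hp_congr {I I' : Ideal (𝓞 (KN N))} (hI : I ≠ ⊥) (hI' : I' ≠ ⊥) (h : cl I = cl I') :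
    hp N p (absNorm I) = hp N p (absNorm I') := by
  obtain ⟨x, y, hx, hy, hxy⟩ := (cl_eq_iff hI hI').1 h
  have h1 := congrArg (fun J => hp N p (absNorm J)) hxy
  have hx' : absNorm (span {x}) ≠ 0 := by
    apply absNorm_ne_zero hN
    rwa [Ne, Ideal.span_singleton_eq_bot]
  have hy' : absNorm (span {y}) ≠ 0 := by
    apply absNorm_ne_zero hN
    rwa [Ne, Ideal.span_singleton_eq_bot]
  simp only [map_mul] at h1
  rw [hp_mul hx' (absNorm_ne_zero hN hI), hp_mul hy' (absNorm_ne_zero hN hI'),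
    hp_norm hN hp' hpN hx, hp_norm hN hp' hpN hy, one_mul, one_mul] at h1
  exact h1

/-- the genus character -/
noncomputable def genHom : ClassGroup (𝓞 (KN N)) →* ℤ where
  toFun c := hp N p (absNorm (exists_cl c).choose)
  map_one' := by
    obtain ⟨h1, h2⟩ := (exists_cl (1 : ClassGroup (𝓞 (KN N)))).choose_spec
    have h3 : cl (⊤ : Ideal (𝓞 (KN N))) = 1 := cl_top
    rw [hp_congr hN hp' hpN h1 top_ne_bot (h2.trans h3.symm), absNorm_top, hp_of_not_dvd
      (fun h => hp'.one_lt.ne' (Nat.dvd_one.1 h)), Nat.cast_one, jacobiSym.one_left]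
  map_mul' c d := by
    obtain ⟨h1, h2⟩ := (exists_cl c).choose_spec
    obtain ⟨h3, h4⟩ := (exists_cl d).choose_spec
    obtain ⟨h5, h6⟩ := (exists_cl (c * d)).choose_spec
    rw [hp_congr hN hp' hpN h5 (mul_ne_zero h1 h3) (by rw [h6, cl_mul h1 h3, h2, h4]), map_mul,
      hp_mul (absNorm_ne_zero hN h1) (absNorm_ne_zero hN h3)]

theorem genHom_cl {I : Ideal (𝓞 (KN N))} (hI : I ≠ ⊥) :
    genHom hN hp' hpN (cl I) = hp N p (absNorm I) := by
  obtain ⟨h1, h2⟩ := (exists_cl (cl I)).choose_spec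
  exact hp_congr hN hp' hpN h1 hI h2

end Fermat.Agent.TwoAdic.Genus
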