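import Fermat.Agent.TwoAdic.GenusC

/-!
# Genus theory of imaginary quadratic fields, part D: the genus map is surjective and its kernel
is the group of squares
-/

set_option autoImplicit false
set_option linter.unusedSectionVars false

open Ideal nonZeroDivisors NumberField NumberTheorySymbols

namespace Fermat.Agent.TwoAdic.Genus

variable {N : ℕ}

/-- the odd primes dividing `N` -/
abbrev OP (N : ℕ) : Type := {p // p ∈ N.primeFactors.erase 2}

theorem OP.prime (p : OP N) : (p : ℕ).Prime :=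
  Nat.prime_of_mem_primeFactors (Finset.mem_of_mem_erase p.2)

theorem OP.dvd (p : OP N) : (p : ℕ) ∣ N :=
  Nat.dvd_of_mem_primeFactors (Finset.mem_of_mem_erase p.2)

theorem OP.ne_two (p : OP N) : (p : ℕ) ≠ 2 := Finset.ne_of_mem_erase p.2

/-- the genus map -/
noncomputable def genus (hN : IsLev N) : ClassGroup (𝓞 (KN N)) →* (OP N → ℤˣ) :=
  MonoidHom.pi fun p => (genHom hN p.prime p.dvd).toHomUnits

theorem genus_apply (hN : IsLev N) (c : ClassGroup (𝓞 (KN N))) (p : OP N) :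
    ((genus hN c p : ℤˣ) : ℤ) = genHom hN p.prime p.dvd c := rfl

theorem genus_cl (hN : IsLev N) {P : Ideal (𝓞 (KN N))} {l : ℕ} (hl : l.Prime) (hlN : ¬ l ∣ N)
    (hP : absNorm P = l) (p : OP N) : ((genus hN (cl P) p : ℤˣ) : ℤ) = J(l | p) := by
  have h1 : P ≠ ⊥ := by
    rintro rfl
    rw [absNorm_bot] at hP
    exact hl.ne_zero hP.symm
  rw [genus_apply, genHom_cl hN p.prime p.dvd h1, hP, hp_of_not_dvd]
  intro h
  exact hlN (((Nat.prime_dvd_prime_iff_eq p.prime hl).1 h) ▸ p.dvd)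

/-! ### Dirichlet's theorem -/

theorem exists_residue {p : ℕ} (hp : p.Prime) (hp2 : p ≠ 2) (s : ℤˣ) :
    ∃ r : ℕ, J(r | p) = s := by
  have := Fact.mk hp
  rcases Int.units_eq_one_or s with rfl | rfl
  · exact ⟨1, by rw [Nat.cast_one, jacobiSym.one_left, Units.val_one]⟩
  · obtain ⟨a, ha⟩ := FiniteField.exists_nonsquare (F := ZMod p)
      (by rwa [ZMod.ringChar_zmod_n])
    refine ⟨a.val, ?_⟩
    rw [← jacobiSym.legendreSym.to_jacobiSym, Units.val_neg, Units.val_one,
      legendreSym.eq_neg_one_iff]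
    rwa [Int.cast_natCast, ZMod.natCast_zmod_val]

theorem jac_congr {p a b : ℕ} (h : a ≡ b [MOD p]) : J(a | p) = J(b | p) := by
  apply jacobiSym.mod_left'
  exact_mod_cast congrArg (Nat.cast : ℕ → ℤ) h

/-- the odd part of `N` -/
theorem half_props (hN : IsLev N) : N = 2 * (N / 2) ∧ Odd (N / 2) ∧ N / 2 ≠ 0 := by
  have h1 : N = 2 * (N / 2) := (Nat.mul_div_cancel' hN.two_dvd).symm
  refine ⟨h1, ?_, fun h => ?_⟩
  · rw [← Nat.not_even_iff_odd, even_iff_two_dvd]
    intro ⟨k, hk⟩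
    have h2 : 2 * 2 ∣ N := ⟨k, by rw [h1, hk]; ring⟩
    exact absurd (Nat.isUnit_iff.1 (hN.sqf 2 h2)) (by norm_num)
  · rw [h, mul_zero] at h1
    have := hN.two_lt
    omega

theorem exists_res (hN : IsLev N) (s : OP N → ℤˣ) :
    ∃ r : ℕ, (∀ p : OP N, J(r | p) = s p) ∧ Nat.Coprime r (N / 2) := by
  classical
  choose f hf using fun p : OP N => exists_residue p.prime p.ne_two (s p)
  obtain ⟨r, hr⟩ := Nat.chineseRemainderOfFinset f (fun p : OP N => (p : ℕ)) Finset.univ
    (fun p _ => p.prime.ne_zero) (fun p _ q _ hpq =>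
      (Nat.coprime_primes p.prime q.prime).2 fun h => hpq (Subtype.ext h))
  have h1 : ∀ p : OP N, J(r | p) = s p := fun p => by
    rw [← hf p]
    exact jac_congr (hr p (Finset.mem_univ _))
  refine ⟨r, h1, ?_⟩
  rw [Nat.coprime_comm, Nat.coprime_iff_gcd_eq_one]
  by_contra hne
  obtain ⟨q, hq, hqd⟩ := Nat.exists_prime_and_dvd hne
  have hq1 : q ∣ N / 2 := hqd.trans (Nat.gcd_dvd_left _ _)
  have hq2 : q ∣ r := hqd.trans (Nat.gcd_dvd_right _ _)
  obtain ⟨h2, h3, h4⟩ := half_props hN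
  have hq3 : q ≠ 2 := by
    rintro rfl
    exact (Nat.not_even_iff_odd.2 h3) (even_iff_two_dvd.2 hq1)
  have hqm : q ∈ N.primeFactors.erase 2 := by
    rw [Finset.mem_erase, Nat.mem_primeFactors]
    exact ⟨hq3, hq, hq1.trans (Nat.div_dvd_of_dvd hN.two_dvd), hN.sqf.ne_zero⟩
  have h5 := h1 ⟨q, hqm⟩
  have h6 : J(r | q) = 0 := by
    have : NeZero q := ⟨hq.ne_zero⟩
    rw [jacobiSym.eq_zero_iff_not_coprime, Int.gcd_natCast_natCast, Nat.gcd_eq_right hq2]
    exact hq.one_lt.ne'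
  rw [show J(r | ((⟨q, hqm⟩ : OP N) : ℕ)) = J(r | q) from rfl, h6] at h5
  exact (s ⟨q, hqm⟩).ne_zero h5.symm

/-- `J(-N | l)` for `l = 1 mod 4` -/
theorem jac_neg (hN : IsLev N) {l : ℕ} (hl4 : l % 4 = 1) :
    J(-(N : ℤ) | l) = J(2 | l) * J(l | N / 2) := by
  obtain ⟨h2, h3, h4⟩ := half_props hN
  have hodd : Odd l := by rw [Nat.odd_iff]; omega
  have e : -(N : ℤ) = -1 * 2 * ((N / 2 : ℕ) : ℤ) := by
    conv_lhs => rw [h2]
    push_cast
    ring
  have h5 : J(-1 | l) = 1 := by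
    rw [jacobiSym.at_neg_one hodd, ZMod.χ₄_nat_one_mod_four hl4]
  rw [e, jacobiSym.mul_left, jacobiSym.mul_left, h5, one_mul,
    jacobiSym.quadratic_reciprocity_one_mod_four hl4 h3]

theorem exists_dirichlet (hN : IsLev N) (s : OP N → ℤˣ) (B : ℕ) :
    ∃ l : ℕ, l.Prime ∧ B < l ∧ l % 4 = 1 ∧ J(-(N : ℤ) | l) = 1 ∧ ∀ p : OP N, J(l | p) = s p := by
  obtain ⟨r, hr, hrc⟩ := exists_res hN s
  obtain ⟨h2, h3, h4⟩ := half_props hN
  -- the residue modulo `8`
  obtain ⟨e, he4, he⟩ : ∃ e : ℕ, e % 4 = 1 ∧ ∀ l : ℕ, l ≡ e [MOD 8] → J(2 | l) * J(r | N / 2) = 1 := by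
    have h5 : J(r | N / 2) = 1 ∨ J(r | N / 2) = -1 := by
      apply jacobiSym.eq_one_or_neg_one
      rw [Int.gcd_natCast_natCast]
      exact hrc
    rcases h5 with h5 | h5
    · refine ⟨1, rfl, fun l hl => ?_⟩
      have hl' : l % 8 = 1 := hl
      have hodd : Odd l := by rw [Nat.odd_iff]; omega
      rw [h5, mul_one, jacobiSym.at_two hodd, ZMod.χ₈_nat_eq_if_mod_eight]
      simp [show l % 2 = 1 by omega, hl']
    · refine ⟨5, rfl, fun l hl => ?_⟩
      have hl' : l % 8 = 5 := hl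
      have hodd : Odd l := by rw [Nat.odd_iff]; omega
      rw [h5, jacobiSym.at_two hodd, ZMod.χ₈_nat_eq_if_mod_eight]
      simp [show l % 2 = 1 by omega, hl']
  have hcop : Nat.Coprime 8 (N / 2) := by
    have : Nat.Coprime 2 (N / 2) := (Nat.coprime_two_left).2 h3
    exact Nat.Coprime.pow_left 3 this
  obtain ⟨u, hu1, hu2⟩ := Nat.chineseRemainder hcop e r
  have hu : Nat.Coprime u (8 * (N / 2)) := by
    apply Nat.Coprime.mul_right
    · have h6 : u % 4 = 1 := by
        have : u % 8 = e % 8 := hu1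
        omega
      have : Nat.Coprime u 2 := by rw [Nat.coprime_two_right, Nat.odd_iff]; omega
      exact Nat.Coprime.pow_right 3 this
    · have := hu2.gcd_eq
      rw [Nat.Coprime, this]
      exact hrc
  have : NeZero (8 * (N / 2)) := ⟨mul_ne_zero (by norm_num) h4⟩
  obtain ⟨l, hBl, hl, hlu⟩ := Nat.forall_exists_prime_gt_and_eq_mod
    ((ZMod.unitOfCoprime u hu).isUnit) B
  rw [ZMod.coe_unitOfCoprime, ZMod.natCast_eq_natCast_iff] at hlu
  have hl8 : l ≡ e [MOD 8] := (hlu.of_mul_right _).trans hu1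
  have hlr : l ≡ r [MOD N / 2] := (hlu.of_mul_left _).trans hu2
  have hl4 : l % 4 = 1 := by
    have : l % 8 = e % 8 := hl8
    omega
  refine ⟨l, hl, hBl, hl4, ?_, fun p => ?_⟩
  · rw [jac_neg hN hl4, jac_congr hlr]
    exact he l hl8
  · have hpd : (p : ℕ) ∣ N / 2 := by
      have h7 : (p : ℕ) ∣ 2 * (N / 2) := by rw [← h2]; exact p.dvd
      rcases (Nat.Prime.dvd_mul p.prime).1 h7 with h8 | h8
      · exact absurd ((Nat.prime_dvd_prime_iff_eq p.prime Nat.prime_two).1 h8) p.ne_two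
      · exact h8
    rw [jac_congr (hlr.of_dvd hpd), hr]

/-- split primes -/
theorem exists_split {l : ℕ} (hl : l.Prime) (h : J(-(N : ℤ) | l) = 1) :
    ∃ b : ℤ, (l : ℤ) ∣ b ^ 2 + N := by
  have := Fact.mk hl
  rw [← jacobiSym.legendreSym.to_jacobiSym] at h
  have h0 : (((-(N : ℤ) : ℤ)) : ZMod l) ≠ 0 := by
    intro h0
    rw [(legendreSym.eq_zero_iff l _).2 h0] at h
    exact zero_ne_one h
  obtain ⟨x, hx⟩ := (legendreSym.eq_one_iff l h0).1 h
  refine ⟨(x.val : ℤ), ?_⟩
  rw [← ZMod.intCast_zmod_eq_zero_iff_dvd]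
  push_cast at hx ⊢
  rw [ZMod.natCast_zmod_val, sq, ← hx]
  ring

theorem not_dvd_of_lt {l : ℕ} (hN : IsLev N) (h : 2 * N < l) : ¬ l ∣ 2 * N := fun h1 =>
  absurd (Nat.le_of_dvd (Nat.mul_pos two_pos hN.pos) h1) (by omega)

/-- the genus map is surjective -/
theorem genus_surjective (hN : IsLev N) : Function.Surjective (genus hN) := by
  intro s
  obtain ⟨l, hl, hBl, hl4, hJ, hs⟩ := exists_dirichlet hN s (2 * N)
  obtain ⟨b, hb⟩ := exists_split hl hJ
  have hl2 := not_dvd_of_lt hN hBl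
  refine ⟨cl (ps N l b), ?_⟩
  ext p
  rw [genus_cl hN hl (fun h => hl2 (h.mul_left 2)) (absNorm_ps hN hl hl2 hb), hs]

/-- counting: the kernel of a surjection onto an elementary abelian `2`-group which is at least as
big as the `2`-torsion consists of squares -/
theorem exists_sq_aux {G H : Type*} [CommGroup G] [Finite G] [CommGroup H] (f : G →* H)
    (hf : Function.Surjective f) (hH : ∀ h : H, h ^ 2 = 1)
    (hcard : Nat.card {c : G // c ^ 2 = 1} ≤ Nat.card H) {c : G} (hc : f c = 1) :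
    ∃ d, c = d ^ 2 := by
  let sq : G →* G := powMonoidHom 2
  have h1 : sq.range ≤ f.ker := by
    rintro _ ⟨d, rfl⟩
    rw [MonoidHom.mem_ker]
    change f (d ^ 2) = 1
    rw [map_pow, hH]
  have h2 : Nat.card sq.ker ≤ Nat.card H := by
    refine le_trans (le_of_eq ?_) hcard
    rfl
  have h4 : Nat.card G = Nat.card sq.range * Nat.card sq.ker := by
    have e1 := Subgroup.card_eq_card_quotient_mul_card_subgroup sq.ker
    rw [e1, Nat.card_congr (QuotientGroup.quotientKerEquivRange sq).toEquiv]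
  have h5 : Nat.card G = Nat.card H * Nat.card f.ker := by
    have e1 := Subgroup.card_eq_card_quotient_mul_card_subgroup f.ker
    rw [e1, Nat.card_congr (QuotientGroup.quotientKerEquivOfSurjective f hf).toEquiv]
  have h6 : Nat.card f.ker ≤ Nat.card sq.range := by
    have h7 : 0 < Nat.card H := by
      have : Finite H := Finite.of_surjective f hf
      exact Nat.card_pos
    have h8 : Nat.card f.ker * Nat.card H ≤ Nat.card sq.range * Nat.card H := by
      rw [mul_comm, ← h5, h4]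
      exact Nat.mul_le_mul_left _ h2
    exact Nat.le_of_mul_le_mul_right h8 h7
  have h9 : sq.range = f.ker := Subgroup.eq_of_le_of_card_ge h1 h6
  have h10 : c ∈ sq.range := by rw [h9]; exact hc
  obtain ⟨d, hd⟩ := h10
  exact ⟨d, hd.symm⟩

/-- the kernel of the genus map is the group of squares -/
theorem exists_sq_of_genus_eq_one (hN : IsLev N) {c : ClassGroup (𝓞 (KN N))}
    (hc : genus hN c = 1) : ∃ d, c = d ^ 2 := by
  refine exists_sq_aux (genus hN) (genus_surjective hN) (fun h => ?_) ?_ hc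
  · ext p
    rw [Pi.pow_apply, Pi.one_apply, Int.units_sq]
  · have h3 : Nat.card (OP N → ℤˣ) = 2 ^ (N.primeFactors.erase 2).card := by
      rw [Nat.card_eq_fintype_card, Fintype.card_fun, Fintype.card_units_int, Fintype.card_coe]
    rw [h3]
    exact (quadData hN).card_two_torsion_le hN.sqf hN.two_dvd

end Fermat.Agent.TwoAdic.Genus
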