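import Fermat.Agent.TwoAdic.GenusD
import Fermat.Agent.Cheb.Bridge

/-!
# Genus theory of imaginary quadratic fields, part E: Frobenius elements with prescribed genus
-/

set_option autoImplicit false
set_option linter.unusedSectionVars false

open Ideal nonZeroDivisors NumberField NumberTheorySymbols

namespace Fermat.Agent.TwoAdic.Genus

local notation "Qbar" => AlgebraicClosure ℚ
local notation "Γℚ" => (AlgebraicClosure ℚ ≃ₐ[ℚ] AlgebraicClosure ℚ)

open Fermat.Agent.Frob Fermat.Agent.Cheb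

variable {N : ℕ}

/-- the action of Frobenius on square roots -/
theorem frob_sqrt {l : ℕ} (hl : l.Prime) (hl2 : l ≠ 2) {A : ValuationSubring Qbar}
    (hA : A.LiesOverPrime l) {φ : Γℚ} (hφ : A.IsFrobeniusAt φ l) {d : ℤ} (hd : ¬ (l : ℤ) ∣ d)
    {y : Qbar} (hy : y ^ 2 = d) : φ y = (J(d | l) : ℤ) * y := by
  have := Fact.mk hl
  have hyi : IsIntegral ℤ y := by
    apply IsIntegral.of_pow (n := 2) two_pos
    rw [hy]
    exact isIntegral_algebraMap (R := ℤ) (A := Qbar) (x := d)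
  have hyA : y ∈ A := mem_of_isIntegral A hyi
  have h1 : A.valuation (φ y - y ^ l) < 1 :=
    (ValuationSubring.mem_nonunits_iff _).1 (((isFrobeniusAt_iff A φ l).1 hφ).2 y hyA)
  have hlodd : l = 2 * (l / 2) + 1 := by
    rcases hl.eq_two_or_odd with h | h <;> omega
  have h2 : y ^ l = y * (d : Qbar) ^ (l / 2) := by
    conv_lhs => rw [hlodd]
    rw [pow_succ, pow_mul, hy]
    ring
  have h3 : (l : ℤ) ∣ d ^ (l / 2) - J(d | l) := by
    rw [← ZMod.intCast_zmod_eq_zero_iff_dvd]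
    push_cast
    rw [← jacobiSym.legendreSym.to_jacobiSym, legendreSym.eq_pow, sub_self]
  have hl1 : A.valuation (l : Qbar) < 1 := (ValuationSubring.mem_nonunits_iff _).1 hA
  have h4 : A.valuation (y * ((d : Qbar) ^ (l / 2) - (J(d | l) : ℤ))) < 1 := by
    obtain ⟨k, hk⟩ := h3
    have e : (d : Qbar) ^ (l / 2) - (J(d | l) : ℤ) = l * k := by
      exact_mod_cast congrArg (Int.cast : ℤ → Qbar) hk
    have e2 : y * (l * (k : Qbar)) = l * (y * k) := by ring
    rw [e, e2, map_mul]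
    have hk1 : A.valuation (y * k) ≤ 1 := (A.valuation_le_one_iff _).2
      (A.mul_mem _ _ hyA (mem_of_isIntegral A (isIntegral_algebraMap (R := ℤ) (A := Qbar) (x := k))))
    exact mul_lt_one_of_lt_of_le hl1 hk1
  have h5 : A.valuation (φ y - (J(d | l) : ℤ) * y) < 1 := by
    have e : φ y - (J(d | l) : ℤ) * y = (φ y - y ^ l) +
        y * ((d : Qbar) ^ (l / 2) - (J(d | l) : ℤ)) := by
      rw [h2]; ring
    rw [e]
    exact A.valuation.map_add_lt h1 h4
  have h6 : φ y = y ∨ φ y = -y := by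
    have : (φ y) ^ 2 = y ^ 2 := by rw [← map_pow, hy, map_intCast]
    exact sq_eq_sq_iff_eq_or_eq_neg.1 this
  have hgcd : d.gcd l = 1 := by
    rw [← Int.isCoprime_iff_gcd_eq_one]
    exact ((Prime.coprime_iff_not_dvd (Nat.prime_iff_prime_int.1 hl)).2 hd).symm
  have h2y : ¬ A.valuation (2 * y) < 1 := by
    intro h
    have h7 : A.valuation ((2 * y) ^ 2) < 1 := by
      rw [map_pow]
      exact pow_lt_one₀ zero_le h two_ne_zero
    have e : (2 * y) ^ 2 = ((4 * d : ℤ) : Qbar) := by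
      rw [mul_pow, hy]; push_cast; ring
    rw [e] at h7
    refine natCast_notMem_nonunits A hl hA (a := 4 * d) (fun h8 => ?_)
      ((ValuationSubring.mem_nonunits_iff _).2 h7)
    rcases (Nat.prime_iff_prime_int.1 hl).dvd_or_dvd h8 with h9 | h9
    · have h10 : (l : ℤ) ∣ 2 ^ 2 := by norm_num; exact h9
      have h11 := (Nat.prime_iff_prime_int.1 hl).dvd_of_dvd_pow h10
      exact hl2 ((Nat.prime_dvd_prime_iff_eq hl Nat.prime_two).1 (by exact_mod_cast h11))
    · exact hd h9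
  rcases jacobiSym.eq_one_or_neg_one hgcd with hJ | hJ
  · rw [hJ] at h5 ⊢
    rcases h6 with h6 | h6
    · rw [h6]; simp
    · exfalso
      apply h2y
      have e : φ y - ((1 : ℤ) : Qbar) * y = -(2 * y) := by rw [h6]; push_cast; ring
      rwa [e, Valuation.map_neg] at h5
  · rw [hJ] at h5 ⊢
    rcases h6 with h6 | h6
    · exfalso
      apply h2y
      have e : φ y - ((-1 : ℤ) : Qbar) * y = 2 * y := by rw [h6]; push_cast; ring
      rwa [e] at h5
    · rw [h6]; simp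

/-- a square root -/
noncomputable def sqr (d : ℤ) : Qbar :=
  (IsAlgClosed.exists_pow_nat_eq (d : Qbar) (n := 2) two_pos).choose

theorem sqr_sq (d : ℤ) : sqr d ^ 2 = d :=
  (IsAlgClosed.exists_pow_nat_eq (d : Qbar) (n := 2) two_pos).choose_spec

theorem sqr_ne_zero {d : ℤ} (hd : d ≠ 0) : sqr d ≠ 0 := by
  intro h
  have := sqr_sq d
  rw [h] at this
  apply hd
  have h2 : (d : Qbar) = 0 := by rw [← this]; simp
  exact_mod_cast h2

theorem isIntegral_sqr (d : ℤ) : IsIntegral ℚ (sqr d) := by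
  apply IsIntegral.of_pow (n := 2) two_pos
  rw [sqr_sq]
  exact isIntegral_algebraMap (R := ℚ) (A := Qbar) (x := (d : ℚ)) |> fun h => by simpa using h

theorem fixK_iff (hN : 0 < N) (σ : Γℚ) : FixK N σ ↔ σ (nu0 N) = nu0 N := by
  constructor
  · intro h
    exact h _ (nuK N).2
  · intro h x hx
    obtain ⟨a, b, hab⟩ := exists_rep hN ⟨x, hx⟩
    have h1 : x = algebraMap ℚ Qbar a + algebraMap ℚ Qbar b * nu0 N := congrArg Subtype.val hab
    rw [h1, map_add, map_mul, AlgEquiv.commutes, AlgEquiv.commutes, h]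

/-- squares act trivially on square roots of rational integers -/
theorem sq_sqrt (γ : Γℚ) {d : ℤ} {y : Qbar} (hy : y ^ 2 = d) : (γ * γ) y = y := by
  have h6 : γ y = y ∨ γ y = -y := by
    have : (γ y) ^ 2 = y ^ 2 := by rw [← map_pow, hy, map_intCast]
    exact sq_eq_sq_iff_eq_or_eq_neg.1 this
  change γ (γ y) = y
  rcases h6 with h | h
  · rw [h, h]
  · rw [h, map_neg, h, neg_neg]

/-- the prime of `K` below a place above a split prime -/
theorem absNorm_below (hN : IsLev N) {l : ℕ} (hl : l.Prime) (hlN : ¬ l ∣ 2 * N)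
    (h : J(-(N : ℤ) | l) = 1) {A : ValuationSubring Qbar} (hA : A.LiesOverPrime l) :
    absNorm (below (KN N) A) = l := by
  obtain ⟨b, hb⟩ := exists_split hl h
  have hb' : (l : ℤ) ∣ (-b) ^ 2 + N := by rwa [neg_sq]
  have hle : ps N l b * ps N l (-b) ≤ below (KN N) A := by
    rw [ps_mul hN hl hlN hb, span_singleton_le_iff_mem]
    exact natCast_mem_below (KN N) hA
  have hne : below (KN N) A ≠ ⊤ := Ideal.IsPrime.ne_top inferInstance
  rcases (Ideal.IsPrime.mul_le (inferInstance : (below (KN N) A).IsPrime)).1 hle with h1 | h1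
  · have h2 : (ps N l b).IsMaximal := (ps_isPrime hN hl hlN hb).isMaximal (ps_ne_bot hN hl hlN hb)
    rw [← h2.eq_of_le hne h1, absNorm_ps hN hl hlN hb]
  · have h2 : (ps N l (-b)).IsMaximal :=
      (ps_isPrime hN hl hlN hb').isMaximal (ps_ne_bot hN hl hlN hb')
    rw [← h2.eq_of_le hne h1, absNorm_ps hN hl hlN hb']

theorem not_dvd_neg_one {l : ℕ} (hl : l.Prime) : ¬ (l : ℤ) ∣ -1 := by
  rw [Int.dvd_neg]
  intro h
  exact hl.one_lt.ne' (Nat.dvd_one.1 (by exact_mod_cast h))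

theorem not_dvd_op {l : ℕ} (hlN : ¬ l ∣ 2 * N) (p : OP N) :
    ¬ (l : ℤ) ∣ ((p : ℕ) : ℤ) := by
  intro h
  exact hlN (((Int.natCast_dvd_natCast.1 h).trans p.dvd).mul_left 2)

theorem not_dvd_neg_N {l : ℕ} (hlN : ¬ l ∣ 2 * N) : ¬ (l : ℤ) ∣ -(N : ℤ) := by
  rw [Int.dvd_neg]
  intro h
  exact hlN ((Int.natCast_dvd_natCast.1 h).mul_left 2)

/-- **Frobenius elements in `G_K` with prescribed genus and nontrivial image under `χ`** -/
theorem exists_good (hN : IsLev N) {M : Type} [Monoid M] (χ : Γℚ →* M)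
    (hχ : GaloisFactorsThroughFiniteLevel χ) {γ : Γℚ} (hγ2 : χ (γ * γ) ≠ 1)
    (S : Finset ℕ) {s : OP N → ℤˣ} (hs : s ≠ 1) :
    ∃ l : ℕ, l.Prime ∧ l ∉ S ∧ ¬ l ∣ 2 * N ∧ ∃ A : ValuationSubring Qbar, A.LiesOverPrime l ∧
      ∃ φ : Γℚ, A.IsFrobeniusAt φ l ∧ FixK N φ ∧ χ φ ≠ 1 ∧
        absNorm (below (KN N) A) = l ∧ genus hN (cl (below (KN N) A)) = s := by
  classical
  -- Dirichlet
  obtain ⟨l0, hl0, hBl0, hl04, hJ0, hs0⟩ := exists_dirichlet hN s (2 * N)
  have hl0N := not_dvd_of_lt hN hBl0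
  have hl02 : l0 ≠ 2 := by rintro rfl; norm_num at hl04
  have hl0odd : Odd l0 := hl0.odd_of_ne_two hl02
  obtain ⟨A0, hA0⟩ := exists_liesOverPrime Qbar hl0
  obtain ⟨σ0, hσ0⟩ := exists_isFrobeniusAt A0 hl0 hA0
  have hi0 : σ0 (sqr (-1)) = sqr (-1) := by
    rw [frob_sqrt hl0 hl02 hA0 hσ0 (not_dvd_neg_one hl0) (sqr_sq (-1)),
      jacobiSym.at_neg_one hl0odd, ZMod.χ₄_nat_one_mod_four hl04, Int.cast_one, one_mul]
  have hν0 : σ0 (nu0 N) = nu0 N := by
    have hy : nu0 N ^ 2 = ((-(N : ℤ) : ℤ) : Qbar) := by rw [nu0_sq]; push_cast; rfl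
    rw [frob_sqrt hl0 hl02 hA0 hσ0 (not_dvd_neg_N hl0N) hy, hJ0, Int.cast_one, one_mul]
  have hp0 : ∀ p : OP N, σ0 (sqr (p : ℕ)) = ((s p : ℤ) : Qbar) * sqr (p : ℕ) := fun p => by
    rw [frob_sqrt hl0 hl02 hA0 hσ0 (not_dvd_op hl0N p) (sqr_sq _),
      ← jacobiSym.quadratic_reciprocity_one_mod_four hl04 (p.prime.odd_of_ne_two p.ne_two), hs0 p]
  -- change `σ0` to get a nontrivial value of `χ`
  obtain ⟨σ, hσχ, hi, hν, hp⟩ : ∃ σ : Γℚ, χ σ ≠ 1 ∧ σ (sqr (-1)) = sqr (-1) ∧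
      σ (nu0 N) = nu0 N ∧ ∀ p : OP N, σ (sqr (p : ℕ)) = ((s p : ℤ) : Qbar) * sqr (p : ℕ) := by
    by_cases h : χ σ0 = 1
    · refine ⟨σ0 * (γ * γ), by rwa [map_mul, h, one_mul], ?_, ?_, fun p => ?_⟩
      · rw [AlgEquiv.mul_apply, sq_sqrt γ (sqr_sq _), hi0]
      · have hy : nu0 N ^ 2 = ((-(N : ℤ) : ℤ) : Qbar) := by rw [nu0_sq]; push_cast; rfl
        rw [AlgEquiv.mul_apply, sq_sqrt γ hy, hν0]
      · rw [AlgEquiv.mul_apply, sq_sqrt γ (sqr_sq _), hp0]
    · exact ⟨σ0, h, hi0, hν0, hp0⟩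
  -- the field
  obtain ⟨F1, hF1, hχ⟩ := hχ
  let T : Set Qbar := {sqr (-1), nu0 N} ∪ Set.range fun p : OP N => sqr (p : ℕ)
  have hT : T.Finite := (Set.toFinite _).union (Set.finite_range _)
  have : FiniteDimensional ℚ (IntermediateField.adjoin ℚ T) := by
    have := hT.to_subtype
    apply IntermediateField.finiteDimensional_adjoin
    rintro x ((rfl | hx) | ⟨p, rfl⟩)
    · exact isIntegral_sqr _
    · rw [Set.mem_singleton_iff] at hx
      rw [hx]
      exact isIntegral_nu0' N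
    · exact isIntegral_sqr _
  have := hF1
  obtain ⟨l, hl, hlS, -, A, hA, φ, hφ, ⟨k, hk⟩, ⟨j, hj⟩⟩ :=
    exists_frobenius (F1 ⊔ IntermediateField.adjoin ℚ T) σ (S ∪ (2 * N).primeFactors)
  have hTF : ∀ x ∈ T, x ∈ F1 ⊔ IntermediateField.adjoin ℚ T := fun x hx =>
    (le_sup_right : IntermediateField.adjoin ℚ T ≤ _) (IntermediateField.subset_adjoin ℚ T hx)
  have hiT : sqr (-1) ∈ T := Or.inl (Or.inl rfl)
  have hνT : nu0 N ∈ T := Or.inl (Or.inr rfl)
  have hpT : ∀ p : OP N, sqr (p : ℕ) ∈ T := fun p => Or.inr ⟨p, rfl⟩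
  have hl2N : ¬ l ∣ 2 * N := by
    intro h
    apply hlS
    rw [Finset.mem_union, Nat.mem_primeFactors]
    exact Or.inr ⟨hl, h, (Nat.mul_pos two_pos hN.pos).ne'⟩
  have hl2 : l ≠ 2 := by rintro rfl; exact hl2N (dvd_mul_right _ _)
  have hlodd : Odd l := hl.odd_of_ne_two hl2
  have hpow : ∀ (τ : Γℚ) (x : Qbar) (e : Qbar) (_ : ∀ m : ℕ, τ (e ^ m) = e ^ m), τ x = e * x →
      ∀ m : ℕ, (τ ^ m) x = e ^ m * x := by
    intro τ x e he h m
    induction m with
    | zero => simp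
    | succ m ih =>
      rw [pow_succ', AlgEquiv.mul_apply, ih, map_mul, he, h, pow_succ]
      ring
  have hfixpow : ∀ (τ : Γℚ) (x : Qbar), τ x = x → ∀ m : ℕ, (τ ^ m) x = x := by
    intro τ x h m
    have := hpow τ x 1 (fun m => by rw [one_pow, map_one]) (by rwa [one_mul]) m
    rwa [one_pow, one_mul] at this
  have hφi : φ (sqr (-1)) = sqr (-1) := by rw [hj _ (hTF _ hiT), hfixpow _ _ hi]
  have hφν : φ (nu0 N) = nu0 N := by rw [hj _ (hTF _ hνT), hfixpow _ _ hν]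
  have hcast : ∀ (τ : Γℚ) (z : ℤ) (m : ℕ), τ ((z : Qbar) ^ m) = (z : Qbar) ^ m := fun τ z m => by
    rw [map_pow, map_intCast]
  -- the exponent is odd
  have hj2 : Odd j := by
    obtain ⟨p, hpne⟩ : ∃ p, s p ≠ 1 := by
      by_contra h
      push Not at h
      exact hs (funext h)
    have hsp : s p = -1 := (Int.units_eq_one_or (s p)).resolve_left hpne
    rw [← Nat.not_even_iff_odd]
    intro hev
    have h1 : φ (sqr (p : ℕ)) = sqr (p : ℕ) := by
      rw [hj _ (hTF _ (hpT p)), hpow σ _ _ (hcast σ _) (hp p), hsp]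
      push_cast
      rw [hev.neg_one_pow, one_mul]
    have h2 : σ (sqr (p : ℕ)) = sqr (p : ℕ) := by
      rw [hk _ (hTF _ (hpT p)), hfixpow _ _ h1]
    rw [hp, hsp] at h2
    have h3 : sqr ((p : ℕ) : ℤ) ≠ 0 := sqr_ne_zero (Nat.cast_ne_zero.2 p.prime.ne_zero)
    have h4 : (2 : Qbar) * sqr ((p : ℕ) : ℤ) = 0 := by
      have h5 : ((((-1 : ℤˣ) : ℤ)) : Qbar) = -1 := by push_cast; rfl
      rw [h5] at h2
      linear_combination -h2
    exact (mul_ne_zero two_ne_zero h3) h4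
  have hφp : ∀ p : OP N, φ (sqr (p : ℕ)) = ((s p : ℤ) : Qbar) * sqr (p : ℕ) := fun p => by
    rw [hj _ (hTF _ (hpT p)), hpow σ _ _ (hcast σ _) (hp p)]
    congr 1
    rcases Int.units_eq_one_or (s p) with h | h
    · rw [h]; push_cast; rw [one_pow]
    · rw [h]; push_cast; rw [hj2.neg_one_pow]
  -- from the action on square roots to symbols
  have hJof : ∀ (d : ℤ) (e : ℤˣ) (y : Qbar), ¬ (l : ℤ) ∣ d → y ^ 2 = d →
      φ y = ((e : ℤ) : Qbar) * y → J(d | l) = e := by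
    intro d e y hd hy h
    rw [frob_sqrt hl hl2 hA hφ hd hy] at h
    have hy0 : y ≠ 0 := by
      rintro rfl
      apply hd
      have : (d : Qbar) = 0 := by rw [← hy]; simp
      rw [Int.cast_eq_zero.1 this]
      exact dvd_zero _
    exact_mod_cast mul_right_cancel₀ hy0 h
  have hl4 : l % 4 = 1 := by
    have h1 := hJof (-1) 1 (sqr (-1)) (not_dvd_neg_one hl) (sqr_sq _) (by simpa using hφi)
    rw [jacobiSym.at_neg_one hlodd] at h1
    rcases Nat.odd_mod_four_iff.1 (Nat.odd_iff.1 hlodd) with h | h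
    · exact h
    · rw [ZMod.χ₄_nat_three_mod_four h] at h1
      norm_num at h1
  have hJN : J(-(N : ℤ) | l) = 1 :=
    hJof (-(N : ℤ)) 1 (nu0 N) (not_dvd_neg_N hl2N) (by rw [nu0_sq]; push_cast; rfl)
      (by simpa using hφν)
  have hnorm := absNorm_below hN hl hl2N hJN hA
  refine ⟨l, hl, fun h => hlS (Finset.mem_union_left _ h), hl2N, A, hA, φ, hφ,
    (fixK_iff hN.pos φ).2 hφν, ?_, hnorm, ?_⟩
  · intro h
    apply hσχ
    have h1 : χ (σ⁻¹ * φ ^ k) = 1 := hχ _ fun x hx => by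
      have h2 := hk x ((le_sup_left : F1 ≤ _) hx)
      rw [AlgEquiv.mul_apply, ← h2]
      exact σ.symm_apply_apply x
    have h3 : χ σ * χ (σ⁻¹ * φ ^ k) = χ (φ ^ k) := by
      rw [← map_mul, mul_inv_cancel_left]
    rw [h1, mul_one, map_pow, h, one_pow] at h3
    exact h3
  · ext p
    rw [genus_cl hN hl (fun h => hl2N (h.mul_left 2)) hnorm,
      jacobiSym.quadratic_reciprocity_one_mod_four hl4 (p.prime.odd_of_ne_two p.ne_two)]
    exact hJof _ (s p) _ (not_dvd_op hl2N p) (sqr_sq _) (hφp p)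

end Fermat.Agent.TwoAdic.Genus
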