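import Mathlib

/-!
# Torsion points from Hecke points (commutative algebra)

Let a commutative ring `R` act on a lattice `L`, and let `t : R → ℤ` be a homomorphism which
modulo `p ^ m` factors through the image of `R` in `End L`. If the local component of `L` has
rank `≤ r`, then `L / p ^ m` contains an eigenvector with eigensystem `t` which is not killed by
`p ^ e`, as soon as `e r < m`.
-/

set_option autoImplicit false

open Module Polynomial

namespace Fermat.Agent.TwoAdic

section Dual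

variable {L : Type*} [AddCommGroup L] [Module.Free ℤ L] [Module.Finite ℤ L]

theorem exists_eq_smul_of_dual {N : ℤ} {z : L} (h : ∀ d : Module.Dual ℤ L, N ∣ d z) :
    ∃ y, z = N • y := by
  classical
  let b := Module.finBasis ℤ L
  choose c hc using fun i => h (b.coord i)
  refine ⟨∑ i, c i • b i, ?_⟩
  conv_lhs => rw [← b.sum_repr z]
  rw [Finset.smul_sum]
  refine Finset.sum_congr rfl fun i _ => ?_
  rw [smul_smul, ← hc i]
  rfl

theorem exists_dual_point {N : ℕ} (hN : N ≠ 0) (D' : AddSubgroup (Module.Dual ℤ L))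
    (hD' : ∀ d : Module.Dual ℤ L, N • d ∈ D') {d₀ : Module.Dual ℤ L} (h : d₀ ∉ D') :
    ∃ x : L, (∀ d ∈ D', (N : ℤ) ∣ d x) ∧ ¬ (N : ℤ) ∣ d₀ x := by
  classical
  let b := Module.finBasis ℤ L
  have hq : (QuotientAddGroup.mk d₀ : Module.Dual ℤ L ⧸ D') ≠ 0 := by
    rwa [Ne, QuotientAddGroup.eq_zero_iff]
  obtain ⟨c, hc⟩ := CharacterModule.exists_character_apply_ne_zero_of_ne_zero hq
  let ψ : Module.Dual ℤ L →+ AddCircle (1 : ℚ) :=
    (c : (Module.Dual ℤ L ⧸ D') →+ AddCircle (1 : ℚ)).comp (QuotientAddGroup.mk' D')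
  have hψ : ∀ d ∈ D', ψ d = 0 := by
    intro d hd
    have h1 : (QuotientAddGroup.mk' D') d = 0 := (QuotientAddGroup.eq_zero_iff d).2 hd
    change c ((QuotientAddGroup.mk' D') d) = 0
    rw [h1]
    exact map_zero c
  have hψ0 : ψ d₀ ≠ 0 := hc
  have hx : ∀ i, ∃ x : ℤ, ψ (b.coord i) = ((x / N : ℚ) : AddCircle (1 : ℚ)) := by
    intro i
    obtain ⟨q, hq⟩ := QuotientAddGroup.mk_surjective (ψ (b.coord i))
    have h1 : N • ψ (b.coord i) = 0 := by
      rw [← map_nsmul]
      exact hψ _ (hD' _)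
    rw [← hq] at h1
    have h2 : ((N • q : ℚ) : AddCircle (1 : ℚ)) = 0 := h1
    rw [AddCircle.coe_eq_zero_iff] at h2
    obtain ⟨n, hn⟩ := h2
    refine ⟨n, ?_⟩
    rw [← hq]
    congr 1
    have hN' : (N : ℚ) ≠ 0 := by exact_mod_cast hN
    rw [eq_div_iff hN']
    rw [nsmul_eq_mul, zsmul_eq_mul, mul_one] at hn
    rw [mul_comm]
    exact hn.symm
  choose x hx using hx
  have hval : ∀ d : Module.Dual ℤ L, ψ d = (((d (∑ i, x i • b i) : ℤ) / N : ℚ) :
      AddCircle (1 : ℚ)) := by
    intro d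
    have h1 : d = ∑ i, d (b i) • b.coord i := by
      refine b.ext fun j => ?_
      rw [LinearMap.sum_apply, Finset.sum_eq_single j]
      · simp
      · intro i _ hij
        simp [hij.symm]
      · intro h
        exact absurd (Finset.mem_univ j) h
    conv_lhs => rw [h1]
    rw [map_sum, map_sum]
    push_cast
    rw [Finset.sum_div]
    have h2 : ((∑ i, ((d (x i • b i) : ℤ) : ℚ) / N : ℚ) : AddCircle (1 : ℚ)) =
        ∑ i, ((((d (x i • b i) : ℤ) : ℚ) / N : ℚ) : AddCircle (1 : ℚ)) :=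
      map_sum (QuotientAddGroup.mk' (AddSubgroup.zmultiples (1 : ℚ))) _ _
    rw [h2]
    refine Finset.sum_congr rfl fun i _ => ?_
    rw [map_zsmul, hx i, map_zsmul, smul_eq_mul, ← AddCircle.coe_zsmul]
    congr 1
    rw [zsmul_eq_mul]
    push_cast
    ring
  have hdiv : ∀ d : Module.Dual ℤ L, ψ d = 0 ↔ (N : ℤ) ∣ d (∑ i, x i • b i) := by
    intro d
    rw [hval d, AddCircle.coe_eq_zero_iff]
    have hN' : (N : ℚ) ≠ 0 := by exact_mod_cast hN
    constructor
    · rintro ⟨n, hn⟩
      rw [zsmul_eq_mul, mul_one, eq_div_iff hN'] at hn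
      refine ⟨n, ?_⟩
      have : ((d (∑ i, x i • b i) : ℤ) : ℚ) = ((N * n : ℤ) : ℚ) := by
        rw [← hn]; push_cast; ring
      exact_mod_cast this
    · rintro ⟨n, hn⟩
      refine ⟨n, ?_⟩
      rw [hn, zsmul_eq_mul, mul_one, eq_div_iff hN']
      push_cast
      ring
  exact ⟨∑ i, x i • b i, fun d hd => (hdiv d).1 (hψ d hd), fun h => hψ0 ((hdiv d₀).2 h)⟩

/-- generators of the dual modulo `p` and `u - 1` -/
theorem exists_gens (p : ℕ) [hp : Fact p.Prime] (u : Module.End ℤ L) {r : ℕ}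
    (hr : (u.charpoly.map (Int.castRingHom (ZMod p))).rootMultiplicity 1 ≤ r) :
    ∃ (c : ℕ) (_ : c ≤ r) (g : Fin c → Module.Dual ℤ L), ∀ d : Module.Dual ℤ L,
      ∃ (a : Fin c → ℤ) (d' d'' : Module.Dual ℤ L),
        d = ∑ i, a i • g i + (d' ∘ₗ u - d') + p • d'' := by
  classical
  let b := Module.finBasis ℤ L
  set n := Module.finrank ℤ L with hn
  set A : Matrix (Fin n) (Fin n) ℤ := LinearMap.toMatrix b b u with hA
  set φ : Module.End (ZMod p) (Fin n → ZMod p) :=
    ((A.map (Int.castRingHom (ZMod p))).transpose).toLin' with hφ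
  let red : Module.Dual ℤ L →+ (Fin n → ZMod p) :=
    { toFun := fun d i => ((d (b i) : ℤ) : ZMod p)
      map_zero' := by ext i; simp
      map_add' := by intro d d'; ext i; simp }
  have hred : ∀ d i, red d i = ((d (b i) : ℤ) : ZMod p) := fun _ _ => rfl
  have hsurj : ∀ v, ∃ d, red d = v := by
    intro v
    refine ⟨b.constr ℤ (fun i => ((v i).val : ℤ)), ?_⟩
    ext i
    rw [hred, Basis.constr_basis]
    simp
  have hcomm : ∀ d, red (d ∘ₗ u) = φ (red d) := by
    intro d
    ext i
    rw [hred, LinearMap.comp_apply, hφ, Matrix.toLin'_apply, Matrix.mulVec, dotProduct]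
    have h1 : u (b i) = ∑ k, A k i • b k := by
      rw [hA]
      conv_lhs => rw [← b.sum_repr (u (b i))]
      refine Finset.sum_congr rfl fun k _ => ?_
      rw [LinearMap.toMatrix_apply]
    rw [h1, map_sum, Int.cast_sum]
    refine Finset.sum_congr rfl fun k _ => ?_
    rw [map_smul, smul_eq_mul, hred]
    simp
  have hcp : φ.charpoly.rootMultiplicity 1 ≤ r := by
    rw [hφ, Matrix.charpoly_toLin', Matrix.charpoly_transpose, Matrix.charpoly_map,
      LinearMap.charpoly_toMatrix]
    exact hr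
  -- the cokernel of `φ - 1`
  have hker : finrank (ZMod p) (LinearMap.ker (φ - 1)) ≤ r := by
    have h1 := (LinearMap.finrank_eigenspace_le φ (1 : ZMod p)).trans hcp
    rw [Module.End.eigenspace_def, one_smul] at h1
    exact h1
  obtain ⟨C, hC⟩ := Submodule.exists_isCompl (LinearMap.range (φ - 1))
  have hCr : finrank (ZMod p) C ≤ r := by
    have h1 := Submodule.finrank_add_eq_of_isCompl hC
    have h2 := LinearMap.finrank_range_add_finrank_ker (φ - 1)
    omega
  let bC := Module.finBasis (ZMod p) C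
  choose g hg using fun i => hsurj (bC i : Fin n → ZMod p)
  refine ⟨_, hCr, g, fun d => ?_⟩
  have h1 : red d ∈ LinearMap.range (φ - 1) ⊔ C := by
    rw [hC.sup_eq_top]; trivial
  obtain ⟨_, ⟨v, rfl⟩, w, hw, hvw⟩ := Submodule.mem_sup.1 h1
  obtain ⟨d', hd'⟩ := hsurj v
  have h2 := bC.sum_repr ⟨w, hw⟩
  set a : Fin (finrank (ZMod p) C) → ℤ := fun i => ((bC.repr ⟨w, hw⟩ i).val : ℤ) with ha
  have h3 : red (∑ i, a i • g i) = w := by
    rw [map_sum]
    have h4 := congrArg (Subtype.val) h2
    rw [Submodule.coe_sum] at h4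
    refine Eq.trans ?_ h4
    refine Finset.sum_congr rfl fun i _ => ?_
    rw [map_zsmul, hg, Submodule.coe_smul, ha]
    ext k
    simp
  have h5 : red (d - (∑ i, a i • g i + (d' ∘ₗ u - d'))) = 0 := by
    rw [map_sub, map_add, h3, map_sub, hcomm, hd', ← hvw, LinearMap.sub_apply,
      Module.End.one_apply]
    abel
  have h6 : ∀ i, (p : ℤ) ∣ (d - (∑ i, a i • g i + (d' ∘ₗ u - d'))) (b i) := by
    intro i
    have := congrFun h5 i
    rw [hred] at this
    exact (ZMod.intCast_zmod_eq_zero_iff_dvd _ p).1 this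
  choose y hy using h6
  refine ⟨a, d', b.constr ℤ y, ?_⟩
  have h7 : d - (∑ i, a i • g i + (d' ∘ₗ u - d')) = p • (b.constr ℤ y : Module.Dual ℤ L) := by
    refine b.ext fun i => ?_
    rw [hy i, LinearMap.smul_apply, Basis.constr_basis]
    simp
  rw [← h7]
  abel

end Dual

section Main

variable {R : Type*} [CommRing R] {L : Type*} [AddCommGroup L] [Module.Free ℤ L]
  [Module.Finite ℤ L]

/-- the transposed action -/
noncomputable def dualAct (ρ : R →+* Module.End ℤ L) : R →+* Module.End ℤ (Module.Dual ℤ L) where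
  toFun P := (ρ P).dualMap
  map_one' := by
    refine LinearMap.ext fun d => LinearMap.ext fun x => ?_
    rw [map_one]
    rfl
  map_mul' P Q := by
    refine LinearMap.ext fun d => LinearMap.ext fun x => ?_
    rw [mul_comm, map_mul]
    rfl
  map_zero' := by
    refine LinearMap.ext fun d => LinearMap.ext fun x => ?_
    rw [map_zero]
    exact map_zero d
  map_add' P Q := by
    refine LinearMap.ext fun d => LinearMap.ext fun x => ?_
    rw [map_add]
    exact map_add d _ _

/-- **Eigenvectors modulo `p ^ m` of large order.** -/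
theorem exists_eigen_mod (ρ : R →+* Module.End ℤ L) (t : R →+* ℤ) (p : ℕ) [hp : Fact p.Prime]
    (m e r : ℕ) (H1 : ∀ P, ρ P = 0 → ((p : ℤ) ^ m) ∣ t P) (s : R) (hs : (p : ℤ) ∣ t s - 1)
    (H2 : ((ρ s).charpoly.map (Int.castRingHom (ZMod p))).rootMultiplicity 1 ≤ r)
    (H3 : e * r < m) :
    ∃ x : L, (∀ P, ∃ y, ρ P x = t P • x + ((p : ℤ) ^ m) • y) ∧
      ¬ ∃ y, ((p : ℤ) ^ e) • x = ((p : ℤ) ^ m) • y := by
  classical
  by_contra hcon
  let _ : Module R (Module.Dual ℤ L) := Module.compHom (Module.Dual ℤ L) (dualAct ρ)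
  have hsmul : ∀ (P : R) (d : Module.Dual ℤ L) (x : L), (P • d) x = d (ρ P x) :=
    fun _ _ _ => rfl
  set J : Ideal R := Ideal.comap t (Ideal.span {(p : ℤ) ^ m}) with hJdef
  have hJ : ∀ j, j ∈ J ↔ ((p : ℤ) ^ m) ∣ t j := fun j => by
    rw [hJdef, Ideal.mem_comap, Ideal.mem_span_singleton]
  set 𝔪 : Ideal R := Ideal.comap t (Ideal.span {(p : ℤ)}) with hmdef
  have hm : ∀ j, j ∈ 𝔪 ↔ (p : ℤ) ∣ t j := fun j => by
    rw [hmdef, Ideal.mem_comap, Ideal.mem_span_singleton]
  have hcast : ∀ (k : ℤ) (d : Module.Dual ℤ L), ((k : R)) • d = k • d := fun k d =>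
    Int.cast_smul_eq_zsmul R k d
  -- Step 1
  have step1 : ∀ d : Module.Dual ℤ L, ((p : ℤ) ^ e) • d ∈ (J • ⊤ : Submodule R (Module.Dual ℤ L)) := by
    intro d
    by_contra hd
    obtain ⟨x, h1, h2⟩ := exists_dual_point (N := p ^ m) (pow_ne_zero _ hp.out.ne_zero)
      (J • ⊤ : Submodule R (Module.Dual ℤ L)).toAddSubgroup (fun d => by
        have h3 : ((p ^ m : ℕ) : R) • d = p ^ m • d := Nat.cast_smul_eq_nsmul R _ d
        rw [← h3]
        refine Submodule.smul_mem_smul ((hJ _).2 ?_) trivial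
        rw [map_natCast]
        push_cast
        exact dvd_rfl) hd
    apply hcon
    refine ⟨x, fun P => ?_, ?_⟩
    · obtain ⟨y, hy⟩ := exists_eq_smul_of_dual (N := (p : ℤ) ^ m) (z := ρ P x - t P • x)
        (fun d => by
          have h3 : (P - (t P : ℤ)) • d ∈ (J • ⊤ : Submodule R (Module.Dual ℤ L)) := by
            refine Submodule.smul_mem_smul ((hJ _).2 ?_) trivial
            rw [map_sub, map_intCast]
            simp
          have h4 := h1 _ h3
          rw [sub_smul, hcast, LinearMap.sub_apply, hsmul, LinearMap.smul_apply] at h4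
          rw [map_sub, map_smul]
          push_cast at h4
          exact h4)
      exact ⟨y, by rw [← hy]; abel⟩
    · rintro ⟨y, hy⟩
      apply h2
      rw [LinearMap.smul_apply, ← map_smul, hy, map_smul, smul_eq_mul]
      push_cast
      exact dvd_mul_right _ _
  -- Step 2
  obtain ⟨c, hc, g, hg⟩ := exists_gens p (ρ s) H2
  have hfin : Module.Finite R (Module.Dual ℤ L) := Module.Finite.of_restrictScalars_finite ℤ R _
  set N : Submodule R (Module.Dual ℤ L) := Submodule.span R (Set.range g) with hN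
  have hle : (⊤ : Submodule R (Module.Dual ℤ L)) ≤ N ⊔ 𝔪 • ⊤ := by
    intro d _
    obtain ⟨a, d', d'', h⟩ := hg d
    rw [h, add_assoc]
    refine Submodule.add_mem_sup (Submodule.sum_mem _ fun i _ => ?_) (add_mem ?_ ?_)
    · rw [← hcast]
      exact N.smul_mem _ (Submodule.subset_span ⟨i, rfl⟩)
    · have h1 : d' ∘ₗ ρ s - d' = (s - 1) • d' := by
        rw [sub_smul, one_smul]
        rfl
      rw [h1]
      refine Submodule.smul_mem_smul ((hm _).2 ?_) trivial
      rw [map_sub, map_one]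
      exact hs
    · have h1 : ((p : ℕ) : R) • d'' = p • d'' := Nat.cast_smul_eq_nsmul R _ d''
      rw [← h1]
      refine Submodule.smul_mem_smul ((hm _).2 ?_) trivial
      rw [map_natCast]
  obtain ⟨σ, hσ, hσN⟩ := Submodule.exists_sub_one_mem_and_smul_le_of_fg_of_le_sup (I := 𝔪)
    (N := N) hfin.1 le_rfl hle
  have hσN' : ∀ d : Module.Dual ℤ L, σ • d ∈ N := fun d =>
    hσN (Submodule.smul_mem_pointwise_smul d σ _ trivial)
  -- Step 3
  have hNfin : Module.Finite R N := Module.Finite.iff_fg.2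
    (Submodule.fg_span (Set.finite_range g))
  set c' : R := σ * ((p : ℤ) ^ e : ℤ) with hc'
  have hJN : ∀ z ∈ (J • ⊤ : Submodule R (Module.Dual ℤ L)), σ • z ∈ J • N := by
    intro z hz
    induction hz using Submodule.smul_induction_on' with
    | smul j hj d _ =>
      rw [smul_comm]
      exact Submodule.smul_mem_smul hj (hσN' d)
    | add x _ y _ hx hy => rw [smul_add]; exact add_mem hx hy
  have hrange : LinearMap.range (algebraMap R (Module.End R N) c') ≤
      J • (⊤ : Submodule R N) := by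
    rintro _ ⟨n, rfl⟩
    rw [Submodule.mem_smul_top_iff]
    change c' • (n : Module.Dual ℤ L) ∈ J • N
    rw [hc', mul_smul, hcast]
    exact hJN _ (step1 _)
  obtain ⟨q, hq1, hq2, hq3, hq4⟩ :=
    LinearMap.exists_monic_and_natDegree_eq_and_coeff_mem_pow_and_aeval_eq_zero R _ J hrange
  have hdeg : q.natDegree ≤ r := by
    rw [hq2, Submodule.spanFinrank_top]
    refine (Submodule.spanFinrank_span_le_ncard_of_finite (Set.finite_range g)).trans ?_
    refine le_trans ?_ hc
    have h1 := Set.ncard_le_ncard (s := Set.range g) (t := Set.range g) le_rfl (Set.finite_range g)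
    rw [← Set.image_univ]
    refine (Set.ncard_image_le (Set.finite_univ)).trans ?_
    rw [Set.ncard_univ, Nat.card_eq_fintype_card, Fintype.card_fin]
  rw [Polynomial.aeval_algebraMap_apply] at hq4
  have hkill : ∀ d : Module.Dual ℤ L, (Polynomial.aeval c' q * σ) • d = 0 := by
    intro d
    have h1 := congrArg (fun f : Module.End R N => ((f ⟨σ • d, hσN' d⟩ : N) : Module.Dual ℤ L)) hq4
    rw [mul_smul]
    exact h1
  have hρ : ρ (Polynomial.aeval c' q * σ) = 0 := by
    refine LinearMap.ext fun x => ?_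
    obtain ⟨y, hy⟩ := exists_eq_smul_of_dual (N := 0) (z := ρ (Polynomial.aeval c' q * σ) x)
      (fun d => by
        rw [← hsmul, hkill]
        simp)
    rw [hy, zero_smul]
    rfl
  have hdvd := H1 _ hρ
  -- the conclusion
  have h1 : ((p : ℤ) ^ m) ∣ t c' ^ q.natDegree * t σ := by
    have h2 : t (Polynomial.aeval c' q) = ∑ k ∈ Finset.range q.natDegree,
        t (q.coeff k) * t c' ^ k + t c' ^ q.natDegree := by
      rw [Polynomial.aeval_eq_sum_range, map_sum, Finset.sum_range_succ, hq1.coeff_natDegree,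
        one_smul, map_pow]
      congr 1
      refine Finset.sum_congr rfl fun k _ => ?_
      rw [smul_eq_mul, map_mul, map_pow]
    rw [map_mul, h2, add_mul] at hdvd
    refine (dvd_add_right ?_).1 hdvd
    refine Dvd.dvd.mul_right (Finset.dvd_sum fun k hk => ?_) _
    have h3 : q.natDegree - k ≠ 0 := by
      have := Finset.mem_range.1 hk
      omega
    exact ((hJ _).1 (Ideal.pow_le_self h3 (hq3 k))).mul_right _
  have h2 : t c' = t σ * (p : ℤ) ^ e := by
    rw [hc', map_mul, map_intCast]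
    simp
  have hσ1 : (p : ℤ) ∣ t σ - 1 := by
    have := (hm _).1 hσ
    rwa [map_sub, map_one] at this
  have hcop : IsCoprime ((p : ℤ) ^ m) (t σ) := by
    refine IsCoprime.pow_left ?_
    obtain ⟨k, hk⟩ := hσ1
    exact ⟨-k, 1, by linear_combination hk⟩
  have h3 : ((p : ℤ) ^ m) ∣ ((p : ℤ) ^ (e * q.natDegree)) := by
    have h4 : t c' ^ q.natDegree * t σ = (t σ ^ (q.natDegree + 1)) *
        (p : ℤ) ^ (e * q.natDegree) := by
      rw [h2, mul_pow, ← pow_mul]
      ring
    rw [h4] at h1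
    exact (hcop.pow_right (n := q.natDegree + 1)).dvd_of_dvd_mul_left h1
  have h4 : m ≤ e * q.natDegree := by
    have h5 : p ^ m ∣ p ^ (e * q.natDegree) := by exact_mod_cast h3
    exact (Nat.pow_dvd_pow_iff_le_right hp.out.one_lt).1 h5
  have h5 : e * q.natDegree ≤ e * r := Nat.mul_le_mul_left e hdeg
  omega

end Main

end Fermat.Agent.TwoAdic
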