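import Fermat.Agent.Petersson.Bound
import Fermat.Agent.Newform.Eigenspaces

set_option autoImplicit false

/-! # Cutting out the newforms with a given residual system by Hecke operators -/

noncomputable section

namespace Fermat.Agent.TwoAdic

open UpperHalfPlane ModularForm CongruenceSubgroup Matrix.SpecialLinearGroup Filter
open Fermat.Agent.IntStr ModularFormClass CuspForm Fermat.Agent.Eigenform
open Fermat.Agent.Newform Fermat.Agent.Petersson
open scoped MatrixGroups Manifold Topology

/-- A stable subspace of a semisimple commuting family is spanned by eigenvectors. -/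
theorem le_span_eigen {V : Type*} [AddCommGroup V] [Module ℂ V] [FiniteDimensional ℂ V]
    {ι : Type*} (T : ι → Module.End ℂ V) (hcomm : ∀ i j, Commute (T i) (T j))
    (hss : ∀ i μ, (T i).maxGenEigenspace μ = (T i).eigenspace μ)
    (X : Submodule ℂ V) (hX : ∀ i, ∀ x ∈ X, T i x ∈ X) :
    X ≤ Submodule.span ℂ {x | x ∈ X ∧ ∃ χ : ι → ℂ, ∀ i, T i x = χ i • x} := by
  classical
  set T' : ι → Module.End ℂ X := fun i => (T i).restrict (hX i) with hT'
  have hc : ∀ i j, Commute (T' i) (T' j) := by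
    intro i j
    ext x
    have := congrArg (fun f : Module.End ℂ V => f x) (hcomm i j).eq
    simpa [hT'] using this
  have h1 := Module.End.iSup_iInf_maxGenEigenspace_eq_top_of_iSup_maxGenEigenspace_eq_top_of_commute
    T' (fun i j _ => hc i j) (fun i => Module.End.iSup_maxGenEigenspace_eq_top _)
  intro x hx
  have h2 : (⟨x, hx⟩ : X) ∈ ⨆ χ : ι → ℂ, ⨅ i, (T' i).maxGenEigenspace (χ i) := by
    rw [h1]; trivial
  have h3 : ∀ y : X, y ∈ ⨆ χ : ι → ℂ, ⨅ i, (T' i).maxGenEigenspace (χ i) →
      (y : V) ∈ Submodule.span ℂ {x | x ∈ X ∧ ∃ χ : ι → ℂ, ∀ i, T i x = χ i • x} := by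
    intro y hy
    induction hy using Submodule.iSup_induction' with
    | zero => exact Submodule.zero_mem _
    | add x y _ _ ihx ihy => exact Submodule.add_mem _ ihx ihy
    | mem χ y hy =>
      rw [Submodule.mem_iInf] at hy
      refine Submodule.subset_span ⟨y.2, χ, fun i => ?_⟩
      have h4 := hy i
      rw [Module.End.maxGenEigenspace, hT', Module.End.genEigenspace_restrict] at h4
      have h5 : (y : V) ∈ (T i).maxGenEigenspace (χ i) := h4
      rw [hss, Module.End.mem_eigenspace_iff] at h5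
      exact h5
  exact h3 _ h2

/-- the forms with `U_v² f = f` for `v ∈ P` -/
def XP (M : ℕ) (P : Finset ℕ) : Submodule ℂ (CuspForm (Gamma0 M) 2) where
  carrier := {f | ∀ v ∈ P, ∀ n, qCoeff f (v * (v * n)) = qCoeff f n}
  add_mem' := by
    intro f g hf hg v hv n
    rw [qCoeff_add, qCoeff_add, hf v hv n, hg v hv n]
  zero_mem' := by
    intro v hv n
    have h : ∀ n, qCoeff (⇑(0 : CuspForm (Gamma0 M) 2)) n = 0 := fun n => qCoeff_zero_fun n
    rw [h, h]
  smul_mem' := by
    intro c f hf v hv n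
    rw [qCoeff_smul, qCoeff_smul, hf v hv n]

variable {M : ℕ}

theorem rec_of_span [NeZero M] {M' : ℕ} [NeZero M'] {g : CuspForm (Gamma0 M') 2}
    (hg : g.IsNormalizedEigenform) (hM : Squarefree M) {v : ℕ} (hv : v.Prime) (hvM' : ¬ v ∣ M')
    {F : ℍ → ℂ} (hF : F ∈ Submodule.span ℂ {F : ℍ → ℂ | ∃ d : ℕ, M' * d ∣ M ∧ F = V d g}) :
    IsCF (Gamma0 M) 2 F ∧ ∀ n, qCoeff F (v * (v * n)) - qCoeff g v * qCoeff F (v * n) +
      v * qCoeff F n = 0 := by
  induction hF using Submodule.span_induction with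
  | zero =>
    refine ⟨IsCF.zero, fun n => ?_⟩
    simp only [qCoeff_zero_fun]
    ring
  | add x y _ _ hx hy =>
    refine ⟨IsCF.add hx.1 hy.1, fun n => ?_⟩
    rw [qCoeff_add' hx.1 hy.1, qCoeff_add' hx.1 hy.1, qCoeff_add' hx.1 hy.1]
    linear_combination hx.2 n + hy.2 n
  | smul c x _ hx =>
    refine ⟨IsCF.smul c hx.1, fun n => ?_⟩
    rw [qCoeff_smul' hx.1, qCoeff_smul' hx.1, qCoeff_smul' hx.1]
    linear_combination c * hx.2 n
  | mem x hx =>
    obtain ⟨d, hd, rfl⟩ := hx
    have hd0 : d ≠ 0 := by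
      rintro rfl
      rw [mul_zero] at hd
      exact NeZero.ne M (Nat.eq_zero_of_zero_dvd hd)
    have hgc : IsCF (Gamma0 M') 2 (g : ℍ → ℂ) := IsCF.of_cuspForm g
    refine ⟨IsCF.level_mono hd (IsCF.V hgc hd0), fun n => ?_⟩
    rw [qCoeff_V hgc hd0, qCoeff_V hgc hd0, qCoeff_V hgc hd0]
    have hrec := fun n => qCoeff_mul_prime hg hv n
    simp only [if_neg hvM'] at hrec
    by_cases hvd : v ∣ d
    · obtain ⟨e, rfl⟩ := hvd
      have he0 : 0 < e := Nat.pos_of_ne_zero (by rintro rfl; exact hd0 (mul_zero _))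
      have hve : ¬ v ∣ e := by
        rintro ⟨f, rfl⟩
        apply hv.one_lt.ne'
        apply Nat.isUnit_iff.mp
        apply hM v
        exact Dvd.dvd.trans ⟨M' * f, by ring⟩ hd
      have hcop : Nat.Coprime e v := ((hv.coprime_iff_not_dvd).mpr hve).symm
      have hx : ∀ x : ℕ, v * e ∣ v * x ↔ e ∣ x := fun x => Nat.mul_dvd_mul_iff_left hv.pos
      have hy : ∀ x : ℕ, v * x / (v * e) = x / e := fun x => Nat.mul_div_mul_left x e hv.pos
      simp only [hx, hy]
      by_cases hen : e ∣ n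
      · obtain ⟨m, rfl⟩ := hen
        have e1 : v * (e * m) / e = v * m := by
          rw [mul_left_comm, Nat.mul_div_cancel_left _ he0]
        rw [if_pos ((dvd_mul_right e m).mul_left v), if_pos (dvd_mul_right e m),
          Nat.mul_div_cancel_left m he0, e1]
        have h2 : v * e ∣ e * m ↔ v ∣ m := by
          rw [mul_comm v e]; exact Nat.mul_dvd_mul_iff_left he0
        have h3 : e * m / (v * e) = m / v := by
          rw [mul_comm v e]; exact Nat.mul_div_mul_left m v he0
        rw [h3]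
        simp only [h2]
        linear_combination hrec m
      · have h1 : ¬ e ∣ v * n := fun h => hen (hcop.dvd_of_dvd_mul_left h)
        have h2 : ¬ v * e ∣ n := fun h => hen ((dvd_mul_left e v).trans h)
        rw [if_neg h1, if_neg hen, if_neg h2]
        ring
    · have hcop : Nat.Coprime d v := ((hv.coprime_iff_not_dvd).mpr hvd).symm
      have hd1 : 0 < d := Nat.pos_of_ne_zero hd0
      by_cases hdn : d ∣ n
      · obtain ⟨m, rfl⟩ := hdn
        have e1 : v * (d * m) / d = v * m := by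
          rw [mul_left_comm, Nat.mul_div_cancel_left _ hd1]
        have e2 : v * (v * (d * m)) / d = v * (v * m) := by
          rw [mul_left_comm v d m, mul_left_comm v d, Nat.mul_div_cancel_left _ hd1]
        rw [if_pos (((dvd_mul_right d m).mul_left v).mul_left v),
          if_pos ((dvd_mul_right d m).mul_left v), if_pos (dvd_mul_right d m),
          Nat.mul_div_cancel_left m hd1, e1, e2]
        have h1 := hrec (v * m)
        rw [if_pos (dvd_mul_right v m), Nat.mul_div_cancel_left m hv.pos] at h1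
        linear_combination h1
      · have h1 : ¬ d ∣ v * n := fun h => hdn (hcop.dvd_of_dvd_mul_left h)
        have h2 : ¬ d ∣ v * (v * n) := fun h => h1 (hcop.dvd_of_dvd_mul_left h)
        rw [if_neg h1, if_neg h2, if_neg hdn]
        ring

/-- **(NEW)** -/
theorem exists_kill [NeZero M] (hM : Squarefree M) (P : Finset ℕ) (hP : ∀ v ∈ P, v.Prime ∧ v ∣ M)
    (Good : (ℕ → ℂ) → Prop) (W : Set (Nat.Primes × ℂ))
    (hgood : ∀ (M' : ℕ) (g : CuspForm (Gamma0 M') 2), M' ∣ M → g.IsNewform → Good (qCoeff g) →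
      ∀ v, v.Prime → v ∣ M → v ∉ P → v ∣ M')
    (hbad : ∀ (M' : ℕ) (g : CuspForm (Gamma0 M') 2), M' ∣ M → g.IsNewform → ¬ Good (qCoeff g) →
      ∃ l : Nat.Primes, ¬ (l : ℕ) ∣ M ∧ (l, qCoeff g l) ∈ W) :
    ∃ w : List (Nat.Primes × ℂ), (∀ x ∈ w, x ∈ W ∧ ¬ (x.1 : ℕ) ∣ M) ∧
      ∀ f : CuspForm (Gamma0 M) 2, (∀ v ∈ P, ∀ n, qCoeff f (v * (v * n)) = qCoeff f n) →
        (w.map fun x => hOp M x.1 - x.2 • (1 : Module.End ℂ (CuspForm (Gamma0 M) 2))).prod f ∈
          Submodule.span ℂ {g : CuspForm (Gamma0 M) 2 | g.IsNewform ∧ Good (qCoeff g)} := by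
  classical
  -- eigenvectors span `X`
  have hXstab : ∀ (l : {l : Nat.Primes // ¬ (l : ℕ) ∣ M}), ∀ x ∈ XP M P, hOp M l.1 x ∈ XP M P := by
    rintro ⟨l, hl⟩ x hx v hv n
    have hvl : v ≠ (l : ℕ) := fun h => hl (h ▸ (hP v hv).2)
    have hcop : Nat.Coprime (l : ℕ) v := (Nat.coprime_primes l.2 (hP v hv).1).mpr hvl.symm
    have hv0 : 0 < v := (hP v hv).1.pos
    rw [qCoeff_hOp, qCoeff_hOp, if_neg hl]
    have e1 : (l : ℕ) * (v * (v * n)) = v * (v * (l * n)) := by ring
    rw [e1, hx v hv]
    congr 2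
    by_cases hln : (l : ℕ) ∣ n
    · obtain ⟨m, rfl⟩ := hln
      have e2 : v * (v * (l * m)) / (l : ℕ) = v * (v * m) := by
        rw [mul_left_comm v (l : ℕ) m, mul_left_comm v (l : ℕ), Nat.mul_div_cancel_left _ l.2.pos]
      rw [if_pos (((dvd_mul_right _ m).mul_left v).mul_left v), if_pos (dvd_mul_right _ m), e2,
        Nat.mul_div_cancel_left _ l.2.pos, hx v hv]
    · have h1 : ¬ (l : ℕ) ∣ v * n := fun h => hln (hcop.dvd_of_dvd_mul_left h)
      have h2 : ¬ (l : ℕ) ∣ v * (v * n) := fun h => h1 (hcop.dvd_of_dvd_mul_left h)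
      rw [if_neg h2, if_neg hln]
  set S : Set (CuspForm (Gamma0 M) 2) := {x | x ∈ XP M P ∧
    ∃ χ : {l : Nat.Primes // ¬ (l : ℕ) ∣ M} → ℂ, ∀ i, hOp M i.1 x = χ i • x} with hS
  have hspan : XP M P ≤ Submodule.span ℂ S :=
    le_span_eigen (fun l : {l : Nat.Primes // ¬ (l : ℕ) ∣ M} => hOp M l.1)
      (fun i j => hOp_comm i.1 j.1) (fun i μ => (isSym_hOp i.2).maxGenEigenspace_eq μ)
      (XP M P) hXstab
  obtain ⟨S', hS'S, hS'⟩ := (Submodule.fg_span_iff_fg_span_finset_subset (R := ℂ) S).mp
    (IsNoetherian.noetherian _)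
  set G : Submodule ℂ (CuspForm (Gamma0 M) 2) :=
    Submodule.span ℂ {g : CuspForm (Gamma0 M) 2 | g.IsNewform ∧ Good (qCoeff g)} with hG
  -- alternative for eigenvectors
  have key : ∀ x ∈ S, (∃ y : Nat.Primes × ℂ, y ∈ W ∧ ¬ (y.1 : ℕ) ∣ M ∧ hOp M y.1 x = y.2 • x) ∨
      x ∈ G := by
    rintro x ⟨hxX, χ, hχ⟩
    by_cases hx0 : x = 0
    · right
      rw [hx0]
      exact G.zero_mem
    obtain ⟨f', hf', hf'a⟩ := exists_eigenform (N := M) {ℓ | ¬ (ℓ : ℕ) ∣ M}
      (fun ℓ => if hℓ : ¬ (ℓ : ℕ) ∣ M then χ ⟨ℓ, hℓ⟩ else 0) hx0 (by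
        intro ℓ hℓ
        have hℓ' : ¬ (ℓ : ℕ) ∣ M := hℓ
        simp only [dif_pos hℓ']
        exact hχ ⟨ℓ, hℓ'⟩)
    obtain ⟨M', hM'M, g, hg, hgf⟩ := exists_newform hf'
    have hM'0 : NeZero M' := ⟨by rintro rfl; exact NeZero.ne M (Nat.eq_zero_of_zero_dvd hM'M)⟩
    have hTx : ∀ ℓ : Nat.Primes, ¬ (ℓ : ℕ) ∣ M → hOp M ℓ x = qCoeff g ℓ • x := by
      intro ℓ hℓ
      rw [hχ ⟨ℓ, hℓ⟩, hgf ℓ ℓ.2 hℓ, hf'a ℓ hℓ, dif_pos hℓ]
    by_cases hG' : Good (qCoeff g)
    · right
      have h2 := mem_span_of_eigen hg M M.primeFactors x (by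
        intro ℓ hℓ
        exact hTx ℓ fun h => hℓ (Nat.mem_primeFactors.mpr ⟨ℓ.2, h, NeZero.ne M⟩))
      have hall : ∀ v : ℕ, v.Prime → v ∣ M → v ∣ M' := by
        intro v hv hvM
        by_cases hvP : v ∈ P
        · by_contra hvM'
          obtain ⟨-, h3⟩ := rec_of_span hg.1 hM hv hvM' h2
          -- `(1 + v) c(n) = a_v c(vn)`
          have h4 : ∀ n, (1 + v) * qCoeff x n = qCoeff g v * qCoeff x (v * n) := by
            intro n
            have := h3 n
            rw [hxX v hvP n] at this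
            linear_combination this
          obtain ⟨n, hn⟩ : ∃ n, qCoeff x n ≠ 0 := by
            by_contra hcon
            push Not at hcon
            exact hx0 (eq_zero_of_qCoeff_eq_zero x hcon)
          have h5 : ((1 + v) ^ 2 : ℂ) = qCoeff g v ^ 2 := by
            apply mul_right_cancel₀ hn
            have h6 := h4 n
            have h7 := h4 (v * n)
            rw [hxX v hvP n] at h7
            linear_combination (1 + v) * h6 + qCoeff g v * h7
          have hv1 : ((v : ℂ) + 1) ≠ 0 := by exact_mod_cast Nat.succ_ne_zero v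
          have h8 : g = 0 := by
            have h9 : (g : ℍ → ℂ) = 0 := by
              refine eq_zero_of_heckeT_eigen hv hvM' (IsCF.of_cuspForm g)
                (ε := qCoeff g v / (v + 1)) ?_ ?_
              · rw [div_pow, ← h5]
                field_simp
                ring
              · rw [div_mul_cancel₀ _ hv1]
                have h10 := hOp_eigen hg.1 ⟨v, hv⟩
                rw [hOp_of_not_dvd (by exact hvM')] at h10
                exact congrArg (fun f : CuspForm (Gamma0 M') 2 => (f : ℍ → ℂ)) h10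
            exact DFunLike.coe_injective h9
          exact hg.ne_zero h8
        · exact hgood M' g hM'M hg hG' v hv hvM hvP
      have hMM' : M' = M := by
        apply Nat.dvd_antisymm hM'M
        obtain ⟨e, he⟩ := hM'M
        have he1 : e = 1 := by
          by_contra hne
          obtain ⟨v, hv, hve⟩ := Nat.exists_prime_and_dvd hne
          have h1 : v ∣ M' := hall v hv (by rw [he]; exact hve.mul_left _)
          apply hv.one_lt.ne'
          apply Nat.isUnit_iff.mp
          apply hM v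
          rw [he]
          exact mul_dvd_mul h1 hve
        rw [he, he1, mul_one]
      subst hMM'
      have h3 : ∀ F ∈ Submodule.span ℂ {F : ℍ → ℂ | ∃ d : ℕ, M' * d ∣ M' ∧ F = V d g},
          ∃ c : ℂ, F = c • (g : ℍ → ℂ) := by
        intro F hF
        induction hF using Submodule.span_induction with
        | zero => exact ⟨0, by rw [zero_smul]⟩
        | add x y _ _ hx hy =>
          obtain ⟨c, rfl⟩ := hx
          obtain ⟨d, rfl⟩ := hy
          exact ⟨c + d, by rw [add_smul]⟩
        | smul c x _ hx =>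
          obtain ⟨d, rfl⟩ := hx
          exact ⟨c * d, by rw [mul_smul]⟩
        | mem x hx =>
          obtain ⟨d, hd, rfl⟩ := hx
          have hd1 : d = 1 := by
            have h4 : M' * d ∣ M' * 1 := by rwa [mul_one]
            exact Nat.dvd_one.mp (Nat.dvd_of_mul_dvd_mul_left (Nat.pos_of_ne_zero (NeZero.ne M')) h4)
          exact ⟨1, by rw [hd1, V_one, one_smul]⟩
      obtain ⟨c, hc⟩ := h3 _ h2
      have hxc : x = c • g := DFunLike.coe_injective hc
      rw [hxc]
      exact G.smul_mem c (Submodule.subset_span ⟨hg, hG'⟩)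
    · left
      obtain ⟨l, hl, hlW⟩ := hbad M' g hM'M hg hG'
      exact ⟨(l, qCoeff g l), hlW, hl, hTx l hl⟩
  have hGstab : ∀ (l : Nat.Primes) (b : ℂ), ∀ x ∈ G,
      (hOp M l - b • (1 : Module.End ℂ (CuspForm (Gamma0 M) 2))) x ∈ G := by
    intro l b x hx
    rw [LinearMap.sub_apply, LinearMap.smul_apply, Module.End.one_apply]
    refine G.sub_mem ?_ (G.smul_mem _ hx)
    induction hx using Submodule.span_induction with
    | zero => rw [map_zero]; exact G.zero_mem
    | add x y _ _ hx hy => rw [map_add]; exact G.add_mem hx hy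
    | smul c x _ hx => rw [map_smul]; exact G.smul_mem _ hx
    | mem x hx =>
      rw [hOp_eigen hx.1.1]
      exact G.smul_mem _ (Submodule.subset_span hx)
  have hprodstab : ∀ (w : List (Nat.Primes × ℂ)), ∀ x ∈ G,
      (w.map fun x => hOp M x.1 - x.2 • (1 : Module.End ℂ (CuspForm (Gamma0 M) 2))).prod x ∈ G := by
    intro w
    induction w with
    | nil => intro x hx; simpa using hx
    | cons y w ih =>
      intro x hx
      rw [List.map_cons, List.prod_cons, Module.End.mul_apply]
      exact hGstab _ _ _ (ih x hx)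
  have hcomm : ∀ (y : Nat.Primes × ℂ) (w : List (Nat.Primes × ℂ)),
      Commute (hOp M y.1 - y.2 • (1 : Module.End ℂ (CuspForm (Gamma0 M) 2)))
        (w.map fun x => hOp M x.1 - x.2 • (1 : Module.End ℂ (CuspForm (Gamma0 M) 2))).prod := by
    intro y w
    apply Commute.list_prod_right
    intro z hz
    obtain ⟨x, -, rfl⟩ := List.mem_map.mp hz
    have h1 : ∀ (c : ℂ) (T : Module.End ℂ (CuspForm (Gamma0 M) 2)),
        Commute (c • (1 : Module.End ℂ (CuspForm (Gamma0 M) 2))) T :=
      fun c T => (Commute.one_left T).smul_left c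
    exact (((hOp_comm y.1 x.1).sub_right (h1 _ _).symm).sub_left (h1 _ _))
  have hfin : ∀ S'' : Finset (CuspForm (Gamma0 M) 2), (↑S'' : Set _) ⊆ S →
      ∃ w : List (Nat.Primes × ℂ), (∀ x ∈ w, x ∈ W ∧ ¬ (x.1 : ℕ) ∣ M) ∧ ∀ f ∈ S'',
        (w.map fun x => hOp M x.1 - x.2 • (1 : Module.End ℂ (CuspForm (Gamma0 M) 2))).prod f ∈
          G := by
    intro S''
    induction S'' using Finset.induction_on with
    | empty => intro _; exact ⟨[], by simp, by simp⟩
    | insert x S'' hx ih =>
      intro hsub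
      obtain ⟨w, hw1, hw2⟩ := ih fun y hy => hsub (by simp [hy])
      have hxS : x ∈ S := hsub (by simp)
      rcases key x hxS with ⟨y, hy1, hy2, hy3⟩ | h
      · refine ⟨y :: w, ?_, ?_⟩
        · intro z hz
          rcases List.mem_cons.mp hz with rfl | hz
          · exact ⟨hy1, hy2⟩
          · exact hw1 z hz
        · intro f hf
          rw [List.map_cons, List.prod_cons]
          rcases Finset.mem_insert.mp hf with rfl | hf
          · rw [(hcomm y w).eq, Module.End.mul_apply, LinearMap.sub_apply, LinearMap.smul_apply,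
              Module.End.one_apply, hy3, sub_self, map_zero]
            exact G.zero_mem
          · rw [Module.End.mul_apply]
            exact hGstab _ _ _ (hw2 f hf)
      · refine ⟨w, hw1, fun f hf => ?_⟩
        rcases Finset.mem_insert.mp hf with rfl | hf
        · exact hprodstab w _ h
        · exact hw2 f hf
  obtain ⟨w, hw1, hw2⟩ := hfin S' hS'S
  refine ⟨w, hw1, fun f hf => ?_⟩
  have h1 : f ∈ Submodule.span ℂ (S' : Set (CuspForm (Gamma0 M) 2)) := by
    rw [← hS']
    exact hspan hf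
  clear hf
  induction h1 using Submodule.span_induction with
  | zero => rw [map_zero]; exact G.zero_mem
  | add x y _ _ hx hy => rw [map_add]; exact G.add_mem hx hy
  | smul c x _ hx => rw [map_smul]; exact G.smul_mem _ hx
  | mem x hx => exact hw2 x hx

end Fermat.Agent.TwoAdic
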