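import Fermat.Agent.TwoAdic.H0Mult
import Fermat.Agent.TwoAdic.H0Alg
import Fermat.Agent.TwoAdic.KillNew
import Fermat.Agent.QComp.LevelPar
import Fermat.Agent.Newform.BadPrime

/-!
# The new part of the lattice of parabolic homomorphisms
-/

set_option autoImplicit false
set_option linter.unusedSectionVars false
set_option linter.style.haveILetI false

open CongruenceSubgroup ModularCurve ModularCurve.Period Fermat.Agent.Period Fermat.Agent.Top
  CuspForm ModularFormClass Fermat.Agent.Newform Fermat.Agent.QComp Module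
  Fermat.Agent.Petersson Fermat.Agent.Eigenform
open scoped MatrixGroups

namespace Fermat.Agent.TwoAdic

local notation "conjA" => ((starRingEnd ℂ : ℂ →+* ℂ) : ℂ →+ ℂ)

/-- restriction of an action to a stable submodule -/
def restrictHom {R V : Type*} [CommRing R] [AddCommGroup V] (ρ : R →+* Module.End ℤ V)
    (S : Submodule ℤ V) (h : ∀ P, ∀ x ∈ S, ρ P x ∈ S) : R →+* Module.End ℤ S where
  toFun P := (ρ P).restrict (h P)
  map_one' := by
    refine LinearMap.ext fun x => Subtype.ext ?_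
    change ρ 1 x = _
    rw [map_one]
    rfl
  map_mul' P Q := by
    refine LinearMap.ext fun x => Subtype.ext ?_
    change ρ (P * Q) x = _
    rw [map_mul]
    rfl
  map_zero' := by
    refine LinearMap.ext fun x => Subtype.ext ?_
    change ρ 0 x = _
    rw [map_zero]
    rfl
  map_add' P Q := by
    refine LinearMap.ext fun x => Subtype.ext ?_
    change ρ (P + Q) x = _
    rw [map_add]
    rfl

section Lattice

variable (N : ℕ) [NeZero N]

/-- the lattice of parabolic homomorphisms with `U_v² = 1` for all `v ∣ N` -/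
noncomputable def plusLat : Submodule ℤ (parM N ℤ) where
  carrier := {φ | ∀ v : Nat.Primes, (v : ℕ) ∣ N → hopPar N ℤ v (hopPar N ℤ v φ) = φ}
  zero_mem' := by
    intro v _
    rw [map_zero, map_zero]
  add_mem' := by
    intro φ ψ hφ hψ v hv
    rw [map_add, map_add, hφ v hv, hψ v hv]
  smul_mem' := by
    intro c φ hφ v hv
    rw [map_smul, map_smul, hφ v hv]

variable {N}

theorem mem_plusLat {φ : parM N ℤ} :
    φ ∈ plusLat N ↔ ∀ v : Nat.Primes, (v : ℕ) ∣ N → hopPar N ℤ v (hopPar N ℤ v φ) = φ := Iff.rfl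

theorem evalPar_X (v : Nat.Primes) : evalPar N ℤ (MvPolynomial.X v) = hopPar N ℤ v :=
  evalEnd_X _ _ v

theorem evalPar_hopPar (P : HeckeAlg) (v : Nat.Primes) (φ : parM N ℤ) :
    evalPar N ℤ P (hopPar N ℤ v φ) = hopPar N ℤ v (evalPar N ℤ P φ) := by
  rw [← evalPar_X, ← Module.End.mul_apply, ← Module.End.mul_apply, ← map_mul, ← map_mul, mul_comm]

theorem evalPar_mem (P : HeckeAlg) {φ : parM N ℤ} (hφ : φ ∈ plusLat N) :
    evalPar N ℤ P φ ∈ plusLat N := by
  intro v hv
  rw [← evalPar_hopPar, ← evalPar_hopPar, hφ v hv]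

variable (N) in
/-- the Hecke action -/
noncomputable def plusAct : HeckeAlg →+* Module.End ℤ (plusLat N) :=
  restrictHom (evalPar N ℤ : HeckeAlg →+* Module.End ℤ (parM N ℤ)) (plusLat N)
    (fun P _ hx => evalPar_mem P hx)

theorem coe_plusAct (P : HeckeAlg) (x : plusLat N) :
    ((plusAct N P x : plusLat N) : parM N ℤ) = evalPar N ℤ P x := rfl

variable (N) in
/-- the underlying homomorphism -/
def jZ : plusLat N →+ (Additive (Gamma0 N) →+ ℤ) where
  toFun φ := ((φ : parM N ℤ) : Additive (Gamma0 N) →+ ℤ)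
  map_zero' := rfl
  map_add' _ _ := rfl

theorem jZ_apply (φ : plusLat N) (x : Additive (Gamma0 N)) :
    jZ N φ x = ((φ : parM N ℤ) : Additive (Gamma0 N) →+ ℤ) x := rfl

theorem jZ_injective : Function.Injective (jZ N) := by
  intro x y h
  have h' : ((x : parM N ℤ) : Additive (Gamma0 N) →+ ℤ) = ((y : parM N ℤ) :
    Additive (Gamma0 N) →+ ℤ) := h
  exact Subtype.ext (Subtype.ext h')

variable (N) in
/-- the embedding into complex parabolic homomorphisms -/
noncomputable def jC : plusLat N →+ (Additive (Gamma0 N) →+ ℂ) where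
  toFun φ := (Int.castAddHom ℂ).comp ((φ : parM N ℤ) : Additive (Gamma0 N) →+ ℤ)
  map_zero' := by
    ext x
    simp
  map_add' φ ψ := by
    ext x
    simp

theorem jC_apply (φ : plusLat N) (x : Additive (Gamma0 N)) :
    jC N φ x = ((((φ : parM N ℤ) : Additive (Gamma0 N) →+ ℤ) x : ℤ) : ℂ) := rfl

theorem jC_plusAct (P : HeckeAlg) (φ : plusLat N) :
    jC N (plusAct N P φ) = evalHom N ℂ P (jC N φ) := by
  change (Int.castAddHom ℂ).comp ((evalPar N ℤ P φ : parM N ℤ) : Additive (Gamma0 N) →+ ℤ) = _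
  rw [coe_evalPar, ← evalHom_comp_left]
  rfl

variable (N) in
/-- the action on complex homomorphisms -/
noncomputable def UC (P : HeckeAlg) : Module.End ℂ (Additive (Gamma0 N) →+ ℂ) where
  toFun := evalHom N ℂ P
  map_add' := map_add _
  map_smul' z φ := by
    have h : ∀ ψ : Additive (Gamma0 N) →+ ℂ, z • ψ = (AddMonoidHom.mulLeft z).comp ψ := by
      intro ψ
      ext x
      rfl
    rw [h, evalHom_comp_left, RingHom.id_apply, h]

theorem UC_apply (P : HeckeAlg) (φ : Additive (Gamma0 N) →+ ℂ) : UC N P φ = evalHom N ℂ P φ := rfl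

instance : Module.Free ℤ (plusLat N) := by
  haveI : IsAddTorsionFree (parM N ℤ) := by infer_instance
  infer_instance

theorem jC_independent (n : ℕ) (b : Basis (Fin n) ℤ (plusLat N)) (z : Fin n → ℂ)
    (hz : ∑ i, z i • jC N (b i) = 0) : z = 0 := by
  refine linearIndependent_intCast (Y := Additive (Gamma0 N))
    (fun i y => ((b i : parM N ℤ) : Additive (Gamma0 N) →+ ℤ) y) ?_ z ?_
  · intro a ha
    have h1 : ∑ i, a i • b i = 0 := by
      apply jZ_injective
      refine AddMonoidHom.ext fun y => ?_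
      rw [map_sum, AddMonoidHom.finsetSum_apply, map_zero, AddMonoidHom.zero_apply]
      refine Eq.trans ?_ (ha y)
      refine Finset.sum_congr rfl fun i _ => ?_
      rw [map_zsmul, AddMonoidHom.zsmul_apply, smul_eq_mul, jZ_apply]
    have h3 := Fintype.linearIndependent_iff.1 b.linearIndependent a h1
    funext i
    exact h3 i
  · intro y
    have h2 := DFunLike.congr_fun hz y
    rw [AddMonoidHom.finsetSum_apply] at h2
    exact h2

end Lattice

section Forms

variable {N : ℕ} [NeZero N]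

/-- the value of a Hecke polynomial at a form -/
noncomputable def pvF (P : HeckeAlg) (f : CuspForm (Gamma0 N) 2) : ℂ :=
  MvPolynomial.aeval (fun l : Nat.Primes => qCoeff f l) P

variable (N) in
/-- the Hecke operators on forms -/
noncomputable def TP (P : HeckeAlg) : Module.End ℂ (CuspForm (Gamma0 N) 2) :=
  (heckeEvalForms N 2 P : heckeAlgebra N 2 ∅)

theorem TP_X (l : Nat.Primes) : TP N (MvPolynomial.X l) = hOp N l := by
  have h := heckeEvalForms_heckeGen N 2 l
  exact congrArg Subtype.val h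

theorem TP_mul (P Q : HeckeAlg) : TP N (P * Q) = TP N P * TP N Q := by
  unfold TP
  rw [map_mul]
  rfl

theorem TP_add (P Q : HeckeAlg) : TP N (P + Q) = TP N P + TP N Q := by
  unfold TP
  rw [map_add]
  rfl

theorem TP_C (a : ℤ) (f : CuspForm (Gamma0 N) 2) : TP N (MvPolynomial.C a) f = (a : ℂ) • f := by
  unfold TP
  rw [heckeEvalForms_C, eq_intCast]
  have h : (((a : heckeAlgebra N 2 ∅)) : Module.End ℂ (CuspForm (Gamma0 N) 2)) =
    (a : Module.End ℂ (CuspForm (Gamma0 N) 2)) := by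
    simp
  rw [h, Module.End.intCast_apply, Int.cast_smul_eq_zsmul]

theorem TP_eigen {f : CuspForm (Gamma0 N) 2} (hf : f.IsNormalizedEigenform) (P : HeckeAlg) :
    TP N P f = pvF P f • f := by
  induction P using MvPolynomial.induction_on with
  | C a =>
    rw [TP_C, pvF, MvPolynomial.aeval_C]
    simp
  | add P Q hP hQ =>
    rw [TP_add, LinearMap.add_apply, hP, hQ, pvF, pvF, pvF, map_add, add_smul]
  | mul_X P l hP =>
    rw [TP_mul, Module.End.mul_apply, TP_X, hOp_eigen hf, map_smul, hP, smul_smul, pvF, pvF, map_mul,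
      MvPolynomial.aeval_X, mul_comm]

/-- conjugate homomorphism -/
noncomputable def cjh (φ : Additive (Gamma0 N) →+ ℂ) : Additive (Gamma0 N) →+ ℂ :=
  AddMonoidHom.comp conjA φ

theorem UC_period (P : HeckeAlg) (F : CuspForm (Gamma0 N) 2) :
    UC N P (periodLin N F) = periodLin N (TP N P F) := (periodLin_heckeEvalForms P F).symm

theorem UC_cjh (P : HeckeAlg) (φ : Additive (Gamma0 N) →+ ℂ) :
    UC N P (cjh φ) = cjh (UC N P φ) := evalHom_comp_left _ _ _

theorem cjh_add (φ ψ : Additive (Gamma0 N) →+ ℂ) : cjh (φ + ψ) = cjh φ + cjh ψ :=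
  AddMonoidHom.ext fun x => map_add (starRingEnd ℂ) (φ x) (ψ x)

theorem cjh_sub (φ ψ : Additive (Gamma0 N) →+ ℂ) : cjh (φ - ψ) = cjh φ - cjh ψ :=
  AddMonoidHom.ext fun x => map_sub (starRingEnd ℂ) (φ x) (ψ x)

theorem smul_cjh (z : ℂ) (φ : Additive (Gamma0 N) →+ ℂ) :
    z • cjh φ = cjh ((starRingEnd ℂ z) • φ) :=
  AddMonoidHom.ext fun x => by
    change z * starRingEnd ℂ (φ x) = starRingEnd ℂ (starRingEnd ℂ z * φ x)
    rw [map_mul, Complex.conj_conj]

/-- newforms form a spanning set of the forms with `U_v² = 1` -/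
theorem exists_newbasis (hN : Squarefree N) : ∃ 𝓝 : Finset (CuspForm (Gamma0 N) 2),
    (∀ f ∈ 𝓝, f.IsNewform) ∧ LinearIndependent ℂ (fun f : 𝓝 => (f : CuspForm (Gamma0 N) 2)) ∧
    ∀ F : CuspForm (Gamma0 N) 2, (∀ v : Nat.Primes, (v : ℕ) ∣ N → hOp N v (hOp N v F) = F) →
      ∃ a : 𝓝 → ℂ, F = ∑ f, a f • (f : CuspForm (Gamma0 N) 2) := by
  classical
  haveI := finiteDimensional_cuspForm N
  obtain ⟨b, hb1, hb2, hb3⟩ := exists_linearIndependent ℂ
    {g : CuspForm (Gamma0 N) 2 | g.IsNewform}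
  have hfin : b.Finite := hb3.setFinite
  obtain ⟨w, hw1, hw2⟩ := exists_kill (M := N) hN N.primeFactors
    (fun v hv => ⟨Nat.prime_of_mem_primeFactors hv, Nat.dvd_of_mem_primeFactors hv⟩)
    (fun _ => True) ∅ (fun M' g _ _ _ v hv hvN hvP => absurd
      (Nat.mem_primeFactors.2 ⟨hv, hvN, NeZero.ne N⟩) hvP) (fun M' g _ _ h => absurd trivial h)
  have hw : w = [] := by
    rcases w with _ | ⟨x, w⟩
    · rfl
    · exact absurd (hw1 x (by simp)).1 (Set.notMem_empty _)
  subst hw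
  refine ⟨hfin.toFinset, fun f hf => hb1 (hfin.mem_toFinset.1 hf), ?_, fun F hF => ?_⟩
  · have e : ∀ f : hfin.toFinset, (f : CuspForm (Gamma0 N) 2) ∈ b :=
      fun f => hfin.mem_toFinset.1 f.2
    exact hb3.comp (fun f : hfin.toFinset => (⟨f, e f⟩ : b))
      (fun x y h => Subtype.ext (congrArg (fun z : b => (z : CuspForm (Gamma0 N) 2)) h))
  · have h1 := hw2 F (by
      intro v hv n
      obtain ⟨hvp, hvN, -⟩ := Nat.mem_primeFactors.1 hv
      obtain ⟨v, rfl⟩ : ∃ v' : Nat.Primes, (v' : ℕ) = v := ⟨⟨v, hvp⟩, rfl⟩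
      have h2 := hF v hvN
      have h3 : qCoeff (hOp N v (hOp N v F)) n = qCoeff F (v * (v * n)) := by
        rw [qCoeff_hOp, qCoeff_hOp, if_pos hvN]
        simp
      rw [← h3, h2])
    have h2 : F ∈ Submodule.span ℂ (hfin.toFinset : Set (CuspForm (Gamma0 N) 2)) := by
      rw [hfin.coe_toFinset, hb2]
      have h4 : {g : CuspForm (Gamma0 N) 2 | g.IsNewform ∧ True} =
          {g : CuspForm (Gamma0 N) 2 | g.IsNewform} := by
        ext g
        simp
      rw [← h4]
      exact h1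
    have h3 : Set.range (fun f : hfin.toFinset => (f : CuspForm (Gamma0 N) 2)) =
        (hfin.toFinset : Set (CuspForm (Gamma0 N) 2)) := Subtype.range_coe
    rw [← h3, Submodule.mem_span_range_iff_exists_fun] at h2
    obtain ⟨a, ha⟩ := h2
    exact ⟨a, ha.symm⟩

/-- eigenvalues of newforms are real -/
theorem conj_pv (hN : Squarefree N) {f : CuspForm (Gamma0 N) 2} (hf : f.IsNewform)
    (P : HeckeAlg) : starRingEnd ℂ (pvF P f) = pvF P f := by
  have h1 : ∀ l : Nat.Primes, starRingEnd ℂ (qCoeff f l) = qCoeff f l := by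
    intro l
    by_cases hl : (l : ℕ) ∣ N
    · have h2 := (newformBadPrimeCoeff N f hf l l.2 hl).1 (fun h => by
        have h3 := Nat.isUnit_iff.1 (hN l (by rwa [← sq]))
        exact l.2.one_lt.ne' h3)
      have h4 : (qCoeff f l - 1) * (qCoeff f l + 1) = 0 := by linear_combination h2
      rcases mul_eq_zero.1 h4 with h | h
      · rw [sub_eq_zero.1 h, map_one]
      · rw [eq_neg_of_add_eq_zero_left h, map_neg, map_one]
    · exact IsSym.conj_eq (ip_heckeTLin l.2 hl) hf.ne_zero (heckeTLin_eigen hf.1 l.2 hl)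
  unfold pvF
  induction P using MvPolynomial.induction_on with
  | C a =>
    rw [MvPolynomial.aeval_C]
    simp
  | add P Q hP hQ => rw [map_add, map_add, hP, hQ]
  | mul_X P l hP => rw [map_mul, map_mul, hP, MvPolynomial.aeval_X, h1]

section Comb

variable (𝓝 : Finset (CuspForm (Gamma0 N) 2))

/-- linear combination -/
noncomputable def lc (a : 𝓝 → ℂ) : CuspForm (Gamma0 N) 2 :=
  ∑ f, a f • (f : CuspForm (Gamma0 N) 2)

/-- the homomorphism attached to two combinations -/
noncomputable def ddF (a b : 𝓝 → ℂ) : Additive (Gamma0 N) →+ ℂ :=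
  periodLin N (lc 𝓝 a) + cjh (periodLin N (lc 𝓝 b))

variable {𝓝}

theorem TP_lc (h𝓝 : ∀ f ∈ 𝓝, f.IsNewform) (P : HeckeAlg) (a : 𝓝 → ℂ) :
    TP N P (lc 𝓝 a) = lc 𝓝 (fun f => pvF P (f : CuspForm (Gamma0 N) 2) * a f) := by
  unfold lc
  rw [map_sum]
  refine Finset.sum_congr rfl fun f _ => ?_
  rw [map_smul, TP_eigen (h𝓝 f f.2).1, smul_smul, mul_comm]

theorem lc_sub (a b : 𝓝 → ℂ) : lc 𝓝 a - lc 𝓝 b = lc 𝓝 (fun f => a f - b f) := by
  unfold lc
  rw [← Finset.sum_sub_distrib]
  refine Finset.sum_congr rfl fun f _ => ?_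
  rw [sub_smul]

theorem smul_lc (z : ℂ) (a : 𝓝 → ℂ) : z • lc 𝓝 a = lc 𝓝 (fun f => z * a f) := by
  unfold lc
  rw [Finset.smul_sum]
  refine Finset.sum_congr rfl fun f _ => ?_
  rw [smul_smul]

theorem step_dd (h𝓝 : ∀ f ∈ 𝓝, f.IsNewform) (P : HeckeAlg) (μ : ℂ) (a b : 𝓝 → ℂ) :
    (UC N P - μ • (1 : Module.End ℂ (Additive (Gamma0 N) →+ ℂ))) (ddF 𝓝 a b) =
      ddF 𝓝 (fun f => (pvF P (f : CuspForm (Gamma0 N) 2) - μ) * a f)
        (fun f => (pvF P (f : CuspForm (Gamma0 N) 2) - starRingEnd ℂ μ) * b f) := by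
  rw [LinearMap.sub_apply, LinearMap.smul_apply, Module.End.one_apply]
  unfold ddF
  rw [map_add, UC_period, UC_cjh, UC_period, TP_lc h𝓝, TP_lc h𝓝, smul_add, smul_cjh,
    ← map_smul, ← map_smul, smul_lc, smul_lc, add_sub_add_comm, ← cjh_sub, ← map_sub, ← map_sub,
    lc_sub, lc_sub]
  congr 3 <;>
  · congr 1
    funext f
    ring

theorem pow_dd (h𝓝 : ∀ f ∈ 𝓝, f.IsNewform) (P : HeckeAlg) (μ : ℂ) (k : ℕ) (a b : 𝓝 → ℂ) :
    ((UC N P - μ • (1 : Module.End ℂ (Additive (Gamma0 N) →+ ℂ))) ^ k) (ddF 𝓝 a b) =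
      ddF 𝓝 (fun f => (pvF P (f : CuspForm (Gamma0 N) 2) - μ) ^ k * a f)
        (fun f => (pvF P (f : CuspForm (Gamma0 N) 2) - starRingEnd ℂ μ) ^ k * b f) := by
  induction k generalizing a b with
  | zero => simp
  | succ k ih =>
    rw [pow_succ, Module.End.mul_apply, step_dd h𝓝, ih]
    congr 1 <;>
    · funext f
      ring

theorem dd_eq_zero (hli : LinearIndependent ℂ (fun f : 𝓝 => (f : CuspForm (Gamma0 N) 2)))
    {a b : 𝓝 → ℂ} (h : ddF 𝓝 a b = 0) : a = 0 ∧ b = 0 := by
  obtain ⟨h1, h2⟩ := eq_zero_of_period_add_conj _ _ h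
  rw [Fintype.linearIndependent_iff] at hli
  exact ⟨funext fun f => hli a h1 f, funext fun f => hli b h2 f⟩

open Classical in
theorem mem_span_of_pow (hN : Squarefree N) (h𝓝 : ∀ f ∈ 𝓝, f.IsNewform)
    (hli : LinearIndependent ℂ (fun f : 𝓝 => (f : CuspForm (Gamma0 N) 2)))
    (P : HeckeAlg) (μ : ℂ) (k : ℕ) (a b : 𝓝 → ℂ)
    (h : ((UC N P - μ • (1 : Module.End ℂ (Additive (Gamma0 N) →+ ℂ))) ^ k) (ddF 𝓝 a b) = 0) :
    ddF 𝓝 a b ∈ Submodule.span ℂ ((((𝓝.filter (fun f => pvF P f = μ)).image (periodLin N)) ∪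
      ((𝓝.filter (fun f => pvF P f = μ)).image (fun f => cjh (periodLin N f))) :
        Finset (Additive (Gamma0 N) →+ ℂ)) : Set (Additive (Gamma0 N) →+ ℂ)) := by
  rw [pow_dd h𝓝] at h
  obtain ⟨h1, h2⟩ := dd_eq_zero hli h
  have ha : ∀ f : 𝓝, pvF P (f : CuspForm (Gamma0 N) 2) ≠ μ → a f = 0 := by
    intro f hf
    have h3 := congrFun h1 f
    exact (mul_eq_zero.1 h3).resolve_left (pow_ne_zero _ (sub_ne_zero.2 hf))
  have hb : ∀ f : 𝓝, pvF P (f : CuspForm (Gamma0 N) 2) ≠ μ → b f = 0 := by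
    intro f hf
    have h3 := congrFun h2 f
    refine (mul_eq_zero.1 h3).resolve_left (pow_ne_zero _ (sub_ne_zero.2 fun h4 => hf ?_))
    have h5 := congrArg (starRingEnd ℂ) h4
    rwa [conj_pv hN (h𝓝 f f.2), Complex.conj_conj] at h5
  unfold ddF lc
  rw [map_sum]
  refine add_mem (Submodule.sum_mem _ fun f _ => ?_) ?_
  · by_cases hf : pvF P (f : CuspForm (Gamma0 N) 2) = μ
    · rw [map_smul]
      refine Submodule.smul_mem _ _ (Submodule.subset_span ?_)
      rw [Finset.mem_coe, Finset.mem_union]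
      exact Or.inl (Finset.mem_image.2 ⟨f, Finset.mem_filter.2 ⟨f.2, hf⟩, rfl⟩)
    · rw [ha f hf, zero_smul, map_zero]
      exact zero_mem _
  · have h6 : cjh (periodLin N (∑ f, b f • (f : CuspForm (Gamma0 N) 2))) =
        ∑ f, (starRingEnd ℂ (b f)) • cjh (periodLin N (f : CuspForm (Gamma0 N) 2)) := by
      refine AddMonoidHom.ext fun x => ?_
      rw [AddMonoidHom.finsetSum_apply, map_sum]
      change starRingEnd ℂ ((∑ f, periodLin N (b f • (f : CuspForm (Gamma0 N) 2))) x) = _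
      rw [AddMonoidHom.finsetSum_apply, map_sum]
      refine Finset.sum_congr rfl fun f _ => ?_
      rw [map_smul]
      change starRingEnd ℂ (b f * periodLin N (f : CuspForm (Gamma0 N) 2) x) =
        starRingEnd ℂ (b f) * starRingEnd ℂ (periodLin N (f : CuspForm (Gamma0 N) 2) x)
      rw [map_mul]
    rw [h6]
    refine Submodule.sum_mem _ fun f _ => ?_
    by_cases hf : pvF P (f : CuspForm (Gamma0 N) 2) = μ
    · refine Submodule.smul_mem _ _ (Submodule.subset_span ?_)
      rw [Finset.mem_coe, Finset.mem_union]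
      exact Or.inr (Finset.mem_image.2 ⟨f, Finset.mem_filter.2 ⟨f.2, hf⟩, rfl⟩)
    · rw [hb f hf, map_zero, zero_smul]
      exact zero_mem _

theorem UC_X_jC {v : Nat.Primes} (hv : (v : ℕ) ∣ N) (φ : plusLat N) :
    UC N (MvPolynomial.X v) (UC N (MvPolynomial.X v) (jC N φ)) = jC N φ := by
  rw [UC_apply, UC_apply, ← jC_plusAct, ← jC_plusAct]
  congr 1
  apply Subtype.ext
  rw [coe_plusAct, coe_plusAct, evalPar_X]
  exact φ.2 v hv

theorem span_jC {w : Additive (Gamma0 N) →+ ℂ} (hw : w ∈ Submodule.span ℂ (Set.range (jC N))) :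
    IsParabolicHom (Gamma0 N) w ∧ ∀ v : Nat.Primes, (v : ℕ) ∣ N →
      UC N (MvPolynomial.X v) (UC N (MvPolynomial.X v) w) = w := by
  induction hw using Submodule.span_induction with
  | mem w hw =>
    obtain ⟨φ, rfl⟩ := hw
    refine ⟨fun γ hγ => ?_, fun v hv => UC_X_jC hv φ⟩
    rw [jC_apply, (φ : parM N ℤ).2 γ hγ, Int.cast_zero]
  | zero =>
    refine ⟨fun γ _ => rfl, fun v _ => ?_⟩
    rw [map_zero, map_zero]
  | add x y _ _ hx hy =>
    refine ⟨fun γ hγ => ?_, fun v hv => ?_⟩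
    · rw [AddMonoidHom.add_apply, hx.1 γ hγ, hy.1 γ hγ, add_zero]
    · rw [map_add, map_add, hx.2 v hv, hy.2 v hv]
  | smul z x _ hx =>
    refine ⟨fun γ hγ => ?_, fun v hv => ?_⟩
    · change z * x (Additive.ofMul γ) = 0
      rw [hx.1 γ hγ, mul_zero]
    · rw [map_smul, map_smul, hx.2 v hv]

theorem exists_dd (hspan : ∀ F : CuspForm (Gamma0 N) 2,
      (∀ v : Nat.Primes, (v : ℕ) ∣ N → hOp N v (hOp N v F) = F) →
      ∃ a : 𝓝 → ℂ, F = ∑ f, a f • (f : CuspForm (Gamma0 N) 2))
    {w : Additive (Gamma0 N) →+ ℂ} (hw : w ∈ Submodule.span ℂ (Set.range (jC N))) :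
    ∃ a b : 𝓝 → ℂ, w = ddF 𝓝 a b := by
  obtain ⟨h1, h2⟩ := span_jC hw
  obtain ⟨F, G, rfl⟩ := exists_period_conj_period h1
  have key : ∀ v : Nat.Primes, (v : ℕ) ∣ N →
      hOp N v (hOp N v F) = F ∧ hOp N v (hOp N v G) = G := by
    intro v hv
    have h3 := h2 v hv
    change UC N (MvPolynomial.X v) (UC N (MvPolynomial.X v) (periodLin N F +
      cjh (periodLin N G))) = periodLin N F + cjh (periodLin N G) at h3
    rw [map_add, map_add, UC_period, UC_period, UC_cjh, UC_period, UC_cjh, UC_period, TP_X] at h3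
    have h4 : periodLin N (hOp N v (hOp N v F) - F) +
        cjh (periodLin N (hOp N v (hOp N v G) - G)) = 0 := by
      rw [map_sub, map_sub, cjh_sub, sub_add_sub_comm, h3, sub_self]
    obtain ⟨h5, h6⟩ := eq_zero_of_period_add_conj _ _ h4
    exact ⟨sub_eq_zero.1 h5, sub_eq_zero.1 h6⟩
  obtain ⟨a, ha⟩ := hspan F fun v hv => (key v hv).1
  obtain ⟨b, hb⟩ := hspan G fun v hv => (key v hv).2
  refine ⟨a, b, ?_⟩
  unfold ddF lc
  rw [← ha, ← hb]
  rfl

open Classical in
/-- **the characteristic polynomials of Hecke operators on the new lattice** -/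
theorem rootMult_plus (hN : Squarefree N) (h𝓝 : ∀ f ∈ 𝓝, f.IsNewform)
    (hli : LinearIndependent ℂ (fun f : 𝓝 => (f : CuspForm (Gamma0 N) 2)))
    (hspan : ∀ F : CuspForm (Gamma0 N) 2,
      (∀ v : Nat.Primes, (v : ℕ) ∣ N → hOp N v (hOp N v F) = F) →
      ∃ a : 𝓝 → ℂ, F = ∑ f, a f • (f : CuspForm (Gamma0 N) 2))
    (P : HeckeAlg) (μ : ℂ) :
    (((plusAct N P).charpoly).map (Int.castRingHom ℂ)).rootMultiplicity μ ≤
      2 * (𝓝.filter (fun f => pvF P f = μ)).card := by
  set S : Finset (Additive (Gamma0 N) →+ ℂ) :=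
    ((𝓝.filter (fun f => pvF P f = μ)).image (periodLin N)) ∪
      ((𝓝.filter (fun f => pvF P f = μ)).image (fun f => cjh (periodLin N f))) with hS
  have h1 := rootMult_le_of_embedding (plusAct N P) (UC N P) (jC N)
    (fun x => (jC_plusAct P x)) (fun n b z hz => jC_independent n b z hz) μ
    (Submodule.span ℂ (S : Set (Additive (Gamma0 N) →+ ℂ))) (by
      intro w hw k hk
      obtain ⟨a, b, rfl⟩ := exists_dd hspan hw
      exact mem_span_of_pow hN h𝓝 hli P μ k a b hk)
  refine h1.trans ((finrank_span_finset_le_card S).trans ?_)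
  refine (Finset.card_union_le _ _).trans ?_
  have h2 := Finset.card_image_le (s := 𝓝.filter (fun f => pvF P f = μ)) (f := periodLin N)
  have h3 := Finset.card_image_le (s := 𝓝.filter (fun f => pvF P f = μ))
    (f := fun f => cjh (periodLin N f))
  omega

/-- **faithfulness** -/
theorem pv_eq_zero (hN : Squarefree N) {f : CuspForm (Gamma0 N) 2} (hf : f.IsNewform)
    {P : HeckeAlg} (hP : plusAct N P = 0) : pvF P f = 0 := by
  set ψ := periodLin N f with hψ
  have hpar : IsParabolicHom (Gamma0 N) ψ := isParabolicHom_periodMap f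
  have hfg : AddGroup.FG ψ.range := by
    have : AddGroup.FG (Additive (Gamma0 N)) := GroupFG.iff_add_fg.mp inferInstance
    exact AddGroup.fg_of_surjective ψ.rangeRestrict_surjective
  have hfin : Module.Finite ℤ ψ.range := Module.Finite.iff_addGroup_fg.mpr hfg
  let b := Module.finBasis ℤ ψ.range
  set ψ' : Additive (Gamma0 N) →+ ψ.range := ψ.rangeRestrict with hψ'
  have hincl : ψ.range.subtype.comp ψ' = ψ := rfl
  have hinj : ∀ φ φ' : Additive (Gamma0 N) →+ ψ.range,
      ψ.range.subtype.comp φ = ψ.range.subtype.comp φ' → φ = φ' := by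
    intro φ φ' h
    refine AddMonoidHom.ext fun x => Subtype.ext ?_
    exact DFunLike.congr_fun h x
  -- `ψ'` is fixed by `U_v²`
  have hU : ∀ v : Nat.Primes, (v : ℕ) ∣ N → hop N v (hop N v ψ') = ψ' := by
    intro v hv
    apply hinj
    rw [← hop_comp_left, ← hop_comp_left, hincl, hψ, ← periodLin_hOp, ← periodLin_hOp,
      hOp_eigen hf.1, map_smul, hOp_eigen hf.1, smul_smul]
    have h2 := (newformBadPrimeCoeff N f hf v v.2 hv).1 (fun h => by
        have h3 := Nat.isUnit_iff.1 (hN v (by rwa [← sq]))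
        exact v.2.one_lt.ne' h3)
    rw [← sq, h2, one_smul]
  have hmem : ∀ i, (b.coord i).toAddMonoidHom.comp ψ' ∈ parM N ℤ := by
    intro i γ hγ
    have h1 : ψ' (Additive.ofMul γ) = 0 := Subtype.ext (hpar γ hγ)
    change b.coord i (ψ' (Additive.ofMul γ)) = 0
    rw [h1, map_zero]
  have hmem' : ∀ i, (⟨_, hmem i⟩ : parM N ℤ) ∈ plusLat N := by
    intro i v hv
    apply Subtype.ext
    rw [coe_hopPar_apply, coe_hopPar_apply, hop_comp_left, hop_comp_left, hU v hv]
  have hzero : evalHom N _ P ψ' = 0 := by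
    refine AddMonoidHom.ext fun x => ?_
    rw [AddMonoidHom.zero_apply]
    apply b.ext_elem
    intro i
    have h1 : evalHom N ℤ P ((b.coord i).toAddMonoidHom.comp ψ') = 0 := by
      have h2 := congrArg (fun g : Module.End ℤ (plusLat N) =>
        (((g ⟨⟨_, hmem i⟩, hmem' i⟩ : plusLat N) : parM N ℤ) : Additive (Gamma0 N) →+ ℤ)) hP
      change ((evalPar N ℤ P ⟨_, hmem i⟩ : parM N ℤ) : Additive (Gamma0 N) →+ ℤ) = _ at h2
      rw [coe_evalPar] at h2
      exact h2
    rw [evalHom_comp_left] at h1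
    have h3 := DFunLike.congr_fun h1 x
    rw [map_zero, Finsupp.zero_apply]
    exact h3
  have h3 : evalHom N ℂ P ψ = 0 := by
    rw [← hincl, evalHom_comp_left, hzero, AddMonoidHom.comp_zero]
  have h4 : periodLin N (TP N P f) = 0 := by
    rw [← UC_period]
    exact h3
  have h5 : TP N P f = 0 := by
    apply periodLin_injective N
    rw [h4, map_zero]
  rw [TP_eigen hf.1] at h5
  exact (smul_eq_zero.1 h5).resolve_right hf.ne_zero

end Comb

end Forms

end Fermat.Agent.TwoAdic
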