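import Mathlib

/-!
# Root multiplicities modulo a prime of the algebraic integers
-/

set_option autoImplicit false
set_option linter.style.haveILetI false

open Module Polynomial

namespace Fermat.Agent.TwoAdic

theorem rootMult_prod {K : Type*} [Field K] {ι : Type*} (s : Finset ι) (c : ι → K) (μ : K)
    [DecidableEq K] :
    (∏ i ∈ s, (X - C (c i)) ^ 2 : K[X]).rootMultiplicity μ =
      2 * (s.filter (fun i => c i = μ)).card := by
  classical
  rw [Finset.prod_pow, ← count_roots, roots_pow]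
  have h1 : (∏ i ∈ s, (X - C (c i)) : K[X]) = ((s.val.map c).map fun a => X - C a).prod := by
    rw [Multiset.map_map]
    rfl
  rw [h1, roots_multiset_prod_X_sub_C, Multiset.count_nsmul, Multiset.count_map]
  congr 1
  rw [Finset.card_def, Finset.filter_val]
  congr 1
  exact Multiset.filter_congr fun x _ => eq_comm

open Classical in
theorem rootMult_mod {χ : ℤ[X]} (hχ : χ.Monic) {ι : Type*} (s : Finset ι)
    (c : ι → integralClosure ℤ ℂ)
    (h : ∀ μ : ℂ, (χ.map (Int.castRingHom ℂ)).rootMultiplicity μ ≤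
      2 * (s.filter (fun i => (c i : ℂ) = μ)).card)
    (𝔪 : Ideal (integralClosure ℤ ℂ)) [h𝔪 : 𝔪.IsMaximal] (p : ℕ) [hp : Fact p.Prime]
    (hp𝔪 : (p : integralClosure ℤ ℂ) ∈ 𝔪) :
    (χ.map (Int.castRingHom (ZMod p))).rootMultiplicity 1 ≤
      2 * (s.filter (fun i => c i - 1 ∈ 𝔪)).card := by
  set G : (integralClosure ℤ ℂ)[X] := ∏ i ∈ s, (X - C (c i)) ^ 2 with hG
  have hGmap : ∀ {K : Type} [Field K] (f : integralClosure ℤ ℂ →+* K),
      G.map f = ∏ i ∈ s, (X - C (f (c i))) ^ 2 := by
    intro K _ f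
    rw [hG, Polynomial.map_prod]
    refine Finset.prod_congr rfl fun i _ => ?_
    rw [Polynomial.map_pow, Polynomial.map_sub, Polynomial.map_X, Polynomial.map_C]
  have hne : ∀ {K : Type} [Field K] (f : integralClosure ℤ ℂ →+* K), G.map f ≠ 0 := by
    intro K _ f
    rw [hGmap]
    exact Finset.prod_ne_zero_iff.2 fun i _ => pow_ne_zero _ (X_sub_C_ne_zero _)
  -- divisibility over `ℂ`
  set v : integralClosure ℤ ℂ →+* ℂ := (integralClosure ℤ ℂ).val.toRingHom with hv
  have hvinj : Function.Injective v := Subtype.val_injective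
  have hcomp : ∀ {K : Type} [Field K] (f : integralClosure ℤ ℂ →+* K),
      (χ.map (Int.castRingHom (integralClosure ℤ ℂ))).map f = χ.map (Int.castRingHom K) := by
    intro K _ f
    rw [Polynomial.map_map]
    congr 1
    exact RingHom.ext_int _ _
  have h1 : χ.map (Int.castRingHom ℂ) ∣ G.map v := by
    rw [IsAlgClosed.dvd_iff_roots_le_roots ((hχ.map _).ne_zero) (hne v), Multiset.le_iff_count]
    intro μ
    rw [count_roots, count_roots, hGmap, rootMult_prod]
    exact h μ
  have h2 : χ.map (Int.castRingHom (integralClosure ℤ ℂ)) ∣ G := by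
    rw [← Polynomial.map_dvd_map v hvinj (hχ.map _), hcomp]
    exact h1
  -- reduction
  letI : Field (integralClosure ℤ ℂ ⧸ 𝔪) := Ideal.Quotient.field 𝔪
  set w : integralClosure ℤ ℂ →+* integralClosure ℤ ℂ ⧸ 𝔪 := Ideal.Quotient.mk 𝔪 with hw
  have h3 : χ.map (Int.castRingHom (integralClosure ℤ ℂ ⧸ 𝔪)) ∣ G.map w := by
    rw [← hcomp w]
    exact Polynomial.map_dvd w h2
  haveI : CharP (integralClosure ℤ ℂ ⧸ 𝔪) p := by
    refine ringChar.of_eq (CharP.ringChar_of_prime_eq_zero hp.out ?_)
    have h5 : w (p : integralClosure ℤ ℂ) = 0 := Ideal.Quotient.eq_zero_iff_mem.2 hp𝔪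
    rwa [map_natCast] at h5
  set f : ZMod p →+* integralClosure ℤ ℂ ⧸ 𝔪 := ZMod.castHom (dvd_refl p) _ with hf
  have h4 : (χ.map (Int.castRingHom (ZMod p))).rootMultiplicity 1 =
      (χ.map (Int.castRingHom (integralClosure ℤ ℂ ⧸ 𝔪))).rootMultiplicity 1 := by
    rw [eq_rootMultiplicity_map f.injective, map_one, Polynomial.map_map]
    congr 2
    exact RingHom.ext_int _ _
  rw [h4]
  refine (rootMultiplicity_le_rootMultiplicity_of_dvd (hne w) h3 1).trans ?_
  rw [hGmap, rootMult_prod]
  refine Nat.mul_le_mul_left 2 (le_of_eq ?_)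
  congr 1
  refine Finset.filter_congr fun i _ => ?_
  rw [← Ideal.Quotient.eq_zero_iff_mem, map_sub, map_one, sub_eq_zero]

/-- Linear independence over `ℤ` of integer valued functions implies linear independence
over `ℂ`. -/
theorem linearIndependent_intCast {Y : Type*} {n : ℕ} (b : Fin n → Y → ℤ)
    (hb : ∀ a : Fin n → ℤ, (∀ y, ∑ i, a i * b i y = 0) → a = 0) (z : Fin n → ℂ)
    (hz : ∀ y, ∑ i, z i * (b i y : ℂ) = 0) : z = 0 := by
  classical
  set S : Submodule ℤ ℂ := Submodule.span ℤ (Set.range z) with hS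
  haveI : Module.Finite ℤ S := Module.Finite.iff_fg.2 (Submodule.fg_span (Set.finite_range z))
  let e := Module.finBasis ℤ S
  have hzS : ∀ i, z i ∈ S := fun i => Submodule.subset_span ⟨i, rfl⟩
  set a : Fin (finrank ℤ S) → Fin n → ℤ := fun k i => e.repr ⟨z i, hzS i⟩ k with ha
  have h1 : ∀ k, a k = 0 := by
    intro k
    apply hb
    intro y
    have h2 : (∑ i, (b i y) • (⟨z i, hzS i⟩ : S)) = 0 := by
      apply Subtype.ext
      rw [Submodule.coe_sum]
      rw [ZeroMemClass.coe_zero, ← hz y]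
      refine Finset.sum_congr rfl fun i _ => ?_
      rw [Submodule.coe_smul, zsmul_eq_mul, mul_comm]
    have h3 := congrArg (fun v => e.repr v k) h2
    simp only [map_sum, map_zsmul, Finsupp.coe_finsetSum, Finset.sum_apply, Finsupp.smul_apply,
      map_zero, Finsupp.coe_zero, Pi.zero_apply] at h3
    rw [← h3]
    refine Finset.sum_congr rfl fun i _ => ?_
    rw [smul_eq_mul, mul_comm]
  funext i
  have h4 : (⟨z i, hzS i⟩ : S) = 0 := by
    rw [← e.repr.map_eq_zero_iff]
    ext k
    exact congrFun (h1 k) i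
  exact congrArg Subtype.val h4

/-- The characteristic polynomial of an endomorphism of a lattice, from an embedding into a
complex vector space. -/
theorem rootMult_le_of_embedding {L W : Type*} [AddCommGroup L] [Module.Free ℤ L]
    [Module.Finite ℤ L] [AddCommGroup W] [Module ℂ W] (u : Module.End ℤ L) (U : Module.End ℂ W)
    (j : L →+ W) (hj : ∀ x, j (u x) = U (j x))
    (hinj : ∀ (n : ℕ) (b : Basis (Fin n) ℤ L) (z : Fin n → ℂ), ∑ i, z i • j (b i) = 0 → z = 0)
    (μ : ℂ) (X : Submodule ℂ W) [FiniteDimensional ℂ X]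
    (hX : ∀ w ∈ Submodule.span ℂ (Set.range j), ∀ k : ℕ, ((U - μ • (1 : Module.End ℂ W)) ^ k) w = 0 →
      w ∈ X) :
    (u.charpoly.map (Int.castRingHom ℂ)).rootMultiplicity μ ≤ finrank ℂ X := by
  classical
  let b := Module.finBasis ℤ L
  set n := finrank ℤ L with hn
  set A : Matrix (Fin n) (Fin n) ℤ := LinearMap.toMatrix b b u with hA
  set φ : Module.End ℂ (Fin n → ℂ) := (A.map (Int.castRingHom ℂ)).toLin' with hφ
  have hcp : φ.charpoly = u.charpoly.map (Int.castRingHom ℂ) := by
    rw [hφ, Matrix.charpoly_toLin', Matrix.charpoly_map, LinearMap.charpoly_toMatrix]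
  let Θ : (Fin n → ℂ) →ₗ[ℂ] W := Fintype.linearCombination ℂ (fun i => j (b i))
  have hΘ : ∀ z, Θ z = ∑ i, z i • j (b i) := fun z => rfl
  have hΘinj : Function.Injective Θ := by
    rw [injective_iff_map_eq_zero]
    intro z hz
    exact hinj n b z hz
  have hcomm : ∀ z, Θ (φ z) = U (Θ z) := by
    intro z
    rw [hΘ, hΘ, map_sum]
    have h1 : ∀ i, U (z i • j (b i)) = ∑ k, (z i * (A k i : ℂ)) • j (b k) := by
      intro i
      rw [map_smul, ← hj]
      have h2 : u (b i) = ∑ k, A k i • b k := by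
        conv_lhs => rw [← b.sum_repr (u (b i))]
        refine Finset.sum_congr rfl fun k _ => ?_
        rw [hA, LinearMap.toMatrix_apply]
      rw [h2, map_sum, Finset.smul_sum]
      refine Finset.sum_congr rfl fun k _ => ?_
      rw [map_zsmul, mul_smul, Int.cast_smul_eq_zsmul]
    rw [Finset.sum_congr rfl fun i _ => h1 i, Finset.sum_comm]
    refine Finset.sum_congr rfl fun k _ => ?_
    rw [← Finset.sum_smul, hφ, Matrix.toLin'_apply, Matrix.mulVec, dotProduct]
    congr 1
    refine Finset.sum_congr rfl fun i _ => ?_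
    simp [mul_comm]
  have hpow : ∀ (k : ℕ) z, Θ (((φ - μ • (1 : Module.End ℂ (Fin n → ℂ))) ^ k) z) =
      ((U - μ • (1 : Module.End ℂ W)) ^ k) (Θ z) := by
    intro k
    induction k with
    | zero => intro z; rfl
    | succ k ih =>
      intro z
      rw [pow_succ, pow_succ, Module.End.mul_apply, Module.End.mul_apply, ih]
      congr 1
      rw [LinearMap.sub_apply, LinearMap.sub_apply, map_sub, hcomm]
      simp
  have hmem : ∀ z ∈ φ.maxGenEigenspace μ, Θ z ∈ X := by
    intro z hz
    obtain ⟨k, hk⟩ := (Module.End.mem_maxGenEigenspace φ μ z).1 hz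
    refine hX _ ?_ k ?_
    · rw [hΘ]
      exact Submodule.sum_mem _ fun i _ => Submodule.smul_mem _ _
        (Submodule.subset_span ⟨b i, rfl⟩)
    · rw [← hpow, hk, map_zero]
  rw [← hcp, ← LinearMap.finrank_maxGenEigenspace_eq]
  let Θ' : φ.maxGenEigenspace μ →ₗ[ℂ] X := Θ.restrict hmem
  refine LinearMap.finrank_le_finrank_of_injective (f := Θ') ?_
  intro x y hxy
  have h1 := congrArg Subtype.val hxy
  exact Subtype.ext (hΘinj h1)

end Fermat.Agent.TwoAdic
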