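import Fermat.Agent.Switch.ThreeTor
import Fermat.Agent.Switch.CardShort

set_option autoImplicit false

/-!
# The Hesse pencil: curves with the same 3-torsion
-/

open WeierstrassCurve WeierstrassCurve.Affine WeierstrassCurve.Affine.Point
open Fermat.Agent.Icosa Fermat.Agent.Schoof Fermat.Agent.Switch

namespace Fermat.Agent.TwoAdic

section Forms

variable {R : Type*} [CommRing R]

/-- the discriminant form of the Hesse pencil -/
def hD (c4 c6 l m : R) : R := l^4 - 6*c4*l^2*m^2 - 8*c6*l*m^3 - 3*c4^2*m^4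

/-- the covariant of degree 4 -/
def hC4 (c4 c6 l m : R) : R :=
  c4*l^4 + 4*c6*l^3*m + 6*c4^2*l^2*m^2 + 4*c4*c6*l*m^3 - (3*c4^3 - 4*c6^2)*m^4

/-- the covariant of degree 6 -/
def hC6 (c4 c6 l m : R) : R :=
  c6*l^6 + 6*c4^2*l^5*m + 15*c4*c6*l^4*m^2 + 20*c6^2*l^3*m^3 + 15*c4^2*c6*l^2*m^4 +
    6*(3*c4^4 - 2*c4*c6^2)*l*m^5 + (9*c4^3*c6 - 8*c6^3)*m^6

theorem hC_disc (c4 c6 l m : R) :
    hC4 c4 c6 l m ^ 3 - hC6 c4 c6 l m ^ 2 = (c4^3 - c6^2) * hD c4 c6 l m ^ 3 := by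
  unfold hC4 hC6 hD; ring

theorem map_hD {S : Type*} [CommRing S] (φ : R →+* S) (c4 c6 l m : R) :
    φ (hD c4 c6 l m) = hD (φ c4) (φ c6) (φ l) (φ m) := by
  simp only [hD, map_sub, map_mul, map_pow, map_ofNat]

theorem map_hC4 {S : Type*} [CommRing S] (φ : R →+* S) (c4 c6 l m : R) :
    φ (hC4 c4 c6 l m) = hC4 (φ c4) (φ c6) (φ l) (φ m) := by
  simp only [hC4, map_sub, map_add, map_mul, map_pow, map_ofNat]

theorem map_hC6 {S : Type*} [CommRing S] (φ : R →+* S) (c4 c6 l m : R) :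
    φ (hC6 c4 c6 l m) = hC6 (φ c4) (φ c6) (φ l) (φ m) := by
  simp only [hC6, map_sub, map_add, map_mul, map_pow, map_ofNat]

/-- the 3-division polynomial of `y² = x³ - 27 c4 x - 54 c6` (divided by 3) -/
def tT (c4 c6 x : R) : R := x^4 - 54*c4*x^2 - 216*c6*x - 243*c4^2

/-- denominator of the transformation -/
def hd (l m x : R) : R := 3*l - m*x

/-- numerator of the transformation -/
def hn (c4 c6 l m x : R) : R :=
  (l^3 - 3*c4*l*m^2 - 2*c6*m^3)*x - 9*m*(c4*l^2 + 2*c6*l*m + c4^2*m^2)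

theorem tT_transf (c4 c6 l m x : R) :
    81 * (hn c4 c6 l m x)^4 - 486 * hC4 c4 c6 l m * (hn c4 c6 l m x)^2 * (hd l m x)^2 -
      648 * hC6 c4 c6 l m * hn c4 c6 l m x * (hd l m x)^3 -
      243 * (hC4 c4 c6 l m)^2 * (hd l m x)^4 = 81 * (hD c4 c6 l m)^3 * tT c4 c6 x := by
  unfold hn hC4 hC6 hD tT hd; ring

theorem eqn_transf (c4 c6 l m x : R) :
    27 * (hn c4 c6 l m x)^3 - 81 * hC4 c4 c6 l m * hn c4 c6 l m x * (hd l m x)^2 -
      54 * hC6 c4 c6 l m * (hd l m x)^3 - 9 * (hD c4 c6 l m)^2 * hd l m x *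
      (x^3 - 27*c4*x - 54*c6) = 9 * m * (hD c4 c6 l m)^2 * tT c4 c6 x := by
  unfold hn hC4 hC6 hD tT hd; ring

theorem det_transf (c4 c6 l m x x' : R) :
    hn c4 c6 l m x * hd l m x' - hn c4 c6 l m x' * hd l m x = 3 * hD c4 c6 l m * (x - x') := by
  unfold hn hD hd; ring

/-- product formula -/
theorem hd_mul (c4 c6 l m x : R) : hd l m x * (27*l^3 + 9*l^2*m*x + 3*l*m^2*(x^2 - 54*c4) +
    m^3*(x^3 - 54*c4*x - 216*c6)) = 81 * hD c4 c6 l m - m^4 * tT c4 c6 x := by
  unfold hD hd tT; ring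

end Forms

section Field

variable {k : Type*} [Field k]

theorem vieta3 {p q ν L a b c : k} (hab : a ≠ b) (hac : a ≠ c) (hbc : b ≠ c)
    (ha : (ν + L*a)^2 = a^3 + p*a + q) (hb : (ν + L*b)^2 = b^3 + p*b + q)
    (hc : (ν + L*c)^2 = c^3 + p*c + q) : a + b + c = L^2 := by
  have h1 : L*(2*ν + L*(a + b)) = a^2 + a*b + b^2 + p := by
    apply mul_left_cancel₀ (sub_ne_zero.mpr hab)
    linear_combination ha - hb
  have h2 : L*(2*ν + L*(a + c)) = a^2 + a*c + c^2 + p := by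
    apply mul_left_cancel₀ (sub_ne_zero.mpr hac)
    linear_combination ha - hc
  apply mul_left_cancel₀ (sub_ne_zero.mpr hbc)
  linear_combination h2 - h1

variable {W W' : WeierstrassCurve k} {c4 c6 l m : k}

theorem psi3_sh (hW : Sh W c4 c6) (x : k) : psi3 W x = 3 * tT c4 c6 x := by
  simp only [psi3, WeierstrassCurve.b₂, WeierstrassCurve.b₄, WeierstrassCurve.b₆,
    WeierstrassCurve.b₈, hW.a1, hW.a2, hW.a3, hW.a4, hW.a6, tT]
  ring

theorem eqn_sh (hW : Sh W c4 c6) {x y : k} (h : W.toAffine.Nonsingular x y) :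
    y^2 = x^3 - 27*c4*x - 54*c6 := by
  have := h.1
  rw [WeierstrassCurve.Affine.equation_iff, hW.a1, hW.a2, hW.a3, hW.a4, hW.a6] at this
  linear_combination this

/-- the graph of the isomorphism on 3-torsion points -/
def Im (W W' : WeierstrassCurve k) (c4 c6 l m : k) (P : W.toAffine.Point)
    (P' : W'.toAffine.Point) : Prop :=
  (P = 0 ∧ P' = 0) ∨ ∃ (x y : k) (h : W.toAffine.Nonsingular x y)
    (h' : W'.toAffine.Nonsingular (3 * hn c4 c6 l m x / hd l m x)
      (3 * hD c4 c6 l m * y / hd l m x)), tT c4 c6 x = 0 ∧ P = .some x y h ∧ P' = .some _ _ h'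

variable (h2 : (2 : k) ≠ 0) (h3 : (3 : k) ≠ 0) (hW : Sh W c4 c6)
  (hW' : Sh W' (hC4 c4 c6 l m) (hC6 c4 c6 l m)) (hdisc : c4^3 ≠ c6^2) (hDne : hD c4 c6 l m ≠ 0)

include h3 hDne in
theorem hd_ne {x : k} (hx : tT c4 c6 x = 0) : hd l m x ≠ 0 := by
  intro h
  have := hd_mul c4 c6 l m x
  rw [h, hx, zero_mul, mul_zero, sub_zero] at this
  have h81 : (81 : k) ≠ 0 := by
    have : (81 : k) = 3^4 := by norm_num
    rw [this]; exact pow_ne_zero _ h3
  exact mul_ne_zero h81 hDne this.symm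

include h3 hDne in
theorem eqn_image {x y : k} (hx : tT c4 c6 x = 0) (hy : y^2 = x^3 - 27*c4*x - 54*c6) :
    (3 * hD c4 c6 l m * y / hd l m x)^2 = (3 * hn c4 c6 l m x / hd l m x)^3 -
      27 * hC4 c4 c6 l m * (3 * hn c4 c6 l m x / hd l m x) - 54 * hC6 c4 c6 l m := by
  have hd0 := hd_ne h3 hDne hx
  have h := eqn_transf c4 c6 l m x
  rw [hx, mul_zero, ← hy] at h
  field_simp
  linear_combination -h

include h2 h3 hdisc in
/-- a point of order 3 is not of order 2 -/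
theorem y_ne {x y : k} (hx : tT c4 c6 x = 0) (hy : y^2 = x^3 - 27*c4*x - 54*c6) : y ≠ 0 := by
  rintro rfl
  apply hdisc
  have hy' : x^3 - 27*c4*x - 54*c6 = 0 := by linear_combination -hy
  unfold tT at hx
  -- `x⁴ = 27 c4 x² + 54 c6 x`, so `27 c4 x² + 162 c6 x + 243 c4² = 0`
  have e1 : 27 * (c4*x^2 + 6*c6*x + 9*c4^2) = 0 := by linear_combination x * hy' - hx
  have h27 : (27 : k) ≠ 0 := by
    have : (27 : k) = 3^3 := by norm_num
    rw [this]; exact pow_ne_zero _ h3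
  have e2 : c4*x^2 + 6*c6*x + 9*c4^2 = 0 := (mul_eq_zero.mp e1).resolve_left h27
  -- eliminate
  have e3 : 6 * (c6*x^2 + 6*c4^2*x + 9*c4*c6) = 0 := by
    linear_combination x * e2 - c4 * hy'
  have h6 : (6 : k) ≠ 0 := by
    have : (6 : k) = 2*3 := by norm_num
    rw [this]; exact mul_ne_zero h2 h3
  have e4 : c6*x^2 + 6*c4^2*x + 9*c4*c6 = 0 := (mul_eq_zero.mp e3).resolve_left h6
  have e5 : 6 * ((c4^3 - c6^2) * x) = 0 := by linear_combination c4 * e4 - c6 * e2
  have e6 := (mul_eq_zero.mp e5).resolve_left h6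
  rcases mul_eq_zero.mp e6 with h | h
  · exact sub_eq_zero.mp h
  · rw [h] at e2 hy'
    have h9 : (9 : k) ≠ 0 := by
      have : (9 : k) = 3^2 := by norm_num
      rw [this]; exact pow_ne_zero _ h3
    have h54 : (54 : k) ≠ 0 := by
      have : (54 : k) = 2*3^3 := by norm_num
      rw [this]; exact mul_ne_zero h2 (pow_ne_zero _ h3)
    have a1 : c4^2 = 0 := by
      have : 9 * c4^2 = 0 := by linear_combination e2
      exact (mul_eq_zero.mp this).resolve_left h9
    have a2 : c6 = 0 := by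
      have : 54 * c6 = 0 := by linear_combination -hy'
      exact (mul_eq_zero.mp this).resolve_left h54
    rw [a2, pow_eq_zero_iff (two_ne_zero) |>.mp a1]
    ring

include h2 h3 hW' hdisc hDne in
theorem nonsing_image {x y : k} (hx : tT c4 c6 x = 0) (hy : y^2 = x^3 - 27*c4*x - 54*c6) :
    W'.toAffine.Nonsingular (3 * hn c4 c6 l m x / hd l m x)
      (3 * hD c4 c6 l m * y / hd l m x) := by
  rw [nonsing_iff hW' h2]
  · exact eqn_image h3 hDne hx hy
  · exact div_ne_zero (mul_ne_zero (mul_ne_zero h3 hDne) (y_ne h2 h3 hdisc hx hy))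
      (hd_ne h3 hDne hx)

variable [DecidableEq k]

include h3 hW in
theorem tT_of_three {x y : k} (h : W.toAffine.Nonsingular x y)
    (h3' : (3 : ℤ) • (Point.some x y h : W.toAffine.Point) = 0) : tT c4 c6 x = 0 := by
  have h4 : psi3 W x = 0 := by
    apply psi3_of_three h
    rw [show (3 : ℤ) = 1 + 1 + 1 by norm_num, add_smul, add_smul, one_smul] at h3'
    exact eq_neg_of_add_eq_zero_left h3'
  rw [psi3_sh hW] at h4
  exact (mul_eq_zero.mp h4).resolve_left h3

include hW in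
theorem three_of_tT {x y : k} (h : W.toAffine.Nonsingular x y) (hx : tT c4 c6 x = 0) :
    (3 : ℤ) • (Point.some x y h : W.toAffine.Point) = 0 :=
  three_smul_of_psi3 h (by rw [psi3_sh hW, hx, mul_zero])

namespace Im

variable {P Q : W.toAffine.Point} {P' Q' : W'.toAffine.Point}

omit [DecidableEq k] in
theorem zero : Im W W' c4 c6 l m 0 0 := Or.inl ⟨rfl, rfl⟩

include hW in
theorem three (h : Im W W' c4 c6 l m P P') : (3 : ℤ) • P = 0 := by
  rcases h with ⟨rfl, -⟩ | ⟨x, y, h, h', hx, rfl, -⟩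
  · exact smul_zero _
  · exact three_of_tT hW h hx

include hW' h3 hDne in
theorem three' (h : Im W W' c4 c6 l m P P') : (3 : ℤ) • P' = 0 := by
  rcases h with ⟨-, rfl⟩ | ⟨x, y, h, h', hx, -, rfl⟩
  · exact smul_zero _
  · apply three_of_tT hW' h'
    have hd0 := hd_ne h3 hDne hx
    have h4 := tT_transf c4 c6 l m x
    rw [hx, mul_zero] at h4
    have h5 : tT (hC4 c4 c6 l m) (hC6 c4 c6 l m) (3 * hn c4 c6 l m x / hd l m x) *
        (hd l m x)^4 = 0 := by
      rw [← h4]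
      unfold tT
      field_simp
      ring
    exact (mul_eq_zero.mp h5).resolve_right (pow_ne_zero _ hd0)

omit [DecidableEq k] in
theorem eq_zero_iff (h : Im W W' c4 c6 l m P P') : P = 0 ↔ P' = 0 := by
  rcases h with ⟨rfl, rfl⟩ | ⟨x, y, h, h', hx, rfl, rfl⟩
  · exact ⟨fun _ => rfl, fun _ => rfl⟩
  · exact ⟨fun h => absurd h (some_ne_zero _), fun h => absurd h (some_ne_zero _)⟩

include hW hW' in
omit [DecidableEq k] in
theorem neg (h : Im W W' c4 c6 l m P P') : Im W W' c4 c6 l m (-P) (-P') := by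
  rcases h with ⟨rfl, rfl⟩ | ⟨x, y, h, h', hx, rfl, rfl⟩
  · rw [Point.neg_zero, Point.neg_zero]; exact zero
  · have e1 : W.toAffine.negY x y = -y := by rw [negY, hW.a1, hW.a3]; ring
    have e2 : W'.toAffine.negY (3 * hn c4 c6 l m x / hd l m x)
        (3 * hD c4 c6 l m * y / hd l m x) = 3 * hD c4 c6 l m * (-y) / hd l m x := by
      rw [negY, hW'.a1, hW'.a3]; ring
    refine Or.inr ⟨x, -y, ?_, ?_, hx, ?_, ?_⟩
    · rw [← e1]; exact (nonsingular_neg _ _).mpr h
    · rw [← e2]; exact (nonsingular_neg _ _).mpr h'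
    · rw [neg_some, some.injEq]; exact ⟨rfl, e1⟩
    · rw [neg_some, some.injEq]; exact ⟨rfl, e2⟩

omit [DecidableEq k] in
theorem unique {P'' : W'.toAffine.Point} (h : Im W W' c4 c6 l m P P')
    (h' : Im W W' c4 c6 l m P P'') : P' = P'' := by
  rcases h with ⟨rfl, rfl⟩ | ⟨x, y, h, h', hx, rfl, rfl⟩
  · exact ((eq_zero_iff h').mp rfl).symm
  · rcases h' with ⟨h1, -⟩ | ⟨x1, y1, h1, h1', hx1, h2, rfl⟩
    · exact absurd h1 (some_ne_zero _)
    · rw [some.injEq] at h2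
      obtain ⟨rfl, rfl⟩ := h2
      rfl

include h2 h3 hW hW' hdisc hDne in
theorem add (hP : Im W W' c4 c6 l m P P') (hQ : Im W W' c4 c6 l m Q Q') :
    Im W W' c4 c6 l m (P + Q) (P' + Q') := by
  have hP3 := hP.three hW
  have hQ3 := hQ.three hW
  have hP3' := hP.three' h3 hW' hDne
  by_cases hP0 : P = 0
  · rw [hP0, (eq_zero_iff hP).mp hP0, zero_add, zero_add]
    exact hQ
  by_cases hQ0 : Q = 0
  · rw [hQ0, (eq_zero_iff hQ).mp hQ0, add_zero, add_zero]
    exact hP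
  by_cases hPQ : Q = P
  · subst hPQ
    have hPP' := hP.unique hQ
    subst hPP'
    have e1 : Q + Q = -Q := by linear_combination (norm := module) hP3
    have e2 : P' + P' = -P' := by linear_combination (norm := module) hP3'
    rw [e1, e2]
    exact hP.neg hW hW'
  by_cases hPQ2 : Q = -P
  · subst hPQ2
    have := hQ.unique (hP.neg hW hW')
    subst this
    rw [add_neg_cancel, add_neg_cancel]
    exact zero
  -- generic case
  rcases hP with ⟨rfl, -⟩ | ⟨x1, y1, k1, k1', hx1, rfl, rfl⟩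
  · exact absurd rfl hP0
  rcases hQ with ⟨rfl, -⟩ | ⟨x2, y2, k2, k2', hx2, rfl, rfl⟩
  · exact absurd rfl hQ0
  have hx12 : x1 ≠ x2 := by
    intro h
    rcases eq_or_eq_neg_of_xc (A := Point.some x2 y2 k2) (B := Point.some x1 y1 k1) hQ0 hP0
      h.symm with h | h
    · exact hPQ h
    · exact hPQ2 h
  have E1 := eqn_sh hW k1
  have E2 := eqn_sh hW k2
  set L := (y1 - y2) / (x1 - x2) with hL
  have hL' : y1 - y2 = L * (x1 - x2) := by
    rw [hL]; field_simp [sub_ne_zero.mpr hx12]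
  obtain ⟨x3, hx3⟩ : ∃ x3, x1 + x2 + x3 = L^2 := ⟨L^2 - x1 - x2, by ring⟩
  obtain ⟨y3, hy3⟩ : ∃ y3, y3 = -(y1 + L * (x3 - x1)) := ⟨_, rfl⟩
  obtain ⟨k3, hsum⟩ := chord hW k1 k2 hx12 hL' hx3 hy3
  have hS3 : (3 : ℤ) • (Point.some x3 y3 k3 : W.toAffine.Point) = 0 := by
    rw [← hsum, smul_add, hP3, hQ3, add_zero]
  have hT3 := tT_of_three h3 hW k3 hS3
  have E3 := eqn_sh hW k3
  have hx13 : x1 ≠ x3 := by
    intro h
    rcases eq_or_eq_neg_of_xc (A := Point.some x1 y1 k1) (B := Point.some x3 y3 k3) hP0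
      (some_ne_zero _) h with h | h
    · rw [← hsum] at h
      exact hQ0 (by linear_combination (norm := module) -h)
    · rw [← hsum] at h
      exact hPQ (by linear_combination (norm := module) h - hP3)
  have hx23 : x2 ≠ x3 := by
    intro h
    rcases eq_or_eq_neg_of_xc (A := Point.some x2 y2 k2) (B := Point.some x3 y3 k3) hQ0
      (some_ne_zero _) h with h | h
    · rw [← hsum] at h
      exact hP0 (by linear_combination (norm := module) -h)
    · rw [← hsum] at h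
      exact hPQ (by linear_combination (norm := module) -h + hQ3)
  have k3' := nonsing_image (l := l) (m := m) h2 h3 hW' hdisc hDne hT3 E3
  have d1 := hd_ne (l := l) (m := m) h3 hDne hx1
  have d2 := hd_ne (l := l) (m := m) h3 hDne hx2
  have d3 := hd_ne (l := l) (m := m) h3 hDne hT3
  have D12 := det_transf c4 c6 l m x1 x2
  have D13 := det_transf c4 c6 l m x1 x3
  have D23 := det_transf c4 c6 l m x2 x3
  have h9D : 3 * (3 * hD c4 c6 l m) ≠ 0 := mul_ne_zero h3 (mul_ne_zero h3 hDne)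
  -- differences of abscissas
  have X : ∀ {x x' : k}, hd l m x ≠ 0 → hd l m x' ≠ 0 →
      3 * hn c4 c6 l m x / hd l m x - 3 * hn c4 c6 l m x' / hd l m x' =
        3 * (3 * hD c4 c6 l m) * (x - x') / (hd l m x * hd l m x') := by
    intro x x' hh hh'
    have := det_transf c4 c6 l m x x'
    field_simp
    linear_combination this
  have Xne : ∀ {x x' : k}, hd l m x ≠ 0 → hd l m x' ≠ 0 → x ≠ x' →
      3 * hn c4 c6 l m x / hd l m x ≠ 3 * hn c4 c6 l m x' / hd l m x' := by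
    intro x x' hh hh' hne
    rw [← sub_ne_zero, X hh hh']
    exact div_ne_zero (mul_ne_zero h9D (sub_ne_zero.mpr hne)) (mul_ne_zero hh hh')
  obtain ⟨ν, hν⟩ : ∃ ν, ν = y1 - L * x1 := ⟨_, rfl⟩
  obtain ⟨L', hL2⟩ : ∃ L', 3 * L' = 3 * l * L + m * ν := ⟨(3 * l * L + m * ν) / 3, by field_simp⟩
  have Y1 : y1 = ν + L * x1 := by rw [hν]; ring
  have Y2 : y2 = ν + L * x2 := by rw [hν]; linear_combination -hL'
  have Y3 : -y3 = ν + L * x3 := by rw [hν, hy3]; ring
  -- the line in the image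
  have Lin : ∀ {x x' : k}, hd l m x ≠ 0 → hd l m x' ≠ 0 →
      3 * hD c4 c6 l m * (ν + L * x) / hd l m x - 3 * hD c4 c6 l m * (ν + L * x') / hd l m x' =
      L' * (3 * hn c4 c6 l m x / hd l m x - 3 * hn c4 c6 l m x' / hd l m x') := by
    intro x x' hh hh'
    rw [X hh hh']
    field_simp
    have : (ν + L * x) * hd l m x' - hd l m x * (ν + L * x') = (3 * L') * (x - x') := by
      rw [hL2]; unfold hd; ring
    linear_combination this
  have hchordL : 3 * hD c4 c6 l m * y1 / hd l m x1 - 3 * hD c4 c6 l m * y2 / hd l m x2 =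
      L' * (3 * hn c4 c6 l m x1 / hd l m x1 - 3 * hn c4 c6 l m x2 / hd l m x2) := by
    rw [Y1, Y2]; exact Lin d1 d2
  have hy3' : 3 * hD c4 c6 l m * y3 / hd l m x3 = -(3 * hD c4 c6 l m * y1 / hd l m x1 +
      L' * (3 * hn c4 c6 l m x3 / hd l m x3 - 3 * hn c4 c6 l m x1 / hd l m x1)) := by
    have h5 := Lin d3 d1
    rw [← h5, ← Y3, ← Y1]
    ring
  -- Vieta
  have V1 := eqn_image (l := l) (m := m) h3 hDne hx1 E1
  have V2 := eqn_image (l := l) (m := m) h3 hDne hx2 E2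
  have V3 := eqn_image (l := l) (m := m) h3 hDne hT3 E3
  have hx3' : 3 * hn c4 c6 l m x1 / hd l m x1 + 3 * hn c4 c6 l m x2 / hd l m x2 +
      3 * hn c4 c6 l m x3 / hd l m x3 = L' ^ 2 := by
    apply vieta3 (p := -27 * hC4 c4 c6 l m) (q := -54 * hC6 c4 c6 l m)
      (ν := 3 * hD c4 c6 l m * y1 / hd l m x1 - L' * (3 * hn c4 c6 l m x1 / hd l m x1))
      (Xne d1 d2 hx12) (Xne d1 d3 hx13) (Xne d2 d3 hx23)
    · linear_combination V1
    · have e : 3 * hD c4 c6 l m * y1 / hd l m x1 - L' * (3 * hn c4 c6 l m x1 / hd l m x1) +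
        L' * (3 * hn c4 c6 l m x2 / hd l m x2) = 3 * hD c4 c6 l m * y2 / hd l m x2 := by
        linear_combination hchordL
      rw [e]
      linear_combination V2
    · have e : 3 * hD c4 c6 l m * y1 / hd l m x1 - L' * (3 * hn c4 c6 l m x1 / hd l m x1) +
        L' * (3 * hn c4 c6 l m x3 / hd l m x3) = -(3 * hD c4 c6 l m * y3 / hd l m x3) := by
        linear_combination hy3'
      rw [e]
      linear_combination V3
  obtain ⟨k4, hsum'⟩ := chord hW' k1' k2' (Xne d1 d2 hx12) hchordL hx3' hy3'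
  rw [hsum, hsum']
  exact Or.inr ⟨x3, y3, k3, k4, hT3, rfl, rfl⟩

end Im

end Field

end Fermat.Agent.TwoAdic
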