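import Mathlib
import Fermat.Agent.TwoAdic.KPrimes

/-!
# Numbers of ideals of given norm and class
-/

set_option autoImplicit false

open NumberField Ideal

open scoped nonZeroDivisors

namespace Fermat.Agent.TwoAdic

variable {N : ℕ}

/-- The number of ideals of norm `n` in the class `c`. -/
noncomputable def AA (N : ℕ) (c : ClassGroup (𝓞 (KN N))) (n : ℕ) : ℕ :=
  Nat.card {I : (Ideal (𝓞 (KN N)))⁰ // absNorm (I : Ideal (𝓞 (KN N))) = n ∧ ClassGroup.mk0 I = c}

instance finite_normclass (c : ClassGroup (𝓞 (KN N))) (n : ℕ) :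
    Finite {I : (Ideal (𝓞 (KN N)))⁰ //
      absNorm (I : Ideal (𝓞 (KN N))) = n ∧ ClassGroup.mk0 I = c} := by
  have h : Finite {I : Ideal (𝓞 (KN N)) // absNorm I = n} := finite_setOfPred_absNorm_eq n
  exact Finite.of_injective (β := {I : Ideal (𝓞 (KN N)) // absNorm I = n})
    (fun I => ⟨(I.1 : Ideal (𝓞 (KN N))), I.2.1⟩)
    fun I J hIJ => by
      have h1 : (I.1 : Ideal (𝓞 (KN N))) = J.1 := by
        simpa using hIJ
      exact Subtype.ext (Subtype.ext h1)

theorem AA_zero (c : ClassGroup (𝓞 (KN N))) : AA N c 0 = 0 := by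
  rw [AA, Nat.card_eq_zero]
  left
  constructor
  rintro ⟨I, h, -⟩
  exact absNorm_ne_zero_of_nonZeroDivisors I h

/-- ideals of norm one -/
theorem AA_one (c : ClassGroup (𝓞 (KN N))) [Decidable (c = 1)] : AA N c 1 = if c = 1 then 1 else 0 := by
  rw [AA]
  split_ifs with h
  · subst h
    rw [Nat.card_eq_one_iff_unique]
    constructor
    · constructor
      rintro ⟨I, hI, -⟩ ⟨J, hJ, -⟩
      rw [absNorm_eq_one_iff] at hI hJ
      exact Subtype.ext (Subtype.ext (hI.trans hJ.symm))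
    · exact ⟨⟨1, by simp, by simp⟩⟩
  · rw [Nat.card_eq_zero]
    left
    constructor
    rintro ⟨I, hI, hc⟩
    rw [absNorm_eq_one_iff] at hI
    apply h
    rw [← hc]
    have : I = 1 := Subtype.ext (by rw [hI, OneMemClass.coe_one, one_eq_top])
    rw [this, map_one]

/-- nonzero ideal -/
theorem mem_nzd {I : Ideal (𝓞 (KN N))} (h : I ≠ ⊥) : I ∈ (Ideal (𝓞 (KN N)))⁰ :=
  mem_nonZeroDivisors_iff_ne_zero.mpr h

theorem exists_factor {P I : (Ideal (𝓞 (KN N)))⁰} (h : (P : Ideal (𝓞 (KN N))) ∣ I) :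
    ∃ J : (Ideal (𝓞 (KN N)))⁰, I = P * J := by
  obtain ⟨J, hJ⟩ := h
  have hJ0 : J ≠ ⊥ := by
    rintro rfl
    apply mem_nonZeroDivisors_iff_ne_zero.mp I.2
    rw [hJ]; simp
  exact ⟨⟨J, mem_nzd hJ0⟩, Subtype.ext hJ⟩

/-- multiplication by an ideal `P` of norm `v` and class `p`, all ideals of norm divisible by `v`
being divisible by `P`. -/
theorem AA_of_ram (P : (Ideal (𝓞 (KN N)))⁰) {v : ℕ} (hv : v ≠ 0)
    (hP : absNorm (P : Ideal (𝓞 (KN N))) = v)
    (hd : ∀ I : Ideal (𝓞 (KN N)), v ∣ absNorm I → (P : Ideal (𝓞 (KN N))) ∣ I)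
    (c : ClassGroup (𝓞 (KN N))) (n : ℕ) :
    AA N c (v * n) = AA N ((ClassGroup.mk0 P)⁻¹ * c) n := by
  rw [AA, AA]
  symm
  apply Nat.card_eq_of_bijective (fun J => ⟨P * J.1, by
    rw [Submonoid.coe_mul, map_mul, hP, J.2.1], by
    rw [map_mul, J.2.2, mul_inv_cancel_left]⟩)
  constructor
  · rintro ⟨J, hJ⟩ ⟨J', hJ'⟩ h
    have h1 : P * J = P * J' := congrArg Subtype.val h
    exact Subtype.ext (mul_left_cancel h1)
  · rintro ⟨I, hI, hc⟩
    obtain ⟨J, rfl⟩ := exists_factor (P := P) (I := I) (hd _ (by rw [hI]; exact dvd_mul_right v n))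
    refine ⟨⟨J, ?_, ?_⟩, rfl⟩
    · rw [Submonoid.coe_mul, map_mul, hP] at hI
      exact Nat.eq_of_mul_eq_mul_left (Nat.pos_of_ne_zero hv) hI
    · rw [← hc, map_mul, inv_mul_cancel_left]

/-- the ideal `(l)` -/
noncomputable def lI (N l : ℕ) (hl : l ≠ 0) : (Ideal (𝓞 (KN N)))⁰ :=
  ⟨span {(l : 𝓞 (KN N))}, mem_nzd (by
    rw [Ne, span_singleton_eq_bot]; exact_mod_cast hl)⟩

theorem mk0_lI (l : ℕ) (hl : l ≠ 0) : ClassGroup.mk0 (lI N l hl) = 1 := by
  rw [ClassGroup.mk0_eq_one_iff]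
  exact ⟨⟨(l : 𝓞 (KN N)), rfl⟩⟩

/-- the counting function at `n / l` (zero if `l ∤ n`) -/
noncomputable def AAd (N : ℕ) (c : ClassGroup (𝓞 (KN N))) (l n : ℕ) : ℕ :=
  if l ∣ n then AA N c (n / l) else 0

/-- `l` inert -/
theorem AA_inert (hN : IsLev N) {l : ℕ} (hl : l.Prime) (hns : ¬ IsSquare (-(N : ZMod l)))
    (c : ClassGroup (𝓞 (KN N))) (n : ℕ) : AA N c (l * n) = AAd N c l n := by
  have hL := absNorm_nat hN.pos l
  rw [AAd]
  split_ifs with hd
  · obtain ⟨m, rfl⟩ := hd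
    rw [Nat.mul_div_cancel_left _ hl.pos]
    symm
    apply Nat.card_eq_of_bijective (fun J => ⟨lI N l hl.ne_zero * J.1, by
      rw [Submonoid.coe_mul, map_mul, J.2.1]
      change absNorm (span {(l : 𝓞 (KN N))}) * m = _
      rw [hL]; ring, by
      rw [map_mul, J.2.2, mk0_lI, one_mul]⟩)
    constructor
    · rintro ⟨J, hJ⟩ ⟨J', hJ'⟩ h
      exact Subtype.ext (mul_left_cancel (congrArg Subtype.val h))
    · rintro ⟨I, hI, hc⟩
      obtain ⟨J, rfl⟩ := exists_factor (P := lI N l hl.ne_zero) (I := I)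
        (dvd_of_inert hN hl hns (by rw [hI]; exact dvd_mul_right _ _))
      refine ⟨⟨J, ?_, ?_⟩, rfl⟩
      · rw [Submonoid.coe_mul, map_mul] at hI
        change absNorm (span {(l : 𝓞 (KN N))}) * _ = _ at hI
        rw [hL] at hI
        have h1 : l ^ 2 * absNorm (J : Ideal (𝓞 (KN N))) = l ^ 2 * m := by rw [hI]; ring
        exact Nat.eq_of_mul_eq_mul_left (pow_pos hl.pos 2) h1
      · rw [← hc, map_mul, mk0_lI, one_mul]
  · rw [AA, Nat.card_eq_zero]
    left
    constructor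
    rintro ⟨I, hI, hc⟩
    obtain ⟨J, rfl⟩ := exists_factor (P := lI N l hl.ne_zero) (I := I)
      (dvd_of_inert hN hl hns (by rw [hI]; exact dvd_mul_right _ _))
    rw [Submonoid.coe_mul, map_mul] at hI
    change absNorm (span {(l : 𝓞 (KN N))}) * _ = _ at hI
    rw [hL] at hI
    have h1 : l * (l * absNorm (J : Ideal (𝓞 (KN N)))) = l * n := by rw [← hI]; ring
    exact hd ⟨_, (Nat.eq_of_mul_eq_mul_left hl.pos h1).symm⟩

/-- the two prime ideals above a split prime as elements of the monoid of nonzero ideals -/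
noncomputable def psI (hN : IsLev N) {l : ℕ} (hl : l.Prime) (hlN : ¬ l ∣ 2 * N) {b : ℤ}
    (hb : (l : ℤ) ∣ b ^ 2 + N) : (Ideal (𝓞 (KN N)))⁰ := ⟨ps N l b, mem_nzd (ps_ne_bot hN hl hlN hb)⟩

theorem mk0_psI_mul (hN : IsLev N) {l : ℕ} (hl : l.Prime) (hlN : ¬ l ∣ 2 * N) {b : ℤ}
    (hb : (l : ℤ) ∣ b ^ 2 + N) (hb' : (l : ℤ) ∣ (-b) ^ 2 + N) :
    ClassGroup.mk0 (psI hN hl hlN hb) * ClassGroup.mk0 (psI hN hl hlN hb') = 1 := by
  rw [← map_mul, ← mk0_lI (N := N) l hl.ne_zero]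
  congr 1
  exact Subtype.ext (ps_mul hN hl hlN hb)

/-- `l` split -/
theorem AA_split (hN : IsLev N) {l : ℕ} (hl : l.Prime) (hlN : ¬ l ∣ 2 * N) {b : ℤ}
    (hb : (l : ℤ) ∣ b ^ 2 + N) (c : ClassGroup (𝓞 (KN N))) (n : ℕ) :
    AA N c (l * n) + AAd N c l n =
      AA N (ClassGroup.mk0 (psI hN hl hlN hb) * c) n +
      AA N ((ClassGroup.mk0 (psI hN hl hlN hb))⁻¹ * c) n := by
  classical
  have hb' : (l : ℤ) ∣ (-b) ^ 2 + N := by rwa [neg_sq]
  set P := psI hN hl hlN hb with hP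
  set P' := psI hN hl hlN hb' with hP'
  have hmk : ClassGroup.mk0 P' = (ClassGroup.mk0 P)⁻¹ := by
    rw [eq_inv_iff_mul_eq_one, mul_comm]
    exact mk0_psI_mul hN hl hlN hb hb'
  have hnP : absNorm (P : Ideal (𝓞 (KN N))) = l := absNorm_ps hN hl hlN hb
  have hnP' : absNorm (P' : Ideal (𝓞 (KN N))) = l := absNorm_ps hN hl hlN hb'
  have hprime : Prime (P : Ideal (𝓞 (KN N))) :=
    Ideal.prime_of_isPrime (ps_ne_bot hN hl hlN hb) (ps_isPrime hN hl hlN hb)
  have hPP' : P * P' = lI N l hl.ne_zero := Subtype.ext (ps_mul hN hl hlN hb)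
  have hndvd : ¬ (P : Ideal (𝓞 (KN N))) ∣ P' := by
    intro h
    obtain ⟨J, hJ⟩ := exists_factor h
    have h1 : absNorm (J : Ideal (𝓞 (KN N))) = 1 := by
      have := congrArg (fun I : (Ideal (𝓞 (KN N)))⁰ => absNorm (I : Ideal (𝓞 (KN N)))) hJ
      simp only [Submonoid.coe_mul, map_mul, hnP, hnP'] at this
      exact (Nat.eq_of_mul_eq_mul_left hl.pos (by rw [mul_one]; exact this)).symm
    have h2 : J = 1 := Subtype.ext (by
      rw [absNorm_eq_one_iff.mp h1, OneMemClass.coe_one, one_eq_top])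
    rw [h2, mul_one] at hJ
    exact ps_ne hN hl hlN hb (congrArg Subtype.val hJ).symm
  -- the sets
  let S : ClassGroup (𝓞 (KN N)) → ℕ → Set (Ideal (𝓞 (KN N)))⁰ := fun c n =>
    {I | absNorm (I : Ideal (𝓞 (KN N))) = n ∧ ClassGroup.mk0 I = c}
  have hfin : ∀ c n, (S c n).Finite := fun c n =>
    Set.finite_coe_iff.mp (finite_normclass c n)
  have hcard : ∀ c n, AA N c n = (S c n).ncard := fun c n => rfl
  let X : Set (Ideal (𝓞 (KN N)))⁰ := (fun J => P * J) '' S (ClassGroup.mk0 P' * c) n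
  let Y : Set (Ideal (𝓞 (KN N)))⁰ := (fun J => P' * J) '' S (ClassGroup.mk0 P * c) n
  have hmm : ClassGroup.mk0 P * (ClassGroup.mk0 P' * c) = c := by
    rw [hmk, mul_inv_cancel_left]
  have hmm' : ClassGroup.mk0 P' * (ClassGroup.mk0 P * c) = c := by
    rw [hmk, inv_mul_cancel_left]
  have hU : X ∪ Y = S c (l * n) := by
    ext I
    constructor
    · rintro (⟨J, ⟨hJ1, hJ2⟩, rfl⟩ | ⟨J, ⟨hJ1, hJ2⟩, rfl⟩)
      · exact ⟨by rw [Submonoid.coe_mul, map_mul, hnP, hJ1], by rw [map_mul, hJ2, hmm]⟩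
      · exact ⟨by rw [Submonoid.coe_mul, map_mul, hnP', hJ1], by rw [map_mul, hJ2, hmm']⟩
    · rintro ⟨hI, hc⟩
      rcases dvd_of_split hN hl hlN hb (I := I) (by rw [hI]; exact dvd_mul_right _ _) with h | h
      · left
        obtain ⟨J, rfl⟩ := exists_factor (P := P) h
        refine ⟨J, ⟨?_, ?_⟩, rfl⟩
        · rw [Submonoid.coe_mul, map_mul, hnP] at hI
          exact Nat.eq_of_mul_eq_mul_left hl.pos hI
        · rw [← hc, map_mul, ← mul_assoc, hmk, inv_mul_cancel, one_mul]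
      · right
        obtain ⟨J, rfl⟩ := exists_factor (P := P') h
        refine ⟨J, ⟨?_, ?_⟩, rfl⟩
        · rw [Submonoid.coe_mul, map_mul, hnP'] at hI
          exact Nat.eq_of_mul_eq_mul_left hl.pos hI
        · rw [← hc, map_mul, ← mul_assoc, hmk, mul_inv_cancel, one_mul]
  have hI : (X ∩ Y).ncard = AAd N c l n := by
    rw [AAd]
    split_ifs with hd
    · obtain ⟨m, rfl⟩ := hd
      rw [Nat.mul_div_cancel_left _ hl.pos, hcard]
      have hXY : X ∩ Y = (fun J => lI N l hl.ne_zero * J) '' S c m := by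
        ext I
        constructor
        · rintro ⟨⟨J, ⟨hJ1, hJ2⟩, rfl⟩, ⟨J', ⟨hJ1', hJ2'⟩, hJJ⟩⟩
          simp only at hJJ
          have hdv : (P : Ideal (𝓞 (KN N))) ∣ J' := by
            have : (P : Ideal (𝓞 (KN N))) ∣ (P' : Ideal (𝓞 (KN N))) * J' := by
              have h5 := congrArg (fun I : (Ideal (𝓞 (KN N)))⁰ => (I : Ideal (𝓞 (KN N)))) hJJ
              simp only [Submonoid.coe_mul] at h5
              rw [h5]
              exact dvd_mul_right _ _
            exact (hprime.dvd_or_dvd this).resolve_left hndvd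
          obtain ⟨J'', rfl⟩ := exists_factor hdv
          refine ⟨J'', ⟨?_, ?_⟩, ?_⟩
          · rw [Submonoid.coe_mul, map_mul, hnP] at hJ1'
            exact Nat.eq_of_mul_eq_mul_left hl.pos hJ1'
          · rw [map_mul] at hJ2'
            exact mul_left_cancel hJ2'
          · simp only
            rw [← hJJ, ← hPP']
            ac_rfl
        · rintro ⟨J, ⟨hJ1, hJ2⟩, rfl⟩
          refine ⟨⟨P' * J, ⟨?_, ?_⟩, ?_⟩, ⟨P * J, ⟨?_, ?_⟩, ?_⟩⟩
          · rw [Submonoid.coe_mul, map_mul, hnP', hJ1]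
          · rw [map_mul, hJ2]
          · simp only; rw [← hPP', mul_assoc]
          · rw [Submonoid.coe_mul, map_mul, hnP, hJ1]
          · rw [map_mul, hJ2]
          · simp only; rw [← hPP', mul_comm P P', mul_assoc]
      rw [hXY, Set.ncard_image_of_injective _ (fun J J' h => mul_left_cancel h)]
    · rw [Set.ncard_eq_zero ((hfin c (l * n)).subset (hU ▸ (Set.inter_subset_left.trans Set.subset_union_left)))]
      rw [Set.eq_empty_iff_forall_notMem]
      rintro I ⟨⟨J, ⟨hJ1, hJ2⟩, rfl⟩, ⟨J', ⟨hJ1', hJ2'⟩, hJJ⟩⟩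
      simp only at hJJ
      have hdv : (P : Ideal (𝓞 (KN N))) ∣ J' := by
        have : (P : Ideal (𝓞 (KN N))) ∣ (P' : Ideal (𝓞 (KN N))) * J' := by
          have h5 := congrArg (fun I : (Ideal (𝓞 (KN N)))⁰ => (I : Ideal (𝓞 (KN N)))) hJJ
          simp only [Submonoid.coe_mul] at h5
          rw [h5]
          exact dvd_mul_right _ _
        exact (hprime.dvd_or_dvd this).resolve_left hndvd
      obtain ⟨J'', rfl⟩ := exists_factor hdv
      rw [Submonoid.coe_mul, map_mul, hnP] at hJ1'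
      exact hd ⟨_, hJ1'.symm⟩
  have hX : X.ncard = AA N ((ClassGroup.mk0 P)⁻¹ * c) n := by
    rw [Set.ncard_image_of_injective _ (fun J J' h => mul_left_cancel h), hcard, hmk]
  have hY : Y.ncard = AA N (ClassGroup.mk0 P * c) n := by
    rw [Set.ncard_image_of_injective _ (fun J J' h => mul_left_cancel h), hcard]
  have hXf : X.Finite := (hfin _ _).image _
  have hYf : Y.Finite := (hfin _ _).image _
  have h9 := Set.ncard_union_add_ncard_inter X Y hXf hYf
  rw [hU, hI, hX, hY, ← hcard] at h9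
  rw [h9, add_comm]

end Fermat.Agent.TwoAdic
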