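import Fermat.Agent.Newform.Levels
import Fermat.Prelude.Thm_UpperHalfPlane_qCoeff_heckeT
import Fermat.Agent.TwoAdic.ULower

set_option autoImplicit false

/-! # `T_ℓ - (1 + ℓ)` maps modular forms of weight `2` and squarefree level to cusp forms -/

noncomputable section

namespace Fermat.Agent.TwoAdic

open CongruenceSubgroup Fermat.Agent.IntStr Fermat.Agent.Newform ModularForm
open Matrix.SpecialLinearGroup Filter
open UpperHalfPlane hiding I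
open scoped Real Manifold MatrixGroups ModularForm Topology

theorem G0_le_stab_MF {N : ℕ} {k : ℤ} {f : ℍ → ℂ} (hf : IsMF (Gamma0 N) k f) :
    G0 N ≤ stab k f := by
  rintro _ ⟨γ, hγ, rfl⟩
  rw [mem_stab]
  exact hf.slash γ hγ

theorem bdd_slash_of_col {k : ℤ} {f : ℍ → ℂ}
    (hf : ∀ γ : SL(2, ℤ), IsBoundedAtImInfty (f ∣[k] γ)) (g : GL (Fin 2) ℝ) (x z : ℤ) (t : ℝ)
    (h0 : g 0 0 = t * x) (h1 : g 1 0 = t * z) : IsBoundedAtImInfty (f ∣[k] g) := by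
  have hd : g 0 0 * g 1 1 - g 0 1 * g 1 0 ≠ 0 := by
    have := g.det_ne_zero
    rwa [Matrix.det_fin_two] at this
  have hxz : 0 < Int.gcd x z := by
    rw [Nat.pos_iff_ne_zero]
    intro h
    rw [Int.gcd_eq_zero_iff] at h
    apply hd
    rw [h0, h1, h.1, h.2]
    simp
  obtain ⟨x', hx'⟩ : (Int.gcd x z : ℤ) ∣ x := Int.gcd_dvd_left ..
  obtain ⟨z', hz'⟩ : (Int.gcd x z : ℤ) ∣ z := Int.gcd_dvd_right ..
  have hg0 : (Int.gcd x z : ℤ) ≠ 0 := by exact_mod_cast hxz.ne'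
  have hcop : IsCoprime x' z' := by
    have h := Int.isCoprime_iff_gcd_eq_one.mpr (Int.gcd_div_gcd_div_gcd (i := x) (j := z) hxz)
    have e1 : x / (Int.gcd x z : ℤ) = x' := Int.ediv_eq_of_eq_mul_right hg0 hx'
    have e2 : z / (Int.gcd x z : ℤ) = z' := Int.ediv_eq_of_eq_mul_right hg0 hz'
    rwa [e1, e2] at h
  obtain ⟨γ, hγ0, hγ1⟩ := hcop.exists_SL2_col 0
  set u : GL (Fin 2) ℝ := (mapGL ℝ γ)⁻¹ * g with hu
  have hu10 : u 1 0 = 0 := by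
    rw [hu, ← map_inv]
    rw [Units.val_mul, Matrix.mul_apply, Fin.sum_univ_two, h0, h1]
    have e1 : ((mapGL ℝ γ⁻¹ : GL (Fin 2) ℝ) : Matrix (Fin 2) (Fin 2) ℝ) 1 0 = -(z' : ℝ) := by
      have h : (γ⁻¹ : SL(2, ℤ)) 1 0 = -z' := by
        rw [Matrix.SpecialLinearGroup.SL2_inv_expl, ← hγ1]; rfl
      rw [val_mapGL, h]; push_cast; rfl
    have e2 : ((mapGL ℝ γ⁻¹ : GL (Fin 2) ℝ) : Matrix (Fin 2) (Fin 2) ℝ) 1 1 = (x' : ℝ) := by
      have h : (γ⁻¹ : SL(2, ℤ)) 1 1 = x' := by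
        rw [Matrix.SpecialLinearGroup.SL2_inv_expl, ← hγ0]; rfl
      rw [val_mapGL, h]
    rw [e1, e2]
    have hx'' : (x : ℝ) = (Int.gcd x z : ℤ) * x' := by exact_mod_cast hx'
    have hz'' : (z : ℝ) = (Int.gcd x z : ℤ) * z' := by exact_mod_cast hz'
    rw [hx'', hz'']
    ring
  have hgu : g = mapGL ℝ γ * u := by rw [hu]; group
  rw [hgu, SlashAction.slash_mul]
  have := hf γ
  rw [ModularForm.SL_slash] at this
  exact this.slash _ hu10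

theorem bdd_slash_of_rat {k : ℤ} {f : ℍ → ℂ}
    (hf : ∀ γ : SL(2, ℤ), IsBoundedAtImInfty (f ∣[k] γ)) (g : GL (Fin 2) ℝ) (hg : IsRatM g) :
    IsBoundedAtImInfty (f ∣[k] g) := by
  obtain ⟨r, hr⟩ := hg 0 0
  obtain ⟨s, hs⟩ := hg 1 0
  refine bdd_slash_of_col hf g (r.num * s.den) (s.num * r.den)
    ((r.den : ℝ)⁻¹ * (s.den : ℝ)⁻¹) ?_ ?_
  · rw [hr]
    have h1 : (r.den : ℝ) ≠ 0 := by exact_mod_cast r.den_nz
    have h2 : (s.den : ℝ) ≠ 0 := by exact_mod_cast s.den_nz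
    have h3 : (r : ℝ) = r.num / r.den := by exact_mod_cast (Rat.num_div_den r).symm
    rw [h3]
    push_cast
    field_simp
  · rw [hs]
    have h1 : (r.den : ℝ) ≠ 0 := by exact_mod_cast r.den_nz
    have h2 : (s.den : ℝ) ≠ 0 := by exact_mod_cast s.den_nz
    have h3 : (s : ℝ) = s.num / s.den := by exact_mod_cast (Rat.num_div_den s).symm
    rw [h3]
    push_cast
    field_simp

/-- The Atkin–Lehner operator preserves `M_k(Γ₀(N))`. -/
theorem IsAL_isMF {N₁ Q : ℕ} {k : ℤ} {f : ℍ → ℂ} (hQ : Q ≠ 0) {m : GL (Fin 2) ℝ} {x y z t : ℤ}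
    (hm : IsAL N₁ Q m x y z t) (hf : IsMF (Gamma0 (Q * N₁)) k f) :
    IsMF (Gamma0 (Q * N₁)) k (f ∣[k] m) where
  holo := hf.holo.slash k m
  slash γ hγ := by
    have hg : mapGL ℝ γ ∈ G0 (Q * N₁) := ⟨γ, hγ, rfl⟩
    have h1 := G0_le_stab_MF hf (hm.conj_mem hQ hg)
    rw [mem_stab] at h1
    rw [ModularForm.SL_slash]
    change (f ∣[k] m) ∣[k] (mapGL ℝ γ) = _
    rw [← SlashAction.slash_mul]
    have e : m * mapGL ℝ γ = (m * mapGL ℝ γ * m⁻¹) * m := by group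
    rw [e, SlashAction.slash_mul, h1]
  bdd γ := by
    rw [ModularForm.SL_slash]
    change IsBoundedAtImInfty ((f ∣[k] m) ∣[k] (mapGL ℝ γ))
    rw [← SlashAction.slash_mul]
    exact bdd_slash_of_rat hf.bdd _ (hm.isRatM.mul (isRatM_mapGL γ))

theorem IsAL_heckeT_comm_MF {N₁ Q : ℕ} {k : ℤ} {f : ℍ → ℂ} (hQ : Q ≠ 0) {m : GL (Fin 2) ℝ}
    {x y z t : ℤ} (hm : IsAL N₁ Q m x y z t) (hf : IsMF (Gamma0 (Q * N₁)) k f) {ℓ : ℕ}
    (hℓ : ℓ.Prime) (hℓN : ¬ ℓ ∣ Q * N₁) : heckeT k ℓ (f ∣[k] m) = heckeT k ℓ f ∣[k] m := by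
  rw [heckeT_eq_sum, heckeT_eq_sum]
  symm
  apply sum_reps_comm (H := G0 (Q * N₁)) (G0_le_stab_MF hf) (rT ℓ) m
  · rintro (_ | i)
    · obtain ⟨a', b', c', d', h, -⟩ := hm.conj hQ (Dset_heckeDiag (N := Q * N₁) hℓ.ne_zero)
      exact T_cover hℓ hℓN h
    · obtain ⟨a', b', c', d', h, -⟩ :=
        hm.conj hQ (Dset_heckeMatrix (N := Q * N₁) hℓ.ne_zero i)
      exact T_cover hℓ hℓN h
  · intro i j h
    exact rT_inj hℓ ((hm.conj_mem_iff hQ).mp h)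

theorem isMF_tendsto {N : ℕ} {k : ℤ} {f : ℍ → ℂ} (hf : IsMF (Gamma0 N) k f) :
    Tendsto f atImInfty (𝓝 (valueAtInfty f)) := by
  have hT : ModularGroup.T ∈ Gamma0 N := by
    rw [Gamma0_mem, ModularGroup.coe_T]; simp
  have h := exp_decay_sub_atImInfty one_pos (hf.periodic hT) hf.holo hf.bdd_infty
  have h2 : Tendsto (fun τ : ℍ => Real.exp (-2 * π * τ.im / 1)) atImInfty (𝓝 0) := by
    have h3 : Tendsto (fun τ : ℍ => τ.im) atImInfty atTop := tendsto_comap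
    apply Real.tendsto_exp_atBot.comp
    have h4 : (fun τ : ℍ => -2 * π * τ.im / 1) = fun τ : ℍ => (-2 * π) * τ.im := by
      funext τ; ring
    rw [h4]
    exact h3.const_mul_atTop_of_neg (by nlinarith [Real.pi_pos])
  have h5 := h.trans_tendsto h2
  have h6 := h5.add_const (valueAtInfty f)
  simpa using h6

theorem isZero_heckeT_sub {F : ℍ → ℂ} {c : ℂ} (hF : Tendsto F atImInfty (𝓝 c)) {l : ℕ}
    (hl : l ≠ 0) : IsZeroAtImInfty (heckeT 2 l F - ((1 + l : ℕ) : ℂ) • F) := by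
  have hl' : (l : ℂ) ≠ 0 := by exact_mod_cast hl
  have h1 : ∀ g : GL (Fin 2) ℝ, g 1 0 = 0 → Tendsto (fun τ => F (g • τ)) atImInfty (𝓝 c) :=
    fun g hg => hF.comp (tendsto_smul_atImInfty hg)
  have h2 : Tendsto (heckeT 2 l F) atImInfty (𝓝 ((l : ℂ)⁻¹ * ∑ j ∈ Finset.range l, c +
      (l : ℂ) ^ ((2 : ℤ) - 1) * c)) := by
    have e : heckeT 2 l F = fun τ => (l : ℂ)⁻¹ * ∑ j ∈ Finset.range l, F (heckeMatrix l j • τ) +
        (l : ℂ) ^ ((2 : ℤ) - 1) * F (heckeDiagMatrix l • τ) := by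
      funext τ; exact heckeT_apply 2 hl F τ
    rw [e]
    refine ((tendsto_finset_sum _ fun j _ => h1 _ ?_).const_mul _).add ((h1 _ ?_).const_mul _)
    · simp [val_heckeMatrix hl]
    · simp [val_heckeDiagMatrix hl]
  have h3 := h2.sub (hF.const_smul (((1 + l : ℕ) : ℂ)))
  have h4 : (l : ℂ)⁻¹ * ∑ j ∈ Finset.range l, c + (l : ℂ) ^ ((2 : ℤ) - 1) * c -
      ((1 + l : ℕ) : ℂ) • c = 0 := by
    rw [Finset.sum_const, Finset.card_range, nsmul_eq_mul, ← mul_assoc, inv_mul_cancel₀ hl']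
    rw [show ((2 : ℤ) - 1) = 1 by norm_num, zpow_one, smul_eq_mul]
    push_cast
    ring
  rw [h4] at h3
  exact h3

theorem isMF_heckeT {M : ℕ} [NeZero M] {k : ℤ} {f : ℍ → ℂ} (hf : IsMF (Gamma0 M) k f) {l : ℕ}
    (hl : l.Prime) (hlM : ¬ l ∣ M) : IsMF (Gamma0 M) k (heckeT k l f) :=
  IsMF.of_modularForm (ModularForm.heckeTLin k hl hlM hf.toModularForm)

theorem isMF_heckeU {M : ℕ} [NeZero M] {k : ℤ} {f : ℍ → ℂ} (hf : IsMF (Gamma0 M) k f) {l : ℕ}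
    (hlM : l ∣ M) : IsMF (Gamma0 M) k (heckeU k l f) :=
  IsMF.of_modularForm (ModularForm.heckeULin k hlM hf.toModularForm)

theorem exists_AL_of_SL {M : ℕ} [NeZero M] (hM : Squarefree M) (γ : SL(2, ℤ)) :
    ∃ (Q N₁ : ℕ) (m u : GL (Fin 2) ℝ) (x y z t : ℤ), Q ≠ 0 ∧ M = Q * N₁ ∧ IsAL N₁ Q m x y z t ∧
      u 1 0 = 0 ∧ mapGL ℝ γ = m * u := by
  set a := γ 0 0 with ha
  set b := γ 0 1 with hb
  set c := γ 1 0 with hc
  set d := γ 1 1 with hd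
  have hdet : a * d - b * c = 1 := by
    have := γ.det_coe
    rwa [Matrix.det_fin_two] at this
  set N₁ : ℕ := Int.gcd c M with hN₁
  have hN₁M : N₁ ∣ M := by
    have := Int.gcd_dvd_right c (M : ℤ)
    exact_mod_cast this
  obtain ⟨Q, hQ⟩ := hN₁M
  have hM0 : M ≠ 0 := NeZero.ne M
  have hQ0 : Q ≠ 0 := by rintro rfl; exact hM0 (by rw [hQ, mul_zero])
  obtain ⟨z, hz⟩ : (N₁ : ℤ) ∣ c := Int.gcd_dvd_left c (M : ℤ)
  have hcop : IsCoprime c (Q : ℤ) := by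
    rw [Int.isCoprime_iff_gcd_eq_one]
    by_contra hg
    obtain ⟨p, hp, hpg⟩ := Nat.exists_prime_and_dvd hg
    have h1 : (p : ℤ) ∣ c := (Int.natCast_dvd_natCast.mpr hpg).trans (Int.gcd_dvd_left _ _)
    have h2 : p ∣ Q := by
      have := (Int.natCast_dvd_natCast.mpr hpg).trans (Int.gcd_dvd_right c (Q : ℤ))
      exact_mod_cast this
    have h3 : p ∣ N₁ := by
      rw [hN₁]
      apply Int.natCast_dvd_natCast.mp
      exact Int.dvd_coe_gcd h1 (Int.natCast_dvd_natCast.mpr (h2.trans (Dvd.intro_left N₁ hQ.symm)))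
    have h4 : p * p ∣ M := by rw [hQ]; exact mul_dvd_mul h3 h2
    exact hp.one_lt.ne' (Nat.isUnit_iff.mp (hM p h4))
  obtain ⟨e, f, hef⟩ := hcop
  -- `e c + f Q = 1`; take `j = - e d`
  have ht : c * (-(e * d)) + d = Q * (f * d) := by linear_combination (-d) * hef
  have hQr : (Q : ℝ) ≠ 0 := by exact_mod_cast hQ0
  have hne : (Q : ℝ) * 1 - ((-(e * d) : ℤ) : ℝ) * 0 ≠ 0 := by simpa using hQr
  set w : GL (Fin 2) ℝ := mat Q ((-(e * d) : ℤ) : ℝ) 0 1 hne with hw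
  have hwi : (w⁻¹ : GL (Fin 2) ℝ) 1 0 = 0 := by
    have h1 : w * w⁻¹ = 1 := mul_inv_cancel w
    have h2 := congrArg (fun u : GL (Fin 2) ℝ => (u : Matrix (Fin 2) (Fin 2) ℝ) 1 0) h1
    simp only [Units.val_mul, Matrix.mul_apply, Fin.sum_univ_two] at h2
    have h3 : w 1 0 = 0 := by rw [hw, val_mat]; simp
    have h4 : w 1 1 = 1 := by rw [hw, val_mat]; simp
    rw [h3, h4, zero_mul, zero_add, one_mul] at h2
    rw [h2]
    simp
  refine ⟨Q, N₁, mapGL ℝ γ * w, w⁻¹, a, a * (-(e * d)) + b, z, f * d, hQ0,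
    by rw [hQ, mul_comm], ⟨?_, ?_⟩, hwi, by group⟩
  · have hz' : (N₁ : ℤ) * z = c := hz.symm
    linear_combination a * ht + hdet - (a * (-(e * d)) + b) * hz' - 2 * a * ht
  · rw [Units.val_mul, hw, val_mat]
    have hm : ((mapGL ℝ γ : GL (Fin 2) ℝ) : Matrix (Fin 2) (Fin 2) ℝ) =
        !![(a : ℝ), b; c, d] := by
      ext i j
      rw [val_mapGL]
      fin_cases i <;> fin_cases j <;> simp [ha, hb, hc, hd]
    rw [hm, Matrix.mul_fin_two]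
    have hzr : (c : ℝ) = N₁ * z := by exact_mod_cast hz
    have htr : (c : ℝ) * (-(e * d)) + d = Q * (f * d) := by exact_mod_cast ht
    ext i j
    fin_cases i <;> fin_cases j <;> simp
    · ring
    · rw [hzr]; ring
    · linear_combination htr

/-- **(CUSP)** -/
theorem isCF_heckeT_sub {M : ℕ} [NeZero M] (hM : Squarefree M) {f : ℍ → ℂ}
    (hf : IsMF (Gamma0 M) 2 f) {l : ℕ} (hl : l.Prime) (hlM : ¬ l ∣ M) :
    IsCF (Gamma0 M) 2 (heckeT 2 l f - ((1 + l : ℕ) : ℂ) • f) := by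
  have h1 : IsMF (Gamma0 M) 2 (heckeT 2 l f - ((1 + l : ℕ) : ℂ) • f) := by
    have := (isMF_heckeT hf hl hlM).add (hf.smul (-((1 + l : ℕ) : ℂ)))
    rwa [_root_.neg_smul, ← sub_eq_add_neg] at this
  have key : ∀ γ : SL(2, ℤ), IsZeroAtImInfty
      ((heckeT 2 l f - ((1 + l : ℕ) : ℂ) • f) ∣[(2 : ℤ)] (mapGL ℝ γ)) := by
    intro γ
    obtain ⟨Q, N₁, m, u, x, y, z, t, hQ, hMQ, hm, hu, hγ⟩ := exists_AL_of_SL hM γ
    rw [hγ, SlashAction.slash_mul]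
    apply IsZeroAtImInfty.slash _ hu
    subst hMQ
    have hσ : UpperHalfPlane.σ m = .refl ℝ ℂ := hm.sigma hQ
    have h2 : (heckeT 2 l f - ((1 + l : ℕ) : ℂ) • f) ∣[(2 : ℤ)] m =
        heckeT 2 l (f ∣[(2 : ℤ)] m) - ((1 + l : ℕ) : ℂ) • (f ∣[(2 : ℤ)] m) := by
      rw [IsAL_heckeT_comm_MF hQ hm hf hl hlM, sub_eq_add_neg, SlashAction.add_slash,
        ← _root_.neg_smul, ModularForm.smul_slash, hσ, sub_eq_add_neg, ← _root_.neg_smul]
      rfl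
    rw [h2]
    exact isZero_heckeT_sub (isMF_tendsto (IsAL_isMF hQ hm hf)) hl.ne_zero
  exact ⟨h1, fun γ => by rw [ModularForm.SL_slash]; exact key γ⟩

theorem qCoeff_heckeT_MF {M : ℕ} {f : ℍ → ℂ} (hf : IsMF (Gamma0 M) 2 f) {l : ℕ} (hl : l ≠ 0)
    (n : ℕ) : ModularFormClass.qCoeff (heckeT 2 l f) n = ModularFormClass.qCoeff f (l * n) +
      l * (if l ∣ n then ModularFormClass.qCoeff f (n / l) else 0) := by
  have hT : ModularGroup.T ∈ Gamma0 M := by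
    rw [Gamma0_mem, ModularGroup.coe_T]; simp
  rw [UpperHalfPlane.qCoeff_heckeT (hf.periodic hT) hf.holo hf.bdd_infty 2 hl n,
    ModularForm.coeffHeckeT_apply, mul_comm n]
  congr 1
  split_ifs
  · norm_num
  · rw [mul_zero]

end Fermat.Agent.TwoAdic
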