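import Fermat.Agent.TwoAdic.KillRho
import Fermat.Agent.Eigenform.Converse
import Fermat.Agent.QComp.ModMain

/-!
# From relations on the torsion of `J₀(N)` to relations for the representation of a newform
-/

set_option autoImplicit false

namespace Fermat.Agent.TwoAdic.Kill

open IsLocalRing Fermat.Agent.RepTwo Fermat.Agent.QComp Polynomial ModularFormClass ModularCurve

local notation "Γℚ" => (AlgebraicClosure ℚ ≃ₐ[ℚ] AlgebraicClosure ℚ)

/-- The eigencharacter of a normalised eigenform, with values in a subring. -/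
theorem exists_chig {M : ℕ} [NeZero M] {g : CuspForm (CongruenceSubgroup.Gamma0 M) 2}
    (hg : g.IsNormalizedEigenform) (S : Finset ℕ) (hMS : ∀ q : ℕ, q.Prime → q ∣ M → q ∈ S)
    (D : Subring ℂ) (hD : ∀ ℓ : ℕ, ℓ.Prime → ℓ ∉ S → qCoeff g ℓ ∈ D) :
    ∃ chig : CuspForm.heckeAlgebra M 2 (↑S : Set ℕ) →+* ℂ,
      (∀ (ℓ : ℕ) (hℓ : ℓ.Prime) (hℓM : ¬ ℓ ∣ M) (hℓS : ℓ ∉ (↑S : Set ℕ)),
        chig (CuspForm.heckeAlgebra.T hℓ hℓM hℓS) = qCoeff g ℓ) ∧ chig.range ≤ D := by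
  obtain ⟨χ, hχ⟩ := Eigenform.exists_eigenChar hg (↑S : Set ℕ)
  have hg0 := Eigenform.ne_zero_of_isNormalizedEigenform hg
  have huniq : ∀ {x y : ℂ}, x • g = y • g → x = y := fun h => smul_left_injective ℂ hg0 h
  refine ⟨(algebraMap (integralClosure ℤ ℂ) ℂ).comp χ, ?_, ?_⟩
  · intro ℓ hℓ hℓM hℓS
    apply huniq
    rw [← Eigenform.heckeTLin_eigen hg hℓ hℓM]
    exact (hχ _).symm
  · rintro _ ⟨⟨t, ht⟩, rfl⟩
    have key : ∃ c ∈ D, t g = c • g := by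
      induction ht using Algebra.adjoin_induction with
      | mem x hx =>
        rcases hx with ⟨ℓ, hℓ, hℓN, hℓS, rfl⟩ | ⟨q, hqN, hq, hqS, rfl⟩
        · exact ⟨qCoeff g ℓ, hD ℓ hℓ (fun h => hℓS (Finset.mem_coe.mpr h)),
            Eigenform.heckeTLin_eigen hg hℓ hℓN⟩
        · exact absurd (Finset.mem_coe.mpr (hMS q hq hqN)) hqS
      | algebraMap r => exact ⟨r, intCast_mem D r, by
          simp only [Module.algebraMap_end_apply]; rw [Int.cast_smul_eq_zsmul]⟩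
      | add x y hx hy h1 h2 =>
        obtain ⟨a, ha, ha'⟩ := h1
        obtain ⟨b, hb, hb'⟩ := h2
        exact ⟨a + b, D.add_mem ha hb, by rw [LinearMap.add_apply, ha', hb', add_smul]⟩
      | mul x y hx hy h1 h2 =>
        obtain ⟨a, ha, ha'⟩ := h1
        obtain ⟨b, hb, hb'⟩ := h2
        exact ⟨a * b, D.mul_mem ha hb, by
          rw [Module.End.mul_apply, hb', map_smul, ha', smul_smul, mul_comm]⟩
    obtain ⟨c, hc, hc'⟩ := key
    have e : (χ ⟨t, ht⟩ : ℂ) = c := huniq ((hχ ⟨t, ht⟩).symm.trans hc')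
    change (χ ⟨t, ht⟩ : ℂ) ∈ D
    rw [e]
    exact hc

/-- **Transfer**: relations on the part of the torsion of `J₀(N)` cut out by a Hecke polynomial
not killing the newform `g` hold for the representation of `g`; the coefficients of the relations
may depend on the order of torsion. -/
theorem rho_rel_approx {N : ℕ} [NeZero N] {g : CuspForm (CongruenceSubgroup.Gamma0 N) 2}
    (hg : g.IsNormalizedEigenform) {p : ℕ} (hp : p.Prime) {S : Finset ℕ} (hpS : p ∈ S)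
    (hNS : ∀ q : ℕ, q.Prime → q ∣ N → q ∈ S)
    {R : Type} [CommRing R] [IsDomain R] [IsDiscreteValuationRing R]
    [IsAdicComplete (maximalIdeal R) R] [Finite (ResidueField R)] [CharZero R]
    (hpR : (p : R) ∈ maximalIdeal R) {D : Subring ℂ} {ι : D →+* R}
    (hD : ∀ ℓ : ℕ, ℓ.Prime → ℓ ∉ S → qCoeff g ℓ ∈ D) {ρ : GaloisRepAdic R}
    (hρ : ∀ ℓ : ℕ, ∀ hℓ : ℓ.Prime, ∀ hS : ℓ ∉ S, ∀ P : ValuationSubring (AlgebraicClosure ℚ),
        P.LiesOverPrime ℓ → ∀ σ : Γℚ, P.IsFrobeniusAt σ ℓ →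
        LinearMap.charpoly (ρ.ρ σ) = X ^ 2 - C (ι ⟨_, hD ℓ hℓ hS⟩) * X + C (ℓ : R))
    (habs : ρ.residual.IsAbsolutelyIrreducible)
    {t₀ : HeckePoly N (↑S : Set ℕ)}
    (ht₀ : MvPolynomial.aeval (fun i : GoodPrime N (↑S : Set ℕ) => qCoeff g i) t₀ ≠ (0 : ℂ))
    {P : JZero N → Prop}
    (hP : ∀ m : ℕ, m ≠ 0 → ∀ x : JZero N, m • x = 0 → P ((opsJ N N (↑S : Set ℕ)).ev t₀ x))
    {κ : Type} [Fintype κ] (τ : κ → R) (σ : κ → Γℚ)
    (hrel : ∀ n : ℕ, ∃ c : κ → ℤ, (∀ i, (c i : R) - τ i ∈ maximalIdeal R ^ n) ∧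
      ∀ x : JZero N, p ^ n • x = 0 → P x → ∑ i, c i • σ i • x = 0) :
    ∑ i, τ i • ρ.ρ (σ i) = 0 := by
  have hfp : Fact p.Prime := ⟨hp⟩
  obtain ⟨chig, hchig, hrange⟩ := exists_chig hg S hNS D hD
  set iota : chig.range →+* R := ι.comp (Subring.inclusion hrange) with hiota
  set χ : CuspForm.heckeAlgebra N 2 (↑S : Set ℕ) →+* R := iota.comp chig.rangeRestrict with hχ
  have hinj : Function.Injective iota := by
    have : Algebra.IsIntegral ℤ chig.range := by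
      have h3 : Module.Finite ℤ (CuspForm.heckeAlgebra N 2 (↑S : Set ℕ)) :=
        Fermat.Agent.Eichler.moduleFinite_heckeAlgebra 2 _
      have h4 : Algebra.IsIntegral ℤ (CuspForm.heckeAlgebra N 2 (↑S : Set ℕ)) :=
        inferInstance
      exact Algebra.IsIntegral.of_surjective chig.rangeRestrict.toIntAlgHom
        chig.rangeRestrict_surjective
    exact injective_of_isIntegral_int iota
  have ht₀' : χ (evalHecke N (↑S : Set ℕ) t₀) ≠ 0 := by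
    intro h
    apply ht₀
    rw [← chig_evalHecke chig hchig]
    have h3 : chig.rangeRestrict (evalHecke N (↑S : Set ℕ) t₀) = 0 :=
      hinj (h.trans (map_zero _).symm)
    exact congrArg Subtype.val h3
  have hρ' : ∀ (ℓ : ℕ) (hℓ : ℓ.Prime) (hℓN : ¬ ℓ ∣ N) (hℓS : ℓ ∉ (↑S : Set ℕ)), ℓ ≠ p →
      ∀ A : ValuationSubring (AlgebraicClosure ℚ), A.LiesOverPrime ℓ →
      ∀ σ : AlgebraicClosure ℚ ≃ₐ[ℚ] AlgebraicClosure ℚ, A.IsFrobeniusAt σ ℓ →
        LinearMap.charpoly (ρ.ρ σ) =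
          X ^ 2 - C (χ (CuspForm.heckeAlgebra.T hℓ hℓN hℓS)) * X + C ((ℓ : R)) := by
    intro ℓ hℓ hℓN hℓS _ A hA σ hσ
    rw [hρ ℓ hℓ (fun h => hℓS (Finset.mem_coe.mpr h)) A hA σ hσ]
    congr 4
    rw [hχ, RingHom.comp_apply, hiota, RingHom.comp_apply]
    congr 1
    exact Subtype.ext (hchig ℓ hℓ _ _).symm
  obtain ⟨c', hc'⟩ := ((jZeroGeom N p).isES (↑S : Set ℕ)).exists_realized
  choose E hE using hc'
  choose Λ hΛ using fun n => exists_level' hp (E n)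
  choose c hcτ hc using hrel
  have hkill : KillsA p S t₀ (fun n i => ((c (n + c') i : ℤ) : HeckePoly N (↑S : Set ℕ))) σ Λ := by
    intro n v
    obtain ⟨Rz⟩ := hE n
    have hEn : (Λ n).E = E n := hΛ n
    revert v
    rw [hEn]
    intro v
    apply Rz.inj
    have hv : p ^ (n + c') • Rz.j v = 0 := (Rz.mem_range _).mpr ⟨v, rfl⟩
    have hty : Rz.j (t₀ • v) = (opsJ N N (↑S : Set ℕ)).ev t₀ (Rz.j v) := Rz.smul t₀ v
    have hPy := hP (p ^ (n + c')) (pow_ne_zero _ hp.ne_zero) (Rz.j v) hv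
    rw [← hty] at hPy
    have h3 := hc (n + c') (Rz.j (t₀ • v)) ((Rz.mem_range _).mpr ⟨t₀ • v, rfl⟩) hPy
    rw [map_zero, map_sum, ← h3]
    refine Finset.sum_congr rfl fun i _ => ?_
    rw [Int.cast_smul_eq_zsmul, map_zsmul, Rz.act]
  refine rho_eq_zero_approx hp hpS hNS hpR χ ρ hρ' habs ht₀' (fun n i => ?_) hkill
  rw [map_intCast, map_intCast]
  exact Ideal.pow_le_pow_right (Nat.le_add_right n c') (hcτ (n + c') i)

/-- **Transfer**: relations on the part of the torsion of `J₀(N)` cut out by a Hecke polynomial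
not killing the newform `g` hold for the representation of `g`. -/
theorem rho_rel {N : ℕ} [NeZero N] {g : CuspForm (CongruenceSubgroup.Gamma0 N) 2}
    (hg : g.IsNormalizedEigenform) {p : ℕ} (hp : p.Prime) {S : Finset ℕ} (hpS : p ∈ S)
    (hNS : ∀ q : ℕ, q.Prime → q ∣ N → q ∈ S)
    {R : Type} [CommRing R] [IsDomain R] [IsDiscreteValuationRing R]
    [IsAdicComplete (maximalIdeal R) R] [Finite (ResidueField R)] [CharZero R]
    (hpR : (p : R) ∈ maximalIdeal R) {D : Subring ℂ} {ι : D →+* R}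
    (hD : ∀ ℓ : ℕ, ℓ.Prime → ℓ ∉ S → qCoeff g ℓ ∈ D) {ρ : GaloisRepAdic R}
    (hρ : ∀ ℓ : ℕ, ∀ hℓ : ℓ.Prime, ∀ hS : ℓ ∉ S, ∀ P : ValuationSubring (AlgebraicClosure ℚ),
        P.LiesOverPrime ℓ → ∀ σ : Γℚ, P.IsFrobeniusAt σ ℓ →
        LinearMap.charpoly (ρ.ρ σ) = X ^ 2 - C (ι ⟨_, hD ℓ hℓ hS⟩) * X + C (ℓ : R))
    (habs : ρ.residual.IsAbsolutelyIrreducible)
    {t₀ : HeckePoly N (↑S : Set ℕ)}
    (ht₀ : MvPolynomial.aeval (fun i : GoodPrime N (↑S : Set ℕ) => qCoeff g i) t₀ ≠ (0 : ℂ))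
    {P : JZero N → Prop}
    (hP : ∀ m : ℕ, m ≠ 0 → ∀ x : JZero N, m • x = 0 → P ((opsJ N N (↑S : Set ℕ)).ev t₀ x))
    {κ : Type} [Fintype κ] (c : κ → ℤ) (σ : κ → Γℚ)
    (hrel : ∀ x : JZero N, (∃ n : ℕ, p ^ n • x = 0) → P x → ∑ i, c i • σ i • x = 0) :
    ∑ i, (c i : R) • ρ.ρ (σ i) = 0 :=
  rho_rel_approx hg hp hpS hNS hpR hD hρ habs ht₀ hP (fun i => (c i : R)) σ
    (fun n => ⟨c, fun i => by rw [sub_self]; exact Ideal.zero_mem _,
      fun x hx hPx => hrel x ⟨n, hx⟩ hPx⟩)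

end Fermat.Agent.TwoAdic.Kill
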