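import Fermat.Agent.TwoAdic.KillRho
import Fermat.Agent.TwoAdic.F1Rel
import Fermat.Agent.LL.NF

/-!
# Transfer of relations on `J₀(Mq)[p^∞]` to the adic representation of a newform
-/

set_option autoImplicit false
set_option linter.unusedSectionVars false
set_option linter.style.haveILetI false

namespace Fermat.Agent.TwoAdic

open IsLocalRing Polynomial ModularCurve AlgebraicCurve Fermat.Agent.QComp Fermat.Agent.MazurQ
  ModularFormClass Fermat.Agent.RepTwo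

local notation "Qb" => AlgebraicClosure ℚ
local notation "Γℚ" => (AlgebraicClosure ℚ ≃ₐ[ℚ] AlgebraicClosure ℚ)

/-- **The transfer for newforms**: all `q ∥ level`, all `p`. -/
theorem transferJ_newform {M q p : ℕ} [NeZero M] [NeZero q] [hqf : Fact q.Prime] (hM : ¬ q ∣ M)
    (hp : p.Prime) {g : CuspForm (CongruenceSubgroup.Gamma0 (M * q)) 2}
    (hg : g.IsNewform) {S : Finset ℕ} (hpS : p ∈ S) (hNS : ∀ r : ℕ, r.Prime → r ∣ M * q → r ∈ S)
    {R : Type} [CommRing R] [IsDomain R] [IsLocalRing R] [IsHausdorff (maximalIdeal R) R]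
    [CharZero R] (hpR : (p : R) ∈ maximalIdeal R) {D : Subring ℂ}
    {ι : D →+* R} (hD : ∀ ℓ : ℕ, ℓ.Prime → ℓ ∉ S → qCoeff g ℓ ∈ D)
    (ρ : GaloisRepAdic R)
    (hρ : ∀ ℓ : ℕ, ∀ hℓ : ℓ.Prime, ∀ hS : ℓ ∉ S, ∀ P : ValuationSubring Qb,
        P.LiesOverPrime ℓ → ∀ σ : Γℚ, P.IsFrobeniusAt σ ℓ →
        LinearMap.charpoly (ρ.ρ σ) = X ^ 2 - C (ι ⟨_, hD ℓ hℓ hS⟩) * X + C (ℓ : R))
    (habs : ρ.residual.IsAbsolutelyIrreducible) {e : ℤ} (he : (e : ℂ) = qCoeff g q) :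
    TransferJ hM p e ρ := by
  intro n c σ hker
  haveI : Fact p.Prime := ⟨hp⟩
  obtain ⟨chig, hchig, hrange⟩ := LL.exists_chig hg.1 S hNS D hD
  let χ : CuspForm.heckeAlgebra (M * q) 2 (↑S : Set ℕ) →+* R :=
    ι.comp (chig.codRestrict D fun t => hrange ⟨t, rfl⟩)
  obtain ⟨t₀, ht₀, H⟩ := exists_kill_newform hM hg he (↑S : Set ℕ) S
    (fun ℓ hℓ hℓS => ⟨fun h => hℓS (hNS ℓ hℓ h), fun h => hℓS (Finset.mem_coe.mp h)⟩)
  have hχ : ∀ (ℓ : ℕ) (hℓ : ℓ.Prime) (hℓN : ¬ ℓ ∣ M * q) (hℓS : ℓ ∉ (↑S : Set ℕ)), ℓ ≠ p →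
      ∀ A : ValuationSubring Qb, A.LiesOverPrime ℓ →
      ∀ σ : Γℚ, A.IsFrobeniusAt σ ℓ →
        LinearMap.charpoly (ρ.ρ σ) =
          X ^ 2 - C (χ (CuspForm.heckeAlgebra.T hℓ hℓN hℓS)) * X + C ((ℓ : R)) := by
    intro ℓ hℓ hℓN hℓS _ A hA σ hσ
    have h1 : χ (CuspForm.heckeAlgebra.T hℓ hℓN hℓS) =
        ι ⟨_, hD ℓ hℓ (fun h => hℓS (Finset.mem_coe.mpr h))⟩ := by
      change ι _ = ι _
      congr 1
      exact Subtype.ext (hchig ℓ hℓ hℓN hℓS)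
    rw [h1]
    exact hρ ℓ hℓ (fun h => hℓS (Finset.mem_coe.mpr h)) A hA σ hσ
  -- injectivity on the integral ring generated by the eigenvalues
  have hinj : ∀ t, χ t = 0 → chig t = 0 := by
    have hint : Algebra.IsIntegral ℤ chig.range := by
      have h3 : Module.Finite ℤ (CuspForm.heckeAlgebra (M * q) 2 (↑S : Set ℕ)) :=
        Fermat.Agent.Eichler.moduleFinite_heckeAlgebra 2 _
      have h4 : Algebra.IsIntegral ℤ (CuspForm.heckeAlgebra (M * q) 2 (↑S : Set ℕ)) :=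
        inferInstance
      exact Algebra.IsIntegral.of_surjective chig.rangeRestrict.toIntAlgHom
        chig.rangeRestrict_surjective
    have h5 := injective_of_isIntegral_int (ι.comp (Subring.inclusion hrange))
    intro t ht
    have h6 : (ι.comp (Subring.inclusion hrange)) ⟨chig t, ⟨t, rfl⟩⟩ = 0 := ht
    exact congrArg Subtype.val (h5 (h6.trans (map_zero _).symm))
  have ht₀' : χ (evalHecke (M * q) (↑S : Set ℕ) t₀) ≠ 0 := by
    intro h
    apply ht₀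
    rw [← chig_evalHecke chig hchig]
    exact hinj _ h
  obtain ⟨c₀, hc₀⟩ := ((jZeroGeom (M * q) p).isES (↑S : Set ℕ)).exists_realized
  choose E hE using hc₀
  choose Λ hΛ using fun n => exists_level' hp (E n)
  have hkill : Kill.Kills p S t₀ (fun i => (c i : HeckePoly (M * q) (↑S : Set ℕ))) σ Λ := by
    intro m v
    have hR := hE m
    rw [← hΛ m] at hR
    obtain ⟨R'⟩ := hR
    apply R'.inj
    have hv : p ^ (m + c₀) • R'.j v = 0 := (R'.mem_range _).mpr ⟨v, rfl⟩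
    obtain ⟨hA0, hB0, hw⟩ := H (p ^ (m + c₀)) (pow_ne_zero _ hp.ne_zero) (R'.j v) hv
    have hty : R'.j (t₀ • v) = (opsJ (M * q) (M * q) (↑S : Set ℕ)).ev t₀ (R'.j v) := R'.smul t₀ v
    rw [← hty] at hA0 hB0 hw
    have h3 := hker (R'.j (t₀ • v)) ⟨m + c₀, (R'.mem_range _).mpr ⟨t₀ • v, rfl⟩⟩ hA0 hB0 hw
    rw [map_zero, map_sum, ← h3]
    refine Finset.sum_congr rfl fun i _ => ?_
    rw [Int.cast_smul_eq_zsmul, map_zsmul, R'.act]
  have h := Kill.rho_eq_zero hp hpS hNS hpR χ ρ hχ habs ht₀' hkill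
  rw [← h]
  refine Finset.sum_congr rfl fun i _ => ?_
  rw [map_intCast, map_intCast, Int.cast_smul_eq_zsmul]

end Fermat.Agent.TwoAdic
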