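import Fermat.Agent.TwoAdic.KillWB
import Fermat.Agent.QComp.OpsJ

/-!
# The Atkin–Lehner involution on the torsion of `J₀(Mq)` and newforms
-/

set_option autoImplicit false
set_option linter.unusedSectionVars false
set_option linter.style.haveILetI false

noncomputable section

namespace Fermat.Agent.TwoAdic

open ModularCurve AlgebraicCurve Fermat.Agent.Top

section final

open Fermat.Agent.QVal Fermat.Agent.MazurQ Fermat.Agent.QComp Fermat.Agent.RepTwo ModularFormClass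

local notation "Qb" => AlgebraicClosure ℚ

variable {M q : ℕ} [NeZero M] [NeZero q] [hqf : Fact q.Prime] (hM : ¬ q ∣ M)

/-- **The Atkin–Lehner involution on the torsion of `J₀(Mq)` and newforms.** -/
theorem exists_kill_w {g : CuspForm (CongruenceSubgroup.Gamma0 (M * q)) 2} (hg : g.IsNewform)
    {e : ℤ} (he : (e : ℂ) = qCoeff g q) (S : Set ℕ) (s : Finset ℕ)
    (hs' : ∀ ℓ : ℕ, ℓ.Prime → ℓ ∉ s → ¬ ℓ ∣ M * q ∧ ℓ ∉ S) :
    ∃ t : HeckePoly (M * q) S,
      MvPolynomial.aeval (fun i : GoodPrime (M * q) S => qCoeff g i) t ≠ (0 : ℂ) ∧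
      ∀ m : ℕ, m ≠ 0 → ∀ x : JZero (M * q), m • x = 0 →
        wSemi hM • (opsJ (M * q) (M * q) S).ev t x = -(e • (opsJ (M * q) (M * q) S).ev t x) := by
  have hq : q.Prime := hqf.out
  obtain ⟨w⟩ := exists_alop (L := M * q) (q := q) (M := M) (mul_comm M q) hq hM
  obtain ⟨t, htg, ht⟩ := exists_kill_plus w hq (dvd_mul_left q M) hg he S s hs'
  have : Algebra.IsAlgebraic ℚ Qb := AlgebraicClosure.isAlgebraic ℚ
  let _ : Algebra Qb ℂ := (IsAlgClosed.lift (R := ℚ) (S := Qb) (M := ℂ)).toRingHom.toAlgebra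
  obtain ⟨c, hc, H⟩ := exists_iotaJ_bounded (M * q)
  obtain ⟨wC, hα, hβ⟩ := ESh.exists_atkinLehner ℂ M q hq hM
  refine ⟨(c : HeckePoly (M * q) S) * t, ?_, fun m hm x hx => ?_⟩
  · rw [map_mul, map_natCast]
    exact mul_ne_zero (by exact_mod_cast hc) htg
  · haveI : NeZero m := ⟨hm⟩
    obtain ⟨φ, hφ⟩ := H m x hx
    have e1 : ∀ ψ : parM (M * q) ℤ, iotaJ (M * q) m
        (evalEnd (hopT (M * q) S) (hopT_comm S) t ψ) =
        (opsJ (M * q) (M * q) S).ev t (iotaJ (M * q) m ψ) := fun ψ =>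
      evalEnd_natural (hopT_comm S) (opsJ (M * q) (M * q) S).comm (iotaJ (M * q) m)
        (fun i φ => iotaJ_hopPar (M * q) m ⟨i.1, i.2.1⟩ i.2.2.1 φ) t ψ
    have e2 : (opsJ (M * q) (M * q) S).ev ((c : HeckePoly (M * q) S) * t) x =
        (opsJ (M * q) (M * q) S).ev t (iotaJ (M * q) m φ) := by
      rw [← hφ, map_nsmul, map_mul, map_natCast]
      exact Module.End.natCast_apply _ _ |>.trans rfl
    have e3 : wSemi hM • (opsJ (M * q) (M * q) S).ev t (iotaJ (M * q) m φ) +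
        e • (opsJ (M * q) (M * q) S).ev t (iotaJ (M * q) m φ) = 0 := by
      have h1 := congrArg (iotaJ (M * q) m) (ht φ)
      rw [ALOp.plus_apply, map_add, map_zsmul, map_add, map_zsmul, map_zero] at h1
      have h2 : evalEnd (hopT (M * q) S) (hopT_comm S) t (w.opPar hq.ne_zero ℤ φ) =
          w.opPar hq.ne_zero ℤ (evalEnd (hopT (M * q) S) (hopT_comm S) t φ) := by
        symm
        exact evalEnd_natural (hopT_comm S) (hopT_comm S) (w.opPar hq.ne_zero ℤ).toAddMonoidHom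
          (fun i φ => w.opPar_hopPar hq.ne_zero ⟨i.1, i.2.1⟩ (fun h => i.2.2.1 (by
            rw [show (i : ℕ) = q from h]; exact dvd_mul_left q M)) φ) t φ
      rw [h2, iotaJ_w hM hα hβ w, e1] at h1
      exact h1
    rw [e2]
    exact eq_neg_of_add_eq_zero_left e3

/-- **The killing polynomial for a newform of level `M q`, `q ∤ M`.** It maps all the torsion of
`J₀(Mq)` into the kernel of the two traces and into the `-a_q(g)`-eigenspace of the
Atkin–Lehner involution. -/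
theorem exists_kill_newform {g : CuspForm (CongruenceSubgroup.Gamma0 (M * q)) 2}
    (hg : g.IsNewform) {e : ℤ} (he : (e : ℂ) = qCoeff g q) (S : Set ℕ) (s : Finset ℕ)
    (hs' : ∀ ℓ : ℕ, ℓ.Prime → ℓ ∉ s → ¬ ℓ ∣ M * q ∧ ℓ ∉ S) :
    ∃ t : HeckePoly (M * q) S,
      MvPolynomial.aeval (fun i : GoodPrime (M * q) S => qCoeff g i) t ≠ (0 : ℂ) ∧
      ∀ m : ℕ, m ≠ 0 → ∀ x : JZero (M * q), m • x = 0 →
        trA M q ((opsJ (M * q) (M * q) S).ev t x) = 0 ∧
        trB M q ((opsJ (M * q) (M * q) S).ev t x) = 0 ∧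
        wSemi hM • (opsJ (M * q) (M * q) S).ev t x = -(e • (opsJ (M * q) (M * q) S).ev t x) := by
  have hMq : ¬ M * q ∣ M := by
    intro h
    have h1 := Nat.le_of_dvd (NeZero.pos M) h
    have h2 := hqf.out.two_le
    have h3 := NeZero.pos M
    nlinarith
  obtain ⟨t₁, h₁, H₁⟩ := exists_killing_traces hg M q hqf.out hMq S s
    (fun r hr hrd => by
      by_contra hrs
      exact (hs' r hr hrs).1 hrd) hs'
  obtain ⟨t₂, h₂, H₂⟩ := exists_kill_w hM hg he S s hs'
  refine ⟨t₁ * t₂, by rw [map_mul]; exact mul_ne_zero h₁ h₂, fun m hm x hx => ?_⟩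
  have e1 : (opsJ (M * q) (M * q) S).ev (t₁ * t₂) x =
      (opsJ (M * q) (M * q) S).ev t₁ ((opsJ (M * q) (M * q) S).ev t₂ x) := by
    rw [map_mul, Module.End.mul_apply]
  have e2 : (opsJ (M * q) (M * q) S).ev (t₁ * t₂) x =
      (opsJ (M * q) (M * q) S).ev t₂ ((opsJ (M * q) (M * q) S).ev t₁ x) := by
    rw [mul_comm t₁ t₂, map_mul, Module.End.mul_apply]
  have hx1 : m • (opsJ (M * q) (M * q) S).ev t₁ x = 0 := by rw [← map_nsmul, hx, map_zero]
  have hx2 : m • (opsJ (M * q) (M * q) S).ev t₂ x = 0 := by rw [← map_nsmul, hx, map_zero]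
  refine ⟨?_, ?_, ?_⟩
  · rw [e1]
    exact (H₁ m hm _ hx2).1
  · rw [e1]
    exact (H₁ m hm _ hx2).2
  · rw [e2]
    exact H₂ m hm _ hx1

/-- the sign `a_q(g) = ± 1` of a newform of level `M q`, `q ∤ M` -/
theorem exists_sign {g : CuspForm (CongruenceSubgroup.Gamma0 (M * q)) 2} (hM : ¬ q ∣ M)
    (hg : g.IsNewform) : ∃ e : ℤ, (e : ℂ) = qCoeff g q ∧ e ^ 2 = 1 ∧ (e = 1 ∨ e = -1) := by
  obtain ⟨w⟩ := exists_alop (L := M * q) (q := q) (M := M) (mul_comm M q) hqf.out hM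
  have h := (w.newform g hg).2
  rcases sq_eq_one_iff.mp h with h1 | h1
  · exact ⟨1, by rw [h1]; simp, by norm_num, Or.inl rfl⟩
  · exact ⟨-1, by rw [h1]; simp, by norm_num, Or.inr rfl⟩

end final

end Fermat.Agent.TwoAdic
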