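import Fermat.Agent.Ihara.Forms
import Fermat.Agent.QComp.Killing

/-!
# The Atkin–Lehner operator on parabolic cohomology and the eigensystem of a newform

A polynomial in the good Hecke operators of level `L = q M` which does not kill a given newform `g`
and whose image in the integral parabolic cohomology is contained in the `-a_q(g)`-eigenspace of
the Atkin–Lehner operator.
-/

set_option autoImplicit false
set_option linter.unusedSectionVars false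

noncomputable section

namespace Fermat.Agent.TwoAdic

open CongruenceSubgroup ModularCurve ModularCurve.Period Fermat.Agent.Period Fermat.Agent.Top
  CuspForm ModularFormClass Fermat.Agent.Newform Fermat.Agent.Petersson Fermat.Agent.Eigenform
  Fermat.Agent.RepTwo Fermat.Agent.QComp
open scoped TensorProduct MatrixGroups ModularForm

/-- The data of the Atkin–Lehner operator at `q` on level `L = q * M`. -/
structure ALOp (L q M : ℕ) [NeZero L] where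
  /-- matrix data -/
  a : Ihara.ALD M q
  /-- conjugation by the matrix -/
  c : Gamma0 L →* Gamma0 L
  /-- the operator on cusp forms -/
  W : CuspForm (Gamma0 L) 2 →ₗ[ℂ] CuspForm (Gamma0 L) 2
  spec : ∀ γ, a.w * Ihara.mt γ = Ihara.mt (c γ) * a.w
  sq : ∃ γ₀ : Gamma0 L, a.w * a.w = (q : ℤ) • Ihara.mt γ₀
  hecke : ∀ ℓ : Nat.Primes, (ℓ : ℕ) ≠ q → ∀ f, W (hOp L ℓ f) = hOp L ℓ (W f)
  period : ∀ f, periodLin L (W f) = (periodLin L f).comp (MonoidHom.toAdditive c)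
  newform : ∀ g : CuspForm (Gamma0 L) 2, g.IsNewform → W g = -(qCoeff g q) • g ∧
    qCoeff g q ^ 2 = 1

theorem exists_alop {L q M : ℕ} [NeZero L] [NeZero M] (hL : L = q * M) (hq : q.Prime)
    (hM : ¬ q ∣ M) : Nonempty (ALOp L q M) := by
  subst hL
  obtain ⟨a⟩ := Ihara.exists_ALD (N := M) (q := q) ((Nat.Prime.coprime_iff_not_dvd hq).2 hM)
  refine ⟨⟨a, Ihara.cj a hq.ne_zero, Ihara.wLin a hq.ne_zero, Ihara.cj_spec a hq.ne_zero,
    a.w_sq, fun ℓ hℓ f => Ihara.wLin_hOp a hq ℓ hℓ f, fun f => Ihara.periodLin_wLin a hq.ne_zero f,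
    fun g hg => ?_⟩⟩
  obtain ⟨h1, h2⟩ := newform_al hq hM (Ihara.isAL_alM a hq.ne_zero) hg
  exact ⟨DFunLike.coe_injective h1, h2⟩

namespace ALOp

variable {L q M : ℕ} [NeZero L] (w : ALOp L q M)

theorem c_c (hq : q ≠ 0) : ∃ γ₀ : Gamma0 L, ∀ γ, w.c (w.c γ) = γ₀ * γ * γ₀⁻¹ := by
  obtain ⟨γ₀, h⟩ := w.sq
  refine ⟨γ₀, fun γ => ?_⟩
  rw [eq_mul_inv_iff_mul_eq]
  apply Ihara.mt_injective
  have hdw : w.a.w.det ≠ 0 := by rw [w.a.det_w]; exact_mod_cast hq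
  rw [Ihara.mt_mul, Ihara.mt_mul]
  have h1 : (q : ℤ) • (Ihara.mt γ₀ * Ihara.mt γ) = (q : ℤ) • (Ihara.mt (w.c (w.c γ)) * Ihara.mt γ₀) := by
    rw [← Matrix.smul_mul, ← h, Matrix.mul_assoc, w.spec, ← Matrix.mul_assoc, w.spec,
      Matrix.mul_assoc, h, Matrix.mul_smul]
  exact (smul_right_injective _ (by exact_mod_cast hq : (q : ℤ) ≠ 0) h1).symm

theorem trace_c (hq : q ≠ 0) (γ : Gamma0 L) :
    (((w.c γ : Gamma0 L) : SL(2, ℤ)) : Matrix (Fin 2) (Fin 2) ℤ).trace =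
      ((γ : SL(2, ℤ)) : Matrix (Fin 2) (Fin 2) ℤ).trace := by
  have h1 := w.spec γ
  change (Ihara.mt (w.c γ)).trace = (Ihara.mt γ).trace
  have h2 : (q : ℤ) * (Ihara.mt (w.c γ)).trace = q * (Ihara.mt γ).trace := by
    have h3 : (w.a.w * Ihara.mt γ * w.a.adj.w).trace = (Ihara.mt (w.c γ) * w.a.w * w.a.adj.w).trace := by
      rw [h1]
    rw [Matrix.mul_assoc (Ihara.mt _), w.a.w_mul_adj, Matrix.mul_smul, Matrix.mul_one,
      Matrix.trace_smul, Matrix.mul_assoc, Matrix.trace_mul_comm, Matrix.mul_assoc,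
      w.a.adj_mul_w, Matrix.mul_smul, Matrix.mul_one, Matrix.trace_smul] at h3
    exact h3.symm
  exact mul_left_cancel₀ (by exact_mod_cast hq) h2

/-- the operator on homomorphisms -/
def op (A : Type*) [AddCommGroup A] :
    (Additive (Gamma0 L) →+ A) →+ (Additive (Gamma0 L) →+ A) where
  toFun φ := φ.comp (MonoidHom.toAdditive w.c)
  map_zero' := rfl
  map_add' _ _ := rfl

theorem op_apply {A : Type*} [AddCommGroup A] (φ : Additive (Gamma0 L) →+ A) (γ : Gamma0 L) :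
    w.op A φ (Additive.ofMul γ) = φ (Additive.ofMul (w.c γ)) := rfl

theorem op_op (hq : q ≠ 0) {A : Type*} [AddCommGroup A] (φ : Additive (Gamma0 L) →+ A) :
    w.op A (w.op A φ) = φ := by
  obtain ⟨γ₀, h⟩ := w.c_c hq
  refine AddMonoidHom.ext fun γ' => ?_
  obtain ⟨γ, rfl⟩ := Additive.ofMul.surjective γ'
  rw [op_apply, op_apply, h, ofMul_mul, ofMul_mul, ofMul_inv, map_add, map_add, map_neg]
  abel

theorem op_parabolic (hq : q ≠ 0) {A : Type*} [AddCommGroup A] {φ : Additive (Gamma0 L) →+ A}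
    (hφ : IsParabolicHom (Gamma0 L) φ) : IsParabolicHom (Gamma0 L) (w.op A φ) := by
  intro γ hγ
  rw [op_apply]
  exact hφ _ (by rw [w.trace_c hq]; exact hγ)

/-- the operator on parabolic homomorphisms -/
def opPar (hq : q ≠ 0) (A : Type*) [AddCommGroup A] : Module.End ℤ (parM L A) :=
  (((w.op A).comp (parM L A).subtype).codRestrict (parM L A)
    (fun φ => w.op_parabolic hq φ.2)).toIntLinearMap

theorem coe_opPar (hq : q ≠ 0) (A : Type*) [AddCommGroup A] (φ : parM L A) :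
    (w.opPar hq A φ : Additive (Gamma0 L) →+ A) = w.op A φ := rfl

theorem op_comp_left {A A' : Type*} [AddCommGroup A] [AddCommGroup A'] (g : A →+ A')
    (φ : Additive (Gamma0 L) →+ A) : w.op A' (g.comp φ) = g.comp (w.op A φ) := rfl

theorem op_hop {ψ : Additive (Gamma0 L) →+ ℂ} (hψ : IsParabolicHom (Gamma0 L) ψ) (ℓ : Nat.Primes)
    (hℓ : (ℓ : ℕ) ≠ q) : w.op ℂ (hop L ℓ ψ) = hop L ℓ (w.op ℂ ψ) := by
  obtain ⟨F, G, rfl⟩ := exists_period_conj_period hψ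
  have h1 : ∀ F : CuspForm (Gamma0 L) 2, w.op ℂ (periodLin L F) = periodLin L (w.W F) := fun F =>
    (w.period F).symm
  rw [map_add, map_add, map_add, map_add, hop_conj_comp, op_comp_left, op_comp_left,
    hop_conj_comp, ← periodLin_hOp, ← periodLin_hOp, h1, h1, h1, h1, w.hecke ℓ hℓ, w.hecke ℓ hℓ,
    periodLin_hOp, periodLin_hOp]

theorem castHom_injective {φ ψ : Additive (Gamma0 L) →+ ℤ}
    (h : (Int.castAddHom ℂ).comp φ = (Int.castAddHom ℂ).comp ψ) : φ = ψ := by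
  refine AddMonoidHom.ext fun γ => ?_
  have := DFunLike.congr_fun h γ
  exact Int.cast_injective this

theorem opPar_hopPar (hq : q ≠ 0) (ℓ : Nat.Primes) (hℓ : (ℓ : ℕ) ≠ q) (φ : parM L ℤ) :
    w.opPar hq ℤ (hopPar L ℤ ℓ φ) = hopPar L ℤ ℓ (w.opPar hq ℤ φ) := by
  apply Subtype.ext
  apply castHom_injective
  rw [coe_opPar, coe_hopPar_apply, coe_hopPar_apply, coe_opPar, ← op_comp_left, ← hop_comp_left,
    ← hop_comp_left, ← op_comp_left]
  refine w.op_hop ?_ ℓ hℓ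
  intro γ hγ
  change (((φ.1 (Additive.ofMul γ) : ℤ)) : ℂ) = 0
  rw [φ.2 γ hγ, Int.cast_zero]

theorem opPar_opPar (hq : q ≠ 0) (φ : parM L ℤ) : w.opPar hq ℤ (w.opPar hq ℤ φ) = φ :=
  Subtype.ext (w.op_op hq φ.1)

/-- `w + e` on integral parabolic homomorphisms -/
def plus (hq : q ≠ 0) (e : ℤ) : Module.End ℤ (parM L ℤ) := w.opPar hq ℤ + e • 1

theorem plus_apply (hq : q ≠ 0) (e : ℤ) (φ : parM L ℤ) :
    w.plus hq e φ = w.opPar hq ℤ φ + e • φ := rfl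

theorem opPar_plus (hq : q ≠ 0) {e : ℤ} (he : e ^ 2 = 1) (φ : parM L ℤ) :
    w.opPar hq ℤ (w.plus hq e φ) = e • w.plus hq e φ := by
  rw [plus_apply, map_add, opPar_opPar, map_zsmul, smul_add, smul_smul, ← pow_two, he, one_smul,
    add_comm]

/-- the image of `w + e` -/
def img (hq : q ≠ 0) (e : ℤ) : AddSubgroup (parM L ℤ) :=
  AddMonoidHom.range (w.plus hq e).toAddMonoidHom

theorem opPar_img (hq : q ≠ 0) {e : ℤ} (he : e ^ 2 = 1) {φ : parM L ℤ} (hφ : φ ∈ w.img hq e) :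
    w.opPar hq ℤ φ = e • φ := by
  obtain ⟨ψ, rfl⟩ := hφ
  exact w.opPar_plus hq he ψ

theorem hopPar_mem_img (hq : q ≠ 0) (e : ℤ) (ℓ : Nat.Primes) (hℓ : (ℓ : ℕ) ≠ q) {φ : parM L ℤ}
    (hφ : φ ∈ w.img hq e) : hopPar L ℤ ℓ φ ∈ w.img hq e := by
  obtain ⟨ψ, rfl⟩ := hφ
  refine ⟨hopPar L ℤ ℓ ψ, ?_⟩
  change w.plus hq e (hopPar L ℤ ℓ ψ) = hopPar L ℤ ℓ (w.plus hq e ψ)
  rw [plus_apply, plus_apply, map_add, map_zsmul, w.opPar_hopPar hq ℓ hℓ]

/-- Hecke operators on the image of `w + e` -/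
def hopImg (hq : q ≠ 0) (e : ℤ) (ℓ : Nat.Primes) (hℓ : (ℓ : ℕ) ≠ q) :
    Module.End ℤ (w.img hq e) :=
  (((hopPar L ℤ ℓ).toAddMonoidHom.comp (w.img hq e).subtype).codRestrict (w.img hq e)
    (fun φ => w.hopPar_mem_img hq e ℓ hℓ φ.2)).toIntLinearMap

theorem coe_hopImg (hq : q ≠ 0) (e : ℤ) (ℓ : Nat.Primes) (hℓ : (ℓ : ℕ) ≠ q) (φ : w.img hq e) :
    (w.hopImg hq e ℓ hℓ φ : parM L ℤ) = hopPar L ℤ ℓ φ := rfl

/-- the inclusion of the image -/
def inc₀ (hq : q ≠ 0) (e : ℤ) : (w.img hq e) →ₗ[ℤ] (parM L ℤ) :=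
  (w.img hq e).subtype.toIntLinearMap

/-- scalar extension of the inclusion of the image -/
def inc (hq : q ≠ 0) (e : ℤ) : ℂ ⊗[ℤ] (w.img hq e) →ₗ[ℂ] ℂ ⊗[ℤ] (parM L ℤ) :=
  (w.inc₀ hq e).baseChange ℂ

theorem inc_tmul (hq : q ≠ 0) (e : ℤ) (c : ℂ) (φ : w.img hq e) :
    w.inc hq e (c ⊗ₜ φ) = c ⊗ₜ (φ : parM L ℤ) := rfl

theorem inc_injective (hq : q ≠ 0) (e : ℤ) : Function.Injective (w.inc hq e) :=
  Module.Flat.lTensor_preserves_injective_linearMap (M := ℂ) (w.inc₀ hq e)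
    Subtype.val_injective

theorem parLift_inc_add (hq : q ≠ 0) (e : ℤ) (x y : ℂ ⊗[ℤ] (w.img hq e)) :
    parLift L (w.inc hq e (x + y)) = parLift L (w.inc hq e x) + parLift L (w.inc hq e y) :=
  map_add ((parLift L).comp (w.inc hq e)) x y

theorem parLift_inc_smul (hq : q ≠ 0) (e : ℤ) (c : ℂ) (x : ℂ ⊗[ℤ] (w.img hq e)) :
    parLift L (w.inc hq e (c • x)) = c • parLift L (w.inc hq e x) :=
  map_smul ((parLift L).comp (w.inc hq e)) c x

theorem inc_hop (hq : q ≠ 0) (e : ℤ) (ℓ : Nat.Primes) (hℓ : (ℓ : ℕ) ≠ q)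
    (x : ℂ ⊗[ℤ] (w.img hq e)) :
    hop L ℓ (parLift L (w.inc hq e x)) =
      parLift L (w.inc hq e ((w.hopImg hq e ℓ hℓ).baseChange ℂ x)) := by
  induction x using TensorProduct.induction_on with
  | zero => simp
  | tmul c φ =>
    have h1 : hop L ℓ ((Int.castAddHom ℂ).comp φ.1.1) =
        (Int.castAddHom ℂ).comp (hop L ℓ φ.1.1) := hop_comp_left _ _ _
    have h2 : (w.hopImg hq e ℓ hℓ).baseChange ℂ (c ⊗ₜ φ) = c ⊗ₜ (w.hopImg hq e ℓ hℓ φ) := rfl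
    rw [h2, inc_tmul, inc_tmul, parLift_tmul, parLift_tmul]
    refine (hop_smul ℓ c _).trans ?_
    rw [h1]
    rfl
  | add x y hx hy =>
    refine (congrArg (hop L ℓ) (w.parLift_inc_add hq e x y)).trans
      ((map_add (hop L ℓ) _ _).trans ((congrArg₂ (· + ·) hx hy).trans ?_))
    have h3 : (w.hopImg hq e ℓ hℓ).baseChange ℂ (x + y) = (w.hopImg hq e ℓ hℓ).baseChange ℂ x +
        (w.hopImg hq e ℓ hℓ).baseChange ℂ y := map_add _ _ _
    exact ((congrArg (fun z => parLift L (w.inc hq e z)) h3).trans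
      (w.parLift_inc_add hq e _ _)).symm

theorem op_inc (hq : q ≠ 0) {e : ℤ} (he : e ^ 2 = 1) (x : ℂ ⊗[ℤ] (w.img hq e)) :
    w.op ℂ (parLift L (w.inc hq e x)) = (e : ℂ) • parLift L (w.inc hq e x) := by
  induction x using TensorProduct.induction_on with
  | zero => simp
  | tmul c φ =>
    rw [inc_tmul, parLift_tmul]
    refine AddMonoidHom.ext fun γ' => ?_
    obtain ⟨γ, rfl⟩ := Additive.ofMul.surjective γ'
    have h7 := DFunLike.congr_fun (congrArg Subtype.val (w.opPar_img hq he φ.2))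
      (Additive.ofMul γ)
    have h8 : φ.1.1 (Additive.ofMul (w.c γ)) = e * φ.1.1 (Additive.ofMul γ) := h7
    change c * ((φ.1.1 (Additive.ofMul (w.c γ)) : ℤ) : ℂ) =
      (e : ℂ) * (c * ((φ.1.1 (Additive.ofMul γ) : ℤ) : ℂ))
    rw [h8]
    push_cast
    ring
  | add x y hx hy =>
    rw [w.parLift_inc_add hq e x y]
    exact (map_add (w.op ℂ) _ _).trans ((congrArg₂ (· + ·) hx hy).trans (smul_add _ _ _).symm)

theorem finite_img (hq : q ≠ 0) (e : ℤ) : Module.Finite ℤ (w.img hq e) :=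
  Module.Finite.of_injective (w.inc₀ hq e) Subtype.val_injective

theorem free_img (hq : q ≠ 0) (e : ℤ) : Module.Free ℤ (w.img hq e) :=
  Module.Free.of_equiv (LinearEquiv.ofInjective (w.inc₀ hq e) Subtype.val_injective).symm

end ALOp

section

variable {L q M : ℕ} [NeZero L] (w : ALOp L q M)

/-- A parabolic class with the eigensystem of a newform on which `w` acts by `a_q` is zero. -/
theorem eq_zero_of_op_eq {g : CuspForm (Gamma0 L) 2}
    (hg : g.IsNewform) {e : ℤ} (he : (e : ℂ) = qCoeff g q) (s : Finset ℕ)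
    (hs' : ∀ ℓ : ℕ, ℓ.Prime → ℓ ∉ s → ¬ ℓ ∣ L) {ψ : Additive (Gamma0 L) →+ ℂ}
    (hψp : IsParabolicHom (Gamma0 L) ψ)
    (hψT : ∀ ℓ : Nat.Primes, (ℓ : ℕ) ∉ s → hop L ℓ ψ = qCoeff g ℓ • ψ)
    (hψw : w.op ℂ ψ = (e : ℂ) • ψ) : ψ = 0 := by
  obtain ⟨-, hsq⟩ := w.newform g hg
  obtain ⟨F, G, hFG⟩ := exists_period_conj_period hψp
  have hg0 : g ≠ 0 := ne_zero_of_isNormalizedEigenform hg.1
  have hreal : ∀ ℓ : Nat.Primes, (ℓ : ℕ) ∉ s → (starRingEnd ℂ) (qCoeff g ℓ) = qCoeff g ℓ := by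
    intro ℓ hℓ
    have hℓM : ¬ (ℓ : ℕ) ∣ L := hs' ℓ ℓ.2 hℓ
    exact IsSym.conj_eq (ip_heckeTLin ℓ.2 hℓM) hg0 (heckeTLin_eigen hg.1 ℓ.2 hℓM)
  have key : ∀ ℓ : Nat.Primes, (ℓ : ℕ) ∉ s → hOp L ℓ F = qCoeff g ℓ • F ∧
      hOp L ℓ G = qCoeff g ℓ • G := by
    intro ℓ hℓ
    have h1 := hψT ℓ hℓ
    rw [hFG] at h1
    have h2 := eq_zero_of_period_add_conj (hOp L ℓ F - qCoeff g ℓ • F)
      (hOp L ℓ G - qCoeff g ℓ • G) (by
        rw [map_sub, map_sub, periodLin_hOp, periodLin_hOp, map_smul, map_smul]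
        rw [map_add, hop_conj_comp] at h1
        have h3 : AddMonoidHom.comp ((starRingEnd ℂ : ℂ →+* ℂ) : ℂ →+ ℂ)
              (hop L ℓ (periodLin L G) - qCoeff g ℓ • periodLin L G) =
            AddMonoidHom.comp ((starRingEnd ℂ : ℂ →+* ℂ) : ℂ →+ ℂ) (hop L ℓ (periodLin L G)) -
              qCoeff g ℓ • AddMonoidHom.comp ((starRingEnd ℂ : ℂ →+* ℂ) : ℂ →+ ℂ)
                (periodLin L G) := by
          refine AddMonoidHom.ext fun γ => ?_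
          change (starRingEnd ℂ) (hop L ℓ (periodLin L G) γ - qCoeff g ℓ * periodLin L G γ) =
            (starRingEnd ℂ) (hop L ℓ (periodLin L G) γ) -
              qCoeff g ℓ * (starRingEnd ℂ) (periodLin L G γ)
          rw [map_sub, map_mul, hreal ℓ hℓ]
        rw [h3, sub_add_sub_comm, h1, smul_add, sub_self])
    exact ⟨sub_eq_zero.mp h2.1, sub_eq_zero.mp h2.2⟩
  have hF := mult_one s hg fun ℓ hℓ => (key ℓ hℓ).1
  have hG := mult_one s hg fun ℓ hℓ => (key ℓ hℓ).2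
  have hWg : ∀ F : CuspForm (Gamma0 L) 2, F = qCoeff F 1 • g → w.W F = -(e : ℂ) • F := by
    intro F hF
    rw [hF, map_smul, (w.newform g hg).1, he, smul_comm]
  have hop1 : w.op ℂ ψ = -(e : ℂ) • ψ := by
    have h1 : w.op ℂ (periodLin L F) = periodLin L (w.W F) := (w.period F).symm
    have h2 : w.op ℂ (periodLin L G) = periodLin L (w.W G) := (w.period G).symm
    rw [hFG, map_add, ALOp.op_comp_left, h1, h2, hWg F hF, hWg G hG, map_smul, map_smul, smul_add]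
    congr 1
    refine AddMonoidHom.ext fun γ => ?_
    change (starRingEnd ℂ) (-(e : ℂ) * periodLin L G γ) = -(e : ℂ) * (starRingEnd ℂ) (periodLin L G γ)
    rw [map_mul, map_neg, map_intCast]
  rw [hψw] at hop1
  have he0 : (e : ℂ) ≠ 0 := by
    intro h0
    rw [← he, h0] at hsq
    norm_num at hsq
  have h10 : (2 * (e : ℂ)) • ψ = 0 := by
    rw [mul_smul, two_smul]
    nth_rewrite 1 [hop1]
    rw [neg_smul, neg_add_cancel]
  exact (smul_eq_zero.mp h10).resolve_left (mul_ne_zero two_ne_zero he0)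

variable (L) in
/-- the Hecke operators on integral parabolic homomorphisms -/
def hopT (S' : Set ℕ) (i : GoodPrime L S') : Module.End ℤ (parM L ℤ) := hopPar L ℤ ⟨i.1, i.2.1⟩

theorem hopT_comm (S' : Set ℕ) (i j : GoodPrime L S') : hopT L S' i * hopT L S' j =
    hopT L S' j * hopT L S' i := hopPar_comm L ℤ _ _

theorem eq_zero_of_eigen_img (hq : q.Prime) {g : CuspForm (Gamma0 L) 2}
    (hg : g.IsNewform) {e : ℤ} (he : (e : ℂ) = qCoeff g q) (he2 : e ^ 2 = 1) (s : Finset ℕ)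
    (hs' : ∀ ℓ : ℕ, ℓ.Prime → ℓ ∉ s → ¬ ℓ ∣ L ∧ ℓ ≠ q) (x : ℂ ⊗[ℤ] (w.img hq.ne_zero e))
    (hx : ∀ (ℓ : Nat.Primes) (_ : (ℓ : ℕ) ∉ s) (hne : (ℓ : ℕ) ≠ q),
      (w.hopImg hq.ne_zero e ℓ hne).baseChange ℂ x = qCoeff g ℓ • x) : x = 0 := by
  apply w.inc_injective hq.ne_zero e
  rw [map_zero]
  apply parLift_injective L
  rw [map_zero]
  refine eq_zero_of_op_eq w hg he s (fun ℓ h1 h2 => (hs' ℓ h1 h2).1) (parLift_parabolic L _)
    (fun ℓ hℓ => ?_) (w.op_inc hq.ne_zero he2 x)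
  have hne := (hs' ℓ ℓ.2 hℓ).2
  exact (w.inc_hop hq.ne_zero e ℓ hne x).trans
    ((congrArg (fun z => parLift L (w.inc hq.ne_zero e z)) (hx ℓ hℓ hne)).trans
      (w.parLift_inc_smul hq.ne_zero e _ x))

/-- **The killing polynomial.** -/
theorem exists_kill_plus (hq : q.Prime) (hqL : q ∣ L) {g : CuspForm (Gamma0 L) 2}
    (hg : g.IsNewform) {e : ℤ} (he : (e : ℂ) = qCoeff g q) (S' : Set ℕ) (s : Finset ℕ)
    (hs' : ∀ ℓ : ℕ, ℓ.Prime → ℓ ∉ s → ¬ ℓ ∣ L ∧ ℓ ∉ S') :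
    ∃ t : HeckePoly L S',
      MvPolynomial.aeval (fun i : GoodPrime L S' => qCoeff g i) t ≠ (0 : ℂ) ∧
      ∀ φ : parM L ℤ, evalEnd (hopT L S') (hopT_comm S') t (w.plus hq.ne_zero e φ) = 0 := by
  have hne : ∀ i : GoodPrime L S', (i : ℕ) ≠ q := fun i h => i.2.2.1 (h ▸ hqL)
  obtain ⟨-, hsq⟩ := w.newform g hg
  have he2 : e ^ 2 = 1 := by
    have : ((e ^ 2 : ℤ) : ℂ) = ((1 : ℤ) : ℂ) := by push_cast; rw [he, hsq]
    exact_mod_cast this
  obtain ⟨T', hT'⟩ : ∃ T' : GoodPrime L S' → Module.End ℤ (w.img hq.ne_zero e), T' = fun i =>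
    w.hopImg hq.ne_zero e ⟨i.1, i.2.1⟩ (hne i) := ⟨_, rfl⟩
  have hcomm : ∀ i j, T' i * T' j = T' j * T' i := fun i j => LinearMap.ext fun φ =>
    Subtype.ext (by
      rw [hT']
      exact LinearMap.congr_fun (hopPar_comm L ℤ ⟨i.1, i.2.1⟩ ⟨j.1, j.2.1⟩) φ.1)
  by_contra hcon
  push Not at hcon
  obtain ⟨χ, hχ⟩ : ∃ χ : HeckePoly L S' →+* ℂ, χ =
    (MvPolynomial.aeval (fun i : GoodPrime L S' => qCoeff g i) :
      HeckePoly L S' →ₐ[ℤ] ℂ).toRingHom := ⟨_, rfl⟩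
  have hker : RingHom.ker (evalEnd T' hcomm).toRingHom ≤ RingHom.ker χ := by
    intro t ht
    rw [RingHom.mem_ker] at ht ⊢
    by_contra hχ0
    rw [hχ] at hχ0
    obtain ⟨φ, hφ⟩ := hcon t hχ0
    apply hφ
    have h1 := evalEnd_natural hcomm (hopT_comm S')
      (w.img hq.ne_zero e).subtype (fun i φ => by rw [hT']; rfl) t
      ⟨w.plus hq.ne_zero e φ, ⟨φ, rfl⟩⟩
    refine h1.symm.trans ?_
    have h2 : evalEnd T' hcomm t = 0 := ht
    rw [h2]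
    rfl
  have hfree := w.free_img hq.ne_zero e
  have hfin := w.finite_img hq.ne_zero e
  obtain ⟨x, hx0, hx⟩ := exists_eigenvector_of_ker_le_int _ χ hker
  refine hx0 (eq_zero_of_eigen_img w hq hg he he2 s (fun ℓ h1 h2 => ⟨(hs' ℓ h1 h2).1,
    fun h => (hs' ℓ h1 h2).1 (h ▸ hqL)⟩) x fun ℓ hℓ hℓq => ?_)
  have h1 := hx (MvPolynomial.X ⟨ℓ, ℓ.2, (hs' ℓ ℓ.2 hℓ).1, (hs' ℓ ℓ.2 hℓ).2⟩)
  have h2 : (evalEnd T' hcomm).toRingHom
      (MvPolynomial.X ⟨ℓ, ℓ.2, (hs' ℓ ℓ.2 hℓ).1, (hs' ℓ ℓ.2 hℓ).2⟩) =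
        w.hopImg hq.ne_zero e ℓ hℓq := by
    refine (evalEnd_X _ hcomm _).trans ?_
    rw [hT']
    rfl
  have h3 : χ (MvPolynomial.X ⟨ℓ, ℓ.2, (hs' ℓ ℓ.2 hℓ).1, (hs' ℓ ℓ.2 hℓ).2⟩) = qCoeff g ℓ := by
    rw [hχ]
    exact MvPolynomial.aeval_X _ _
  rw [h2, h3] at h1
  exact h1

end

end Fermat.Agent.TwoAdic
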