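import Fermat.Agent.TwoAdic.KillWA
import Fermat.Agent.Top.SupportCoker
import Fermat.Agent.MazurQ.Toric

/-!
# The Atkin–Lehner operator: periods, Kummer classes and divisor classes
-/

set_option autoImplicit false
set_option linter.unusedSectionVars false
set_option linter.style.haveILetI false

noncomputable section

namespace Fermat.Agent.TwoAdic

open UpperHalfPlane hiding I
open ModularForm Filter Topology Fermat.Agent.ModFn Fermat.Agent.Support Polynomial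
open ModularCurve IntermediateField Fermat.Agent.FF WithZero AlgebraicCurve Fermat.Agent.Top
open scoped MatrixGroups Manifold

namespace ALOp

variable {L q M : ℕ} [NeZero L] (w : ALOp L q M)

section forms

variable {m : ℕ} {χ : CongruenceSubgroup.Gamma0 L →* ℂˣ} {V : ℍ → ℂ}

/-- composition with the Atkin–Lehner matrix -/
def cmp (V : ℍ → ℂ) (z : ℍ) : ℂ := V (act w.a.w z)

theorem cmp_apply (V : ℍ → ℂ) (z : ℍ) : w.cmp V z = V (act w.a.w z) := rfl

theorem det_ne (hq : q ≠ 0) : w.a.w.det ≠ 0 := by rw [w.a.det_w]; exact_mod_cast hq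

theorem act_smul (hq : q ≠ 0) (γ : CongruenceSubgroup.Gamma0 L) (z : ℍ) :
    act w.a.w ((γ : SL(2, ℤ)) • z) = ((w.c γ : CongruenceSubgroup.Gamma0 L) : SL(2, ℤ)) •
      act w.a.w z := by
  rw [← act_mul_coe _ (w.det_ne hq)]
  have h : w.a.w * ((γ : SL(2, ℤ)) : Matrix (Fin 2) (Fin 2) ℤ) =
      (((w.c γ : CongruenceSubgroup.Gamma0 L) : SL(2, ℤ)) : Matrix (Fin 2) (Fin 2) ℤ) * w.a.w :=
    w.spec γ
  rw [h, act_coe_mul _ _ (w.det_ne hq)]

theorem cmp_inv (hq : q ≠ 0) (hV : IsCForm L χ V) (γ : CongruenceSubgroup.Gamma0 L) (z : ℍ) :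
    w.cmp V ((γ : SL(2, ℤ)) • z) = (χ.comp w.c) γ * w.cmp V z := by
  rw [cmp_apply, w.act_smul hq, hV.inv]
  rfl

theorem isParaChar_comp (hq : q ≠ 0) (hχ : IsParaChar χ) : IsParaChar (χ.comp w.c) := by
  intro γ hγ
  rw [MonoidHom.comp_apply]
  exact hχ _ (by rw [w.trace_c hq]; exact hγ)

theorem isCForm_cmp (hq : q ≠ 0) (hV : IsCForm L χ V) (hχ : IsParaChar χ) :
    IsCForm L (χ.comp w.c) (w.cmp V) where
  inv := w.cmp_inv hq hV
  exp δ := by
    haveI : NeZero q := ⟨hq⟩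
    obtain ⟨φ, hφ⟩ := exists_hasExp_act (bigA_of_isCForm hV) (Nat.pos_of_ne_zero hq) w.a.w
      w.a.det_w δ
    have h1 : ∀ z, w.cmp V (δ • ((((L : ℤ) : ℝ) +ᵥ z : ℍ))) = w.cmp V (δ • z) := by
      intro z
      rw [← T_zpow_smul_eq_vadd]
      have h2 := w.cmp_inv hq hV ⟨_, exists_conj_mem_Gamma0 L δ (h := L) (dvd_mul_left _ _)⟩
        (δ • z)
      rw [w.isParaChar_comp hq hχ _ (by rw [trace_conj_T_zpow]; norm_num), Units.val_one,
        one_mul] at h2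
      rw [← h2, ← mul_smul, ← mul_smul]
      congr 2
      simp [mul_assoc]
    exact ⟨_, (HasExp.contract hφ h1).1⟩

theorem comp_mem_admSub (hq : q ≠ 0) (hχ : χ ∈ admSub L m) : χ.comp w.c ∈ admSub L m := by
  obtain ⟨h1, h2, h3⟩ := hχ
  refine ⟨w.isParaChar_comp hq h1, fun γ τ hγ => ?_, ?_⟩
  · rw [MonoidHom.comp_apply]
    refine h2 (w.c γ) (act w.a.w τ) ?_
    rw [← w.act_smul hq, hγ]
  · ext γ
    have := DFunLike.congr_fun h3 (w.c γ)
    rw [MonoidHom.pow_apply] at this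
    rw [MonoidHom.pow_apply, MonoidHom.comp_apply, this]
    rfl

theorem cmp_ne_zero (hq : q ≠ 0) (h0 : V ≠ 0) : w.cmp V ≠ 0 := by
  intro h
  apply h0
  funext z
  have h1 := congrFun h ((toGLR w.a.w (w.det_ne hq))⁻¹ • z)
  rw [cmp_apply, act_of_ne _ (w.det_ne hq), smul_inv_smul] at h1
  exact h1

theorem cmp_mem_WN (hq : q ≠ 0) (hV : V ∈ WN L) : w.cmp V ∈ WN L := by
  rw [mem_WN_iff_isCForm] at hV ⊢
  exact (w.isCForm_cmp hq hV (fun _ _ => rfl)).congr rfl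

/-- composition with the Atkin–Lehner matrix as an algebra homomorphism -/
def cmpHom (hq : q ≠ 0) : WN L →ₐ[ℂ] WN L where
  toFun f := ⟨w.cmp f.1, w.cmp_mem_WN hq f.2⟩
  map_one' := rfl
  map_mul' _ _ := rfl
  map_zero' := rfl
  map_add' _ _ := rfl
  commutes' _ := rfl

theorem coe_cmpHom (hq : q ≠ 0) (f : WN L) : (w.cmpHom hq f).1 = w.cmp f.1 := rfl

end forms

end ALOp

section field

variable {M q : ℕ} [NeZero M] [NeZero q] (w : ALOp (M * q) q M)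

theorem cmp_jH : w.cmp jH = jd q := by
  have hq : q ≠ 0 := NeZero.ne q
  let γ : SL(2, ℤ) := ⟨!![w.a.x, w.a.y; M * w.a.z, q * w.a.t], by
      rw [Matrix.det_fin_two_of]
      linear_combination w.a.h⟩
  have h1 : w.a.w = (γ : Matrix (Fin 2) (Fin 2) ℤ) * !![(q : ℤ), 0; 0, 1] := by
    simp only [Ihara.ALD.w, γ]
    ext i j
    fin_cases i <;> fin_cases j <;> simp [Matrix.mul_apply, Fin.sum_univ_two] <;> ring
  funext τ
  rw [ALOp.cmp_apply, h1, act_coe_mul _ _ (by rw [det_diag]; exact_mod_cast hq), jH_smul]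
  rfl

theorem cmp_jd : w.cmp (jd (M * q)) = jd M := by
  have hq : (0 : ℤ) < q := by exact_mod_cast Nat.pos_of_neZero q
  have hM : (0 : ℤ) < M := by exact_mod_cast Nat.pos_of_neZero M
  let γ : SL(2, ℤ) := ⟨!![q * w.a.x, M * w.a.y; w.a.z, w.a.t], by
      rw [Matrix.det_fin_two_of]
      linear_combination w.a.h⟩
  have h1 : (!![((M * q : ℕ) : ℤ), 0; 0, 1] : Matrix (Fin 2) (Fin 2) ℤ) * w.a.w =
        (q : ℤ) • ((γ : Matrix (Fin 2) (Fin 2) ℤ) * !![(M : ℤ), 0; 0, 1]) := by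
    simp only [Ihara.ALD.w, γ]
    ext i j
    fin_cases i <;> fin_cases j <;> simp [Matrix.mul_apply, Fin.sum_univ_two] <;> ring
  have hdM : (!![(M : ℤ), 0; 0, 1] : Matrix (Fin 2) (Fin 2) ℤ).det ≠ 0 := by
    rw [det_diag]; exact hM.ne'
  have hdMq : (!![((M * q : ℕ) : ℤ), 0; 0, 1] : Matrix (Fin 2) (Fin 2) ℤ).det ≠ 0 := by
    rw [det_diag]; push_cast; positivity
  have hpos1 : 0 < (!![((M * q : ℕ) : ℤ), 0; 0, 1] * w.a.w : Matrix (Fin 2) (Fin 2) ℤ).det := by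
    rw [Matrix.det_mul, det_diag, w.a.det_w]
    push_cast; positivity
  have hpos2 : 0 < ((γ : Matrix (Fin 2) (Fin 2) ℤ) * !![(M : ℤ), 0; 0, 1]).det := by
    rw [Matrix.det_mul, det_diag, γ.2, one_mul]
    exact hM
  funext τ
  rw [ALOp.cmp_apply, jd, jd, ← act_mul _ _ hdMq (w.det_ne (NeZero.ne q)),
    ESh.act_eq_of_formula _ _ hpos1 hpos2 q hq.ne' h1, act_coe_mul _ _ hdM, jH_smul]

variable {wC : FC (M * q) →ₐ[ℂ] FC (M * q)}
  (hα : ∀ x, wC (heckeAlphaBar ℂ M q x) = heckeBetaBar ℂ M q x)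
  (hβ : ∀ x, wC (heckeBetaBar ℂ M q x) = heckeAlphaBar ℂ M q x)

include hα hβ

theorem toFC_cmpHom (f : WN (M * q)) :
    toFC (M * q) (w.cmpHom (NeZero.ne q) f) = wC (toFC (M * q) f) := by
  have hq : q ≠ 0 := NeZero.ne q
  let F₁ : WN (M * q) →ₐ[ℂ] FC (M * q) := (toFC (M * q)).comp (w.cmpHom hq)
  let F₂ : WN (M * q) →ₐ[ℂ] FC (M * q) := wC.comp (toFC (M * q))
  have hA0 : A0 (M * q) ≤ (AlgHom.equalizer F₁ F₂).map (WN (M * q)).val := by
    rw [A0, Algebra.adjoin_le_iff]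
    rintro g (rfl | rfl)
    · refine ⟨⟨jH, jH_mem_WN _⟩, ?_, rfl⟩
      change toFC (M * q) (w.cmpHom hq ⟨jH, jH_mem_WN _⟩) = wC (toFC (M * q) ⟨jH, jH_mem_WN _⟩)
      have h1 : toFC (M * q) ⟨jH, jH_mem_WN _⟩ =
          heckeAlphaBar ℂ M q (toFC M ⟨jH, jH_mem_WN _⟩) := by
        apply Subtype.ext
        rw [coe_heckeAlphaBar, coe_toFC, coe_toFC, wq_jH, wq_jH]
      have h2 : w.cmpHom hq ⟨jH, jH_mem_WN _⟩ = ⟨jd q, jd_mem_WN (dvd_mul_left q M)⟩ :=
        Subtype.ext (cmp_jH w)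
      rw [h1, hα, h2]
      apply Subtype.ext
      rw [coe_toFC, wq_jd (dvd_mul_left q M)]
      change _ = qExpand ℂ q (wq M _)
      rw [wq_jH]
    · refine ⟨⟨jd (M * q), jd_mem_WN dvd_rfl⟩, ?_, rfl⟩
      change toFC (M * q) (w.cmpHom hq ⟨jd (M * q), jd_mem_WN dvd_rfl⟩) =
        wC (toFC (M * q) ⟨jd (M * q), jd_mem_WN dvd_rfl⟩)
      have h1 : toFC (M * q) ⟨jd (M * q), jd_mem_WN dvd_rfl⟩ =
          heckeBetaBar ℂ M q (toFC M ⟨jd M, jd_mem_WN dvd_rfl⟩) := by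
        apply Subtype.ext
        rw [coe_toFC, wq_jd dvd_rfl]
        change _ = qExpand ℂ q (wq M _)
        rw [wq_jd dvd_rfl, qExpand_qExpand]
        exact qExpand_congr (mul_comm M q) _
      have h2 : w.cmpHom hq ⟨jd (M * q), jd_mem_WN dvd_rfl⟩ =
          ⟨jd M, jd_mem_WN (dvd_mul_right M q)⟩ := Subtype.ext (cmp_jd w)
      rw [h1, hβ, h2]
      apply Subtype.ext
      rw [coe_toFC, coe_heckeAlphaBar, coe_toFC, wq_jd (dvd_mul_right M q), wq_jd dvd_rfl]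
  have hA0' : ∀ a : ℍ → ℂ, ∀ ha : a ∈ A0 (M * q), F₁ ⟨a, A0_le_WN _ ha⟩ = F₂ ⟨a, A0_le_WN _ ha⟩ := by
    intro a ha
    obtain ⟨g, hg, hga⟩ := hA0 ha
    have : g = ⟨a, A0_le_WN _ ha⟩ := Subtype.ext hga
    rw [← this]
    exact hg
  obtain ⟨a, ha, b, hb, hb0, hab⟩ := exists_quot_of_mem_WN f.2
  have h1 : f * ⟨b, A0_le_WN _ hb⟩ = (⟨a, A0_le_WN _ ha⟩ : WN (M * q)) := Subtype.ext hab
  have h2 := congrArg F₁ h1
  have h3 := congrArg F₂ h1
  rw [map_mul] at h2 h3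
  rw [hA0' a ha, hA0' b hb, ← h3] at h2
  have h4 : F₂ ⟨b, A0_le_WN _ hb⟩ ≠ 0 := by
    intro h5
    have h6 : toFC (M * q) ⟨b, A0_le_WN _ hb⟩ = 0 := (map_eq_zero wC).1 h5
    exact hb0 (congrArg Subtype.val (toFC_injective (h6.trans (map_zero _).symm)))
  exact mul_right_cancel₀ h4 h2

/-- **Atkin–Lehner compatibility.** -/
theorem exists_iotaC_w (m : ℕ) [NeZero m] (φ : parM (M * q) ℤ) :
    ∃ u v : kummerSubgroup ℂ (FC (M * q)) m,
      iotaC (M * q) m φ = Additive.ofMul (QuotientGroup.mk u) ∧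
      iotaC (M * q) m (w.opPar (NeZero.ne q) ℤ φ) = Additive.ofMul (QuotientGroup.mk v) ∧
      ((v : (FC (M * q))ˣ) : FC (M * q)) = wC ((u : (FC (M * q))ˣ) : FC (M * q)) := by
  have hq : q ≠ 0 := NeZero.ne q
  have hm : m ≠ 0 := NeZero.ne m
  set χ := expChar m φ.1 with hχdef
  have hχ : χ ∈ admSub (M * q) m := expChar_mem φ
  obtain ⟨hV, hV0⟩ := chiForm_spec hm hχ
  have hopχ : χ.comp w.c = expChar m (w.opPar hq ℤ φ).1 := rfl
  have hχ' : χ.comp w.c ∈ admSub (M * q) m := w.comp_mem_admSub hq hχ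
  have hW := w.isCForm_cmp hq hV hχ.1
  have hW0 := w.cmp_ne_zero hq hV0
  refine ⟨⟨powU hV hχ.2.2 hV0, powU_mem hV hχ hV0⟩, ⟨powU hW hχ'.2.2 hW0, powU_mem hW hχ' hW0⟩,
    ?_, ?_, ?_⟩
  · rw [iotaC_apply, kapChi_eq hm hV (expChar_mem φ) hV0]
    rfl
  · rw [iotaC_apply]
    congr 1
    have h1 : (⟨expChar m (w.opPar hq ℤ φ).1, expChar_mem _⟩ : admSub (M * q) m) =
        ⟨χ.comp w.c, hχ'⟩ := Subtype.ext hopχ.symm
    rw [h1, kapChi_eq hm hW hχ' hW0]
    rfl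
  · change toFC (M * q) (powW hW hχ'.2.2) = wC (toFC (M * q) (powW hV hχ.2.2))
    rw [← toFC_cmpHom w hα hβ]
    congr 1

omit hα hβ

end field

section jac

local notation "Qb" => AlgebraicClosure ℚ

open Fermat.Agent.QVal Fermat.Agent.MazurQ Fermat.Agent.QComp Fermat.Agent.RepTwo

variable {M q : ℕ} [NeZero M] [NeZero q] [hqf : Fact q.Prime] (hM : ¬ q ∣ M) [Algebra Qb ℂ]
  {wC : FC (M * q) →ₐ[ℂ] FC (M * q)}
  (hα : ∀ x, wC (heckeAlphaBar ℂ M q x) = heckeBetaBar ℂ M q x)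
  (hβ : ∀ x, wC (heckeBetaBar ℂ M q x) = heckeAlphaBar ℂ M q x)

/-- embedding of function fields -/
abbrev bce (N : ℕ) [NeZero N] : FB N →+* FC N := baseChangeEmb Qb ℂ (modularFunctionFieldFull N)

theorem bce_alpha (x : FB M) : bce (M * q) (al1 M q x) = heckeAlphaBar ℂ M q (bce M x) := by
  apply Subtype.ext
  rw [coe_baseChangeEmb, coe_al1, coe_heckeAlphaBar, coe_baseChangeEmb]

theorem bce_beta (x : FB M) : bce (M * q) (be1 M q x) = heckeBetaBar ℂ M q (bce M x) := by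
  apply Subtype.ext
  rw [coe_baseChangeEmb, coe_be1]
  exact ModularCurve.coeffMap_qExpand _ _ _

include hα hβ

theorem wC_bce (x : FB (M * q)) : wC (bce (M * q) x) = bce (M * q) (w1 hqf.out hM x) := by
  have h1 : RingHom.eqLocusField ((wC : FC (M * q) →+* FC (M * q)).comp (bce (M * q)))
      ((bce (M * q)).comp (w1 hqf.out hM : FB (M * q) →+* FB (M * q))) = ⊤ := by
    apply gen1 M q
    · intro x
      change wC (bce (M * q) (al1 M q x)) = bce (M * q) (w1 hqf.out hM (al1 M q x))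
      rw [w1_al, bce_alpha, bce_beta, hα]
    · change wC (bce (M * q) (be1 M q _)) = bce (M * q) (w1 hqf.out hM (be1 M q _))
      rw [w1_be, bce_alpha, bce_beta, hβ]
  have h2 : x ∈ RingHom.eqLocusField ((wC : FC (M * q) →+* FC (M * q)).comp (bce (M * q)))
      ((bce (M * q)).comp (w1 hqf.out hM : FB (M * q) →+* FB (M * q))) := by rw [h1]; trivial
  exact h2

/-- Equivariance of `W_m(ℂ) → J₀(N)` for the Atkin–Lehner involution. -/
theorem kummerC_w {m : ℕ} [NeZero m] {u v : kummerSubgroup ℂ (FC (M * q)) m}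
    (huv : ((v : (FC (M * q))ˣ) : FC (M * q)) = wC ((u : (FC (M * q))ˣ) : FC (M * q))) :
    kummerC (M * q) m (Additive.ofMul (QuotientGroup.mk v)) =
      wSemi hM • kummerC (M * q) m (Additive.ofMul (QuotientGroup.mk u)) := by
  have hm : 0 < m := NeZero.pos m
  obtain ⟨h, hh⟩ := QuotientGroup.mk_surjective ((kummerQbC (M * q) m).symm (QuotientGroup.mk u))
  have hh' : kummerQbC (M * q) m (QuotientGroup.mk h) = QuotientGroup.mk u := by
    rw [hh, MulEquiv.apply_symm_apply]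
  have h1 : (QuotientGroup.mk (kummerUnitsMap Qb ℂ (modularFunctionFieldFull (M * q)) m h) :
      KummerGroup ℂ (FC (M * q)) m) = QuotientGroup.mk u := hh'
  obtain ⟨f, hf⟩ := QuotientGroup.eq.1 h1
  have hf' : (((u : (FC (M * q))ˣ) : FC (M * q))) =
      bce (M * q) ((h : (modularFunctionFieldBar (M * q))ˣ)) * (f : FC (M * q)) ^ m := by
    have h2 := congrArg (fun u : (FC (M * q))ˣ => (u : FC (M * q))) hf
    have h3 : (f : FC (M * q)) ^ m = (bce (M * q)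
        ((h : (modularFunctionFieldBar (M * q))ˣ)))⁻¹ * ((u : (FC (M * q))ˣ) : FC (M * q)) := by
      simpa using h2
    rw [h3, mul_inv_cancel_left₀]
    exact (_root_.map_ne_zero _).2 (Units.ne_zero _)
  -- the transform of `h`
  have hh1 : Units.map (w1 hqf.out hM : FB (M * q) →* FB (M * q)) (h : (FB (M * q))ˣ) ∈
      kummerSubgroup Qb (FB (M * q)) m := by
    intro P
    have h5 := SemilinearAut.ord_smul (wSemi hM) ((wSemi hM)⁻¹ • P) ((h : (FB (M * q))ˣ) : FB (M * q))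
    rw [smul_inv_smul] at h5
    change (m : ℤ) ∣ P.ord (w1 hqf.out hM ((h : (FB (M * q))ˣ) : FB (M * q)))
    rw [← wSemi_smul, h5]
    exact h.2 _
  have hv : (((v : (FC (M * q))ˣ) : FC (M * q))) =
      bce (M * q) (w1 hqf.out hM ((h : (FB (M * q))ˣ) : FB (M * q))) *
        wC (f : FC (M * q)) ^ m := by
    rw [huv, hf', map_mul, map_pow, wC_bce hM hα hβ]
  have hf0 : wC (f : FC (M * q)) ≠ 0 := (_root_.map_ne_zero wC).2 (Units.ne_zero _)
  have hcl : (QuotientGroup.mk v : KummerGroup ℂ (FC (M * q)) m) =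
      kummerQbC (M * q) m (QuotientGroup.mk ⟨_, hh1⟩) := by
    symm
    change (QuotientGroup.mk (kummerUnitsMap Qb ℂ (modularFunctionFieldFull (M * q)) m ⟨_, hh1⟩) :
      KummerGroup ℂ (FC (M * q)) m) = QuotientGroup.mk v
    rw [QuotientGroup.eq]
    refine ⟨Units.mk0 _ hf0, Units.ext ?_⟩
    change wC (f : FC (M * q)) ^ m =
      (((kummerUnitsMap Qb ℂ (modularFunctionFieldFull (M * q)) m ⟨_, hh1⟩ :
        (FC (M * q))ˣ)⁻¹ : (FC (M * q))ˣ) : FC (M * q)) * ((v : (FC (M * q))ˣ) : FC (M * q))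
    rw [hv, Units.val_inv_eq_inv_val, coe_kummerUnitsMap]
    exact (inv_mul_cancel_left₀ ((_root_.map_ne_zero _).2 (Units.ne_zero _)) _).symm
  rw [hcl, kummerC_ofMul, ← hh', kummerC_ofMul]
  exact kummerToPic_smul m (wSemi hM) rfl

theorem iotaJ_w (w : ALOp (M * q) q M) (m : ℕ) [NeZero m] (φ : parM (M * q) ℤ) :
    iotaJ (M * q) m (w.opPar (NeZero.ne q) ℤ φ) = wSemi hM • iotaJ (M * q) m φ := by
  obtain ⟨u, v, hu, hv, huv⟩ := exists_iotaC_w w hα hβ m φ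
  rw [iotaJ_apply, iotaJ_apply, hu, hv]
  exact kummerC_w hM hα hβ huv

omit hα hβ

end jac

end Fermat.Agent.TwoAdic
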