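import Fermat.Agent.TwoAdic.Hesse

set_option autoImplicit false

/-!
# Local conditions at 2 for the Hesse pencil
-/

namespace Fermat.Agent.TwoAdic

theorem hD_two (s d j m k : ℤ) : hD (s^2 + 256*d) (s*(s^2 + 256*d) - 2^20*j) (3*s*m + 8*k) m =
    512 * (k * (s*m + 2*k)^3 + 2 * (
      -88*s*d*m^3*k + 24576*s*j*m^4 - 21*s^2*d*m^4 - 96*d*m^2*k^2 - 192*d^2*m^4 +
      65536*j*m^3*k)) := by
  unfold hD; ring

theorem hC4_two (s d j m k : ℤ) : hC4 (s^2 + 256*d) (s*(s^2 + 256*d) - 2^20*j) (3*s*m + 8*k) m =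
    4^4 * (s^2 * (s*m + 2*k)^4 + 2 * (
      -10485760*s*d*j*m^4 + 4096*s*d*m*k^3 + 40960*s*d^2*m^3*k - 4718592*s*j*m^2*k^2 +
      3264*s^2*d*m^2*k^2 + 7808*s^2*d^2*m^4 - 1835008*s^2*j*m^3*k + 1184*s^3*d*m^3*k -
      262144*s^3*j*m^4 + 160*s^4*d*m^4 - 16777216*d*j*m^3*k + 2048*d*k^4 + 49152*d^2*m^2*k^2 -
      98304*d^3*m^4 - 4194304*j*m*k^3 + 8589934592*j^2*m^4)) := by
  unfold hC4; ring

theorem hC6_two (s d j m k : ℤ) : hC6 (s^2 + 256*d) (s*(s^2 + 256*d) - 2^20*j) (3*s*m + 8*k) m =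
    4^6 * (s^3 * (s*m + 2*k)^6 + 4 * (
      -1845493760*s*d*j*m^3*k^3 - 1030792151040*s*d*j^2*m^6 + 4096*s*d*k^6 -
      2214592512*s*d^2*j*m^5*k + 1720320*s*d^2*m^2*k^4 + 983040*s*d^3*m^4*k^2 +
      16515072*s*d^4*m^6 - 37748736*s*j*m*k^5 + 773094113280*s*j^2*m^4*k^2 -
      1258291200*s^2*d*j*m^4*k^2 + 15360*s^2*d*m*k^5 - 276824064*s^2*d^2*j*m^6 +
      1515520*s^2*d^2*m^3*k^3 + 1228800*s^2*d^3*m^5*k - 39321600*s^2*j*m^2*k^4 +
      283467841536*s^2*j^2*m^5*k - 371195904*s^3*d*j*m^5*k + 22080*s^3*d*m^2*k^4 +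
      679680*s^3*d^2*m^4*k^2 + 351232*s^3*d^3*m^6 - 24903680*s^3*j*m^3*k^3 +
      32212254720*s^3*j^2*m^6 - 39321600*s^4*d*j*m^6 + 16160*s^4*d*m^3*k^3 +
      157824*s^4*d^2*m^5*k - 9830400*s^4*j*m^4*k^2 + 6480*s^5*d*m^4*k^2 + 15456*s^5*d^2*m^6 -
      2162688*s^5*j*m^5*k + 1368*s^6*d*m^5*k - 196608*s^6*j*m^6 + 120*s^7*d*m^6 -
      1006632960*d*j*m^2*k^4 - 1649267441664*d*j^2*m^5*k - 4026531840*d^2*j*m^4*k^2 +
      786432*d^2*m*k^5 - 9663676416*d^3*j*m^6 + 37748736*d^4*m^5*k - 16777216*j*k^6 +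
      687194767360*j^2*m^3*k^3 + 562949953421312*j^3*m^6)) := by
  unfold hC6; ring

theorem not_two_dvd {a : ℤ} (h : Odd a) : ¬ (2 : ℤ) ∣ a := by
  rw [← even_iff_two_dvd, Int.not_even_iff_odd]; exact h

theorem odd_of_not_two {a : ℤ} (h : ¬ (2 : ℤ) ∣ a) : Odd a := by
  rwa [← even_iff_two_dvd, Int.not_even_iff_odd] at h

theorem val_mul_odd {Δ D : ℤ} (hΔ : Δ ≠ 0) (hD : Odd D) :
    padicValInt 2 (Δ * D) = padicValInt 2 Δ := by
  have : Fact (Nat.Prime 2) := ⟨Nat.prime_two⟩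
  have hD0 : D ≠ 0 := by rintro rfl; exact absurd hD (by decide)
  rw [padicValInt.mul hΔ hD0, padicValInt.eq_zero_of_not_dvd (not_two_dvd hD), add_zero]

/-- local conditions at 2 -/
theorem local_two {c4 c6 Δ : ℤ} (h : c4^3 - c6^2 = 1728*Δ) (hΔ : Δ ≠ 0) (h2 : (2 : ℤ) ∣ Δ)
    (h4 : ¬ (2 : ℤ) ∣ c4) (h6 : (4 : ℤ) ∣ c6 + 1) :
    ∃ u : ℤ, (u = 1 ∨ u = 4) ∧ ∃ l₀ m₀ : ℕ, ∀ l m : ℤ, (2 : ℤ)^4 ∣ l - l₀ → (2 : ℤ)^4 ∣ m - m₀ →
      ¬ ((2 : ℤ) ∣ l ∧ (2 : ℤ) ∣ m) ∧ ¬ (2 : ℤ)^10 ∣ hD c4 c6 l m ∧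
      ∃ C4 C6 D' : ℤ, hC4 c4 c6 l m = u^4 * C4 ∧ hC6 c4 c6 l m = u^6 * C6 ∧
        (hD c4 c6 l m)^3 = u^12 * D' ∧ ¬ (2 : ℤ) ∣ C4 ∧ (4 : ℤ) ∣ C6 + 1 ∧
        Odd (padicValInt 2 (Δ * D')) := by
  have hF : Fact (Nat.Prime 2) := ⟨Nat.prime_two⟩
  have hp2 : Prime (2 : ℤ) := Int.prime_two
  have hc4 : Odd c4 := odd_of_not_two h4
  rcases Nat.even_or_odd (padicValInt 2 Δ) with hv | hv
  · -- even valuation
    obtain ⟨Δ', rfl⟩ : ∃ Δ', Δ = 4 * Δ' := by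
      have h1 : padicValInt 2 Δ ≠ 0 := by
        intro h0
        rw [padicValInt.eq_zero_iff] at h0
        rcases h0 with h0 | h0 | h0
        · norm_num at h0
        · exact hΔ h0
        · exact h0 (by exact_mod_cast h2)
      have h3 : 2 ≤ padicValInt 2 Δ := by
        rcases hv with ⟨r, hr⟩
        omega
      have h4 : ((2 : ℕ) : ℤ)^2 ∣ Δ := by
        rw [padicValInt_dvd_iff]
        right
        exact h3
      obtain ⟨Δ', h5⟩ := h4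
      exact ⟨Δ', by rw [h5]; norm_num⟩
    obtain ⟨x, y, hxy⟩ : IsCoprime c4 ((2 : ℤ)^20) :=
      IsCoprime.pow_right ((Prime.coprime_iff_not_dvd hp2).mpr h4).symm
    obtain ⟨s, hs⟩ : ∃ s, s = x * c6 := ⟨_, rfl⟩
    obtain ⟨j, hj⟩ : ∃ j, s * c4 = c6 + 2^20 * j := by
      refine ⟨-(y * c6), ?_⟩
      rw [hs]; linear_combination c6 * hxy
    have hc6 : c6 = s * c4 - 2^20 * j := by linear_combination -hj
    obtain ⟨d, hd⟩ : ∃ d, c4 = s^2 + 256 * d := by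
      have h7 : (256 : ℤ) ∣ c4^2 * (c4 - s^2) := by
        refine ⟨27 * Δ' - 8192 * (s * c4 * j) + 4294967296 * j^2, ?_⟩
        rw [hc6] at h
        linear_combination h
      have h8 : IsCoprime (256 : ℤ) (c4^2) := by
        have : (256 : ℤ) = 2^8 := by norm_num
        rw [this]
        exact IsCoprime.pow ((Prime.coprime_iff_not_dvd hp2).mpr h4)
      obtain ⟨d, hd⟩ := h8.dvd_of_dvd_mul_left h7
      exact ⟨d, by linear_combination hd⟩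
    have hc6o : Odd c6 := by
      obtain ⟨r, hr⟩ := h6
      exact ⟨2 * r - 1, by linear_combination hr⟩
    have hso : Odd s := by
      have h7 : Odd (s * c4) := by
        rw [hj]
        exact hc6o.add_even ⟨2^19 * j, by ring⟩
      exact (Int.odd_mul.mp h7).1
    have hs4 : (4 : ℤ) ∣ s + 1 := by
      obtain ⟨t, ht⟩ := hso
      obtain ⟨r, hr⟩ := h6
      refine ⟨r - (t * (t + 1)) * s - 64 * d * s + 2^18 * j, ?_⟩
      have h7 : s^2 = 4 * (t * (t + 1)) + 1 := by rw [ht]; ring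
      rw [hd] at hc6
      linear_combination hr - hc6 - s * h7
    refine ⟨4, Or.inr rfl, ((3 * s + 8) % 16).toNat, 1, fun l m hl hm => ?_⟩
    rw [Int.toNat_of_nonneg (Int.emod_nonneg _ (by norm_num))] at hl
    obtain ⟨a, ha⟩ := hm
    obtain ⟨b, hb⟩ : ∃ b, l = 3 * s + 8 + 16 * b := by
      obtain ⟨b, hb⟩ := hl
      refine ⟨b - (3 * s + 8) / 16, ?_⟩
      have := Int.emod_add_mul_ediv (3 * s + 8) 16
      linear_combination hb + this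
    obtain ⟨k, hk⟩ : ∃ k, k = 1 + 2 * b - 6 * s * a := ⟨_, rfl⟩
    have hm' : m = 1 + 16 * a := by push_cast at ha; linear_combination ha
    have hl' : l = 3 * s * m + 8 * k := by
      rw [hb, hm', hk]; ring
    have hmo : Odd m := ⟨8 * a, by rw [hm']; ring⟩
    have hko : Odd k := ⟨b - 3 * s * a, by rw [hk]; ring⟩
    have hwo : Odd (s * m + 2 * k) := (hso.mul hmo).add_even ⟨k, by ring⟩
    rw [hd] at hc6
    have e1 := hD_two s d j m k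
    have e2 := hC4_two s d j m k
    have e3 := hC6_two s d j m k
    rw [← hd, ← hl', hd, ← hc6, ← hd] at e1 e2 e3
    obtain ⟨X, hX⟩ : ∃ X, hD c4 c6 l m = 512 * (k * (s*m + 2*k)^3 + 2 * X) := ⟨_, e1⟩
    obtain ⟨X4, hX4⟩ : ∃ X, hC4 c4 c6 l m = 4^4 * (s^2 * (s*m + 2*k)^4 + 2 * X) := ⟨_, e2⟩
    obtain ⟨X6, hX6⟩ : ∃ X, hC6 c4 c6 l m = 4^6 * (s^3 * (s*m + 2*k)^6 + 4 * X) := ⟨_, e3⟩
    clear e1 e2 e3
    have ho : Odd (k * (s*m + 2*k)^3 + 2 * X) := (hko.mul hwo.pow).add_even ⟨X, by ring⟩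
    have ho4 : Odd (s^2 * (s*m + 2*k)^4 + 2 * X4) := (hso.pow.mul hwo.pow).add_even ⟨X4, by ring⟩
    generalize k * (s*m + 2*k)^3 + 2 * X = o at *
    refine ⟨fun h => not_two_dvd hmo h.2, ?_, s^2 * (s*m + 2*k)^4 + 2 * X4,
      s^3 * (s*m + 2*k)^6 + 4 * X6, 8 * o^3, hX4, hX6, ?_, not_two_dvd ho4, ?_, ?_⟩
    · rintro ⟨r, hr⟩
      rw [hX] at hr
      apply not_two_dvd ho
      exact ⟨r, by linarith⟩
    · rw [hX]; ring
    · generalize s*m + 2*k = w at *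
      obtain ⟨t, ht⟩ := hwo
      obtain ⟨r, hr⟩ := hs4
      have hs' : s = 4 * r - 1 := by linear_combination hr
      have hw2 : w^2 = 4 * (t^2 + t) + 1 := by rw [ht]; ring
      have hw6 : w^6 = (4 * (t^2 + t) + 1)^3 := by rw [← hw2]; ring
      rw [hw6, hs']
      generalize t^2 + t = z
      exact ⟨X6 + 1024*r^3*z^3 + 768*r^3*z^2 + 192*r^3*z + 16*r^3 - 768*r^2*z^3 - 576*r^2*z^2 -
        144*r^2*z - 12*r^2 + 192*r*z^3 + 144*r*z^2 + 36*r*z + 3*r - 16*z^3 - 12*z^2 - 3*z, by ring⟩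
    · have h8 : Odd (o^3) := ho.pow
      have h9 : 4 * Δ' * (8 * o^3) = (4 * Δ' * o^3) * 8 := by ring
      have ho0 : o ≠ 0 := by rintro rfl; exact absurd ho (by decide)
      have h10 : 4 * Δ' * o^3 ≠ 0 := mul_ne_zero hΔ (pow_ne_zero _ ho0)
      rw [h9, padicValInt.mul h10 (by norm_num), val_mul_odd hΔ h8]
      have h11 : padicValInt 2 8 = 3 := by
        have : (8 : ℤ) = ((2^3 : ℕ) : ℤ) := by norm_num
        rw [this, padicValInt.of_nat, padicValNat.prime_pow]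
      rw [h11]
      exact hv.add_odd (by decide)
  · -- odd valuation
    refine ⟨1, Or.inl rfl, 1, 0, fun l m hl hm => ?_⟩
    obtain ⟨b, hb⟩ := hl
    obtain ⟨a, ha⟩ := hm
    have hm' : m = 16 * a := by push_cast at ha; linear_combination ha
    have hl' : l = 1 + 16 * b := by push_cast at hb; linear_combination hb
    have hlo : Odd l := ⟨8 * b, by rw [hl']; ring⟩
    have hDo : Odd (hD c4 c6 l m) := by
      have : hD c4 c6 l m = l^4 + 2 * (8 * a * (-6*c4*l^2*m - 8*c6*l*m^2 - 3*c4^2*m^3)) := by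
        rw [hm']; unfold hD; ring
      rw [this]
      exact hlo.pow.add_even (even_two_mul _)
    refine ⟨fun h => not_two_dvd hlo h.1, ?_, hC4 c4 c6 l m, hC6 c4 c6 l m, (hD c4 c6 l m)^3,
      by ring, by ring, by ring, ?_, ?_, ?_⟩
    · intro h
      exact not_two_dvd hDo (dvd_trans (by norm_num) h)
    · have : hC4 c4 c6 l m = c4 * l^4 + 2 * (8 * a * (4*c6*l^3 + 6*c4^2*l^2*m + 4*c4*c6*l*m^2 -
          (3*c4^3 - 4*c6^2)*m^3)) := by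
        rw [hm']; unfold hC4; ring
      rw [this]
      exact not_two_dvd ((hc4.mul hlo.pow).add_even (even_two_mul _))
    · have : hC6 c4 c6 l m = c6 * l^6 + 4 * (4 * a * (6*c4^2*l^5 + 15*c4*c6*l^4*m +
          20*c6^2*l^3*m^2 + 15*c4^2*c6*l^2*m^3 + 6*(3*c4^4 - 2*c4*c6^2)*l*m^4 +
          (9*c4^3*c6 - 8*c6^3)*m^5)) := by
        rw [hm']; unfold hC6; ring
      rw [this]
      obtain ⟨r, hr⟩ := h6
      obtain ⟨t, ht⟩ : ∃ t, l^6 = 1 + 4 * t := by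
        refine ⟨((1 + 16 * b)^5 + (1 + 16 * b)^4 + (1 + 16 * b)^3 + (1 + 16 * b)^2 +
          (1 + 16 * b) + 1) * (4 * b), ?_⟩
        rw [hl']; ring
      rw [ht]
      generalize (4 * a * (6*c4^2*l^5 + 15*c4*c6*l^4*m +
          20*c6^2*l^3*m^2 + 15*c4^2*c6*l^2*m^3 + 6*(3*c4^4 - 2*c4*c6^2)*l*m^4 +
          (9*c4^3*c6 - 8*c6^3)*m^5)) = z
      exact ⟨r + c6 * t + z, by linear_combination hr⟩
    · rw [val_mul_odd hΔ hDo.pow]
      exact hv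

end Fermat.Agent.TwoAdic
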