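import Fermat.Agent.TwoAdic.BlockB
import Fermat.Agent.TwoAdic.EProd
import Fermat.Agent.Newform.Exist
import Fermat.Prelude.Def_WeierstrassCurve_Mlc1RowStatement

/-!
# Assembly of the 2-adic route
-/

set_option autoImplicit false

open WeierstrassCurve CuspForm ModularFormClass

namespace Fermat.Agent.TwoAdic

/-- an eigenform of level `M` gives an eigenform of level `M * d` -/
theorem exists_eigenform_mul (d : ℕ) (hd : d ≠ 0) : ∀ {M : ℕ} (_ : M ≠ 0)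
    {g : CuspForm (CongruenceSubgroup.Gamma0 M) 2} (_ : g.IsNormalizedEigenform) {M' : ℕ}
    (_ : M' = M * d), ∃ f : CuspForm (CongruenceSubgroup.Gamma0 M') 2,
      f.IsNormalizedEigenform ∧ ∀ l : ℕ, l.Prime → ¬ l ∣ d → qCoeff f l = qCoeff g l := by
  induction d using Nat.recOnMul with
  | zero => exact absurd rfl hd
  | one =>
    intro M hM g hg M' hM'
    rw [mul_one] at hM'
    subst hM'
    exact ⟨g, hg, fun _ _ _ => rfl⟩
  | prime q hq =>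
    intro M hM g hg M' hM'
    subst hM'
    have : NeZero M := ⟨hM⟩
    obtain ⟨β, hβ⟩ : ∃ β : ℂ, β ^ 2 - qCoeff g q * β + (if q ∣ M then (0 : ℂ) else (q : ℂ)) = 0 := by
      set P : Polynomial ℂ := Polynomial.X ^ 2 - Polynomial.C (qCoeff g q) * Polynomial.X +
        Polynomial.C (if q ∣ M then (0 : ℂ) else (q : ℂ)) with hP
      have hdeg : P.degree = 2 := by rw [hP]; compute_degree!
      obtain ⟨β, hβ⟩ := IsAlgClosed.exists_root P (by rw [hdeg]; norm_num)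
      refine ⟨β, ?_⟩
      simpa [hP, Polynomial.IsRoot.def] using hβ
    obtain ⟨f, hf, h1, -⟩ := Newform.stabilize hg hq hβ
    exact ⟨f, hf, fun l hl hlq => h1 l hl fun h => hlq (h ▸ dvd_rfl)⟩
  | mul a b iha ihb =>
    intro M hM g hg M' hM'
    obtain ⟨f, hf, h1⟩ := iha (left_ne_zero_of_mul hd) hM hg rfl
    obtain ⟨f', hf', h1'⟩ := ihb (right_ne_zero_of_mul hd) (mul_ne_zero hM (left_ne_zero_of_mul hd))
      hf (M' := M') (by rw [hM', mul_assoc])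
    refine ⟨f', hf', fun l hl hlab => ?_⟩
    rw [h1' l hl fun h => hlab (h.mul_left a), h1 l hl fun h => hlab (h.mul_right b)]

/-- modularity of the 2-adic representation gives modularity at the exact conductor -/
theorem exactLevel_of_modular {W : WeierstrassCurve ℤ} {E : EData}
    (h1 : ∀ l : ℕ, l.Prime → (l ∣ E.N ↔ (l : ℤ) ∣ W.Δ))
    (h2 : ∀ l : ℕ, l.Prime → ¬ (l : ℤ) ∣ W.Δ → E.a l = W.apOfModel l) (hM : Modular E) :
    Mlc1IsModularModelOfExactConductorLevel W := by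
  obtain ⟨M, g, ⟨d, hd⟩, hg, hgE⟩ := hM
  have hN : 0 < E.N := lt_trans two_pos E.two_lt
  have hM0 : M ≠ 0 := by
    rintro rfl
    rw [zero_mul] at hd
    omega
  have hd0 : d ≠ 0 := by
    rintro rfl
    rw [mul_zero] at hd
    omega
  obtain ⟨f, hf, hfg⟩ := exists_eigenform_mul d hd0 hM0 hg hd
  refine ⟨E.N, hN, E.sqf, h1, f, hf, fun p hp hgood hpN => ?_⟩
  rw [hfg p hp fun h => hpN (hd ▸ h.mul_left M), hgE p hp hpN, h2 p hp hgood]

/-- output of block A (`ChooseE.lean`) -/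
def ChooseStmt : Prop := ∀ W : WeierstrassCurve ℤ, W.Δ ≠ 0 → W.IsSemistableModel →
  (2 : ℤ) ^ 20 ∣ W.Δ →
  ∃ E : WeierstrassCurve ℤ, E.Δ < 0 ∧ E.IsSemistableModel ∧ (2 : ℤ) ∣ E.Δ ∧
    (∀ q : ℕ, q.Prime → (q : ℤ) ∣ E.Δ → Odd (padicValInt q E.Δ)) ∧
    (∀ x : ℚ, 4 * x ^ 3 + (E.b₂ : ℚ) * x ^ 2 + 2 * (E.b₄ : ℚ) * x + E.b₆ ≠ 0) ∧
    (∃ q : ℕ, q.Prime ∧ q ≠ 2 ∧ (q : ℤ) ∣ E.Δ) ∧
    ∀ l : ℕ, l.Prime → l ≠ 3 → W.IsGoodPrimeFor l → E.IsGoodPrimeFor l →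
      (3 : ℤ) ∣ (E.apOfModel l - W.apOfModel l)

/-- **the 2-adic route**, all blocks but B as hypotheses -/
theorem twoAdic_of (hA : ChooseStmt) (hCD : BlockCD Sel) (hE : BlockE Sel) (hF : BlockF)
    (hH : BlockH) (W : WeierstrassCurve ℤ) (hΔ : W.Δ ≠ 0) (hW : W.IsSemistableModel)
    (h20 : (2 : ℤ) ^ 20 ∣ W.Δ) :
    ∃ E : WeierstrassCurve ℤ, E.Δ ≠ 0 ∧ E.IsSemistableModel ∧
    (∀ ℓ : ℕ, ℓ.Prime → ℓ ≠ 3 → W.IsGoodPrimeFor ℓ → E.IsGoodPrimeFor ℓ →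
      (3 : ℤ) ∣ (E.apOfModel ℓ - W.apOfModel ℓ)) ∧
    Mlc1IsModularModelOfExactConductorLevel E := by
  obtain ⟨E, hneg, hss, h2, hodd, hirr, hq, hcong⟩ := hA W hΔ hW h20
  obtain ⟨D, hD1, hD2⟩ := exists_EData E hneg hss h2 hodd hirr hq
  exact ⟨E, hneg.ne, hss, hcong, exactLevel_of_modular hD1 hD2
    (modular_of_blocks Sel blockB hCD hE hF hH D)⟩

end Fermat.Agent.TwoAdic
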