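import Fermat.Agent.TwoAdic.MazCH
import Fermat.Agent.QComp.TrHecke
import Fermat.Agent.MazurQ.Toric

/-!
# Pull back along the degeneracy map, the Atkin-Lehner involution, and the Hecke operators
-/

set_option autoImplicit false

noncomputable section

open Fermat.Agent AlgebraicCurve ModularCurve

namespace Fermat.Agent.TwoAdic.MazH

local notation "Γℚ" => (AlgebraicClosure ℚ ≃ₐ[ℚ] AlgebraicClosure ℚ)
local notation "Qb" => AlgebraicClosure ℚ

section Pull

variable {K F F' : Type*} [Field K] [Field F] [Field F'] [Algebra K F] [Algebra K F']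
  [HasPrincipalDivisors K F'] (φ : F →ₐ[K] F') (hφ : φ.toRingHom.IsIntegral)
  (hFI : FundamentalIdentityAlong K φ hφ)

def degZeroPull : Divisor.degZero (K := K) (F := F) →+ Divisor.degZero (K := K) (F := F') :=
  ((Divisor.pullbackAlong φ hφ).domRestrict (Divisor.degZero (K := K) (F := F))).codRestrict _
    fun D => Divisor.pullbackAlong_mem_degZero φ hφ hFI D.2

/-- pull back on `Pic0` -/
def pullPic0 : Pic0 K F →+ Pic0 K F' :=
  QuotientAddGroup.map _ _ (degZeroPull φ hφ hFI) (by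
    rintro ⟨D, hD0⟩ hD
    simp only [AddSubgroup.mem_addSubgroupOf] at hD ⊢
    exact Divisor.isPrincipal_pullbackAlong φ hφ hD)

theorem pullPic0_mk (D : Divisor.degZero (K := K) (F := F)) :
    pullPic0 φ hφ hFI (Pic0.mk D) = Pic0.mk (degZeroPull φ hφ hFI D) := rfl

theorem pullPic0_smul {g : SemilinearAut K F} {g' : SemilinearAut K F'}
    (h : SemilinearAut.IntertwinesAlong (φ : F →+* F') g g') (x : Pic0 K F) :
    pullPic0 φ hφ hFI (g • x) = g' • pullPic0 φ hφ hFI x := by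
  obtain ⟨D, rfl⟩ := Pic0.mk_surjective x
  rw [pullPic0_mk]
  change pullPic0 φ hφ hFI (Pic0.mk (SemilinearAut.degZeroSMulHom g D)) =
    Pic0.mk (SemilinearAut.degZeroSMulHom g' _)
  rw [pullPic0_mk]
  exact congrArg Pic0.mk (Subtype.ext (JZ.pullbackAlong_smul (hφ := hφ) h _))

theorem pullPic0_eq_zero (hfin : FiniteAlong K φ) (hN : NormFormulaAlong K φ hfin)
    (hdeg : ∀ v : Place K F, v.deg = 1) (hdeg₁ : ∀ v : Place K F', v.deg = 1) {x : Pic0 K F}
    (hx : pullPic0 φ hφ hFI x = 0) : finrankAlong K φ • x = 0 := by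
  obtain ⟨D, rfl⟩ := Pic0.mk_surjective x
  rw [pullPic0_mk, Red.pic0_mk_eq_zero] at hx
  have h1 := Divisor.isPrincipal_pushforwardAlong φ hφ hfin hN hx
  have h2 : finrankAlong K φ • Pic0.mk D = Pic0.mk (finrankAlong K φ • D) := rfl
  rw [h2, Red.pic0_mk_eq_zero]
  have h3 := QComp.pushforwardAlong_pullbackAlong φ hφ hFI hdeg hdeg₁ (D : Divisor K F)
  have h4 : ((finrankAlong K φ • D : Divisor.degZero (K := K) (F := F)) : Divisor K F) =
    finrankAlong K φ • (D : Divisor K F) := rfl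
  rw [h4, ← h3]
  exact h1

end Pull

section Alpha

variable (L r : ℕ) [NeZero L] [NeZero r]

/-- `α^* : J₀(L) → J₀(L r)` -/
def alphaPull : JZero L →+ JZero (L * r) :=
  pullPic0 (heckeAlphaBar Qb L r) (JZ.isIntegralAlong _) (QComp.nInputs.fund _ _ _ _)

variable {L r}

theorem alphaPull_smul (σ : Γℚ) (x : JZero L) : alphaPull L r (σ • x) = σ • alphaPull L r x :=
  pullPic0_smul _ _ _ (JZ.intertwines_alpha L r σ) x

theorem alphaPull_eq_zero (hr : r.Prime) (hrL : ¬ r ∣ L) {x : JZero L}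
    (hx : alphaPull L r x = 0) : (r + 1) • x = 0 := by
  have h1 := pullPic0_eq_zero (heckeAlphaBar Qb L r) (JZ.isIntegralAlong _)
    (QComp.nInputs.fund _ _ _ _) (JZ.finiteAlong _) (QComp.nInputs.norm _ _ _ _)
    (fun v => FF.deg_eq_one v) (fun v => FF.deg_eq_one v) hx
  have h2 : finrankAlong Qb (heckeAlphaBar Qb L r) = (JZ.FN Qb L).relfinrank (JZ.FN Qb (L * r)) :=
    JZ.finrankAlong_inclusion _
  rw [h2, JZ.relfinrank_FN_prime QComp.modInputs hr, if_neg hrL] at h1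
  exact h1

end Alpha

section Hecke

/-- the Hecke operator is `φ + ℓ φ⁻¹` on `2`-power torsion -/
theorem hecke_eq_frob {L : ℕ} [NeZero L] {l : Nat.Primes} (hl : ¬ (l : ℕ) ∣ L * 2)
    {A : ValuationSubring Qb} (hA : A.LiesOverPrime l) {φ : Γℚ} (hφ : A.IsFrobeniusAt φ l)
    {x : JZero L} (hx : ∃ n : ℕ, 2 ^ n • x = 0) :
    heckeOperatorBar L l x = φ • x + (l : ℕ) • φ⁻¹ • x := by
  obtain ⟨n, hn⟩ := hx
  have h1 := (jzeroES L 2).frob l l.2 hl A hA φ hφ (φ⁻¹ • x) ⟨n, gsmul_nsmul_zero _ hn⟩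
  rw [smul_inv_smul] at h1
  rw [← sub_eq_zero, ← neg_eq_zero]
  rw [← h1]
  have e : (⟨(l : ℕ), l.2⟩ : Nat.Primes) = l := rfl
  rw [e]
  abel

/-- a Galois equivariant map commutes with the Hecke operators on `2`-power torsion -/
theorem hecke_map {L L' : ℕ} [NeZero L] [NeZero L'] (f : JZero L →+ JZero L')
    (hf : ∀ (σ : Γℚ) x, f (σ • x) = σ • f x) {l : Nat.Primes} (hl : ¬ (l : ℕ) ∣ L * 2)
    (hl' : ¬ (l : ℕ) ∣ L' * 2) {x : JZero L} (hx : ∃ n : ℕ, 2 ^ n • x = 0) :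
    heckeOperatorBar L' l (f x) = f (heckeOperatorBar L l x) := by
  have := Fact.mk l.2
  obtain ⟨A, hA⟩ := Frob.exists_liesOverPrime Qb l.2
  obtain ⟨φ, hφ⟩ := Frob.exists_isFrobeniusAt A l.2 hA
  have hfx : ∃ n : ℕ, 2 ^ n • f x = 0 := by
    obtain ⟨n, hn⟩ := hx
    exact ⟨n, by rw [← map_nsmul, hn, map_zero]⟩
  rw [hecke_eq_frob hl' hA hφ hfx, hecke_eq_frob hl hA hφ hx, map_add, map_nsmul, hf, hf]

/-- transport of eigenpoints -/
theorem Eig.map {E : EData} {Q0 : Finset ℕ} {L L' : ℕ} [NeZero L] [NeZero L']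
    (hN : E.N ∣ L) (hL : L ∣ L') (f : JZero L →+ JZero L')
    (hf : ∀ (σ : Γℚ) x, f (σ • x) = σ • f x) {x : JZero L} (hx : ∃ n : ℕ, 2 ^ n • x = 0)
    (h : Eig E Q0 x) : Eig E Q0 (f x) := by
  intro l hl hQ
  have h2 : 2 ∣ L' := E.two_dvd.trans (hN.trans hL)
  have key : ∀ {M : ℕ}, M ∣ L' → ¬ (l : ℕ) ∣ M * 2 := by
    intro M hM h3
    rcases (Nat.Prime.dvd_mul l.2).mp h3 with h4 | h4
    · exact hl (h4.trans hM)
    · exact hl (h4.trans h2)
  rw [hecke_map f hf (key hL) (key dvd_rfl) hx, h l (fun h4 => hl (h4.trans hL)) hQ, map_zsmul]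

/-- the Atkin-Lehner involution as an additive map -/
def wHom {M q : ℕ} [NeZero M] [NeZero q] [hqf : Fact q.Prime] (hM : ¬ q ∣ M) :
    JZero (M * q) →+ JZero (M * q) where
  toFun x := MazurQ.wSemi hM • x
  map_zero' := smul_zero _
  map_add' _ _ := smul_add _ _ _

end Hecke

end Fermat.Agent.TwoAdic.MazH
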