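import Fermat.Agent.TwoAdic.MazPull
import Fermat.Agent.MazurQ.StepGeo

/-!
# The level lowering step at an auxiliary prime
-/

set_option autoImplicit false

noncomputable section

open Fermat.Agent AlgebraicCurve ModularCurve

namespace Fermat.Agent.TwoAdic.MazH

local notation "Γℚ" => (AlgebraicClosure ℚ ≃ₐ[ℚ] AlgebraicClosure ℚ)
local notation "Qb" => AlgebraicClosure ℚ

/-- an integer congruent to a `2`-adic integer mod `2 ^ n` -/
theorem exists_int (n : ℕ) (z : ℤ_[2]) :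
    ∃ t : ℤ, z - (t : ℤ_[2]) ∈ Ideal.span {(2 : ℤ_[2]) ^ n} := by
  refine ⟨(z.appr n : ℕ), ?_⟩
  have h1 := PadicInt.appr_spec n z
  push_cast at h1 ⊢
  exact h1

/-- `t`, `d` : integers congruent to the trace and the determinant -/
def tInt (E : EData) (n : ℕ) (σ : Γℚ) : ℤ := (exists_int n (E.ρ σ).trace).choose

def dInt (E : EData) (n : ℕ) (σ : Γℚ) : ℤ := (exists_int n (E.ρ σ).det).choose

theorem tInt_spec (E : EData) (n : ℕ) (σ : Γℚ) :
    (E.ρ σ).trace - (tInt E n σ : ℤ_[2]) ∈ Ideal.span {(2 : ℤ_[2]) ^ n} :=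
  (exists_int n (E.ρ σ).trace).choose_spec

theorem dInt_spec (E : EData) (n : ℕ) (σ : Γℚ) :
    (E.ρ σ).det - (dInt E n σ : ℤ_[2]) ∈ Ideal.span {(2 : ℤ_[2]) ^ n} :=
  (exists_int n (E.ρ σ).det).choose_spec

theorem dvd_of_mem {n : ℕ} {z : ℤ_[2]} {a b : ℤ}
    (ha : z - (a : ℤ_[2]) ∈ Ideal.span {(2 : ℤ_[2]) ^ n})
    (hb : z - (b : ℤ_[2]) ∈ Ideal.span {(2 : ℤ_[2]) ^ n}) : (2 : ℤ) ^ n ∣ a - b := by
  apply int_dvd_of_mem_span
  have := Ideal.sub_mem _ hb ha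
  convert this using 1
  ring

/-- parity of integers congruent to a `2`-adic integer -/
theorem toZMod_eq {n : ℕ} (hn : 1 ≤ n) {z : ℤ_[2]} {a : ℤ}
    (ha : z - (a : ℤ_[2]) ∈ Ideal.span {(2 : ℤ_[2]) ^ n}) :
    PadicInt.toZMod (p := 2) z = (a : ZMod 2) := by
  have h1 : PadicInt.toZMod (p := 2) (z - (a : ℤ_[2])) = 0 := by
    obtain ⟨w, hw⟩ := Ideal.mem_span_singleton.mp ha
    rw [hw, map_mul, map_pow, map_ofNat]
    have : (2 : ZMod 2) = 0 := by decide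
    rw [this, zero_pow (by omega), zero_mul]
  rw [map_sub, map_intCast, sub_eq_zero] at h1
  exact h1

theorem odd_iff {n : ℕ} (hn : 1 ≤ n) {z : ℤ_[2]} {a : ℤ}
    (ha : z - (a : ℤ_[2]) ∈ Ideal.span {(2 : ℤ_[2]) ^ n}) :
    Odd a ↔ PadicInt.toZMod (p := 2) z = 1 := by
  rw [toZMod_eq hn ha]
  have h2 := ZMod.intCast_eq_intCast_iff_dvd_sub a 1 2
  constructor
  · rintro ⟨b, rfl⟩
    push_cast
    have : (2 : ZMod 2) = 0 := by decide
    rw [this]; ring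
  · intro h
    have h3 : ((a : ℤ) : ZMod 2) = ((1 : ℤ) : ZMod 2) := by rw [h]; norm_num
    rw [ZMod.intCast_eq_intCast_iff_dvd_sub] at h3
    obtain ⟨c, hc⟩ := h3
    exact ⟨-c, by push_cast at hc; linarith⟩

theorem even_iff {n : ℕ} (hn : 1 ≤ n) {z : ℤ_[2]} {a : ℤ}
    (ha : z - (a : ℤ_[2]) ∈ Ideal.span {(2 : ℤ_[2]) ^ n}) :
    Even a ↔ PadicInt.toZMod (p := 2) z = 0 := by
  rw [← Int.not_odd_iff_even, odd_iff hn ha]
  generalize PadicInt.toZMod (p := 2) z = u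
  revert u
  decide

theorem toZMod_trace (E : EData) (σ : Γℚ) : PadicInt.toZMod (p := 2) (E.ρ σ).trace =
    ((E.ρ σ).map (PadicInt.toZMod (p := 2))).trace := by
  rw [Matrix.trace_fin_two, Matrix.trace_fin_two, map_add]
  rfl

theorem toZMod_det (E : EData) (σ : Γℚ) : PadicInt.toZMod (p := 2) (E.ρ σ).det = 1 := by
  have h1 : IsUnit (E.ρ σ).det := by
    have h2 : IsUnit (E.ρ σ) := (Group.isUnit σ).map E.ρ
    exact (Matrix.isUnit_iff_isUnit_det _).mp h2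
  have h2 := h1.map (PadicInt.toZMod (p := 2))
  revert h2
  generalize PadicInt.toZMod (p := 2) (E.ρ σ).det = u
  intro h2
  have h3 : u ≠ 0 := h2.ne_zero
  revert u
  decide

theorem dInt_odd (E : EData) {n : ℕ} (hn : 1 ≤ n) (σ : Γℚ) : Odd (dInt E n σ) :=
  (odd_iff hn (dInt_spec E n σ)).mpr (toZMod_det E σ)

/-- elements `a`, `b` of the Galois group with `tr a` odd, `tr b` even, `tr (ab)` even -/
theorem exists_ab (E : EData) : ∃ a b : Γℚ, PadicInt.toZMod (p := 2) (E.ρ a).trace = 1 ∧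
    PadicInt.toZMod (p := 2) (E.ρ b).trace = 0 ∧
    PadicInt.toZMod (p := 2) (E.ρ (a * b)).trace = 0 := by
  obtain ⟨a, ha⟩ := E.surj !![0, 1; 1, 1] (by rw [Matrix.det_fin_two_of]; decide)
  obtain ⟨b, hb⟩ := E.surj !![0, 1; 1, 0] (by rw [Matrix.det_fin_two_of]; decide)
  refine ⟨a, b, ?_, ?_, ?_⟩
  · rw [toZMod_trace, ha]; decide
  · rw [toZMod_trace, hb]; decide
  · have h1 : (E.ρ (a * b)).map (PadicInt.toZMod (p := 2)) =
        !![0, 1; 1, 1] * !![0, 1; 1, 0] := by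
      rw [map_mul, Matrix.map_mul, ha, hb]
    rw [toZMod_trace, h1]
    decide

/-- there are primes with `a_l` odd -/
theorem exists_odd_prime (E : EData) (S : Finset ℕ) :
    ∃ l : Nat.Primes, (l : ℕ) ∉ S ∧ ¬ (l : ℕ) ∣ E.N ∧ Odd (E.a l) := by
  obtain ⟨a, -, ha, -, -⟩ := exists_ab E
  obtain ⟨F3, hF3, h3⟩ := E.cont 1
  have := hF3
  have hN0 : E.N ≠ 0 := E.sqf.ne_zero
  obtain ⟨ℓ, hℓ, hS, -, A, hA, φ, hφ, hφσ⟩ := ChebFull.exists_frobenius_eq F3 a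
    (E.N.primeFactors ∪ S)
  rw [Finset.mem_union, not_or] at hS
  have hℓN : ¬ ℓ ∣ E.N := fun h => hS.1 (Nat.mem_primeFactors.mpr ⟨hℓ, h, hN0⟩)
  refine ⟨⟨ℓ, hℓ⟩, hS.2, hℓN, ?_⟩
  have hfix : ∀ y ∈ F3, (a⁻¹ * φ) y = y := by
    intro y hy
    have : (a⁻¹ * φ) y = a⁻¹ (φ y) := rfl
    rw [this, hφσ y hy]
    exact inv_smul_smul a y
  have e3 : ∀ i j, E.ρ φ i j - E.ρ a i j ∈ Ideal.span {(2 : ℤ_[2]) ^ 1} := by
    have h4 := h3 (a⁻¹ * φ) hfix
    intro i j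
    have h5 := mul_sub_mem (C := E.ρ a) h4 i j
    rw [← map_mul, mul_inv_cancel_left, mul_one] at h5
    exact h5
  have h7 := trace_sub_mem e3
  rw [E.frob ℓ hℓ hℓN A hA φ hφ] at h7
  have h8 : (E.ρ a).trace - ((E.a ℓ : ℤ) : ℤ_[2]) ∈ Ideal.span {(2 : ℤ_[2]) ^ 1} := by
    have := Ideal.neg_mem_iff _ |>.mpr h7
    convert this using 1
    ring
  exact (odd_iff le_rfl h8).mpr ha

/-- an eigenpoint of order `> 2 ^ e` at level `L` -/
def TorPoint (E : EData) (Q0 : Finset ℕ) (L e : ℕ) : Prop :=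
  ∃ (_ : NeZero L) (x : JZero L), (∃ n : ℕ, 2 ^ n • x = 0) ∧ 2 ^ e • x ≠ 0 ∧ Eig E Q0 x

theorem TorPoint.mono {E : EData} {Q0 : Finset ℕ} {L e e' : ℕ} (h : TorPoint E Q0 L e)
    (he : e' ≤ e) : TorPoint E Q0 L e' := by
  obtain ⟨h0, x, hx, h1, h2⟩ := h
  refine ⟨h0, x, hx, fun h3 => h1 ?_, h2⟩
  obtain ⟨k, rfl⟩ := Nat.exists_eq_add_of_le he
  rw [add_comm, pow_add, mul_smul, h3, smul_zero]

/-- the space of eigenpoints with sign `ε` -/
def VSp (E : EData) (Q0 : Finset ℕ) {M q : ℕ} [NeZero M] [NeZero q] [hqf : Fact q.Prime]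
    (hM : ¬ q ∣ M) (n : ℕ) (ε : ℤ) : AddSubgroup (JZero (M * q)) where
  carrier := {x | 2 ^ n • x = 0 ∧ Eig E Q0 x ∧ MazurQ.wSemi hM • x = ε • x}
  zero_mem' := by
    refine ⟨smul_zero _, fun l _ _ => ?_, ?_⟩
    · rw [map_zero]
      exact (zsmul_zero _).symm
    · exact (smul_zero _).trans (zsmul_zero _).symm
  add_mem' := by
    rintro x y ⟨h1, h2, h3⟩ ⟨h1', h2', h3'⟩
    refine ⟨?_, fun l hl hQ => ?_, ?_⟩
    · exact (nsmul_add x y _).trans (by rw [h1, h1', add_zero])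
    · rw [map_add, h2 l hl hQ, h2' l hl hQ]
      exact (zsmul_add x y _).symm
    · refine (map_add (wHom hM) x y).trans ?_
      exact (congrArg₂ (· + ·) h3 h3').trans (zsmul_add x y _).symm
  neg_mem' := by
    rintro x ⟨h1, h2, h3⟩
    refine ⟨?_, fun l hl hQ => ?_, ?_⟩
    · exact (neg_nsmul x _).trans (by rw [h1, neg_zero])
    · rw [map_neg, h2 l hl hQ]
      exact (zsmul_neg x _).symm
    · refine (map_neg (wHom hM) x).trans ?_
      exact (congrArg (- ·) h3).trans (zsmul_neg x _).symm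

theorem pow_zsmul_eq {J : Type*} [AddCommGroup J] (n : ℕ) (x : J) :
    ((2 : ℤ) ^ n) • x = 2 ^ n • x := by
  rw [← natCast_zsmul]
  push_cast
  rfl

variable {E : EData} {Q0 : Finset ℕ} {M q : ℕ} [NeZero M] [NeZero q] [hqf : Fact q.Prime]
  {hM : ¬ q ∣ M} {n : ℕ} {ε : ℤ}

theorem VSp.smul {x : JZero (M * q)} (hx : x ∈ VSp E Q0 hM n ε) (σ : Γℚ) :
    σ • x ∈ VSp E Q0 hM n ε := by
  obtain ⟨h1, h2, h3⟩ := hx
  refine ⟨gsmul_nsmul_zero _ h1, h2.smul σ, ?_⟩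
  rw [MazurQ.wSemi_galois_smul, h3, gsmul_zsmul]

theorem VSp.ch (hN : E.N ∣ M) {x : JZero (M * q)} (hx : x ∈ VSp E Q0 hM n ε) (σ : Γℚ) :
    CH σ (tInt E n σ) (dInt E n σ) x :=
  ch_of_eigen E (hN.trans (dvd_mul_right _ _)) Q0 hx.1 hx.2.1 σ (tInt_spec E n σ)
    (dInt_spec E n σ)

/-- inertia at `q` acts trivially -/
theorem VSp.inertia (hN : E.N ∣ M) (hn : 1 ≤ n) {A : ValuationSubring Qb}
    (hA : A.LiesOverPrime q) {x : JZero (M * q)} (hx : x ∈ VSp E Q0 hM n ε) {τ : Γℚ}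
    (hτ : τ ∈ A.inertiaSubgroupIn ℚ) : τ • x = x := by
  have h0 : E.ρ τ = 1 := E.unr q hqf.out (fun h => hM (h.trans hN)) A hA τ hτ
  obtain ⟨a, b, ha, hb, hab⟩ := exists_ab E
  have hmul : ∀ σ, E.ρ (τ * σ) = E.ρ σ := by
    intro σ
    rw [map_mul, h0, one_mul]
  refine smul_eq_self (V := VSp E Q0 hM n ε) (t := tInt E n) (d := dInt E n) (n := n)
    (fun σ x hx => VSp.smul hx σ) (fun x hx => by rw [pow_zsmul_eq, hx.1])
    (fun σ x hx => VSp.ch hN hx σ) ?_ ?_ ?_ ?_ (a := a) (b := b) ?_ ?_ ?_ hx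
  · refine dvd_of_mem (z := 2) ?_ (by simp)
    have := tInt_spec E n τ
    rwa [h0, Matrix.trace_one, Fintype.card_fin] at this
  · refine dvd_of_mem (z := 1) ?_ (by simp)
    have := dInt_spec E n τ
    rwa [h0, Matrix.det_one] at this
  · intro σ
    refine dvd_of_mem ?_ (tInt_spec E n σ)
    have := tInt_spec E n (τ * σ)
    rwa [hmul] at this
  · intro σ
    refine dvd_of_mem ?_ (dInt_spec E n σ)
    have := dInt_spec E n (τ * σ)
    rwa [hmul] at this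
  · exact (odd_iff hn (tInt_spec E n a)).mpr ha
  · exact (even_iff hn (tInt_spec E n b)).mpr hb
  · exact (even_iff hn (tInt_spec E n (a * b))).mpr hab

/-- **The step.** -/
theorem torPoint_step_aux (hN : E.N ∣ M) (hr : ∃ r : ℕ, r.Prime ∧ r ∣ M ∧ r % 12 = 11)
    (hq4 : q % 4 = 3) (hq0 : q ∈ Q0) (hε : ε = 1 ∨ ε = -1) (hn : 1 ≤ n) {e : ℕ}
    {x : JZero (M * q)} (hx : x ∈ VSp E Q0 hM n ε) (hxe : 2 ^ (e + 1) • x ≠ 0) :
    ∃ z : JZero M, (2 ^ n • z = 0) ∧ 2 ^ e • z ≠ 0 ∧ Eig E Q0 z := by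
  obtain ⟨A, hA⟩ := Frob.exists_liesOverPrime Qb hqf.out
  have hq2 : 2 ≠ q := by rintro h; omega
  by_contra hcon
  push Not at hcon
  -- everything killed by `2 ^ e` is toric
  have htor : ∀ y ∈ VSp E Q0 hM n ε, MazurQ.ToricAt hA hM (2 ^ n) (2 ^ e • y) := by
    intro y hy
    obtain ⟨l, hl1, hl2, hl3⟩ := exists_odd_prime E (Q0 ∪ (M * q).primeFactors)
    rw [Finset.mem_union, not_or] at hl1
    have hlM : ¬ (l : ℕ) ∣ M * q := fun h =>
      hl1.2 (Nat.mem_primeFactors.mpr ⟨l.2, h, NeZero.ne _⟩)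
    obtain ⟨z, hz1, hz2, hz3⟩ := MazurQ.stepGeo hM hr hA Nat.prime_two hq2 E.a Q0 hy.1
      (fun s hs => VSp.inertia hN hn hA hy hs) hy.2.2 hy.2.1 ⟨l, hlM, hl1.1, by
        have hlo : Odd ((l : ℕ) : ℤ) := by
          have : (l : ℕ) ≠ 2 := by
            rintro h
            exact hlM (h ▸ (E.two_dvd.trans (hN.trans (dvd_mul_right _ _))))
          exact_mod_cast l.2.odd_of_ne_two this
        obtain ⟨u, hu⟩ := hl3
        obtain ⟨v, hv⟩ := hlo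
        rw [hu, hv]
        omega⟩
    refine hz3 e ?_
    by_contra hne
    refine hcon z hz1 hne ?_
    intro l' hl' hQ'
    refine hz2 l' (fun h => ?_) hQ'
    rcases (Nat.Prime.dvd_mul l'.2).mp h with h4 | h4
    · exact hl' h4
    · rw [Nat.prime_dvd_prime_iff_eq l'.2 hqf.out] at h4
      exact hQ' (h4 ▸ hq0)
  obtain ⟨φ, hφ⟩ := Frob.exists_isFrobeniusAt A hqf.out hA
  have hqn : ¬ q ∣ 2 ^ n := fun h => hq2 ((Nat.prime_dvd_prime_iff_eq hqf.out Nat.prime_two).mp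
    (hqf.out.dvd_of_dvd_pow h)).symm
  have hsc : ∀ y ∈ VSp E Q0 hM n ε, φ • (2 ^ e • y) = (-(q : ℤ) * ε) • (2 ^ e • y) := by
    intro y hy
    have h1 := (htor y hy).frob hqn hφ
    have h2 : MazurQ.wSemi hM • (2 ^ e • y) = ε • (2 ^ e • y) := by
      have h3 : MazurQ.wSemi hM • (2 ^ e • y) = 2 ^ e • MazurQ.wSemi hM • y :=
        map_nsmul (wHom hM) _ _
      rw [h3, hy.2.2, smul_comm]
    rw [h2] at h1
    rw [mul_smul, neg_smul, natCast_zsmul]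
    exact eq_neg_of_add_eq_zero_left h1
  obtain ⟨a, b, ha, -, -⟩ := exists_ab E
  set u := 2 ^ e • x with hu
  have huV : u ∈ VSp E Q0 hM n ε := AddSubgroup.nsmul_mem _ hx _
  have hσu : ∀ σ : Γℚ, σ • u = 2 ^ e • σ • x := fun σ => gsmul_nsmul σ _ _
  have hE : ∃ o : ℤ, (-(q : ℤ) * ε) ^ 2 - q = 2 * o ∧ Odd o := by
    have hε2 : ε ^ 2 = 1 := by rcases hε with rfl | rfl <;> norm_num
    obtain ⟨k, hk⟩ : ∃ k : ℤ, (q : ℤ) = 4 * k + 3 := ⟨(q / 4 : ℕ), by push_cast; omega⟩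
    refine ⟨(4 * k + 3) * (2 * k + 1), ?_, ?_⟩
    · rw [mul_pow, neg_sq, hε2, hk]; ring
    · exact Odd.mul ⟨2 * k + 1, by ring⟩ ⟨k, rfl⟩
  have hdet : dInt E n (φ * a) = dInt E n (φ * a) := rfl
  have key : (2 : ℤ) • u = 0 := by
    refine two_smul_eq_zero (φ := φ) (σ := a) (c := -(q : ℤ) * ε) (t := tInt E n a)
      (s := tInt E n (φ * a)) (d := dInt E n a) (e := (q : ℤ)) (n := n) ?_ ?_ ?_ ?_ ?_ ?_ ?_ hE
    · rw [pow_zsmul_eq, huV.1]
    · rw [hσu]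
      exact hsc _ (VSp.smul hx a)
    · rw [hσu, gsmul_nsmul]
      exact hsc _ (VSp.smul (VSp.smul hx a) a)
    · exact VSp.ch hN huV a
    · refine (VSp.ch hN huV (φ * a)).congr (N := 2 ^ n) (by rw [pow_zsmul_eq, huV.1])
        (by rw [sub_self]; exact dvd_zero _) ?_
      refine dvd_of_mem (dInt_spec E n (φ * a)) ?_
      rw [map_mul, Matrix.det_mul]
      have h1 := E.det n φ q fun μ hμ =>
        RepTwo.frobenius_apply_root hqf.out Nat.prime_two hq2.symm hA hφ hμ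
      rw [Nat.cast_pow, Nat.cast_ofNat] at h1
      have h2 := dInt_spec E n a
      have h3 := Ideal.add_mem _ (Ideal.mul_mem_right (E.ρ a).det _ h1)
        (Ideal.mul_mem_left _ (q : ℤ_[2]) h2)
      convert h3 using 1
      push_cast
      ring
    · exact (odd_iff hn (tInt_spec E n a)).mpr ha
    · exact dInt_odd E hn a
  refine hxe ?_
  rw [pow_succ', mul_smul, ← hu]
  have : (2 : ℤ) • u = (2 : ℕ) • u := by rw [← natCast_zsmul]; norm_num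
  rw [← this, key]

end Fermat.Agent.TwoAdic.MazH
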