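import Fermat.Agent.TwoAdic.RankPrimes

/-!
# The mod 2 Hecke algebra of the dihedral forms
-/

set_option autoImplicit false

noncomputable section

namespace Fermat.Agent.TwoAdic.Rank

open NumberField Ideal Module
open scoped nonZeroDivisors

section char2

variable {k A : Type*} [Field k] [CommRing A] [Algebra k A]

theorem two_eq_zero (h2 : (2 : k) = 0) : (2 : A) = 0 := by
  rw [← map_ofNat (algebraMap k A) 2, h2, map_zero]

theorem add_sq2 (h2 : (2 : A) = 0) (a b : A) : (a + b) ^ 2 = a ^ 2 + b ^ 2 := by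
  linear_combination a * b * h2

theorem add_pow2 (h2 : (2 : A) = 0) (a b : A) (m : ℕ) :
    (a + b) ^ (2 ^ m) = a ^ (2 ^ m) + b ^ (2 ^ m) := by
  induction m with
  | zero => simp
  | succ m ih => rw [pow_succ, pow_mul, ih, add_sq2 h2, ← pow_mul, ← pow_mul]

theorem mem_adjoin_of_unip (h2 : (2 : k) = 0) {ζ : k} (hζ : ζ ^ 2 + ζ + 1 = 0) {g g' : A}
    (hgg : g * g' = 1) {m : ℕ} (hg : g ^ (2 ^ m) = 1) :
    g ∈ Algebra.adjoin k {ζ • g + ζ ^ 2 • g'} := by
  have h2A : (2 : A) = 0 := two_eq_zero (k := k) h2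
  have hζ3 : ζ ^ 3 = 1 := by linear_combination (ζ - 1) * hζ
  have hζ1 : ζ + ζ ^ 2 = 1 := by linear_combination hζ - h2
  set S := Algebra.adjoin k {ζ • g + ζ ^ 2 • g'} with hS
  set t := ζ • g + ζ ^ 2 • g' with ht
  have htS : t ∈ S := Algebra.subset_adjoin rfl
  set x := ζ • g with hx
  have hxx : x * (ζ ^ 2 • g') = 1 := by
    rw [hx, smul_mul_smul_comm, hgg, ← pow_succ', hζ3, one_smul]
  have hg' : g' ^ (2 ^ m) = 1 := by
    have h := congrArg (· ^ (2 ^ m)) hgg
    simp only [mul_pow, one_pow] at h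
    rw [hg, one_mul] at h
    exact h
  have htm : t ^ (2 ^ m) = 1 := by
    rw [ht, add_pow2 h2A, smul_pow, smul_pow, hg, hg', ← add_smul, ← add_pow2 h2, hζ1, one_pow,
      one_smul]
  have hm1 : 2 ^ m = (2 ^ m - 1) + 1 := (Nat.sub_add_cancel Nat.one_le_two_pow).symm
  set ti := t ^ (2 ^ m - 1) with hti
  have htt : t * ti = 1 := by rw [hti, ← pow_succ', ← hm1, htm]
  have htiS : ti ∈ S := S.pow_mem htS _
  have hx2 : x ^ 2 = t * x + 1 := by
    rw [ht]
    linear_combination hxx - h2A * (x * (ζ ^ 2 • g'))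
  set Y := x * ti with hY
  have hY2 : Y ^ 2 = Y + ti ^ 2 := by
    rw [hY, mul_pow, hx2]
    linear_combination (x * ti) * htt
  have hYj : ∀ j : ℕ, ∃ z ∈ S, Y ^ (2 ^ j) = Y + z := by
    intro j
    induction j with
    | zero => exact ⟨0, S.zero_mem, by simp⟩
    | succ j ih =>
      obtain ⟨z, hz, hzY⟩ := ih
      refine ⟨ti ^ 2 + z ^ 2, S.add_mem (S.pow_mem htiS 2) (S.pow_mem hz 2), ?_⟩
      rw [pow_succ, pow_mul, hzY, add_sq2 h2A, hY2, add_assoc]
  obtain ⟨z, hz, hzY⟩ := hYj m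
  have hYm : Y ^ (2 ^ m) = algebraMap k A (ζ ^ (2 ^ m)) := by
    have h3 : ti ^ (2 ^ m) = 1 := by rw [hti, pow_right_comm, htm, one_pow]
    rw [hY, mul_pow, h3, mul_one, hx, smul_pow, hg, Algebra.algebraMap_eq_smul_one]
  have hYS : Y ∈ S := by
    have h3 : Y = algebraMap k A (ζ ^ (2 ^ m)) - z := by rw [← hYm, hzY]; ring
    rw [h3]
    exact S.sub_mem (S.algebraMap_mem _) hz
  have hxS : x ∈ S := by
    have h3 : x = t * Y := by rw [hY]; linear_combination (-x) * htt
    rw [h3]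
    exact S.mul_mem htS hYS
  have h3 : g = ζ ^ 2 • x := by rw [hx, smul_smul, ← pow_succ, hζ3, one_smul]
  rw [h3]
  exact S.smul_mem hxS _

variable {G : Type*} [CommGroup G]

variable (k G) in
/-- the augmentation -/
def aug : MonoidAlgebra k G →ₐ[k] k := MonoidAlgebra.lift k k G 1

@[simp] theorem aug_single (g : G) (a : k) : aug k G (MonoidAlgebra.single g a) = a := by
  simp [aug]

theorem pow_eq_aug (h2 : (2 : k) = 0) {m : ℕ} (hG : ∀ g : G, g ^ (2 ^ m) = 1)
    (x : MonoidAlgebra k G) :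
    x ^ (2 ^ m) = algebraMap k (MonoidAlgebra k G) (aug k G x ^ (2 ^ m)) := by
  have h2A : (2 : MonoidAlgebra k G) = 0 := two_eq_zero (k := k) h2
  have hp : (2 ^ m) ≠ 0 := by positivity
  induction x using MonoidAlgebra.induction_linear with
  | zero => rw [zero_pow hp, map_zero, zero_pow hp, map_zero]
  | add x y hx hy =>
    rw [add_pow2 h2A, map_add, add_pow2 h2, map_add, ← hx, ← hy]
  | single g a =>
    rw [aug_single, MonoidAlgebra.single_pow, hG, MonoidAlgebra.coe_algebraMap]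
    rfl

end char2

end Fermat.Agent.TwoAdic.Rank
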