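import Fermat.Agent.TwoAdic.RankLat

/-!
# Reduction of the theta combinations
-/

set_option autoImplicit false

noncomputable section

namespace Fermat.Agent.TwoAdic.Rank

open NumberField Ideal Module IsLocalRing
open UpperHalfPlane ModularForm CongruenceSubgroup Matrix.SpecialLinearGroup ModularFormClass
open Fermat.Agent.IntStr
open scoped MatrixGroups

variable {K : Type*} [Field K] [NumberField K] {N : ℕ} {s : 𝓞 K}

theorem T_mem (M : ℕ) : ModularGroup.T ∈ Gamma0 M := by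
  rw [Gamma0_mem, ModularGroup.coe_T]; simp

theorem qCoeff_sum_MF {M : ℕ} {w : ℤ} {ι : Type*} (S : Finset ι) (F : ι → ℍ → ℂ)
    (hF : ∀ i ∈ S, IsMF (Gamma0 M) w (F i)) (n : ℕ) :
    qCoeff (∑ i ∈ S, F i) n = ∑ i ∈ S, qCoeff (F i) n := by
  rw [qCoeff, qExpansion_sum S F hF (T_mem M), map_sum]; rfl

theorem qCoeff_smul_MF {M : ℕ} {w : ℤ} {f : ℍ → ℂ} (hf : IsMF (Gamma0 M) w f) (c : ℂ) (n : ℕ) :
    qCoeff (c • f) n = c * qCoeff f n := by
  rw [qCoeff, hf.qExpansion_smul (T_mem M), PowerSeries.coeff_smul]; rfl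

section data

variable (D : IsQ K N s)

/-- `Λ_{c,b,Q₁,Q₂} = U₂² (θ_c(Q₁ z) θ_b(Q₂ z))` -/
def lamF (c b : ClassGroup (𝓞 K)) (Q₁ Q₂ : ℕ) : ℍ → ℂ :=
  heckeU 2 2 (heckeU 2 2 (thP Q₁ (qf D c).1 (qf D c).2.1 (qf D c).2.2 Q₂ (qf D b).1 (qf D b).2.1
    (qf D b).2.2))

theorem isMF_lamF (c b : ClassGroup (𝓞 K)) {Q₁ Q₂ : ℕ} (h1 : 0 < Q₁) (h2 : 0 < Q₂) {M : ℕ}
    [NeZero M] (hM : M = N * (Q₁ * Q₂)) : IsMF (Gamma0 M) 2 (lamF D c b Q₁ Q₂) := by
  obtain ⟨ha, hd, -, -⟩ := qf_spec D c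
  obtain ⟨ha', hd', -, -⟩ := qf_spec D b
  have hN : (0 : ℤ) < N := by exact_mod_cast D.N_pos
  have hN4 := D.mod4
  refine isMF_Lambda (by exact_mod_cast h1) ha (by rw [hd]; positivity) (by exact_mod_cast h2) ha'
    (hd'.trans hd.symm) (by rw [hd]; exact ⟨2 * N, by ring⟩) ?_ ?_
  · rw [hM]
    exact Dvd.dvd.mul_right (by omega) _
  · rw [hd, hM]; push_cast; ring

theorem qCoeff_lamF (c b : ClassGroup (𝓞 K)) {Q₁ Q₂ : ℕ} (h1 : 0 < Q₁) (h2 : 0 < Q₂) (n : ℕ) :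
    qCoeff (lamF D c b Q₁ Q₂) n = repc D c b Q₁ Q₂ (4 * n) := by
  obtain ⟨ha, hd, -, -⟩ := qf_spec D c
  obtain ⟨ha', hd', -, -⟩ := qf_spec D b
  have hN : (0 : ℤ) < N := by exact_mod_cast D.N_pos
  have hN4 := D.mod4
  have : NeZero (N * (Q₁ * Q₂)) := ⟨mul_ne_zero D.N_pos.ne' (mul_ne_zero h1.ne' h2.ne')⟩
  refine qCoeff_Lambda (M := N * (Q₁ * Q₂)) (by exact_mod_cast h1) ha (by rw [hd]; positivity)
    (by exact_mod_cast h2) ha' (hd'.trans hd.symm) (by rw [hd]; exact ⟨2 * N, by ring⟩) ?_ ?_ n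
  · exact Dvd.dvd.mul_right (by omega) _
  · rw [hd]; push_cast; ring

/-- `(1/2) ∑ c_t Λ_{g t, b}` -/
def DF (g b : ClassGroup (𝓞 K)) (Q₁ Q₂ : ℕ) (T : Finset (ClassGroup (𝓞 K)))
    (ct : ClassGroup (𝓞 K) → ℂ) : ℍ → ℂ :=
  (1 / 2 : ℂ) • ∑ t ∈ T, ct t • lamF D (g * t) b Q₁ Q₂

theorem isMF_DF (g b : ClassGroup (𝓞 K)) {Q₁ Q₂ : ℕ} (T : Finset (ClassGroup (𝓞 K)))
    (ct : ClassGroup (𝓞 K) → ℂ) (h1 : 0 < Q₁) (h2 : 0 < Q₂) {M : ℕ} [NeZero M]
    (hM : M = N * (Q₁ * Q₂)) : IsMF (Gamma0 M) 2 (DF D g b Q₁ Q₂ T ct) :=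
  (MF (Gamma0 M) 2).smul_mem _ ((MF (Gamma0 M) 2).sum_mem fun _ _ =>
    (MF (Gamma0 M) 2).smul_mem _ (isMF_lamF D _ _ h1 h2 hM))

theorem qCoeff_DF (g b : ClassGroup (𝓞 K)) {Q₁ Q₂ : ℕ} (T : Finset (ClassGroup (𝓞 K)))
    (ct : ClassGroup (𝓞 K) → ℂ) (h1 : 0 < Q₁) (h2 : 0 < Q₂) (n : ℕ) :
    qCoeff (DF D g b Q₁ Q₂ T ct) n = 1 / 2 * ∑ t ∈ T, ct t * repc D (g * t) b Q₁ Q₂ (4 * n) := by
  have : NeZero (N * (Q₁ * Q₂)) := ⟨mul_ne_zero D.N_pos.ne' (mul_ne_zero h1.ne' h2.ne')⟩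
  have h3 : ∀ t ∈ T, IsMF (Gamma0 (N * (Q₁ * Q₂))) 2 (ct t • lamF D (g * t) b Q₁ Q₂) := fun t _ =>
    (isMF_lamF D _ _ h1 h2 rfl).smul _
  have h4 : IsMF (Gamma0 (N * (Q₁ * Q₂))) 2 (∑ t ∈ T, ct t • lamF D (g * t) b Q₁ Q₂) :=
    (MF (Gamma0 (N * (Q₁ * Q₂))) 2).sum_mem h3
  rw [DF, qCoeff_smul_MF h4, qCoeff_sum_MF T _ h3]
  congr 1
  refine Finset.sum_congr rfl fun t ht => ?_
  rw [qCoeff_smul_MF (isMF_lamF D _ _ h1 h2 rfl), qCoeff_lamF D _ _ h1 h2]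

end data

section red

variable {𝒱 : ValuationSubring ℂ} {G : Type*} [CommGroup G]
variable (χ : ClassGroup (𝓞 K) →* ResidueField 𝒱) (pr : ClassGroup (𝓞 K) →* G)

/-- the kernel of `pr` -/
def kerT : Finset (ClassGroup (𝓞 K)) :=
  open Classical in Finset.univ.filter fun t => pr t = 1

theorem mem_kerT {t : ClassGroup (𝓞 K)} : t ∈ kerT pr ↔ pr t = 1 := by
  simp [kerT]

/-- the reduced form -/
def Ft (Q₁ n : ℕ) : MonoidAlgebra (ResidueField 𝒱) G :=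
  if Q₁ ∣ n ∧ n ≠ 0 then FF (psi χ pr) (n / Q₁) else 0

theorem coeff_FF (g : ClassGroup (𝓞 K)) (m : ℕ) : (FF (psi χ pr) m).coeff (pr g) =
    ∑ t ∈ kerT pr, χ (g * t) * (rc (K := K) (g * t) m : ResidueField 𝒱) := by
  classical
  have h1 : ∀ t ∈ kerT pr, χ (g * t) * (rc (K := K) (g * t) m : ResidueField 𝒱) =
      ∑ I ∈ idN (K := K) m, if cl I = g * t then χ (cl I) else 0 := by
    intro t _
    rw [rc, Finset.card_filter, Nat.cast_sum, Finset.mul_sum]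
    refine Finset.sum_congr rfl fun I _ => ?_
    split_ifs with h
    · rw [h, Nat.cast_one, mul_one]
    · rw [Nat.cast_zero, mul_zero]
  rw [Finset.sum_congr rfl h1, Finset.sum_comm, FF, MonoidAlgebra.coeff_sum,
    Finsupp.finsetSum_apply]
  refine Finset.sum_congr rfl fun I _ => ?_
  rw [psi_apply, MonoidAlgebra.coeff_single, Finsupp.single_apply]
  split_ifs with h
  · rw [Finset.sum_eq_single (g⁻¹ * cl I)]
    · rw [if_pos (by rw [mul_inv_cancel_left])]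
    · intro t _ ht
      rw [if_neg]
      rintro h2
      apply ht
      rw [h2, inv_mul_cancel_left]
    · intro h2
      exfalso
      apply h2
      rw [mem_kerT, map_mul, map_inv, h, inv_mul_cancel]
  · symm
    apply Finset.sum_eq_zero
    intro t ht
    rw [mem_kerT] at ht
    rw [if_neg]
    intro h2
    apply h
    rw [h2, map_mul, ht, mul_one]

variable {χ pr}

/-- `χ` is nontrivial on the kernel of `pr`, so we can lift with sum zero. -/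
theorem exists_lift (hχ3 : ∀ c, χ c ^ 3 = 1)
    (hχ : ∃ c, χ c ≠ 1) {m : ℕ} (hG : ∀ g : G, g ^ (2 ^ m) = 1) (g : ClassGroup (𝓞 K)) :
    ∃ ct : ClassGroup (𝓞 K) → ℂ, (∀ t ∈ kerT pr, IsR 𝒱 (ct t) (χ (g * t))) ∧
      ∑ t ∈ kerT pr, ct t = 0 := by
  classical
  -- an element of the kernel with `χ ≠ 1`
  obtain ⟨c, hc⟩ := hχ
  have hpow : ∀ m : ℕ, χ (c ^ (2 ^ m)) ≠ 1 := by
    intro m
    induction m with
    | zero => simpa using hc
    | succ m ih =>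
      intro h
      apply ih
      have h3 := hχ3 (c ^ (2 ^ m))
      rw [pow_succ 2 m, pow_mul, map_pow χ (c ^ 2 ^ m) 2] at h
      have h4 : χ (c ^ 2 ^ m) ^ 3 = χ (c ^ 2 ^ m) ^ 2 * χ (c ^ 2 ^ m) := by ring
      rw [h4, h, one_mul] at h3
      exact h3
  set t₀ := c ^ (2 ^ m) with ht₀
  have ht₀k : t₀ ∈ kerT pr := by rw [mem_kerT, ht₀, map_pow, hG]
  have hsum : ∑ t ∈ kerT pr, χ (g * t) = 0 := by
    have h3 : ∑ t ∈ kerT pr, χ (g * t) = χ t₀ * ∑ t ∈ kerT pr, χ (g * t) := by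
      rw [Finset.mul_sum]
      refine Finset.sum_bij' (fun t _ => t₀⁻¹ * t) (fun t _ => t₀ * t) ?_ ?_ ?_ ?_ ?_
      · intro t ht
        rw [mem_kerT] at ht ht₀k ⊢
        rw [map_mul, map_inv, ht, ht₀k, inv_one, one_mul]
      · intro t ht
        rw [mem_kerT] at ht ht₀k ⊢
        rw [map_mul, ht, ht₀k, one_mul]
      · intro t _; simp
      · intro t _; simp
      · intro t _
        rw [← map_mul]
        congr 1
        rw [mul_left_comm, mul_inv_cancel_left]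
    have h4 : (χ t₀ - 1) * ∑ t ∈ kerT pr, χ (g * t) = 0 := by
      rw [sub_mul, one_mul, ← h3, sub_self]
    exact (mul_eq_zero.mp h4).resolve_left (sub_ne_zero.mpr (hpow m))
  have hlift : ∀ t : ClassGroup (𝓞 K), ∃ z : 𝒱, residue 𝒱 z = χ (g * t) := fun t =>
    residue_surjective _
  choose z hz using hlift
  set σ : 𝒱 := ∑ t ∈ kerT pr, z t with hσ
  have hσ0 : residue 𝒱 σ = 0 := by
    rw [hσ, map_sum, ← hsum]
    exact Finset.sum_congr rfl fun t _ => hz t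
  refine ⟨fun t => ((z t - (if t = t₀ then σ else 0) : 𝒱) : ℂ), fun t _ => ?_, ?_⟩
  · refine ⟨SetLike.coe_mem _, ?_⟩
    rw [← hz t]
    change residue 𝒱 (z t - if t = t₀ then σ else 0) = _
    rw [map_sub]
    split_ifs
    · rw [hσ0, sub_zero]
    · rw [map_zero, sub_zero]
  · have h3 : ∑ t ∈ kerT pr, (z t - (if t = t₀ then σ else 0)) = (0 : 𝒱) := by
      rw [Finset.sum_sub_distrib, Finset.sum_ite_eq', if_pos ht₀k, ← hσ, sub_self]
    have h4 := congrArg (Subtype.val : 𝒱 → ℂ) h3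
    rw [← ValuationSubring.subtype_apply, map_sum, ← ValuationSubring.subtype_apply, map_zero] at h4
    exact h4

/-- **Reduction of the theta combination.** -/
theorem isRed_DF (D : IsQ K N s) (h2 : (2 : ResidueField 𝒱) = 0) (g b : ClassGroup (𝓞 K))
    {Q₁ Q₂ : ℕ} (hQ₁ : Odd Q₁) (hQ₂ : Odd Q₂) {ct : ClassGroup (𝓞 K) → ℂ}
    (hct : ∀ t ∈ kerT pr, IsR 𝒱 (ct t) (χ (g * t))) (hsum : ∑ t ∈ kerT pr, ct t = 0) :
    IsRed 𝒱 (qCoeff (DF D g b Q₁ Q₂ (kerT pr) ct)) (fun n => (Ft χ pr Q₁ n).coeff (pr g)) := by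
  classical
  intro n
  rw [qCoeff_DF D g b _ ct hQ₁.pos hQ₂.pos]
  rcases eq_or_ne n 0 with rfl | hn
  · have h3 : ∀ t ∈ kerT pr, ct t * (repc D (g * t) b Q₁ Q₂ (4 * 0) : ℂ) = ct t := by
      intro t _
      rw [mul_zero, repc_zero D _ _ hQ₁ hQ₂, Nat.cast_one, mul_one]
    rw [Finset.sum_congr rfl h3, hsum, mul_zero]
    simp only [Ft]
    rw [if_neg (fun h => h.2 rfl)]
    exact IsR.zero
  · choose! κ hκ using fun t (_ : t ∈ kerT pr) => repc_mod4 D (g * t) b hQ₁ hQ₂ hn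
    set B : ℕ := if Q₂ ∣ n then rc (K := K) b (n / Q₂) else 0 with hB
    set r : ClassGroup (𝓞 K) → ℕ := fun t => if Q₁ ∣ n then rc (K := K) (g * t) (n / Q₁) else 0
      with hr
    have h3 : (1 / 2 : ℂ) * ∑ t ∈ kerT pr, ct t * (repc D (g * t) b Q₁ Q₂ (4 * n) : ℂ) =
        ∑ t ∈ kerT pr, ct t * ((r t + 2 * κ t : ℕ) : ℂ) := by
      have h4 : ∀ t ∈ kerT pr, ct t * (repc D (g * t) b Q₁ Q₂ (4 * n) : ℂ) =
          2 * (ct t * ((r t + 2 * κ t : ℕ) : ℂ)) + 2 * B * ct t := by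
        intro t ht
        have h5 : repc D (g * t) b Q₁ Q₂ (4 * n) = 2 * r t + 2 * B + 4 * κ t := hκ t ht
        rw [h5]
        push_cast
        ring
      rw [Finset.sum_congr rfl h4, Finset.sum_add_distrib, ← Finset.mul_sum, ← Finset.mul_sum,
        hsum]
      ring
    rw [h3]
    have h5 : IsR 𝒱 (∑ t ∈ kerT pr, ct t * ((r t + 2 * κ t : ℕ) : ℂ))
        (∑ t ∈ kerT pr, χ (g * t) * ((r t + 2 * κ t : ℕ) : ResidueField 𝒱)) :=
      IsR.sum _ fun t ht => (hct t ht).mul (isR_natCast _)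
    convert h5 using 1
    have h6 : ∀ t ∈ kerT pr, χ (g * t) * ((r t + 2 * κ t : ℕ) : ResidueField 𝒱) =
        χ (g * t) * (r t : ResidueField 𝒱) := by
      intro t _
      push_cast
      rw [h2, zero_mul, add_zero]
    rw [Finset.sum_congr rfl h6]
    simp only [Ft, hr]
    by_cases hd : Q₁ ∣ n
    · rw [if_pos ⟨hd, hn⟩, coeff_FF]
      refine Finset.sum_congr rfl fun t _ => ?_
      rw [if_pos hd]
    · rw [if_neg (fun h => hd h.1)]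
      symm
      apply Finset.sum_eq_zero
      intro t _
      rw [if_neg hd, Nat.cast_zero, mul_zero]

end red

end Fermat.Agent.TwoAdic.Rank
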