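import Fermat.Agent.TwoAdic.RankIdeal

/-!
# The field `K = ℚ(√-N)`, `N ≡ 2 mod 4` squarefree: ring of integers, norms, ramified primes
-/

set_option autoImplicit false

noncomputable section

namespace Fermat.Agent.TwoAdic.Rank

open NumberField Ideal Module
open scoped nonZeroDivisors

variable {K : Type*} [Field K] [NumberField K]

/-- `K = ℚ(√-N)`. -/
structure IsQ (K : Type*) [Field K] [NumberField K] (N : ℕ) (s : 𝓞 K) : Prop where
  rank : Module.finrank ℚ K = 2
  sq : s * s = -(N : 𝓞 K)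
  sqf : Squarefree N
  mod4 : N % 4 = 2

variable {N : ℕ} {s : 𝓞 K}

namespace IsQ

variable (D : IsQ K N s)

include D

theorem N_pos : 0 < N := Nat.pos_of_ne_zero D.sqf.ne_zero

theorem sqK : (s : K) * s = -(N : K) := by
  have h := congrArg (fun x : 𝓞 K => (x : K)) D.sq
  simpa using h

theorem not_rat (a : ℚ) : (s : K) ≠ algebraMap ℚ K a := by
  intro h
  have h1 := D.sqK
  rw [h, ← map_mul] at h1
  have h2 : algebraMap ℚ K (a * a) = algebraMap ℚ K (-(N : ℚ)) := by
    rw [h1]; simp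
  have h3 := (algebraMap ℚ K).injective h2
  have h4 : (0 : ℚ) < N := by exact_mod_cast D.N_pos
  nlinarith [mul_self_nonneg a]

theorem linInd : LinearIndependent ℚ ![(1 : K), (s : K)] := by
  rw [LinearIndependent.pair_iff]
  intro a b h
  have hb : b = 0 := by
    by_contra hb
    apply D.not_rat (-(a / b))
    have h1 : algebraMap ℚ K a + algebraMap ℚ K b * (s : K) = 0 := by
      rw [← h, Algebra.smul_def, Algebra.smul_def, mul_one]
    have hb' : algebraMap ℚ K b ≠ 0 := by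
      rw [Ne, map_eq_zero]; exact hb
    rw [map_neg, map_div₀]
    field_simp
    linear_combination h1
  subst hb
  rw [zero_smul, add_zero, smul_eq_zero] at h
  exact ⟨h.resolve_right one_ne_zero, rfl⟩

/-- The basis `1, s` of `K`. -/
def bQ : Basis (Fin 2) ℚ K :=
  basisOfLinearIndependentOfCardEqFinrank D.linInd (by rw [D.rank]; rfl)

theorem bQ0 : D.bQ 0 = 1 := by
  simp [bQ]

theorem bQ1 : D.bQ 1 = (s : K) := by
  simp [bQ]

theorem repr_bQ (a b : ℚ) (i : Fin 2) :
    D.bQ.repr (algebraMap ℚ K a + algebraMap ℚ K b * s) i = ![a, b] i := by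
  have h : algebraMap ℚ K a + algebraMap ℚ K b * (s : K) = a • D.bQ 0 + b • D.bQ 1 := by
    rw [D.bQ0, D.bQ1, Algebra.smul_def, Algebra.smul_def, mul_one]
  rw [h, map_add, map_smul, map_smul, Basis.repr_self, Basis.repr_self]
  fin_cases i <;> simp

theorem exists_coord (x : K) : ∃ a b : ℚ, x = algebraMap ℚ K a + algebraMap ℚ K b * s := by
  refine ⟨D.bQ.repr x 0, D.bQ.repr x 1, ?_⟩
  have h := D.bQ.sum_repr x
  rw [Fin.sum_univ_two, D.bQ0, D.bQ1, Algebra.smul_def, Algebra.smul_def, mul_one] at h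
  exact h.symm

theorem leftMul (a b : ℚ) :
    Algebra.leftMulMatrix D.bQ (algebraMap ℚ K a + algebraMap ℚ K b * s) =
      !![a, -(N * b); b, a] := by
  have hs := D.sqK
  have e : (algebraMap ℚ K a + algebraMap ℚ K b * s) * s =
      algebraMap ℚ K (-(N * b)) + algebraMap ℚ K a * (s : K) := by
    simp only [map_neg, map_mul, map_natCast]
    linear_combination algebraMap ℚ K b * hs
  ext i j
  rw [Algebra.leftMulMatrix_eq_repr_mul]
  fin_cases j
  · rw [Fin.zero_eta, D.bQ0, mul_one, D.repr_bQ]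
    fin_cases i <;> rfl
  · rw [Fin.mk_one, D.bQ1, e, D.repr_bQ]
    fin_cases i <;> rfl

theorem traceQ (a b : ℚ) :
    Algebra.trace ℚ K (algebraMap ℚ K a + algebraMap ℚ K b * s) = 2 * a := by
  rw [Algebra.trace_eq_matrix_trace D.bQ, D.leftMul, Matrix.trace_fin_two_of]
  ring

theorem normQ (a b : ℚ) :
    Algebra.norm ℚ (algebraMap ℚ K a + algebraMap ℚ K b * (s : K)) = a ^ 2 + N * b ^ 2 := by
  rw [Algebra.norm_eq_matrix_det D.bQ, D.leftMul, Matrix.det_fin_two_of]
  ring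

theorem exists_int (x : 𝓞 K) : ∃ m n : ℤ, x = m + n * s := by
  obtain ⟨a, b, hab⟩ := D.exists_coord (x : K)
  have ht : IsIntegral ℤ (Algebra.trace ℚ K (x : K)) := Algebra.isIntegral_trace x.2
  have hn : IsIntegral ℤ (Algebra.norm ℚ (x : K)) := Algebra.isIntegral_norm ℚ x.2
  rw [hab, D.traceQ] at ht
  rw [hab, D.normQ] at hn
  obtain ⟨A, hA⟩ := IsIntegrallyClosed.isIntegral_iff.mp ht
  obtain ⟨C, hC⟩ := IsIntegrallyClosed.isIntegral_iff.mp hn
  have hA' : (A : ℚ) = 2 * a := by simpa using hA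
  have hC' : (C : ℚ) = a ^ 2 + N * b ^ 2 := by simpa using hC
  -- `N * (2b)^2` is an integer
  have h1 : (N : ℚ) * (2 * b) ^ 2 = ((4 * C - A ^ 2 : ℤ) : ℚ) := by
    push_cast
    rw [hA', hC']
    ring
  obtain ⟨B, hB⟩ : ∃ B : ℤ, (B : ℚ) = 2 * b := by
    set c := 2 * b with hc
    have h2 : (N : ℤ) * c.num ^ 2 = (4 * C - A ^ 2) * (c.den : ℤ) ^ 2 := by
      have h3 : c * c.den = c.num := Rat.mul_den_eq_num c
      have h4 : ((N : ℤ) * c.num ^ 2 : ℚ) = (4 * C - A ^ 2) * (c.den : ℚ) ^ 2 := by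
        rw [← h3]
        push_cast at h1 ⊢
        linear_combination (c.den : ℚ) ^ 2 * h1
      exact_mod_cast h4
    have h5 : (c.den : ℤ) ^ 2 ∣ (N : ℤ) := by
      have h6 : IsCoprime ((c.den : ℤ) ^ 2) (c.num ^ 2) := by
        apply IsCoprime.pow
        rw [Int.isCoprime_iff_gcd_eq_one]
        have := c.reduced
        rw [Nat.Coprime, Nat.gcd_comm] at this
        simpa [Int.gcd] using this
      exact h6.dvd_of_dvd_mul_right ⟨_, h2.trans (mul_comm _ _)⟩
    have h6 : c.den * c.den ∣ N := by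
      rw [← pow_two]
      exact_mod_cast h5
    have h7 := Nat.isUnit_iff.mp (D.sqf _ h6)
    refine ⟨c.num, ?_⟩
    rw [← Rat.mul_den_eq_num c, h7]
    simp
  have h2 : (N : ℤ) * B ^ 2 = 4 * C - A ^ 2 := by
    have : ((N : ℤ) * B ^ 2 : ℚ) = 4 * C - A ^ 2 := by
      rw [hB]
      push_cast at h1 ⊢
      exact h1
    exact_mod_cast this
  have h4 := D.mod4
  obtain ⟨N', hN'⟩ : ∃ N' : ℤ, (N : ℤ) = 4 * N' + 2 := ⟨(N : ℤ) / 4, by omega⟩
  have hAe : Even A := by
    by_contra hAo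
    rw [Int.not_even_iff_odd] at hAo
    obtain ⟨A', rfl⟩ := hAo
    rw [hN'] at h2
    have : (2 : ℤ) ∣ 1 := ⟨2 * C - 2 * A' ^ 2 - 2 * A' - (2 * N' + 1) * B ^ 2, by
      linear_combination h2⟩
    omega
  obtain ⟨A', rfl⟩ := hAe
  have hBe : Even B := by
    by_contra hBo
    rw [Int.not_even_iff_odd] at hBo
    obtain ⟨B', rfl⟩ := hBo
    rw [hN'] at h2
    have : (4 : ℤ) ∣ 2 := ⟨C - A' ^ 2 - N' * (2 * B' + 1) ^ 2 - 2 * B' ^ 2 - 2 * B', by
      linear_combination h2⟩
    omega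
  obtain ⟨B', rfl⟩ := hBe
  have ha : a = A' := by
    push_cast at hA'
    linarith
  have hb : b = B' := by
    push_cast at hB
    linarith
  refine ⟨A', B', ?_⟩
  apply RingOfIntegers.ext
  rw [hab, ha, hb]
  simp

theorem int_unique {m n m' n' : ℤ} (h : (m + n * s : 𝓞 K) = m' + n' * s) : m = m' ∧ n = n' := by
  have h1 := congrArg (fun x : 𝓞 K => (x : K)) h
  have h2 : algebraMap ℚ K (m : ℚ) + algebraMap ℚ K (n : ℚ) * s =
      algebraMap ℚ K (m' : ℚ) + algebraMap ℚ K (n' : ℚ) * s := by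
    simpa using h1
  have h3 := D.repr_bQ m n 0
  have h4 := D.repr_bQ m n 1
  rw [h2, D.repr_bQ] at h3 h4
  constructor
  · have : (m' : ℚ) = m := by simpa using h3
    exact_mod_cast this.symm
  · have : (n' : ℚ) = n := by simpa using h4
    exact_mod_cast this.symm

theorem normZ (m n : ℤ) : Algebra.norm ℤ (m + n * s : 𝓞 K) = m ^ 2 + N * n ^ 2 := by
  have h1 := Algebra.coe_norm_int (m + n * s : 𝓞 K)
  have h2 : ((m + n * s : 𝓞 K) : K) = algebraMap ℚ K (m : ℚ) + algebraMap ℚ K (n : ℚ) * s := by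
    simp
  rw [h2, D.normQ] at h1
  exact_mod_cast h1

theorem absNorm_span (m n : ℤ) :
    (absNorm (span {(m + n * s : 𝓞 K)}) : ℤ) = m ^ 2 + N * n ^ 2 := by
  rw [absNorm_span_singleton, D.normZ, Int.natCast_natAbs, abs_of_nonneg]
  positivity

/-- units are `±1` -/
theorem unit_eq {x : 𝓞 K} (hx : IsUnit x) : x = 1 ∨ x = -1 := by
  obtain ⟨m, n, rfl⟩ := D.exists_int x
  have h1 := D.absNorm_span m n
  rw [Ideal.span_singleton_eq_top.mpr hx, absNorm_top] at h1
  have hN := D.mod4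
  have hn : n = 0 := by
    by_contra hn
    have h2 : 1 ≤ n ^ 2 := by
      have : 0 < n ^ 2 := by positivity
      omega
    have h3 : (2 : ℤ) ≤ N := by
      have := D.N_pos
      omega
    push_cast at h1
    nlinarith [sq_nonneg m]
  subst hn
  have h3 : m ^ 2 = 1 := by push_cast at h1; linarith
  have h5 : (m - 1) * (m + 1) = 0 := by linear_combination h3
  rcases mul_eq_zero.mp h5 with h4 | h4
  · left; rw [sub_eq_zero.mp h4]; simp
  · right; rw [eq_neg_of_add_eq_zero_left h4]; simp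

end IsQ

end Fermat.Agent.TwoAdic.Rank
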