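import Fermat.Agent.TwoAdic.RankMain2
import Fermat.Agent.TwoAdic.Hram

/-!
# The rank lower bound: final counting
-/

set_option autoImplicit false

noncomputable section

namespace Fermat.Agent.TwoAdic.Rank

open NumberField Ideal Module IsLocalRing
open UpperHalfPlane ModularForm CongruenceSubgroup Matrix.SpecialLinearGroup ModularFormClass
open Fermat.Agent.IntStr Fermat.Agent.Newform
open scoped MatrixGroups

variable {K : Type*} [Field K] [NumberField K] {N : ℕ} {s : 𝓞 K}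
variable {𝒱 : ValuationSubring ℂ} {G : Type*} [CommGroup G]
variable {χ : ClassGroup (𝓞 K) →* ResidueField 𝒱} {pr : ClassGroup (𝓞 K) →* G}
variable {Q : Finset ℕ} {m : ℕ}

/-- the newforms of level `levQ N Q` with the residual system -/
def newSet (χ : ClassGroup (𝓞 K) →* ResidueField 𝒱) (N : ℕ) (Q : Finset ℕ) :
    Set (CuspForm (Gamma0 (levQ N Q)) 2) := {g | g.IsNewform ∧ Good χ N Q (qCoeff g)}

/-- the ramification hypothesis -/
def HRam (χ : ClassGroup (𝓞 K) →* ResidueField 𝒱) (N : ℕ) (Q : Finset ℕ) : Prop :=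
  ∀ (M' : ℕ) (g : CuspForm (Gamma0 M') 2), M' ∣ levQ N Q → g.IsNewform →
    Good χ N Q (qCoeff g) → ∀ v, v.Prime → v ∣ N → v ≠ 2 → v ∣ M'

namespace RD

variable (R : RD N s χ pr Q m)

include R

theorem Ft_coprime {S : Finset ℕ} (hS : S ⊆ Q) {n : ℕ} (hn : n ≠ 0) :
    Ft χ pr (∏ q ∈ S, q) ((∏ q ∈ S, q) * n) = FF (psi χ pr) n := by
  have h0 := R.prod_ne_zero S hS
  rw [Ft, if_pos ⟨dvd_mul_right _ _, mul_ne_zero h0 hn⟩,
    Nat.mul_div_cancel_left _ (Nat.pos_of_ne_zero h0)]

theorem Ft_ne {S S' : Finset ℕ} (hS : S ⊆ Q) (hS' : S' ⊆ Q) (hne : S ≠ S') {n : ℕ} (hn : n ≠ 0)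
    (hnQ : ∀ q ∈ Q, ¬ q ∣ n) : Ft χ pr (∏ q ∈ S, q) ((∏ q ∈ S', q) * n) = 0 := by
  classical
  rw [Ft]
  split_ifs with h
  swap
  · rfl
  obtain ⟨hd, -⟩ := h
  -- `S ⊆ S'`
  have hsub : S ⊆ S' := by
    intro q hq
    have hqp := R.Qprime q (hS hq)
    have h1 : q ∣ (∏ q ∈ S', q) * n := ((R.prime_dvd_prod hS hqp).mpr hq).trans hd
    rcases hqp.dvd_mul.mp h1 with h2 | h2
    · exact (R.prime_dvd_prod hS' hqp).mp h2
    · exact absurd h2 (hnQ q (hS hq))
  obtain ⟨q, hq, hqS⟩ : ∃ q ∈ S', q ∉ S := by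
    by_contra hcon
    push Not at hcon
    exact hne (Finset.Subset.antisymm hsub hcon)
  have hqp := R.Qprime q (hS' hq)
  -- `∏ S' = ∏ S * (q * r)`
  have h1 : ∏ x ∈ S', x = (∏ x ∈ S, x) * (q * ∏ x ∈ (S' \ S).erase q, x) := by
    have e1 := Finset.mul_prod_erase (S' \ S) (fun x => x) (Finset.mem_sdiff.mpr ⟨hq, hqS⟩)
    rw [e1, mul_comm]
    exact (Finset.prod_sdiff hsub).symm
  set r := ∏ x ∈ (S' \ S).erase q, x with hr
  have hrS : (S' \ S).erase q ⊆ Q := (Finset.erase_subset _ _).trans (Finset.sdiff_subset.trans hS')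
  have h0 := R.prod_ne_zero S hS
  have h2 : (∏ x ∈ S', x) * n / ∏ x ∈ S, x = q * (r * n) := by
    rw [h1, mul_assoc, Nat.mul_div_cancel_left _ (Nat.pos_of_ne_zero h0), mul_assoc]
  rw [h2, FF_inert R.D.rank _ hqp (mul_ne_zero (R.prod_ne_zero _ hrS) hn) (R.inert (hS' hq)),
    if_neg]
  intro h3
  rcases hqp.dvd_mul.mp h3 with h4 | h4
  · rw [R.prime_dvd_prod hrS hqp] at h4
    simp at h4
  · exact hnQ q (hS' hq) h4

omit R in
theorem aug_list (w : List (Nat.Primes × ℂ)) (y : Nat.Primes × ℂ → ResidueField 𝒱)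
    (hw : ∀ a ∈ w, y a ≠ FF χ a.1) (hwQ : ∀ a ∈ w, (a.1 : ℕ) ∉ Q) :
    (w.map fun a => FF (psi χ pr) a.1 -
        algebraMap (ResidueField 𝒱) (MonoidAlgebra (ResidueField 𝒱) G) (y a)).prod ∈
      RR χ pr Q ∧ aug (ResidueField 𝒱) G (w.map fun a => FF (psi χ pr) a.1 -
        algebraMap (ResidueField 𝒱) (MonoidAlgebra (ResidueField 𝒱) G) (y a)).prod ≠ 0 := by
  induction w with
  | nil => simp [(RR χ pr Q).one_mem]
  | cons a w ih =>
    obtain ⟨h1, h2⟩ := ih (fun b hb => hw b (List.mem_cons_of_mem _ hb))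
      (fun b hb => hwQ b (List.mem_cons_of_mem _ hb))
    rw [List.map_cons, List.prod_cons]
    refine ⟨(RR χ pr Q).mul_mem ((RR χ pr Q).sub_mem (FF_mem_RR χ pr a.1.2
      (hwQ a List.mem_cons_self)) ((RR χ pr Q).algebraMap_mem _)) h1, ?_⟩
    rw [map_mul, map_sub, aug_FF, AlgHom.commutes]
    refine mul_ne_zero (sub_ne_zero.mpr fun h => ?_) h2
    exact hw a List.mem_cons_self h.symm

/-- **The forms in the span of the newforms.** -/
theorem exists_forms (hram : HRam χ N Q) : ∃ u ∈ RR χ pr Q, aug (ResidueField 𝒱) G u ≠ 0 ∧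
    ∀ (g : ClassGroup (𝓞 K)) (S : Finset ℕ), S ⊆ Q →
      ∃ f ∈ Submodule.span ℂ (newSet χ N Q),
        IsRed 𝒱 (qCoeff f) (Rx χ pr (∏ q ∈ S, q) (pr g) u) := by
  classical
  have : NeZero (levQ N Q) := ⟨R.lev_ne⟩
  obtain ⟨l, P, hl, hlN, hlQ, hP, hχP⟩ := R.exists_l0
  set W : Set (Nat.Primes × ℂ) := {x | ∃ y, IsR 𝒱 x.2 y ∧ y ≠ FF χ x.1} with hW
  have h2N : 2 ∣ N := by
    have := R.D.mod4
    omega
  obtain ⟨w, hwW, hw⟩ := exists_kill R.lev_sqf (insert 2 Q) (by
      intro v hv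
      rcases Finset.mem_insert.mp hv with rfl | h
      · exact ⟨Nat.prime_two, (R.dvd_lev Nat.prime_two).mpr (Or.inl h2N)⟩
      · exact ⟨R.Qprime v h, (R.dvd_lev (R.Qprime v h)).mpr (Or.inr h)⟩)
    (Good χ N Q) W (by
      intro M' g hM' hg hgood v hv hvM hvP
      rw [Finset.mem_insert] at hvP
      push Not at hvP
      rcases (R.dvd_lev hv).mp hvM with h | h
      · exact hram M' g hM' hg hgood v hv h hvP.1
      · exact absurd h hvP.2) (by
      intro M' g hM' hg hbad
      unfold Good at hbad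
      push Not at hbad
      obtain ⟨l, hl, hlM, hne⟩ := hbad
      have hM0 : NeZero M' := ⟨by rintro rfl; exact R.lev_ne (Nat.eq_zero_of_zero_dvd hM')⟩
      have hint : qCoeff g l ∈ 𝒱 :=
        mem_of_integral 𝒱 (Eigenform.isIntegral_qCoeff_prime hg.1 hl)
      refine ⟨⟨l, hl⟩, hlM, residue 𝒱 ⟨_, hint⟩, ⟨hint, rfl⟩, ?_⟩
      rintro h
      exact hne ⟨hint, h⟩)
  choose! y hy using fun a (ha : a ∈ W) => ha
  obtain ⟨huR, hu⟩ := aug_list (pr := pr) (Q := Q) w y (fun a ha => (hy a (hwW a ha).1).2)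
    (fun a ha h => (hwW a ha).2 ((R.dvd_lev a.1.2).mpr (Or.inr h)))
  set u := (w.map fun a => FF (psi χ pr) a.1 -
        algebraMap (ResidueField 𝒱) (MonoidAlgebra (ResidueField 𝒱) G) (y a)).prod with hudef
  refine ⟨u * FF (psi χ pr) l, (RR χ pr Q).mul_mem huR (FF_mem_RR χ pr hl hlQ), ?_, ?_⟩
  · rw [map_mul, aug_FF]
    exact mul_ne_zero hu (R.FF_l0 hl hlN hP hχP)
  · intro g S hS
    obtain ⟨f, hf, hfinv⟩ := R.exists_form g hS hl hlN hlQ
    refine ⟨_, hw f hfinv, ?_⟩
    exact R.red_list hf (fun q hq h => hS ((R.prime_dvd_prod hS hq).mp h)) w y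
      (fun a ha => ⟨(hy a (hwW a ha).1).1, (hwW a ha).2⟩)

/-- **(RANK)**, dimension form. -/
theorem le_finrank_span (hram : HRam χ N Q) :
    2 ^ Q.card * Module.finrank (ResidueField 𝒱) (RR χ pr Q) ≤
      Module.finrank ℂ (Submodule.span ℂ (newSet χ N Q)) := by
  classical
  have : NeZero (levQ N Q) := ⟨R.lev_ne⟩
  have : Finite G := Finite.of_surjective pr R.surj
  obtain ⟨u, huR, hu0, hforms⟩ := R.exists_forms hram
  obtain ⟨d, a, hd, ha⟩ := exists_functionals (χ := χ) (pr := pr) Q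
  choose g hg using fun i => R.surj (a i)
  choose! f hfspan hfred using hforms
  let J := Fin d × {S // S ∈ Q.powerset}
  have hJ : Fintype.card J = d * 2 ^ Q.card := by
    rw [Fintype.card_prod, Fintype.card_fin, Fintype.card_coe, Finset.card_powerset]
  have h1 := card_le_of_isRed (𝒱 := 𝒱) (Submodule.span ℂ (newSet χ N Q)) (coefLin (levQ N Q))
    (J := J) (fun j => f (g j.1) j.2.1)
    (fun j => hfspan _ _ (Finset.mem_powerset.mp j.2.2))
    (fun j => Rx χ pr (∏ q ∈ j.2.1, q) (a j.1) u)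
    (fun j => by
      have := hfred (g j.1) j.2.1 (Finset.mem_powerset.mp j.2.2)
      rw [hg] at this
      exact this) (by
      intro c hc
      -- fix `S'`
      have key : ∀ S' : {S // S ∈ Q.powerset}, ∀ x ∈ RR χ pr Q,
          ∑ i, c (i, S') * (u * x).coeff (a i) = 0 := by
        intro S' x hx
        have hS' := Finset.mem_powerset.mp S'.2
        have hx' := RR_le_span R.D R.two R.Qprime hx
        clear hx
        induction hx' using Submodule.span_induction with
        | zero => simp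
        | add x y _ _ hx hy =>
          have e : ∀ i, c (i, S') * (u * (x + y)).coeff (a i) =
              c (i, S') * (u * x).coeff (a i) + c (i, S') * (u * y).coeff (a i) := by
            intro i
            rw [mul_add, MonoidAlgebra.coeff_add, Finsupp.add_apply, mul_add]
          simp only [e]
          rw [Finset.sum_add_distrib, hx, hy, add_zero]
        | smul b x _ hx =>
          have e : ∀ i, c (i, S') * (u * (b • x)).coeff (a i) =
              b * (c (i, S') * (u * x).coeff (a i)) := by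
            intro i
            rw [mul_smul_comm, MonoidAlgebra.coeff_smul, Finsupp.smul_apply, smul_eq_mul]
            ring
          simp only [e]
          rw [← Finset.mul_sum, hx, mul_zero]
        | mem x hx =>
          obtain ⟨n, hn, hnQ, rfl⟩ := hx
          have h2 := hc ((∏ q ∈ S'.1, q) * n)
          rw [Fintype.sum_prod_type] at h2
          rw [← h2]
          refine Finset.sum_congr rfl fun i _ => ?_
          rw [Finset.sum_eq_single S']
          · simp only [Rx]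
            rw [R.Ft_coprime hS' hn]
          · intro S _ hne
            simp only [Rx]
            rw [R.Ft_ne (Finset.mem_powerset.mp S.2) hS' (fun h => hne (Subtype.ext h)) hn hnQ,
              mul_zero]
            simp
          · intro h; exact absurd (Finset.mem_univ _) h
      rintro ⟨i, S'⟩
      refine ha (fun i => c (i, S')) (fun y hy => ?_) i
      obtain ⟨z, hz, rfl⟩ := exists_mul_eq R.two R.pG huR hu0 hy
      exact key S' z hz)
  rw [hJ] at h1
  calc 2 ^ Q.card * Module.finrank (ResidueField 𝒱) (RR χ pr Q) ≤ 2 ^ Q.card * d :=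
        Nat.mul_le_mul_left _ hd
    _ = d * 2 ^ Q.card := mul_comm _ _
    _ ≤ _ := h1

/-- **(RANK)** -/
theorem rank (hram : HRam χ N Q) : ∃ 𝓕 : Finset (CuspForm (Gamma0 (levQ N Q)) 2),
    (∀ f ∈ 𝓕, f.IsNewform ∧ Good χ N Q (qCoeff f)) ∧
      2 ^ Q.card * Nat.card (HH χ pr N Q) ≤ 𝓕.card := by
  classical
  have : NeZero (levQ N Q) := ⟨R.lev_ne⟩
  have : Finite G := Finite.of_surjective pr R.surj
  obtain ⟨B, hBs, hBspan, hBli⟩ := exists_linearIndependent ℂ (newSet χ N Q)
  have hfin : B.Finite := hBli.setFinite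
  refine ⟨hfin.toFinset, fun f hf => hBs (hfin.mem_toFinset.mp hf), ?_⟩
  have h1 := R.le_finrank_span hram
  have h2 : Module.finrank ℂ (Submodule.span ℂ (newSet χ N Q)) = hfin.toFinset.card := by
    have : Fintype B := hfin.fintype
    rw [← hBspan, finrank_span_set_eq_card hBli]
    congr 1
    ext x
    simp
  rw [h2] at h1
  exact (Nat.mul_le_mul_left _ (card_HH_le R.D R.two R.χ3 R.pG Q)).trans h1

end RD

end Fermat.Agent.TwoAdic.Rank
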