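import Mathlib

/-!
# Ideals of given norm in a quadratic field (2-adic route, block E2-E4)

`FF Ψ n = ∑_{N I = n} Ψ([I])` for a character `Ψ` of the class group with values in a commutative
ring, and its Hecke relations.
-/

set_option autoImplicit false

noncomputable section

namespace Fermat.Agent.TwoAdic.Rank

open NumberField Ideal
open scoped nonZeroDivisors

variable {K : Type*} [Field K] [NumberField K]

/-- The class of an ideal (`1` for the zero ideal). -/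
def cl (I : Ideal (𝓞 K)) : ClassGroup (𝓞 K) :=
  open Classical in
  if h : I ≠ ⊥ then ClassGroup.mk0 ⟨I, mem_nonZeroDivisors_of_ne_zero h⟩ else 1

theorem cl_of_ne {I : Ideal (𝓞 K)} (h : I ≠ ⊥) :
    cl I = ClassGroup.mk0 ⟨I, mem_nonZeroDivisors_of_ne_zero h⟩ := by
  rw [cl, dif_pos h]

theorem cl_mul {I J : Ideal (𝓞 K)} (hI : I ≠ ⊥) (hJ : J ≠ ⊥) : cl (I * J) = cl I * cl J := by
  have h : I * J ≠ ⊥ := mul_ne_zero hI hJ
  rw [cl_of_ne hI, cl_of_ne hJ, cl_of_ne h, ← map_mul]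
  rfl

theorem cl_eq_one_iff {I : Ideal (𝓞 K)} (hI : I ≠ ⊥) : cl I = 1 ↔ I.IsPrincipal := by
  rw [cl_of_ne hI]
  exact ClassGroup.mk0_eq_one_iff _

theorem cl_span (x : 𝓞 K) : cl (span {x}) = 1 := by
  by_cases h : (span {x} : Ideal (𝓞 K)) = ⊥
  · rw [cl, dif_neg (by simpa using h)]
  · rw [cl_eq_one_iff h]
    exact ⟨⟨x, rfl⟩⟩

theorem cl_top : cl (⊤ : Ideal (𝓞 K)) = 1 := by
  rw [← Ideal.span_singleton_one]
  exact cl_span 1

theorem cl_surj (c : ClassGroup (𝓞 K)) : ∃ I : Ideal (𝓞 K), I ≠ ⊥ ∧ cl I = c := by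
  obtain ⟨⟨I, hI⟩, h⟩ := ClassGroup.mk0_surjective c
  have hI' : I ≠ ⊥ := nonZeroDivisors.ne_zero hI
  exact ⟨I, hI', by rw [cl_of_ne hI', h]⟩

/-- The ideals of norm `n`. -/
def idN (n : ℕ) : Finset (Ideal (𝓞 K)) := (Ideal.finite_setOfPred_absNorm_eq n).toFinset

@[simp] theorem mem_idN {n : ℕ} {I : Ideal (𝓞 K)} : I ∈ idN n ↔ absNorm I = n := by
  simp [idN]

theorem ne_bot_of_norm {I : Ideal (𝓞 K)} (h : absNorm I ≠ 0) : I ≠ ⊥ := by
  rintro rfl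
  exact h (by simp)

theorem idN_one : idN (K := K) 1 = {⊤} := by
  ext I
  rw [mem_idN, absNorm_eq_one_iff, Finset.mem_singleton]

theorem exists_prime_over {J : Ideal (𝓞 K)} {ℓ : ℕ} (hℓ : ℓ.Prime) (h : ℓ ∣ absNorm J)
    (hJ : absNorm J ≠ 0) : ∃ P : Ideal (𝓞 K), P.IsPrime ∧ J ≤ P ∧ (ℓ : 𝓞 K) ∈ P := by
  by_contra hcon
  push Not at hcon
  have htop : J ⊔ span {(ℓ : 𝓞 K)} = ⊤ := by
    by_contra hne
    obtain ⟨P, hP, hle⟩ := Ideal.exists_le_maximal _ hne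
    exact hcon P hP.isPrime (le_sup_left.trans hle)
      (hle (Ideal.mem_sup_right (Ideal.mem_span_singleton_self _)))
  have h1 : (1 : 𝓞 K) ∈ J ⊔ span {(ℓ : 𝓞 K)} := by rw [htop]; trivial
  obtain ⟨j, hj, y, hy, hjy⟩ := Submodule.mem_sup.mp h1
  obtain ⟨r, rfl⟩ := Ideal.mem_span_singleton'.mp hy
  have hcard : Nat.card (𝓞 K ⧸ J) = absNorm J := rfl
  have hfin : Finite (𝓞 K ⧸ J) := Nat.finite_of_card_ne_zero (by rw [hcard]; exact hJ)
  have : Fact ℓ.Prime := ⟨hℓ⟩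
  have : Fintype (𝓞 K ⧸ J) := Fintype.ofFinite _
  obtain ⟨x, hx⟩ := exists_prime_addOrderOf_dvd_card (G := 𝓞 K ⧸ J) ℓ
    (by rw [← Nat.card_eq_fintype_card, hcard]; exact h)
  have h2 : (ℓ : 𝓞 K ⧸ J) * x = 0 := by
    rw [← nsmul_eq_mul, ← hx]
    exact addOrderOf_nsmul_eq_zero x
  have h3 : (Ideal.Quotient.mk J r) * (ℓ : 𝓞 K ⧸ J) = 1 := by
    have h4 := congrArg (Ideal.Quotient.mk J) hjy
    rw [map_add, Ideal.Quotient.eq_zero_iff_mem.mpr hj, zero_add, map_mul, map_one,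
      map_natCast] at h4
    exact h4
  have h4 : x = 0 := by
    rw [← one_mul x, ← h3, mul_assoc, h2, mul_zero]
  rw [h4, addOrderOf_zero] at hx
  exact hℓ.one_lt.ne hx

section quadratic

variable (hK : Module.finrank ℚ K = 2)

include hK

theorem absNorm_span_nat (m : ℕ) : absNorm (span {(m : 𝓞 K)}) = m ^ 2 := by
  rw [absNorm_span_singleton]
  have h1 : ((m : ℕ) : 𝓞 K) = algebraMap ℤ (𝓞 K) (m : ℤ) := by simp
  rw [h1, Algebra.norm_algebraMap, RingOfIntegers.rank, hK, Int.natAbs_pow, Int.natAbs_natCast]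

theorem span_nat_ne_bot {m : ℕ} (hm : m ≠ 0) : (span {(m : 𝓞 K)} : Ideal (𝓞 K)) ≠ ⊥ := by
  apply ne_bot_of_norm
  rw [absNorm_span_nat hK]
  positivity

theorem exists_factor {ℓ : ℕ} (hℓ : ℓ.Prime) {P : Ideal (𝓞 K)} (hP : absNorm P = ℓ) :
    ∃ P', P * P' = span {(ℓ : 𝓞 K)} ∧ absNorm P' = ℓ := by
  have h1 : (span {(ℓ : 𝓞 K)} : Ideal (𝓞 K)) ≤ P := by
    rw [Ideal.span_singleton_le_iff_mem, ← hP]
    exact absNorm_mem P
  obtain ⟨P', hP'⟩ := Ideal.dvd_iff_le.mpr h1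
  refine ⟨P', hP'.symm, ?_⟩
  have h2 := congrArg absNorm hP'
  rw [absNorm_span_nat hK, map_mul, hP, sq] at h2
  exact (mul_left_cancel₀ hℓ.ne_zero h2).symm

omit hK in
theorem isPrime_of_norm {ℓ : ℕ} (hℓ : ℓ.Prime) {P : Ideal (𝓞 K)} (hP : absNorm P = ℓ) :
    P.IsPrime := isPrime_of_irreducible_absNorm (by rw [hP]; exact hℓ)

omit hK in
theorem prime_of_norm {ℓ : ℕ} (hℓ : ℓ.Prime) {P : Ideal (𝓞 K)} (hP : absNorm P = ℓ) :
    Prime P :=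
  Ideal.prime_of_isPrime (ne_bot_of_norm (by rw [hP]; exact hℓ.ne_zero)) (isPrime_of_norm hℓ hP)

theorem norm_prime_over {ℓ : ℕ} (hℓ : ℓ.Prime) {P : Ideal (𝓞 K)} (hP : P.IsPrime)
    (hℓP : (ℓ : 𝓞 K) ∈ P) : absNorm P = ℓ ∨ P = span {(ℓ : 𝓞 K)} := by
  have h1 : (span {(ℓ : 𝓞 K)} : Ideal (𝓞 K)) ≤ P := by
    rwa [Ideal.span_singleton_le_iff_mem]
  obtain ⟨P', hP'⟩ := Ideal.dvd_iff_le.mpr h1
  have h2 := congrArg absNorm hP'
  rw [absNorm_span_nat hK, map_mul] at h2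
  have h3 : absNorm P ∣ ℓ ^ 2 := Dvd.intro _ h2.symm
  obtain ⟨i, hi, h4⟩ := (Nat.dvd_prime_pow hℓ).mp h3
  interval_cases i
  · rw [pow_zero, absNorm_eq_one_iff] at h4
    exact absurd h4 hP.ne_top
  · left; rw [h4, pow_one]
  · right
    rw [h4] at h2
    have h5 : absNorm P' = 1 := by
      have : 0 < ℓ ^ 2 := pow_pos hℓ.pos 2
      nlinarith [Nat.eq_of_mul_eq_mul_left this (h2.symm.trans (mul_one _).symm)]
    rw [absNorm_eq_one_iff] at h5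
    rw [hP', h5, Ideal.mul_top]

theorem inert_isPrime {ℓ : ℕ} (hℓ : ℓ.Prime) (h : ∀ P : Ideal (𝓞 K), absNorm P ≠ ℓ) :
    (span {(ℓ : 𝓞 K)} : Ideal (𝓞 K)).IsPrime := by
  have h1 : (span {(ℓ : 𝓞 K)} : Ideal (𝓞 K)) ≠ ⊤ := by
    intro h2
    have h3 := absNorm_span_nat hK ℓ
    rw [h2, absNorm_top] at h3
    have := Nat.one_lt_pow two_ne_zero hℓ.one_lt
    omega
  obtain ⟨P, hP, hle⟩ := Ideal.exists_le_maximal _ h1
  rcases norm_prime_over hK hℓ hP.isPrime (hle (mem_span_singleton_self _)) with h2 | h2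
  · exact absurd h2 (h P)
  · rw [← h2]; exact hP.isPrime

theorem dvd_of_dvd_norm {ℓ : ℕ} (hℓ : ℓ.Prime) {P P' : Ideal (𝓞 K)} (hP : absNorm P = ℓ)
    (hP' : absNorm P' = ℓ) (h : P * P' = span {(ℓ : 𝓞 K)}) {J : Ideal (𝓞 K)}
    (hJ : ℓ ∣ absNorm J) (hJ0 : absNorm J ≠ 0) : P ∣ J ∨ P' ∣ J := by
  obtain ⟨R, hR, hJR, hℓR⟩ := exists_prime_over hℓ hJ hJ0
  have h1 : P * P' ≤ R := by
    rw [h, Ideal.span_singleton_le_iff_mem]; exact hℓR
  rcases (Ideal.IsPrime.mul_le hR).mp h1 with h2 | h2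
  · left
    have h3 : P.IsMaximal := (isPrime_of_norm hℓ hP).isMaximal
      (ne_bot_of_norm (by rw [hP]; exact hℓ.ne_zero))
    rw [Ideal.dvd_iff_le, h3.eq_of_le hR.ne_top h2]
    exact hJR
  · right
    have h3 : P'.IsMaximal := (isPrime_of_norm hℓ hP').isMaximal
      (ne_bot_of_norm (by rw [hP']; exact hℓ.ne_zero))
    rw [Ideal.dvd_iff_le, h3.eq_of_le hR.ne_top h2]
    exact hJR

theorem inert_dvd {ℓ : ℕ} (hℓ : ℓ.Prime) (h : ∀ P : Ideal (𝓞 K), absNorm P ≠ ℓ)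
    {J : Ideal (𝓞 K)} (hJ : ℓ ∣ absNorm J) (hJ0 : absNorm J ≠ 0) :
    span {(ℓ : 𝓞 K)} ∣ J := by
  obtain ⟨R, hR, hJR, hℓR⟩ := exists_prime_over hℓ hJ hJ0
  rcases norm_prime_over hK hℓ hR hℓR with h2 | h2
  · exact absurd h2 (h R)
  · rw [← h2, Ideal.dvd_iff_le]; exact hJR

variable {A : Type*} [CommRing A] (Ψ : ClassGroup (𝓞 K) →* A)

omit hK in
/-- `∑_{N I = n} Ψ([I])` -/
def FF (n : ℕ) : A := ∑ I ∈ idN (K := K) n, Ψ (cl I)

omit hK in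
theorem FF_one : FF Ψ 1 = 1 := by
  rw [FF, idN_one, Finset.sum_singleton, cl_top, map_one]

omit hK in
theorem mul_inj {P : Ideal (𝓞 K)} (hP : P ≠ ⊥) : Function.Injective (P * ·) :=
  mul_right_injective₀ hP

omit hK in
theorem sum_image {P : Ideal (𝓞 K)} (hP : P ≠ ⊥) {n : ℕ} (hn : n ≠ 0) :
    ∑ I ∈ (idN (K := K) n).image (P * ·), Ψ (cl I) = Ψ (cl P) * FF Ψ n := by
  classical
  rw [Finset.sum_image (fun a _ b _ hab => mul_inj hP hab), FF, Finset.mul_sum]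
  refine Finset.sum_congr rfl fun I hI => ?_
  rw [mem_idN] at hI
  rw [cl_mul hP (ne_bot_of_norm (by rw [hI]; exact hn)), map_mul]

theorem image_union {ℓ n : ℕ} (hℓ : ℓ.Prime) (hn : n ≠ 0) {P P' : Ideal (𝓞 K)}
    (hP : absNorm P = ℓ) (hP' : absNorm P' = ℓ) (h : P * P' = span {(ℓ : 𝓞 K)}) :
    (idN (K := K) n).image (P * ·) ∪ (idN (K := K) n).image (P' * ·) = idN (ℓ * n) := by
  classical
  ext J
  simp only [Finset.mem_union, Finset.mem_image, mem_idN]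
  constructor
  · rintro (⟨I, hI, rfl⟩ | ⟨I, hI, rfl⟩)
    · rw [map_mul, hP, hI]
    · rw [map_mul, hP', hI]
  · intro hJ
    have h0 : absNorm J ≠ 0 := by rw [hJ]; exact mul_ne_zero hℓ.ne_zero hn
    rcases dvd_of_dvd_norm hK hℓ hP hP' h (by rw [hJ]; exact dvd_mul_right _ _) h0 with
      ⟨I, rfl⟩ | ⟨I, rfl⟩
    · left
      refine ⟨I, ?_, rfl⟩
      rw [map_mul, hP] at hJ
      exact mul_left_cancel₀ hℓ.ne_zero hJ
    · right
      refine ⟨I, ?_, rfl⟩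
      rw [map_mul, hP'] at hJ
      exact mul_left_cancel₀ hℓ.ne_zero hJ

/-- Split primes. -/
theorem FF_split {ℓ n : ℕ} (hℓ : ℓ.Prime) (hn : n ≠ 0) {P P' : Ideal (𝓞 K)}
    (hP : absNorm P = ℓ) (hP' : absNorm P' = ℓ) (h : P * P' = span {(ℓ : 𝓞 K)}) (hne : P ≠ P') :
    FF Ψ (ℓ * n) + (if ℓ ∣ n then FF Ψ (n / ℓ) else 0) = (Ψ (cl P) + Ψ (cl P')) * FF Ψ n := by
  classical
  have hP0 : P ≠ ⊥ := ne_bot_of_norm (by rw [hP]; exact hℓ.ne_zero)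
  have hP0' : P' ≠ ⊥ := ne_bot_of_norm (by rw [hP']; exact hℓ.ne_zero)
  have h1 := Finset.sum_union_inter (s₁ := (idN (K := K) n).image (P * ·))
    (s₂ := (idN (K := K) n).image (P' * ·)) (f := fun I => Ψ (cl I))
  rw [image_union hK hℓ hn hP hP' h, sum_image Ψ hP0 hn, sum_image Ψ hP0' hn, ← add_mul] at h1
  rw [← h1]
  congr 1
  have hdvd : ∀ J, P ∣ J → P' ∣ J → span {(ℓ : 𝓞 K)} ∣ J := by
    rintro J ⟨I, rfl⟩ h2
    have h3 : P' ∣ I := by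
      refine ((prime_of_norm hℓ hP').dvd_or_dvd h2).resolve_left fun h4 => hne ?_
      have h5 := (isPrime_of_norm hℓ hP).isMaximal hP0
      exact h5.eq_of_le (isPrime_of_norm hℓ hP').ne_top (Ideal.dvd_iff_le.mp h4)
    obtain ⟨I', rfl⟩ := h3
    rw [← mul_assoc, h]
    exact dvd_mul_right _ _
  split_ifs with hd
  · obtain ⟨m, rfl⟩ := hd
    rw [Nat.mul_div_cancel_left _ hℓ.pos]
    have hm : m ≠ 0 := fun h0 => hn (by rw [h0, mul_zero])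
    have h2 := sum_image Ψ (span_nat_ne_bot hK hℓ.ne_zero) hm
    rw [cl_span, map_one, one_mul] at h2
    rw [← h2]
    refine Finset.sum_congr ?_ fun _ _ => rfl
    ext J
    simp only [Finset.mem_inter, Finset.mem_image, mem_idN]
    constructor
    · rintro ⟨I, hI, rfl⟩
      refine ⟨⟨P' * I, by rw [map_mul, hP', hI], by rw [← mul_assoc, h]⟩,
        ⟨P * I, by rw [map_mul, hP, hI], ?_⟩⟩
      rw [← mul_assoc, mul_comm P' P, h]
    · rintro ⟨⟨I, hI, rfl⟩, ⟨I', hI', h4⟩⟩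
      obtain ⟨R, hR⟩ := hdvd (P * I) (dvd_mul_right _ _) (h4 ▸ dvd_mul_right _ _)
      refine ⟨R, ?_, hR.symm⟩
      have h5 := congrArg absNorm hR
      rw [map_mul, map_mul, hP, hI, absNorm_span_nat hK] at h5
      have h6 : 0 < ℓ * ℓ := Nat.mul_pos hℓ.pos hℓ.pos
      apply Nat.eq_of_mul_eq_mul_left h6
      rw [← sq, ← h5, sq, mul_assoc]
  · symm
    apply Finset.sum_eq_zero
    intro J hJ
    exfalso
    simp only [Finset.mem_inter, Finset.mem_image, mem_idN] at hJ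
    obtain ⟨⟨I, hI, rfl⟩, ⟨I', hI', h4⟩⟩ := hJ
    obtain ⟨R, hR⟩ := hdvd (P * I) (dvd_mul_right _ _) (h4 ▸ dvd_mul_right _ _)
    have h5 := congrArg absNorm hR
    rw [map_mul, map_mul, hP, hI, absNorm_span_nat hK, sq, mul_assoc] at h5
    exact hd ⟨absNorm R, mul_left_cancel₀ hℓ.ne_zero h5⟩

/-- Inert primes. -/
theorem FF_inert {ℓ n : ℕ} (hℓ : ℓ.Prime) (hn : n ≠ 0) (h : ∀ P : Ideal (𝓞 K), absNorm P ≠ ℓ) :
    FF Ψ (ℓ * n) = if ℓ ∣ n then FF Ψ (n / ℓ) else 0 := by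
  classical
  split_ifs with hd
  · obtain ⟨m, rfl⟩ := hd
    rw [Nat.mul_div_cancel_left _ hℓ.pos]
    have hm : m ≠ 0 := fun h0 => hn (by rw [h0, mul_zero])
    have h2 := sum_image Ψ (span_nat_ne_bot hK hℓ.ne_zero) hm
    rw [cl_span, map_one, one_mul] at h2
    rw [← h2, FF]
    refine Finset.sum_congr ?_ fun _ _ => rfl
    ext J
    simp only [Finset.mem_image, mem_idN]
    constructor
    · intro hJ
      obtain ⟨R, rfl⟩ := inert_dvd hK hℓ h (J := J) (by rw [hJ]; exact dvd_mul_right _ _)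
        (by rw [hJ]; exact mul_ne_zero hℓ.ne_zero hn)
      refine ⟨R, ?_, rfl⟩
      rw [map_mul, absNorm_span_nat hK] at hJ
      have h6 : 0 < ℓ ^ 2 := pow_pos hℓ.pos 2
      apply Nat.eq_of_mul_eq_mul_left h6
      rw [hJ, sq, mul_assoc]
    · rintro ⟨R, hR, rfl⟩
      rw [map_mul, absNorm_span_nat hK, hR, sq, mul_assoc]
  · apply Finset.sum_eq_zero
    intro J hJ
    exfalso
    rw [mem_idN] at hJ
    obtain ⟨R, rfl⟩ := inert_dvd hK hℓ h (J := J) (by rw [hJ]; exact dvd_mul_right _ _)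
      (by rw [hJ]; exact mul_ne_zero hℓ.ne_zero hn)
    rw [map_mul, absNorm_span_nat hK, sq, mul_assoc] at hJ
    exact hd ⟨absNorm R, (mul_left_cancel₀ hℓ.ne_zero hJ).symm⟩

/-- Ramified primes. -/
theorem FF_ram {ℓ n : ℕ} (hℓ : ℓ.Prime) (hn : n ≠ 0) {P : Ideal (𝓞 K)}
    (hP : absNorm P = ℓ) (h : P * P = span {(ℓ : 𝓞 K)}) :
    FF Ψ (ℓ * n) = Ψ (cl P) * FF Ψ n := by
  classical
  have h1 := image_union hK hℓ hn hP hP h
  rw [Finset.union_idempotent] at h1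
  rw [FF, ← h1, sum_image Ψ (ne_bot_of_norm (by rw [hP]; exact hℓ.ne_zero)) hn]

theorem FF_prime_split {ℓ : ℕ} (hℓ : ℓ.Prime) {P P' : Ideal (𝓞 K)}
    (hP : absNorm P = ℓ) (hP' : absNorm P' = ℓ) (h : P * P' = span {(ℓ : 𝓞 K)}) (hne : P ≠ P') :
    FF Ψ ℓ = Ψ (cl P) + Ψ (cl P') := by
  have h1 := FF_split hK Ψ hℓ one_ne_zero hP hP' h hne
  rw [if_neg (fun h2 => hℓ.one_lt.ne' (Nat.dvd_one.mp h2)), FF_one, mul_one, mul_one,
    add_zero] at h1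
  exact h1

theorem FF_prime_inert {ℓ : ℕ} (hℓ : ℓ.Prime) (h : ∀ P : Ideal (𝓞 K), absNorm P ≠ ℓ) :
    FF Ψ ℓ = 0 := by
  have h1 := FF_inert hK Ψ hℓ one_ne_zero h
  rw [if_neg (fun h2 => hℓ.one_lt.ne' (Nat.dvd_one.mp h2)), mul_one] at h1
  exact h1

theorem FF_prime_ram {ℓ : ℕ} (hℓ : ℓ.Prime) {P : Ideal (𝓞 K)}
    (hP : absNorm P = ℓ) (h : P * P = span {(ℓ : 𝓞 K)}) : FF Ψ ℓ = Ψ (cl P) := by
  have h1 := FF_ram hK Ψ hℓ one_ne_zero hP h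
  rw [FF_one, mul_one, mul_one] at h1
  exact h1

/-- The classes of the two primes above a split prime are inverse to each other. -/
theorem cl_conj {ℓ : ℕ} (hℓ : ℓ.Prime) {P P' : Ideal (𝓞 K)}
    (hP : absNorm P = ℓ) (hP' : absNorm P' = ℓ) (h : P * P' = span {(ℓ : 𝓞 K)}) :
    cl P' = (cl P)⁻¹ := by
  have hP0 : P ≠ ⊥ := ne_bot_of_norm (by rw [hP]; exact hℓ.ne_zero)
  have hP0' : P' ≠ ⊥ := ne_bot_of_norm (by rw [hP']; exact hℓ.ne_zero)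
  have h1 := cl_mul hP0 hP0'
  rw [h, cl_span] at h1
  exact (inv_eq_of_mul_eq_one_right h1.symm).symm

end quadratic

end Fermat.Agent.TwoAdic.Rank
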