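import Fermat.Agent.TwoAdic.RankRed
import Fermat.Agent.TwoAdic.FormLem

/-!
# The lattice of theta forms and its reduction
-/

set_option autoImplicit false

noncomputable section

namespace Fermat.Agent.TwoAdic.Rank

open NumberField Ideal Module IsLocalRing
open UpperHalfPlane ModularForm CongruenceSubgroup Matrix.SpecialLinearGroup ModularFormClass
open Fermat.Agent.IntStr
open scoped MatrixGroups

variable {K : Type*} [Field K] [NumberField K] {N : ℕ} {s : 𝓞 K}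

/-- `rep` is symmetric -/
theorem rep_comm (Q al be ga Q' al' be' ga' : ℤ) (n : ℕ) :
    rep Q al be ga Q' al' be' ga' n = rep Q' al' be' ga' Q al be ga n := by
  unfold rep
  refine Nat.card_congr ((Equiv.prodComm _ _).subtypeEquiv fun p => ?_)
  simp only [Equiv.prodComm_apply, Prod.fst_swap, Prod.snd_swap]
  rw [add_comm]

/-- `U_v² = 1` for `v` inert. -/
theorem rep_vv {al be ga al' be' ga' : ℤ} {v : ℕ} {Q₁ Q₂ : ℤ}
    (hD : 4 * al * ga - be ^ 2 = 4 * N)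
    (hD' : 4 * al' * ga' - be' ^ 2 = 4 * N) (hv : v.Prime)
    (h2 : v ≠ 2) (hns : ¬ IsSquare (-(N : ZMod v))) (hQ₁ : ¬ (v : ℤ) ∣ Q₁) (hQ₂ : ¬ (v : ℤ) ∣ Q₂)
    (m : ℕ) :
    rep (v * Q₁) al be ga Q₂ al' be' ga' (v * (v * m)) =
      rep (v * Q₁) al be ga Q₂ al' be' ga' m := by
  rw [rep_swap hD' hv h2 hns hQ₂, rep_comm, rep_swap hD hv h2 hns hQ₁, rep_comm]

section data

variable (D : IsQ K N s)

include D in
/-- The form of a class, in the shape of block E1. -/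
theorem exists_classForm' (c : ClassGroup (𝓞 K)) : ∃ al be ga : ℤ, 0 < al ∧
    4 * al * ga - be ^ 2 = 4 * N ∧
    (∀ n : ℕ, n ≠ 0 → Nat.card {x : Fin 2 → ℤ // bz al be ga x = n} = 2 * rc (K := K) c n) ∧
    (∀ x : Fin 2 → ℤ, x ≠ 0 → ∃ J : Ideal (𝓞 K), cl J = c ∧ (absNorm J : ℤ) = bz al be ga x) := by
  obtain ⟨q, hdisc, ha, hcard, hval⟩ := D.exists_classForm c
  refine ⟨q.a, q.b, q.c, ha, by linear_combination -hdisc, fun n hn => ?_, fun x hx => ?_⟩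
  · rw [← hcard n hn]
    exact Nat.card_congr ((finTwoArrowEquiv ℤ).subtypeEquiv fun p => Iff.rfl)
  · exact hval (x 0, x 1) (fun h => hx (by
      ext i
      fin_cases i
      · exact congrArg Prod.fst h
      · exact congrArg Prod.snd h))

/-- coefficients of a form of the class `c` -/
def qf (c : ClassGroup (𝓞 K)) : ℤ × ℤ × ℤ :=
  ((exists_classForm' D c).choose, (exists_classForm' D c).choose_spec.choose,
    (exists_classForm' D c).choose_spec.choose_spec.choose)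

theorem qf_spec (c : ClassGroup (𝓞 K)) : 0 < (qf D c).1 ∧
    4 * (qf D c).1 * (qf D c).2.2 - (qf D c).2.1 ^ 2 = 4 * N ∧
    (∀ n : ℕ, n ≠ 0 → Nat.card {x : Fin 2 → ℤ // bz (qf D c).1 (qf D c).2.1 (qf D c).2.2 x = n} =
      2 * rc (K := K) c n) ∧
    (∀ x : Fin 2 → ℤ, x ≠ 0 → ∃ J : Ideal (𝓞 K), cl J = c ∧
      (absNorm J : ℤ) = bz (qf D c).1 (qf D c).2.1 (qf D c).2.2 x) :=
  (exists_classForm' D c).choose_spec.choose_spec.choose_spec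

/-- the coefficients of `θ_c(Q₁ z) θ_b(Q₂ z)` -/
def repc (c b : ClassGroup (𝓞 K)) (Q₁ Q₂ : ℕ) (n : ℕ) : ℕ :=
  rep Q₁ (qf D c).1 (qf D c).2.1 (qf D c).2.2 Q₂ (qf D b).1 (qf D b).2.1 (qf D b).2.2 n

include D in
theorem rc_four (c : ClassGroup (𝓞 K)) {n : ℕ} (hn : n ≠ 0) : rc (K := K) c (4 * n) = rc c n := by
  classical
  have h1 := D.FF_four (MonoidAlgebra.of ℤ (ClassGroup (𝓞 K))) hn
  have h2 : ∀ m : ℕ, (FF (MonoidAlgebra.of ℤ (ClassGroup (𝓞 K))) m).coeff c =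
      (rc (K := K) c m : ℤ) := by
    intro m
    rw [FF, MonoidAlgebra.coeff_sum, Finsupp.finsetSum_apply, rc, Finset.card_filter]
    push_cast
    refine Finset.sum_congr rfl fun I _ => ?_
    rw [MonoidAlgebra.of_apply, MonoidAlgebra.coeff_single, Finsupp.single_apply]
  have h3 := h2 (4 * n)
  rw [h1, h2] at h3
  exact_mod_cast h3.symm

theorem card_scaled (c : ClassGroup (𝓞 K)) {Q₁ : ℕ} (hQ₁ : Odd Q₁) {n : ℕ} (hn : n ≠ 0) :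
    Nat.card {x : Fin 2 → ℤ // (Q₁ : ℤ) * bz (qf D c).1 (qf D c).2.1 (qf D c).2.2 x =
      ((4 * n : ℕ) : ℤ)} = 2 * (if Q₁ ∣ n then rc (K := K) c (n / Q₁) else 0) := by
  have hQ0 : Q₁ ≠ 0 := by rintro rfl; simp at hQ₁
  have hQZ : (Q₁ : ℤ) ≠ 0 := by exact_mod_cast hQ0
  split_ifs with h
  · obtain ⟨m, rfl⟩ := h
    have hm : m ≠ 0 := by rintro rfl; simp at hn
    rw [Nat.mul_div_cancel_left m (Nat.pos_of_ne_zero hQ0), ← rc_four D c hm,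
      ← (qf_spec D c).2.2.1 (4 * m) (by positivity)]
    apply Nat.card_congr
    apply Equiv.subtypeEquivRight
    intro x
    have e : ((4 * (Q₁ * m) : ℕ) : ℤ) = Q₁ * ((4 * m : ℕ) : ℤ) := by push_cast; ring
    rw [e]
    exact mul_right_inj' hQZ
  · rw [mul_zero]
    have : IsEmpty {x : Fin 2 → ℤ // (Q₁ : ℤ) * bz (qf D c).1 (qf D c).2.1 (qf D c).2.2 x =
      ((4 * n : ℕ) : ℤ)} := by
      constructor
      rintro ⟨x, hx⟩
      apply h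
      have h1 : (Q₁ : ℤ) ∣ ((4 * n : ℕ) : ℤ) := ⟨_, hx.symm⟩
      have h2 : Q₁ ∣ 4 * n := by exact_mod_cast h1
      have h3 : Nat.Coprime Q₁ 4 := by
        rw [show (4 : ℕ) = 2 ^ 2 by norm_num]
        exact Nat.Coprime.pow_right 2 (Nat.coprime_two_right.mpr hQ₁)
      exact h3.dvd_of_dvd_mul_left h2
    exact Nat.card_of_isEmpty

theorem repc_mod4 (c b : ClassGroup (𝓞 K)) {Q₁ Q₂ : ℕ} (hQ₁ : Odd Q₁) (hQ₂ : Odd Q₂) {n : ℕ}
    (hn : n ≠ 0) : ∃ k : ℕ, repc D c b Q₁ Q₂ (4 * n) =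
      2 * (if Q₁ ∣ n then rc (K := K) c (n / Q₁) else 0) +
      2 * (if Q₂ ∣ n then rc (K := K) b (n / Q₂) else 0) + 4 * k := by
  obtain ⟨ha, hd, -, -⟩ := qf_spec D c
  obtain ⟨ha', hd', -, -⟩ := qf_spec D b
  have hN : (0 : ℤ) < N := by exact_mod_cast D.N_pos
  have h1 : (0 : ℤ) < Q₁ := by exact_mod_cast hQ₁.pos
  have h2 : (0 : ℤ) < Q₂ := by exact_mod_cast hQ₂.pos
  obtain ⟨k, hk⟩ := rep_mod4 h1 h2 ha (by rw [hd]; positivity) ha' (by rw [hd']; positivity)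
    (m := 4 * n) (by positivity)
  refine ⟨k, ?_⟩
  rw [repc, hk, card_scaled D c hQ₁ hn, card_scaled D b hQ₂ hn]

theorem repc_zero (c b : ClassGroup (𝓞 K)) {Q₁ Q₂ : ℕ} (hQ₁ : Odd Q₁) (hQ₂ : Odd Q₂) :
    repc D c b Q₁ Q₂ 0 = 1 := by
  obtain ⟨ha, hd, -, -⟩ := qf_spec D c
  obtain ⟨ha', hd', -, -⟩ := qf_spec D b
  have hN : (0 : ℤ) < N := by exact_mod_cast D.N_pos
  have h1 : (0 : ℤ) < Q₁ := by exact_mod_cast hQ₁.pos
  have h2 : (0 : ℤ) < Q₂ := by exact_mod_cast hQ₂.pos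
  exact rep_zero h1 h2 ha (by rw [hd]; positivity) ha' (by rw [hd']; positivity)

/-- The genus condition. -/
def GenusOK (K : Type*) [Field K] [NumberField K] (N Q₀ : ℕ) (c b : ClassGroup (𝓞 K)) : Prop :=
  ∀ I J : Ideal (𝓞 K), cl I = c → cl J = b → Odd (absNorm I) → Odd (absNorm J) →
    ¬ (8 : ℤ) ∣ -((Q₀ : ℤ) * absNorm I * absNorm J) - 1 ∧
    ¬ (8 : ℤ) ∣ -((Q₀ : ℤ) * absNorm I * absNorm J) - (1 + N)

theorem repc_sixteen {c b : ClassGroup (𝓞 K)} {Q₁ Q₂ : ℕ} (hQ₁ : Odd Q₁) (hQ₂ : Odd Q₂)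
    (h : GenusOK K N (Q₁ * Q₂) c b) (n : ℕ) :
    repc D c b Q₁ Q₂ (16 * n) = repc D c b Q₁ Q₂ (4 * n) := by
  obtain ⟨ha, hd, -, hval⟩ := qf_spec D c
  obtain ⟨ha', hd', -, hval'⟩ := qf_spec D b
  have odd2 : ∀ Q : ℕ, Odd Q → ¬ (2 : ℤ) ∣ Q := by
    intro Q hQ h
    have : 2 ∣ Q := by exact_mod_cast h
    rw [Nat.odd_iff] at hQ
    omega
  apply rep_sixteen D.mod4 hd hd' (odd2 _ hQ₁) (odd2 _ hQ₂)
  intro x y hx hy
  have hx0 : x ≠ 0 := by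
    rintro rfl
    rw [bz_zero] at hx
    exact hx (dvd_zero _)
  have hy0 : y ≠ 0 := by
    rintro rfl
    rw [bz_zero] at hy
    exact hy (dvd_zero _)
  obtain ⟨I, hI, hIx⟩ := hval x hx0
  obtain ⟨J, hJ, hJy⟩ := hval' y hy0
  have hodd : ∀ n : ℕ, ¬ (2 : ℤ) ∣ (n : ℤ) → Odd n := by
    intro n hn
    rw [← Nat.not_even_iff_odd, even_iff_two_dvd]
    intro h
    exact hn (by exact_mod_cast h)
  rw [← hIx] at hx ⊢
  rw [← hJy] at hy ⊢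
  have h1 := h I J hI hJ (hodd _ hx) (hodd _ hy)
  push_cast at h1
  exact h1

/-- `U_v² = 1` -/
theorem repc_vv (c b : ClassGroup (𝓞 K)) {v Q₁ Q₂ : ℕ} (hv : v.Prime) (h2 : v ≠ 2)
    (hns : ¬ IsSquare (-(N : ZMod v))) (h : (v ∣ Q₁ ∧ ¬ v * v ∣ Q₁ ∧ ¬ v ∣ Q₂) ∨
      (v ∣ Q₂ ∧ ¬ v * v ∣ Q₂ ∧ ¬ v ∣ Q₁)) (m : ℕ) :
    repc D c b Q₁ Q₂ (v * (v * m)) = repc D c b Q₁ Q₂ m := by
  obtain ⟨ha, hd, -, hval⟩ := qf_spec D c
  obtain ⟨ha', hd', -, hval'⟩ := qf_spec D b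
  rcases h with ⟨⟨R, rfl⟩, h1, h3⟩ | ⟨⟨R, rfl⟩, h1, h3⟩
  · have h4 : ¬ v ∣ R := fun ⟨R', hR⟩ => h1 ⟨R', by rw [hR, mul_assoc]⟩
    have h5 := rep_vv hd hd' hv h2 hns (Q₁ := (R : ℤ)) (Q₂ := (Q₂ : ℤ))
      (by exact_mod_cast h4) (by exact_mod_cast h3) m
    rw [repc, repc]
    push_cast
    exact h5
  · have h4 : ¬ v ∣ R := fun ⟨R', hR⟩ => h1 ⟨R', by rw [hR, mul_assoc]⟩
    have h5 := rep_vv hd' hd hv h2 hns (Q₁ := (R : ℤ)) (Q₂ := (Q₁ : ℤ))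
      (by exact_mod_cast h4) (by exact_mod_cast h3) m
    rw [repc, repc, rep_comm, rep_comm _ _ _ _ _ _ _ _ m]
    push_cast
    exact h5

end data

end Fermat.Agent.TwoAdic.Rank
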