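import Fermat.Agent.TwoAdic.RankDF
import Fermat.Agent.TwoAdic.KillNew
import Fermat.Agent.TwoAdic.KillCusp
import Fermat.Agent.TwoAdic.Genus

/-!
# The rank lower bound (2-adic route, blocks E3, E4)
-/

set_option autoImplicit false

noncomputable section

namespace Fermat.Agent.TwoAdic.Rank

open NumberField Ideal Module IsLocalRing
open UpperHalfPlane ModularForm CongruenceSubgroup Matrix.SpecialLinearGroup ModularFormClass
open Fermat.Agent.IntStr Fermat.Agent.Newform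
open scoped MatrixGroups

variable {K : Type*} [Field K] [NumberField K] {N : ℕ} {s : 𝓞 K}
variable {𝒱 : ValuationSubring ℂ} {G : Type*} [CommGroup G]
variable {χ : ClassGroup (𝓞 K) →* ResidueField 𝒱} {pr : ClassGroup (𝓞 K) →* G}
variable {Q : Finset ℕ} {m : ℕ}

/-- The data of block E. -/
structure RD (N : ℕ) (s : 𝓞 K) (χ : ClassGroup (𝓞 K) →* ResidueField 𝒱)
    (pr : ClassGroup (𝓞 K) →* G) (Q : Finset ℕ) (m : ℕ) : Prop where
  D : IsQ K N s
  two_lt : 2 < N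
  two : (2 : ResidueField 𝒱) = 0
  χ3 : ∀ c, χ c ^ 3 = 1
  χne : ∃ c, χ c ≠ 1
  surj : Function.Surjective pr
  pG : ∀ g : G, g ^ (2 ^ m) = 1
  ker : ∀ t, pr t = 1 → Odd (orderOf t)
  Qprime : ∀ q ∈ Q, q.Prime
  Qne : ∀ q ∈ Q, q ≠ 2
  Qns : ∀ q ∈ Q, ¬ IsSquare (-(N : ZMod q))

/-- the level -/
def levQ (N : ℕ) (Q : Finset ℕ) : ℕ := N * ∏ q ∈ Q, q

/-- the congruence -/
def Good (χ : ClassGroup (𝓞 K) →* ResidueField 𝒱) (N : ℕ) (Q : Finset ℕ) (a : ℕ → ℂ) : Prop :=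
  ∀ l : ℕ, l.Prime → ¬ l ∣ levQ N Q → IsR 𝒱 (a l) (FF χ l)

namespace RD

variable (R : RD N s χ pr Q m)

include R

theorem q_not_dvd {q : ℕ} (hq : q ∈ Q) : ¬ q ∣ N := by
  intro h
  apply R.Qns q hq
  rw [(ZMod.natCast_eq_zero_iff N q).mpr h, neg_zero]
  exact ⟨0, by simp⟩

theorem inert {q : ℕ} (hq : q ∈ Q) : ∀ P : Ideal (𝓞 K), absNorm P ≠ q :=
  R.D.inert_of_not_isSquare (R.Qprime q hq) (by
    have := R.Qns q hq
    push_cast
    exact this)

theorem prod_ne_zero (S : Finset ℕ) (hS : S ⊆ Q) : ∏ q ∈ S, q ≠ 0 :=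
  Finset.prod_ne_zero_iff.mpr fun q hq => (R.Qprime q (hS hq)).ne_zero

theorem prime_dvd_prod {S : Finset ℕ} (hS : S ⊆ Q) {l : ℕ} (hl : l.Prime) :
    l ∣ ∏ q ∈ S, q ↔ l ∈ S := by
  constructor
  · intro h
    obtain ⟨q, hq, hlq⟩ := (Prime.dvd_finsetProd_iff hl.prime _).mp h
    rwa [(Nat.prime_dvd_prime_iff_eq hl (R.Qprime q (hS hq))).mp hlq]
  · exact fun h => Finset.dvd_prod_of_mem _ h

theorem prod_squarefree {S : Finset ℕ} (hS : S ⊆ Q) : Squarefree (∏ q ∈ S, q) := by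
  classical
  induction S using Finset.induction_on with
  | empty => simp
  | insert q S hq ih =>
    have hS' : S ⊆ Q := fun x hx => hS (Finset.mem_insert_of_mem hx)
    have hqp := R.Qprime q (hS (Finset.mem_insert_self q S))
    rw [Finset.prod_insert hq, Nat.squarefree_mul_iff]
    refine ⟨?_, hqp.squarefree, ih hS'⟩
    rw [hqp.coprime_iff_not_dvd, R.prime_dvd_prod hS' hqp]
    exact hq

theorem prod_odd {S : Finset ℕ} (hS : S ⊆ Q) : Odd (∏ q ∈ S, q) := by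
  rw [← Nat.not_even_iff_odd, even_iff_two_dvd, R.prime_dvd_prod hS Nat.prime_two]
  exact fun h => R.Qne 2 (hS h) rfl

theorem lev_ne : levQ N Q ≠ 0 := mul_ne_zero R.D.N_pos.ne' (R.prod_ne_zero Q subset_rfl)

theorem lev_sqf : Squarefree (levQ N Q) := by
  rw [levQ, Nat.squarefree_mul_iff]
  refine ⟨?_, R.D.sqf, R.prod_squarefree subset_rfl⟩
  apply Nat.Coprime.symm
  rw [Nat.coprime_prod_left_iff]
  intro q hq
  rw [(R.Qprime q hq).coprime_iff_not_dvd]
  exact R.q_not_dvd hq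

theorem dvd_lev {l : ℕ} (hl : l.Prime) : l ∣ levQ N Q ↔ l ∣ N ∨ l ∈ Q := by
  rw [levQ, hl.dvd_mul, R.prime_dvd_prod subset_rfl hl]

theorem exists_l0 : ∃ (l : ℕ) (P : Ideal (𝓞 K)), l.Prime ∧ ¬ l ∣ N ∧ l ∉ Q ∧ absNorm P = l ∧
    χ (cl P) ≠ 1 := by
  by_contra hcon
  push Not at hcon
  obtain ⟨c, hc⟩ := R.χne
  -- prime ideals
  have hprime : ∀ P : Ideal (𝓞 K), P.IsPrime → P ≠ ⊥ → χ (cl P) = 1 := by
    intro P hP hP0
    -- a prime number in `P`
    obtain ⟨l, hl, hlP⟩ : ∃ l : ℕ, l.Prime ∧ (l : 𝓞 K) ∈ P := by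
      have h1 : ∀ n : ℕ, n ≠ 0 → (n : 𝓞 K) ∈ P → ∃ l : ℕ, l.Prime ∧ (l : 𝓞 K) ∈ P := by
        intro n
        induction n using Nat.recOnMul with
        | zero => intro h; exact absurd rfl h
        | one => intro _ h; exact absurd ((Ideal.eq_top_iff_one P).mpr (by simpa using h)) hP.ne_top
        | prime p hp => intro _ h; exact ⟨p, hp, h⟩
        | mul a b iha ihb =>
          intro h0 h
          rw [Nat.cast_mul] at h
          rcases hP.mem_or_mem h with h | h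
          · exact iha (fun h1 => h0 (by rw [h1, zero_mul])) h
          · exact ihb (fun h1 => h0 (by rw [h1, mul_zero])) h
      exact h1 (absNorm P) (by rw [Ne, absNorm_eq_zero_iff]; exact hP0) (absNorm_mem P)
    rcases norm_prime_over R.D.rank hl hP hlP with h1 | h1
    · by_cases hlN : l ∣ N
      · obtain ⟨T, hT, hTT⟩ := R.D.exists_ram hl hlN
        have h2 : P = T := by
          have h3 : T * T ≤ P := by
            rw [hTT, Ideal.span_singleton_le_iff_mem]; exact hlP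
          have h4 : T ≤ P := (Ideal.IsPrime.mul_le hP).mp h3 |>.elim id id
          have h5 := (isPrime_of_norm hl hT).isMaximal
            (ne_bot_of_norm (by rw [hT]; exact hl.ne_zero))
          exact (h5.eq_of_le hP.ne_top h4).symm
        have h3 : χ (cl P) ^ 2 = 1 := by
          rw [← map_pow, pow_two, ← cl_mul hP0 hP0, h2, hTT, cl_span, map_one]
        have h4 := R.χ3 (cl P)
        rw [pow_succ, h3, one_mul] at h4
        exact h4
      · by_cases hlQ : l ∈ Q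
        · exact absurd h1 (R.inert hlQ P)
        · exact hcon l P hl hlN hlQ h1
    · rw [h1, cl_span, map_one]
  apply hc
  obtain ⟨I, hI, rfl⟩ := cl_surj c
  clear hc
  induction I using UniqueFactorizationMonoid.induction_on_prime with
  | h₁ => exact absurd rfl hI
  | h₂ x hx =>
    rw [Ideal.isUnit_iff] at hx
    rw [hx, cl_top, map_one]
  | h₃ a p ha hp ih =>
    rw [cl_mul hp.ne_zero ha, map_mul, ih ha, mul_one]
    exact hprime p (Ideal.isPrime_of_prime hp) hp.ne_zero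

theorem FF_l0 {l : ℕ} {P : Ideal (𝓞 K)} (hl : l.Prime) (hlN : ¬ l ∣ N) (hP : absNorm P = l)
    (hχ : χ (cl P) ≠ 1) : FF χ l ≠ 0 := by
  obtain ⟨P', hPP, hP'⟩ := exists_factor R.D.rank hl hP
  have hne := R.D.split_ne hl hlN hP hPP
  rw [FF_prime_split R.D.rank χ hl hP hP' hPP hne, cl_conj R.D.rank hl hP hP' hPP]
  set ζ := χ (cl P) with hζ
  have hζ3 : ζ ^ 3 = 1 := R.χ3 _
  have hζq : ζ ^ 2 + ζ + 1 = 0 := by
    have h4 : (ζ - 1) * (ζ ^ 2 + ζ + 1) = 0 := by linear_combination hζ3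
    exact (mul_eq_zero.mp h4).resolve_left (sub_ne_zero.mpr hχ)
  have hζ0 : ζ ≠ 0 := by rintro h; rw [h] at hζ3; norm_num at hζ3
  have hζi : χ (cl P)⁻¹ = ζ ^ 2 := by
    have h4 : χ (cl P) * χ (cl P)⁻¹ = 1 := by rw [← map_mul, mul_inv_cancel, map_one]
    rw [← hζ] at h4
    apply mul_left_cancel₀ hζ0
    rw [h4, ← pow_succ', hζ3]
  rw [hζi]
  intro h
  apply one_ne_zero (α := ResidueField 𝒱)
  linear_combination hζq - h

/-- Hecke recursion for the reduced forms -/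
theorem Ft_hecke {Q₁ l : ℕ} (hl : l.Prime) (hlQ : ¬ l ∣ Q₁) (n : ℕ) :
    Ft χ pr Q₁ (l * n) + (if l ∣ N then 0 else if l ∣ n then Ft χ pr Q₁ (n / l) else 0) =
      FF (psi χ pr) l * Ft χ pr Q₁ n := by
  rcases eq_or_ne n 0 with rfl | hn
  · simp [Ft]
  have hcop : Nat.Coprime Q₁ l := ((hl.coprime_iff_not_dvd).mpr hlQ).symm
  by_cases hd : Q₁ ∣ n
  · obtain ⟨r, rfl⟩ := hd
    have hQ0 : 0 < Q₁ := Nat.pos_of_ne_zero fun h => hn (by rw [h, zero_mul])
    have hr : r ≠ 0 := fun h => hn (by rw [h, mul_zero])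
    have h1 : Ft χ pr Q₁ (l * (Q₁ * r)) = FF (psi χ pr) (l * r) := by
      rw [Ft, if_pos ⟨⟨l * r, by ring⟩, mul_ne_zero hl.ne_zero hn⟩]
      congr 1
      rw [mul_left_comm, Nat.mul_div_cancel_left _ hQ0]
    have h2 : Ft χ pr Q₁ (Q₁ * r) = FF (psi χ pr) r := by
      rw [Ft, if_pos ⟨dvd_mul_right _ _, hn⟩, Nat.mul_div_cancel_left _ hQ0]
    rw [h1, h2, ← R.D.hecke_rel (psi χ pr) (two_eq_zero (k := ResidueField 𝒱) R.two) hl hr]
    congr 1
    split_ifs with h3 h4 h5 h5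
    · rfl
    · obtain ⟨r', hr'⟩ := h5
      subst hr'
      have hr0 : r' ≠ 0 := fun h => hr (by rw [h, mul_zero])
      have e1 : Q₁ * (l * r') / l = Q₁ * r' := by
        rw [mul_left_comm, Nat.mul_div_cancel_left _ hl.pos]
      rw [e1, Nat.mul_div_cancel_left _ hl.pos, Ft, if_pos ⟨dvd_mul_right _ _,
        mul_ne_zero hQ0.ne' hr0⟩, Nat.mul_div_cancel_left _ hQ0]
    · exact absurd (hcop.symm.dvd_of_dvd_mul_left h4) h5
    · exact absurd (Dvd.dvd.mul_left h5 Q₁) h4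
    · rfl
  · have h1 : ¬ Q₁ ∣ l * n := fun h => hd (hcop.dvd_of_dvd_mul_left h)
    have h2 : Ft χ pr Q₁ n = 0 := by rw [Ft, if_neg (fun h => hd h.1)]
    rw [Ft, if_neg (fun h => h1 h.1), h2, mul_zero, zero_add]
    split_ifs with h3 h4
    · rfl
    · rw [Ft, if_neg (fun h => hd (h.1.trans (Nat.div_dvd_of_dvd h4)))]
    · rfl

end RD

end Fermat.Agent.TwoAdic.Rank
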