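import Fermat.Agent.TwoAdic.RankMain

/-!
# The rank lower bound, continued
-/

set_option autoImplicit false

noncomputable section

namespace Fermat.Agent.TwoAdic.Rank

open NumberField Ideal Module IsLocalRing
open UpperHalfPlane ModularForm CongruenceSubgroup Matrix.SpecialLinearGroup ModularFormClass
open Fermat.Agent.IntStr Fermat.Agent.Newform
open scoped MatrixGroups

variable {K : Type*} [Field K] [NumberField K] {N : ℕ} {s : 𝓞 K}
variable {𝒱 : ValuationSubring ℂ} {G : Type*} [CommGroup G]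
variable {χ : ClassGroup (𝓞 K) →* ResidueField 𝒱} {pr : ClassGroup (𝓞 K) →* G}
variable {Q : Finset ℕ} {m : ℕ}

/-- the `q`-coefficients as a linear map -/
def coefLin (M : ℕ) : CuspForm (Gamma0 M) 2 →ₗ[ℂ] (ℕ → ℂ) where
  toFun f n := qCoeff f n
  map_add' f g := by ext n; exact Eigenform.qCoeff_add f g n
  map_smul' c f := by ext n; exact Eigenform.qCoeff_smul c f n

/-- reduction attached to `x ∈ k[G]`, level raising `Q₁` and the coefficient functional at `g` -/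
def Rx (χ : ClassGroup (𝓞 K) →* ResidueField 𝒱) (pr : ClassGroup (𝓞 K) →* G) (Q₁ : ℕ) (g : G)
    (x : MonoidAlgebra (ResidueField 𝒱) G) (n : ℕ) : ResidueField 𝒱 :=
  (x * Ft χ pr Q₁ n).coeff g

namespace RD

variable (R : RD N s χ pr Q m)

include R

theorem natCast_prime {l : ℕ} (hl : l.Prime) (hlN : ¬ l ∣ N) : (l : ResidueField 𝒱) = 1 := by
  have h2 : l ≠ 2 := by
    rintro rfl
    have := R.D.mod4
    omega
  obtain ⟨j, hj⟩ := hl.odd_of_ne_two h2
  rw [hj]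
  push_cast
  rw [R.two, zero_mul, zero_add]

theorem red_hecke {f : ℕ → ℂ} {Q₁ : ℕ} {g : G} {x : MonoidAlgebra (ResidueField 𝒱) G}
    (hf : IsRed 𝒱 f (Rx χ pr Q₁ g x)) {l : ℕ} (hl : l.Prime) (hlQ : ¬ l ∣ Q₁) :
    IsRed 𝒱 (fun n => f (l * n) + (if l ∣ N then (0 : ℂ) else (l : ℂ)) *
      (if l ∣ n then f (n / l) else 0)) (Rx χ pr Q₁ g (FF (psi χ pr) l * x)) := by
  intro n
  have h1 : Rx χ pr Q₁ g (FF (psi χ pr) l * x) n = Rx χ pr Q₁ g x (l * n) +
      (if l ∣ N then (0 : ResidueField 𝒱) else (l : ResidueField 𝒱)) *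
      (if l ∣ n then Rx χ pr Q₁ g x (n / l) else 0) := by
    have h2 := R.Ft_hecke hl hlQ n
    have h3 : FF (psi χ pr) l * x * Ft χ pr Q₁ n = x * Ft χ pr Q₁ (l * n) +
        (if l ∣ N then 0 else if l ∣ n then x * Ft χ pr Q₁ (n / l) else 0) := by
      rw [mul_right_comm, ← h2, add_mul, mul_comm _ x]
      congr 1
      split_ifs
      · rw [zero_mul]
      · rw [mul_comm]
      · rw [zero_mul]
    rw [Rx, h3, MonoidAlgebra.coeff_add, Finsupp.add_apply, Rx]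
    congr 1
    split_ifs with h4 h5
    · simp
    · simp
    · rw [R.natCast_prime hl h4, one_mul]; rfl
    · simp
  rw [h1]
  refine (hf _).add (IsR.mul ?_ ?_)
  · split_ifs
    · exact IsR.zero
    · exact isR_natCast l
  · split_ifs
    · exact hf _
    · exact IsR.zero

theorem red_smul {f : ℕ → ℂ} {Q₁ : ℕ} {g : G} {x : MonoidAlgebra (ResidueField 𝒱) G}
    (hf : IsRed 𝒱 f (Rx χ pr Q₁ g x)) {b : ℂ} {y : ResidueField 𝒱} (hb : IsR 𝒱 b y) :
    IsRed 𝒱 (fun n => b * f n) (Rx χ pr Q₁ g (y • x)) := by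
  intro n
  have h1 : Rx χ pr Q₁ g (y • x) n = y * Rx χ pr Q₁ g x n := by
    rw [Rx, Rx, smul_mul_assoc, MonoidAlgebra.coeff_smul, Finsupp.smul_apply, smul_eq_mul]
  rw [h1]
  exact hb.mul (hf n)

omit R in
theorem red_sub {f f' : ℕ → ℂ} {Q₁ : ℕ} {g : G} {x x' : MonoidAlgebra (ResidueField 𝒱) G}
    (hf : IsRed 𝒱 f (Rx χ pr Q₁ g x)) (hf' : IsRed 𝒱 f' (Rx χ pr Q₁ g x')) :
    IsRed 𝒱 (fun n => f n - f' n) (Rx χ pr Q₁ g (x - x')) := by
  intro n
  have h1 : Rx χ pr Q₁ g (x - x') n = Rx χ pr Q₁ g x n - Rx χ pr Q₁ g x' n := by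
    rw [Rx, Rx, Rx, sub_mul, MonoidAlgebra.coeff_sub, Finsupp.sub_apply]
  rw [h1]
  exact (hf n).sub (hf' n)

omit R in
theorem red_add {f f' : ℕ → ℂ} {Q₁ : ℕ} {g : G} {x x' : MonoidAlgebra (ResidueField 𝒱) G}
    (hf : IsRed 𝒱 f (Rx χ pr Q₁ g x)) (hf' : IsRed 𝒱 f' (Rx χ pr Q₁ g x')) :
    IsRed 𝒱 (fun n => f n + f' n) (Rx χ pr Q₁ g (x + x')) := by
  intro n
  have h1 : Rx χ pr Q₁ g (x + x') n = Rx χ pr Q₁ g x n + Rx χ pr Q₁ g x' n := by
    rw [Rx, Rx, Rx, add_mul, MonoidAlgebra.coeff_add, Finsupp.add_apply]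
  rw [h1]
  exact (hf n).add (hf' n)

/-- reduction and the Hecke operators at primes not in `Q` -/
theorem red_hOp [NeZero (levQ N Q)] {f : CuspForm (Gamma0 (levQ N Q)) 2} {Q₁ : ℕ} {g : G}
    {x : MonoidAlgebra (ResidueField 𝒱) G} (hf : IsRed 𝒱 (qCoeff f) (Rx χ pr Q₁ g x))
    (l : Nat.Primes) (hlQ : (l : ℕ) ∉ Q) (hQ₁ : ∀ q : ℕ, q.Prime → q ∣ Q₁ → q ∈ Q) :
    IsRed 𝒱 (qCoeff (hOp (levQ N Q) l f)) (Rx χ pr Q₁ g (FF (psi χ pr) l * x)) := by
  have h1 := R.red_hecke hf l.2 (fun h => hlQ (hQ₁ _ l.2 h))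
  intro n
  rw [qCoeff_hOp]
  have h2 : ((l : ℕ) ∣ levQ N Q) = ((l : ℕ) ∣ N) := by
    rw [R.dvd_lev l.2]
    simp [hlQ]
  simp only [h2]
  exact h1 n

/-- The list operator. -/
theorem red_list [NeZero (levQ N Q)] {f : CuspForm (Gamma0 (levQ N Q)) 2} {Q₁ : ℕ} {g : G}
    {x : MonoidAlgebra (ResidueField 𝒱) G} (hf : IsRed 𝒱 (qCoeff f) (Rx χ pr Q₁ g x))
    (hQ₁ : ∀ q : ℕ, q.Prime → q ∣ Q₁ → q ∈ Q) (w : List (Nat.Primes × ℂ))
    (y : Nat.Primes × ℂ → ResidueField 𝒱)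
    (hw : ∀ a ∈ w, IsR 𝒱 a.2 (y a) ∧ ¬ (a.1 : ℕ) ∣ levQ N Q) :
    IsRed 𝒱 (qCoeff ((w.map fun a => hOp (levQ N Q) a.1 -
      a.2 • (1 : Module.End ℂ (CuspForm (Gamma0 (levQ N Q)) 2))).prod f))
      (Rx χ pr Q₁ g ((w.map fun a => FF (psi χ pr) a.1 -
        algebraMap (ResidueField 𝒱) (MonoidAlgebra (ResidueField 𝒱) G) (y a)).prod * x)) := by
  induction w with
  | nil => simpa using hf
  | cons a w ih =>
    have ih' := ih fun b hb => hw b (List.mem_cons_of_mem _ hb)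
    obtain ⟨ha, haN⟩ := hw a List.mem_cons_self
    have haQ : (a.1 : ℕ) ∉ Q := fun h => haN ((R.dvd_lev a.1.2).mpr (Or.inr h))
    rw [List.map_cons, List.prod_cons, List.map_cons, List.prod_cons]
    set f' := (w.map fun a => hOp (levQ N Q) a.1 -
      a.2 • (1 : Module.End ℂ (CuspForm (Gamma0 (levQ N Q)) 2))).prod f with hf'
    set x' := (w.map fun a => FF (psi χ pr) a.1 -
        algebraMap (ResidueField 𝒱) (MonoidAlgebra (ResidueField 𝒱) G) (y a)).prod * x with hx'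
    have h1 := red_sub (R.red_hOp ih' a.1 haQ hQ₁) (R.red_smul ih' ha)
    have h2 : FF (psi χ pr) a.1 * x' - y a • x' = (FF (psi χ pr) a.1 -
        algebraMap (ResidueField 𝒱) (MonoidAlgebra (ResidueField 𝒱) G) (y a)) * x' := by
      rw [sub_mul, Algebra.smul_def]
    rw [h2] at h1
    have h3 : ((hOp (levQ N Q) a.1 - a.2 • (1 : Module.End ℂ (CuspForm (Gamma0 (levQ N Q)) 2))) *
        (w.map fun a => hOp (levQ N Q) a.1 -
          a.2 • (1 : Module.End ℂ (CuspForm (Gamma0 (levQ N Q)) 2))).prod) f =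
        hOp (levQ N Q) a.1 f' - a.2 • f' := by
      rw [Module.End.mul_apply, LinearMap.sub_apply, LinearMap.smul_apply, Module.End.one_apply]
    rw [h3, mul_assoc]
    intro n
    have h4 := h1 n
    rw [Eigenform.qCoeff_sub, Eigenform.qCoeff_smul]
    exact h4

/-- **The cusp forms** `(T_{l₀} - 1 - l₀) D_{g,S}`. -/
theorem exists_form [NeZero (levQ N Q)] (g : ClassGroup (𝓞 K)) {S : Finset ℕ} (hS : S ⊆ Q)
    {l : ℕ} (hl : l.Prime) (hlN : ¬ l ∣ N) (hlQ : l ∉ Q) :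
    ∃ f : CuspForm (Gamma0 (levQ N Q)) 2,
      IsRed 𝒱 (qCoeff f) (Rx χ pr (∏ q ∈ S, q) (pr g) (FF (psi χ pr) l)) ∧
      ∀ v ∈ insert 2 Q, ∀ n, qCoeff f (v * (v * n)) = qCoeff f n := by
  classical
  obtain ⟨ct, hct, hsum⟩ := exists_lift (pr := pr) R.χ3 R.χne R.pG g
  set Q₁ := ∏ q ∈ S, q with hQ₁
  set Q₂ := ∏ q ∈ Q \ S, q with hQ₂
  have hodd1 : Odd Q₁ := R.prod_odd hS
  have hodd2 : Odd Q₂ := R.prod_odd Finset.sdiff_subset
  have hQQ : Q₁ * Q₂ = ∏ q ∈ Q, q := by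
    rw [hQ₁, hQ₂, mul_comm]
    exact Finset.prod_sdiff hS
  obtain ⟨b, hb⟩ := R.D.exists_genus R.two_lt (Q₀ := ((Q₁ * Q₂ : ℕ) : ℤ))
    (by exact_mod_cast hodd1.mul hodd2) g
  have hlev : levQ N Q = N * (Q₁ * Q₂) := by rw [hQQ, levQ]
  set T := kerT pr with hT
  set Dg := DF R.D g b Q₁ Q₂ T ct with hDg
  have hMF : IsMF (Gamma0 (levQ N Q)) 2 Dg := isMF_DF R.D g b T ct hodd1.pos hodd2.pos hlev
  have hred : IsRed 𝒱 (qCoeff Dg) (Rx χ pr Q₁ (pr g) 1) := by
    have h1 := isRed_DF R.D R.two g b hodd1 hodd2 hct hsum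
    intro n
    rw [Rx, one_mul]
    exact h1 n
  -- `U_v² = 1`
  have hinv : ∀ v ∈ insert 2 Q, ∀ n, qCoeff Dg (v * (v * n)) = qCoeff Dg n := by
    intro v hv n
    rw [hDg, qCoeff_DF R.D g b T ct hodd1.pos hodd2.pos, qCoeff_DF R.D g b T ct hodd1.pos
      hodd2.pos]
    congr 1
    refine Finset.sum_congr rfl fun t ht => ?_
    congr 2
    rcases Finset.mem_insert.mp hv with rfl | hvQ
    · have e : 4 * (2 * (2 * n)) = 16 * n := by ring
      rw [e]
      apply repc_sixteen R.D hodd1 hodd2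
      intro I J hI hJ hIo hJo
      have h1 : Odd (orderOf (g * t * g⁻¹)) := by
        rw [mul_comm g t, mul_inv_cancel_right]
        exact R.ker t ((mem_kerT pr).mp ht)
      exact hb (g * t) h1 I J hI hJ (by exact_mod_cast hIo) (by exact_mod_cast hJo)
    · have hvp := R.Qprime v hvQ
      have e : 4 * (v * (v * n)) = v * (v * (4 * n)) := by ring
      rw [e]
      apply repc_vv R.D _ _ hvp (R.Qne v hvQ) (R.Qns v hvQ)
      by_cases hvS : v ∈ S
      · left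
        refine ⟨(R.prime_dvd_prod hS hvp).mpr hvS, ?_, ?_⟩
        · intro h
          exact hvp.one_lt.ne' (Nat.isUnit_iff.mp (R.prod_squarefree hS v h))
        · rw [hQ₂, R.prime_dvd_prod Finset.sdiff_subset hvp]
          simp [hvS]
      · right
        refine ⟨(R.prime_dvd_prod Finset.sdiff_subset hvp).mpr (Finset.mem_sdiff.mpr ⟨hvQ, hvS⟩),
          ?_, ?_⟩
        · intro h
          exact hvp.one_lt.ne'
            (Nat.isUnit_iff.mp (R.prod_squarefree Finset.sdiff_subset v h))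
        · rw [hQ₁, R.prime_dvd_prod hS hvp]
          exact hvS
  have hlM : ¬ l ∣ levQ N Q := by
    rw [R.dvd_lev hl]
    push Not
    exact ⟨hlN, hlQ⟩
  have hCF := isCF_heckeT_sub R.lev_sqf hMF hl hlM
  have hTf : IsMF (Gamma0 (levQ N Q)) 2 (heckeT 2 l Dg) := isMF_heckeT hMF hl hlM
  have hco : ∀ n, qCoeff (heckeT 2 l Dg - ((1 + l : ℕ) : ℂ) • Dg) n =
      qCoeff Dg (l * n) + l * (if l ∣ n then qCoeff Dg (n / l) else 0) -
        ((1 + l : ℕ) : ℂ) * qCoeff Dg n := by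
    intro n
    have h1 : qCoeff (heckeT 2 l Dg - ((1 + l : ℕ) : ℂ) • Dg) n = qCoeff (heckeT 2 l Dg) n -
        qCoeff (((1 + l : ℕ) : ℂ) • Dg) n := by
      rw [qCoeff, hTf.qExpansion_sub (hMF.smul _) (T_mem _), map_sub]; rfl
    rw [h1, qCoeff_heckeT_MF hMF hl.ne_zero, qCoeff_smul_MF hMF]
  refine ⟨hCF.toCuspForm, ?_, ?_⟩
  · rw [hCF.coe_toCuspForm]
    have h1 := R.red_hecke hred hl (fun h => hlQ (by
      rw [hQ₁] at h
      exact hS ((R.prime_dvd_prod hS hl).mp h)))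
    rw [mul_one] at h1
    intro n
    rw [hco]
    have h2 := h1 n
    simp only [if_neg hlN] at h2
    have h3 : IsR 𝒱 (((1 + l : ℕ) : ℂ) * qCoeff Dg n) 0 := by
      have h4 := (isR_natCast (𝒱 := 𝒱) (1 + l)).mul (hred n)
      have h5 : (((1 + l : ℕ)) : ResidueField 𝒱) = 0 := by
        push_cast
        rw [R.natCast_prime hl hlN, one_add_one_eq_two, R.two]
      rw [h5, zero_mul] at h4
      exact h4
    have h6 := h2.sub h3
    rw [sub_zero] at h6
    exact h6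
  · intro v hv n
    rw [hCF.coe_toCuspForm, hco, hco]
    have hvp : v.Prime := by
      rcases Finset.mem_insert.mp hv with rfl | h
      · exact Nat.prime_two
      · exact R.Qprime v h
    have hvl : Nat.Coprime v l := by
      rw [Nat.coprime_primes hvp hl]
      rintro rfl
      rcases Finset.mem_insert.mp hv with h | h
      · have := R.D.mod4
        rw [h] at hlN
        omega
      · exact hlQ h
    have e1 : l * (v * (v * n)) = v * (v * (l * n)) := by ring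
    rw [e1, hinv v hv, hinv v hv]
    congr 3
    by_cases h : l ∣ n
    · obtain ⟨r, rfl⟩ := h
      have e2 : v * (v * (l * r)) / l = v * (v * r) := by
        rw [show v * (v * (l * r)) = l * (v * (v * r)) by ring,
          Nat.mul_div_cancel_left _ hl.pos]
      rw [if_pos (dvd_mul_right l r), if_pos ⟨v * (v * r), by ring⟩, e2, hinv v hv,
        Nat.mul_div_cancel_left _ hl.pos]
    · rw [if_neg h, if_neg]
      intro h1
      exact h (hvl.symm.dvd_of_dvd_mul_left (hvl.symm.dvd_of_dvd_mul_left h1))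

end RD

end Fermat.Agent.TwoAdic.Rank
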