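import Fermat.Agent.TwoAdic.RankForm

/-!
# Splitting of primes in `ℚ(√-N)`, Hecke relations in characteristic two
-/

set_option autoImplicit false

noncomputable section

namespace Fermat.Agent.TwoAdic.Rank

open NumberField Ideal Module
open scoped nonZeroDivisors

variable {K : Type*} [Field K] [NumberField K] {N : ℕ} {s : 𝓞 K}

namespace IsQ

variable (D : IsQ K N s)

include D

/-- Ramified primes. -/
theorem exists_ram {v : ℕ} (hv : v.Prime) (hvN : v ∣ N) :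
    ∃ P : Ideal (𝓞 K), absNorm P = v ∧ P * P = span {(v : 𝓞 K)} := by
  obtain ⟨M, hM⟩ := hvN
  have hcop : Nat.Coprime v M := by
    rw [hv.coprime_iff_not_dvd]
    rintro ⟨M', rfl⟩
    have h1 := D.sqf v ⟨M', by rw [hM, mul_assoc]⟩
    exact hv.one_lt.ne' (Nat.isUnit_iff.mp h1)
  obtain ⟨x, y, hxy⟩ := Nat.isCoprime_iff_coprime.mpr hcop
  have hxy' : (x : 𝓞 K) * v + y * M = 1 := by exact_mod_cast congrArg (Int.cast : ℤ → 𝓞 K) hxy
  have hs := D.sq
  have hMK : (N : 𝓞 K) = v * M := by rw [hM]; push_cast; ring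
  have h2 : span {(v : 𝓞 K), s} * span {(v : 𝓞 K), s} = span {(v : 𝓞 K)} := by
    apply le_antisymm
    · rw [Ideal.span_pair_mul_span_pair, Ideal.span_le]
      intro z hz
      simp only [Set.mem_insert_iff, Set.mem_singleton_iff] at hz
      rw [SetLike.mem_coe, Ideal.mem_span_singleton]
      rcases hz with rfl | rfl | rfl | rfl
      · exact dvd_mul_right _ _
      · exact dvd_mul_right _ _
      · exact dvd_mul_left _ _
      · rw [hs, hMK]
        exact (dvd_mul_right _ _).neg_right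
    · rw [Ideal.span_singleton_le_iff_mem, Ideal.span_pair_mul_span_pair]
      have h3 : (v : 𝓞 K) = x * ((v : 𝓞 K) * v) + (-y) * (s * s) := by
        rw [hs, hMK]
        linear_combination (-(v : 𝓞 K)) * hxy'
      have h4 : x * ((v : 𝓞 K) * v) + (-y) * (s * s) ∈
          span {(v : 𝓞 K) * v, v * s, s * v, s * s} :=
        Ideal.add_mem _ (Ideal.mul_mem_left _ _ (Ideal.subset_span (by simp)))
          (Ideal.mul_mem_left _ _ (Ideal.subset_span (by simp)))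
      rwa [← h3] at h4
  refine ⟨span {(v : 𝓞 K), s}, ?_, h2⟩
  have h3 := congrArg absNorm h2
  rw [map_mul, absNorm_span_nat D.rank, pow_two] at h3
  exact Nat.mul_self_inj.mp h3

/-- reduction modulo a prime of norm `l` -/
theorem exists_res {l : ℕ} (hl : l.Prime) {P : Ideal (𝓞 K)} (hP : absNorm P = l) :
    ∃ a : ℤ, s - a ∈ P ∧ (l : ℤ) ∣ a ^ 2 + N := by
  have hcard : Nat.card (𝓞 K ⧸ P) = l := hP
  have hfin : Finite (𝓞 K ⧸ P) := Nat.finite_of_card_ne_zero (by rw [hcard]; exact hl.ne_zero)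
  have : Fintype (𝓞 K ⧸ P) := Fintype.ofFinite _
  have hpr := isPrime_of_norm hl hP
  have : Fact l.Prime := ⟨hl⟩
  -- `s` is congruent to an integer
  have hsurj : Function.Surjective (Int.castRingHom (𝓞 K ⧸ P)) := by
    have h1 : (AddSubgroup.zmultiples (1 : 𝓞 K ⧸ P)) = ⊤ := by
      have : Fact (Nat.card (𝓞 K ⧸ P)).Prime := ⟨by rw [hcard]; exact hl⟩
      rcases (AddSubgroup.zmultiples (1 : 𝓞 K ⧸ P)).eq_bot_or_eq_top_of_prime_card with h | h
      · exfalso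
        rw [AddSubgroup.zmultiples_eq_bot] at h
        exact hpr.ne_top ((Ideal.eq_top_iff_one P).mpr (Ideal.Quotient.eq_zero_iff_mem.mp h))
      · exact h
    intro x
    have hx : x ∈ AddSubgroup.zmultiples (1 : 𝓞 K ⧸ P) := by rw [h1]; trivial
    obtain ⟨n, hn⟩ := AddSubgroup.mem_zmultiples_iff.mp hx
    exact ⟨n, by rw [← hn]; simp⟩
  obtain ⟨a, ha⟩ := hsurj (Ideal.Quotient.mk P s)
  have h1 : s - a ∈ P := by
    rw [← Ideal.Quotient.eq_zero_iff_mem, map_sub, ← ha]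
    simp
  refine ⟨a, h1, ?_⟩
  have h2 := absNorm_dvd_absNorm_of_le ((Ideal.span_singleton_le_iff_mem P).mpr h1)
  have h3 := D.absNorm_span (-a) 1
  have e : (((-a : ℤ) : 𝓞 K) + ((1 : ℤ) : 𝓞 K) * s) = s - a := by push_cast; ring
  rw [e] at h3
  have h4 : (l : ℤ) ∣ (absNorm (span {s - (a : 𝓞 K)}) : ℤ) := by
    rw [← hP]; exact_mod_cast h2
  rw [h3] at h4
  simpa using h4

theorem split_ne {l : ℕ} (hl : l.Prime) (hlN : ¬ l ∣ N) {P P' : Ideal (𝓞 K)}
    (hP : absNorm P = l) (h : P * P' = span {(l : 𝓞 K)}) : P ≠ P' := by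
  rintro rfl
  obtain ⟨a, ha, hla⟩ := D.exists_res hl hP
  have h1 : (s - a) * (s - a) ∈ P * P := Ideal.mul_mem_mul ha ha
  rw [h, Ideal.mem_span_singleton] at h1
  obtain ⟨z, hz⟩ := h1
  obtain ⟨m, n, rfl⟩ := D.exists_int z
  have h2 : ((a ^ 2 - N : ℤ) : 𝓞 K) + ((-2 * a : ℤ) : 𝓞 K) * s =
      ((l * m : ℤ) : 𝓞 K) + ((l * n : ℤ) : 𝓞 K) * s := by
    push_cast
    linear_combination hz - D.sq
  obtain ⟨-, h3⟩ := D.int_unique h2
  have hl2 : l ≠ 2 := by
    rintro rfl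
    have := D.mod4
    omega
  have hlp : Prime (l : ℤ) := Nat.prime_iff_prime_int.mp hl
  have h4 : (l : ℤ) ∣ -2 * a := ⟨n, h3⟩
  have h5 : (l : ℤ) ∣ a := by
    rcases hlp.dvd_or_dvd h4 with h6 | h6
    · exfalso
      rw [dvd_neg] at h6
      have h7 : l ∣ 2 := by exact_mod_cast h6
      exact hl2 ((Nat.prime_dvd_prime_iff_eq hl Nat.prime_two).mp h7)
    · exact h6
  have h6 : (l : ℤ) ∣ N := (dvd_add_right (h5.trans (dvd_pow_self a two_ne_zero))).mp hla
  exact hlN (by exact_mod_cast h6)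

theorem inert_of_not_isSquare {l : ℕ} (hl : l.Prime) (h : ¬ IsSquare ((-(N : ℤ) : ℤ) : ZMod l)) :
    ∀ P : Ideal (𝓞 K), absNorm P ≠ l := by
  intro P hP
  obtain ⟨a, -, ha⟩ := D.exists_res hl hP
  apply h
  refine ⟨(a : ZMod l), ?_⟩
  have h1 := (ZMod.intCast_zmod_eq_zero_iff_dvd _ l).mpr ha
  push_cast at h1 ⊢
  linear_combination (-1 : ZMod l) * h1

theorem exists_of_isSquare {l : ℕ} (hl : l.Prime)
    (h : IsSquare ((-(N : ℤ) : ℤ) : ZMod l)) : ∃ P : Ideal (𝓞 K), absNorm P = l := by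
  have : Fact l.Prime := ⟨hl⟩
  by_contra hcon
  push Not at hcon
  have hpr := inert_isPrime D.rank hl hcon
  obtain ⟨x, hx⟩ := h
  set a : ℤ := (x.val : ℤ) with ha
  have hxa : (a : ZMod l) = x := by rw [ha]; simp
  have h1 : (l : ℤ) ∣ a ^ 2 + N := by
    rw [← ZMod.intCast_zmod_eq_zero_iff_dvd]
    push_cast
    rw [hxa]
    push_cast at hx
    linear_combination -hx
  obtain ⟨m, hm⟩ := h1
  have h2 : (s - a) * (s + a) ∈ (span {(l : 𝓞 K)} : Ideal (𝓞 K)) := by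
    rw [Ideal.mem_span_singleton]
    refine ⟨-m, ?_⟩
    have hm' : (a : 𝓞 K) ^ 2 + N = l * m := by exact_mod_cast congrArg (Int.cast : ℤ → 𝓞 K) hm
    linear_combination D.sq - hm'
  have key : ∀ b : ℤ, s + b ∉ (span {(l : 𝓞 K)} : Ideal (𝓞 K)) := by
    intro b hb
    rw [Ideal.mem_span_singleton] at hb
    obtain ⟨z, hz⟩ := hb
    obtain ⟨m, n, rfl⟩ := D.exists_int z
    have h3 : ((b : ℤ) : 𝓞 K) + ((1 : ℤ) : 𝓞 K) * s =
        ((l * m : ℤ) : 𝓞 K) + ((l * n : ℤ) : 𝓞 K) * s := by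
      push_cast
      linear_combination hz
    obtain ⟨-, h4⟩ := D.int_unique h3
    have h5 : (l : ℤ) ∣ 1 := ⟨n, h4⟩
    exact hl.one_lt.ne' (Nat.dvd_one.mp (by exact_mod_cast h5))
  rcases hpr.mem_or_mem h2 with h3 | h3
  · exact key (-a) (by rw [Int.cast_neg, ← sub_eq_add_neg]; exact h3)
  · exact key a h3

section hecke

variable {A : Type*} [CommRing A] (Ψ : ClassGroup (𝓞 K) →* A)

open Classical in
/-- **Hecke relation in characteristic two.** -/
theorem hecke_rel (h2 : (2 : A) = 0) {l : ℕ} (hl : l.Prime) {n : ℕ} (hn : n ≠ 0) :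
    FF Ψ (l * n) + (if l ∣ N then 0 else if l ∣ n then FF Ψ (n / l) else 0) =
      FF Ψ l * FF Ψ n := by
  have h22 : ∀ x : A, x + x = 0 := fun x => by rw [← two_mul, h2, zero_mul]
  by_cases hlN : l ∣ N
  · obtain ⟨P, hP, hPP⟩ := D.exists_ram hl hlN
    rw [if_pos hlN, add_zero, FF_ram D.rank Ψ hl hn hP hPP, FF_prime_ram D.rank Ψ hl hP hPP]
  · rw [if_neg hlN]
    by_cases h : ∃ P : Ideal (𝓞 K), absNorm P = l
    · obtain ⟨P, hP⟩ := h
      obtain ⟨P', hPP', hP'⟩ := exists_factor D.rank hl hP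
      have hne := D.split_ne hl hlN hP hPP'
      rw [FF_split D.rank Ψ hl hn hP hP' hPP' hne, FF_prime_split D.rank Ψ hl hP hP' hPP' hne]
    · push Not at h
      rw [FF_inert D.rank Ψ hl hn h, FF_prime_inert D.rank Ψ hl h, h22, zero_mul]

/-- `F(4n) = F(n)` -/
theorem FF_four {n : ℕ} (hn : n ≠ 0) : FF Ψ (4 * n) = FF Ψ n := by
  have h2N : 2 ∣ N := by
    have := D.mod4
    omega
  obtain ⟨P, hP, hPP⟩ := D.exists_ram Nat.prime_two h2N
  have hP0 : P ≠ ⊥ := ne_bot_of_norm (by rw [hP]; norm_num)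
  have e : 4 * n = 2 * (2 * n) := by ring
  rw [e, FF_ram D.rank Ψ Nat.prime_two (by positivity) hP hPP,
    FF_ram D.rank Ψ Nat.prime_two hn hP hPP, ← mul_assoc, ← map_mul, ← cl_mul hP0 hP0, hPP, cl_span,
    map_one, one_mul]

end hecke

end IsQ

end Fermat.Agent.TwoAdic.Rank
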