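import Fermat.Agent.TwoAdic.RankAlg

/-!
# The residual Hecke algebra `RR ⊆ k[G]` of the dihedral forms
-/

set_option autoImplicit false

noncomputable section

namespace Fermat.Agent.TwoAdic.Rank

open NumberField Ideal Module
open scoped nonZeroDivisors

variable {K : Type*} [Field K] [NumberField K] {N : ℕ} {s : 𝓞 K}
variable {k : Type*} [Field k] {G : Type*} [CommGroup G]
variable (χ : ClassGroup (𝓞 K) →* k) (pr : ClassGroup (𝓞 K) →* G)

/-- the universal dihedral character -/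
def psi : ClassGroup (𝓞 K) →* MonoidAlgebra k G where
  toFun c := MonoidAlgebra.single (pr c) (χ c)
  map_one' := by rw [map_one, map_one]; rfl
  map_mul' c d := by rw [map_mul, map_mul, MonoidAlgebra.single_mul_single]

theorem psi_apply (c : ClassGroup (𝓞 K)) : psi χ pr c = MonoidAlgebra.single (pr c) (χ c) := rfl

theorem aug_FF (n : ℕ) : aug k G (FF (psi χ pr) n) = FF χ n := by
  rw [FF, FF, map_sum]
  exact Finset.sum_congr rfl fun I _ => by rw [psi_apply, aug_single]

/-- The Hecke algebra. -/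
def RR (Q : Finset ℕ) : Subalgebra k (MonoidAlgebra k G) :=
  Algebra.adjoin k {x | ∃ l : ℕ, l.Prime ∧ l ∉ Q ∧ x = FF (psi χ pr) l}

theorem FF_mem_RR {Q : Finset ℕ} {l : ℕ} (hl : l.Prime) (hQ : l ∉ Q) :
    FF (psi χ pr) l ∈ RR χ pr Q := Algebra.subset_adjoin ⟨l, hl, hQ, rfl⟩

/-- The group generated by the classes of the split primes with `χ ≠ 1`. -/
def HH (N : ℕ) (Q : Finset ℕ) : Subgroup G :=
  Subgroup.closure {g | ∃ (l : ℕ) (P : Ideal (𝓞 K)), l.Prime ∧ l ∉ Q ∧ ¬ l ∣ N ∧ absNorm P = l ∧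
    χ (cl P) ≠ 1 ∧ g = pr (cl P)}

variable {χ pr}

theorem single_mem_RR (D : IsQ K N s) (h2 : (2 : k) = 0) (hχ : ∀ c, χ c ^ 3 = 1) {m : ℕ}
    (hG : ∀ g : G, g ^ (2 ^ m) = 1) {Q : Finset ℕ} {l : ℕ} (hl : l.Prime) (hQ : l ∉ Q)
    (hlN : ¬ l ∣ N) {P : Ideal (𝓞 K)} (hP : absNorm P = l) (hχP : χ (cl P) ≠ 1) :
    MonoidAlgebra.single (pr (cl P)) (1 : k) ∈ RR χ pr Q := by
  obtain ⟨P', hPP, hP'⟩ := exists_factor D.rank hl hP
  have hne := D.split_ne hl hlN hP hPP
  have h3 := FF_prime_split D.rank (psi χ pr) hl hP hP' hPP hne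
  have hcl := cl_conj D.rank hl hP hP' hPP
  set ζ := χ (cl P) with hζ
  have hζ3 : ζ ^ 3 = 1 := hχ _
  have hζq : ζ ^ 2 + ζ + 1 = 0 := by
    have h4 : (ζ - 1) * (ζ ^ 2 + ζ + 1) = 0 := by linear_combination hζ3
    exact (mul_eq_zero.mp h4).resolve_left (sub_ne_zero.mpr hχP)
  have hζi : χ (cl P)⁻¹ = ζ ^ 2 := by
    have h4 : χ (cl P) * χ (cl P)⁻¹ = 1 := by rw [← map_mul, mul_inv_cancel, map_one]
    rw [← hζ] at h4
    have h5 : ζ ≠ 0 := by rintro h; rw [h] at hζ3; norm_num at hζ3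
    apply mul_left_cancel₀ h5
    rw [h4, ← pow_succ', hζ3]
  have h5 : FF (psi χ pr) l = ζ • MonoidAlgebra.single (pr (cl P)) (1 : k) +
      ζ ^ 2 • MonoidAlgebra.single (pr (cl P))⁻¹ (1 : k) := by
    rw [h3, hcl, psi_apply, psi_apply, hζi, map_inv, ← hζ, MonoidAlgebra.smul_single,
      MonoidAlgebra.smul_single, smul_eq_mul, smul_eq_mul, mul_one, mul_one]
  have h6 := mem_adjoin_of_unip (A := MonoidAlgebra k G) (m := m) h2 hζq
    (g := MonoidAlgebra.single (pr (cl P)) (1 : k))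
    (g' := MonoidAlgebra.single (pr (cl P))⁻¹ (1 : k))
    (by rw [MonoidAlgebra.single_mul_single, mul_inv_cancel, mul_one]; rfl)
    (by rw [MonoidAlgebra.single_pow, hG, one_pow]; rfl)
  rw [← h5] at h6
  refine Algebra.adjoin_le ?_ h6
  rw [Set.singleton_subset_iff]
  exact FF_mem_RR χ pr hl hQ

theorem single_mem_of_mem_HH (D : IsQ K N s) (h2 : (2 : k) = 0) (hχ : ∀ c, χ c ^ 3 = 1) {m : ℕ}
    (hG : ∀ g : G, g ^ (2 ^ m) = 1) {Q : Finset ℕ} {g : G} (hg : g ∈ HH χ pr N Q) :
    MonoidAlgebra.single g (1 : k) ∈ RR χ pr Q := by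
  induction hg using Subgroup.closure_induction with
  | mem x hx =>
    obtain ⟨l, P, hl, hQ, hlN, hP, hχP, rfl⟩ := hx
    exact single_mem_RR D h2 hχ hG hl hQ hlN hP hχP
  | one => exact (RR χ pr Q).one_mem
  | mul x y _ _ hx hy =>
    have h3 := (RR χ pr Q).mul_mem hx hy
    rwa [MonoidAlgebra.single_mul_single, mul_one] at h3
  | inv x _ hx =>
    have h3 := (RR χ pr Q).pow_mem hx (2 ^ m - 1)
    rw [MonoidAlgebra.single_pow, one_pow] at h3
    have h4 : x ^ (2 ^ m - 1) = x⁻¹ := by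
      rw [eq_inv_iff_mul_eq_one, ← pow_succ, Nat.sub_add_cancel Nat.one_le_two_pow, hG]
    rwa [h4] at h3

instance [Finite G] : Module.Finite k (MonoidAlgebra k G) :=
  Module.Finite.equiv (MonoidAlgebra.coeffLinearEquiv (M := G) (S := k) k).symm

theorem card_HH_le [Finite G] (D : IsQ K N s) (h2 : (2 : k) = 0) (hχ : ∀ c, χ c ^ 3 = 1) {m : ℕ}
    (hG : ∀ g : G, g ^ (2 ^ m) = 1) (Q : Finset ℕ) :
    Nat.card (HH χ pr N Q) ≤ Module.finrank k (RR χ pr Q) := by
  classical
  have : Fintype (HH χ pr N Q) := Fintype.ofFinite _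
  rw [Nat.card_eq_fintype_card]
  have h3 : LinearIndependent k (fun g : G => MonoidAlgebra.single g (1 : k)) :=
    (MonoidAlgebra.basis G k).linearIndependent
  have h4 : LinearIndependent k (fun g : HH χ pr N Q =>
      (⟨MonoidAlgebra.single g.1 (1 : k), single_mem_of_mem_HH D h2 hχ hG g.2⟩ : RR χ pr Q)) := by
    have h5 := h3.comp (fun g : HH χ pr N Q => (g : G)) Subtype.val_injective
    exact LinearIndependent.of_comp (RR χ pr Q).val.toLinearMap h5
  exact h4.fintype_card_le_finrank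

/-- The forms `F(n)`, `n` prime to `Q`, span (at least) the Hecke algebra. -/
theorem RR_le_span (D : IsQ K N s) (h2 : (2 : k) = 0) {Q : Finset ℕ} (hQ : ∀ q ∈ Q, q.Prime)
    {x : MonoidAlgebra k G} (hx : x ∈ RR χ pr Q) :
    x ∈ Submodule.span k {y | ∃ n : ℕ, n ≠ 0 ∧ (∀ q ∈ Q, ¬ q ∣ n) ∧ y = FF (psi χ pr) n} := by
  classical
  set Sp := Submodule.span k {y | ∃ n : ℕ, n ≠ 0 ∧ (∀ q ∈ Q, ¬ q ∣ n) ∧
      y = FF (psi χ pr) n} with hSp
  have key : ∀ y ∈ Sp, x * y ∈ Sp := by
    rw [RR] at hx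
    induction hx using Algebra.adjoin_induction with
    | mem x hx =>
      obtain ⟨l, hl, hlQ, rfl⟩ := hx
      intro y hy
      rw [hSp] at hy
      induction hy using Submodule.span_induction with
      | zero => rw [mul_zero]; exact Sp.zero_mem
      | add y z _ _ hy hz => rw [mul_add]; exact Sp.add_mem hy hz
      | smul a y _ hy => rw [mul_smul_comm]; exact Sp.smul_mem _ hy
      | mem y hy =>
        obtain ⟨n, hn, hnQ, rfl⟩ := hy
        rw [← D.hecke_rel (psi χ pr) (two_eq_zero (k := k) h2) hl hn]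
        refine Sp.add_mem (Submodule.subset_span ⟨l * n, mul_ne_zero hl.ne_zero hn, ?_, rfl⟩) ?_
        · intro q hq hqd
          rcases (hQ q hq).dvd_mul.mp hqd with h | h
          · rw [(Nat.prime_dvd_prime_iff_eq (hQ q hq) hl).mp h] at hq
            exact hlQ hq
          · exact hnQ q hq h
        · split_ifs with h3 h4
          · exact Sp.zero_mem
          · refine Submodule.subset_span ⟨n / l, ?_, ?_, rfl⟩
            · exact (Nat.div_pos (Nat.le_of_dvd (Nat.pos_of_ne_zero hn) h4) hl.pos).ne'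
            · intro q hq hqd
              exact hnQ q hq (hqd.trans (Nat.div_dvd_of_dvd h4))
          · exact Sp.zero_mem
    | algebraMap r =>
      intro y hy
      rw [← Algebra.smul_def]
      exact Sp.smul_mem _ hy
    | add x y _ _ hx hy => intro z hz; rw [add_mul]; exact Sp.add_mem (hx z hz) (hy z hz)
    | mul x y _ _ hx hy => intro z hz; rw [mul_assoc]; exact hx _ (hy z hz)
  have h1 : (1 : MonoidAlgebra k G) ∈ Sp :=
    Submodule.subset_span ⟨1, one_ne_zero, fun q hq h =>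
      (hQ q hq).one_lt.ne' (Nat.dvd_one.mp h), (FF_one _).symm⟩
  have h3 := key 1 h1
  rwa [mul_one] at h3

theorem exists_mul_eq (h2 : (2 : k) = 0) {m : ℕ} (hG : ∀ g : G, g ^ (2 ^ m) = 1) {Q : Finset ℕ}
    {u y : MonoidAlgebra k G} (hu : u ∈ RR χ pr Q) (hu0 : aug k G u ≠ 0) (hy : y ∈ RR χ pr Q) :
    ∃ z ∈ RR χ pr Q, u * z = y := by
  have h3 := pow_eq_aug h2 hG u
  refine ⟨(aug k G u ^ (2 ^ m))⁻¹ • (u ^ (2 ^ m - 1) * y), ?_, ?_⟩
  · exact (RR χ pr Q).smul_mem ((RR χ pr Q).mul_mem ((RR χ pr Q).pow_mem hu _) hy) _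
  · rw [mul_smul_comm, ← mul_assoc, ← pow_succ', Nat.sub_add_cancel Nat.one_le_two_pow, h3,
      ← Algebra.smul_def, smul_smul, inv_mul_cancel₀ (pow_ne_zero _ hu0), one_smul]

/-- Functionals: enough coefficient functionals are independent on `RR`. -/
theorem exists_functionals [Finite G] (Q : Finset ℕ) :
    ∃ (d : ℕ) (a : Fin d → G), Module.finrank k (RR χ pr Q) ≤ d ∧
      ∀ c : Fin d → k, (∀ x ∈ RR χ pr Q, ∑ i, c i * x.coeff (a i) = 0) → ∀ i, c i = 0 := by
  classical
  let v : G → Module.Dual k (RR χ pr Q) := fun g =>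
    { toFun := fun x => (x : MonoidAlgebra k G).coeff g
      map_add' := fun x y => by simp
      map_smul' := fun c x => by simp }
  have hv : ∀ g x, v g x = (x : MonoidAlgebra k G).coeff g := fun _ _ => rfl
  obtain ⟨κ, a, hinj, hspan, hli⟩ := exists_linearIndependent' k v
  have hfin : Finite κ := Finite.of_injective a hinj
  have : Fintype κ := Fintype.ofFinite κ
  obtain e := Fintype.equivFin κ
  refine ⟨Fintype.card κ, a ∘ e.symm, ?_, ?_⟩
  · let Φ : RR χ pr Q →ₗ[k] (κ → k) := LinearMap.pi fun i => v (a i)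
    have hΦ : Function.Injective Φ := by
      rw [← LinearMap.ker_eq_bot, LinearMap.ker_eq_bot']
      intro x hx
      have h1 : ∀ φ ∈ Submodule.span k (Set.range v), φ x = 0 := by
        rw [← hspan]
        intro φ hφ
        induction hφ using Submodule.span_induction with
        | zero => rfl
        | add y z _ _ hy hz => rw [LinearMap.add_apply, hy, hz, add_zero]
        | smul c y _ hy => rw [LinearMap.smul_apply, hy, smul_zero]
        | mem y hy =>
          obtain ⟨i, rfl⟩ := hy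
          exact congrFun hx i
      apply Subtype.ext
      apply MonoidAlgebra.ext
      ext g
      exact h1 (v g) (Submodule.subset_span ⟨g, rfl⟩)
    have h2 := LinearMap.finrank_le_finrank_of_injective hΦ
    rwa [Module.finrank_fintype_fun_eq_card] at h2
  · intro c hc
    have h1 : ∑ i : κ, c (e i) • (v ∘ a) i = 0 := by
      ext x
      have h2 := hc x x.2
      rw [LinearMap.sum_apply, LinearMap.zero_apply, ← h2]
      rw [← e.symm.sum_comp]
      refine Finset.sum_congr rfl fun i _ => ?_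
      rw [LinearMap.smul_apply, Function.comp_apply, Equiv.apply_symm_apply, smul_eq_mul]
      rfl
    have h3 := Fintype.linearIndependent_iff.mp hli (fun i => c (e i)) h1
    intro i
    have h4 := h3 (e.symm i)
    simpa using h4

end Fermat.Agent.TwoAdic.Rank
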