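import Fermat.Agent.TwoAdic.RankRR
import Fermat.Agent.Newform.Eigenspaces

/-!
# Reduction modulo the maximal ideal of a valuation ring of `ℂ`
-/

set_option autoImplicit false

noncomputable section

namespace Fermat.Agent.TwoAdic.Rank

open NumberField Module IsLocalRing

variable {𝒱 : ValuationSubring ℂ}

/-- `z ∈ 𝒱` has reduction `x`. -/
def IsR (𝒱 : ValuationSubring ℂ) (z : ℂ) (x : ResidueField 𝒱) : Prop :=
  ∃ h : z ∈ 𝒱, residue 𝒱 ⟨z, h⟩ = x

theorem IsR.unique {z : ℂ} {x y : ResidueField 𝒱} (hx : IsR 𝒱 z x) (hy : IsR 𝒱 z y) : x = y := by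
  obtain ⟨h, rfl⟩ := hx
  obtain ⟨h', rfl⟩ := hy
  rfl

theorem IsR.add {z w : ℂ} {x y : ResidueField 𝒱} (hx : IsR 𝒱 z x) (hy : IsR 𝒱 w y) :
    IsR 𝒱 (z + w) (x + y) := by
  obtain ⟨h, rfl⟩ := hx
  obtain ⟨h', rfl⟩ := hy
  exact ⟨𝒱.add_mem _ _ h h', by rw [← map_add]; rfl⟩

theorem IsR.mul {z w : ℂ} {x y : ResidueField 𝒱} (hx : IsR 𝒱 z x) (hy : IsR 𝒱 w y) :
    IsR 𝒱 (z * w) (x * y) := by
  obtain ⟨h, rfl⟩ := hx
  obtain ⟨h', rfl⟩ := hy
  exact ⟨𝒱.mul_mem _ _ h h', by rw [← map_mul]; rfl⟩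

theorem IsR.neg {z : ℂ} {x : ResidueField 𝒱} (hx : IsR 𝒱 z x) : IsR 𝒱 (-z) (-x) := by
  obtain ⟨h, rfl⟩ := hx
  exact ⟨𝒱.neg_mem _ h, by rw [← map_neg]; rfl⟩

theorem IsR.sub {z w : ℂ} {x y : ResidueField 𝒱} (hx : IsR 𝒱 z x) (hy : IsR 𝒱 w y) :
    IsR 𝒱 (z - w) (x - y) := by
  rw [sub_eq_add_neg, sub_eq_add_neg]
  exact hx.add hy.neg

theorem IsR.zero : IsR 𝒱 0 0 := ⟨𝒱.zero_mem, map_zero (residue 𝒱)⟩

theorem IsR.one : IsR 𝒱 1 1 := ⟨𝒱.one_mem, map_one (residue 𝒱)⟩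

theorem isR_coe (c : 𝒱) : IsR 𝒱 (c : ℂ) (residue 𝒱 c) := ⟨c.2, rfl⟩

theorem isR_natCast (n : ℕ) : IsR 𝒱 (n : ℂ) (n : ResidueField 𝒱) := by
  have h := isR_coe (𝒱 := 𝒱) (n : 𝒱)
  rw [map_natCast] at h
  exact h

theorem IsR.sum {ι : Type*} (s : Finset ι) {z : ι → ℂ} {x : ι → ResidueField 𝒱}
    (h : ∀ i ∈ s, IsR 𝒱 (z i) (x i)) : IsR 𝒱 (∑ i ∈ s, z i) (∑ i ∈ s, x i) := by
  classical
  induction s using Finset.induction_on with
  | empty => simpa using IsR.zero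
  | insert i s hi ih =>
    rw [Finset.sum_insert hi, Finset.sum_insert hi]
    exact (h i (Finset.mem_insert_self i s)).add
      (ih fun j hj => h j (Finset.mem_insert_of_mem hj))

/-- reduction of sequences -/
def IsRed (𝒱 : ValuationSubring ℂ) (f : ℕ → ℂ) (φ : ℕ → ResidueField 𝒱) : Prop :=
  ∀ n, IsR 𝒱 (f n) (φ n)

/-- **Counting lemma.** -/
theorem card_le_of_isRed {V : Type*} [AddCommGroup V] [Module ℂ V] (W : Submodule ℂ V)
    [FiniteDimensional ℂ W] (coef : V →ₗ[ℂ] (ℕ → ℂ)) {J : Type*} [Fintype J] (f : J → V)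
    (hf : ∀ j, f j ∈ W) (φ : J → ℕ → ResidueField 𝒱) (hφ : ∀ j, IsRed 𝒱 (coef (f j)) (φ j))
    (hli : ∀ c : J → ResidueField 𝒱, (∀ n, ∑ j, c j * φ j n = 0) → ∀ j, c j = 0) :
    Fintype.card J ≤ Module.finrank ℂ W := by
  classical
  have hf' : LinearIndependent ℂ (fun j => (⟨f j, hf j⟩ : W)) := by
    rw [Fintype.linearIndependent_iff]
    intro c hc
    by_contra hcon
    push Not at hcon
    obtain ⟨j₁, hj₁⟩ := hcon
    obtain ⟨j₀, -, hmax⟩ := Finset.exists_max_image Finset.univ (fun j => 𝒱.valuation (c j))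
      ⟨j₁, Finset.mem_univ _⟩
    have hj₀ : c j₀ ≠ 0 := by
      intro h0
      have h1 := hmax j₁ (Finset.mem_univ _)
      simp only [h0, map_zero, le_zero_iff, map_eq_zero] at h1
      exact hj₁ h1
    have hd : ∀ j, c j / c j₀ ∈ 𝒱 := by
      intro j
      rw [← ValuationSubring.valuation_le_one_iff, map_div₀]
      have h0 : 𝒱.valuation (c j₀) ≠ 0 := by
        rw [Ne, map_eq_zero]; exact hj₀
      rw [div_le_one₀ (zero_lt_iff.mpr h0)]
      exact hmax j (Finset.mem_univ _)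
    have h1 := hli (fun j => residue 𝒱 ⟨c j / c j₀, hd j⟩) (fun n => by
      have h2 : IsR 𝒱 (∑ j, c j / c j₀ * coef (f j) n)
          (∑ j, residue 𝒱 ⟨c j / c j₀, hd j⟩ * φ j n) :=
        IsR.sum _ fun j _ => IsR.mul ⟨hd j, rfl⟩ (hφ j n)
      have h3 : ∑ j, c j / c j₀ * coef (f j) n = 0 := by
        have h4 : ∑ j, c j • f j = 0 := by
          have := congrArg Subtype.val hc
          simpa using this
        have h5 := congrFun (congrArg coef h4) n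
        rw [map_sum, map_zero, Finset.sum_apply] at h5
        simp only [map_smul, Pi.smul_apply, smul_eq_mul, Pi.zero_apply] at h5
        have h6 : ∀ j, c j / c j₀ * coef (f j) n = (c j₀)⁻¹ * (c j * coef (f j) n) := by
          intro j; ring
        simp only [h6]
        rw [← Finset.mul_sum, h5, mul_zero]
      rw [h3] at h2
      exact h2.unique IsR.zero) j₀
    have h2 : residue 𝒱 ⟨c j₀ / c j₀, hd j₀⟩ = 1 := by
      rw [← map_one (residue 𝒱)]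
      congr 1
      exact Subtype.ext (div_self hj₀)
    rw [h2] at h1
    exact one_ne_zero h1
  exact hf'.fintype_card_le_finrank

end Fermat.Agent.TwoAdic.Rank
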