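import Fermat.Agent.TwoAdic.Star

/-!
# The residual representation of `E` (image `GL₂(𝔽₂)`)
-/

set_option autoImplicit false

namespace Fermat.Agent.TwoAdic

local notation "Γℚ" => (AlgebraicClosure ℚ ≃ₐ[ℚ] AlgebraicClosure ℚ)

/-- the residual representation of `E` -/
noncomputable def EData.bar (E : EData) : Γℚ →* Matrix (Fin 2) (Fin 2) (ZMod 2) :=
  repMap (PadicInt.toZMod (p := 2)) E.ρ

theorem EData.bar_trace (E : EData) (g : Γℚ) :
    (E.bar g).trace = PadicInt.toZMod (p := 2) (E.ρ g).trace := repMap_trace _ _ _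

theorem FixK.mul {N : ℕ} {g h : Γℚ} (hg : FixK N g) (hh : FixK N h) : FixK N (g * h) :=
  fun x hx => by rw [AlgEquiv.mul_apply, hh x hx, hg x hx]

theorem FixK.inv {N : ℕ} {g : Γℚ} (hg : FixK N g) : FixK N g⁻¹ := fun x hx => by
  have h1 := hg x hx
  conv_lhs => rw [← h1]
  exact AlgEquiv.symm_apply_apply g x

theorem FixK.one (N : ℕ) : FixK N 1 := fun _ _ => rfl

theorem not_fixK_mul {N : ℕ} {g h : Γℚ} (hg : FixK N g) (hh : ¬ FixK N h) : ¬ FixK N (g * h) := by
  intro h1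
  apply hh
  have := hg.inv.mul h1
  rwa [inv_mul_cancel_left] at this

theorem not_fixK_mul' {N : ℕ} {g h : Γℚ} (hg : FixK N g) (hh : ¬ FixK N h) :
    ¬ FixK N (h * g) := by
  intro h1
  apply hh
  have := h1.mul hg.inv
  rwa [mul_inv_cancel_right] at this

variable (E : EData)

theorem EData.bar_det (g : Γℚ) : (E.bar g).det = 1 := by
  have h1 : IsUnit (E.bar g).det := by
    have h2 : IsUnit (E.bar g) := (Group.isUnit g).map E.bar
    exact (Matrix.isUnit_iff_isUnit_det _).mp h2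
  have h3 : ∀ x : ZMod 2, x ≠ 0 → x = 1 := by decide
  exact h3 _ h1.ne_zero

theorem EData.bar_eq_of_not_fixK {j : Γℚ} (hj : ¬ FixK E.N j) :
    (E.bar j).trace = 0 ∧ E.bar (j * j) = 1 := by
  have h1 := (E.fixK j).not.mp hj
  rw [not_or] at h1
  have h3 : ∀ x : ZMod 2, x ≠ 1 → x = 0 := by decide
  have h2 : (E.bar j).trace = 0 := by
    apply h3
    rw [E.bar_trace]
    exact h1.2
  refine ⟨h2, ?_⟩
  have h4 := E.bar_det j
  rw [Matrix.det_fin_two] at h4
  rw [Matrix.trace_fin_two] at h2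
  have key : ∀ p q r s : ZMod 2, p + s = 0 → p * s - q * r = 1 →
      p * p + q * r = 1 ∧ p * q + q * s = 0 ∧ r * p + s * r = 0 ∧ r * q + s * s = 1 := by decide
  obtain ⟨k1, k2, k3, k4⟩ := key _ _ _ _ h2 h4
  ext a b
  rw [mul_apply2]
  fin_cases a <;> fin_cases b
  · exact k1
  · exact k2
  · exact k3
  · exact k4

variable {E} {g₀ j₀ : Γℚ}

/-- the traces at the base points -/
theorem EData.base_traces (hg : FixK E.N g₀) (hgt : PadicInt.toZMod (p := 2) (E.ρ g₀).trace = 1)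
    (hj : ¬ FixK E.N j₀) :
    (E.bar g₀).trace = 1 ∧ (E.bar j₀).trace = 0 ∧ (E.bar (g₀ * j₀)).trace = 0 ∧
      (E.bar (j₀ * j₀)).trace = 0 ∧ (E.bar (g₀ * (j₀ * j₀))).trace = 1 ∧
      (E.bar (g₀ * j₀ * (g₀ * j₀))).trace = 0 := by
  have h0 : (E.bar g₀).trace = 1 := by rw [E.bar_trace, hgt]
  have h1 := E.bar_eq_of_not_fixK hj
  have h2 := E.bar_eq_of_not_fixK (not_fixK_mul hg hj)
  have h3 : (1 : Matrix (Fin 2) (Fin 2) (ZMod 2)).trace = 0 := by decide
  refine ⟨h0, h1.1, h2.1, ?_, ?_, ?_⟩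
  · rw [h1.2, h3]
  · rw [map_mul, h1.2, mul_one, h0]
  · rw [h2.2, h3]

variable (E)

/-- the trace of `E` modulo `2`, in any ring -/
noncomputable def trE (k : Type*) [CommRing k] (g : Γℚ) : k :=
  (((PadicInt.toZMod (p := 2) (E.ρ g).trace).val : ℕ) : k)

theorem trE_eq (k : Type*) [CommRing k] (g : Γℚ) :
    trE E k g = (((E.bar g).trace.val : ℕ) : k) := by
  rw [E.bar_trace]; rfl

theorem trE_of_trace_eq_one {k : Type*} [CommRing k] {g : Γℚ} (h : (E.bar g).trace = 1) :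
    trE E k g = 1 := by
  rw [trE_eq, h]
  exact Nat.cast_one

theorem trE_of_trace_eq_zero {k : Type*} [CommRing k] {g : Γℚ} (h : (E.bar g).trace = 0) :
    trE E k g = 0 := by
  rw [trE_eq, h]
  exact Nat.cast_zero

theorem map_trE {k k' : Type*} [CommRing k] [CommRing k'] (f : k →+* k') (g : Γℚ) :
    f (trE E k g) = trE E k' g := map_natCast f _

section Base

variable {E : EData}

/-- base points exist -/
theorem EData.exists_base (E : EData) : ∃ g₀ j₀ : Γℚ, FixK E.N g₀ ∧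
    PadicInt.toZMod (p := 2) (E.ρ g₀).trace = 1 ∧ ¬ FixK E.N j₀ := by
  obtain ⟨g, hg⟩ := E.surj !![0, 1; 1, 1] (by decide)
  obtain ⟨j, hj⟩ := E.surj !![0, 1; 1, 0] (by decide)
  have h1 : PadicInt.toZMod (p := 2) (E.ρ g).trace = 1 := by
    have h2 := repMap_trace (PadicInt.toZMod (p := 2)) E.ρ g
    rw [← h2, repMap_apply, hg]
    decide
  refine ⟨g, j, (E.fixK g).mpr (Or.inr h1), h1, fun h => ?_⟩
  rcases (E.fixK j).mp h with h2 | h2
  · rw [hj] at h2
    revert h2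
    decide
  · have h3 := repMap_trace (PadicInt.toZMod (p := 2)) E.ρ j
    rw [← h3, repMap_apply, hj] at h2
    revert h2
    decide

end Base

end Fermat.Agent.TwoAdic
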