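import Fermat.Agent.TwoAdic.Spec
import Fermat.Agent.TwoAdic.CocLemma
import Fermat.Agent.MW.Selmer
import Fermat.Agent.ChebFull.Places
import Fermat.Agent.Cheb.DetCyc

/-!
# Block B of the 2-adic route: the Selmer groups of `E[2]`
-/

set_option autoImplicit false
set_option linter.unusedSectionVars false

open IsLocalRing

namespace Fermat.Agent.TwoAdic

open Matrix

local notation "M₂" => Matrix (Fin 2) (Fin 2)
local notation "Qb" => AlgebraicClosure ℚ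
local notation "Γℚ" => (AlgebraicClosure ℚ ≃ₐ[ℚ] AlgebraicClosure ℚ)

lemma two_mem_max : (2 : ℤ_[2]) ∈ maximalIdeal ℤ_[2] := by
  rw [PadicInt.maximalIdeal_eq_span_p]
  exact Ideal.mem_span_singleton_self _

lemma toZMod_eq_iff {x y : ℤ_[2]} : PadicInt.toZMod (p := 2) x = PadicInt.toZMod (p := 2) y ↔
    x - y ∈ Ideal.span {(2 : ℤ_[2])} := by
  rw [← sub_eq_zero, ← map_sub, ← RingHom.mem_ker, PadicInt.ker_toZMod,
    PadicInt.maximalIdeal_eq_span_p]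
  rfl

lemma toZModPow_eq_iff {m : ℕ} {x y : ℤ_[2]} :
    PadicInt.toZModPow (p := 2) m x = PadicInt.toZModPow (p := 2) m y ↔
    x - y ∈ Ideal.span {(2 : ℤ_[2]) ^ m} := by
  rw [← sub_eq_zero, ← map_sub, ← RingHom.mem_ker, PadicInt.ker_toZModPow]
  rfl

lemma redTwo_toZModPow {m : ℕ} (hm : m ≠ 0) (x : ℤ_[2]) :
    redTwo hm (PadicInt.toZModPow (p := 2) m x) = PadicInt.toZMod (p := 2) x := by
  have : NeZero (2 ^ m) := ⟨by positivity⟩
  obtain ⟨n, hn⟩ := exists_nat (PadicInt.toZModPow (p := 2) m x)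
  have h1 : PadicInt.toZModPow (p := 2) m x = PadicInt.toZModPow (p := 2) m (n : ℤ_[2]) := by
    rw [map_natCast, hn]
  have h2 : PadicInt.toZMod (p := 2) x = PadicInt.toZMod (p := 2) (n : ℤ_[2]) := by
    rw [toZMod_eq_iff]
    have h3 := toZModPow_eq_iff.1 h1
    refine Ideal.span_singleton_le_span_singleton.2 ?_ h3
    exact dvd_pow_self _ hm
  rw [h2, ← hn, map_natCast, map_natCast]

namespace EData

variable (E : EData)

/-- the representation on `E[2]` -/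
noncomputable def rb : Γℚ →* M₂ (ZMod 2) :=
  ((PadicInt.toZMod (p := 2)).mapMatrix : M₂ ℤ_[2] →+* M₂ (ZMod 2)).toMonoidHom.comp E.ρ

/-- the representation on `E[2^m]` -/
noncomputable def rm (m : ℕ) : Γℚ →* M₂ (ZMod (2 ^ m)) :=
  ((PadicInt.toZModPow (p := 2) m).mapMatrix : M₂ ℤ_[2] →+* M₂ (ZMod (2 ^ m))).toMonoidHom.comp E.ρ

lemma rb_apply (g : Γℚ) : E.rb g = (E.ρ g).map (PadicInt.toZMod (p := 2)) := rfl

lemma rm_apply (m : ℕ) (g : Γℚ) : E.rm m g = (E.ρ g).map (PadicInt.toZModPow (p := 2) m) := rfl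

lemma rb_eq_rm {m : ℕ} (hm : m ≠ 0) (g : Γℚ) : E.rb g = (E.rm m g).map (redTwo hm) := by
  ext i j
  rw [rb_apply, rm_apply, Matrix.map_apply, Matrix.map_apply, Matrix.map_apply,
    redTwo_toZModPow]

lemma rb_eq_of_rm_eq {m : ℕ} (hm : m ≠ 0) {g h : Γℚ} (hgh : E.rm m g = E.rm m h) :
    E.rb g = E.rb h := by rw [E.rb_eq_rm hm, E.rb_eq_rm hm, hgh]

lemma rm_eq_iff {m : ℕ} {g h : Γℚ} : E.rm m g = E.rm m h ↔
    ∀ i j, E.ρ g i j - E.ρ h i j ∈ Ideal.span {(2 : ℤ_[2]) ^ m} := by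
  rw [← Matrix.ext_iff]
  simp only [rm_apply, Matrix.map_apply, toZModPow_eq_iff]

lemma rm_eq_one_iff {m : ℕ} {g : Γℚ} : E.rm m g = 1 ↔
    ∀ i j, E.ρ g i j - (1 : M₂ ℤ_[2]) i j ∈ Ideal.span {(2 : ℤ_[2]) ^ m} := by
  rw [← map_one (E.rm m), rm_eq_iff, map_one]

lemma det_rm (m : ℕ) (g : Γℚ) : (E.rm m g).det = PadicInt.toZModPow (p := 2) m (E.ρ g).det := by
  rw [rm_apply, RingHom.map_det]; rfl

lemma isUnit_det_rb (g : Γℚ) : IsUnit (E.rb g).det := by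
  have h3 : E.rb g * E.rb g⁻¹ = 1 := by rw [← map_mul, mul_inv_cancel, map_one]
  exact (Matrix.isUnit_iff_isUnit_det _).1 (IsUnit.of_mul_eq_one _ h3)

lemma rb_surj : ∀ M : M₂ (ZMod 2), IsUnit M.det → ∃ σ, E.rb σ = M := E.surj

lemma trace_rb (g : Γℚ) : (E.rb g).trace = PadicInt.toZMod (p := 2) (E.ρ g).trace := by
  rw [rb_apply, Matrix.trace_fin_two, Matrix.trace_fin_two, map_add]; rfl

lemma fixK_iff (g : Γℚ) : FixK E.N g ↔ (E.rb g = 1 ∨ (E.rb g).trace = 1) := by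
  rw [E.fixK, trace_rb]; rfl

/-- outside `G_K` the action on `E[2]` is by a transvection -/
lemma not_fixK {g : Γℚ} (hg : ¬ FixK E.N g) : E.rb g * E.rb g = 1 ∧ E.rb g ≠ 1 := by
  rw [E.fixK_iff] at hg
  push Not at hg
  refine ⟨?_, hg.1⟩
  have h1 := E.isUnit_det_rb g
  obtain ⟨-, h2⟩ := hg
  generalize E.rb g = M at h1 h2 ⊢
  have hd : M.det = 1 := by
    revert h1
    generalize M.det = x
    revert x
    decide
  clear h1
  revert M
  decide

lemma not_fixK_of_sq {g : Γℚ} (h : (E.rb g - 1) * (E.rb g - 1) = 0) (h1 : E.rb g ≠ 1) :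
    ¬ FixK E.N g := by
  rw [E.fixK_iff]
  push Not
  refine ⟨h1, ?_⟩
  generalize E.rb g = M at h h1 ⊢
  revert M
  decide

lemma fixK_conj (g h : Γℚ) : FixK E.N (g * h * g⁻¹) ↔ FixK E.N h := by
  have key : ∀ g h, FixK E.N h → FixK E.N (g * h * g⁻¹) := by
    intro g h hh
    rw [E.fixK_iff] at hh ⊢
    have h1 : E.rb g⁻¹ * E.rb g = 1 := by rw [← map_mul, inv_mul_cancel, map_one]
    have h2 : E.rb g * E.rb g⁻¹ = 1 := by rw [← map_mul, mul_inv_cancel, map_one]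
    rcases hh with hh | hh
    · left
      rw [map_mul, map_mul, hh, mul_one, h2]
    · right
      rw [map_mul, map_mul, Matrix.trace_mul_comm, ← mul_assoc, h1, one_mul, hh]
  refine ⟨fun h' => ?_, key g h⟩
  have := key g⁻¹ _ h'
  simpa [mul_assoc] using this

end EData

/-- the Selmer group of `E[2]` (cocycles) at level `Q` -/
structure InSel (E : EData) (Q : Finset ℕ) (b : Γℚ → V2) : Prop where
  mul : IsCoc2 E.rb b
  lc : (Fermat.Agent.CFT.galLevels ℚ Qb).LC b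
  unr : ∀ l : ℕ, l.Prime → ¬ l ∣ lev E Q → ∀ P : ValuationSubring Qb, P.LiesOverPrime l →
    ∀ σ ∈ P.inertiaSubgroupIn ℚ, b σ = 0
  sq : ∀ v : ℕ, v.Prime → v ∣ lev E Q → ∀ P : ValuationSubring Qb, P.LiesOverPrime v →
    ∀ g ∈ P.decompositionSubgroup ℚ, ¬ FixK E.N g → b (g * g) = 0

/-- **the vanishing of the Selmer group** -/
def Sel (E : EData) (Q : Finset ℕ) : Prop :=
  ∀ b : Γℚ → V2, InSel E Q b → ∃ w, ∀ g, b g = E.rb g *ᵥ w + w

end Fermat.Agent.TwoAdic
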