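import Fermat.Agent.TwoAdic.SelBasic

/-!
# Block B of the 2-adic route: finiteness of the Selmer groups, Chebotarev
-/

set_option autoImplicit false
set_option linter.unusedSectionVars false

open IsLocalRing

namespace Fermat.Agent.TwoAdic

open Matrix Fermat.Agent.CFT Fermat.Agent.Frob

local notation "M₂" => Matrix (Fin 2) (Fin 2)
local notation "Qb" => AlgebraicClosure ℚ
local notation "Γℚ" => (AlgebraicClosure ℚ ≃ₐ[ℚ] AlgebraicClosure ℚ)

variable (E : EData)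

lemma EData.exists_level (m : ℕ) : ∃ L : IntermediateField ℚ Qb, FiniteDimensional ℚ L ∧
    ∀ σ ∈ L.fixingSubgroup, E.rm m σ = 1 := by
  obtain ⟨L, hL, h⟩ := E.cont m
  refine ⟨L, hL, fun σ hσ => ?_⟩
  rw [E.rm_eq_one_iff]
  exact h σ ((IntermediateField.mem_fixingSubgroup_iff _ _).1 hσ)

lemma lev_ne_zeroS {Q : Finset ℕ} (hQ : ∀ q ∈ Q, q.Prime) : lev E Q ≠ 0 := by
  have h1 := E.two_lt
  exact mul_ne_zero (by omega) (Finset.prod_ne_zero_iff.2 fun q hq => (hQ q hq).ne_zero)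

theorem finite_inSel {Q : Finset ℕ} (hQ : ∀ q ∈ Q, q.Prime) : {b | InSel E Q b}.Finite := by
  classical
  obtain ⟨L, hL, hL1⟩ := E.exists_level 1
  have hrb : ∀ σ ∈ L.fixingSubgroup, E.rb σ = 1 := fun σ hσ => by
    rw [E.rb_eq_rm one_ne_zero, hL1 σ hσ, Matrix.map_one _ (map_zero _) (map_one _)]
  have hζ : IsPrimitiveRoot (-1 : Qb) 2 := IsPrimitiveRoot.neg_one 0 (by norm_num)
  have hζL : (-1 : Qb) ∈ L := L.neg_mem L.one_mem
  have hfinN : {q : Nat.Primes | (q : ℕ) ∣ lev E Q}.Finite := by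
    have h1 : {q : ℕ | q ∣ lev E Q}.Finite :=
      (Set.finite_le_nat (lev E Q)).subset fun q hq =>
        Nat.le_of_dvd (Nat.pos_of_ne_zero (lev_ne_zeroS E hQ)) hq
    exact h1.preimage (f := fun p : Nat.Primes => (p : ℕ)) (Nat.Primes.coe_nat_injective.injOn)
  have : Fact (Nat.Prime 2) := ⟨Nat.prime_two⟩
  have hfin := MW.finite_unr_hom (p := 2) hζ hζL hfinN.toFinset V2 (fun m => by
    rw [two_smul, v2_add_self])
  have hquot : Finite (Γℚ ⧸ L.fixingSubgroup) := by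
    have := finiteIndex_fixingSubgroup L
    exact Subgroup.finite_quotient_of_finiteIndex
  refine Set.Finite.of_injOn (f := fun b : Γℚ → V2 =>
    ((fun g : L.fixingSubgroup => b g), (fun r : Γℚ ⧸ L.fixingSubgroup => b r.out)))
    (t := {f : L.fixingSubgroup → V2 | ((galLevels ℚ Qb).restrict L.fixingSubgroup).LC f ∧
      (∀ g h, f (g * h) = f g + f h) ∧ MW.UnrOut hfinN.toFinset L f} ×ˢ Set.univ) ?_ ?_
    (hfin.prod Set.finite_univ)
  · intro b hb
    refine ⟨⟨?_, fun g h => hb.mul.mul_of (hrb g g.2), ?_⟩, trivial⟩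
    · obtain ⟨H, hH, h⟩ := hb.lc
      exact ⟨H.subgroupOf L.fixingSubgroup, ⟨H, hH, le_rfl⟩, fun g s hs =>
        h g s (Subgroup.mem_subgroupOf.mp hs)⟩
    · intro q hq A hA τ hτ
      refine hb.unr q q.2 (fun h => hq ?_) A hA τ hτ
      rw [Set.Finite.mem_toFinset]
      exact h
  · intro b hb b' hb' h
    have h1 : ∀ g : L.fixingSubgroup, b g = b' g := fun g => congrFun (congrArg Prod.fst h) g
    have h2 : ∀ r : Γℚ ⧸ L.fixingSubgroup, b r.out = b' r.out := fun r =>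
      congrFun (congrArg Prod.snd h) r
    funext σ
    obtain ⟨s, hs⟩ := QuotientGroup.mk_out_eq_mul L.fixingSubgroup σ
    have hσ : σ = (QuotientGroup.mk σ : Γℚ ⧸ L.fixingSubgroup).out *
        ((s⁻¹ : L.fixingSubgroup) : Γℚ) := by
      rw [hs]
      simp
    rw [hσ, hb.mul, hb'.mul, h2, h1]

/-- Frobenius elements of the required type -/
theorem exists_aux {m : ℕ} (hm : m ≠ 0) {Q : Finset ℕ} (hQ : ∀ q ∈ Q, q.Prime) {b : Γℚ → V2}
    (hb : InSel E Q b) {σ : Γℚ} (hσK : ¬ FixK E.N σ) (hσ : E.rm m (σ * σ) = 1)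
    (hdet : (E.rm m σ).det = -1) :
    ∃ q, q ∉ Q ∧ IsAux E m q ∧ ∃ A : ValuationSubring Qb, A.LiesOverPrime q ∧
      ∃ φ : Γℚ, A.IsFrobeniusAt φ q ∧ b φ = b σ ∧ E.rb φ = E.rb σ := by
  classical
  obtain ⟨L, hL, hL1⟩ := E.exists_level m
  obtain ⟨H, hH, hHb⟩ := hb.lc
  obtain ⟨L', hL', hL'H⟩ := mem_galLevels.1 hH
  have hF : FiniteDimensional ℚ (L ⊔ L' : IntermediateField ℚ Qb) :=
    IntermediateField.finiteDimensional_sup L L'
  obtain ⟨q, hq, hqS, -, A, hA, φ, hφ, hφσ⟩ := ChebFull.exists_frobenius_eq (L ⊔ L') σ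
    (Q ∪ (lev E Q).primeFactors ∪ {2})
  have hmem : σ⁻¹ * φ ∈ (L ⊔ L').fixingSubgroup := by
    rw [IntermediateField.mem_fixingSubgroup_iff]
    intro x hx
    rw [AlgEquiv.mul_apply, hφσ x hx]
    exact AlgEquiv.symm_apply_apply σ x
  rw [IntermediateField.fixingSubgroup_sup] at hmem
  have hφe : φ = σ * (σ⁻¹ * φ) := by group
  have hrm : E.rm m φ = E.rm m σ := by rw [hφe, map_mul, hL1 _ hmem.1, mul_one]
  have hbφ : b φ = b σ := by rw [hφe]; exact hHb _ _ (hL'H hmem.2)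
  have hrb : E.rb φ = E.rb σ := E.rb_eq_of_rm_eq hm hrm
  simp only [Finset.mem_union, Finset.mem_singleton, not_or, Nat.mem_primeFactors, not_and] at hqS
  have hqN : ¬ q ∣ lev E Q := fun h => hqS.1.2 hq h (lev_ne_zeroS E hQ)
  have hqN' : ¬ q ∣ E.N := fun h => hqN (h.mul_right _)
  refine ⟨q, hqS.1.1, ⟨hq, hqS.2, hqN', ?_, ?_⟩, A, hA, φ, hφ, hbφ, hrb⟩
  · -- the determinant
    have h1 := E.det m φ q fun μ hμ => Cheb.frob_rootOfUnity hq hA hφ (m := 2 ^ m)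
      (fun h => hqS.2 ((Nat.prime_dvd_prime_iff_eq hq Nat.prime_two).1 (hq.dvd_of_dvd_pow h))) hμ
    have h2 : (E.rm m φ).det = (q : ZMod (2 ^ m)) := by
      rw [E.det_rm, ← map_natCast (PadicInt.toZModPow (p := 2) m), toZModPow_eq_iff]
      convert h1 using 3
      push_cast
      rfl
    rw [hrm, hdet] at h2
    have h3 : ((q + 1 : ℤ) : ZMod (2 ^ m)) = 0 := by
      push_cast
      rw [← h2]
      ring
    have h4 := (ZMod.intCast_zmod_eq_zero_iff_dvd _ _).1 h3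
    exact_mod_cast h4
  · intro P hP σ' hσ'
    obtain ⟨g, rfl⟩ := exists_smul_eq hq hA hP
    rw [isFrobeniusAt_smul_iff] at hσ'
    have h1 := IsFrobeniusAt.mul_inv_mem_inertia hσ' hφ
    have h2 : E.ρ (g⁻¹ * σ' * g * φ⁻¹) = 1 := E.unr q hq hqN' A hA _ h1
    have h3 : E.rm m (g⁻¹ * σ' * g) = E.rm m σ := by
      have h4 : g⁻¹ * σ' * g = (g⁻¹ * σ' * g * φ⁻¹) * φ := by group
      rw [h4, map_mul, hrm, E.rm_apply m (g⁻¹ * σ' * g * φ⁻¹), h2,
        Matrix.map_one _ (map_zero _) (map_one _), one_mul]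
    constructor
    · rw [← E.fixK_conj g⁻¹, inv_inv, E.fixK_iff, E.rb_eq_of_rm_eq hm h3, ← E.fixK_iff]
      exact hσK
    · rw [← E.rm_eq_one_iff]
      have h5 : σ' * σ' = g * ((g⁻¹ * σ' * g) * (g⁻¹ * σ' * g)) * g⁻¹ := by group
      rw [h5, map_mul, map_mul, map_mul, h3, ← map_mul, hσ, mul_one, ← map_mul, mul_inv_cancel,
        map_one]

end Fermat.Agent.TwoAdic
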