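import Fermat.Agent.TwoAdic.SelFin
import Fermat.Agent.TwoAdic.KField
import Fermat.Agent.CFT.Two.Local
import Fermat.Agent.Patch.TamePair

/-!
# Block B of the 2-adic route: the induction step
-/

set_option autoImplicit false
set_option linter.unusedSectionVars false

open IsLocalRing

namespace Fermat.Agent.TwoAdic

open Matrix Fermat.Agent.CFT Fermat.Agent.Frob

local notation "M₂" => Matrix (Fin 2) (Fin 2)
local notation "Qb" => AlgebraicClosure ℚ
local notation "Γℚ" => (AlgebraicClosure ℚ ≃ₐ[ℚ] AlgebraicClosure ℚ)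

variable (E : EData)

/-- `K` is ramified at all `v ∣ N` -/
lemma exists_inertia_not_fixK {v : ℕ} (hv : v.Prime) (hvN : v ∣ E.N) {P : ValuationSubring Qb}
    (hP : P.LiesOverPrime v) : ∃ τ ∈ P.inertiaSubgroupIn ℚ, ¬ FixK E.N τ := by
  have hN : 0 < E.N := lt_trans two_pos E.two_lt
  have := isGalois_KN hN
  have hnu : nu E.N ∈ below (NumberField.RingOfIntegers (KN E.N)) P := by
    have hmax := below_isMaximal (R := NumberField.RingOfIntegers (KN E.N)) hv hP
    have h1 : nu E.N ^ 2 ∈ below (NumberField.RingOfIntegers (KN E.N)) P := by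
      rw [nu_sq]
      obtain ⟨d, hd⟩ := hvN
      rw [hd]
      push_cast
      exact neg_mem (Ideal.mul_mem_right _ _ (natCast_mem_below hP))
    exact hmax.isPrime.mem_of_pow_mem _ h1
  obtain ⟨σ, hσ, hσ'⟩ := exists_mem_inertia_restrict (K := ℚ) (F := KN E.N) P hv hP (conjK hN) (by
    intro x
    obtain ⟨a, b, hx⟩ := exists_int_rep E.isLev x
    have h1 : conjK hN • x - x = -(2 * b) * nu E.N := by
      apply FaithfulSMul.algebraMap_injective (NumberField.RingOfIntegers (KN E.N)) (KN E.N)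
      have h2 : algebraMap (NumberField.RingOfIntegers (KN E.N)) (KN E.N) (conjK hN • x) =
        conjK hN (algebraMap (NumberField.RingOfIntegers (KN E.N)) (KN E.N) x) := rfl
      have h3 : algebraMap (NumberField.RingOfIntegers (KN E.N)) (KN E.N) x =
          a + b * nuK E.N := by
        rw [hx, map_add, map_mul, map_intCast, map_intCast, coe_nu]
      rw [map_sub, h2, h3, map_add, map_mul, map_intCast, map_intCast, conjK_nu]
      simp only [map_mul, map_neg, map_ofNat, map_intCast, coe_nu]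
      ring
    rw [h1]
    exact Ideal.mul_mem_left _ _ hnu)
  refine ⟨σ, hσ, fun h => conjK_ne_one hN ?_⟩
  rw [← hσ']
  ext x
  have h2 := AlgEquiv.restrictNormal_commutes σ (KN E.N) x
  have h3 := h x x.2
  rw [AlgEquiv.one_apply, ← h3]
  exact h2

/-- the local condition on `E[2]` -/
def Unip2 (P : ValuationSubring Qb) : Prop :=
  ∀ g ∈ P.decompositionSubgroup ℚ, ∀ h ∈ P.decompositionSubgroup ℚ,
    (E.rb g - 1) * (E.rb h - 1) = 0

lemma unr_sq {v : ℕ} (hv : v.Prime) (hvN : v ∣ E.N) (g : Γℚ) :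
    unr v (E.a v : ℤ_[2]) g * unr v (E.a v : ℤ_[2]) g = 1 := by
  unfold unr
  split_ifs with h
  · rw [one_mul]
  · rcases E.sign v hv hvN with h1 | h1 <;> rw [h1] <;> norm_num

lemma zmod2_eq_one {x y : ZMod 2} (h : x * y = 1) : x = 1 := by
  revert x y
  decide

lemma toZMod_unr {v : ℕ} (hv : v.Prime) (hvN : v ∣ E.N) (g : Γℚ) :
    PadicInt.toZMod (p := 2) (unr v (E.a v : ℤ_[2]) g) = 1 := by
  have h := congrArg (PadicInt.toZMod (p := 2)) (unr_sq E hv hvN g)
  rw [map_mul, map_one] at h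
  exact zmod2_eq_one h

lemma toZMod_det (g : Γℚ) : PadicInt.toZMod (p := 2) (E.ρ g).det = 1 := by
  have h : (E.ρ g).det * (E.ρ g⁻¹).det = 1 := by
    rw [← Matrix.det_mul, ← map_mul, mul_inv_cancel, map_one, Matrix.det_one]
  have h' := congrArg (PadicInt.toZMod (p := 2)) h
  rw [map_mul, map_one] at h'
  exact zmod2_eq_one h'

lemma map_scalar_sub {R S : Type*} [CommRing R] [CommRing S] (f : R →+* S) (M : M₂ R) (a : R) :
    (M - Matrix.scalar (Fin 2) a).map f = M.map f - Matrix.scalar (Fin 2) (f a) := by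
  rw [Matrix.map_sub _ (map_sub f)]
  congr 1
  rw [Matrix.scalar_apply, Matrix.scalar_apply, Matrix.diagonal_map (map_zero f)]

lemma unip2_of_dvd {v : ℕ} (hv : v.Prime) (hvN : v ∣ E.N) {P : ValuationSubring Qb}
    (hP : P.LiesOverPrime v) : Unip2 E P := by
  intro g hg h hh
  have h1 := E.star v hv hvN P hP g hg h hh
  have h2 := congrArg (fun M => M.map (PadicInt.toZMod (p := 2))) h1
  simp only [Matrix.map_mul, map_scalar_sub, Matrix.map_zero _ (map_zero (PadicInt.toZMod (p := 2)))] at h2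
  rw [map_mul (PadicInt.toZMod (p := 2)), toZMod_det, toZMod_unr E hv hvN,
    toZMod_unr E hv hvN, mul_one, map_one, ← E.rb_apply, ← E.rb_apply] at h2
  exact h2

lemma rb_of_unr {q : ℕ} (hq : q.Prime) (hqN : ¬ q ∣ E.N) {P : ValuationSubring Qb}
    (hP : P.LiesOverPrime q) {τ : Γℚ} (hτ : τ ∈ P.inertiaSubgroupIn ℚ) : E.rb τ = 1 := by
  rw [E.rb_apply, E.unr q hq hqN P hP τ hτ, Matrix.map_one _ (map_zero _) (map_one _)]

lemma exists_frob_gen {q : ℕ} (hq : q.Prime) (hqN : ¬ q ∣ E.N) {P : ValuationSubring Qb}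
    (hP : P.LiesOverPrime q) : ∃ φ, P.IsFrobeniusAt φ q ∧ ∀ σ ∈ P.decompositionSubgroup ℚ,
      ∃ i : ℕ, E.rb σ = E.rb φ ^ i := by
  have : Fact q.Prime := ⟨hq⟩
  obtain ⟨g, rfl⟩ := Loc.exists_eq_smul_padicPlace q hP
  obtain ⟨φ, hφ⟩ := Loc.exists_frobenius_loc q
  refine ⟨_, Patch.isFrobeniusAt_rg q g hφ, fun σ hσ => ?_⟩
  obtain ⟨L, hL, hL1⟩ := E.exists_level 1
  obtain ⟨i, h, hh, t, ht, rfl⟩ := Patch.exists_frob_pow_mul q g hφ hσ L
  refine ⟨i, ?_⟩
  have h1 : E.rb h = 1 := by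
    rw [E.rb_eq_rm one_ne_zero, hL1 h hh, Matrix.map_one _ (map_zero _) (map_one _)]
  rw [map_mul, map_mul, map_pow, h1, rb_of_unr E hq hqN hP ht, mul_one, mul_one]

variable {E} in
lemma IsAux.not_fixK {m q : ℕ} (h : IsAux E m q) {P : ValuationSubring Qb}
    (hP : P.LiesOverPrime q) {φ : Γℚ} (hφ : P.IsFrobeniusAt φ q) : ¬ FixK E.N φ :=
  (h.frob P hP φ hφ).1

lemma unip2_of_aux {m q : ℕ} (h : IsAux E m q) {P : ValuationSubring Qb}
    (hP : P.LiesOverPrime q) : Unip2 E P := by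
  obtain ⟨φ, hφ, hgen⟩ := exists_frob_gen E h.prime h.not_dvd hP
  have h1 := (E.not_fixK (h.not_fixK hP hφ)).1
  have key : ∀ σ ∈ P.decompositionSubgroup ℚ, E.rb σ = 1 ∨ E.rb σ = E.rb φ := by
    intro σ hσ
    obtain ⟨i, hi⟩ := hgen σ hσ
    rw [hi]
    obtain ⟨j, hj | hj⟩ := Nat.even_or_odd' i
    · left
      rw [hj, pow_mul, sq, h1, one_pow]
    · right
      rw [hj, pow_succ, pow_mul, sq, h1, one_pow, one_mul]
  intro a ha b hb
  rcases key a ha with h2 | h2
  · rw [h2, sub_self, zero_mul]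
  rcases key b hb with h3 | h3
  · rw [h3, sub_self, mul_zero]
  rw [h2, h3]
  generalize E.rb φ = M at h1
  revert M
  decide

lemma dvd_lev_iff {Q : Finset ℕ} (hQ : ∀ q ∈ Q, q.Prime) {v : ℕ} (hv : v.Prime) :
    v ∣ lev E Q ↔ v ∣ E.N ∨ v ∈ Q := by
  rw [lev, hv.dvd_mul, Prime.dvd_finsetProd_iff hv.prime]
  refine or_congr Iff.rfl ⟨?_, fun h => ⟨v, h, dvd_rfl⟩⟩
  rintro ⟨q, hq, h⟩
  rwa [(Nat.prime_dvd_prime_iff_eq hv (hQ q hq)).1 h]

lemma unip2 {m : ℕ} {Q : Finset ℕ} (hQ : ∀ q ∈ Q, IsAux E m q) {v : ℕ} (hv : v.Prime)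
    (hvl : v ∣ lev E Q) {P : ValuationSubring Qb} (hP : P.LiesOverPrime v) :
    Unip2 E P ∧ ∃ j ∈ P.decompositionSubgroup ℚ, ¬ FixK E.N j := by
  rw [dvd_lev_iff E (fun q hq => (hQ q hq).prime) hv] at hvl
  rcases hvl with h | h
  · obtain ⟨j, hj, hjK⟩ := exists_inertia_not_fixK E hv h hP
    exact ⟨unip2_of_dvd E hv h hP, j, ((mem_inertiaSubgroupIn_iff P j).1 hj).1, hjK⟩
  · obtain ⟨j, hj⟩ := exists_isFrobeniusAt P hv hP
    exact ⟨unip2_of_aux E (hQ v h) hP, j, ((isFrobeniusAt_iff P j v).1 hj).1,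
      (hQ v h).not_fixK hP hj⟩

variable {E}

/-- **the local condition**: on the local groups at the level `b` takes values in the
invariants -/
lemma InSel.line {m : ℕ} {Q : Finset ℕ} (hQ : ∀ q ∈ Q, IsAux E m q) {b : Γℚ → V2}
    (hb : InSel E Q b) {v : ℕ} (hv : v.Prime) (hvl : v ∣ lev E Q) {P : ValuationSubring Qb}
    (hP : P.LiesOverPrime v) {g h : Γℚ} (hg : g ∈ P.decompositionSubgroup ℚ)
    (hh : h ∈ P.decompositionSubgroup ℚ) : E.rb g *ᵥ b h = b h := by
  obtain ⟨hu, j, hj, hjK⟩ := unip2 E hQ hv hvl hP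
  obtain ⟨hj2, hj1⟩ := E.not_fixK hjK
  -- all elements act trivially or as `j`
  have key : ∀ σ ∈ P.decompositionSubgroup ℚ, E.rb σ = 1 ∨ E.rb σ = E.rb j := by
    intro σ hσ
    have h1 := hu σ hσ j hj
    have h2 := hu σ hσ σ hσ
    have h3 := hu j hj j hj
    generalize E.rb σ = M at h1 h2 ⊢
    generalize E.rb j = M' at h1 h3 hj1 ⊢
    clear hj2
    revert M M'
    decide
  have h1 : ∀ σ ∈ P.decompositionSubgroup ℚ, ¬ FixK E.N σ → E.rb j *ᵥ b σ = b σ := by
    intro σ hσ hσK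
    have h2 := hb.sq v hv hvl P hP σ hσ hσK
    rw [hb.mul, add_comm] at h2
    rcases key σ hσ with h3 | h3
    · exact absurd h3 (E.not_fixK hσK).2
    · rw [← h3]
      exact v2_eq_of_add h2
  have h2 : ∀ σ ∈ P.decompositionSubgroup ℚ, E.rb j *ᵥ b σ = b σ := by
    intro σ hσ
    by_cases hσK : FixK E.N σ
    · have h3 : ¬ FixK E.N (j * σ) := by
        intro h4
        apply hjK
        intro x hx
        have h5 := h4 x hx
        rwa [AlgEquiv.mul_apply, hσK x hx] at h5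
      have h4 := h1 (j * σ) (mul_mem hj hσ) h3
      rw [hb.mul, mulVec_add, h1 j hj hjK, mulVec_mulVec, hj2, one_mulVec] at h4
      exact (add_left_cancel h4).symm
    · exact h1 σ hσ hσK
  rcases key g hg with h3 | h3
  · rw [h3, one_mulVec]
  · rw [h3, h2 h hh]

/-- complex conjugation is not in `G_K` -/
lemma not_fixK_conj (E : EData) : ¬ FixK E.N complexConjugation := by
  intro h
  have h1 : nu0 E.N ∈ KN E.N := by
    rw [KN_eq]; exact IntermediateField.mem_adjoin_simple_self ℚ _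
  have h2 := congrArg complexEmbedding (h _ h1)
  rw [complexEmbedding_complexConjugation] at h2
  have h3 : complexEmbedding (nu0 E.N) ^ 2 = -(E.N : ℂ) := by
    rw [← map_pow, nu0_sq, map_neg, map_natCast]
  obtain ⟨r, hr⟩ := Complex.conj_eq_iff_real.1 h2
  rw [hr] at h3
  have h4 : r ^ 2 = -(E.N : ℝ) := by exact_mod_cast h3
  have h5 : (0 : ℝ) < E.N := by
    have := E.two_lt
    exact_mod_cast (by omega : 0 < E.N)
  nlinarith [sq_nonneg r]

/-- the cup product -/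
noncomputable def cup2 (E : EData) (b b' : Γℚ → V2) (g h : Γℚ) : ZMod 2 :=
  pair2 (b g) (E.rb g *ᵥ b' h)

lemma lc_rb (E : EData) : (galLevels ℚ Qb).LC (fun g => E.rb g) := by
  obtain ⟨L, hL, hL1⟩ := E.exists_level 1
  refine ⟨L.fixingSubgroup, fixingSubgroup_mem_galLevels L, fun g s hs => ?_⟩
  simp only [map_mul]
  rw [show E.rb s = 1 by
    rw [E.rb_eq_rm one_ne_zero, hL1 s hs, Matrix.map_one _ (map_zero _) (map_one _)], mul_one]

lemma cup2_mem {b b' : Γℚ → V2} (hb : IsCoc2 E.rb b) (hb' : IsCoc2 E.rb b')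
    (hlc : (galLevels ℚ Qb).LC b) (hlc' : (galLevels ℚ Qb).LC b') :
    cup2 E b b' ∈ Z2 (galLevels ℚ Qb) (triv 2 Γℚ) := by
  rw [mem_Z2]
  refine ⟨(Levels.LC.comp₂ hlc (lc_rb E) Prod.mk).fst.comp₂ hlc'.snd
    (fun x v => pair2 x.1 (x.2 *ᵥ v)), fun g h j => ?_⟩
  simp only [cup2, Representation.trivial_apply, map_mul]
  rw [hb g h, hb' h j, mulVec_add, pair2_add_left, pair2_add_right, ← mulVec_mulVec,
    pair2_mulVec (E.isUnit_det_rb g)]
  ring

lemma InSel.pair_eq_zero {m : ℕ} {Q : Finset ℕ} (hQ : ∀ q ∈ Q, IsAux E m q) {b b' : Γℚ → V2}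
    (hb : InSel E Q b) {Q' : Finset ℕ} (hQ' : ∀ q ∈ Q', IsAux E m q)
    (hb' : InSel E Q' b') {v : ℕ} (hv : v.Prime) (hvl : v ∣ lev E Q)
    (hvl' : v ∣ lev E Q') {P : ValuationSubring Qb}
    (hP : P.LiesOverPrime v) {g h : Γℚ} (hg : g ∈ P.decompositionSubgroup ℚ)
    (hh : h ∈ P.decompositionSubgroup ℚ) : cup2 E b b' g h = 0 := by
  obtain ⟨-, j, hj, hjK⟩ := unip2 E hQ hv hvl hP
  rw [cup2, hb'.line hQ' hv hvl' hP hg hh]
  exact pair2_eq_zero (E.not_fixK hjK).2 (hb.line hQ hv hvl hP hj hg)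
    (hb'.line hQ' hv hvl' hP hj hh)

lemma dOn_zero {p : ℕ} {G : Type*} [Group G] {𝓛 : Levels G} {U : Subgroup G}
    {f : G → G → ZMod p} (h : ∀ a ∈ U, ∀ b ∈ U, f a b = 0) : DOn 𝓛 U f := by
  refine DOn.congr (f := fun _ _ => 0) (fun a ha b hb => (h a ha b hb).symm) ?_
  exact Submodule.zero_mem _

/-- the cup product is trivial at all places but `q` -/
theorem cup2_local {m : ℕ} {Q : Finset ℕ} (hQ : ∀ q ∈ Q, IsAux E m q) {q : ℕ}
    (hq : IsAux E m q) {b b' : Γℚ → V2} (hb : InSel E Q b) (hb' : InSel E (insert q Q) b')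
    {l : ℕ} (hl : l.Prime) (hlq : l ≠ q) {A : ValuationSubring Qb} (hA : A.LiesOverPrime l) :
    DOn (galLevels ℚ Qb) (A.decompositionSubgroup ℚ) (cup2 E b b') := by
  have hQ' : ∀ q' ∈ insert q Q, IsAux E m q' := by
    intro q' hq'
    rcases Finset.mem_insert.1 hq' with rfl | h
    · exact hq
    · exact hQ q' h
  by_cases hll : l ∣ lev E Q
  · have hll' : l ∣ lev E (insert q Q) := by
      rw [dvd_lev_iff E (fun q' hq' => (hQ' q' hq').prime) hl]
      rw [dvd_lev_iff E (fun q' hq' => (hQ q' hq').prime) hl] at hll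
      exact hll.imp_right (Finset.mem_insert_of_mem)
    exact dOn_zero fun g hg h hh => hb.pair_eq_zero hQ hQ' hb' hl hll hll' hA hg hh
  · have hll' : ¬ l ∣ lev E (insert q Q) := by
      rw [dvd_lev_iff E (fun q' hq' => (hQ' q' hq').prime) hl]
      rw [dvd_lev_iff E (fun q' hq' => (hQ q' hq').prime) hl] at hll
      rw [Finset.mem_insert]
      tauto
    have hlN : ¬ l ∣ E.N := fun h => hll (h.mul_right _)
    refine Two.dOn_of_unr' hl hA (cup2_mem hb.mul hb'.mul hb.lc hb'.lc) ?_ ?_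
    · intro g _ h _ u hu
      have h1 := rb_of_unr E hl hlN hA hu
      rw [cup2, cup2, hb.mul, hb.unr l hl hll A hA u hu, mulVec_zero, add_zero, map_mul, h1,
        mul_one]
    · intro g _ h _ u hu
      rw [cup2, cup2, hb'.mul, hb'.unr l hl hll' A hA u hu, mulVec_zero, add_zero]

/-- **(B2)** global reciprocity: a class in the bigger Selmer group is unramified at `q` -/
theorem InSel.unr_at {m : ℕ} (hm : 2 ≤ m) {Q : Finset ℕ} (hQ : ∀ q ∈ Q, IsAux E m q) {q : ℕ}
    (hqQ : q ∉ Q) (hq : IsAux E m q) {b b' : Γℚ → V2} (hb : InSel E Q b)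
    (hb' : InSel E (insert q Q) b') {A : ValuationSubring Qb} (hA : A.LiesOverPrime q)
    {φ : Γℚ} (hφ : A.IsFrobeniusAt φ q) (hbφ : b (φ * φ) ≠ 0) {u : Γℚ}
    (hu : u ∈ A.inertiaSubgroupIn ℚ) : b' u = 0 := by
  have : Fact q.Prime := ⟨hq.prime⟩
  have hQ' : ∀ q' ∈ insert q Q, IsAux E m q' := by
    intro q' hq'
    rcases Finset.mem_insert.1 hq' with rfl | h
    · exact hq
    · exact hQ q' h
  have hq4 : q % 4 = 3 := by
    have h1 : (2 ^ 2 : ℤ) ∣ q + 1 := (pow_dvd_pow 2 hm).trans hq.modEq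
    omega
  have hql : q ∣ lev E (insert q Q) := by
    rw [dvd_lev_iff E (fun q' hq' => (hQ' q' hq').prime) hq.prime]
    exact Or.inr (Finset.mem_insert_self _ _)
  have hql' : ¬ q ∣ lev E Q := by
    rw [dvd_lev_iff E (fun q' hq' => (hQ q' hq').prime) hq.prime]
    exact fun h => h.elim hq.not_dvd hqQ
  have hφD : φ ∈ A.decompositionSubgroup ℚ := ((isFrobeniusAt_iff A φ q).1 hφ).1
  have hφK := hq.not_fixK hA hφ
  obtain ⟨hφ2, hφ1⟩ := E.not_fixK hφK
  have harch : cup2 E b b' complexConjugation complexConjugation = cup2 E b b' 1 1 := by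
    have h1 : ∀ x : Γℚ → V2, IsCoc2 E.rb x →
        E.rb complexConjugation *ᵥ x complexConjugation = x complexConjugation := by
      intro x hx
      have h2 := hx complexConjugation complexConjugation
      rw [complexConjugation_mul_self, hx.one, add_comm] at h2
      exact v2_eq_of_add h2.symm
    rw [cup2, cup2, hb.mul.one, h1 b' hb'.mul, pair2_eq_zero (E.not_fixK (not_fixK_conj E)).2
      (h1 b hb.mul) (h1 b' hb'.mul)]
    simp [pair2]
  have hD := Two.recipQ hq4 (cup2_mem hb.mul hb'.mul hb.lc hb'.lc)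
    (c := complexConjugation) (τ := complexEmbedding.toRingHom)
    (fun z => complexEmbedding_complexConjugation z) harch
    (fun l hl hlq A' hA' => cup2_local hQ hq hb hb' hl hlq hA') A hA
  -- the invariant vector
  set e : V2 := b (φ * φ) with he
  have he' : e = b φ + E.rb φ *ᵥ b φ := hb.mul φ φ
  have hfix : ∀ g ∈ A.decompositionSubgroup ℚ, E.rb g *ᵥ e = e := by
    intro g hg
    have h1 := unip2_of_aux E hq hA g hg φ hφD
    rw [he']
    exact aux_fix _ _ hφ2 hφ1 h1 _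
  have hpe : pair2 (b φ) e = 1 := by
    rw [he'] at hbφ ⊢
    exact aux_one _ hφ2 hφ1 _ hbφ
  have hb'e : ∀ g ∈ A.decompositionSubgroup ℚ, b' g = pair2 (b φ) (b' g) • e := by
    intro g hg
    have h1 := hb'.line hQ' hq.prime hql hA hφD hg
    rw [he'] at hpe ⊢
    exact aux_line _ hφ2 hφ1 _ _ h1 hpe
  have hb'add : ∀ g ∈ A.decompositionSubgroup ℚ, ∀ h ∈ A.decompositionSubgroup ℚ,
      b' (g * h) = b' g + b' h := by
    intro g hg h hh
    rw [hb'.mul, hb'.line hQ' hq.prime hql hA hg hh]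
  have key := Two.eq_zero_on_inertia_of_cup hq.prime hq.ne_two hA
    (η := fun g => pair2 (b g) e) (y := fun g => pair2 (b φ) (b' g)) ?_ ?_ ?_ ?_ ?_
    (φ := ⟨φ, hφD⟩) hpe ?_ ⟨u, ((mem_inertiaSubgroupIn_iff A u).1 hu).1⟩ hu
  · rw [hb'e u ((mem_inertiaSubgroupIn_iff A u).1 hu).1]
    have key' : pair2 (b φ) (b' u) = 0 := key
    rw [key', zero_smul]
  · obtain ⟨H, hH, h⟩ := hb.lc
    exact ⟨H.subgroupOf _, ⟨H, hH, le_rfl⟩, fun g s hs => by
      show pair2 (b (g * s)) e = pair2 (b g) e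
      rw [h g s (Subgroup.mem_subgroupOf.mp hs)]⟩
  · intro g h
    show pair2 (b (g * h)) e = pair2 (b g) e + pair2 (b h) e
    rw [hb.mul, pair2_add_left]
    congr 1
    conv_lhs => rw [← hfix g g.2]
    exact pair2_mulVec (E.isUnit_det_rb g) _ _
  · obtain ⟨H, hH, h⟩ := hb'.lc
    exact ⟨H.subgroupOf _, ⟨H, hH, le_rfl⟩, fun g s hs => by
      show pair2 (b φ) (b' (g * s)) = pair2 (b φ) (b' g)
      rw [h g s (Subgroup.mem_subgroupOf.mp hs)]⟩
  · intro g h
    show pair2 (b φ) (b' (g * h)) = pair2 (b φ) (b' g) + pair2 (b φ) (b' h)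
    rw [hb'add g g.2 h h.2, pair2_add_right]
  · intro w hw
    show pair2 (b w) e = 0
    rw [hb.unr q hq.prime hql' A hA w hw]
    simp [pair2]
  · have h1 : (fun g h : A.decompositionSubgroup ℚ => pair2 (b g) e * pair2 (b φ) (b' h)) =
        fun g h : A.decompositionSubgroup ℚ => cup2 E b b' g h := by
      funext g h
      rw [cup2, hb'.line hQ' hq.prime hql hA g.2 h.2, hb'e h h.2]
      have h2 : ∀ (t : ZMod 2) (v w : V2), pair2 v (t • w) = pair2 v w * t := by
        intro t v w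
        simp only [pair2, Pi.smul_apply, smul_eq_mul]
        ring
      rw [h2, h2, hpe, one_mul]
    rw [h1]
    exact hD

end Fermat.Agent.TwoAdic
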