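import Fermat.Agent.LT.Poisson

set_option autoImplicit false

/-! # Poisson summation for binary theta functions -/

namespace Fermat.Agent.TwoAdic

open MeasureTheory Complex Topology Fermat.Agent.LT
open scoped Real ComplexConjugate

/-- a real binary quadratic form -/
def bq (al be ga : ℝ) (x : Fin 2 → ℝ) : ℝ := al * x 0 ^ 2 + be * x 0 * x 1 + ga * x 1 ^ 2

section

variable {al be ga : ℝ} (ha : 0 < al) (hD : 0 < 4 * al * ga - be ^ 2)

include ha hD in
theorem ga_pos : 0 < ga := by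
  by_contra h
  push Not at h
  have : al * ga ≤ 0 := mul_nonpos_of_nonneg_of_nonpos ha.le h
  nlinarith [sq_nonneg be]

include ha hD in
theorem bq_ge (x : Fin 2 → ℝ) :
    (4 * al * ga - be ^ 2) / (4 * (al + ga)) * (x 0 ^ 2 + x 1 ^ 2) ≤ bq al be ga x := by
  have hg := ga_pos ha hD
  rw [div_mul_eq_mul_div, div_le_iff₀ (by positivity)]
  unfold bq
  nlinarith [sq_nonneg (2 * al * x 0 + be * x 1), sq_nonneg (be * x 0 + 2 * ga * x 1)]

/-- the Gaussian -/
noncomputable def gf (al be ga : ℝ) (τ : ℂ) (x : Fin 2 → ℝ) : ℂ :=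
  cexp (2 * π * I * τ * (bq al be ga x : ℝ))

theorem continuous_gf (τ : ℂ) : Continuous (gf al be ga τ) := by
  unfold gf bq
  fun_prop

theorem norm_gf (τ : ℂ) (x : Fin 2 → ℝ) :
    ‖gf al be ga τ x‖ = Real.exp (-2 * π * τ.im * bq al be ga x) := by
  unfold gf
  rw [Complex.norm_exp]
  congr 1
  rw [Complex.re_mul_ofReal]
  congr 1
  simp [mul_comm, mul_assoc, mul_left_comm]

theorem exp_neg_le (s : ℝ) (hs : 0 ≤ s) : Real.exp (-s) ≤ (1 + s)⁻¹ := by
  rw [Real.exp_neg]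
  apply inv_anti₀ (by positivity)
  linarith [Real.add_one_le_exp s]

theorem exp_le_pwt (c : ℝ) (hc : 0 < c) (x : Fin 2 → ℝ) :
    Real.exp (-(c * (x 0 ^ 2 + x 1 ^ 2))) ≤ (1 + 1 / c) ^ 2 * pwt x := by
  have h1 : ∀ t : ℝ, Real.exp (-(c * t ^ 2)) ≤ (1 + 1 / c) * (1 + t ^ 2)⁻¹ := by
    intro t
    refine (exp_neg_le _ (by positivity)).trans ?_
    rw [inv_le_iff_one_le_mul₀ (by positivity), mul_assoc, ← div_eq_inv_mul,
      mul_div_assoc', le_div_iff₀ (by positivity)]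
    have : (1 + 1 / c) * (1 + c * t ^ 2) = 1 + t ^ 2 + (c * t ^ 2 + 1 / c) := by
      field_simp; ring
    rw [this]
    have : 0 ≤ c * t ^ 2 + 1 / c := by positivity
    linarith
  have h2 : Real.exp (-(c * (x 0 ^ 2 + x 1 ^ 2))) =
      Real.exp (-(c * x 0 ^ 2)) * Real.exp (-(c * x 1 ^ 2)) := by
    rw [← Real.exp_add]; congr 1; ring
  rw [h2]
  have h3 : (1 + 1 / c) ^ 2 * pwt x =
      ((1 + 1 / c) * (1 + x 0 ^ 2)⁻¹) * ((1 + 1 / c) * (1 + x 1 ^ 2)⁻¹) := by
    unfold pwt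
    rw [Fin.prod_univ_two]; ring
  rw [h3]
  exact mul_le_mul (h1 _) (h1 _) (Real.exp_pos _).le (by positivity)

/-- the constant in the Gaussian bound -/
noncomputable def gcon (al be ga : ℝ) : ℝ := (4 * al * ga - be ^ 2) / (4 * (al + ga))

include ha hD in
theorem gcon_pos : 0 < gcon al be ga := by
  have := ga_pos ha hD
  unfold gcon; positivity

include ha hD in
theorem norm_gf_le {τ : ℂ} (hτ : 0 < τ.im) (x : Fin 2 → ℝ) :
    ‖gf al be ga τ x‖ ≤ Real.exp (-(2 * π * τ.im * gcon al be ga * (x 0 ^ 2 + x 1 ^ 2))) := by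
  rw [norm_gf]
  apply Real.exp_le_exp.mpr
  have h := bq_ge ha hD x
  have h2 : 0 < 2 * π * τ.im := by positivity
  have h3 := mul_le_mul_of_nonneg_left h h2.le
  unfold gcon
  nlinarith

include ha hD in
theorem norm_gf_le_pwt {τ : ℂ} (hτ : 0 < τ.im) (x : Fin 2 → ℝ) :
    ‖gf al be ga τ x‖ ≤ (1 + 1 / (2 * π * τ.im * gcon al be ga)) ^ 2 * pwt x := by
  have := gcon_pos ha hD
  exact (norm_gf_le ha hD hτ x).trans (exp_le_pwt _ (by positivity) x)

theorem cpow_half (r : ℝ) (hr : 0 < r) (w : ℂ) (hw : w ≠ 0) :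
    ((r : ℂ) * w) ^ (1 / 2 : ℂ) = (Real.sqrt r : ℂ) * w ^ (1 / 2 : ℂ) := by
  have hr' : (r : ℂ) ≠ 0 := by exact_mod_cast hr.ne'
  rw [Complex.cpow_def_of_ne_zero (mul_ne_zero hr' hw), Complex.cpow_def_of_ne_zero hw,
    Complex.log_ofReal_mul hr hw, add_mul, Complex.exp_add]
  congr 1
  rw [Real.sqrt_eq_rpow, Complex.ofReal_cpow hr.le, Complex.cpow_def_of_ne_zero hr',
    Complex.ofReal_log hr.le]
  push_cast
  rfl

include ha hD in
theorem FT_gf {τ : ℂ} (hτ : 0 < τ.im) (m : Fin 2 → ℤ) :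
    FT (gf al be ga τ) m = I / τ / (Real.sqrt (4 * al * ga - be ^ 2) : ℂ) *
      cexp (-2 * π * I / τ * ((ga * m 0 ^ 2 - be * m 0 * m 1 + al * m 1 ^ 2) /
        (4 * al * ga - be ^ 2))) := by
  have hτ0 : τ ≠ 0 := by rintro rfl; simp at hτ
  have hal : (al : ℂ) ≠ 0 := by exact_mod_cast ha.ne'
  set D : ℝ := 4 * al * ga - be ^ 2 with hDdef
  have hDc : (D : ℂ) ≠ 0 := by exact_mod_cast hD.ne'
  have hpi : (π : ℂ) ≠ 0 := by exact_mod_cast Real.pi_ne_zero
  have hDcast : (4 * al * ga - be ^ 2 : ℂ) = (D : ℂ) := by rw [hDdef]; push_cast; ring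
  rw [hDcast]
  have hint : Integrable (fun x : Fin 2 → ℝ => ee (-m) x * gf al be ga τ x) := by
    have h1 := integrable_of_bound (continuous_gf τ) (norm_gf_le_pwt ha hD hτ)
    refine h1.norm.mono' ?_ (Filter.Eventually.of_forall fun x => ?_)
    · exact ((continuous_ee _).mul (continuous_gf τ)).aestronglyMeasurable
    · simp only [norm_mul, norm_ee, one_mul, le_refl]
  unfold FT
  have hmp := volume_preserving_finTwoArrow ℝ
  rw [← hmp.symm.integral_comp (MeasurableEquiv.finTwoArrow.symm.measurableEmbedding)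
    (fun x : Fin 2 → ℝ => ee (-m) x * gf al be ga τ x)]
  have hint2 : Integrable (fun p : ℝ × ℝ => ee (-m) (MeasurableEquiv.finTwoArrow.symm p) *
      gf al be ga τ (MeasurableEquiv.finTwoArrow.symm p)) (volume.prod volume) :=
    (hmp.symm.integrable_comp_emb MeasurableEquiv.finTwoArrow.symm.measurableEmbedding).mpr hint
  have hswap : ∫ p : ℝ × ℝ, ee (-m) (MeasurableEquiv.finTwoArrow.symm p) *
      gf al be ga τ (MeasurableEquiv.finTwoArrow.symm p) =
      ∫ y : ℝ, ∫ x : ℝ, ee (-m) (MeasurableEquiv.finTwoArrow.symm (x, y)) *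
      gf al be ga τ (MeasurableEquiv.finTwoArrow.symm (x, y)) :=
    integral_prod_symm _ hint2
  rw [hswap]
  have hterm : ∀ x y : ℝ, ee (-m) (MeasurableEquiv.finTwoArrow.symm (x, y)) *
      gf al be ga τ (MeasurableEquiv.finTwoArrow.symm (x, y)) =
      cexp (2 * π * I * τ * al * (x : ℂ) ^ 2 + (-2 * π * I * m 0 + 2 * π * I * τ * be * y) * x +
        (-2 * π * I * m 1 * y + 2 * π * I * τ * ga * y ^ 2)) := by
    intro x y
    unfold ee gf bq
    rw [← Complex.exp_add]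
    congr 1
    rw [Fin.sum_univ_two]
    have h0 : (MeasurableEquiv.finTwoArrow.symm (x, y) : Fin 2 → ℝ) 0 = x := rfl
    have h1 : (MeasurableEquiv.finTwoArrow.symm (x, y) : Fin 2 → ℝ) 1 = y := rfl
    rw [h0, h1, Pi.neg_apply, Pi.neg_apply]
    push_cast
    ring
  simp_rw [hterm]
  have hb1 : (2 * π * I * τ * al : ℂ).re < 0 := by
    have : (2 * π * I * τ * al : ℂ) = ((2 * π * al : ℝ) : ℂ) * (I * τ) := by push_cast; ring
    rw [this, Complex.re_ofReal_mul, Complex.I_mul_re]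
    have : 0 < 2 * π * al * τ.im := by positivity
    nlinarith
  simp_rw [integral_cexp_quadratic hb1]
  have hexp : ∀ y : ℝ, (-2 * π * I * m 1 * y + 2 * π * I * τ * ga * y ^ 2 : ℂ) -
      (-2 * π * I * m 0 + 2 * π * I * τ * be * y) ^ 2 / (4 * (2 * π * I * τ * al)) =
      (2 * π * I * τ * (D / (4 * al) : ℝ)) * (y : ℂ) ^ 2 +
      (2 * π * I * (-m 1 + m 0 * be / (2 * al))) * y + (-2 * π * I * m 0 ^ 2 / (4 * al * τ)) := by
    intro y
    rw [hDdef]
    push_cast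
    field_simp
    ring
  simp_rw [hexp]
  rw [integral_const_mul]
  have hb2 : (2 * π * I * τ * (D / (4 * al) : ℝ) : ℂ).re < 0 := by
    have : (2 * π * I * τ * (D / (4 * al) : ℝ) : ℂ) = ((2 * π * (D / (4 * al)) : ℝ) : ℂ) * (I * τ) := by
      push_cast; ring
    rw [this, Complex.re_ofReal_mul, Complex.I_mul_re]
    have : 0 < 2 * π * (D / (4 * al)) * τ.im := by positivity
    nlinarith
  rw [integral_cexp_quadratic hb2]
  have hI0 : I / τ ≠ 0 := div_ne_zero I_ne_zero hτ0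
  have e1 : (π / -(2 * π * I * τ * al) : ℂ) = ((1 / (2 * al) : ℝ) : ℂ) * (I / τ) := by
    push_cast
    field_simp
    rw [Complex.I_sq]
  have e2 : (π / -(2 * π * I * τ * (D / (4 * al) : ℝ)) : ℂ) = ((2 * al / D : ℝ) : ℂ) * (I / τ) := by
    push_cast
    field_simp
    rw [Complex.I_sq]
    ring
  rw [e1, e2, cpow_half _ (by positivity) _ hI0, cpow_half _ (by positivity) _ hI0]
  have e3 : (I / τ) ^ (1 / 2 : ℂ) * (I / τ) ^ (1 / 2 : ℂ) = I / τ := by
    rw [← Complex.cpow_add _ _ hI0]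
    norm_num
  have e4 : (Real.sqrt (1 / (2 * al)) : ℂ) * (Real.sqrt (2 * al / D) : ℂ) = 1 / (Real.sqrt D : ℂ) := by
    rw [← Complex.ofReal_mul, ← Real.sqrt_mul (by positivity)]
    rw [show 1 / (2 * al) * (2 * al / D) = 1 / D by field_simp]
    rw [Real.sqrt_div (by positivity), Real.sqrt_one]
    push_cast; rfl
  have e5 : (-2 * π * I * (m 0 : ℂ) ^ 2 / (4 * al * τ)) -
      (2 * π * I * (-m 1 + m 0 * be / (2 * al))) ^ 2 / (4 * (2 * π * I * τ * (D / (4 * al) : ℝ))) =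
      -2 * π * I / τ * ((ga * m 0 ^ 2 - be * m 0 * m 1 + al * m 1 ^ 2) / D) := by
    have hD2 : (ga : ℂ) = ((D : ℂ) + be ^ 2) / (4 * al) := by
      rw [hDdef]; push_cast; field_simp; ring
    push_cast
    rw [hD2]
    field_simp
    ring
  rw [e5]
  calc _ = ((Real.sqrt (1 / (2 * al)) : ℂ) * (Real.sqrt (2 * al / D) : ℂ)) *
      ((I / τ) ^ (1 / 2 : ℂ) * (I / τ) ^ (1 / 2 : ℂ)) *
      cexp (-2 * π * I / τ * ((ga * m 0 ^ 2 - be * m 0 * m 1 + al * m 1 ^ 2) / D)) := by ring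
    _ = _ := by rw [e3, e4]; ring

/-- the dual quadratic form -/
noncomputable def dq (al be ga : ℝ) (m : Fin 2 → ℤ) : ℝ :=
  (ga * m 0 ^ 2 - be * m 0 * m 1 + al * m 1 ^ 2) / (4 * al * ga - be ^ 2)

theorem dual_disc (hD : 0 < 4 * al * ga - be ^ 2) :
    4 * (ga / (4 * al * ga - be ^ 2)) * (al / (4 * al * ga - be ^ 2)) -
      (-be / (4 * al * ga - be ^ 2)) ^ 2 = 1 / (4 * al * ga - be ^ 2) := by
  field_simp

theorem dq_eq (m : Fin 2 → ℤ) : dq al be ga m =
    bq (ga / (4 * al * ga - be ^ 2)) (-be / (4 * al * ga - be ^ 2)) (al / (4 * al * ga - be ^ 2))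
      (zc m) := by
  unfold dq bq zc
  ring

theorem exp_dq (τ : ℂ) (m : Fin 2 → ℤ) : cexp (-2 * π * I / τ * (dq al be ga m : ℝ)) =
    gf (ga / (4 * al * ga - be ^ 2)) (-be / (4 * al * ga - be ^ 2)) (al / (4 * al * ga - be ^ 2))
      (-1 / τ) (zc m) := by
  rw [dq_eq]
  unfold gf
  congr 1
  ring

theorem im_neg_inv {τ : ℂ} (hτ : 0 < τ.im) : 0 < (-1 / τ).im := by
  have hτ0 : τ ≠ 0 := by rintro rfl; simp at hτ
  rw [neg_div, Complex.neg_im, one_div, Complex.inv_im]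
  have : 0 < Complex.normSq τ := Complex.normSq_pos.mpr hτ0
  rw [neg_div, neg_neg]
  positivity

include ha hD in
theorem summable_gf {τ : ℂ} (hτ : 0 < τ.im) (x : Fin 2 → ℝ) :
    Summable (fun k : Fin 2 → ℤ => gf al be ga τ (x + zc k)) :=
  summable_trans (norm_gf_le_pwt ha hD hτ) x

include ha hD in
theorem summable_dual {τ : ℂ} (hτ : 0 < τ.im) :
    Summable (fun m : Fin 2 → ℤ => cexp (-2 * π * I / τ * (dq al be ga m : ℝ))) := by
  have hg := ga_pos ha hD
  have h := summable_gf (al := ga / (4 * al * ga - be ^ 2)) (be := -be / (4 * al * ga - be ^ 2))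
    (ga := al / (4 * al * ga - be ^ 2)) (by positivity)
    (by rw [dual_disc hD]; positivity) (im_neg_inv hτ) 0
  simp only [zero_add] at h
  simpa only [exp_dq] using h

include ha hD in
/-- **Poisson summation for binary Gaussians.** -/
theorem poisson_gf {τ : ℂ} (hτ : 0 < τ.im) (x : Fin 2 → ℝ) :
    ∑' k : Fin 2 → ℤ, gf al be ga τ (x + zc k) =
      I / τ / (Real.sqrt (4 * al * ga - be ^ 2) : ℂ) *
        ∑' m : Fin 2 → ℤ, cexp (-2 * π * I / τ * (dq al be ga m : ℝ)) * ee m x := by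
  have h1 : ∀ m, FT (gf al be ga τ) m = I / τ / (Real.sqrt (4 * al * ga - be ^ 2) : ℂ) *
      cexp (-2 * π * I / τ * (dq al be ga m : ℝ)) := by
    intro m
    rw [FT_gf ha hD hτ]
    congr 2
    unfold dq
    push_cast
    ring
  have hs : Summable (fun m : Fin 2 → ℤ => FT (gf al be ga τ) m) := by
    simp_rw [h1]
    exact (summable_dual ha hD hτ).mul_left _
  rw [poisson (continuous_gf τ) (norm_gf_le_pwt ha hD hτ) hs x, ← tsum_mul_left]
  apply tsum_congr
  intro m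
  rw [h1]
  ring

end

end Fermat.Agent.TwoAdic
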