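import Fermat.Agent.TwoAdic.ThetaA

set_option autoImplicit false

/-! # The transformation law of binary theta functions -/

namespace Fermat.Agent.TwoAdic

open MeasureTheory Complex Topology Fermat.Agent.LT
open scoped Real ComplexConjugate

/-- an integral binary quadratic form over a commutative ring -/
def bz {R : Type*} [CommRing R] (al be ga : R) (x : Fin 2 → R) : R :=
  al * x 0 ^ 2 + be * x 0 * x 1 + ga * x 1 ^ 2

/-- the binary theta function of the form `q = al x^2 + be x y + ga y^2`, scaled by `Q` -/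
noncomputable def th (Q al be ga : ℤ) (z : ℂ) : ℂ :=
  ∑' k : Fin 2 → ℤ, cexp (2 * π * I * z * ((Q * bz al be ga k : ℤ) : ℂ))

/-- the Gauss sum -/
noncomputable def gs (d : ℕ) [NeZero d] (b : ZMod d) (al be ga : ZMod d) : ℂ :=
  ∑ r : Fin 2 → ZMod d, (ZMod.stdAddChar (b * bz al be ga r) : ℂ)

section split

variable (d : ℕ) [NeZero d]

/-- `ℤ² = ⊔ (r + dℤ²)` -/
def splitEquiv : (Fin 2 → ZMod d) × (Fin 2 → ℤ) ≃ (Fin 2 → ℤ) where
  toFun p := fun i => ((p.1 i).val : ℤ) + d * p.2 i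
  invFun x := (fun i => (x i : ZMod d), fun i => x i / d)
  left_inv p := by
    have hd : (d : ℤ) ≠ 0 := by exact_mod_cast NeZero.ne d
    ext i
    · push_cast
      simp
    · simp only
      rw [Int.add_mul_ediv_left _ _ hd, Int.ediv_eq_zero_of_lt (by positivity), zero_add]
      exact_mod_cast ZMod.val_lt (p.1 i)
  right_inv x := by
    funext i
    simp only
    rw [ZMod.val_intCast]
    exact Int.emod_add_mul_ediv _ _

end split

/-- completing the square -/
theorem gs_shift (d : ℕ) [NeZero d] (b e Q al be ga : ZMod d)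
    (hdet : b * (Q * (4 * al * ga - be ^ 2) * e) = -1) (m : Fin 2 → ZMod d) :
    ∑ r : Fin 2 → ZMod d, (ZMod.stdAddChar (b * (Q * bz al be ga r) + (m 0 * r 0 + m 1 * r 1)) : ℂ) =
      gs d (b * Q) al be ga * ZMod.stdAddChar (e * (ga * m 0 ^ 2 - be * m 0 * m 1 + al * m 1 ^ 2)) := by
  set t : Fin 2 → ZMod d := ![-(e * (2 * ga * m 0 - be * m 1)), -(e * (-be * m 0 + 2 * al * m 1))]
    with ht
  have ht0 : t 0 = -(e * (2 * ga * m 0 - be * m 1)) := rfl
  have ht1 : t 1 = -(e * (-be * m 0 + 2 * al * m 1)) := rfl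
  have key : ∀ r : Fin 2 → ZMod d, b * (Q * bz al be ga r) + (m 0 * r 0 + m 1 * r 1) =
      b * Q * bz al be ga (r + t) + e * (ga * m 0 ^ 2 - be * m 0 * m 1 + al * m 1 ^ 2) := by
    intro r
    unfold bz
    rw [Pi.add_apply, Pi.add_apply, ht0, ht1]
    linear_combination ((m 0 * r 0 + m 1 * r 1) -
      e * (ga * m 0 ^ 2 - be * m 0 * m 1 + al * m 1 ^ 2)) * hdet
  simp_rw [key, AddChar.map_add_eq_mul]
  rw [← Finset.sum_mul]
  congr 1
  unfold gs
  exact Fintype.sum_equiv (Equiv.addRight t) _ _ (fun r => rfl)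

section

variable {Q al be ga : ℤ} (hQ : 0 < Q) (ha : 0 < al) (hD : 0 < 4 * al * ga - be ^ 2)

include hQ ha in
theorem ha' : (0 : ℝ) < ((Q * al : ℤ) : ℝ) := by exact_mod_cast mul_pos hQ ha

include hQ hD in
theorem hD' : (0 : ℝ) < 4 * ((Q * al : ℤ) : ℝ) * ((Q * ga : ℤ) : ℝ) - ((Q * be : ℤ) : ℝ) ^ 2 := by
  have : 4 * (Q * al) * (Q * ga) - (Q * be) ^ 2 = Q ^ 2 * (4 * al * ga - be ^ 2) := by ring
  have h2 : (0 : ℤ) < 4 * (Q * al) * (Q * ga) - (Q * be) ^ 2 := by rw [this]; positivity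
  exact_mod_cast h2

theorem th_eq (z : ℂ) : th Q al be ga z = ∑' k : Fin 2 → ℤ,
    gf ((Q * al : ℤ) : ℝ) ((Q * be : ℤ) : ℝ) ((Q * ga : ℤ) : ℝ) z (0 + zc k) := by
  unfold th gf bq bz zc
  apply tsum_congr
  intro k
  congr 1
  simp only [zero_add]
  push_cast
  ring

include hQ ha hD in
theorem summable_th {z : ℂ} (hz : 0 < z.im) :
    Summable (fun k : Fin 2 → ℤ => cexp (2 * π * I * z * ((Q * bz al be ga k : ℤ) : ℂ))) := by
  have h := summable_gf (ha' hQ ha) (hD' hQ hD) hz 0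
  refine h.congr fun k => ?_
  unfold gf bq bz zc
  congr 1
  simp only [zero_add]
  push_cast
  ring

theorem stdAddChar_intCast (d : ℕ) [NeZero d] (n : ℤ) :
    (ZMod.stdAddChar (n : ZMod d) : ℂ) = cexp (2 * π * I * n / d) := by
  rw [ZMod.stdAddChar_coe]

theorem ee_zmod {d : ℕ} [NeZero d] (m : Fin 2 → ℤ) (r : Fin 2 → ZMod d) :
    ee m (fun i => ((r i).val : ℝ) / d) =
      (ZMod.stdAddChar ((m 0 : ZMod d) * r 0 + (m 1 : ZMod d) * r 1) : ℂ) := by
  have h : ((m 0 : ZMod d) * r 0 + (m 1 : ZMod d) * r 1) =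
      ((m 0 * ((r 0).val : ℤ) + m 1 * ((r 1).val : ℤ) : ℤ) : ZMod d) := by
    push_cast
    simp
  rw [h, stdAddChar_intCast]
  unfold ee
  congr 1
  rw [Fin.sum_univ_two]
  push_cast
  ring

theorem norm_ee' (m : Fin 2 → ℤ) (x : Fin 2 → ℝ) : ‖ee m x‖ = 1 := norm_ee m x

include hQ ha hD in
/-- **Transformation law.** -/
theorem th_transform {a b c e : ℤ} {d : ℕ} [NeZero d] (hdet : a * d - b * c = 1)
    (hc : c = Q * (4 * al * ga - be ^ 2) * e) {z : ℂ} (hz : 0 < z.im) :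
    th Q al be ga ((a * z + b) / (c * z + d)) =
      (c * z + d) / d * gs d ((b * Q : ℤ) : ZMod d) al be ga * th Q al be ga z := by
  have hz0 : z ≠ 0 := by rintro rfl; simp at hz
  have hd0 : (d : ℂ) ≠ 0 := by exact_mod_cast NeZero.ne d
  have hdR : (d : ℝ) ≠ 0 := by exact_mod_cast NeZero.ne d
  have hczd : (c * z + d : ℂ) ≠ 0 := by
    intro h
    have him : (c * z + d : ℂ).im = c * z.im := by simp
    rw [h, Complex.zero_im] at him
    rcases mul_eq_zero.mp him.symm with h1 | h1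
    · have h2 : c = 0 := by exact_mod_cast h1
      rw [h2] at h
      apply hd0
      simpa using h
    · exact hz.ne' h1
  have hA := ha' hQ ha
  have hB := hD' hQ hD
  set A : ℝ := ((Q * al : ℤ) : ℝ) with hAdef
  set B : ℝ := ((Q * be : ℤ) : ℝ) with hBdef
  set C : ℝ := ((Q * ga : ℤ) : ℝ) with hCdef
  set z' : ℂ := z / (d * (c * z + d)) with hz'
  have hz'0 : z' ≠ 0 := div_ne_zero hz0 (mul_ne_zero hd0 hczd)
  have hz1 : ((a * z + b) / (c * z + d) : ℂ) = b / d + z' := by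
    have hdetC : (a * d - b * c : ℂ) = 1 := by exact_mod_cast hdet
    rw [hz', div_add_div _ _ hd0 (mul_ne_zero hd0 hczd),
      div_eq_div_iff hczd (mul_ne_zero hd0 (mul_ne_zero hd0 hczd))]
    linear_combination d * (c * z + d) * z * hdetC
  have hw : (-1 / z' : ℂ) = ((-(d * c) : ℝ) : ℂ) + ((d ^ 2 : ℝ) : ℂ) * (-1 / z) := by
    rw [hz']
    push_cast
    field_simp
    ring
  have himw : 0 < (-1 / z' : ℂ).im := by
    rw [hw, Complex.add_im, Complex.ofReal_im, Complex.im_ofReal_mul, zero_add]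
    have := im_neg_inv hz
    positivity
  have himz' : 0 < z'.im := by
    have h := im_neg_inv himw
    rwa [show (-1 / (-1 / z') : ℂ) = z' by field_simp] at h
  set τ : ℂ := d ^ 2 * z' with hτ
  have himτ : 0 < τ.im := by
    rw [hτ, show (d ^ 2 * z' : ℂ) = ((d ^ 2 : ℝ) : ℂ) * z' by push_cast; ring, Complex.im_ofReal_mul]
    positivity
  have hτ0 : τ ≠ 0 := mul_ne_zero (pow_ne_zero 2 hd0) hz'0
  -- the term identity
  have hterm : ∀ p : (Fin 2 → ZMod d) × (Fin 2 → ℤ),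
      cexp (2 * π * I * ((a * z + b) / (c * z + d)) *
        ((Q * bz al be ga (splitEquiv d p) : ℤ) : ℂ)) =
      (ZMod.stdAddChar ((b : ZMod d) * ((Q : ZMod d) * bz (al : ZMod d) be ga p.1)) : ℂ) *
        gf A B C τ ((fun i => ((p.1 i).val : ℝ) / d) + zc p.2) := by
    rintro ⟨r, k⟩
    rw [hz1]
    have h1 : ((b : ZMod d) * ((Q : ZMod d) * bz (al : ZMod d) be ga r)) =
        ((b * (Q * bz al be ga (splitEquiv d (r, k))) : ℤ) : ZMod d) := by
      unfold bz splitEquiv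
      simp only [Equiv.coe_fn_mk]
      push_cast
      simp
    rw [h1, stdAddChar_intCast]
    unfold gf
    rw [← Complex.exp_add]
    congr 1
    unfold bq bz splitEquiv zc
    simp only [Equiv.coe_fn_mk, Pi.add_apply]
    rw [hAdef, hBdef, hCdef, hτ]
    push_cast
    field_simp
  have hsum1 : Summable (fun p : (Fin 2 → ZMod d) × (Fin 2 → ℤ) =>
      (ZMod.stdAddChar ((b : ZMod d) * ((Q : ZMod d) * bz (al : ZMod d) be ga p.1)) : ℂ) *
        gf A B C τ ((fun i => ((p.1 i).val : ℝ) / d) + zc p.2)) := by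
    have him1 : 0 < ((a * z + b) / (c * z + d) : ℂ).im := by
      rw [hz1, show (b / d + z' : ℂ) = ((b / d : ℝ) : ℂ) + z' by push_cast; ring, Complex.add_im,
        Complex.ofReal_im, zero_add]
      exact himz'
    have h := (splitEquiv d).summable_iff.mpr (summable_th hQ ha hD him1)
    refine h.congr fun p => ?_
    exact (hterm p)
  have hL : th Q al be ga ((a * z + b) / (c * z + d)) =
      ∑ r : Fin 2 → ZMod d, (ZMod.stdAddChar ((b : ZMod d) * ((Q : ZMod d) *
        bz (al : ZMod d) be ga r)) : ℂ) *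
        ∑' k : Fin 2 → ℤ, gf A B C τ ((fun i => ((r i).val : ℝ) / d) + zc k) := by
    unfold th
    rw [← (splitEquiv d).tsum_eq]
    simp_rw [hterm]
    rw [hsum1.tsum_prod, tsum_fintype]
    apply Finset.sum_congr rfl
    intro r _
    change ∑' k : Fin 2 → ℤ, (ZMod.stdAddChar ((b : ZMod d) * ((Q : ZMod d) *
        bz (al : ZMod d) be ga r)) : ℂ) * gf A B C τ ((fun i => ((r i).val : ℝ) / d) + zc k) = _
    rw [tsum_mul_left]
  rw [hL]
  set K : ℂ := I / τ / (Real.sqrt (4 * A * C - B ^ 2) : ℂ) with hK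
  have hsE := summable_dual hA hB himτ
  simp_rw [poisson_gf hA hB himτ, ee_zmod]
  -- exchange
  have hex : ∑ r : Fin 2 → ZMod d, (ZMod.stdAddChar ((b : ZMod d) * ((Q : ZMod d) *
        bz (al : ZMod d) be ga r)) : ℂ) * (K *
        ∑' m : Fin 2 → ℤ, cexp (-2 * π * I / τ * (dq A B C m : ℝ)) *
          (ZMod.stdAddChar ((m 0 : ZMod d) * r 0 + (m 1 : ZMod d) * r 1) : ℂ)) =
      K * ∑' m : Fin 2 → ℤ, cexp (-2 * π * I / τ * (dq A B C m : ℝ)) *
        ∑ r : Fin 2 → ZMod d, (ZMod.stdAddChar ((b : ZMod d) * ((Q : ZMod d) *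
          bz (al : ZMod d) be ga r) + ((m 0 : ZMod d) * r 0 + (m 1 : ZMod d) * r 1)) : ℂ) := by
    simp_rw [Finset.mul_sum]
    rw [Summable.tsum_finsetSum]
    · rw [Finset.mul_sum]
      apply Finset.sum_congr rfl
      intro r _
      rw [← tsum_mul_left, ← tsum_mul_left, ← tsum_mul_left]
      apply tsum_congr
      intro m
      rw [AddChar.map_add_eq_mul _ ((b : ZMod d) * ((Q : ZMod d) * bz (al : ZMod d) be ga r))
        ((m 0 : ZMod d) * r 0 + (m 1 : ZMod d) * r 1)]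
      ring
    · intro r _
      apply Summable.of_norm
      refine hsE.norm.congr fun m => ?_
      rw [norm_mul]
      simp
  rw [hex]
  have hdetZ : (b : ZMod d) * ((Q : ZMod d) * (4 * (al : ZMod d) * ga - be ^ 2) * e) = -1 := by
    have h1 : ((a * d - b * c : ℤ) : ZMod d) = ((1 : ℤ) : ZMod d) := by rw [hdet]
    rw [hc] at h1
    push_cast at h1
    rw [ZMod.natCast_self, mul_zero, zero_sub] at h1
    rw [← neg_eq_iff_eq_neg]
    exact h1
  have hgs : ∀ m : Fin 2 → ℤ, ∑ r : Fin 2 → ZMod d, (ZMod.stdAddChar ((b : ZMod d) *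
      ((Q : ZMod d) * bz (al : ZMod d) be ga r) +
        ((m 0 : ZMod d) * r 0 + (m 1 : ZMod d) * r 1)) : ℂ) =
      gs d ((b * Q : ℤ) : ZMod d) al be ga *
        cexp (2 * π * I * ((e * (ga * m 0 ^ 2 - be * m 0 * m 1 + al * m 1 ^ 2) : ℤ) : ℂ) / d) := by
    intro m
    rw [gs_shift d b e Q al be ga hdetZ (fun i => (m i : ZMod d)), ← stdAddChar_intCast]
    push_cast
    rfl
  simp_rw [hgs]
  have hDc : (4 * al * ga - be ^ 2 : ℂ) ≠ 0 := by
    have : (4 * al * ga - be ^ 2 : ℤ) ≠ 0 := hD.ne'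
    exact_mod_cast this
  have hQc : (Q : ℂ) ≠ 0 := by exact_mod_cast hQ.ne'
  have hfin : ∀ m : Fin 2 → ℤ, cexp (-2 * π * I / τ * (dq A B C m : ℝ)) *
      (gs d ((b * Q : ℤ) : ZMod d) al be ga *
        cexp (2 * π * I * ((e * (ga * m 0 ^ 2 - be * m 0 * m 1 + al * m 1 ^ 2) : ℤ) : ℂ) / d)) =
      gs d ((b * Q : ℤ) : ZMod d) al be ga * cexp (-2 * π * I / z * (dq A B C m : ℝ)) := by
    intro m
    rw [mul_left_comm, ← Complex.exp_add]
    congr 2
    have h1 : (-2 * π * I / τ : ℂ) = 2 * π * I * (-c / d) + -2 * π * I / z := by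
      have : (-2 * π * I / τ : ℂ) = 2 * π * I * ((-1 / z') / d ^ 2) := by
        rw [hτ]; field_simp
      rw [this, hw]
      push_cast
      field_simp
    rw [h1, add_mul]
    have h2 : (2 * π * I * (-c / d) * (dq A B C m : ℝ) : ℂ) =
        -(2 * π * I * ((e * (ga * m 0 ^ 2 - be * m 0 * m 1 + al * m 1 ^ 2) : ℤ) : ℂ) / d) := by
      unfold dq
      rw [hAdef, hBdef, hCdef, hc]
      push_cast
      have h3 : (4 * (Q * al) * (Q * ga) - (Q * be) ^ 2 : ℂ) = Q ^ 2 * (4 * al * ga - be ^ 2) := by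
        ring
      rw [h3]
      field_simp
    rw [h2]
    ring
  simp_rw [hfin]
  rw [tsum_mul_left]
  have hR : th Q al be ga z = I / z / (Real.sqrt (4 * A * C - B ^ 2) : ℂ) *
      ∑' m : Fin 2 → ℤ, cexp (-2 * π * I / z * (dq A B C m : ℝ)) := by
    rw [th_eq, poisson_gf hA hB hz]
    congr 1
    apply tsum_congr
    intro m
    have : ee m (0 : Fin 2 → ℝ) = 1 := by unfold ee; simp
    rw [this, mul_one]
  rw [hR, hK, hτ, hz']
  have hsq : (Real.sqrt (4 * A * C - B ^ 2) : ℂ) ≠ 0 := by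
    have : Real.sqrt (4 * A * C - B ^ 2) ≠ 0 := (Real.sqrt_pos.mpr hB).ne'
    exact_mod_cast this
  field_simp

end

end Fermat.Agent.TwoAdic
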