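import Fermat.Agent.TwoAdic.ThetaB

set_option autoImplicit false

/-! # Binary Gauss sums modulo an odd prime -/

namespace Fermat.Agent.TwoAdic

open Complex Finset

variable (d : ℕ) [hd : Fact d.Prime]

/-- the complex valued quadratic character -/
noncomputable def chC : MulChar (ZMod d) ℂ :=
  (quadraticChar (ZMod d)).ringHomComp (Int.castRingHom ℂ)

theorem chC_apply (x : ZMod d) : chC d x = ((quadraticChar (ZMod d) x : ℤ) : ℂ) := rfl

variable {d}

theorem ringChar_ne_two (h2 : d ≠ 2) : ringChar (ZMod d) ≠ 2 := by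
  rwa [ZMod.ringChar_zmod_n]

theorem chC_sq {x : ZMod d} (hx : x ≠ 0) : chC d x * chC d x = 1 := by
  rw [chC_apply, ← Int.cast_mul, ← sq, quadraticChar_sq_one hx, Int.cast_one]

theorem chC_ne_one (h2 : d ≠ 2) : chC d ≠ 1 := by
  have h := quadraticChar_ne_one (ringChar_ne_two h2)
  obtain ⟨a, ha⟩ := MulChar.ne_one_iff.mp h
  rw [MulChar.ne_one_iff]
  refine ⟨a, fun h1 => ha ?_⟩
  rw [chC_apply] at h1
  exact_mod_cast h1

theorem chC_isQuadratic : (chC d).IsQuadratic := by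
  intro a
  rw [chC_apply]
  rcases quadraticChar_isQuadratic (ZMod d) a with h | h | h <;> rw [h] <;> simp

theorem sum_sq (h2 : d ≠ 2) {u : ZMod d} (hu : u ≠ 0) :
    ∑ x : ZMod d, (ZMod.stdAddChar (u * x ^ 2) : ℂ) =
      chC d u * gaussSum (chC d) ZMod.stdAddChar := by
  classical
  have h1 : ∑ x : ZMod d, (ZMod.stdAddChar (u * x ^ 2) : ℂ) =
      ∑ t : ZMod d, (chC d t + 1) * ZMod.stdAddChar (u * t) := by
    rw [← Finset.sum_fiberwise (s := univ) (g := fun x : ZMod d => x ^ 2)]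
    apply Finset.sum_congr rfl
    intro t _
    have h3 : ∑ x : ZMod d with x ^ 2 = t, (ZMod.stdAddChar (u * x ^ 2) : ℂ) =
        ∑ x : ZMod d with x ^ 2 = t, (ZMod.stdAddChar (u * t) : ℂ) := by
      apply Finset.sum_congr rfl
      intro x hx
      rw [(Finset.mem_filter.mp hx).2]
    rw [h3, Finset.sum_const, nsmul_eq_mul]
    congr 1
    have h4 := quadraticChar_card_sqrts (ringChar_ne_two h2) t
    rw [chC_apply]
    have h5 : (#{x : ZMod d | x ^ 2 = t} : ℤ) = quadraticChar (ZMod d) t + 1 := by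
      rw [← h4]
      congr 1
      congr 1
      ext x
      simp
    exact_mod_cast h5
  rw [h1]
  simp_rw [add_mul, one_mul]
  rw [Finset.sum_add_distrib]
  have h6 : ∑ t : ZMod d, (ZMod.stdAddChar (u * t) : ℂ) = 0 :=
    AddChar.sum_eq_zero_of_ne_one (ZMod.isPrimitive_stdAddChar d hu)
  rw [h6, add_zero]
  have h7 := gaussSum_mulShift (chC d) (ZMod.stdAddChar (N := d)) (Units.mk0 u hu)
  have h8 : ∑ t : ZMod d, chC d t * (ZMod.stdAddChar (u * t) : ℂ) =
      gaussSum (chC d) (ZMod.stdAddChar.mulShift (Units.mk0 u hu : ZMod d)) := rfl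
  rw [h8, ← h7, ← mul_assoc, Units.val_mk0, chC_sq hu, one_mul]

theorem sum_sq_mul (h2 : d ≠ 2) {u v : ZMod d} (hu : u ≠ 0) (hv : v ≠ 0) :
    (∑ x : ZMod d, (ZMod.stdAddChar (u * x ^ 2) : ℂ)) *
      (∑ x : ZMod d, (ZMod.stdAddChar (v * x ^ 2) : ℂ)) = chC d (-(u * v)) * d := by
  rw [sum_sq h2 hu, sum_sq h2 hv]
  have h : gaussSum (chC d) ZMod.stdAddChar ^ 2 = chC d (-1) * (d : ℂ) := by
    have h0 := gaussSum_sq (chC_ne_one h2) (chC_isQuadratic (d := d)) (ZMod.isPrimitive_stdAddChar d)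
    rw [ZMod.card] at h0
    exact h0
  rw [show -(u * v) = -1 * (u * v) by ring, map_mul, map_mul]
  linear_combination chC d u * chC d v * h

theorem gs_eq (h2 : d ≠ 2) {b al be ga : ZMod d} (hb : b ≠ 0) (hδ : be ^ 2 - 4 * al * ga ≠ 0) :
    gs d b al be ga = chC d (be ^ 2 - 4 * al * ga) * d := by
  classical
  have h2' : (2 : ZMod d) ≠ 0 := by
    intro h
    have : ((2 : ℕ) : ZMod d) = 0 := by exact_mod_cast h
    rw [ZMod.natCast_eq_zero_iff] at this
    exact h2 ((Nat.prime_dvd_prime_iff_eq hd.out Nat.prime_two).mp this)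
  have hsum : gs d b al be ga = ∑ y : ZMod d, ∑ x : ZMod d,
      (ZMod.stdAddChar (b * (al * x ^ 2 + be * x * y + ga * y ^ 2)) : ℂ) := by
    unfold gs bz
    rw [← (finTwoArrowEquiv (ZMod d)).symm.sum_comp, Fintype.sum_prod_type, Finset.sum_comm]
    rfl
  rw [hsum]
  by_cases hal : al = 0
  · subst hal
    have hbe : be ≠ 0 := by
      rintro rfl; apply hδ; ring
    have h1 : ∀ y : ZMod d, ∑ x : ZMod d,
        (ZMod.stdAddChar (b * (0 * x ^ 2 + be * x * y + ga * y ^ 2)) : ℂ) =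
        if y = 0 then (d : ℂ) else 0 := by
      intro y
      split_ifs with hy
      · subst hy
        simp
      · have : ∀ x : ZMod d, (ZMod.stdAddChar (b * (0 * x ^ 2 + be * x * y + ga * y ^ 2)) : ℂ) =
            ZMod.stdAddChar (b * ga * y ^ 2) * ZMod.stdAddChar (b * be * y * x) := by
          intro x
          rw [← AddChar.map_add_eq_mul]
          congr 1
          ring
        simp_rw [this]
        rw [← Finset.mul_sum, show ∑ x : ZMod d, (ZMod.stdAddChar (b * be * y * x) : ℂ) = 0 from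
          AddChar.sum_eq_zero_of_ne_one (ZMod.isPrimitive_stdAddChar d
            (mul_ne_zero (mul_ne_zero hb hbe) hy)), mul_zero]
    simp_rw [h1]
    rw [Finset.sum_ite_eq' univ (0 : ZMod d) (fun _ => (d : ℂ)), if_pos (mem_univ _)]
    have : be ^ 2 - 4 * 0 * ga = be * be := by ring
    rw [this, map_mul, chC_sq hbe, one_mul]
  · set u : ZMod d := b * al with hu
    set v : ZMod d := -(b * (be ^ 2 - 4 * al * ga) / (4 * al)) with hv
    have h4 : (4 : ZMod d) ≠ 0 := by
      rw [show (4 : ZMod d) = 2 * 2 by norm_num]; exact mul_ne_zero h2' h2'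
    have hu0 : u ≠ 0 := mul_ne_zero hb hal
    have hv0 : v ≠ 0 := neg_ne_zero.mpr (div_ne_zero (mul_ne_zero hb hδ) (mul_ne_zero h4 hal))
    have h1 : ∀ y : ZMod d, ∑ x : ZMod d,
        (ZMod.stdAddChar (b * (al * x ^ 2 + be * x * y + ga * y ^ 2)) : ℂ) =
        (∑ x : ZMod d, (ZMod.stdAddChar (u * x ^ 2) : ℂ)) * ZMod.stdAddChar (v * y ^ 2) := by
      intro y
      rw [Finset.sum_mul]
      refine Fintype.sum_equiv (Equiv.addRight (be * y / (2 * al))) _ _ fun x => ?_
      rw [← AddChar.map_add_eq_mul, Equiv.coe_addRight]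
      congr 1
      rw [hu, hv]
      field_simp
      ring
    simp_rw [h1]
    rw [← Finset.mul_sum, sum_sq_mul h2 hu0 hv0]
    congr 1
    have h5 : -(u * v) = (be ^ 2 - 4 * al * ga) * ((b / 2) * (b / 2)) := by
      rw [hu, hv]
      field_simp
      ring
    have hb2 : b / 2 ≠ 0 := div_ne_zero hb h2'
    rw [h5, map_mul, map_mul, chC_sq hb2, mul_one]

/-- the product of two Gauss sums of forms with the same discriminant -/
theorem gs_mul_gs (h2 : d ≠ 2) {b b' al be ga al' be' ga' : ZMod d} (hb : b ≠ 0) (hb' : b' ≠ 0)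
    (hδ : be ^ 2 - 4 * al * ga ≠ 0) (h : be' ^ 2 - 4 * al' * ga' = be ^ 2 - 4 * al * ga) :
    gs d b al be ga * gs d b' al' be' ga' = (d : ℂ) ^ 2 := by
  rw [gs_eq h2 hb hδ, gs_eq h2 hb' (h ▸ hδ), h]
  linear_combination (d : ℂ) ^ 2 * chC_sq hδ

end Fermat.Agent.TwoAdic
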