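import Fermat.Agent.TwoAdic.ThetaC
import Fermat.Agent.IntStr.Basic

set_option autoImplicit false

/-! # Growth and holomorphy of binary theta functions -/

namespace Fermat.Agent.TwoAdic

open MeasureTheory Complex Topology Fermat.Agent.LT
open UpperHalfPlane hiding I
open scoped Real ComplexConjugate Manifold

theorem tsum_prod_pi_le {d ι : Type*} [Fintype d] (a : d → ι → ℝ) (h0 : ∀ i j, 0 ≤ a i j)
    (h : ∀ i, Summable (a i)) : ∑' k : d → ι, ∏ i, a i (k i) ≤ ∏ i, ∑' j, a i j := by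
  classical
  refine Real.tsum_le_of_sum_le (fun k => Finset.prod_nonneg fun i _ => h0 i _) ?_
  intro s
  let t : d → Finset ι := fun i => s.image fun k => k i
  have hst : s ⊆ Fintype.piFinset t := by
    intro k hk
    rw [Fintype.mem_piFinset]
    intro i
    exact Finset.mem_image_of_mem _ hk
  calc ∑ k ∈ s, ∏ i, a i (k i) ≤ ∑ k ∈ Fintype.piFinset t, ∏ i, a i (k i) :=
        Finset.sum_le_sum_of_subset_of_nonneg hst
          (fun k _ _ => Finset.prod_nonneg fun i _ => h0 i _)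
    _ = ∏ i, ∑ j ∈ t i, a i j := (Finset.prod_univ_sum _ _).symm
    _ ≤ ∏ i, ∑' j, a i j := by
        apply Finset.prod_le_prod
        · intro i _; exact Finset.sum_nonneg fun j _ => h0 i j
        · intro i _; exact (h i).sum_le_tsum _ fun j _ => h0 i j

theorem summable_gauss {a : ℝ} (ha : 0 < a) :
    Summable (fun n : ℤ => Real.exp (-π * a * (n : ℝ) ^ 2)) := by
  have hc : 0 < π * a := by positivity
  refine Summable.of_nonneg_of_le (fun n => (Real.exp_pos _).le) (fun n => ?_)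
    (summable_one_add_sq_inv.mul_left (1 + 1 / (π * a)))
  have := exp_neg_le (π * a * (n : ℝ) ^ 2) (by positivity)
  rw [show -π * a * (n : ℝ) ^ 2 = -(π * a * (n : ℝ) ^ 2) by ring]
  refine this.trans ?_
  rw [inv_le_iff_one_le_mul₀ (by positivity), mul_assoc, ← div_eq_inv_mul,
      mul_div_assoc', le_div_iff₀ (by positivity)]
  have : (1 + 1 / (π * a)) * (1 + π * a * (n : ℝ) ^ 2) =
      1 + (n : ℝ) ^ 2 + (π * a * (n : ℝ) ^ 2 + 1 / (π * a)) := by
    field_simp; ring
  rw [this]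
  have : 0 ≤ π * a * (n : ℝ) ^ 2 + 1 / (π * a) := by positivity
  linarith

/-- the value at `1` -/
noncomputable def C0 : ℝ := ∑' n : ℤ, Real.exp (-π * 1 * (n : ℝ) ^ 2)

theorem C0_nonneg : 0 ≤ C0 := tsum_nonneg fun _ => (Real.exp_pos _).le

theorem tsum_gauss_le_of_one_le {a : ℝ} (ha : 1 ≤ a) :
    ∑' n : ℤ, Real.exp (-π * a * (n : ℝ) ^ 2) ≤ C0 := by
  refine (summable_gauss (by linarith)).tsum_le_tsum (fun n => ?_) (summable_gauss one_pos)
  apply Real.exp_le_exp.mpr
  have : 0 ≤ π * (n : ℝ) ^ 2 := by positivity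
  nlinarith

theorem tsum_gauss_sq_le {a : ℝ} (ha : 0 < a) :
    (∑' n : ℤ, Real.exp (-π * a * (n : ℝ) ^ 2)) ^ 2 ≤ C0 ^ 2 * (1 + 1 / a) := by
  have h0 : 0 ≤ ∑' n : ℤ, Real.exp (-π * a * (n : ℝ) ^ 2) := tsum_nonneg fun _ => (Real.exp_pos _).le
  by_cases h : 1 ≤ a
  · have h1 := pow_le_pow_left₀ h0 (tsum_gauss_le_of_one_le h) 2
    have h2 : 0 ≤ C0 ^ 2 * (1 / a) := by positivity
    linarith
  · push Not at h
    rw [Real.tsum_exp_neg_mul_int_sq ha]
    have h1 : ∑' n : ℤ, Real.exp (-π / a * (n : ℝ) ^ 2) ≤ C0 := by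
      have := tsum_gauss_le_of_one_le (a := 1 / a) (by rw [le_div_iff₀ ha]; linarith)
      refine le_trans (le_of_eq ?_) this
      apply tsum_congr
      intro n
      congr 1
      ring
    have h2 : 0 ≤ ∑' n : ℤ, Real.exp (-π / a * (n : ℝ) ^ 2) :=
      tsum_nonneg fun _ => (Real.exp_pos _).le
    rw [mul_pow, div_pow, ← Real.sqrt_eq_rpow, Real.sq_sqrt ha.le, one_pow]
    have h3 := pow_le_pow_left₀ h2 h1 2
    have h4 : 0 ≤ 1 / a := by positivity
    calc 1 / a * (∑' n : ℤ, Real.exp (-π / a * (n : ℝ) ^ 2)) ^ 2 ≤ 1 / a * C0 ^ 2 :=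
          mul_le_mul_of_nonneg_left h3 h4
      _ ≤ C0 ^ 2 * (1 + 1 / a) := by nlinarith [sq_nonneg C0]

section

variable {Q al be ga : ℤ} (hQ : 0 < Q) (ha : 0 < al) (hD : 0 < 4 * al * ga - be ^ 2)

/-- the constant in the exponential bound -/
noncomputable def kap (Q al be ga : ℤ) : ℝ :=
  gcon ((Q * al : ℤ) : ℝ) ((Q * be : ℤ) : ℝ) ((Q * ga : ℤ) : ℝ)

include hQ ha hD in
theorem kap_pos : 0 < kap Q al be ga := gcon_pos (ha' hQ ha) (hD' hQ hD)

include hQ ha hD in
theorem norm_term_le {z : ℂ} (hz : 0 < z.im) (k : Fin 2 → ℤ) :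
    ‖cexp (2 * π * I * z * ((Q * bz al be ga k : ℤ) : ℂ))‖ ≤
      ∏ i, Real.exp (-π * (2 * z.im * kap Q al be ga) * (k i : ℝ) ^ 2) := by
  have h := norm_gf_le (ha' hQ ha) (hD' hQ hD) hz (zc k)
  have h2 : gf ((Q * al : ℤ) : ℝ) ((Q * be : ℤ) : ℝ) ((Q * ga : ℤ) : ℝ) z (zc k) =
      cexp (2 * π * I * z * ((Q * bz al be ga k : ℤ) : ℂ)) := by
    unfold gf bq bz zc
    congr 1
    push_cast
    ring
  rw [h2] at h
  refine h.trans (le_of_eq ?_)
  rw [Fin.prod_univ_two, ← Real.exp_add]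
  congr 1
  unfold zc kap
  ring

include hQ ha hD in
theorem norm_th_le {z : ℂ} (hz : 0 < z.im) :
    ‖th Q al be ga z‖ ≤ C0 ^ 2 * (1 + 1 / (2 * kap Q al be ga)) * (1 + 1 / z.im) := by
  have hk := kap_pos hQ ha hD
  have hs := summable_th hQ ha hD hz
  have hpos : 0 < 2 * z.im * kap Q al be ga := by positivity
  have hs2 := summable_prod_pi (d := Fin 2)
    (fun _ (n : ℤ) => Real.exp (-π * (2 * z.im * kap Q al be ga) * (n : ℝ) ^ 2))
    (fun _ _ => (Real.exp_pos _).le) (fun _ => summable_gauss hpos)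
  have h1 : ‖th Q al be ga z‖ ≤ ∑' k : Fin 2 → ℤ,
      ∏ i, Real.exp (-π * (2 * z.im * kap Q al be ga) * (k i : ℝ) ^ 2) := by
    unfold th
    exact tsum_of_norm_bounded hs2.hasSum (norm_term_le hQ ha hD hz)
  refine h1.trans ((tsum_prod_pi_le _ (fun _ _ => (Real.exp_pos _).le)
    (fun _ => summable_gauss hpos)).trans ?_)
  rw [Finset.prod_const, Finset.card_univ, Fintype.card_fin]
  refine (tsum_gauss_sq_le hpos).trans ?_
  rw [mul_assoc (C0 ^ 2)]
  apply mul_le_mul_of_nonneg_left _ (sq_nonneg _)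
  have e : 1 / (2 * z.im * kap Q al be ga) = (1 / (2 * kap Q al be ga)) * (1 / z.im) := by
    field_simp
  rw [e]
  have h3 : 0 < 1 / (2 * kap Q al be ga) := by positivity
  have h4 : 0 < 1 / z.im := by positivity
  nlinarith

include hQ ha hD in
theorem differentiableAt_th {z : ℂ} (hz : 0 < z.im) : DifferentiableAt ℂ (th Q al be ga) z := by
  have hk := kap_pos hQ ha hD
  set δ := z.im / 2 with hδ
  have hδ0 : 0 < δ := by positivity
  have hopen : IsOpen {u : ℂ | δ < u.im} := isOpen_lt continuous_const Complex.continuous_im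
  have hpos : 0 < 2 * δ * kap Q al be ga := by positivity
  have hs2 := summable_prod_pi (d := Fin 2)
    (fun _ (n : ℤ) => Real.exp (-π * (2 * δ * kap Q al be ga) * (n : ℝ) ^ 2))
    (fun _ _ => (Real.exp_pos _).le) (fun _ => summable_gauss hpos)
  have h2 : DifferentiableOn ℂ (th Q al be ga) {u : ℂ | δ < u.im} := by
    refine differentiableOn_tsum_of_summable_norm hs2 (fun n => ?_) hopen (fun n u hu => ?_)
    · intro u _
      apply DifferentiableAt.differentiableWithinAt
      fun_prop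
    · have hu' : δ < u.im := hu
      refine (norm_term_le hQ ha hD (hδ0.trans hu') n).trans ?_
      apply Finset.prod_le_prod (fun i _ => (Real.exp_pos _).le)
      intro i _
      apply Real.exp_le_exp.mpr
      have h3 : 0 ≤ π * kap Q al be ga * (n i : ℝ) ^ 2 := by positivity
      nlinarith
  exact h2.differentiableAt (hopen.mem_nhds (show δ < z.im by rw [hδ]; linarith))

/-- the binary theta function on the upper half plane -/
noncomputable def thH (Q al be ga : ℤ) (z : ℍ) : ℂ := th Q al be ga z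

include hQ ha hD in
theorem mdiff_thH : MDiff (thH Q al be ga) := by
  rw [UpperHalfPlane.mdifferentiable_iff]
  intro z hz
  refine DifferentiableWithinAt.congr_of_eventuallyEq
    (differentiableAt_th hQ ha hD hz).differentiableWithinAt ?_ ?_
  · filter_upwards [self_mem_nhdsWithin] with u hu
    rw [Function.comp_apply, thH, ofComplex_apply_of_im_pos hu]
  · rw [Function.comp_apply, thH, ofComplex_apply_of_im_pos hz]

theorem th_add_one (z : ℂ) : th Q al be ga (z + 1) = th Q al be ga z := by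
  unfold th
  apply tsum_congr
  intro k
  rw [Complex.exp_eq_exp_iff_exists_int]
  exact ⟨Q * bz al be ga k, by push_cast; ring⟩

theorem th_add_int (z : ℂ) (n : ℤ) : th Q al be ga (z + n) = th Q al be ga z := by
  unfold th
  apply tsum_congr
  intro k
  rw [Complex.exp_eq_exp_iff_exists_int]
  exact ⟨n * (Q * bz al be ga k), by push_cast; ring⟩

end

end Fermat.Agent.TwoAdic
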