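import Fermat.Agent.TwoAdic.ThetaD

set_option autoImplicit false

/-! # Products of two binary theta functions are modular forms of weight two -/

namespace Fermat.Agent.TwoAdic

open MeasureTheory Complex Topology Fermat.Agent.LT CongruenceSubgroup Fermat.Agent.IntStr
open UpperHalfPlane hiding I
open scoped Real ComplexConjugate Manifold MatrixGroups ModularForm

section

variable {Q al be ga Q' al' be' ga' : ℤ} (hQ : 0 < Q) (ha : 0 < al) (hD : 0 < 4 * al * ga - be ^ 2)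
  (hQ' : 0 < Q') (ha' : 0 < al') (hDD : 4 * al' * ga' - be' ^ 2 = 4 * al * ga - be ^ 2)
  (h2 : 2 ∣ 4 * al * ga - be ^ 2)

/-- the product of two theta functions -/
noncomputable def thP (Q al be ga Q' al' be' ga' : ℤ) : ℍ → ℂ :=
  thH Q al be ga * thH Q' al' be' ga'

theorem thP_apply (z : ℍ) : thP Q al be ga Q' al' be' ga' z =
    th Q al be ga z * th Q' al' be' ga' z := rfl

include hQ ha hD hQ' ha' hDD h2 in
/-- invariance for `d` a positive prime -/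
theorem thP_prime (γ : SL(2, ℤ)) (p : ℕ) (hp : p.Prime) (hd : γ 1 1 = p)
    (hc : (4 * al * ga - be ^ 2) * Q * Q' ∣ γ 1 0) (z : ℍ) :
    thP Q al be ga Q' al' be' ga' (γ • z) =
      ((γ 1 0 : ℂ) * z + (γ 1 1 : ℂ)) ^ (2 : ℤ) * thP Q al be ga Q' al' be' ga' z := by
  haveI : Fact p.Prime := ⟨hp⟩
  haveI : NeZero p := ⟨hp.ne_zero⟩
  have hdet : γ 0 0 * γ 1 1 - γ 0 1 * γ 1 0 = 1 := by
    have := γ.det_coe
    rwa [Matrix.det_fin_two] at this
  obtain ⟨f, hf⟩ := hc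
  have hc1 : γ 1 0 = Q * (4 * al * ga - be ^ 2) * (Q' * f) := by rw [hf]; ring
  have hc2 : γ 1 0 = Q' * (4 * al' * ga' - be' ^ 2) * (Q * f) := by rw [hf, hDD]; ring
  have hdetZ : (γ 0 1 : ZMod p) * (γ 1 0 : ZMod p) = -1 := by
    have h1 : ((γ 0 0 * γ 1 1 - γ 0 1 * γ 1 0 : ℤ) : ZMod p) = ((1 : ℤ) : ZMod p) := by rw [hdet]
    rw [hd] at h1
    push_cast at h1
    rw [ZMod.natCast_self, mul_zero, zero_sub] at h1
    rw [← neg_eq_iff_eq_neg]
    exact h1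
  have hbc : (γ 0 1 : ZMod p) * (γ 1 0 : ZMod p) ≠ 0 := by
    rw [hdetZ]; exact neg_ne_zero.mpr one_ne_zero
  have hb0 : (γ 0 1 : ZMod p) ≠ 0 := left_ne_zero_of_mul hbc
  have hc0 : (γ 1 0 : ZMod p) ≠ 0 := right_ne_zero_of_mul hbc
  rw [hf] at hc0
  push_cast at hc0
  have hδ0 : (4 * (al : ZMod p) * ga - be ^ 2) ≠ 0 := by
    intro h; apply hc0; rw [h]; ring
  have hQ0 : (Q : ZMod p) ≠ 0 := by
    intro h; apply hc0; rw [h]; ring
  have hQ'0 : (Q' : ZMod p) ≠ 0 := by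
    intro h; apply hc0; rw [h]; ring
  have hp2 : p ≠ 2 := by
    rintro rfl
    apply hδ0
    obtain ⟨k, hk⟩ := h2
    have : ((4 * al * ga - be ^ 2 : ℤ) : ZMod 2) = ((2 * k : ℤ) : ZMod 2) := by rw [hk]
    push_cast at this
    rw [this]
    have : (2 : ZMod 2) = 0 := by exact_mod_cast ZMod.natCast_self 2
    rw [this, zero_mul]
  have hgs : gs p ((γ 0 1 * Q : ℤ) : ZMod p) al be ga * gs p ((γ 0 1 * Q' : ℤ) : ZMod p) al' be' ga' =
      (p : ℂ) ^ 2 := by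
    apply gs_mul_gs hp2
    · push_cast; exact mul_ne_zero hb0 hQ0
    · push_cast; exact mul_ne_zero hb0 hQ'0
    · intro h; apply hδ0; linear_combination -h
    · have : ((4 * al' * ga' - be' ^ 2 : ℤ) : ZMod p) = ((4 * al * ga - be ^ 2 : ℤ) : ZMod p) := by
        rw [hDD]
      push_cast at this
      linear_combination -this
  have hsm : ((γ • z : ℍ) : ℂ) = ((γ 0 0 : ℂ) * z + (γ 0 1 : ℂ)) / ((γ 1 0 : ℂ) * z + (p : ℂ)) := by
    rw [UpperHalfPlane.specialLinearGroup_apply]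
    simp [hd]
  rw [thP_apply, thP_apply, hsm]
  have hdet' : γ 0 0 * (p : ℤ) - γ 0 1 * γ 1 0 = 1 := by rw [← hd]; exact hdet
  rw [th_transform hQ ha hD hdet' hc1 z.im_pos,
    th_transform hQ' ha' (hDD ▸ hD) hdet' hc2 z.im_pos, hd]
  have hp0 : (p : ℂ) ≠ 0 := by exact_mod_cast hp.ne_zero
  generalize gs p ((γ 0 1 * Q : ℤ) : ZMod p) al be ga = G1 at hgs ⊢
  generalize gs p ((γ 0 1 * Q' : ℤ) : ZMod p) al' be' ga' = G2 at hgs ⊢
  push_cast
  rw [zpow_ofNat]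
  field_simp
  linear_combination ((γ 1 0 : ℂ) * z + p) ^ 2 * th Q al be ga z * th Q' al' be' ga' z * hgs

theorem thP_T (z : ℍ) (n : ℤ) : thP Q al be ga Q' al' be' ga' (ModularGroup.T ^ n • z) =
    thP Q al be ga Q' al' be' ga' z := by
  rw [thP_apply, thP_apply, ModularGroup.coe_T_zpow_smul_eq, th_add_int, th_add_int]

include hQ ha hD hQ' ha' hDD h2 in
theorem thP_slash {M : ℕ} (hM : (M : ℤ) = (4 * al * ga - be ^ 2) * Q * Q') (γ : SL(2, ℤ))
    (hγ : γ ∈ Gamma0 M) :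
    thP Q al be ga Q' al' be' ga' ∣[(2 : ℤ)] γ = thP Q al be ga Q' al' be' ga' := by
  have hc : (4 * al * ga - be ^ 2) * Q * Q' ∣ γ 1 0 := by
    rw [← hM, ← ZMod.intCast_zmod_eq_zero_iff_dvd]
    exact Gamma0_mem.mp hγ
  funext z
  rw [ModularForm.slash_action_eq'_iff]
  by_cases hc0 : γ 1 0 = 0
  · -- upper triangular
    have hdet : γ 0 0 * γ 1 1 = 1 := by
      have := γ.det_coe
      rw [Matrix.det_fin_two, hc0, mul_zero, sub_zero] at this
      exact this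
    have hsq : (γ 1 1 : ℂ) ^ 2 = 1 := by
      rcases Int.mul_eq_one_iff_eq_one_or_neg_one.mp hdet with ⟨_, h⟩ | ⟨_, h⟩ <;> rw [h] <;> norm_num
    have hz : ((γ • z : ℍ) : ℂ) = (z : ℂ) + ((γ 0 0 * γ 0 1 : ℤ) : ℂ) := by
      rw [UpperHalfPlane.specialLinearGroup_apply]
      rcases Int.mul_eq_one_iff_eq_one_or_neg_one.mp hdet with ⟨h1, h⟩ | ⟨h1, h⟩ <;>
        simp [hc0, h1, h] <;> ring
    rw [thP_apply, thP_apply, hz, th_add_int, th_add_int, hc0, Int.cast_zero, zero_mul, zero_add,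
      zpow_ofNat, hsq, one_mul]
  · -- general case: make `d` a prime
    have hcop : IsCoprime (γ 1 1) ((γ 1 0).natAbs : ℤ) := by
      have hdet : γ 0 0 * γ 1 1 - γ 0 1 * γ 1 0 = 1 := by
        have := γ.det_coe
        rwa [Matrix.det_fin_two] at this
      have h1 : IsCoprime (γ 1 1) (γ 1 0) := ⟨γ 0 0, -γ 0 1, by linarith⟩
      rw [Int.natCast_natAbs]
      exact (IsCoprime.abs_right_iff _ _).mpr h1
    haveI : NeZero (γ 1 0).natAbs := ⟨Int.natAbs_ne_zero.mpr hc0⟩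
    have hunit : IsUnit ((γ 1 1 : ℤ) : ZMod (γ 1 0).natAbs) := by
      rwa [ZMod.coe_int_isUnit_iff_isCoprime, isCoprime_comm]
    obtain ⟨p, -, hp, hpe⟩ := Nat.forall_exists_prime_gt_and_eq_mod hunit 0
    obtain ⟨n, hn⟩ : ∃ n : ℤ, (p : ℤ) = γ 1 1 + γ 1 0 * n := by
      have h1 : ((p : ℤ) : ZMod (γ 1 0).natAbs) = ((γ 1 1 : ℤ) : ZMod (γ 1 0).natAbs) := by
        exact_mod_cast hpe
      rw [ZMod.intCast_eq_intCast_iff_dvd_sub] at h1
      obtain ⟨n, hn⟩ := Int.natAbs_dvd.mp h1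
      exact ⟨-n, by linarith⟩
    set γ' : SL(2, ℤ) := γ * ModularGroup.T ^ n with hγ'
    have h10 : γ' 1 0 = γ 1 0 := by
      rw [hγ', Matrix.SpecialLinearGroup.coe_mul, ModularGroup.coe_T_zpow, Matrix.mul_apply,
        Fin.sum_univ_two]
      simp
    have h11 : γ' 1 1 = p := by
      rw [hγ', Matrix.SpecialLinearGroup.coe_mul, ModularGroup.coe_T_zpow, Matrix.mul_apply,
        Fin.sum_univ_two, hn]
      simp; ring
    set w : ℍ := ModularGroup.T ^ (-n) • z with hw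
    have hgw : γ' • w = γ • z := by
      rw [hγ', hw, smul_smul, mul_assoc, ← zpow_add, add_neg_cancel, zpow_zero, mul_one]
    have h1 := thP_prime hQ ha hD hQ' ha' hDD h2 γ' p hp h11 (by rw [h10]; exact hc) w
    rw [hgw, hw, thP_T] at h1
    rw [h1, ModularGroup.coe_T_zpow_smul_eq, h10, h11]
    congr 2
    have hnC : (p : ℂ) = γ 1 1 + γ 1 0 * n := by exact_mod_cast hn
    push_cast
    rw [hnC]
    ring

include hQ ha hD hQ' ha' hDD in
theorem thP_bound : ∃ C : ℝ, 0 ≤ C ∧ ∀ z : ℍ,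
    ‖thP Q al be ga Q' al' be' ga' z‖ ≤ C * (1 + 1 / z.im) ^ 2 := by
  have hk := kap_pos hQ ha hD
  have hk' := kap_pos hQ' ha' (hDD ▸ hD)
  refine ⟨(C0 ^ 2 * (1 + 1 / (2 * kap Q al be ga))) * (C0 ^ 2 * (1 + 1 / (2 * kap Q' al' be' ga'))),
    by positivity, fun z => ?_⟩
  rw [thP_apply, norm_mul]
  have h1 := norm_th_le hQ ha hD z.im_pos
  have h2 := norm_th_le hQ' ha' (hDD ▸ hD) z.im_pos
  refine (mul_le_mul h1 h2 (norm_nonneg _) ((norm_nonneg _).trans h1)).trans (le_of_eq ?_)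
  rw [UpperHalfPlane.coe_im]
  ring

include hQ ha hD hQ' ha' hDD h2 in
theorem thP_bdd {M : ℕ} [NeZero M] (hM : (M : ℤ) = (4 * al * ga - be ^ 2) * Q * Q') (γ : SL(2, ℤ)) :
    IsBoundedAtImInfty (thP Q al be ga Q' al' be' ga' ∣[(2 : ℤ)] γ) := by
  obtain ⟨C, hC0, hC⟩ := thP_bound hQ ha hD hQ' ha' hDD
  set F := thP Q al be ga Q' al' be' ga' with hF
  -- periodicity
  have hper : ∀ (n : ℤ) (z : ℍ), (F ∣[(2 : ℤ)] γ) (ModularGroup.T ^ ((M : ℤ) * n) • z) =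
      (F ∣[(2 : ℤ)] γ) z := by
    intro n z
    have hmem : γ * ModularGroup.T ^ ((M : ℤ) * n) * γ⁻¹ ∈ Gamma0 M := by
      rw [Gamma0_mem]
      have e : ((γ * ModularGroup.T ^ ((M : ℤ) * n) * γ⁻¹ : SL(2, ℤ)) 1 0) =
          -(M * n) * (γ 1 0) ^ 2 := by
        rw [Matrix.SpecialLinearGroup.coe_mul, Matrix.SpecialLinearGroup.coe_mul,
          ModularGroup.coe_T_zpow, Matrix.SpecialLinearGroup.SL2_inv_expl]
        simp [Matrix.mul_apply, Fin.sum_univ_two]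
        ring
      rw [e]
      push_cast
      simp
    have h1 := thP_slash hQ ha hD hQ' ha' hDD h2 hM _ hmem
    rw [← hF] at h1
    have h2 : F ∣[(2 : ℤ)] (γ * ModularGroup.T ^ ((M : ℤ) * n)) = F ∣[(2 : ℤ)] γ := by
      have : γ * ModularGroup.T ^ ((M : ℤ) * n) =
          (γ * ModularGroup.T ^ ((M : ℤ) * n) * γ⁻¹) * γ := by group
      rw [this, SlashAction.slash_mul, h1]
    have h3 := congrFun h2 z
    rw [SlashAction.slash_mul, ModularForm.SL_slash_apply] at h3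
    have h4 : denom (ModularGroup.T ^ ((M : ℤ) * n) : SL(2, ℤ)) z = 1 := by
      rw [ModularGroup.denom_apply, ModularGroup.coe_T_zpow]
      simp
    rw [h4, one_zpow, mul_one] at h3
    exact h3
  rw [isBoundedAtImInfty_iff]
  set B : ℝ := |(γ 1 0 : ℝ)| * (M + 1) + |(γ 1 1 : ℝ)| with hB
  refine ⟨C * (1 + B) ^ 2, 1, fun z hz => ?_⟩
  -- reduce to bounded real part
  have hM0 : (0 : ℝ) < M := by exact_mod_cast Nat.pos_of_ne_zero (NeZero.ne M)
  set n : ℤ := -⌊z.re / M⌋ with hn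
  rw [← hper n z]
  set w : ℍ := ModularGroup.T ^ ((M : ℤ) * n) • z with hw
  have hwre : w.re = z.re + M * n := by
    have := congrArg Complex.re (ModularGroup.coe_T_zpow_smul_eq (z := z) (n := (M : ℤ) * n))
    rw [UpperHalfPlane.coe_re, ← hw] at this
    rw [this]
    simp
  have hwim : w.im = z.im := by
    have := congrArg Complex.im (ModularGroup.coe_T_zpow_smul_eq (z := z) (n := (M : ℤ) * n))
    rw [UpperHalfPlane.coe_im, ← hw] at this
    rw [this]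
    simp
  have hre : |w.re| ≤ M := by
    have h1 := Int.floor_le (z.re / M)
    have h2 := Int.lt_floor_add_one (z.re / M)
    rw [le_div_iff₀ hM0] at h1
    rw [div_lt_iff₀ hM0] at h2
    rw [hwre, hn, abs_le]
    push_cast
    constructor <;> nlinarith
  have him : 1 ≤ w.im := by rw [hwim]; exact hz
  rw [ModularForm.SL_slash_apply, norm_mul, norm_zpow]
  set D : ℂ := denom γ w with hD'
  have hDval : D = (γ 1 0 : ℂ) * w + (γ 1 1 : ℂ) := by rw [hD', ModularGroup.denom_apply]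
  have hD0 : D ≠ 0 := denom_ne_zero _ _
  have hDpos : 0 < ‖D‖ := norm_pos_iff.mpr hD0
  have hD1 : 1 ≤ ‖D‖ := by
    by_cases hc : γ 1 0 = 0
    · have hdet : γ 0 0 * γ 1 1 = 1 := by
        have := γ.det_coe
        rw [Matrix.det_fin_two, hc, mul_zero, sub_zero] at this
        exact this
      rw [hDval, hc]
      rcases Int.mul_eq_one_iff_eq_one_or_neg_one.mp hdet with ⟨_, h⟩ | ⟨_, h⟩ <;> rw [h] <;> simp
    · have h1 : |D.im| ≤ ‖D‖ := Complex.abs_im_le_norm D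
      have h2 : D.im = γ 1 0 * w.im := by rw [hDval]; simp
      rw [h2, abs_mul, abs_of_pos w.im_pos] at h1
      have h3 : (1 : ℝ) ≤ |(γ 1 0 : ℝ)| := by
        rw [← Int.cast_abs]
        exact_mod_cast Int.one_le_abs hc
      nlinarith
  have hDle : ‖D‖ ≤ B * w.im := by
    rw [hDval, hB]
    have h1 : ‖(w : ℂ)‖ ≤ M + w.im := by
      refine (Complex.norm_le_abs_re_add_abs_im _).trans ?_
      rw [UpperHalfPlane.coe_re, UpperHalfPlane.coe_im, abs_of_pos w.im_pos]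
      linarith
    have h2 : ‖(γ 1 0 : ℂ) * w + (γ 1 1 : ℂ)‖ ≤ |(γ 1 0 : ℝ)| * ‖(w : ℂ)‖ + |(γ 1 1 : ℝ)| := by
      refine (norm_add_le _ _).trans (le_of_eq ?_)
      rw [norm_mul, Complex.norm_intCast, Complex.norm_intCast]
    have h3 : |(γ 1 0 : ℝ)| * ‖(w : ℂ)‖ ≤ |(γ 1 0 : ℝ)| * ((M + 1) * w.im) := by
      apply mul_le_mul_of_nonneg_left _ (abs_nonneg _)
      nlinarith
    have h4 : |(γ 1 1 : ℝ)| ≤ |(γ 1 1 : ℝ)| * w.im := by
      nlinarith [abs_nonneg (γ 1 1 : ℝ)]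
    nlinarith
  have him2 : (γ • w).im = w.im / ‖D‖ ^ 2 := by
    rw [ModularGroup.im_smul_eq_div_normSq, Complex.normSq_eq_norm_sq]
  refine (mul_le_mul_of_nonneg_right (hC _) (by positivity)).trans ?_
  rw [him2, zpow_neg, zpow_ofNat, mul_assoc]
  apply mul_le_mul_of_nonneg_left _ hC0
  rw [← inv_pow, ← mul_pow]
  apply pow_le_pow_left₀ (by have := w.im_pos; positivity)
  have hwpos := w.im_pos
  have e : (1 + 1 / (w.im / ‖D‖ ^ 2)) * ‖D‖⁻¹ = ‖D‖⁻¹ + ‖D‖ / w.im := by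
    field_simp
  rw [e]
  have h5 : ‖D‖⁻¹ ≤ 1 := inv_le_one_of_one_le₀ hD1
  have h6 : ‖D‖ / w.im ≤ B := by rwa [div_le_iff₀ hwpos]
  linarith

include hQ ha hD hQ' ha' hDD h2 in
/-- **The product of two binary theta functions is a modular form of weight two.** -/
theorem isMF_thP {M : ℕ} [NeZero M] (hM : (M : ℤ) = (4 * al * ga - be ^ 2) * Q * Q') :
    IsMF (Gamma0 M) 2 (thP Q al be ga Q' al' be' ga') where
  holo := (mdiff_thH hQ ha hD).mul (mdiff_thH hQ' ha' (hDD ▸ hD))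
  slash γ hγ := thP_slash hQ ha hD hQ' ha' hDD h2 hM γ hγ
  bdd γ := thP_bdd hQ ha hD hQ' ha' hDD h2 hM γ

end

end Fermat.Agent.TwoAdic
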