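import Fermat.Agent.TwoAdic.BlockF
import Fermat.Agent.TwoAdic.BlockE

/-!
# Finiteness of the set of newforms; valuation rings dominating a frame
-/

set_option autoImplicit false

open IsLocalRing Polynomial ModularFormClass

namespace Fermat.Agent.TwoAdic

/-- finitely many ring homomorphisms from a finite `ℤ`-algebra to `ℂ` -/
theorem finite_ringHom (T : Type*) [CommRing T] [Module.Finite ℤ T] : Finite (T →+* ℂ) := by
  let A := TensorProduct ℤ ℚ T
  have : FiniteDimensional ℚ A := inferInstance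
  have h1 : Finite (A →ₐ[ℚ] ℂ) := inferInstance
  let Φ : (T →+* ℂ) → (A →ₐ[ℚ] ℂ) := fun χ =>
    Algebra.TensorProduct.lift (Algebra.ofId ℚ ℂ) χ.toIntAlgHom (fun _ _ => mul_comm _ _)
  refine Finite.of_injective Φ fun χ χ' h => ?_
  ext t
  have h2 := DFunLike.congr_fun h ((1 : ℚ) ⊗ₜ[ℤ] t : A)
  have e : ∀ χ : T →+* ℂ, Φ χ ((1 : ℚ) ⊗ₜ[ℤ] t : A) = χ t := by
    intro χ
    refine (Algebra.TensorProduct.lift_tmul _ _ _ _ _).trans ?_
    rw [map_one, one_mul]
    rfl
  rwa [e, e] at h2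

/-- finitely many newforms -/
theorem finite_newforms (M : ℕ) [NeZero M] :
    {f : CuspForm (CongruenceSubgroup.Gamma0 M) 2 | f.IsNewform}.Finite := by
  classical
  have hfin : Module.Finite ℤ (CuspForm.heckeAlgebra M 2 (∅ : Set ℕ)) :=
    Eichler.moduleFinite_heckeAlgebra 2 ∅
  have h1 : Finite (CuspForm.heckeAlgebra M 2 (∅ : Set ℕ) →+* ℂ) := finite_ringHom _
  choose χ hχ using fun (f : {f : CuspForm (CongruenceSubgroup.Gamma0 M) 2 | f.IsNewform}) =>
    Eigenform.exists_eigenChar f.2.1 ∅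
  let Φ : {f : CuspForm (CongruenceSubgroup.Gamma0 M) 2 | f.IsNewform} →
      (CuspForm.heckeAlgebra M 2 (∅ : Set ℕ) →+* ℂ) := fun f =>
    (integralClosure ℤ ℂ).val.toRingHom.comp (χ f)
  have h2 : Function.Injective Φ := by
    intro f f' h
    apply Subtype.ext
    refine Newform.eq_of_newform M.primeFactors f'.2 f.2.1 ?_
    intro l hl hlM
    have hlM' : ¬ l ∣ M := fun h => hlM (Nat.mem_primeFactors.mpr ⟨hl, h, NeZero.ne M⟩)
    have key : ∀ f : {f : CuspForm (CongruenceSubgroup.Gamma0 M) 2 | f.IsNewform},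
        (χ f (CuspForm.heckeAlgebra.T hl hlM' (Set.notMem_empty l)) : ℂ) = qCoeff f l := by
      intro f
      have h3 := hχ f (CuspForm.heckeAlgebra.T hl hlM' (Set.notMem_empty l))
      rw [CuspForm.heckeAlgebra.coe_T, Eigenform.heckeTLin_eigen f.2.1 hl hlM'] at h3
      exact smul_left_injective ℂ (Eigenform.ne_zero_of_isNormalizedEigenform f.2.1) h3.symm
    rw [← key f, ← key f']
    exact DFunLike.congr_fun h (CuspForm.heckeAlgebra.T hl hlM' (Set.notMem_empty l))
  have h3 := Finite.of_injective Φ h2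
  exact Set.toFinite _

/-- there is a maximal ideal above `2` -/
theorem exists_maximal_two : ∃ 𝔪 : Ideal (integralClosure ℤ ℂ), 𝔪.IsMaximal ∧
    (2 : integralClosure ℤ ℂ) ∈ 𝔪 := by
  have h1 : (Ideal.span {(2 : integralClosure ℤ ℂ)}) ≠ ⊤ := by
    intro h
    rw [Ideal.span_singleton_eq_top] at h
    obtain ⟨u, hu⟩ := h.exists_right_inv
    have h2 : IsIntegral ℤ (u : ℂ) := u.2
    have h3 : (u : ℂ) = algebraMap ℚ ℂ (1 / 2) := by
      have h4 := congrArg (Subtype.val : integralClosure ℤ ℂ → ℂ) hu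
      have h5 : (2 : ℂ) * (u : ℂ) = 1 := h4
      rw [map_div₀, map_one, map_ofNat]
      field_simp
      linear_combination h5
    rw [h3, isIntegral_algebraMap_iff (algebraMap ℚ ℂ).injective] at h2
    obtain ⟨n, hn⟩ := IsIntegrallyClosed.isIntegral_iff.mp h2
    have h6 : (2 * n : ℚ) = 1 := by
      have : (n : ℚ) = 1 / 2 := hn
      rw [this]; norm_num
    have h7 : 2 * n = 1 := by exact_mod_cast h6
    omega
  obtain ⟨𝔪, h𝔪, hle⟩ := Ideal.exists_le_maximal _ h1
  exact ⟨𝔪, h𝔪, hle (Ideal.mem_span_singleton_self _)⟩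

/-- a valuation ring dominating a local ring inside `ℂ` -/
theorem exists_dominating_local {O : Type} [CommRing O] [IsLocalRing O] (j : O →+* ℂ)
    (hj : Function.Injective j) :
    ∃ (𝒱 : ValuationSubring ℂ) (jV : O →+* 𝒱) (κ : ResidueField O →+* ResidueField 𝒱),
      (∀ a, (jV a : ℂ) = j a) ∧ ∀ a, κ (residue O a) = residue 𝒱 (jV a) := by
  let D : Subring ℂ := j.range
  let e : O ≃+* D := RingEquiv.ofBijective j.rangeRestrict
    ⟨fun x y h => hj (congrArg Subtype.val h), j.rangeRestrict_surjective⟩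
  have hP : (maximalIdeal O).map (e : O →+* D) ≠ ⊤ := by
    intro h
    have h1 := congrArg (Ideal.comap (e : O →+* D)) h
    rw [Ideal.comap_map_of_bijective (e : O →+* D) e.bijective, Ideal.comap_top] at h1
    exact (maximalIdeal.isMaximal O).ne_top h1
  obtain ⟨𝒱, h1, h2⟩ := Ideal.image_subset_nonunits_valuationSubring
    (A := D) ((maximalIdeal O).map (e : O →+* D)) hP
  let jV : O →+* 𝒱 := (Subring.inclusion h1).comp j.rangeRestrict
  have hjV : ∀ a, (jV a : ℂ) = j a := fun a => rfl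
  have h3 : ∀ a ∈ maximalIdeal O, residue 𝒱 (jV a) = 0 := by
    intro a ha
    have h4 : j a ∈ 𝒱.nonunits := h2 ⟨e a, Ideal.mem_map_of_mem _ ha, rfl⟩
    obtain ⟨h5, h6⟩ := ValuationSubring.mem_nonunits_iff_exists_mem_maximalIdeal.1 h4
    rw [residue_eq_zero_iff]
    exact h6
  refine ⟨𝒱, jV, Ideal.Quotient.lift (maximalIdeal O) ((residue 𝒱).comp jV) h3, hjV, ?_⟩
  intro a
  rfl

end Fermat.Agent.TwoAdic
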